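/-
S40 (helper8), leaf TAME-VAL: valuation facts for the inertia group `I` of a place `A` of `ℚ̄`
over an odd prime `p`, consumed by the E-side ((E-b)/(L4)/(E-d)) and the J-side ((AP)/(MAIN)):

* `h8_val_smul`   : `σ ∈ I → v (σ x) = v x`;
* `h8_val_unr`    : `a ≠ 0` fixed by `I`  ⟹  `v a = v p ^ m` for some `m : ℤ`;
* `h8_cyc_surj`, `h8_exists_inertia_gen` : the mod `p` cyclotomic character is ONTO on `I`;
* `h8_val_tame`   : `c ≠ 0` fixed by `I' = {σ ∈ I | σ ζ = ζ}`  ⟹  `v c = v (ζ - 1) ^ n`;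
* `h8_val_p`, `h8_val_zeta_pow`, `h8_val_zeta_lt`, `h8_zeta_quot` : the uniformiser `ζ - 1`.
-/
import Mathlib
import Fermat.Agent.S33.h14_Unr
import Fermat.Agent.S33.h14_OrdAlg
import Fermat.Agent.S05.h26_Inertia
import Fermat.Agent.S05.InertiaVal

set_option autoImplicit false
set_option linter.unusedSectionVars false
set_option linter.style.haveILetI false

namespace Fermat.Agent.S40

open Fermat.Agent.S33 Fermat.Agent.S05

local notation "Qb" => AlgebraicClosure ℚ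
local notation "Γℚ" => (AlgebraicClosure ℚ ≃ₐ[ℚ] AlgebraicClosure ℚ)

/-! ### (T0) inertia preserves the valuation -/

/-- inertia elements preserve the order of valuations. -/
theorem h8_val_le_iff (A : ValuationSubring Qb) {σ : Γℚ} (hσ : σ ∈ A.inertiaSubgroupIn ℚ)
    (x y : Qb) : A.valuation (σ x) ≤ A.valuation (σ y) ↔ A.valuation x ≤ A.valuation y := by
  by_cases hy : y = 0
  · subst hy
    rw [map_zero, map_zero, le_zero_iff, le_zero_iff, map_eq_zero, map_eq_zero, map_eq_zero]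
  · have hσy : σ y ≠ 0 := fun h => hy ((map_eq_zero_iff σ σ.injective).1 h)
    have h1 : A.valuation (σ x) ≤ A.valuation (σ y) ↔ A.valuation (σ (x / y)) ≤ 1 := by
      rw [map_div₀, map_div₀, div_le_one₀ (zero_lt_iff.2 ((map_ne_zero _).2 hσy))]
    have h2 : A.valuation x ≤ A.valuation y ↔ A.valuation (x / y) ≤ 1 := by
      rw [map_div₀, div_le_one₀ (zero_lt_iff.2 ((map_ne_zero _).2 hy))]
    rw [h1, h2]
    exact (inertia_valuation A σ hσ).1 (x / y)

theorem h8_val_lt_iff (A : ValuationSubring Qb) {σ : Γℚ} (hσ : σ ∈ A.inertiaSubgroupIn ℚ)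
    (x y : Qb) : A.valuation (σ x) < A.valuation (σ y) ↔ A.valuation x < A.valuation y := by
  rw [← not_le, ← not_le, h8_val_le_iff A hσ]

/-- **(T0)** inertia elements preserve the valuation. -/
theorem h8_val_smul (A : ValuationSubring Qb) {σ : Γℚ} (hσ : σ ∈ A.inertiaSubgroupIn ℚ)
    (x : Qb) : A.valuation (σ x) = A.valuation x := by
  classical
  -- a positive power of `σ` fixes `x`
  have hfin : ((minpoly ℚ x).rootSet Qb).Finite := Polynomial.rootSet_finite _ _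
  have hx : IsIntegral ℚ x := ((AlgebraicClosure.isAlgebraic ℚ).isAlgebraic x).isIntegral
  have hmem : ∀ n : ℕ, (σ ^ n) x ∈ (minpoly ℚ x).rootSet Qb := by
    intro n
    rw [Polynomial.mem_rootSet]
    refine ⟨minpoly.ne_zero hx, ?_⟩
    rw [← minpoly.algEquiv_eq (σ ^ n) x]
    exact minpoly.aeval _ _
  have : Finite ((minpoly ℚ x).rootSet Qb) := hfin
  obtain ⟨i, j, hij, hfij⟩ := Finite.exists_ne_map_eq_of_infinite
    (fun n : ℕ => (⟨(σ ^ n) x, hmem n⟩ : (minpoly ℚ x).rootSet Qb))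
  have hfij' : (σ ^ i) x = (σ ^ j) x := congrArg Subtype.val hfij
  -- WLOG i < j
  have key : ∀ i j : ℕ, i < j → (σ ^ i) x = (σ ^ j) x → ∃ k : ℕ, 0 < k ∧ (σ ^ k) x = x := by
    intro i j hlt h
    refine ⟨j - i, Nat.sub_pos_of_lt hlt, ?_⟩
    have h1 : (σ ^ j) x = (σ ^ i) ((σ ^ (j - i)) x) := by
      rw [← AlgEquiv.mul_apply, ← pow_add, Nat.add_sub_cancel' hlt.le]
    rw [h1] at h
    exact ((σ ^ i).injective h).symm
  obtain ⟨k, hk, hkx⟩ : ∃ k : ℕ, 0 < k ∧ (σ ^ k) x = x := by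
    rcases lt_or_gt_of_ne hij with h | h
    · exact key i j h hfij'
    · exact key j i h hfij'.symm
  have hpow : ∀ n : ℕ, σ ^ n ∈ A.inertiaSubgroupIn ℚ := fun n => pow_mem hσ n
  -- strict inequalities propagate along the orbit
  have up : ∀ y : Qb, A.valuation (σ y) < A.valuation y → ∀ n : ℕ, 0 < n →
      A.valuation ((σ ^ n) y) < A.valuation y := by
    intro y hy n hn
    induction n with
    | zero => exact absurd hn (lt_irrefl 0)
    | succ n ih =>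
      rcases Nat.eq_zero_or_pos n with h0 | hpos
      · subst h0; simpa using hy
      · have h1 : A.valuation ((σ ^ (n + 1)) y) < A.valuation ((σ ^ n) y) := by
          have : (σ ^ (n + 1)) y = (σ ^ n) (σ y) := by
            rw [pow_succ, AlgEquiv.mul_apply]
          rw [this]
          exact (h8_val_lt_iff A (hpow n) _ _).2 hy
        exact h1.trans (ih hpos)
  have down : ∀ y : Qb, A.valuation y < A.valuation (σ y) → ∀ n : ℕ, 0 < n →
      A.valuation y < A.valuation ((σ ^ n) y) := by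
    intro y hy n hn
    induction n with
    | zero => exact absurd hn (lt_irrefl 0)
    | succ n ih =>
      rcases Nat.eq_zero_or_pos n with h0 | hpos
      · subst h0; simpa using hy
      · have h1 : A.valuation ((σ ^ n) y) < A.valuation ((σ ^ (n + 1)) y) := by
          have : (σ ^ (n + 1)) y = (σ ^ n) (σ y) := by
            rw [pow_succ, AlgEquiv.mul_apply]
          rw [this]
          exact (h8_val_lt_iff A (hpow n) _ _).2 hy
        exact (ih hpos).trans h1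
  rcases lt_trichotomy (A.valuation (σ x)) (A.valuation x) with h | h | h
  · have := up x h k hk
    rw [hkx] at this
    exact absurd this (lt_irrefl _)
  · exact h
  · have := down x h k hk
    rw [hkx] at this
    exact absurd this (lt_irrefl _)

/-! ### (T1) the value group of the inertia field -/

variable (p : ℕ) [Fact p.Prime]

theorem h8_val_p_pos (A : ValuationSubring Qb) : 0 < A.valuation (p : Qb) := by
  have hp : p.Prime := Fact.out
  exact zero_lt_iff.2 ((map_ne_zero _).2 (Nat.cast_ne_zero.2 hp.ne_zero))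

theorem h8_val_p_lt (A : ValuationSubring Qb) (hA : A.LiesOverPrime p) :
    A.valuation (p : Qb) < 1 :=
  (ValuationSubring.mem_nonunits_iff A).1 hA

/-- the valuation of a nonzero integer is a power of `v p`. -/
theorem h8_val_int (A : ValuationSubring Qb) (hA : A.LiesOverPrime p) (y : ℤ) (hy : y ≠ 0) :
    ∃ e : ℕ, A.valuation (y : Qb) = A.valuation (p : Qb) ^ e := by
  have hp : p.Prime := Fact.out
  obtain ⟨e, n', hn', h⟩ := Nat.exists_eq_pow_mul_and_not_dvd (Int.natAbs_ne_zero.2 hy) p hp.ne_one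
  refine ⟨e, ?_⟩
  have h1 : A.valuation ((y.natAbs : ℕ) : Qb) = A.valuation (p : Qb) ^ e := by
    rw [h, Nat.cast_mul, Nat.cast_pow, map_mul, map_pow,
      valuation_natCast_eq_one A p hp hA n' hn', mul_one]
  rcases Int.natAbs_eq y with h2 | h2
  · rw [← h1]
    conv_lhs => rw [h2]
    rw [Int.cast_natCast]
  · rw [← h1]
    conv_lhs => rw [h2]
    rw [Int.cast_neg, Int.cast_natCast, Valuation.map_neg]

/-- integral case of (T1), with an explicit bound. -/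
theorem h8_val_unr_aux (A : ValuationSubring Qb) (hA : A.LiesOverPrime p) (e : ℕ) :
    ∀ a : Qb, a ∈ A → a ≠ 0 → (∀ σ ∈ A.inertiaSubgroupIn ℚ, σ a = a) →
      A.valuation (p : Qb) ^ e ≤ A.valuation a →
      ∃ m : ℕ, A.valuation a = A.valuation (p : Qb) ^ m := by
  induction e with
  | zero =>
    intro a haA _ _ hle
    refine ⟨0, ?_⟩
    rw [pow_zero] at hle ⊢
    exact le_antisymm ((A.valuation_le_one_iff a).2 haA) hle
  | succ e ih =>
    intro a haA ha0 hfix hle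
    by_cases ham : a ∈ A.nonunits
    · obtain ⟨b, hbA, hab, hbfix⟩ := h14_unr p A hA a ham hfix
      have hb0 : b ≠ 0 := by
        rintro rfl
        exact ha0 (by rw [hab, mul_zero])
      have hle' : A.valuation (p : Qb) ^ e ≤ A.valuation b := by
        rw [hab, map_mul, pow_succ, mul_comm] at hle
        exact (mul_le_mul_iff_right₀ (h8_val_p_pos p A)).1 hle
      obtain ⟨m, hm⟩ := ih b hbA hb0 hbfix hle'
      refine ⟨m + 1, ?_⟩
      rw [hab, map_mul, hm, pow_succ, mul_comm]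
    · refine ⟨0, ?_⟩
      rw [pow_zero]
      rw [ValuationSubring.mem_nonunits_iff, not_lt] at ham
      exact le_antisymm ((A.valuation_le_one_iff a).2 haA) ham

/-- integral case of (T1). -/
theorem h8_val_unr_int (A : ValuationSubring Qb) (hA : A.LiesOverPrime p) (a : Qb)
    (haA : a ∈ A) (ha0 : a ≠ 0) (hfix : ∀ σ ∈ A.inertiaSubgroupIn ℚ, σ a = a) :
    ∃ m : ℕ, A.valuation a = A.valuation (p : Qb) ^ m := by
  have halg : IsAlgebraic ℤ a⁻¹ :=
    (IsFractionRing.isAlgebraic_iff ℤ ℚ Qb).2 ((AlgebraicClosure.isAlgebraic ℚ).isAlgebraic a⁻¹)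
  obtain ⟨y, hy0, hyint⟩ := halg.exists_integral_multiple
  have hmem : y • a⁻¹ ∈ A := h14_unr_mem_of_isIntegral A hyint
  obtain ⟨e, he⟩ := h8_val_int p A hA y hy0
  refine h8_val_unr_aux p A hA e a haA ha0 hfix ?_
  rw [← he]
  have h1 : A.valuation (y • a⁻¹) ≤ 1 := (A.valuation_le_one_iff _).2 hmem
  rw [zsmul_eq_mul, map_mul, map_inv₀, ← div_eq_mul_inv,
    div_le_one₀ (zero_lt_iff.2 ((map_ne_zero _).2 ha0))] at h1
  exact h1

/-- **(T1)** the value group of the inertia-fixed field is generated by `v p`. -/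
theorem h8_val_unr (A : ValuationSubring Qb) (hA : A.LiesOverPrime p) (a : Qb) (ha0 : a ≠ 0)
    (hfix : ∀ σ ∈ A.inertiaSubgroupIn ℚ, σ a = a) :
    ∃ m : ℤ, A.valuation a = A.valuation (p : Qb) ^ m := by
  rcases A.mem_or_inv_mem a with h | h
  · obtain ⟨m, hm⟩ := h8_val_unr_int p A hA a h ha0 hfix
    exact ⟨m, by rw [hm, zpow_natCast]⟩
  · obtain ⟨m, hm⟩ := h8_val_unr_int p A hA a⁻¹ h (inv_ne_zero ha0)
      (fun σ hσ => by rw [map_inv₀, hfix σ hσ])
    refine ⟨-(m : ℤ), ?_⟩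
    rw [map_inv₀] at hm
    rw [zpow_neg, zpow_natCast, ← hm, inv_inv]

/-! ### (T4) the uniformiser `ζ - 1` -/

theorem h8_zeta_mem (A : ValuationSubring Qb) (ζ : Qb) (hζ : IsPrimitiveRoot ζ p) : ζ ∈ A := by
  have hp : p.Prime := Fact.out
  refine h14_unr_mem_of_isIntegral A (IsIntegral.of_pow hp.pos ?_)
  rw [hζ.pow_eq_one]
  exact isIntegral_one

theorem h8_zeta_sub_one_ne (ζ : Qb) (hζ : IsPrimitiveRoot ζ p) : ζ - 1 ≠ 0 := by
  have hp : p.Prime := Fact.out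
  exact sub_ne_zero.2 (hζ.ne_one hp.one_lt)

/-- `v (ζ ^ j - 1) ≤ v (ζ - 1)`. -/
theorem h8_val_zeta_pow_le (A : ValuationSubring Qb) (ζ : Qb) (hζ : IsPrimitiveRoot ζ p)
    (j : ℕ) : A.valuation (ζ ^ j - 1) ≤ A.valuation (ζ - 1) := by
  rw [← geom_sum_mul ζ j, map_mul]
  have h1 : (∑ i ∈ Finset.range j, ζ ^ i) ∈ A :=
    sum_mem (fun i _ => pow_mem (h8_zeta_mem p A ζ hζ) i)
  exact mul_le_of_le_one_left' ((A.valuation_le_one_iff _).2 h1)

/-- **(T4)** `v (ζ ^ j - 1) = v (ζ - 1)` for `p ∤ j`. -/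
theorem h8_val_zeta_pow (A : ValuationSubring Qb) (ζ : Qb) (hζ : IsPrimitiveRoot ζ p)
    (j : ℕ) (hj : ¬ p ∣ j) : A.valuation (ζ ^ j - 1) = A.valuation (ζ - 1) := by
  have hp : p.Prime := Fact.out
  refine le_antisymm (h8_val_zeta_pow_le p A ζ hζ j) ?_
  -- `ζ = (ζ ^ j) ^ j'` with `j j' ≡ 1 mod p`
  have hcop : Nat.Coprime j p := (Nat.Coprime.symm ((Nat.Prime.coprime_iff_not_dvd hp).2 hj))
  have hζj : IsPrimitiveRoot (ζ ^ j) p := hζ.pow_of_coprime j hcop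
  obtain ⟨j', hj'⟩ : ∃ j' : ℕ, (ζ ^ j) ^ j' = ζ := by
    haveI : NeZero p := ⟨hp.ne_zero⟩
    obtain ⟨i, -, hi⟩ := hζj.eq_pow_of_pow_eq_one hζ.pow_eq_one
    exact ⟨i, hi⟩
  have := h8_val_zeta_pow_le p A (ζ ^ j) hζj j'
  rwa [hj'] at this

/-- **(T4)** `v p = v (ζ - 1) ^ (p - 1)`. -/
theorem h8_val_p (A : ValuationSubring Qb) (ζ : Qb) (hζ : IsPrimitiveRoot ζ p) :
    A.valuation (p : Qb) = A.valuation (ζ - 1) ^ (p - 1) := by
  have hp : p.Prime := Fact.out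
  have hprod : ∏ k ∈ Finset.range (p - 1), (1 - ζ ^ (k + 1)) = (p : Qb) := by
    have h1 : IsPrimitiveRoot ζ (p - 1 + 1) := by rwa [Nat.sub_add_cancel hp.one_le]
    rw [IsPrimitiveRoot.prod_one_sub_pow_eq_order h1]
    have h2 : ((p - 1 : ℕ) : Qb) + 1 = ((p - 1 + 1 : ℕ) : Qb) := by push_cast; ring
    rw [h2, Nat.sub_add_cancel hp.one_le]
  rw [← hprod, map_prod]
  rw [Finset.prod_congr rfl (g := fun _ => A.valuation (ζ - 1))]
  · rw [Finset.prod_const, Finset.card_range]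
  · intro k hk
    rw [Finset.mem_range] at hk
    have hnd : ¬ p ∣ k + 1 := fun h => by
      have := Nat.le_of_dvd (Nat.succ_pos k) h
      omega
    rw [← h8_val_zeta_pow p A ζ hζ (k + 1) hnd, ← Valuation.map_neg, neg_sub]

/-- **(T4)** `0 < v (ζ - 1) < 1`. -/
theorem h8_val_zeta_lt (hp2 : p ≠ 2) (A : ValuationSubring Qb) (hA : A.LiesOverPrime p) (ζ : Qb)
    (hζ : IsPrimitiveRoot ζ p) : 0 < A.valuation (ζ - 1) ∧ A.valuation (ζ - 1) < 1 := by
  refine ⟨zero_lt_iff.2 ((map_ne_zero _).2 (h8_zeta_sub_one_ne p ζ hζ)), ?_⟩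
  have h := h14_root_sub_one_mem p hp2 A hA ζ hζ.pow_eq_one
  rw [ValuationSubring.mem_nonunits_iff, ← Valuation.map_neg, neg_sub] at h
  exact h

/-- **(T4)** `(ζ ^ a - 1) / (ζ - 1) ≡ a` modulo the maximal ideal. -/
theorem h8_zeta_quot (hp2 : p ≠ 2) (A : ValuationSubring Qb) (hA : A.LiesOverPrime p) (ζ : Qb)
    (hζ : IsPrimitiveRoot ζ p) (a : ℕ) :
    A.valuation ((ζ ^ a - 1) / (ζ - 1) - (a : Qb)) < 1 := by
  have h0 := h8_zeta_sub_one_ne p ζ hζ
  have h1 : (ζ ^ a - 1) / (ζ - 1) - (a : Qb) = ∑ i ∈ Finset.range a, (ζ ^ i - 1) := by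
    rw [← geom_sum_mul ζ a, mul_div_assoc, div_self h0, mul_one, Finset.sum_sub_distrib,
      Finset.sum_const, Finset.card_range, nsmul_eq_mul, mul_one]
  rw [h1]
  refine Valuation.map_sum_lt _ one_ne_zero (fun i _ => ?_)
  have h := h14_root_sub_one_mem p hp2 A hA (ζ ^ i)
    (by rw [← pow_mul, mul_comm, pow_mul, hζ.pow_eq_one, one_pow])
  rw [ValuationSubring.mem_nonunits_iff, ← Valuation.map_neg, neg_sub] at h
  exact h

/-! ### (T2) the cyclotomic character is onto on inertia -/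

theorem h8_pow_mod (ζ : Qb) (hζ : IsPrimitiveRoot ζ p) (n : ℕ) : ζ ^ (n % p) = ζ ^ n := by
  have h := pow_mod_orderOf ζ n
  rwa [← hζ.eq_orderOf] at h

theorem h8_pow_val_mul (ζ : Qb) (hζ : IsPrimitiveRoot ζ p) (a b : ZMod p) :
    ζ ^ (a * b).val = (ζ ^ a.val) ^ b.val := by
  rw [ZMod.val_mul, h8_pow_mod p ζ hζ, pow_mul]

theorem h8_unit_val_not_dvd (u : (ZMod p)ˣ) : ¬ p ∣ (u : ZMod p).val := by
  have hp : p.Prime := Fact.out
  haveI : NeZero p := ⟨hp.ne_zero⟩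
  intro h
  have h1 : (u : ZMod p).val < p := ZMod.val_lt _
  have h2 : (u : ZMod p).val = 0 := Nat.eq_zero_of_dvd_of_lt h h1
  exact u.ne_zero ((ZMod.val_eq_zero _).1 h2)

/-- every inertia element acts on `ζ` through a unit of `ZMod p`. -/
theorem h8_exists_unit (ζ : Qb) (hζ : IsPrimitiveRoot ζ p) (σ : Γℚ) :
    ∃ u : (ZMod p)ˣ, σ ζ = ζ ^ (u : ZMod p).val := by
  have hp : p.Prime := Fact.out
  haveI : NeZero p := ⟨hp.ne_zero⟩
  obtain ⟨i, hi, hiζ⟩ := hζ.eq_pow_of_pow_eq_one (ξ := σ ζ)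
    (by rw [← map_pow, hζ.pow_eq_one, map_one])
  have hi0 : i ≠ 0 := by
    rintro rfl
    rw [pow_zero] at hiζ
    have h1 : σ ζ = σ 1 := by rw [← hiζ, map_one]
    exact hζ.ne_one hp.one_lt (σ.injective h1)
  have hcop : Nat.Coprime i p :=
    (Nat.Coprime.symm ((Nat.Prime.coprime_iff_not_dvd hp).2
      (fun h => hi0 (Nat.eq_zero_of_dvd_of_lt h hi))))
  refine ⟨ZMod.unitOfCoprime i hcop, ?_⟩
  rw [ZMod.coe_unitOfCoprime, ZMod.val_natCast, Nat.mod_eq_of_lt hi, hiζ]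

open Classical in
/-- **(T2)** the mod `p` cyclotomic character is onto on the inertia group (unit form). -/
theorem h8_cyc_surj_unit (hp2 : p ≠ 2) (A : ValuationSubring Qb) (hA : A.LiesOverPrime p)
    (ζ : Qb) (hζ : IsPrimitiveRoot ζ p) (u : (ZMod p)ˣ) :
    ∃ σ ∈ A.inertiaSubgroupIn ℚ, σ ζ = ζ ^ (u : ZMod p).val := by
  have hp : p.Prime := Fact.out
  haveI : NeZero p := ⟨hp.ne_zero⟩
  set S : Finset (ZMod p)ˣ :=
    Finset.univ.filter (fun u => ∃ σ ∈ A.inertiaSubgroupIn ℚ, σ ζ = ζ ^ (u : ZMod p).val) with hS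
  have hmemS : ∀ u : (ZMod p)ˣ, u ∈ S ↔
      ∃ σ ∈ A.inertiaSubgroupIn ℚ, σ ζ = ζ ^ (u : ZMod p).val := by
    intro u
    rw [hS, Finset.mem_filter]
    exact ⟨fun h => h.2, fun h => ⟨Finset.mem_univ _, h⟩⟩
  have hone : (1 : (ZMod p)ˣ) ∈ S := by
    rw [hmemS]
    refine ⟨1, one_mem _, ?_⟩
    rw [Units.val_one, ZMod.val_one, pow_one]
    rfl
  have hmul : ∀ t u : (ZMod p)ˣ, t ∈ S → u ∈ S → t * u ∈ S := by
    intro t u ht hu
    rw [hmemS] at ht hu ⊢
    obtain ⟨τ, hτ, hτζ⟩ := ht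
    obtain ⟨σ, hσ, hσζ⟩ := hu
    refine ⟨σ * τ, mul_mem hσ hτ, ?_⟩
    rw [AlgEquiv.mul_apply, hτζ, map_pow, hσζ, Units.val_mul, h8_pow_val_mul p ζ hζ,
      ← pow_mul, ← pow_mul, mul_comm]
  -- the product over `S`
  set N : Qb := ∏ u ∈ S, (ζ ^ (u : ZMod p).val - 1) with hN
  have hNfix : ∀ τ ∈ A.inertiaSubgroupIn ℚ, τ N = N := by
    intro τ hτ
    obtain ⟨t, ht⟩ := h8_exists_unit p ζ hζ τ
    have htS : t ∈ S := (hmemS t).2 ⟨τ, hτ, ht⟩
    have himg : S.image (fun u => t * u) = S := by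
      refine Finset.eq_of_subset_of_card_le ?_ ?_
      · intro w hw
        rw [Finset.mem_image] at hw
        obtain ⟨u, hu, rfl⟩ := hw
        exact hmul t u htS hu
      · rw [Finset.card_image_of_injective _ (mul_right_injective t)]
    rw [hN, map_prod]
    conv_rhs => rw [← himg]
    rw [Finset.prod_image (fun a _ b _ h => mul_right_injective t h)]
    refine Finset.prod_congr rfl (fun u _ => ?_)
    rw [map_sub, map_one, map_pow, ht, Units.val_mul, h8_pow_val_mul p ζ hζ]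
  have hN0 : N ≠ 0 := by
    rw [hN, Finset.prod_ne_zero_iff]
    intro u _
    rw [sub_ne_zero]
    intro h
    exact h8_unit_val_not_dvd p u ((hζ.pow_eq_one_iff_dvd _).1 h)
  have hvN : A.valuation N = A.valuation (ζ - 1) ^ S.card := by
    rw [hN, map_prod, Finset.prod_congr rfl (g := fun _ => A.valuation (ζ - 1))
      (fun u _ => h8_val_zeta_pow p A ζ hζ _ (h8_unit_val_not_dvd p u)), Finset.prod_const]
  obtain ⟨m, hm⟩ := h8_val_unr p A hA N hN0 hNfix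
  obtain ⟨hγ0, hγ1⟩ := h8_val_zeta_lt p hp2 A hA ζ hζ
  have hcard : (S.card : ℤ) = ((p - 1 : ℕ) : ℤ) * m := by
    have h1 : A.valuation (ζ - 1) ^ (S.card : ℤ) = A.valuation (ζ - 1) ^ (((p - 1 : ℕ) : ℤ) * m) := by
      rw [zpow_natCast, ← hvN, hm, h8_val_p p A ζ hζ, zpow_mul, zpow_natCast]
    exact zpow_right_injective₀ hγ0 (ne_of_lt hγ1) h1
  have hSpos : 0 < S.card := Finset.card_pos.2 ⟨1, hone⟩
  have hp1 : 0 < p - 1 := Nat.sub_pos_of_lt hp.one_lt
  have hm1 : 1 ≤ m := by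
    by_contra hlt
    rw [not_le] at hlt
    have h2 : ((p - 1 : ℕ) : ℤ) * m ≤ 0 :=
      mul_nonpos_of_nonneg_of_nonpos (Int.natCast_nonneg _) (by omega)
    have h3 : (0 : ℤ) < (S.card : ℤ) := by exact_mod_cast hSpos
    omega
  have hge : p - 1 ≤ S.card := by
    have h2 : ((p - 1 : ℕ) : ℤ) * 1 ≤ ((p - 1 : ℕ) : ℤ) * m :=
      mul_le_mul_of_nonneg_left hm1 (Int.natCast_nonneg _)
    rw [mul_one, ← hcard] at h2
    exact_mod_cast h2
  have huniv : S = Finset.univ := by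
    apply Finset.eq_univ_of_card
    rw [ZMod.card_units]
    exact le_antisymm (by rw [← ZMod.card_units p]; exact Finset.card_le_univ S) hge
  exact (hmemS u).1 (by rw [huniv]; exact Finset.mem_univ u)

/-- **(T2)** the mod `p` cyclotomic character is onto on the inertia group. -/
theorem h8_cyc_surj (hp2 : p ≠ 2) (A : ValuationSubring Qb) (hA : A.LiesOverPrime p)
    (ζ : Qb) (hζ : IsPrimitiveRoot ζ p) (j : ℕ) (hj : ¬ p ∣ j) :
    ∃ σ ∈ A.inertiaSubgroupIn ℚ, σ ζ = ζ ^ j := by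
  have hp : p.Prime := Fact.out
  have hcop : Nat.Coprime j p := (Nat.Coprime.symm ((Nat.Prime.coprime_iff_not_dvd hp).2 hj))
  obtain ⟨σ, hσ, h⟩ := h8_cyc_surj_unit p hp2 A hA ζ hζ (ZMod.unitOfCoprime j hcop)
  refine ⟨σ, hσ, ?_⟩
  rw [h, ZMod.coe_unitOfCoprime, ZMod.val_natCast, h8_pow_mod p ζ hζ]

/-- **(T2)** an inertia element whose cyclotomic character generates `(ℤ/p)ˣ`. -/
theorem h8_exists_inertia_gen (hp2 : p ≠ 2) (A : ValuationSubring Qb) (hA : A.LiesOverPrime p) :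
    ∃ σ0 ∈ A.inertiaSubgroupIn ℚ, ∃ a : ℕ, (∀ μ : Qb, μ ^ p = 1 → σ0 μ = μ ^ a) ∧
      orderOf (a : ZMod p) = p - 1 := by
  have hp : p.Prime := Fact.out
  haveI : NeZero p := ⟨hp.ne_zero⟩
  haveI : NeZero ((p : ℕ) : Qb) := ⟨Nat.cast_ne_zero.mpr hp.ne_zero⟩
  obtain ⟨ζ, hζ⟩ : ∃ ζ : Qb, IsPrimitiveRoot ζ p :=
    HasEnoughRootsOfUnity.exists_primitiveRoot Qb p
  obtain ⟨g, hg⟩ := IsCyclic.exists_generator (α := (ZMod p)ˣ)
  obtain ⟨σ0, hσ0, h⟩ := h8_cyc_surj_unit p hp2 A hA ζ hζ g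
  refine ⟨σ0, hσ0, (g : ZMod p).val, ?_, ?_⟩
  · intro μ hμ
    obtain ⟨i, -, rfl⟩ := hζ.eq_pow_of_pow_eq_one hμ
    rw [map_pow, h, ← pow_mul, ← pow_mul, mul_comm]
  · rw [ZMod.natCast_zmod_val, orderOf_units, orderOf_eq_card_of_forall_mem_zpowers hg,
      Nat.card_eq_fintype_card, ZMod.card_units]

/-! ### (T3) the value group of the tame field `ℚ̄^{I'}` -/

theorem h8_pow_inj_val (A : ValuationSubring Qb) (x y : A.ValueGroup) (n : ℕ) (hn : n ≠ 0)
    (h : x ^ n = y ^ n) : x = y := by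
  rcases lt_trichotomy x y with hlt | heq | hgt
  · exact absurd h (ne_of_lt (pow_lt_pow_left₀ hlt zero_le hn))
  · exact heq
  · exact absurd h.symm (ne_of_lt (pow_lt_pow_left₀ hgt zero_le hn))

/-- **(T3)** the value group of the field fixed by `I' = {σ ∈ I | σ ζ = ζ}` is generated by
`v (ζ - 1)`. -/
theorem h8_val_tame (hp2 : p ≠ 2) (A : ValuationSubring Qb) (hA : A.LiesOverPrime p)
    (ζ : Qb) (hζ : IsPrimitiveRoot ζ p) (c : Qb) (hc0 : c ≠ 0)
    (hfix : ∀ σ ∈ A.inertiaSubgroupIn ℚ, σ ζ = ζ → σ c = c) :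
    ∃ n : ℤ, A.valuation c = A.valuation (ζ - 1) ^ n := by
  classical
  have hp : p.Prime := Fact.out
  have hp1 : p - 1 ≠ 0 := Nat.sub_ne_zero_of_lt hp.one_lt
  choose s hsI hsζ using h8_cyc_surj_unit p hp2 A hA ζ hζ
  set N : Qb := ∏ u : (ZMod p)ˣ, s u c with hN
  have hNfix : ∀ τ ∈ A.inertiaSubgroupIn ℚ, τ N = N := by
    intro τ hτ
    obtain ⟨t, ht⟩ := h8_exists_unit p ζ hζ τ
    rw [hN, map_prod]
    refine Fintype.prod_equiv (Equiv.mulLeft t) _ _ (fun u => ?_)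
    -- `(s (t * u))⁻¹ * τ * s u` lies in `I'`
    have hmem : (s (t * u))⁻¹ * τ * s u ∈ A.inertiaSubgroupIn ℚ :=
      mul_mem (mul_mem (inv_mem (hsI _)) hτ) (hsI _)
    have hζfix : ((s (t * u))⁻¹ * τ * s u) ζ = ζ := by
      rw [AlgEquiv.mul_apply, AlgEquiv.mul_apply, hsζ u, map_pow, ht, ← h8_pow_val_mul p ζ hζ,
        ← Units.val_mul, ← hsζ (t * u)]
      exact (s (t * u)).symm_apply_apply ζ
    have h1 := hfix _ hmem hζfix
    rw [AlgEquiv.mul_apply, AlgEquiv.mul_apply] at h1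
    have h2 : τ (s u c) = s (t * u) c := by
      have h3 := congrArg (s (t * u)) h1
      rw [show (s (t * u)) ((s (t * u))⁻¹ (τ (s u c))) = τ (s u c) from
        (s (t * u)).apply_symm_apply _] at h3
      exact h3
    rw [h2]
    rfl
  have hN0 : N ≠ 0 := by
    rw [hN, Finset.prod_ne_zero_iff]
    intro u _
    exact fun h => hc0 ((map_eq_zero_iff (s u) (s u).injective).1 h)
  have hvN : A.valuation N = A.valuation c ^ (p - 1) := by
    rw [hN, map_prod, Finset.prod_congr rfl (g := fun _ => A.valuation c)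
      (fun u _ => h8_val_smul A (hsI u) c), Finset.prod_const, Finset.card_univ, ZMod.card_units]
  obtain ⟨m, hm⟩ := h8_val_unr p A hA N hN0 hNfix
  refine ⟨m, h8_pow_inj_val A _ _ (p - 1) hp1 ?_⟩
  rw [← hvN, hm, h8_val_p p A ζ hζ, ← zpow_natCast (A.valuation (ζ - 1) ^ m) (p - 1),
    ← zpow_mul, ← zpow_natCast (A.valuation (ζ - 1)) (p - 1), ← zpow_mul, mul_comm]

/-! ### convenience forms -/

/-- **(T4)** an inertia element multiplies `ζ - 1` by its cyclotomic character modulo `𝔪`. -/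
theorem h8_zeta_quot_smul (hp2 : p ≠ 2) (A : ValuationSubring Qb) (hA : A.LiesOverPrime p)
    (ζ : Qb) (hζ : IsPrimitiveRoot ζ p) (σ : Γℚ) (a : ℕ) (hσ : σ ζ = ζ ^ a) :
    A.valuation (σ (ζ - 1) / (ζ - 1) - (a : Qb)) < 1 := by
  have h1 : σ (ζ - 1) = ζ ^ a - 1 := by rw [map_sub, map_one, hσ]
  rw [h1]
  exact h8_zeta_quot p hp2 A hA ζ hζ a

/-- valuation one means unit. -/
theorem h8_unit_of_val_one (A : ValuationSubring Qb) (u : Qb) (hu : A.valuation u = 1) :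
    u ∈ A ∧ u⁻¹ ∈ A := by
  refine ⟨(A.valuation_le_one_iff u).1 (le_of_eq hu), (A.valuation_le_one_iff u⁻¹).1 ?_⟩
  rw [map_inv₀, hu, inv_one]

/-- **(T1)**, unit form: `a = p ^ m * u` with `u` a unit of `A`. -/
theorem h8_unr_unit (A : ValuationSubring Qb) (hA : A.LiesOverPrime p) (a : Qb) (ha0 : a ≠ 0)
    (hfix : ∀ σ ∈ A.inertiaSubgroupIn ℚ, σ a = a) :
    ∃ (m : ℤ) (u : Qb), u ∈ A ∧ u⁻¹ ∈ A ∧ a = (p : Qb) ^ m * u := by
  have hp : p.Prime := Fact.out
  have hp0 : (p : Qb) ≠ 0 := Nat.cast_ne_zero.2 hp.ne_zero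
  obtain ⟨m, hm⟩ := h8_val_unr p A hA a ha0 hfix
  have hpm : (p : Qb) ^ m ≠ 0 := zpow_ne_zero m hp0
  have hv : A.valuation (a / (p : Qb) ^ m) = 1 := by
    rw [map_div₀, map_zpow₀, hm]
    exact div_self (by rw [← map_zpow₀]; exact (map_ne_zero _).2 hpm)
  obtain ⟨h1, h2⟩ := h8_unit_of_val_one A _ hv
  exact ⟨m, a / (p : Qb) ^ m, h1, h2, by field_simp⟩

/-- **(T3)**, unit form: `c = (ζ - 1) ^ n * u` with `u` a unit of `A`. -/
theorem h8_tame_unit (hp2 : p ≠ 2) (A : ValuationSubring Qb) (hA : A.LiesOverPrime p)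
    (ζ : Qb) (hζ : IsPrimitiveRoot ζ p) (c : Qb) (hc0 : c ≠ 0)
    (hfix : ∀ σ ∈ A.inertiaSubgroupIn ℚ, σ ζ = ζ → σ c = c) :
    ∃ (n : ℤ) (u : Qb), u ∈ A ∧ u⁻¹ ∈ A ∧ c = (ζ - 1) ^ n * u := by
  have h0 := h8_zeta_sub_one_ne p ζ hζ
  obtain ⟨n, hn⟩ := h8_val_tame p hp2 A hA ζ hζ c hc0 hfix
  have hpn : (ζ - 1) ^ n ≠ 0 := zpow_ne_zero n h0
  have hv : A.valuation (c / (ζ - 1) ^ n) = 1 := by
    rw [map_div₀, map_zpow₀, hn]
    exact div_self (by rw [← map_zpow₀]; exact (map_ne_zero _).2 hpn)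
  obtain ⟨h1, h2⟩ := h8_unit_of_val_one A _ hv
  exact ⟨n, c / (ζ - 1) ^ n, h1, h2, by field_simp⟩

end Fermat.Agent.S40
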