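import Mathlib

/-!
# S40 / S36 node layer: local generators at a thickness-one node (helper31)

Abstract, Mathlib-only core of the layer (NODE-GEN).

`R` is the ring of rational integral functions regular off the polar divisor, `ϖ` the uniformiser
of the constants, `red : R → Rb` the reduction (`ker red = ϖ R`), `p₁, p₂ : Rb → Fb₁, Fb₂` the two
branches through the node `s`, `p' : Rb → Rb'` the other components.  `D₁, D₂` are the discrete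
valuations of `Fb₁, Fb₂` at the two points of `s` (order `ord` and value `ev`).

Main result `h31_node_gen`: for an ideal `M` of `R` (the functions vanishing on an effective
rational divisor) which is `ϖ`-saturated, finitely generated and stable under the operator
`φ ↦ b φ / ϖ` (defined on the elements supported on the second branch), there are `g ∈ M` and
`δ : R`, a unit at `s`, with `δ M ⊆ g R`: the divisor is Cartier at `s`.
-/

set_option autoImplicit false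

namespace Fermat.Agent.S40

/-- A discrete valuation with residue map on a `k`-algebra field `Fb`: an order function
`ord : Fb → ℤ` (junk at `0`) and a value map `ev : Fb → k` (junk off the regular elements). -/
structure h31_DV (k Fb : Type*) [Field k] [Field Fb] [Algebra k Fb] where
  /-- the order at the point -/
  ord : Fb → ℤ
  /-- the value at the point -/
  ev : Fb → k
  ord_mul : ∀ x y : Fb, x ≠ 0 → y ≠ 0 → ord (x * y) = ord x + ord y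
  ord_add : ∀ x y : Fb, x ≠ 0 → y ≠ 0 → x + y ≠ 0 → min (ord x) (ord y) ≤ ord (x + y)
  ev_zero : ev 0 = 0
  ev_add : ∀ x y : Fb, (x = 0 ∨ 0 ≤ ord x) → (y = 0 ∨ 0 ≤ ord y) → ev (x + y) = ev x + ev y
  ev_mul : ∀ x y : Fb, (x = 0 ∨ 0 ≤ ord x) → (y = 0 ∨ 0 ≤ ord y) → ev (x * y) = ev x * ev y
  ev_algebraMap : ∀ c : k, ev (algebraMap k Fb c) = c
  ord_algebraMap : ∀ c : k, c ≠ 0 → ord (algebraMap k Fb c) = 0
  ev_eq_zero : ∀ x : Fb, x ≠ 0 → 0 ≤ ord x → (ev x = 0 ↔ 0 < ord x)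

namespace h31_DV

variable {k Fb : Type*} [Field k] [Field Fb] [Algebra k Fb] (D : h31_DV k Fb)

/-- regular at the point -/
def Reg (x : Fb) : Prop := x = 0 ∨ 0 ≤ D.ord x

theorem reg_zero : D.Reg 0 := Or.inl rfl

theorem ord_one : D.ord 1 = 0 := by
  have h := D.ord_mul 1 1 one_ne_zero one_ne_zero
  rw [mul_one] at h
  omega

theorem ord_neg_one : D.ord (-1) = 0 := by
  have h := D.ord_mul (-1) (-1) (neg_ne_zero.mpr one_ne_zero) (neg_ne_zero.mpr one_ne_zero)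
  rw [neg_mul_neg, mul_one, D.ord_one] at h
  omega

theorem ord_neg (x : Fb) (hx : x ≠ 0) : D.ord (-x) = D.ord x := by
  have h := D.ord_mul (-1) x (neg_ne_zero.mpr one_ne_zero) hx
  rw [neg_one_mul, D.ord_neg_one, zero_add] at h
  exact h

theorem ord_inv (x : Fb) (hx : x ≠ 0) : D.ord x⁻¹ = - D.ord x := by
  have h := D.ord_mul x x⁻¹ hx (inv_ne_zero hx)
  rw [mul_inv_cancel₀ hx, D.ord_one] at h
  omega

theorem ord_div (x y : Fb) (hx : x ≠ 0) (hy : y ≠ 0) : D.ord (x / y) = D.ord x - D.ord y := by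
  rw [div_eq_mul_inv, D.ord_mul x y⁻¹ hx (inv_ne_zero hy), D.ord_inv y hy]
  ring

theorem ord_pow (x : Fb) (hx : x ≠ 0) (n : ℕ) : D.ord (x ^ n) = n * D.ord x := by
  induction n with
  | zero => simp [D.ord_one]
  | succ n ih =>
    rw [pow_succ, D.ord_mul _ _ (pow_ne_zero n hx) hx, ih]
    push_cast
    ring

/-- the order of a sum of two elements of different orders -/
theorem ord_add_of_lt (x y : Fb) (hx : x ≠ 0) (hy : y ≠ 0) (h : D.ord x < D.ord y) :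
    x + y ≠ 0 ∧ D.ord (x + y) = D.ord x := by
  have hne : x + y ≠ 0 := by
    intro h0
    have hxy : x = -y := eq_neg_of_add_eq_zero_left h0
    rw [hxy, D.ord_neg y hy] at h
    exact lt_irrefl _ h
  refine ⟨hne, le_antisymm ?_ ?_⟩
  · have h1 := D.ord_add (x + y) (-y) hne (neg_ne_zero.mpr hy) (by simpa using hx)
    rw [D.ord_neg y hy] at h1
    have h2 : x + y + -y = x := by ring
    rw [h2] at h1
    rcases min_le_iff.mp h1 with h3 | h3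
    · exact h3
    · omega
  · have h1 := D.ord_add x y hx hy hne
    rw [min_eq_left h.le] at h1
    exact h1

theorem reg_of_ne (x : Fb) (hx : x ≠ 0) : D.Reg x ↔ 0 ≤ D.ord x :=
  ⟨fun h => h.resolve_left hx, Or.inr⟩

theorem reg_mul {x y : Fb} (hx : D.Reg x) (hy : D.Reg y) : D.Reg (x * y) := by
  by_cases hx0 : x = 0
  · left; rw [hx0, zero_mul]
  by_cases hy0 : y = 0
  · left; rw [hy0, mul_zero]
  right
  rw [D.ord_mul x y hx0 hy0]
  have := hx.resolve_left hx0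
  have := hy.resolve_left hy0
  omega

theorem reg_add {x y : Fb} (hx : D.Reg x) (hy : D.Reg y) : D.Reg (x + y) := by
  by_cases hx0 : x = 0
  · rw [hx0, zero_add]; exact hy
  by_cases hy0 : y = 0
  · rw [hy0, add_zero]; exact hx
  by_cases hxy : x + y = 0
  · left; exact hxy
  right
  have h := D.ord_add x y hx0 hy0 hxy
  have := hx.resolve_left hx0
  have := hy.resolve_left hy0
  exact le_trans (le_min ‹_› ‹_›) h

theorem reg_neg {x : Fb} (hx : D.Reg x) : D.Reg (-x) := by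
  by_cases hx0 : x = 0
  · left; rw [hx0, neg_zero]
  right
  rw [D.ord_neg x hx0]
  exact hx.resolve_left hx0

theorem reg_sub {x y : Fb} (hx : D.Reg x) (hy : D.Reg y) : D.Reg (x - y) := by
  rw [sub_eq_add_neg]
  exact D.reg_add hx (D.reg_neg hy)

theorem reg_algebraMap (c : k) : D.Reg (algebraMap k Fb c) := by
  by_cases hc : c = 0
  · left; rw [hc, map_zero]
  right
  rw [D.ord_algebraMap c hc]

theorem ev_neg {x : Fb} (hx : D.Reg x) : D.ev (-x) = - D.ev x := by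
  have h := D.ev_add x (-x) hx (D.reg_neg hx)
  rw [add_neg_cancel, D.ev_zero] at h
  exact eq_neg_of_add_eq_zero_right h.symm

theorem ev_sub {x y : Fb} (hx : D.Reg x) (hy : D.Reg y) : D.ev (x - y) = D.ev x - D.ev y := by
  rw [sub_eq_add_neg, D.ev_add x (-y) hx (D.reg_neg hy), D.ev_neg hy, sub_eq_add_neg]

/-- a regular element with nonzero value is a unit at the point -/
theorem ord_eq_zero_of_ev_ne {x : Fb} (hx : D.Reg x) (h : D.ev x ≠ 0) : x ≠ 0 ∧ D.ord x = 0 := by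
  have hx0 : x ≠ 0 := by
    rintro rfl
    exact h D.ev_zero
  refine ⟨hx0, ?_⟩
  have h1 := hx.resolve_left hx0
  have h2 := (D.ev_eq_zero x hx0 h1).not.mp h
  omega

theorem ev_ne_of_ord_eq_zero {x : Fb} (hx0 : x ≠ 0) (h : D.ord x = 0) : D.ev x ≠ 0 := by
  intro h0
  have := (D.ev_eq_zero x hx0 (by omega)).mp h0
  omega

end h31_DV

section NodeGen

variable {R Rb k Fb₁ Fb₂ Rb' : Type*} [CommRing R] [CommRing Rb] [Field k] [Field Fb₁] [Field Fb₂]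
  [Algebra k Fb₁] [Algebra k Fb₂] [CommRing Rb']

/-- The value at the node as a ring homomorphism `R → k` (second branch). -/
def h31_evHom (D₂ : h31_DV k Fb₂) (red : R →+* Rb) (p₂ : Rb →+* Fb₂)
    (hreg₂ : ∀ r : R, D₂.Reg (p₂ (red r))) : R →+* k where
  toFun r := D₂.ev (p₂ (red r))
  map_one' := by
    rw [map_one, map_one, ← map_one (algebraMap k Fb₂)]
    exact D₂.ev_algebraMap 1
  map_mul' x y := by
    rw [map_mul, map_mul]
    exact D₂.ev_mul _ _ (hreg₂ x) (hreg₂ y)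
  map_zero' := by
    rw [map_zero, map_zero]
    exact D₂.ev_zero
  map_add' x y := by
    rw [map_add, map_add]
    exact D₂.ev_add _ _ (hreg₂ x) (hreg₂ y)

theorem h31_evHom_apply (D₂ : h31_DV k Fb₂) (red : R →+* Rb) (p₂ : Rb →+* Fb₂)
    (hreg₂ : ∀ r : R, D₂.Reg (p₂ (red r))) (r : R) :
    h31_evHom D₂ red p₂ hreg₂ r = D₂.ev (p₂ (red r)) := rfl

/-- **Minimal generator** (first half of (NODE-GEN)): an element of `M` whose two reductions have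
the minimal orders at the node. -/
theorem h31_exists_min
    (D₁ : h31_DV k Fb₁) (D₂ : h31_DV k Fb₂) (red : R →+* Rb)
    (p₁ : Rb →+* Fb₁) (p₂ : Rb →+* Fb₂)
    (hreg₁ : ∀ r : R, D₁.Reg (p₁ (red r))) (hreg₂ : ∀ r : R, D₂.Reg (p₂ (red r)))
    (M : Ideal R)
    (hM₁ : ∃ φ ∈ M, p₁ (red φ) ≠ 0) (hM₂ : ∃ φ ∈ M, p₂ (red φ) ≠ 0) :
    ∃ g ∈ M, p₁ (red g) ≠ 0 ∧ p₂ (red g) ≠ 0 ∧
      (∀ φ ∈ M, p₁ (red φ) ≠ 0 → D₁.ord (p₁ (red g)) ≤ D₁.ord (p₁ (red φ))) ∧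
      (∀ φ ∈ M, p₂ (red φ) ≠ 0 → D₂.ord (p₂ (red g)) ≤ D₂.ord (p₂ (red φ))) := by
  classical
  -- minimal order on the first branch
  have hS₁ : ∃ n : ℕ, ∃ φ ∈ M, p₁ (red φ) ≠ 0 ∧ D₁.ord (p₁ (red φ)) = n := by
    obtain ⟨φ, hφ, h0⟩ := hM₁
    have := (hreg₁ φ).resolve_left h0
    exact ⟨(D₁.ord (p₁ (red φ))).toNat, φ, hφ, h0, (Int.toNat_of_nonneg this).symm⟩
  have hS₂ : ∃ n : ℕ, ∃ φ ∈ M, p₂ (red φ) ≠ 0 ∧ D₂.ord (p₂ (red φ)) = n := by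
    obtain ⟨φ, hφ, h0⟩ := hM₂
    have := (hreg₂ φ).resolve_left h0
    exact ⟨(D₂.ord (p₂ (red φ))).toNat, φ, hφ, h0, (Int.toNat_of_nonneg this).symm⟩
  obtain ⟨φ₁, hφ₁M, hφ₁0, hφ₁⟩ := Nat.find_spec hS₁
  obtain ⟨φ₂, hφ₂M, hφ₂0, hφ₂⟩ := Nat.find_spec hS₂
  have hmin₁ : ∀ φ ∈ M, p₁ (red φ) ≠ 0 → ((Nat.find hS₁ : ℕ) : ℤ) ≤ D₁.ord (p₁ (red φ)) := by
    intro φ hφ h0
    have h1 := (hreg₁ φ).resolve_left h0
    have h2 := Nat.find_min' hS₁ ⟨φ, hφ, h0, (Int.toNat_of_nonneg h1).symm⟩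
    omega
  have hmin₂ : ∀ φ ∈ M, p₂ (red φ) ≠ 0 → ((Nat.find hS₂ : ℕ) : ℤ) ≤ D₂.ord (p₂ (red φ)) := by
    intro φ hφ h0
    have h1 := (hreg₂ φ).resolve_left h0
    have h2 := Nat.find_min' hS₂ ⟨φ, hφ, h0, (Int.toNat_of_nonneg h1).symm⟩
    omega
  by_cases hA : p₂ (red φ₁) ≠ 0 ∧ D₂.ord (p₂ (red φ₁)) = (Nat.find hS₂ : ℕ)
  · exact ⟨φ₁, hφ₁M, hφ₁0, hA.1, fun φ hφ h0 => by rw [hφ₁]; exact hmin₁ φ hφ h0,
      fun φ hφ h0 => by rw [hA.2]; exact hmin₂ φ hφ h0⟩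
  by_cases hB : p₁ (red φ₂) ≠ 0 ∧ D₁.ord (p₁ (red φ₂)) = (Nat.find hS₁ : ℕ)
  · exact ⟨φ₂, hφ₂M, hB.1, hφ₂0, fun φ hφ h0 => by rw [hB.2]; exact hmin₁ φ hφ h0,
      fun φ hφ h0 => by rw [hφ₂]; exact hmin₂ φ hφ h0⟩
  -- the sum
  have h1 : p₁ (red (φ₁ + φ₂)) ≠ 0 ∧ D₁.ord (p₁ (red (φ₁ + φ₂))) = (Nat.find hS₁ : ℕ) := by
    rw [map_add, map_add]
    by_cases h0 : p₁ (red φ₂) = 0
    · rw [h0, add_zero]; exact ⟨hφ₁0, hφ₁⟩
    · have hlt : D₁.ord (p₁ (red φ₁)) < D₁.ord (p₁ (red φ₂)) := by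
        have hle := hmin₁ φ₂ hφ₂M h0
        have hne : D₁.ord (p₁ (red φ₂)) ≠ (Nat.find hS₁ : ℕ) := fun h => hB ⟨h0, h⟩
        omega
      obtain ⟨hne, hord⟩ := D₁.ord_add_of_lt _ _ hφ₁0 h0 hlt
      exact ⟨hne, hord.trans hφ₁⟩
  have h2 : p₂ (red (φ₁ + φ₂)) ≠ 0 ∧ D₂.ord (p₂ (red (φ₁ + φ₂))) = (Nat.find hS₂ : ℕ) := by
    rw [map_add, map_add, add_comm]
    by_cases h0 : p₂ (red φ₁) = 0
    · rw [h0, add_zero]; exact ⟨hφ₂0, hφ₂⟩
    · have hlt : D₂.ord (p₂ (red φ₂)) < D₂.ord (p₂ (red φ₁)) := by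
        have hle := hmin₂ φ₁ hφ₁M h0
        have hne : D₂.ord (p₂ (red φ₁)) ≠ (Nat.find hS₂ : ℕ) := fun h => hA ⟨h0, h⟩
        omega
      obtain ⟨hne, hord⟩ := D₂.ord_add_of_lt _ _ hφ₂0 h0 hlt
      exact ⟨hne, hord.trans hφ₂⟩
  exact ⟨φ₁ + φ₂, M.add_mem hφ₁M hφ₂M, h1.1, h2.1, fun φ hφ h0 => by rw [h1.2]; exact hmin₁ φ hφ h0,
    fun φ hφ h0 => by rw [h2.2]; exact hmin₂ φ hφ h0⟩

/-- quotients by a minimal element are regular -/
theorem h31_reg_div (D : h31_DV k Fb₁) {x y : Fb₁} (hy : y ≠ 0)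
    (h : x ≠ 0 → D.ord y ≤ D.ord x) : D.Reg (x / y) := by
  by_cases hx : x = 0
  · left; rw [hx, zero_div]
  · right
    rw [D.ord_div x y hx hy]
    have := h hx
    omega

/-- **Matching** (the core of (NODE-GEN)): the quotient of the reductions of any `φ ∈ M` by those
of a minimal element `g` has EQUAL values on the two branches.  Otherwise `M` would contain an
element supported on the second branch of minimal order there, and the operator `φ ↦ b φ / ϖ`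
would lower that order by one. -/
theorem h31_node_match
    (D₁ : h31_DV k Fb₁) (D₂ : h31_DV k Fb₂)
    (ϖ : R) (hϖ : ∀ x y : R, ϖ * x = ϖ * y → x = y)
    (red : R →+* Rb) (p₁ : Rb →+* Fb₁) (p₂ : Rb →+* Fb₂) (p' : Rb →+* Rb')
    (hreg₂ : ∀ r : R, D₂.Reg (p₂ (red r)))
    (hconst : ∀ c : k, ∃ r : R, p₁ (red r) = algebraMap k Fb₁ c ∧ p₂ (red r) = algebraMap k Fb₂ c)
    (x₁ : R) (hx₁2 : p₂ (red x₁) = 0) (hx₁' : p' (red x₁) = 0) (hx₁0 : p₁ (red x₁) ≠ 0)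
    (hx₁ : D₁.ord (p₁ (red x₁)) = 1)
    (hrich : ∀ (q₁ : Fb₁) (q₂ : Fb₂), D₁.Reg q₁ → D₂.Reg q₂ → D₁.ev q₁ = D₂.ev q₂ →
      ∃ τ ρ : R, p' (red τ) = 0 ∧ p' (red ρ) = 0 ∧ D₂.ev (p₂ (red τ)) ≠ 0 ∧
        p₁ (red ρ) = p₁ (red τ) * q₁ ∧ p₂ (red ρ) = p₂ (red τ) * q₂)
    (a b ψ : R) (hab : a * b = ϖ * ψ) (ha0 : p₂ (red a) ≠ 0) (ha : D₂.ord (p₂ (red a)) = 1)
    (hψ : D₂.ev (p₂ (red ψ)) ≠ 0)
    (M : Ideal R)
    (hop : ∀ φ ∈ M, p₁ (red φ) = 0 → p' (red φ) = 0 → ∃ φ' ∈ M, ϖ * φ' = b * φ)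
    (g : R) (hg : g ∈ M) (hg₁ : p₁ (red g) ≠ 0) (hg₂ : p₂ (red g) ≠ 0)
    (hmin₁ : ∀ φ ∈ M, p₁ (red φ) ≠ 0 → D₁.ord (p₁ (red g)) ≤ D₁.ord (p₁ (red φ)))
    (hmin₂ : ∀ φ ∈ M, p₂ (red φ) ≠ 0 → D₂.ord (p₂ (red g)) ≤ D₂.ord (p₂ (red φ)))
    (φ : R) (hφ : φ ∈ M) :
    D₁.Reg (p₁ (red φ) / p₁ (red g)) ∧ D₂.Reg (p₂ (red φ) / p₂ (red g)) ∧
      D₁.ev (p₁ (red φ) / p₁ (red g)) = D₂.ev (p₂ (red φ) / p₂ (red g)) := by
  have hq₁ : D₁.Reg (p₁ (red φ) / p₁ (red g)) := h31_reg_div D₁ hg₁ (hmin₁ φ hφ)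
  have hq₂ : D₂.Reg (p₂ (red φ) / p₂ (red g)) := h31_reg_div D₂ hg₂ (hmin₂ φ hφ)
  refine ⟨hq₁, hq₂, ?_⟩
  by_contra hne
  set q₁ := p₁ (red φ) / p₁ (red g) with hq₁def
  set q₂ := p₂ (red φ) / p₂ (red g) with hq₂def
  set α : k := D₁.ev q₁ with hα
  obtain ⟨rα, hrα₁, hrα₂⟩ := hconst α
  -- φ' := φ - α g
  have hφ'M : φ - rα * g ∈ M := M.sub_mem hφ (M.mul_mem_left _ hg)
  have hf₁ : p₁ (red (φ - rα * g)) = p₁ (red g) * (q₁ - algebraMap k Fb₁ α) := by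
    rw [map_sub, map_sub, map_mul, map_mul, hrα₁, hq₁def]
    field_simp
  have hf₂ : p₂ (red (φ - rα * g)) = p₂ (red g) * (q₂ - algebraMap k Fb₂ α) := by
    rw [map_sub, map_sub, map_mul, map_mul, hrα₂, hq₂def]
    field_simp
  -- first branch: the quotient vanishes at the node
  have hreg₁' : D₁.Reg (q₁ - algebraMap k Fb₁ α) := D₁.reg_sub hq₁ (D₁.reg_algebraMap α)
  have hev₁' : D₁.ev (q₁ - algebraMap k Fb₁ α) = 0 := by
    rw [D₁.ev_sub hq₁ (D₁.reg_algebraMap α), D₁.ev_algebraMap, hα, sub_self]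
  -- second branch: the quotient is a unit at the node
  have hreg₂' : D₂.Reg (q₂ - algebraMap k Fb₂ α) := D₂.reg_sub hq₂ (D₂.reg_algebraMap α)
  have hev₂' : D₂.ev (q₂ - algebraMap k Fb₂ α) ≠ 0 := by
    rw [D₂.ev_sub hq₂ (D₂.reg_algebraMap α), D₂.ev_algebraMap]
    intro h
    exact hne (sub_eq_zero.mp h).symm
  obtain ⟨hu0, hu⟩ := D₂.ord_eq_zero_of_ev_ne hreg₂' hev₂'
  -- z := (q₁ - α) / x₁ is regular
  have hzreg : D₁.Reg ((q₁ - algebraMap k Fb₁ α) / p₁ (red x₁)) := by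
    by_cases h0 : q₁ - algebraMap k Fb₁ α = 0
    · left; rw [h0, zero_div]
    · right
      rw [D₁.ord_div _ _ h0 hx₁0, hx₁]
      have h1 := hreg₁'.resolve_left h0
      have h2 := (D₁.ev_eq_zero _ h0 h1).mp hev₁'
      omega
  obtain ⟨τ, ρ, hτ', -, hτev, hρ₁, -⟩ := hrich ((q₁ - algebraMap k Fb₁ α) / p₁ (red x₁))
    (algebraMap k Fb₂ (D₁.ev ((q₁ - algebraMap k Fb₁ α) / p₁ (red x₁)))) hzreg
    (D₂.reg_algebraMap _) (D₂.ev_algebraMap _).symm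
  obtain ⟨hτ0, hτord⟩ := D₂.ord_eq_zero_of_ev_ne (hreg₂ τ) hτev
  -- φ# := τ φ' - ρ x₁ g is supported on the second branch
  have hsM : τ * (φ - rα * g) - ρ * x₁ * g ∈ M :=
    M.sub_mem (M.mul_mem_left _ hφ'M) (M.mul_mem_left _ hg)
  have hs₁ : p₁ (red (τ * (φ - rα * g) - ρ * x₁ * g)) = 0 := by
    rw [map_sub, map_sub, map_mul, map_mul, map_mul, map_mul, map_mul, map_mul, hf₁, hρ₁]
    field_simp
    ring
  have hs' : p' (red (τ * (φ - rα * g) - ρ * x₁ * g)) = 0 := by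
    rw [map_sub, map_sub, map_mul, map_mul, map_mul, map_mul, map_mul, map_mul, hτ', hx₁']
    ring
  have hs₂ : p₂ (red (τ * (φ - rα * g) - ρ * x₁ * g)) =
      p₂ (red τ) * (p₂ (red g) * (q₂ - algebraMap k Fb₂ α)) := by
    rw [map_sub, map_sub, map_mul, map_mul, map_mul, map_mul, map_mul, map_mul, hf₂, hx₁2]
    ring
  -- apply the operator
  obtain ⟨φb, hφbM, hφb⟩ := hop _ hsM hs₁ hs'
  have hrel : φb * a = ψ * (τ * (φ - rα * g) - ρ * x₁ * g) := by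
    apply hϖ
    calc ϖ * (φb * a) = (ϖ * φb) * a := by ring
      _ = (a * b) * (τ * (φ - rα * g) - ρ * x₁ * g) := by rw [hφb]; ring
      _ = ϖ * (ψ * (τ * (φ - rα * g) - ρ * x₁ * g)) := by rw [hab]; ring
  have hrel₂ : p₂ (red φb) * p₂ (red a) =
      p₂ (red ψ) * (p₂ (red τ) * (p₂ (red g) * (q₂ - algebraMap k Fb₂ α))) := by
    rw [← hs₂, ← map_mul, ← map_mul, ← map_mul, ← map_mul, hrel]
  obtain ⟨hψ0, hψord⟩ := D₂.ord_eq_zero_of_ev_ne (hreg₂ ψ) hψ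
  have hrhs0 : p₂ (red ψ) * (p₂ (red τ) * (p₂ (red g) * (q₂ - algebraMap k Fb₂ α))) ≠ 0 :=
    mul_ne_zero hψ0 (mul_ne_zero hτ0 (mul_ne_zero hg₂ hu0))
  have hφb0 : p₂ (red φb) ≠ 0 := by
    intro h
    rw [h, zero_mul] at hrel₂
    exact hrhs0 hrel₂.symm
  have hord := congrArg D₂.ord hrel₂
  rw [D₂.ord_mul _ _ hφb0 ha0, ha,
    D₂.ord_mul _ _ hψ0 (mul_ne_zero hτ0 (mul_ne_zero hg₂ hu0)), hψord,
    D₂.ord_mul _ _ hτ0 (mul_ne_zero hg₂ hu0), hτord, D₂.ord_mul _ _ hg₂ hu0, hu] at hord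
  have := hmin₂ φb hφbM hφb0
  omega

/-- **(NODE-GEN)**: local generators at a thickness-one node.  For a finitely generated,
`ϖ`-saturated ideal `M` of `R` stable under the operator `φ ↦ b φ / ϖ` there are `g ∈ M` (with
minimal orders on both branches) and `δ : R`, a unit at the node, with `δ M ⊆ g R`. -/
theorem h31_node_gen
    (D₁ : h31_DV k Fb₁) (D₂ : h31_DV k Fb₂)
    (ϖ : R) (hϖ : ∀ x y : R, ϖ * x = ϖ * y → x = y)
    (red : R →+* Rb) (hker : ∀ r : R, red r = 0 → ∃ r' : R, r = ϖ * r') (hredϖ : red ϖ = 0)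
    (p₁ : Rb →+* Fb₁) (p₂ : Rb →+* Fb₂) (p' : Rb →+* Rb')
    (hinj : ∀ h : Rb, p₁ h = 0 → p₂ h = 0 → p' h = 0 → h = 0)
    (hreg₁ : ∀ r : R, D₁.Reg (p₁ (red r))) (hreg₂ : ∀ r : R, D₂.Reg (p₂ (red r)))
    (hconst : ∀ c : k, ∃ r : R, p₁ (red r) = algebraMap k Fb₁ c ∧ p₂ (red r) = algebraMap k Fb₂ c)
    (x₁ : R) (hx₁2 : p₂ (red x₁) = 0) (hx₁' : p' (red x₁) = 0) (hx₁0 : p₁ (red x₁) ≠ 0)
    (hx₁ : D₁.ord (p₁ (red x₁)) = 1)
    (hrich : ∀ (q₁ : Fb₁) (q₂ : Fb₂), D₁.Reg q₁ → D₂.Reg q₂ → D₁.ev q₁ = D₂.ev q₂ →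
      ∃ τ ρ : R, p' (red τ) = 0 ∧ p' (red ρ) = 0 ∧ D₂.ev (p₂ (red τ)) ≠ 0 ∧
        p₁ (red ρ) = p₁ (red τ) * q₁ ∧ p₂ (red ρ) = p₂ (red τ) * q₂)
    (a b ψ : R) (hab : a * b = ϖ * ψ) (ha0 : p₂ (red a) ≠ 0) (ha : D₂.ord (p₂ (red a)) = 1)
    (hψ : D₂.ev (p₂ (red ψ)) ≠ 0)
    (M : Ideal R) (hsat : ∀ φ : R, ϖ * φ ∈ M → φ ∈ M) (hfg : M.FG)
    (hop : ∀ φ ∈ M, p₁ (red φ) = 0 → p' (red φ) = 0 → ∃ φ' ∈ M, ϖ * φ' = b * φ)
    (hM₁ : ∃ φ ∈ M, p₁ (red φ) ≠ 0) (hM₂ : ∃ φ ∈ M, p₂ (red φ) ≠ 0) :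
    ∃ g ∈ M, p₁ (red g) ≠ 0 ∧ p₂ (red g) ≠ 0 ∧
      (∀ φ ∈ M, p₁ (red φ) ≠ 0 → D₁.ord (p₁ (red g)) ≤ D₁.ord (p₁ (red φ))) ∧
      (∀ φ ∈ M, p₂ (red φ) ≠ 0 → D₂.ord (p₂ (red g)) ≤ D₂.ord (p₂ (red φ))) ∧
      ∃ δ : R, D₂.ev (p₂ (red δ)) ≠ 0 ∧ ∀ φ ∈ M, ∃ t : R, δ * φ = g * t := by
  classical
  obtain ⟨g, hg, hg₁, hg₂, hmin₁, hmin₂⟩ := h31_exists_min D₁ D₂ red p₁ p₂ hreg₁ hreg₂ M hM₁ hM₂
  refine ⟨g, hg, hg₁, hg₂, hmin₁, hmin₂, ?_⟩
  obtain ⟨n, s, hs⟩ := Submodule.fg_iff_exists_fin_generating_family.mp hfg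
  have hsM : ∀ l, s l ∈ M := fun l => by
    rw [← hs]
    exact Submodule.subset_span ⟨l, rfl⟩
  -- local quotients of the generators
  have hloc : ∀ l, ∃ τ ρ : R, D₂.ev (p₂ (red τ)) ≠ 0 ∧
      ∃ c : Fin n → R, τ * s l - ρ * g = ϖ * ∑ m, c m * s m := by
    intro l
    obtain ⟨hq₁, hq₂, hev⟩ := h31_node_match D₁ D₂ ϖ hϖ red p₁ p₂ p' hreg₂ hconst x₁ hx₁2 hx₁'
      hx₁0 hx₁ hrich a b ψ hab ha0 ha hψ M hop g hg hg₁ hg₂ hmin₁ hmin₂ (s l) (hsM l)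
    obtain ⟨τ, ρ, hτ', hρ', hτev, hρ₁, hρ₂⟩ := hrich _ _ hq₁ hq₂ hev
    have hzero : red (τ * s l - ρ * g) = 0 := by
      apply hinj
      · rw [map_sub, map_sub, map_mul, map_mul, map_mul, map_mul, hρ₁]
        field_simp
        ring
      · rw [map_sub, map_sub, map_mul, map_mul, map_mul, map_mul, hρ₂]
        field_simp
        ring
      · rw [map_sub, map_sub, map_mul, map_mul, map_mul, map_mul, hτ', hρ']
        ring
    obtain ⟨w, hw⟩ := hker _ hzero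
    have hwM : w ∈ M := by
      apply hsat
      rw [← hw]
      exact M.sub_mem (M.mul_mem_left _ (hsM l)) (M.mul_mem_left _ hg)
    rw [← hs] at hwM
    obtain ⟨c, hc⟩ := (Submodule.mem_span_range_iff_exists_fun R).mp hwM
    refine ⟨τ, ρ, hτev, c, ?_⟩
    rw [hw, ← hc]
    simp only [smul_eq_mul]
  choose τ ρ hτev c hc using hloc
  set A : Matrix (Fin n) (Fin n) R := Matrix.diagonal τ - ϖ • Matrix.of c with hA
  have hAs : A.mulVec s = fun l => ρ l * g := by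
    funext l
    have h1 : A.mulVec s l = τ l * s l - ϖ * ∑ m, c l m * s m := by
      rw [hA, Matrix.sub_mulVec, Matrix.smul_mulVec, Pi.sub_apply, Matrix.mulVec_diagonal,
        Pi.smul_apply, smul_eq_mul]
      rfl
    rw [h1, ← hc l]
    ring
  have hdet : ∀ l, A.det * s l = g * ∑ m, A.adjugate l m * ρ m := by
    intro l
    have h1 : A.adjugate.mulVec (A.mulVec s) = A.det • s := by
      rw [Matrix.mulVec_mulVec, Matrix.adjugate_mul, Matrix.smul_mulVec, Matrix.one_mulVec]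
    have h2 := congrFun h1 l
    rw [hAs, Pi.smul_apply, smul_eq_mul] at h2
    rw [← h2, Matrix.mulVec, dotProduct, Finset.mul_sum]
    exact Finset.sum_congr rfl fun m _ => by ring
  refine ⟨A.det, ?_, ?_⟩
  · -- the determinant is a unit at the node
    have he : h31_evHom D₂ red p₂ hreg₂ A.det = ∏ l, h31_evHom D₂ red p₂ hreg₂ (τ l) := by
      rw [RingHom.map_det]
      have hmap : (h31_evHom D₂ red p₂ hreg₂).mapMatrix A =
          Matrix.diagonal fun l => h31_evHom D₂ red p₂ hreg₂ (τ l) := by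
        ext i j
        have hϖ0 : h31_evHom D₂ red p₂ hreg₂ ϖ = 0 := by
          rw [h31_evHom_apply, hredϖ, map_zero]
          exact D₂.ev_zero
        rw [RingHom.mapMatrix_apply, Matrix.map_apply, hA, Matrix.sub_apply, Matrix.smul_apply,
          smul_eq_mul, map_sub, map_mul, hϖ0, zero_mul, sub_zero]
        by_cases hij : i = j
        · subst hij
          rw [Matrix.diagonal_apply_eq, Matrix.diagonal_apply_eq]
        · rw [Matrix.diagonal_apply_ne _ hij, Matrix.diagonal_apply_ne _ hij, map_zero]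
      rw [hmap, Matrix.det_diagonal]
    rw [← h31_evHom_apply D₂ red p₂ hreg₂, he]
    exact Finset.prod_ne_zero_iff.mpr fun l _ => hτev l
  · intro φ hφ
    rw [← hs] at hφ
    obtain ⟨d, hd⟩ := (Submodule.mem_span_range_iff_exists_fun R).mp hφ
    refine ⟨∑ l, d l * ∑ m, A.adjugate l m * ρ m, ?_⟩
    rw [← hd, Finset.mul_sum, Finset.mul_sum]
    refine Finset.sum_congr rfl fun l _ => ?_
    rw [smul_eq_mul]
    calc A.det * (d l * s l) = d l * (A.det * s l) := by ring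
      _ = d l * (g * ∑ m, A.adjugate l m * ρ m) := by rw [hdet l]
      _ = g * (d l * ∑ m, A.adjugate l m * ρ m) := by ring

end NodeGen

end Fermat.Agent.S40
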