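import Mathlib
import Fermat.Agent.S36.h62_NodeIface
import Fermat.Agent.S40.h31_NodeGen

/-!
# S40 / S36 node layer: (NODE-GEN) in the language of the node interface (helper31)

Bridge from the lattice-level core `h31_node_gen` to the frozen node interface
`Fermat.Agent.S36.h62_UnitStar` (helper62, over helper80's `h80_ValFam`).

`V : h80_ValFam F ι` is the family of the vertical and horizontal valuations of the rational
function field, `V.B` the chart ring, `m` the point (a node), `red : V.B → Rb` the reduction with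
`ker red = q V.B`, `p₁, p₂` the two branches through the node and `p'` the other components.

* `h31_posIdeal V i` : the prime of the valuation `i` in `V.B`.
* `h31_unitStar_horiz` : a horizontal valuation through the node has a local equation at the node.
* `h31_unitStar_node` : `h62_UnitStar V m` at a node, from the two vertical local equations and
  `h31_unitStar_horiz`.

No local ring is needed: no `IsLocalRing`, no PID quotient, no UFD.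
-/

set_option autoImplicit false

namespace Fermat.Agent.S40

open Fermat.Agent.S36

variable {F : Type*} [Field F] {ι : Type*}

/-- The ideal of `V.B` of the elements of positive `v i`. -/
def h31_posIdeal (V : h80_ValFam F ι) (i : ι) : Ideal V.B where
  carrier := {f | (f : F) = 0 ∨ 0 < V.v i f}
  zero_mem' := Or.inl rfl
  add_mem' := by
    rintro f g hf hg
    by_cases hf0 : (f : F) = 0
    · have : f = 0 := Subtype.ext hf0
      rw [this, zero_add]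
      exact hg
    by_cases hg0 : (g : F) = 0
    · have : g = 0 := Subtype.ext hg0
      rw [this, add_zero]
      exact hf
    by_cases hfg : ((f + g : V.B) : F) = 0
    · exact Or.inl hfg
    refine Or.inr ?_
    have h := V.map_add i f g hf0 hg0 (by simpa using hfg)
    have h1 := hf.resolve_left hf0
    have h2 := hg.resolve_left hg0
    have h3 : 0 < min (V.v i f) (V.v i g) := lt_min h1 h2
    simpa using lt_of_lt_of_le h3 h
  smul_mem' := by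
    rintro c f hf
    by_cases hcf : ((c * f : V.B) : F) = 0
    · exact Or.inl hcf
    have hc0 : (c : F) ≠ 0 := fun h => hcf (by simp [h])
    have hf0 : (f : F) ≠ 0 := fun h => hcf (by simp [h])
    refine Or.inr ?_
    have h1 := hf.resolve_left hf0
    have h2 := h80_v_nonneg V i c hc0
    have h3 := V.map_mul i c f hc0 hf0
    show 0 < V.v i ((c * f : V.B) : F)
    rw [Subring.coe_mul, h3]
    omega

theorem h31_mem_posIdeal (V : h80_ValFam F ι) (i : ι) (f : V.B) :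
    f ∈ h31_posIdeal V i ↔ ((f : F) = 0 ∨ 0 < V.v i f) := Iff.rfl

section Bridge

variable {Rb k Fb₁ Fb₂ Rb' : Type*} [CommRing Rb] [Field k] [Field Fb₁] [Field Fb₂]
  [Algebra k Fb₁] [Algebra k Fb₂] [CommRing Rb']

/-- **A horizontal valuation through a thickness-one node has a local equation there.**
Lattice-level hypotheses only (see `h31_node_gen`); `hfg` is (NOETH) for the one ideal used,
`hunr` is (UNR), `hseph` is (SEPH). -/
theorem h31_unitStar_horiz (V : h80_ValFam F ι) (m : Ideal V.B)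
    (D₁ : h31_DV k Fb₁) (D₂ : h31_DV k Fb₂) (q : V.B) (hq0 : (q : F) ≠ 0)
    (red : V.B →+* Rb) (hker : ∀ r : V.B, red r = 0 → ∃ r' : V.B, r = q * r') (hredq : red q = 0)
    (p₁ : Rb →+* Fb₁) (p₂ : Rb →+* Fb₂) (p' : Rb →+* Rb')
    (hinj : ∀ h : Rb, p₁ h = 0 → p₂ h = 0 → p' h = 0 → h = 0)
    (hreg₁ : ∀ r : V.B, D₁.Reg (p₁ (red r))) (hreg₂ : ∀ r : V.B, D₂.Reg (p₂ (red r)))
    (hconst : ∀ c : k, ∃ r : V.B, p₁ (red r) = algebraMap k Fb₁ c ∧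
      p₂ (red r) = algebraMap k Fb₂ c)
    (x₁ : V.B) (hx₁2 : p₂ (red x₁) = 0) (hx₁' : p' (red x₁) = 0) (hx₁0 : p₁ (red x₁) ≠ 0)
    (hx₁ : D₁.ord (p₁ (red x₁)) = 1)
    (hrich : ∀ (q₁ : Fb₁) (q₂ : Fb₂), D₁.Reg q₁ → D₂.Reg q₂ → D₁.ev q₁ = D₂.ev q₂ →
      ∃ τ ρ : V.B, p' (red τ) = 0 ∧ p' (red ρ) = 0 ∧ D₂.ev (p₂ (red τ)) ≠ 0 ∧
        p₁ (red ρ) = p₁ (red τ) * q₁ ∧ p₂ (red ρ) = p₂ (red τ) * q₂)
    (a b ψ : V.B) (hab : a * b = q * ψ) (ha0 : p₂ (red a) ≠ 0) (ha : D₂.ord (p₂ (red a)) = 1)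
    (hψ : D₂.ev (p₂ (red ψ)) ≠ 0)
    (hop : ∀ φ : V.B, p₁ (red φ) = 0 → p' (red φ) = 0 → ∃ φ' : V.B, q * φ' = b * φ)
    (hm : ∀ f : V.B, D₂.ev (p₂ (red f)) ≠ 0 → f ∉ m)
    (c1 c2 : ι)
    (hc1 : ∀ f : V.B, (f : F) ≠ 0 → p₁ (red f) ≠ 0 → V.v c1 f = 0)
    (hc2 : ∀ f : V.B, (f : F) ≠ 0 → p₂ (red f) ≠ 0 → V.v c2 f = 0)
    (i : ι) (hi : V.Through m i) (hiq : V.v i q = 0) (hfg : (h31_posIdeal V i).FG)
    (hunr : ∃ f : V.B, (f : F) ≠ 0 ∧ V.v i f = 1)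
    (hsep1 : ∃ f : V.B, (f : F) ≠ 0 ∧ 0 < V.v i f ∧ p₁ (red f) ≠ 0)
    (hsep2 : ∃ f : V.B, (f : F) ≠ 0 ∧ 0 < V.v i f ∧ p₂ (red f) ≠ 0)
    (hseph : ∀ j, V.Through m j → j ≠ i → j ≠ c1 → j ≠ c2 →
      ∃ f : V.B, (f : F) ≠ 0 ∧ 0 < V.v i f ∧ V.v j f = 0) :
    ∃ e : F, e ≠ 0 ∧ V.v i e = 1 ∧ ∀ j, V.Through m j → j ≠ i → V.v j e = 0 := by
  have hq0' : q ≠ 0 := fun h => hq0 (by rw [h]; rfl)
  have hcoe0 : ∀ f : V.B, (f : F) = 0 → f = 0 := fun f h => Subtype.ext h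
  -- the hypotheses of `h31_node_gen` for `M := h31_posIdeal V i`
  have hsat : ∀ φ : V.B, q * φ ∈ h31_posIdeal V i → φ ∈ h31_posIdeal V i := by
    intro φ h
    by_cases hφ0 : (φ : F) = 0
    · exact Or.inl hφ0
    have hne : ((q * φ : V.B) : F) ≠ 0 := by
      rw [Subring.coe_mul]; exact mul_ne_zero hq0 hφ0
    have h1 := h.resolve_left hne
    rw [Subring.coe_mul, V.map_mul i q φ hq0 hφ0, hiq, zero_add] at h1
    exact Or.inr h1
  have hopM : ∀ φ ∈ h31_posIdeal V i, p₁ (red φ) = 0 → p' (red φ) = 0 →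
      ∃ φ' ∈ h31_posIdeal V i, q * φ' = b * φ := by
    intro φ hφ h1 h2
    obtain ⟨φ', hφ'⟩ := hop φ h1 h2
    refine ⟨φ', ?_, hφ'⟩
    by_cases hφ'0 : (φ' : F) = 0
    · exact Or.inl hφ'0
    have hne : ((q * φ' : V.B) : F) ≠ 0 := by
      rw [Subring.coe_mul]; exact mul_ne_zero hq0 hφ'0
    rw [hφ', Subring.coe_mul] at hne
    have hb0 : (b : F) ≠ 0 := left_ne_zero_of_mul hne
    have hφ0 : (φ : F) ≠ 0 := right_ne_zero_of_mul hne
    have h3 := congrArg (fun x : V.B => V.v i (x : F)) hφ'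
    simp only [Subring.coe_mul] at h3
    rw [V.map_mul i q φ' hq0 hφ'0, V.map_mul i b φ hb0 hφ0, hiq, zero_add] at h3
    have h4 := hφ.resolve_left hφ0
    have h5 := h80_v_nonneg V i b hb0
    exact Or.inr (by omega)
  have hM₁ : ∃ φ ∈ h31_posIdeal V i, p₁ (red φ) ≠ 0 := by
    obtain ⟨f, -, hf, hf1⟩ := hsep1
    exact ⟨f, Or.inr hf, hf1⟩
  have hM₂ : ∃ φ ∈ h31_posIdeal V i, p₂ (red φ) ≠ 0 := by
    obtain ⟨f, -, hf, hf2⟩ := hsep2
    exact ⟨f, Or.inr hf, hf2⟩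
  obtain ⟨g, hgM, hg₁, hg₂, -, -, δ, hδ, hdiv⟩ := h31_node_gen D₁ D₂ q
    (fun x y h => mul_left_cancel₀ hq0' h) red hker hredq p₁ p₂ p' hinj hreg₁ hreg₂ hconst
    x₁ hx₁2 hx₁' hx₁0 hx₁ hrich a b ψ hab ha0 ha hψ (h31_posIdeal V i) hsat hfg hopM hM₁ hM₂
  have hg0 : (g : F) ≠ 0 := by
    intro h
    apply hg₁
    rw [hcoe0 g h, map_zero, map_zero]
  have hgi : 0 < V.v i g := hgM.resolve_left hg0
  have hδm : δ ∉ m := hm δ hδ
  have hδ0 : (δ : F) ≠ 0 := h80_ne_zero_of_not_mem V hδm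
  -- a general valuation identity from `δ f = g t`
  have key : ∀ (j : ι) (f : V.B), (f : F) ≠ 0 → f ∈ h31_posIdeal V i →
      ∃ t : V.B, (t : F) ≠ 0 ∧ V.v j δ + V.v j f = V.v j g + V.v j t := by
    intro j f hf0 hfM
    obtain ⟨t, ht⟩ := hdiv f hfM
    have hne : ((δ * f : V.B) : F) ≠ 0 := by
      rw [Subring.coe_mul]; exact mul_ne_zero hδ0 hf0
    rw [ht, Subring.coe_mul] at hne
    have ht0 : (t : F) ≠ 0 := right_ne_zero_of_mul hne
    refine ⟨t, ht0, ?_⟩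
    have h3 := congrArg (fun x : V.B => V.v j (x : F)) ht
    simp only [Subring.coe_mul] at h3
    rw [V.map_mul j δ f hδ0 hf0, V.map_mul j g t hg0 ht0] at h3
    exact h3
  refine ⟨g, hg0, ?_, ?_⟩
  · -- `v i g = 1` by (UNR)
    obtain ⟨f, hf0, hf⟩ := hunr
    obtain ⟨t, ht0, h⟩ := key i f hf0 (Or.inr (by omega))
    have h1 := h80_through_eq_zero V hi hδm
    have h2 := h80_v_nonneg V i t ht0
    omega
  · -- the other valuations through the node vanish on `g`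
    intro j hj hji
    by_cases hj1 : j = c1
    · subst hj1
      exact hc1 g hg0 hg₁
    by_cases hj2 : j = c2
    · subst hj2
      exact hc2 g hg0 hg₂
    obtain ⟨f, hf0, hfi, hfj⟩ := hseph j hj hji hj1 hj2
    obtain ⟨t, ht0, h⟩ := key j f hf0 (Or.inr hfi)
    have h1 := h80_through_eq_zero V hj hδm
    have h2 := h80_v_nonneg V j t ht0
    have h3 := h80_v_nonneg V j g hg0
    omega

/-- **(UNIT\*) at a thickness-one node**, in the frozen interface: the two vertical valuations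
have the local equations `a, b`; every horizontal valuation through the node has one by
`h31_unitStar_horiz`. -/
theorem h31_unitStar_node (V : h80_ValFam F ι) (m : Ideal V.B)
    (D₁ : h31_DV k Fb₁) (D₂ : h31_DV k Fb₂) (q : V.B) (hq0 : (q : F) ≠ 0)
    (red : V.B →+* Rb) (hker : ∀ r : V.B, red r = 0 → ∃ r' : V.B, r = q * r') (hredq : red q = 0)
    (p₁ : Rb →+* Fb₁) (p₂ : Rb →+* Fb₂) (p' : Rb →+* Rb')
    (hinj : ∀ h : Rb, p₁ h = 0 → p₂ h = 0 → p' h = 0 → h = 0)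
    (hreg₁ : ∀ r : V.B, D₁.Reg (p₁ (red r))) (hreg₂ : ∀ r : V.B, D₂.Reg (p₂ (red r)))
    (hconst : ∀ c : k, ∃ r : V.B, p₁ (red r) = algebraMap k Fb₁ c ∧
      p₂ (red r) = algebraMap k Fb₂ c)
    (x₁ : V.B) (hx₁2 : p₂ (red x₁) = 0) (hx₁' : p' (red x₁) = 0) (hx₁0 : p₁ (red x₁) ≠ 0)
    (hx₁ : D₁.ord (p₁ (red x₁)) = 1)
    (hrich : ∀ (q₁ : Fb₁) (q₂ : Fb₂), D₁.Reg q₁ → D₂.Reg q₂ → D₁.ev q₁ = D₂.ev q₂ →
      ∃ τ ρ : V.B, p' (red τ) = 0 ∧ p' (red ρ) = 0 ∧ D₂.ev (p₂ (red τ)) ≠ 0 ∧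
        p₁ (red ρ) = p₁ (red τ) * q₁ ∧ p₂ (red ρ) = p₂ (red τ) * q₂)
    (a b ψ : V.B) (hab : a * b = q * ψ) (ha0 : p₂ (red a) ≠ 0) (ha : D₂.ord (p₂ (red a)) = 1)
    (hψ : D₂.ev (p₂ (red ψ)) ≠ 0)
    (hop : ∀ φ : V.B, p₁ (red φ) = 0 → p' (red φ) = 0 → ∃ φ' : V.B, q * φ' = b * φ)
    (hm : ∀ f : V.B, D₂.ev (p₂ (red f)) ≠ 0 → f ∉ m)
    (c1 c2 : ι)
    (hc1 : ∀ f : V.B, (f : F) ≠ 0 → p₁ (red f) ≠ 0 → V.v c1 f = 0)
    (hc2 : ∀ f : V.B, (f : F) ≠ 0 → p₂ (red f) ≠ 0 → V.v c2 f = 0)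
    (a_ne : (a : F) ≠ 0) (b_ne : (b : F) ≠ 0)
    (va1 : V.v c1 a = 1) (va : ∀ i, V.Through m i → i ≠ c1 → V.v i a = 0)
    (vb2 : V.v c2 b = 1) (vb : ∀ i, V.Through m i → i ≠ c2 → V.v i b = 0)
    (hhor : ∀ i, V.Through m i → i ≠ c1 → i ≠ c2 →
      V.v i q = 0 ∧ (h31_posIdeal V i).FG ∧ (∃ f : V.B, (f : F) ≠ 0 ∧ V.v i f = 1) ∧
      (∃ f : V.B, (f : F) ≠ 0 ∧ 0 < V.v i f ∧ p₁ (red f) ≠ 0) ∧
      (∃ f : V.B, (f : F) ≠ 0 ∧ 0 < V.v i f ∧ p₂ (red f) ≠ 0) ∧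
      (∀ j, V.Through m j → j ≠ i → j ≠ c1 → j ≠ c2 →
        ∃ f : V.B, (f : F) ≠ 0 ∧ 0 < V.v i f ∧ V.v j f = 0)) :
    h62_UnitStar V m := by
  intro i hi
  by_cases h1 : i = c1
  · subst h1
    exact ⟨a, a_ne, va1, fun j hj hji => va j hj hji⟩
  by_cases h2 : i = c2
  · subst h2
    exact ⟨b, b_ne, vb2, fun j hj hji => vb j hj hji⟩
  obtain ⟨hiq, hfg, hunr, hsep1, hsep2, hseph⟩ := hhor i hi h1 h2
  exact h31_unitStar_horiz V m D₁ D₂ q hq0 red hker hredq p₁ p₂ p' hinj hreg₁ hreg₂ hconst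
    x₁ hx₁2 hx₁' hx₁0 hx₁ hrich a b ψ hab ha0 ha hψ hop hm c1 c2 hc1 hc2 i hi hiq hfg hunr
    hsep1 hsep2 hseph

end Bridge

end Fermat.Agent.S40
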