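import Mathlib
import Fermat.Agent.S36.h62_NodeIface
import Fermat.Agent.S40.h31_NodeGen
import Fermat.Agent.S40.h31_NodeUnitStar

/-!
# S40 row T4 (NODE-COVER), generic core (helper31)

Producers of the frozen node interface `h62_Node` / `h62_Pt` (helper62, over helper80's
`h80_ValFam`) from LATTICE-LEVEL data only:

`V : h80_ValFam F ι` (vertical valuations = sheets, horizontal ones = rational places),
`red : V.B → Rb` with kernel `q V.B`, branch maps `p₁, p₂ : Rb → Fb₁, Fb₂` through the point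
(resp. one branch map `p₁` at a smooth point), `p'` the other sheets, `D₁, D₂` the points of the
residue curves.  The point is `m := ker (value at the point)`.

* `h31_cramer` : Nakayama by Cramer - local divisibility by `g` mod `ϖ` on a finitely generated
  saturated ideal gives `δ M ⊆ g R` with `δ` a unit at the point.
* `h31_pt_gen`, `h31_unitStar_pt_horiz` : the one-branch analogue of `h31_node_gen`.
* `h31_node_of_lattice` : `h62_Node V q m c1 c2 a b`.
* `h31_pt_of_lattice` : `h62_Pt V q m c q 1`.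
-/

set_option autoImplicit false

namespace Fermat.Agent.S40

open Fermat.Agent.S36

section Cramer

variable {R k : Type*} [CommRing R] [Field k]

/-- **Nakayama by Cramer.** If every element of a finitely generated `ϖ`-saturated ideal `M` is,
up to a multiplier that is a unit at the point (`e τ ≠ 0`), divisible by `g` modulo `ϖ M`, then
`δ M ⊆ g R` for some `δ` that is a unit at the point. -/
theorem h31_cramer (ϖ : R) (e : R →+* k) (he : e ϖ = 0) (M : Ideal R)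
    (hsat : ∀ φ : R, ϖ * φ ∈ M → φ ∈ M) (hfg : M.FG) (g : R) (hg : g ∈ M)
    (hloc : ∀ φ ∈ M, ∃ τ ρ w : R, e τ ≠ 0 ∧ τ * φ - ρ * g = ϖ * w) :
    ∃ δ : R, e δ ≠ 0 ∧ ∀ φ ∈ M, ∃ t : R, δ * φ = g * t := by
  classical
  obtain ⟨n, s, hs⟩ := Submodule.fg_iff_exists_fin_generating_family.mp hfg
  have hsM : ∀ l, s l ∈ M := fun l => by
    rw [← hs]
    exact Submodule.subset_span ⟨l, rfl⟩
  have hloc' : ∀ l, ∃ τ ρ : R, e τ ≠ 0 ∧
      ∃ c : Fin n → R, τ * s l - ρ * g = ϖ * ∑ m, c m * s m := by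
    intro l
    obtain ⟨τ, ρ, w, hτ, hw⟩ := hloc (s l) (hsM l)
    have hwM : w ∈ M := by
      apply hsat
      rw [← hw]
      exact M.sub_mem (M.mul_mem_left _ (hsM l)) (M.mul_mem_left _ hg)
    rw [← hs] at hwM
    obtain ⟨c, hc⟩ := (Submodule.mem_span_range_iff_exists_fun R).mp hwM
    refine ⟨τ, ρ, hτ, c, ?_⟩
    rw [hw, ← hc]
    simp only [smul_eq_mul]
  choose τ ρ hτev c hc using hloc'
  set A : Matrix (Fin n) (Fin n) R := Matrix.diagonal τ - ϖ • Matrix.of c with hA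
  have hAs : A.mulVec s = fun l => ρ l * g := by
    funext l
    have h1 : A.mulVec s l = τ l * s l - ϖ * ∑ m, c l m * s m := by
      rw [hA, Matrix.sub_mulVec, Matrix.smul_mulVec, Pi.sub_apply, Matrix.mulVec_diagonal,
        Pi.smul_apply, smul_eq_mul]
      rfl
    rw [h1, ← hc l]
    ring
  have hdet : ∀ l, A.det * s l = g * ∑ m, A.adjugate l m * ρ m := by
    intro l
    have h1 : A.adjugate.mulVec (A.mulVec s) = A.det • s := by
      rw [Matrix.mulVec_mulVec, Matrix.adjugate_mul, Matrix.smul_mulVec, Matrix.one_mulVec]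
    have h2 := congrFun h1 l
    rw [hAs, Pi.smul_apply, smul_eq_mul] at h2
    rw [← h2, Matrix.mulVec, dotProduct, Finset.mul_sum]
    exact Finset.sum_congr rfl fun m _ => by ring
  refine ⟨A.det, ?_, ?_⟩
  · have hdet' : e A.det = ∏ l, e (τ l) := by
      rw [RingHom.map_det]
      have hmap : e.mapMatrix A = Matrix.diagonal fun l => e (τ l) := by
        ext i j
        rw [RingHom.mapMatrix_apply, Matrix.map_apply, hA, Matrix.sub_apply, Matrix.smul_apply,
          smul_eq_mul, map_sub, map_mul, he, zero_mul, sub_zero]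
        by_cases hij : i = j
        · subst hij
          rw [Matrix.diagonal_apply_eq, Matrix.diagonal_apply_eq]
        · rw [Matrix.diagonal_apply_ne _ hij, Matrix.diagonal_apply_ne _ hij, map_zero]
      rw [hmap, Matrix.det_diagonal]
    rw [hdet']
    exact Finset.prod_ne_zero_iff.mpr fun l _ => hτev l
  · intro φ hφ
    rw [← hs] at hφ
    obtain ⟨d, hd⟩ := (Submodule.mem_span_range_iff_exists_fun R).mp hφ
    refine ⟨∑ l, d l * ∑ m, A.adjugate l m * ρ m, ?_⟩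
    rw [← hd, Finset.mul_sum, Finset.mul_sum]
    refine Finset.sum_congr rfl fun l _ => ?_
    rw [smul_eq_mul]
    calc A.det * (d l * s l) = d l * (A.det * s l) := by ring
      _ = d l * (g * ∑ m, A.adjugate l m * ρ m) := by rw [hdet l]
      _ = g * (d l * ∑ m, A.adjugate l m * ρ m) := by ring

end Cramer

variable {F : Type*} [Field F] {ι : Type*}

/-! ### Lowering a vertical valuation inside the ideal of a horizontal one -/

/-- If `u` has `v c u = 0` and `v j q ≤ v j u` for `j ≠ c`, every nonzero element of positive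
`v i` (`i` horizontal) can be replaced by one with `v c = 0`: `f ↦ f u ^ n / q ^ n`. -/
theorem h31_exists_sep (V : h80_ValFam F ι) (q : V.B) (hq0 : (q : F) ≠ 0) (c i : ι)
    (hiq : V.v i q = 0) (hcq : V.v c q = 1)
    (u : V.B) (hu0 : (u : F) ≠ 0) (huc : V.v c u = 0)
    (hu : ∀ j, j ≠ c → V.v j (q : F) ≤ V.v j u)
    (f : V.B) (hf0 : (f : F) ≠ 0) (hf : 0 < V.v i f) :
    ∃ f' : V.B, (f' : F) ≠ 0 ∧ 0 < V.v i f' ∧ V.v c f' = 0 := by
  have hnn : 0 ≤ V.v c f := h80_v_nonneg V c f hf0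
  obtain ⟨n, hn⟩ := Int.eq_ofNat_of_zero_le hnn
  have hun0 : (u : F) ^ n ≠ 0 := pow_ne_zero n hu0
  have hqn0 : (q : F) ^ n ≠ 0 := pow_ne_zero n hq0
  have hne : (f : F) * (u : F) ^ n / (q : F) ^ n ≠ 0 :=
    div_ne_zero (mul_ne_zero hf0 hun0) hqn0
  have hval : ∀ j, V.v j ((f : F) * (u : F) ^ n / (q : F) ^ n) =
      V.v j f + n * V.v j u - n * V.v j q := by
    intro j
    rw [h80_v_div V j (mul_ne_zero hf0 hun0) hqn0, V.map_mul j _ _ hf0 hun0,
      h80_v_pow V j hu0, h80_v_pow V j hq0]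
  have hic : i ≠ c := by
    intro h
    rw [h] at hiq
    omega
  have hmem : (f : F) * (u : F) ^ n / (q : F) ^ n ∈ V.B := by
    rw [V.mem_B _ hne]
    intro j
    rw [hval j]
    by_cases hj : j = c
    · rw [hj, huc, hcq, hn]
      simp
    · have h1 := hu j hj
      have h2 := h80_v_nonneg V j f hf0
      have h3 : (0 : ℤ) ≤ n * (V.v j u - V.v j q) :=
        mul_nonneg (Int.natCast_nonneg n) (by omega)
      nlinarith [h3]
  refine ⟨⟨_, hmem⟩, hne, ?_, ?_⟩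
  · show 0 < V.v i ((f : F) * (u : F) ^ n / (q : F) ^ n)
    rw [hval i, hiq]
    have h1 := h80_v_nonneg V i u hu0
    have h3 : (0 : ℤ) ≤ n * V.v i u := mul_nonneg (Int.natCast_nonneg n) h1
    omega
  · show V.v c ((f : F) * (u : F) ^ n / (q : F) ^ n) = 0
    rw [hval c, huc, hcq, hn]
    simp


section OneBranch

variable {Rb k Fb₁ Rb' : Type*} [CommRing Rb] [Field k] [Field Fb₁] [Algebra k Fb₁] [CommRing Rb']

/-- **A horizontal valuation through a smooth point of a reduced component has a local equation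
there.**  One-branch analogue of `h31_unitStar_horiz`: the reduction of the ideal of the
horizontal place is principal at the point (minimal order), and Cramer lifts the generator. -/
theorem h31_unitStar_pt_horiz (V : h80_ValFam F ι) (m : Ideal V.B)
    (D₁ : h31_DV k Fb₁) (q : V.B) (hq0 : (q : F) ≠ 0)
    (red : V.B →+* Rb) (hker : ∀ r : V.B, red r = 0 → ∃ r' : V.B, r = q * r') (hredq : red q = 0)
    (p₁ : Rb →+* Fb₁) (p' : Rb →+* Rb')
    (hinj : ∀ h : Rb, p₁ h = 0 → p' h = 0 → h = 0)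
    (hreg₁ : ∀ r : V.B, D₁.Reg (p₁ (red r)))
    (hrich : ∀ q₁ : Fb₁, D₁.Reg q₁ → ∃ τ ρ : V.B, p' (red τ) = 0 ∧ p' (red ρ) = 0 ∧
      D₁.ev (p₁ (red τ)) ≠ 0 ∧ p₁ (red ρ) = p₁ (red τ) * q₁)
    (hm : ∀ f : V.B, D₁.ev (p₁ (red f)) ≠ 0 → f ∉ m)
    (c : ι) (hc : ∀ f : V.B, (f : F) ≠ 0 → p₁ (red f) ≠ 0 → V.v c f = 0)
    (i : ι) (hi : V.Through m i) (hiq : V.v i q = 0) (hfg : (h31_posIdeal V i).FG)
    (hunr : ∃ f : V.B, (f : F) ≠ 0 ∧ V.v i f = 1)
    (hsep1 : ∃ f : V.B, (f : F) ≠ 0 ∧ 0 < V.v i f ∧ p₁ (red f) ≠ 0)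
    (hseph : ∀ j, V.Through m j → j ≠ i → j ≠ c →
      ∃ f : V.B, (f : F) ≠ 0 ∧ 0 < V.v i f ∧ V.v j f = 0) :
    ∃ e : F, e ≠ 0 ∧ V.v i e = 1 ∧ ∀ j, V.Through m j → j ≠ i → V.v j e = 0 := by
  have hcoe0 : ∀ f : V.B, (f : F) = 0 → f = 0 := fun f h => Subtype.ext h
  have hsat : ∀ φ : V.B, q * φ ∈ h31_posIdeal V i → φ ∈ h31_posIdeal V i := by
    intro φ h
    by_cases hφ0 : (φ : F) = 0
    · exact Or.inl hφ0
    have hne : ((q * φ : V.B) : F) ≠ 0 := by
      rw [Subring.coe_mul]; exact mul_ne_zero hq0 hφ0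
    have h1 := h.resolve_left hne
    rw [Subring.coe_mul, V.map_mul i q φ hq0 hφ0, hiq, zero_add] at h1
    exact Or.inr h1
  have hM₁ : ∃ φ ∈ h31_posIdeal V i, p₁ (red φ) ≠ 0 := by
    obtain ⟨f, -, hf, hf1⟩ := hsep1
    exact ⟨f, Or.inr hf, hf1⟩
  obtain ⟨g, hgM, hg₁, -, hmin, -⟩ :=
    h31_exists_min D₁ D₁ red p₁ p₁ hreg₁ hreg₁ (h31_posIdeal V i) hM₁ hM₁
  have he : h31_evHom D₁ red p₁ hreg₁ q = 0 := by
    rw [h31_evHom_apply, hredq, map_zero]
    exact D₁.ev_zero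
  obtain ⟨δ, hδ, hdiv⟩ := h31_cramer q (h31_evHom D₁ red p₁ hreg₁) he (h31_posIdeal V i) hsat hfg
    g hgM (by
      intro φ hφ
      have hq₁ : D₁.Reg (p₁ (red φ) / p₁ (red g)) := h31_reg_div D₁ hg₁ (hmin φ hφ)
      obtain ⟨τ, ρ, hτ', hρ', hτev, hρ⟩ := hrich _ hq₁
      have hred : red (τ * φ - ρ * g) = 0 := by
        apply hinj
        · rw [map_sub, map_mul, map_mul, map_sub, map_mul, map_mul, hρ, mul_assoc,
            div_mul_cancel₀ _ hg₁, sub_self]
        · rw [map_sub, map_mul, map_mul, map_sub, map_mul, map_mul, hτ', hρ', zero_mul, zero_mul,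
            sub_zero]
      obtain ⟨w, hw⟩ := hker _ hred
      exact ⟨τ, ρ, w, hτev, hw⟩)
  rw [h31_evHom_apply] at hδ
  have hg0 : (g : F) ≠ 0 := by
    intro h
    apply hg₁
    rw [hcoe0 g h, map_zero, map_zero]
  have hgi : 0 < V.v i g := hgM.resolve_left hg0
  have hδm : δ ∉ m := hm δ hδ
  have hδ0 : (δ : F) ≠ 0 := h80_ne_zero_of_not_mem V hδm
  have key : ∀ (j : ι) (f : V.B), (f : F) ≠ 0 → f ∈ h31_posIdeal V i →
      ∃ t : V.B, (t : F) ≠ 0 ∧ V.v j δ + V.v j f = V.v j g + V.v j t := by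
    intro j f hf0 hfM
    obtain ⟨t, ht⟩ := hdiv f hfM
    have hne : ((δ * f : V.B) : F) ≠ 0 := by
      rw [Subring.coe_mul]; exact mul_ne_zero hδ0 hf0
    rw [ht, Subring.coe_mul] at hne
    have ht0 : (t : F) ≠ 0 := right_ne_zero_of_mul hne
    refine ⟨t, ht0, ?_⟩
    have h3 := congrArg (fun x : V.B => V.v j (x : F)) ht
    simp only [Subring.coe_mul] at h3
    rw [V.map_mul j δ f hδ0 hf0, V.map_mul j g t hg0 ht0] at h3
    exact h3
  refine ⟨g, hg0, ?_, ?_⟩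
  · obtain ⟨f, hf0, hf⟩ := hunr
    obtain ⟨t, ht0, h⟩ := key i f hf0 (Or.inr (by omega))
    have h1 := h80_through_eq_zero V hi hδm
    have h2 := h80_v_nonneg V i t ht0
    omega
  · intro j hj hji
    by_cases hj1 : j = c
    · subst hj1
      exact hc g hg0 hg₁
    obtain ⟨f, hf0, hfi, hfj⟩ := hseph j hj hji hj1
    obtain ⟨t, ht0, h⟩ := key j f hf0 (Or.inr hfi)
    have h1 := h80_through_eq_zero V hj hδm
    have h2 := h80_v_nonneg V j t ht0
    have h3 := h80_v_nonneg V j g hg0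
    omega

/-- **(PT-INST)**: a smooth point of a reduced component, in the frozen interface `h62_Pt`
(`z = q`, `e = 1`), from lattice data only.  `p₁` is the component through the point, `p'` the
other components, `D₁` the point, `m` the kernel of the value at the point. -/
theorem h31_pt_of_lattice (V : h80_ValFam F ι) [IsNoetherianRing V.B] (q : ℕ)
    (hq0 : (q : F) ≠ 0) (D₁ : h31_DV k Fb₁)
    (red : V.B →+* Rb) (hker : ∀ r : V.B, red r = 0 → ∃ r' : V.B, r = (q : V.B) * r')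
    (hredq : red (q : V.B) = 0)
    (p₁ : Rb →+* Fb₁) (p' : Rb →+* Rb')
    (hinj : ∀ h : Rb, p₁ h = 0 → p' h = 0 → h = 0)
    (hreg₁ : ∀ r : V.B, D₁.Reg (p₁ (red r)))
    (hconst : ∀ c : k, ∃ r : V.B, p₁ (red r) = algebraMap k Fb₁ c)
    (hrich : ∀ q₁ : Fb₁, D₁.Reg q₁ → ∃ τ ρ : V.B, p' (red τ) = 0 ∧ p' (red ρ) = 0 ∧
      D₁.ev (p₁ (red τ)) ≠ 0 ∧ p₁ (red ρ) = p₁ (red τ) * q₁)
    (m : Ideal V.B) (hm : ∀ f : V.B, f ∈ m ↔ D₁.ev (p₁ (red f)) = 0)
    (c : ι)
    (hc : ∀ f : V.B, (f : F) ≠ 0 → (p₁ (red f) = 0 ↔ 0 < V.v c f))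
    (hc' : ∀ j, j ≠ c → ∀ f : V.B, (f : F) ≠ 0 → p' (red f) = 0 → V.v j (q : F) ≤ V.v j f)
    (vq : V.v c (q : F) = 1)
    (hunr : ∀ i, V.v i (q : F) = 0 → V.Through m i → ∃ f : V.B, (f : F) ≠ 0 ∧ V.v i f = 1)
    (hsep : ∀ i j, V.v i (q : F) = 0 → V.v j (q : F) = 0 → V.Through m i → V.Through m j →
      i ≠ j → ∃ f : V.B, (f : F) ≠ 0 ∧ 0 < V.v i f ∧ V.v j f = 0) :
    h62_Pt V q m c (q : V.B) 1 := by
  have hqc : (((q : ℕ) : V.B) : F) = (q : F) := by push_cast; rfl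
  have hq0' : (((q : ℕ) : V.B) : F) ≠ 0 := by rw [hqc]; exact hq0
  have hmker : m = RingHom.ker (h31_evHom D₁ red p₁ hreg₁) := by
    ext f
    rw [hm, RingHom.mem_ker, h31_evHom_apply]
  have hsurj : Function.Surjective (h31_evHom D₁ red p₁ hreg₁) := by
    intro x
    obtain ⟨r, hr⟩ := hconst x
    exact ⟨r, by rw [h31_evHom_apply, hr, D₁.ev_algebraMap]⟩
  have hmax : m.IsMaximal := by
    rw [hmker]
    exact RingHom.ker_isMaximal_of_surjective _ hsurj
  -- a separator of the component `c` from the other components, a unit at the point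
  obtain ⟨η, -, hη', -, hηev, -⟩ := hrich 1 (Or.inr (by rw [D₁.ord_one]))
  have hηm : η ∉ m := fun h => hηev ((hm η).1 h)
  have hη0 : (η : F) ≠ 0 := h80_ne_zero_of_not_mem V hηm
  have hc0 : ∀ f : V.B, (f : F) ≠ 0 → p₁ (red f) ≠ 0 → V.v c f = 0 := by
    intro f hf0 hne
    have h1 := h80_v_nonneg V c f hf0
    by_contra h
    exact hne ((hc f hf0).2 (lt_of_le_of_ne h1 (Ne.symm h)))
  have hvert : ∀ i, V.Through m i → 0 < V.v i (q : F) → i = c := by
    intro i hi hiq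
    by_contra hic
    have h1 := hc' i hic η hη0 hη'
    exact hηm (hi η hη0 (lt_of_lt_of_le hiq h1))
  have hhor : ∀ i, V.Through m i → i ≠ c → V.v i (q : F) = 0 := by
    intro i hi hic
    have h1 := h80_v_nonneg V i (q : V.B) hq0'
    rw [hqc] at h1
    by_contra h
    exact hic (hvert i hi (lt_of_le_of_ne h1 (Ne.symm h)))
  refine ⟨hmax, (hm _).2 (by rw [hredq, map_zero]; exact D₁.ev_zero), hq0, ?_, hvert, hq0',
    by rw [hqc]; exact vq, fun i hi hic => by rw [hqc]; exact hhor i hi hic,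
    by rw [vq]; norm_num, ?_⟩
  · intro f hf0 hpos
    rw [hm, (hc f hf0).2 hpos]
    exact D₁.ev_zero
  · intro i hi
    by_cases hic : i = c
    · subst hic
      exact ⟨(q : F), hq0, vq, fun j hj hji => hhor j hj hji⟩
    have hiq : V.v i (q : F) = 0 := hhor i hi hic
    have hηc : V.v c η = 0 := by
      apply hc0 η hη0
      intro h
      apply hηev
      rw [h]
      exact D₁.ev_zero
    obtain ⟨f, hf0, hf1⟩ := hunr i hiq hi
    obtain ⟨f', hf'0, hf'i, hf'c⟩ := h31_exists_sep V (q : V.B) hq0' c i (by rw [hqc]; exact hiq)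
      (by rw [hqc]; exact vq) η hη0 hηc (fun j hj => by rw [hqc]; exact hc' j hj η hη0 hη')
      f hf0 (by omega)
    exact h31_unitStar_pt_horiz V m D₁ (q : V.B) hq0' red hker hredq p₁ p' hinj hreg₁ hrich
      (fun f hf hmem => hf ((hm f).1 hmem)) c hc0 i hi (by rw [hqc]; exact hiq)
      (IsNoetherian.noetherian _) ⟨f, hf0, hf1⟩
      ⟨f', hf'0, hf'i, fun h => by
        have := (hc f' hf'0).1 h
        omega⟩
      (fun j hj hji hjc => hsep i j hiq (hhor j hj hjc) hi hj (Ne.symm hji))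

end OneBranch

section TwoBranch

variable {Rb k Fb₁ Fb₂ Rb' : Type*} [CommRing Rb] [Field k] [Field Fb₁] [Field Fb₂]
  [Algebra k Fb₁] [Algebra k Fb₂] [CommRing Rb']

/-- **(NODE-INST)**: a thickness-one node in the frozen interface `h62_Node`, from lattice data
only.  `p₁, p₂` are the two components through the node, `p'` the other components, `D₁, D₂` the
two points of the node, `m` the kernel of the value at the node; `a, b` with `a b = q ψ`, `ψ` a
unit at the node, `a` (resp. `b`) restricting to a local parameter of the second (resp. first)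
branch. -/
theorem h31_node_of_lattice (V : h80_ValFam F ι) [IsNoetherianRing V.B] (q : ℕ)
    (hq0 : (q : F) ≠ 0) (D₁ : h31_DV k Fb₁) (D₂ : h31_DV k Fb₂)
    (red : V.B →+* Rb) (hker : ∀ r : V.B, red r = 0 → ∃ r' : V.B, r = (q : V.B) * r')
    (hredq : red (q : V.B) = 0)
    (p₁ : Rb →+* Fb₁) (p₂ : Rb →+* Fb₂) (p' : Rb →+* Rb')
    (hinj : ∀ h : Rb, p₁ h = 0 → p₂ h = 0 → p' h = 0 → h = 0)
    (hreg₁ : ∀ r : V.B, D₁.Reg (p₁ (red r))) (hreg₂ : ∀ r : V.B, D₂.Reg (p₂ (red r)))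
    (hmatch : ∀ r : V.B, D₁.ev (p₁ (red r)) = D₂.ev (p₂ (red r)))
    (hconst : ∀ c : k, ∃ r : V.B, p₁ (red r) = algebraMap k Fb₁ c ∧
      p₂ (red r) = algebraMap k Fb₂ c)
    (hrich : ∀ (q₁ : Fb₁) (q₂ : Fb₂), D₁.Reg q₁ → D₂.Reg q₂ → D₁.ev q₁ = D₂.ev q₂ →
      ∃ τ ρ : V.B, p' (red τ) = 0 ∧ p' (red ρ) = 0 ∧ D₂.ev (p₂ (red τ)) ≠ 0 ∧
        p₁ (red ρ) = p₁ (red τ) * q₁ ∧ p₂ (red ρ) = p₂ (red τ) * q₂)
    (m : Ideal V.B) (hm : ∀ f : V.B, f ∈ m ↔ D₂.ev (p₂ (red f)) = 0)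
    (c1 c2 : ι) (c_ne : c1 ≠ c2)
    (hc1 : ∀ f : V.B, (f : F) ≠ 0 → (p₁ (red f) = 0 ↔ 0 < V.v c1 f))
    (hc2 : ∀ f : V.B, (f : F) ≠ 0 → (p₂ (red f) = 0 ↔ 0 < V.v c2 f))
    (hc' : ∀ j, j ≠ c1 → j ≠ c2 → ∀ f : V.B, (f : F) ≠ 0 → p' (red f) = 0 →
      V.v j (q : F) ≤ V.v j f)
    (vq1 : V.v c1 (q : F) = 1) (vq2 : V.v c2 (q : F) = 1)
    (a b ψ : V.B) (hab : a * b = (q : V.B) * ψ)
    (ha0 : p₂ (red a) ≠ 0) (ha : D₂.ord (p₂ (red a)) = 1)
    (hb0 : p₁ (red b) ≠ 0) (hb : D₁.ord (p₁ (red b)) = 1)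
    (hψ : D₂.ev (p₂ (red ψ)) ≠ 0)
    (hunr : ∀ i, V.v i (q : F) = 0 → V.Through m i → ∃ f : V.B, (f : F) ≠ 0 ∧ V.v i f = 1)
    (hsep : ∀ i j, V.v i (q : F) = 0 → V.v j (q : F) = 0 → V.Through m i → V.Through m j →
      i ≠ j → ∃ f : V.B, (f : F) ≠ 0 ∧ 0 < V.v i f ∧ V.v j f = 0) :
    h62_Node V q m c1 c2 a b := by
  have hqc : (((q : ℕ) : V.B) : F) = (q : F) := by push_cast; rfl
  have hq0' : (((q : ℕ) : V.B) : F) ≠ 0 := by rw [hqc]; exact hq0
  have hmker : m = RingHom.ker (h31_evHom D₂ red p₂ hreg₂) := by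
    ext f
    rw [hm, RingHom.mem_ker, h31_evHom_apply]
  have hsurj : Function.Surjective (h31_evHom D₂ red p₂ hreg₂) := by
    intro x
    obtain ⟨r, -, hr⟩ := hconst x
    exact ⟨r, by rw [h31_evHom_apply, hr, D₂.ev_algebraMap]⟩
  have hmax : m.IsMaximal := by
    rw [hmker]
    exact RingHom.ker_isMaximal_of_surjective _ hsurj
  have hnm : ∀ f : V.B, D₂.ev (p₂ (red f)) ≠ 0 → f ∉ m := fun f hf hmem => hf ((hm f).1 hmem)
  have h1ev₁ : D₁.ev 1 = 1 := by
    rw [← map_one (algebraMap k Fb₁)]; exact D₁.ev_algebraMap 1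
  have h1ev₂ : D₂.ev 1 = 1 := by
    rw [← map_one (algebraMap k Fb₂)]; exact D₂.ev_algebraMap 1
  have hc10 : ∀ f : V.B, (f : F) ≠ 0 → p₁ (red f) ≠ 0 → V.v c1 f = 0 := by
    intro f hf0 hne
    have h1 := h80_v_nonneg V c1 f hf0
    by_contra h
    exact hne ((hc1 f hf0).2 (lt_of_le_of_ne h1 (Ne.symm h)))
  have hc20 : ∀ f : V.B, (f : F) ≠ 0 → p₂ (red f) ≠ 0 → V.v c2 f = 0 := by
    intro f hf0 hne
    have h1 := h80_v_nonneg V c2 f hf0
    by_contra h
    exact hne ((hc2 f hf0).2 (lt_of_le_of_ne h1 (Ne.symm h)))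
  have hne₁ : ∀ f : V.B, D₂.ev (p₂ (red f)) ≠ 0 → p₁ (red f) ≠ 0 := by
    intro f hf h
    apply hf
    rw [← hmatch, h]
    exact D₁.ev_zero
  have hne₂ : ∀ f : V.B, D₂.ev (p₂ (red f)) ≠ 0 → p₂ (red f) ≠ 0 := by
    intro f hf h
    apply hf
    rw [h]
    exact D₂.ev_zero
  -- a separator of the two branches from the other components, a unit at the node
  obtain ⟨η, -, hη', -, hηev, -, -⟩ := hrich 1 1 (Or.inr (by rw [D₁.ord_one]))
    (Or.inr (by rw [D₂.ord_one])) (by rw [h1ev₁, h1ev₂])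
  have hηm : η ∉ m := hnm η hηev
  have hη0 : (η : F) ≠ 0 := h80_ne_zero_of_not_mem V hηm
  have hη1 : V.v c1 η = 0 := hc10 η hη0 (hne₁ η hηev)
  have hη2 : V.v c2 η = 0 := hc20 η hη0 (hne₂ η hηev)
  have hψm : ψ ∉ m := hnm ψ hψ
  have hψ0 : (ψ : F) ≠ 0 := h80_ne_zero_of_not_mem V hψm
  have habF : (a : F) * (b : F) = (q : F) * (ψ : F) := by
    have := congrArg (fun x : V.B => (x : F)) hab
    simpa [hqc] using this
  have hab0 : (a : F) * (b : F) ≠ 0 := by rw [habF]; exact mul_ne_zero hq0 hψ0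
  have a_ne : (a : F) ≠ 0 := left_ne_zero_of_mul hab0
  have b_ne : (b : F) ≠ 0 := right_ne_zero_of_mul hab0
  have hredab : red a * red b = 0 := by
    rw [← map_mul, hab, map_mul, hredq, zero_mul]
  have ha1 : p₁ (red a) = 0 := by
    have h := congrArg p₁ hredab
    rw [map_mul, map_zero] at h
    exact (mul_eq_zero.mp h).resolve_right hb0
  have hb2 : p₂ (red b) = 0 := by
    have h := congrArg p₂ hredab
    rw [map_mul, map_zero] at h
    exact (mul_eq_zero.mp h).resolve_left ha0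
  have thr1 : V.Through m c1 := by
    intro f hf0 hpos
    rw [hm, ← hmatch, (hc1 f hf0).2 hpos]
    exact D₁.ev_zero
  have thr2 : V.Through m c2 := by
    intro f hf0 hpos
    rw [hm, (hc2 f hf0).2 hpos]
    exact D₂.ev_zero
  have hvert : ∀ i, V.Through m i → 0 < V.v i (q : F) → i = c1 ∨ i = c2 := by
    intro i hi hiq
    by_contra hic
    push Not at hic
    have h1 := hc' i hic.1 hic.2 η hη0 hη'
    exact hηm (hi η hη0 (lt_of_lt_of_le hiq h1))
  have hhoriz : ∀ i, V.Through m i → i ≠ c1 → i ≠ c2 → V.v i (q : F) = 0 := by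
    intro i hi h1 h2
    have h3 := h80_v_nonneg V i (q : V.B) hq0'
    rw [hqc] at h3
    by_contra h
    exact (hvert i hi (lt_of_le_of_ne h3 (Ne.symm h))).elim h1 h2
  -- the valuations of `a` and `b`
  have hsum : ∀ i, V.Through m i → V.v i a + V.v i b = V.v i (q : F) := by
    intro i hi
    have h := congrArg (V.v i) habF
    rw [V.map_mul i _ _ a_ne b_ne, V.map_mul i _ _ hq0 hψ0, h80_through_eq_zero V hi hψm,
      add_zero] at h
    exact h
  have hb1 : V.v c1 b = 0 := hc10 b b_ne hb0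
  have ha2 : V.v c2 a = 0 := hc20 a a_ne ha0
  have va1 : V.v c1 a = 1 := by
    have := hsum c1 thr1
    omega
  have vb2 : V.v c2 b = 1 := by
    have := hsum c2 thr2
    omega
  have va : ∀ i, V.Through m i → i ≠ c1 → V.v i a = 0 := by
    intro i hi h1
    by_cases h2 : i = c2
    · rw [h2]; exact ha2
    have h3 := hsum i hi
    rw [hhoriz i hi h1 h2] at h3
    have h4 := h80_v_nonneg V i a a_ne
    have h5 := h80_v_nonneg V i b b_ne
    omega
  have vb : ∀ i, V.Through m i → i ≠ c2 → V.v i b = 0 := by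
    intro i hi h2
    by_cases h1 : i = c1
    · rw [h1]; exact hb1
    have h3 := hsum i hi
    rw [hhoriz i hi h1 h2] at h3
    have h4 := h80_v_nonneg V i a a_ne
    have h5 := h80_v_nonneg V i b b_ne
    omega
  refine ⟨hmax, (hm _).2 (by rw [hredq, map_zero]; exact D₂.ev_zero), hq0, c_ne, thr1, thr2, hvert,
    hhoriz, vq1, vq2, a_ne, b_ne, va1, va, vb2, vb, ?_, ?_⟩
  · -- `m = (a, b)` at the node
    intro f hf
    have hf2 : D₂.ev (p₂ (red f)) = 0 := (hm f).1 hf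
    have hf1 : D₁.ev (p₁ (red f)) = 0 := by rw [hmatch]; exact hf2
    have hq₁ : D₁.Reg (p₁ (red f) / p₁ (red b)) := by
      apply h31_reg_div D₁ hb0
      intro hx
      have h1 := (hreg₁ f).resolve_left hx
      have h2 := (D₁.ev_eq_zero _ hx h1).1 hf1
      omega
    have hq₂ : D₂.Reg (p₂ (red f) / p₂ (red a)) := by
      apply h31_reg_div D₂ ha0
      intro hx
      have h1 := (hreg₂ f).resolve_left hx
      have h2 := (D₂.ev_eq_zero _ hx h1).1 hf2
      omega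
    obtain ⟨τ₁, ρ₁, hτ₁', hρ₁', hτ₁ev, hρ₁, -⟩ := hrich _ (algebraMap k Fb₂ (D₁.ev (p₁ (red f) /
      p₁ (red b)))) hq₁ (D₂.reg_algebraMap _) (by rw [D₂.ev_algebraMap])
    obtain ⟨τ₂, ρ₂, hτ₂', hρ₂', hτ₂ev, -, hρ₂⟩ := hrich (algebraMap k Fb₁ (D₂.ev (p₂ (red f) /
      p₂ (red a)))) _ (D₁.reg_algebraMap _) hq₂ (by rw [D₁.ev_algebraMap])
    have hred : red (τ₁ * τ₂ * f - ρ₂ * τ₁ * a - ρ₁ * τ₂ * b) = 0 := by
      apply hinj
      · simp only [map_sub, map_mul]
        rw [ha1, hρ₁, mul_zero, sub_zero]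
        have : p₁ (red f) / p₁ (red b) * p₁ (red b) = p₁ (red f) := div_mul_cancel₀ _ hb0
        linear_combination (-(p₁ (red τ₁) * p₁ (red τ₂))) * this
      · simp only [map_sub, map_mul]
        rw [hb2, hρ₂, mul_zero, sub_zero]
        have : p₂ (red f) / p₂ (red a) * p₂ (red a) = p₂ (red f) := div_mul_cancel₀ _ ha0
        linear_combination (-(p₂ (red τ₁) * p₂ (red τ₂))) * this
      · simp only [map_sub, map_mul]
        rw [hτ₁', hρ₁', hρ₂']
        ring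
    obtain ⟨w, hw⟩ := hker _ hred
    refine ⟨ψ * τ₁ * τ₂, ψ * ρ₂ * τ₁ + b * w, ψ * ρ₁ * τ₂, ?_, ?_⟩
    · intro hmem
      rw [hmker, RingHom.mem_ker, map_mul, map_mul, h31_evHom_apply, h31_evHom_apply,
        h31_evHom_apply] at hmem
      exact mul_ne_zero (mul_ne_zero hψ hτ₁ev) hτ₂ev hmem
    · linear_combination ψ * hw - w * hab
  · -- (UNIT*)
    have hη₁ord : D₁.ord (p₁ (red η)) = 0 :=
      (D₁.ord_eq_zero_of_ev_ne (hreg₁ η) (by rw [hmatch]; exact hηev)).2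
    have hηb0 : (η : F) * (b : F) ≠ 0 := mul_ne_zero hη0 b_ne
    have hop : ∀ φ : V.B, p₁ (red φ) = 0 → p' (red φ) = 0 →
        ∃ φ' : V.B, (q : V.B) * φ' = b * φ := by
      intro φ h1 h2
      have hred : red (b * φ) = 0 := by
        apply hinj
        · rw [map_mul, map_mul, h1, mul_zero]
        · rw [map_mul, map_mul, hb2, zero_mul]
        · rw [map_mul, map_mul, h2, mul_zero]
      obtain ⟨φ', hφ'⟩ := hker _ hred
      exact ⟨φ', hφ'.symm⟩
    refine h31_unitStar_node V m D₁ D₂ (q : V.B) hq0' red hker hredq p₁ p₂ p' hinj hreg₁ hreg₂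
      hconst (η * b) (by rw [map_mul, map_mul, hb2, mul_zero])
      (by rw [map_mul, map_mul, hη', zero_mul])
      (by rw [map_mul, map_mul]; exact mul_ne_zero (hne₁ η hηev) hb0)
      (by rw [map_mul, map_mul, D₁.ord_mul _ _ (hne₁ η hηev) hb0, hη₁ord, hb, zero_add])
      hrich a b ψ hab ha0 ha hψ hop hnm c1 c2 hc10 hc20 a_ne b_ne va1 va vb2 vb ?_
    intro i hi h1 h2
    have hiq : V.v i (q : F) = 0 := hhoriz i hi h1 h2
    have hiq' : V.v i (((q : ℕ) : V.B) : F) = 0 := by rw [hqc]; exact hiq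
    obtain ⟨f, hf0, hf1⟩ := hunr i hiq hi
    -- lowering on the first branch with `b η`, on the second with `a η`
    obtain ⟨f₁, hf₁0, hf₁i, hf₁c⟩ := h31_exists_sep V (q : V.B) hq0' c1 i hiq'
      (by rw [hqc]; exact vq1) (b * η) (by rw [Subring.coe_mul]; exact mul_ne_zero b_ne hη0)
      (by rw [Subring.coe_mul, V.map_mul c1 _ _ b_ne hη0, hb1, hη1, add_zero])
      (fun j hj => by
        rw [hqc, Subring.coe_mul, V.map_mul j _ _ b_ne hη0]
        by_cases hj2 : j = c2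
        · rw [hj2, vq2, vb2, hη2, add_zero]
        · have h3 := hc' j hj hj2 η hη0 hη'
          have h4 := h80_v_nonneg V j b b_ne
          omega)
      f hf0 (by omega)
    obtain ⟨f₂, hf₂0, hf₂i, hf₂c⟩ := h31_exists_sep V (q : V.B) hq0' c2 i hiq'
      (by rw [hqc]; exact vq2) (a * η) (by rw [Subring.coe_mul]; exact mul_ne_zero a_ne hη0)
      (by rw [Subring.coe_mul, V.map_mul c2 _ _ a_ne hη0, ha2, hη2, add_zero])
      (fun j hj => by
        rw [hqc, Subring.coe_mul, V.map_mul j _ _ a_ne hη0]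
        by_cases hj1 : j = c1
        · rw [hj1, vq1, va1, hη1, add_zero]
        · have h3 := hc' j hj1 hj η hη0 hη'
          have h4 := h80_v_nonneg V j a a_ne
          omega)
      f hf0 (by omega)
    refine ⟨hiq', IsNoetherian.noetherian _, ⟨f, hf0, hf1⟩, ⟨f₁, hf₁0, hf₁i, fun h => ?_⟩,
      ⟨f₂, hf₂0, hf₂i, fun h => ?_⟩, fun j hj hji hj1 hj2 =>
        hsep i j hiq (hhoriz j hj hj1 hj2) hi hj (Ne.symm hji)⟩
    · have := (hc1 f₁ hf₁0).1 h
      omega
    · have := (hc2 f₂ hf₂0).1 h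
      omega

end TwoBranch

end Fermat.Agent.S40
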