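import Mathlib
import Fermat.Prelude.Def_ModularCurve_ReductionModL
import Fermat.Agent.S37.h60_RedInputs
import Fermat.Agent.S17.h56_DivJZero
import Fermat.Agent.S27.h64_LiftDiv

/-!
# S40 / (BRIDGE): the place reduction is unique, and `reductionModL` is onto (helper79)

On main the specialisation map `sp := ModularCurve.reductionModL A M : JZero M → JZeroC k M` is
defined through a *chosen* place reduction (`placeReductionModL h = h.choose`), whereas every
geometric fact of the S18/S27 layers (surjectivity, lifting of divisors, Riemann–Roch lifting) is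
stated for the map `S.r0` of an `h39_PlaceRed` of the modular reduction datum.  The two are linked
here, at every level `M` prime to `ℓ` carrying a chart (`5 ≤ ℓ ∨ 2 ∣ M ∨ 3 ∣ M`):

* `h79_placeRed_eq` : **(RED-UNIQ)** every `r` with `IsPlaceReductionModL A M r` equals `S.r0`
  (rigidity: `Hom(divisible, free) = 0`, the Prelude's
  `IsPlaceReductionAlong.eq_or_const_of_agree`, + `S.two`);
* `h79_placeRed_unique` : two place reductions coincide;
* `h79_placeRed_surjective` : every place reduction is onto;
* `h79_exists_lift_degZero` : every divisor of degree `0` of the residue field is the reduction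
  of a divisor of degree `0`;
* `h79_reductionModL_mk` : `reductionModL A M (Pic0.mk D) = Pic0.mk (r_* D)` for ANY place
  reduction `r` (not only the chosen one);
* `h79_reductionModL_mk_eq_zero_iff` : `reductionModL A M (Pic0.mk D) = 0 ↔ r_* D` is principal;
* `h79_reductionModL_surjective` : **(SP-ONTO)** `reductionModL A M` is onto `Pic⁰` of the
  residue function field.
-/

set_option autoImplicit false
set_option synthInstance.maxHeartbeats 400000

noncomputable section

open ModularCurve AlgebraicCurve

namespace Fermat.Agent.S40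

open Fermat.Agent.S18 Fermat.Agent.S24 Fermat.Agent.S27 Fermat.Agent.S37 Fermat.Agent.S17

local notation "Qb" => AlgebraicClosure ℚ

section

variable (M : ℕ) [NeZero M] {ℓ : ℕ} [Fact ℓ.Prime] (hℓM : ¬ ℓ ∣ M)
  (A : ValuationSubring Qb) (hA : A.LiesOverPrime ℓ)

/-- **(RED-UNIQ)** Every place reduction in the Prelude's sense is the map `S.r0` of any
`h39_PlaceRed` of the modular reduction datum. -/
theorem h79_placeRed_eq (S : h39_PlaceRed (h39_modRed M hℓM A hA))
    {r : Place Qb (modularFunctionFieldBar M) →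
      Place (IsLocalRing.ResidueField A) (modularFunctionFieldFullC (IsLocalRing.ResidueField A) M)}
    (hr : IsPlaceReductionModL A M r) : r = S.r0 := by
  have hk : IsAlgClosed (IsLocalRing.ResidueField A) := h19_residueField_isAlgClosed A
  have hS : IsPlaceReductionModL A M S.r0 :=
    h60_isPlaceRed_of_placeRed M A (h39_modRed_spec M hℓM A hA)
      (h39_modRed_weakChart_j M hℓM A hA) S
  have hagree : ∀ D ∈ integralPrincipalDivisors A (IsLocalRing.residue A) M,
      Finsupp.mapDomain S.r0 D = Finsupp.mapDomain r D := by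
    rintro D ⟨y, hy, hyk, hne, hD⟩
    ext Q
    rw [hS.2 y hy hyk hne D hD Q, hr.2 y hy hyk hne D hD Q]
  rcases IsPlaceReductionAlong.eq_or_const_of_agree (h62_PGI M hℓM A hA) hagree
    (h75_deg_eq_one (h54_isChart_jbar M)) (h56_jzero_divisible M) with h | h
  · exact h.symm
  · obtain ⟨P₁, P₂, h12⟩ := S.two
    exact absurd (h P₁ P₂) h12

include hℓM hA in
/-- Two place reductions at a level carrying a chart coincide. -/
theorem h79_placeRed_unique (hch : 5 ≤ ℓ ∨ 2 ∣ M ∨ 3 ∣ M)
    {r₁ r₂ : Place Qb (modularFunctionFieldBar M) →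
      Place (IsLocalRing.ResidueField A) (modularFunctionFieldFullC (IsLocalRing.ResidueField A) M)}
    (h₁ : IsPlaceReductionModL A M r₁) (h₂ : IsPlaceReductionModL A M r₂) : r₁ = r₂ := by
  have hk : IsAlgClosed (IsLocalRing.ResidueField A) := h19_residueField_isAlgClosed A
  obtain ⟨x, hx⟩ := h60_exists_chart M hℓM A hA hch
  obtain ⟨S⟩ := h39_nonempty_placeRed_of_chart (h39_modRed M hℓM A hA) hx
  rw [h79_placeRed_eq M hℓM A hA S h₁, h79_placeRed_eq M hℓM A hA S h₂]

include hℓM hA in
/-- Every place reduction at a level carrying a chart is onto. -/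
theorem h79_placeRed_surjective (hch : 5 ≤ ℓ ∨ 2 ∣ M ∨ 3 ∣ M)
    {r : Place Qb (modularFunctionFieldBar M) →
      Place (IsLocalRing.ResidueField A) (modularFunctionFieldFullC (IsLocalRing.ResidueField A) M)}
    (hr : IsPlaceReductionModL A M r) : Function.Surjective r := by
  have hk : IsAlgClosed (IsLocalRing.ResidueField A) := h19_residueField_isAlgClosed A
  obtain ⟨x, hx⟩ := h60_exists_chart M hℓM A hA hch
  obtain ⟨S⟩ := h39_nonempty_placeRed_of_chart (h39_modRed M hℓM A hA) hx
  have := h75_hasPrincipalDivisors (h54_isChart_jbar M)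
  rw [h79_placeRed_eq M hℓM A hA S hr]
  exact h64_r0_surjective _ S

include hℓM hA in
/-- Every divisor of degree `0` of the residue function field is the reduction of a divisor of
degree `0`. -/
theorem h79_exists_lift_degZero (hch : 5 ≤ ℓ ∨ 2 ∣ M ∨ 3 ∣ M)
    {r : Place Qb (modularFunctionFieldBar M) →
      Place (IsLocalRing.ResidueField A) (modularFunctionFieldFullC (IsLocalRing.ResidueField A) M)}
    (hr : IsPlaceReductionModL A M r)
    (Db : Divisor (IsLocalRing.ResidueField A)
      (modularFunctionFieldFullC (IsLocalRing.ResidueField A) M)) :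
    ∃ D : Divisor Qb (modularFunctionFieldBar M),
      Finsupp.mapDomain r D = Db ∧ Divisor.degree D = Divisor.degree Db := by
  have hk : IsAlgClosed (IsLocalRing.ResidueField A) := h19_residueField_isAlgClosed A
  obtain ⟨x, hx⟩ := h60_exists_chart M hℓM A hA hch
  obtain ⟨S⟩ := h39_nonempty_placeRed_of_chart (h39_modRed M hℓM A hA) hx
  have hxK : h75_IsChart Qb x := h39_weakChart_isChart _ hx.toh39_WeakChart
  have hxk := h39_weakChart_isChart_red _ hx.toh39_WeakChart
  have := h75_hasPrincipalDivisors hxK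
  obtain ⟨D, hD, hdeg, -⟩ := h64_exists_lift_divisor (h39_modRed M hℓM A hA) S hxK hxk
    (fun _ _ => True) (fun Q => (h64_r0_surjective _ S Q).imp fun P hP => ⟨hP, trivial⟩) Db
  rw [h79_placeRed_eq M hℓM A hA S hr]
  exact ⟨D, hD, hdeg⟩

end

section

variable {M : ℕ} [NeZero M] {ℓ : ℕ} [Fact ℓ.Prime] {A : ValuationSubring Qb}

omit [NeZero M] in
/-- Transport of `reductionDegZeroAlong` along an equality of place maps. -/
theorem h79_reductionDegZeroAlong_congr
    {r₁ r₂ : Place Qb (modularFunctionFieldBar M) →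
      Place (IsLocalRing.ResidueField A) (modularFunctionFieldFullC (IsLocalRing.ResidueField A) M)}
    (h : r₁ = r₂) (h₁ : ∀ P, (r₁ P).deg = P.deg) (h₂ : ∀ P, (r₂ P).deg = P.deg)
    (D : Divisor.degZero (K := Qb) (F := modularFunctionFieldBar M)) :
    reductionDegZeroAlong r₁ h₁ D = reductionDegZeroAlong r₂ h₂ D := by
  subst h
  rfl

/-- **Bridge lemma**: `reductionModL` is computed by ANY place reduction. -/
theorem h79_reductionModL_mk (hℓM : ¬ ℓ ∣ M) (hA : A.LiesOverPrime ℓ)
    (hch : 5 ≤ ℓ ∨ 2 ∣ M ∨ 3 ∣ M)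
    {r : Place Qb (modularFunctionFieldBar M) →
      Place (IsLocalRing.ResidueField A) (modularFunctionFieldFullC (IsLocalRing.ResidueField A) M)}
    (hr : IsPlaceReductionModL A M r)
    (D : Divisor.degZero (K := Qb) (F := modularFunctionFieldBar M)) :
    reductionModL A M (Pic0.mk D) = Pic0.mk (reductionDegZeroAlong r hr.1 D) := by
  have h : ReductionInputsModL A M := ⟨r, hr, h62_PGI M hℓM A hA⟩
  rw [reductionModL_mk h]
  exact congrArg Pic0.mk (h79_reductionDegZeroAlong_congr
    (h79_placeRed_unique M hℓM A hA hch (isPlaceReductionModL_placeReductionModL h) hr) _ _ D)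

/-- `reductionModL A M [D] = 0` iff the reduced divisor `r_* D` is principal, for ANY place
reduction `r`. -/
theorem h79_reductionModL_mk_eq_zero_iff (hℓM : ¬ ℓ ∣ M) (hA : A.LiesOverPrime ℓ)
    (hch : 5 ≤ ℓ ∨ 2 ∣ M ∨ 3 ∣ M)
    {r : Place Qb (modularFunctionFieldBar M) →
      Place (IsLocalRing.ResidueField A) (modularFunctionFieldFullC (IsLocalRing.ResidueField A) M)}
    (hr : IsPlaceReductionModL A M r)
    (D : Divisor.degZero (K := Qb) (F := modularFunctionFieldBar M)) :
    reductionModL A M (Pic0.mk D) = 0 ↔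
      Finsupp.mapDomain r (D : Divisor Qb (modularFunctionFieldBar M)) ∈
        Divisor.principal (K := IsLocalRing.ResidueField A)
          (F := modularFunctionFieldFullC (IsLocalRing.ResidueField A) M) := by
  rw [h79_reductionModL_mk hℓM hA hch hr D]
  unfold Pic0.mk
  rw [QuotientAddGroup.eq_zero_iff, AddSubgroup.mem_addSubgroupOf]
  rfl

/-- **(SP-ONTO)** The specialisation map `reductionModL A M : J₀(M)(Q̄) → Pic⁰(X₀(M)_k)` is
onto, at every level `M` prime to `ℓ` carrying a chart. -/
theorem h79_reductionModL_surjective (hℓM : ¬ ℓ ∣ M) (hA : A.LiesOverPrime ℓ)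
    (hch : 5 ≤ ℓ ∨ 2 ∣ M ∨ 3 ∣ M) : Function.Surjective (reductionModL A M) := by
  intro c
  obtain ⟨Db, rfl⟩ := Pic0.mk_surjective c
  obtain ⟨r, hr⟩ := h60_exists_placeReduction M hℓM A hA hch
  obtain ⟨D, hD, hdeg⟩ := h79_exists_lift_degZero M hℓM A hA hch hr
    (Db : Divisor (IsLocalRing.ResidueField A)
      (modularFunctionFieldFullC (IsLocalRing.ResidueField A) M))
  have hD0 : D ∈ Divisor.degZero (K := Qb) (F := modularFunctionFieldBar M) := by
    rw [Divisor.mem_degZero, hdeg]
    exact Divisor.mem_degZero.mp Db.2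
  refine ⟨Pic0.mk ⟨D, hD0⟩, ?_⟩
  rw [h79_reductionModL_mk hℓM hA hch hr]
  exact congrArg Pic0.mk (Subtype.ext hD)

end

end Fermat.Agent.S40

end
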