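/-
S40 / G40 row (E1) (helper10): norms along a level inclusion commute with Gauss reduction.

* `h10_norm_red_abs`   abstract core: a valuation ring `OE` of `E`, a subring `OF` of `F`,
  compatible reductions onto fields, `[Fb : Eb] = [F : E]`  ⟹  `red (N_{F/E} f) = N_{Fb/Eb} (red f)`.
* `h10_normRed_series` the same for intermediate fields of Laurent series with the
  coefficientwise (Gauss) reduction `h19_redFun`.
-/
import Mathlib
import Fermat.Agent.S18.h88_NormCore
import Fermat.Agent.S18.h19_RedAbs

set_option autoImplicit false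
set_option synthInstance.maxHeartbeats 400000

noncomputable section

open ModularCurve IntermediateField

namespace Fermat.Agent.S40

open Fermat.Agent.S18

section Abs

variable {E F Eb Fb : Type*} [Field E] [Field F] [Algebra E F] [Field Eb] [Field Fb]
  [Algebra Eb Fb]

/-- Among finitely many elements of a field with a valuation ring, not all zero, one divides
all the others. -/
theorem h10_exists_max (OE : ValuationSubring E) {n : ℕ} (c : Fin n → E) (hc : ∃ i, c i ≠ 0) :
    ∃ j, c j ≠ 0 ∧ ∀ i, c i / c j ∈ OE := by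
  obtain ⟨i0, hi0⟩ := hc
  obtain ⟨j, -, hj⟩ := Finset.exists_max_image Finset.univ (fun i => OE.valuation (c i))
    ⟨i0, Finset.mem_univ i0⟩
  have hj0 : c j ≠ 0 := by
    intro h0
    have h1 := hj i0 (Finset.mem_univ i0)
    rw [h0, map_zero] at h1
    exact hi0 ((map_eq_zero _).1 (le_antisymm h1 zero_le))
  refine ⟨j, hj0, fun i => ?_⟩
  rw [← OE.valuation_le_one_iff, map_div₀]
  exact div_le_one_of_le₀ (hj i (Finset.mem_univ i)) zero_le

/-- A relation with coefficients in `OE`, one of them `1`, among lifts of a basis reduces to a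
nontrivial relation: impossible. -/
theorem h10_red_sum_ne_zero (OE : ValuationSubring E) (OF : Subring F)
    (redE : OE →+* Eb) (redF : OF →+* Fb)
    (hO : ∀ c : E, c ∈ OE → algebraMap E F c ∈ OF)
    (hred : ∀ (c : E) (hc : c ∈ OE),
      redF ⟨algebraMap E F c, hO c hc⟩ = algebraMap Eb Fb (redE ⟨c, hc⟩))
    {n : ℕ} (bb : Module.Basis (Fin n) Eb Fb) (b : Fin n → OF) (hb : ∀ i, redF (b i) = bb i)
    (d : Fin n → E) (hd : ∀ i, d i ∈ OE) (j : Fin n) (hj : d j = 1)
    (w : OF) (hw : (w : F) = ∑ i, d i • (b i : F)) : redF w ≠ 0 := by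
  intro h0
  have e1 : w = ∑ i, (⟨algebraMap E F (d i), hO _ (hd i)⟩ : OF) * b i := by
    apply Subtype.ext
    rw [hw]
    have e0 : ((∑ i, (⟨algebraMap E F (d i), hO _ (hd i)⟩ : OF) * b i : OF) : F) =
        ∑ i, algebraMap E F (d i) * (b i : F) :=
      (map_sum OF.subtype _ _).trans (Finset.sum_congr rfl fun i _ => rfl)
    rw [e0]
    exact Finset.sum_congr rfl fun i _ => Algebra.smul_def _ _
  rw [e1, map_sum] at h0
  have e2 : ∑ i, redE ⟨d i, hd i⟩ • bb i = 0 := by
    rw [← h0]
    refine Finset.sum_congr rfl fun i _ => ?_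
    rw [map_mul, hred, hb, Algebra.smul_def]
  have e3 := (Fintype.linearIndependent_iff.1 bb.linearIndependent) _ e2 j
  have e4 : (⟨d j, hd j⟩ : OE) = 1 := Subtype.ext hj
  rw [e4, map_one] at e3
  exact one_ne_zero e3

/-- **Abstract core.** -/
theorem h10_norm_red_abs [FiniteDimensional E F] (OE : ValuationSubring E) (OF : Subring F)
    (redE : OE →+* Eb) (redF : OF →+* Fb)
    (hnu : ∀ c : OE, (c : E)⁻¹ ∉ OE → redE c = 0)
    (hO : ∀ c : E, c ∈ OE → algebraMap E F c ∈ OF)
    (hred : ∀ (c : E) (hc : c ∈ OE),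
      redF ⟨algebraMap E F c, hO c hc⟩ = algebraMap Eb Fb (redE ⟨c, hc⟩))
    (hsurj : Function.Surjective redF)
    (hdeg : Module.finrank Eb Fb = Module.finrank E F)
    (f : F) (hf : f ∈ OF) :
    ∃ h : Algebra.norm E f ∈ OE,
      redE ⟨Algebra.norm E f, h⟩ = Algebra.norm Eb (redF ⟨f, hf⟩) := by
  classical
  have hn : 0 < Module.finrank E F := Module.finrank_pos
  have hfinb : Module.Finite Eb Fb := Module.finite_of_finrank_pos (by rw [hdeg]; exact hn)
  set n := Module.finrank E F with hndef
  have hne' : Nonempty (Fin n) := ⟨⟨0, hn⟩⟩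
  let bb : Module.Basis (Fin n) Eb Fb := Module.finBasisOfFinrankEq Eb Fb hdeg
  choose b hb using fun i => hsurj (bb i)
  -- elements of `E` that become integral in `F` are integral
  have hback : ∀ c : E, algebraMap E F c ∈ OF → c ∈ OE := by
    intro c hc
    by_contra hcE
    have hinv : c⁻¹ ∈ OE := (OE.mem_or_inv_mem c).resolve_left hcE
    have hc0 : c ≠ 0 := fun h0 => hcE (h0 ▸ OE.zero_mem)
    have h0 : redE ⟨c⁻¹, hinv⟩ = 0 := hnu ⟨c⁻¹, hinv⟩ (by rw [inv_inv]; exact hcE)
    have h1 : (⟨algebraMap E F c, hc⟩ : OF) * ⟨algebraMap E F c⁻¹, hO _ hinv⟩ = 1 := by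
      apply Subtype.ext
      show algebraMap E F c * algebraMap E F c⁻¹ = 1
      rw [← map_mul, mul_inv_cancel₀ hc0, map_one]
    have h2 := congrArg redF h1
    rw [map_mul, hred c⁻¹ hinv, h0, map_zero, mul_zero, map_one] at h2
    exact zero_ne_one h2
  -- the lifts are linearly independent
  have hli : LinearIndependent E (fun i => (b i : F)) := by
    rw [Fintype.linearIndependent_iff]
    intro g hg
    by_contra hne
    rw [not_forall] at hne
    obtain ⟨j, hj0, hj⟩ := h10_exists_max OE g hne
    have hw : ((0 : OF) : F) = ∑ i, (g i / g j) • (b i : F) := by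
      have : ∑ i, (g i / g j) • (b i : F) = (g j)⁻¹ • ∑ i, g i • (b i : F) := by
        rw [Finset.smul_sum]
        refine Finset.sum_congr rfl fun i _ => ?_
        rw [smul_smul, div_eq_inv_mul]
      rw [this, hg, smul_zero]
      rfl
    exact h10_red_sum_ne_zero OE OF redE redF hO hred bb b hb (fun i => g i / g j) hj j
      (div_self hj0) 0 hw (map_zero redF)
  let B : Module.Basis (Fin n) E F :=
    basisOfLinearIndependentOfCardEqFinrank hli (by rw [Fintype.card_fin])
  have hBb : ∀ i, B i = (b i : F) := fun i => by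
    show (basisOfLinearIndependentOfCardEqFinrank hli _) i = _
    rw [coe_basisOfLinearIndependentOfCardEqFinrank]
  have hB : ∀ i, B i ∈ OF := fun i => by rw [hBb]; exact (b i).2
  -- coordinates of integral elements are integral
  have hcoord : ∀ x ∈ OF, ∀ i, algebraMap E F (B.repr x i) ∈ OF := by
    intro x hx i
    set g : Fin n → E := fun i => B.repr x i with hgdef
    by_cases hg0 : ∃ i, g i ≠ 0
    · obtain ⟨j, hj0, hj⟩ := h10_exists_max OE g hg0
      have hsum : x = ∑ i, g i • (b i : F) := by
        conv_lhs => rw [← B.sum_repr x]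
        exact Finset.sum_congr rfl fun i _ => by rw [hBb]
      have hgj : g j ∈ OE := by
        by_contra hgjE
        have hinv : (g j)⁻¹ ∈ OE := (OE.mem_or_inv_mem _).resolve_left hgjE
        have h0 : redE ⟨(g j)⁻¹, hinv⟩ = 0 := hnu ⟨(g j)⁻¹, hinv⟩ (by rw [inv_inv]; exact hgjE)
        have hw : (((⟨algebraMap E F (g j)⁻¹, hO _ hinv⟩ : OF) * ⟨x, hx⟩ : OF) : F) =
            ∑ i, (g i / g j) • (b i : F) := by
          show algebraMap E F (g j)⁻¹ * x = _
          rw [← Algebra.smul_def]
          conv_lhs => rw [hsum]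
          rw [Finset.smul_sum]
          refine Finset.sum_congr rfl fun i _ => ?_
          rw [smul_smul, div_eq_inv_mul]
        refine h10_red_sum_ne_zero OE OF redE redF hO hred bb b hb (fun i => g i / g j) hj j
          (div_self hj0) _ hw ?_
        rw [map_mul, hred (g j)⁻¹ hinv, h0, map_zero, zero_mul]
      have hgi : g i ∈ OE := by
        have : g i = g i / g j * g j := by field_simp
        rw [this]
        exact OE.mul_mem _ _ (hj i) hgj
      exact hO _ hgi
    · rw [not_exists] at hg0
      have : B.repr x i = 0 := not_not.1 (hg0 i)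
      rw [this, map_zero]
      exact OF.zero_mem
  have hbbB : ∀ i, bb i = redF ⟨B i, hB i⟩ := fun i => by
    rw [← hb i]
    exact congrArg redF (Subtype.ext (hBb i).symm)
  obtain ⟨h, hh⟩ := h88_norm_red_core OF redF B hB bb hbbB
    (fun c hc => ⟨redE ⟨c, hback c hc⟩, hred c (hback c hc)⟩) hcoord f hf
  refine ⟨hback _ h, ?_⟩
  have h3 := hred _ (hback _ h)
  rw [hh] at h3
  exact ((algebraMap Eb Fb).injective h3).symm

end Abs

section Series

variable {K : Type*} [Field K] (A : ValuationSubring K)

/-- The Gauss ring of an intermediate field of `K((q))`, as a subring (no scaling hypothesis). -/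
def h10_OF (F : IntermediateField K (LaurentSeries K)) : Subring F where
  carrier := {f | h19_InO A (f : LaurentSeries K)}
  mul_mem' := fun {f g} hf hg => by
    show h19_InO A ((f * g : F) : LaurentSeries K)
    push_cast
    exact h19_InO_mul hf hg
  one_mem' := by
    show h19_InO A ((1 : F) : LaurentSeries K)
    push_cast
    exact h19_InO_one
  add_mem' := fun {f g} hf hg => by
    show h19_InO A ((f + g : F) : LaurentSeries K)
    push_cast
    exact h19_InO_add hf hg
  zero_mem' := by
    show h19_InO A ((0 : F) : LaurentSeries K)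
    push_cast
    exact h19_InO_zero
  neg_mem' := fun {f} hf => by
    show h19_InO A ((-f : F) : LaurentSeries K)
    push_cast
    exact h19_InO_neg hf

theorem h10_mem_OF_iff (F : IntermediateField K (LaurentSeries K)) (f : F) :
    f ∈ h10_OF A F ↔ h19_InO A (f : LaurentSeries K) := Iff.rfl

variable {A}

/-- The reduction map on the Gauss subring. -/
def h10_redF (F : IntermediateField K (LaurentSeries K))
    (Fb : IntermediateField (IsLocalRing.ResidueField A)
      (LaurentSeries (IsLocalRing.ResidueField A)))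
    (hland : h19_Land A F Fb) : h10_OF A F →+* Fb where
  toFun f := ⟨h19_redFun ((f : F) : LaurentSeries K) f.2, h19_redFun_mem F Fb hland f f.2⟩
  map_one' := Subtype.ext (h19_redFun_one _)
  map_mul' f g := Subtype.ext (h19_redFun_mul _ _ f.2 g.2 _)
  map_zero' := Subtype.ext (h19_redFun_zero _)
  map_add' f g := Subtype.ext (h19_redFun_add _ _ f.2 g.2 _)

/-- A non-unit of the Gauss ring has reduction zero. -/
theorem h10_redFun_eq_zero_of_inv_not_mem {f : LaurentSeries K} (hf : h19_InO A f)
    (hinv : ¬ h19_InO A f⁻¹) : h19_redFun f hf = 0 := by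
  obtain ⟨y₁, y₂, hy₂, hy⟩ := hf
  by_cases hy₁ : coeffMap (IsLocalRing.residue A) y₁ = 0
  · refine h19_redFun_eq f _ y₁ y₂ hy₂ hy 0 ?_
    rw [zero_mul, hy₁]
  · exfalso
    apply hinv
    have hy₁K : coeffMap A.subtype y₁ ≠ 0 := by
      intro h0
      apply hy₁
      have : y₁ = 0 := h19_coeffMap_subtype_injective A (by rw [h0, map_zero])
      rw [this, map_zero]
    have hf0 : f ≠ 0 := by
      intro h0
      rw [h0, zero_mul] at hy
      exact hy₁K hy.symm
    refine ⟨y₂, y₁, hy₁, ?_⟩
    rw [← hy]
    field_simp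

/-- **Norm reduction for fields of Laurent series.** `E ≤ F` intermediate fields of `K((q))`,
`Eb ≤ Fb` intermediate fields of `k((q))`; the Gauss ring of `E` is a valuation ring with
reductions in `Eb`, the reductions of the Gauss-integral elements of `F` are exactly `Fb`, and
`[Fb : Eb] = [F : E]`.  Then the norm of a Gauss-integral `f ∈ F` is Gauss-integral and reduces to
the norm of the reduction of `f`. -/
theorem h10_normRed_series (E F : IntermediateField K (LaurentSeries K)) (hEF : E ≤ F)
    (Eb Fb : IntermediateField (IsLocalRing.ResidueField A)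
      (LaurentSeries (IsLocalRing.ResidueField A))) (hEFb : Eb ≤ Fb)
    (hscE : h19_Scal A E) (hlandE : h19_Land A E Eb) (hlandF : h19_Land A F Fb)
    (hsurjF : h19_Surj A F Fb)
    (hfin : letI := (IntermediateField.inclusion hEF).toRingHom.toAlgebra
      FiniteDimensional E F)
    (hdeg : letI := (IntermediateField.inclusion hEF).toRingHom.toAlgebra
      letI := (IntermediateField.inclusion hEFb).toRingHom.toAlgebra
      Module.finrank Eb Fb = Module.finrank E F)
    (f : F) (hf : h19_InO A (f : LaurentSeries K)) :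
    letI := (IntermediateField.inclusion hEF).toRingHom.toAlgebra
    letI := (IntermediateField.inclusion hEFb).toRingHom.toAlgebra
    ∃ h : h19_InO A ((Algebra.norm E f : E) : LaurentSeries K),
      h19_redFun _ h =
        ((Algebra.norm Eb (⟨h19_redFun _ hf, h19_redFun_mem F Fb hlandF f hf⟩ : Fb) : Eb) :
          LaurentSeries (IsLocalRing.ResidueField A)) := by
  letI algE : Algebra E F := (IntermediateField.inclusion hEF).toRingHom.toAlgebra
  letI algEb : Algebra Eb Fb := (IntermediateField.inclusion hEFb).toRingHom.toAlgebra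
  haveI : FiniteDimensional E F := hfin
  have hO : ∀ c : E, c ∈ h19_O E hscE → algebraMap E F c ∈ h10_OF A F := fun c hc => hc
  have key := h10_norm_red_abs (h19_O E hscE) (h10_OF A F) (h19_red E Eb hscE hlandE)
    (h10_redF F Fb hlandF) ?_ hO ?_ ?_ hdeg f hf
  · obtain ⟨h, hh⟩ := key
    exact ⟨h, congrArg Subtype.val hh⟩
  · intro c hc
    apply Subtype.ext
    refine h10_redFun_eq_zero_of_inv_not_mem c.2 ?_
    intro h
    apply hc
    show h19_InO A (((c : E)⁻¹ : E) : LaurentSeries K)
    push_cast
    exact h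
  · intro c hc
    rfl
  · intro g
    obtain ⟨f', y₁, y₂, hy, hfy, hgy⟩ := hsurjF g g.2
    refine ⟨⟨f', ⟨y₁, y₂, hy, hfy⟩⟩, Subtype.ext ?_⟩
    exact h19_redFun_eq _ _ y₁ y₂ hy hfy g hgy

end Series

end Fermat.Agent.S40
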