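/-
S40 / G40 row (E1) (helper10): norm reduction along `α_ℓ : F(N) → F(N ℓ)`, modular instances.

* `h10_normRed_good` : good level `N → N ℓ` (`p ∤ N ℓ`);
* `h10_normRed_R1`   : first component at level `N p → N p ℓ` (`p ∤ N ℓ`).

In both cases the residue extension is `Fb(N ℓ) / Fb(N)`
(`modularFunctionFieldFullC k (N ℓ)` over `modularFunctionFieldFullC k N`), the reduction is the
coefficientwise one (`h19_redFun`), and both norms are `Algebra.norm` along the inclusions.
-/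
import Mathlib
import Fermat.Agent.S40.h10_NormRedAlpha
import Fermat.Agent.S18.h54_Mod
import Fermat.Agent.S18.h46_LevelTransfer
import Fermat.Agent.S34.h60_R1
import Fermat.Agent.S37.h19_DEG
import Fermat.Agent.S35.h19_SeriesRed

set_option autoImplicit false
set_option synthInstance.maxHeartbeats 400000

noncomputable section

open ModularCurve AlgebraicCurve IntermediateField CongruenceSubgroup
open scoped MatrixGroups

namespace Fermat.Agent.S40

open Fermat.Agent.S18 Fermat.Agent.S24 Fermat.Agent.S34 Fermat.Agent.S37 Fermat.Agent.S35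

local notation "Qb" => AlgebraicClosure ℚ

/-! ## Generic: Scal / Land / Surj from a reduction datum with the series characterisation -/

section FromDatum

variable {A : ValuationSubring Qb} {F : IntermediateField Qb (LaurentSeries Qb)}
  {Fb : IntermediateField (IsLocalRing.ResidueField A)
    (LaurentSeries (IsLocalRing.ResidueField A))}

theorem h10_scal_of_datum (R : h39_RedDatum Qb ↥F (IsLocalRing.ResidueField A) ↥Fb)
    (hmem : ∀ f : ↥F, f ∈ R.O ↔ ∃ y₁ y₂ : LaurentSeries A,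
      coeffMap (IsLocalRing.residue A) y₂ ≠ 0 ∧
        (f : LaurentSeries Qb) * coeffMap A.subtype y₂ = coeffMap A.subtype y₁) :
    h19_Scal A F := by
  intro f hf
  obtain ⟨c, hc, hcO, hcinvO⟩ := R.exists_scale f hf
  obtain ⟨y₁, y₂, hy₂, hy⟩ := (hmem _).mp hcO
  obtain ⟨z₁, z₂, hz₂, hz⟩ := (hmem _).mp hcinvO
  have hne : algebraMap Qb ↥F c * f ≠ 0 := mul_ne_zero ((map_ne_zero _).mpr hc) hf
  have hneK : ((algebraMap Qb ↥F c * f : ↥F) : LaurentSeries Qb) ≠ 0 := fun h0 =>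
    hne (Subtype.ext h0)
  have hinvK : (((algebraMap Qb ↥F c * f)⁻¹ : ↥F) : LaurentSeries Qb) =
      ((algebraMap Qb ↥F c * f : ↥F) : LaurentSeries Qb)⁻¹ := by push_cast; rfl
  have h1 : coeffMap A.subtype (y₁ * z₁) = coeffMap A.subtype (y₂ * z₂) := by
    rw [map_mul, map_mul, ← hy, ← hz, hinvK]
    field_simp
  have h2 := h19_coeffMap_subtype_injective A h1
  have hy₁ : coeffMap (IsLocalRing.residue A) y₁ ≠ 0 := by
    intro h0
    have h3 := congrArg (coeffMap (IsLocalRing.residue A)) h2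
    rw [map_mul, map_mul, h0, zero_mul] at h3
    exact mul_ne_zero hy₂ hz₂ h3.symm
  exact ⟨c, y₁, y₂, hc, hy₁, hy₂, hy⟩

theorem h10_land_of_datum (R : h39_RedDatum Qb ↥F (IsLocalRing.ResidueField A) ↥Fb)
    (hmem : ∀ f : ↥F, f ∈ R.O ↔ ∃ y₁ y₂ : LaurentSeries A,
      coeffMap (IsLocalRing.residue A) y₂ ≠ 0 ∧
        (f : LaurentSeries Qb) * coeffMap A.subtype y₂ = coeffMap A.subtype y₁)
    (hredeq : ∀ (f : ↥F) (hf : f ∈ R.O) (y₁ y₂ : LaurentSeries A),
      (f : LaurentSeries Qb) * coeffMap A.subtype y₂ = coeffMap A.subtype y₁ →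
        ((R.red ⟨f, hf⟩ : ↥Fb) : LaurentSeries (IsLocalRing.ResidueField A)) *
            coeffMap (IsLocalRing.residue A) y₂ = coeffMap (IsLocalRing.residue A) y₁) :
    h19_Land A F Fb := by
  intro f y₁ y₂ hy₂ hy
  have hf : f ∈ R.O := (hmem f).mpr ⟨y₁, y₂, hy₂, hy⟩
  exact ⟨_, (R.red ⟨f, hf⟩).2, hredeq f hf y₁ y₂ hy⟩

theorem h10_surj_of_datum (R : h39_RedDatum Qb ↥F (IsLocalRing.ResidueField A) ↥Fb)
    (hmem : ∀ f : ↥F, f ∈ R.O ↔ ∃ y₁ y₂ : LaurentSeries A,
      coeffMap (IsLocalRing.residue A) y₂ ≠ 0 ∧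
        (f : LaurentSeries Qb) * coeffMap A.subtype y₂ = coeffMap A.subtype y₁)
    (hredeq : ∀ (f : ↥F) (hf : f ∈ R.O) (y₁ y₂ : LaurentSeries A),
      (f : LaurentSeries Qb) * coeffMap A.subtype y₂ = coeffMap A.subtype y₁ →
        ((R.red ⟨f, hf⟩ : ↥Fb) : LaurentSeries (IsLocalRing.ResidueField A)) *
            coeffMap (IsLocalRing.residue A) y₂ = coeffMap (IsLocalRing.residue A) y₁) :
    h19_Surj A F Fb := by
  intro g hg
  obtain ⟨⟨f, hf⟩, hfg⟩ := R.red_surjective ⟨g, hg⟩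
  obtain ⟨y₁, y₂, hy₂, hy⟩ := (hmem f).mp hf
  refine ⟨f, y₁, y₂, hy₂, hy, ?_⟩
  have := hredeq f hf y₁ y₂ hy
  rw [hfg] at this
  exact this

end FromDatum

/-! ## The residue-level inclusion and the degrees -/

/-- The inclusion `Fb(N) → Fb(N ℓ)` (the characteristic-`p` twin of `heckeAlphaBar`). -/
def h10_alphaC (k : Type) [Field k] (N ℓ : ℕ) [NeZero N] [NeZero ℓ] :
    ↥(modularFunctionFieldFullC k N) →ₐ[k] ↥(modularFunctionFieldFullC k (N * ℓ)) :=
  IntermediateField.inclusion (full_degeneracyC_le k (dvd_mul_right N ℓ))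

theorem h10_coe_alphaC (k : Type) [Field k] (N ℓ : ℕ) [NeZero N] [NeZero ℓ]
    (x : ↥(modularFunctionFieldFullC k N)) :
    (h10_alphaC k N ℓ x : LaurentSeries k) = (x : LaurentSeries k) :=
  IntermediateField.coe_inclusion _ x

theorem h10_alphaC_jk (k : Type) [Field k] (N ℓ : ℕ) [NeZero N] [NeZero ℓ] :
    h10_alphaC k N ℓ (h54_jk k N) = h54_jk k (N * ℓ) :=
  Subtype.ext (h10_coe_alphaC k N ℓ (h54_jk k N))

set_option maxHeartbeats 1600000 in
/-- Tower law along the residue-level inclusion. -/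
theorem h10_finrank_towerC (k : Type) [Field k] (N ℓ : ℕ) [NeZero N] [NeZero ℓ] :
    Module.finrank k⟮h54_jk k N⟯ ↥(modularFunctionFieldFullC k N) *
        finrankAlong k (h10_alphaC k N ℓ) =
      Module.finrank k⟮h54_jk k (N * ℓ)⟯ ↥(modularFunctionFieldFullC k (N * ℓ)) := by
  set φ := h10_alphaC k N ℓ with hφ
  let _ := algebraAlong φ
  have := isScalarTower_along φ
  let alg : Algebra k⟮h54_jk k N⟯ ↥(modularFunctionFieldFullC k (N * ℓ)) :=
    ((algebraMap ↥(modularFunctionFieldFullC k N) ↥(modularFunctionFieldFullC k (N * ℓ))).comp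
      (algebraMap k⟮h54_jk k N⟯ ↥(modularFunctionFieldFullC k N))).toAlgebra
  have : IsScalarTower k⟮h54_jk k N⟯ ↥(modularFunctionFieldFullC k N)
      ↥(modularFunctionFieldFullC k (N * ℓ)) :=
    IsScalarTower.of_algebraMap_eq fun _ => rfl
  have h1 : Module.finrank k⟮h54_jk k N⟯ ↥(modularFunctionFieldFullC k N) *
      Module.finrank ↥(modularFunctionFieldFullC k N) ↥(modularFunctionFieldFullC k (N * ℓ)) =
      Module.finrank k⟮h54_jk k N⟯ ↥(modularFunctionFieldFullC k (N * ℓ)) :=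
    Module.finrank_mul_finrank k⟮h54_jk k N⟯ ↥(modularFunctionFieldFullC k N)
      ↥(modularFunctionFieldFullC k (N * ℓ))
  have hmap : k⟮h54_jk k N⟯.map φ = k⟮h54_jk k (N * ℓ)⟯ := by
    rw [IntermediateField.adjoin_map, Set.image_singleton, hφ, h10_alphaC_jk]
  let i : k⟮h54_jk k N⟯ ≃+* k⟮h54_jk k (N * ℓ)⟯ :=
    ((IntermediateField.equivMap k⟮h54_jk k N⟯ φ).trans
      (IntermediateField.equivOfEq hmap)).toRingEquiv
  have h2 : Module.finrank k⟮h54_jk k N⟯ ↥(modularFunctionFieldFullC k (N * ℓ)) =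
      Module.finrank k⟮h54_jk k (N * ℓ)⟯ ↥(modularFunctionFieldFullC k (N * ℓ)) := by
    refine Algebra.finrank_eq_of_equiv_equiv i (RingEquiv.refl _) ?_
    ext x
    rfl
  show Module.finrank k⟮h54_jk k N⟯ ↥(modularFunctionFieldFullC k N) *
      Module.finrank ↥(modularFunctionFieldFullC k N) ↥(modularFunctionFieldFullC k (N * ℓ)) = _
  rw [h1, h2]

/-- `[Fb(N ℓ) : Fb(N)] · ψ(N) = ψ(N ℓ)` at a residue characteristic `p ∤ N ℓ`. -/
theorem h10_degC (N ℓ p : ℕ) [NeZero N] [NeZero ℓ] [Fact p.Prime] (hp : ¬ p ∣ N * ℓ)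
    (A : ValuationSubring Qb) (hA : A.LiesOverPrime p) :
    Nat.card (SL(2, ℤ) ⧸ Gamma0 N) * finrankAlong (IsLocalRing.ResidueField A)
        (h10_alphaC (IsLocalRing.ResidueField A) N ℓ) =
      Nat.card (SL(2, ℤ) ⧸ Gamma0 (N * ℓ)) := by
  have hpN : ¬ p ∣ N := fun h => hp (Dvd.dvd.mul_right h ℓ)
  have h := h10_finrank_towerC (IsLocalRing.ResidueField A) N ℓ
  rw [h54_finrank_fb N hpN A hA, h54_finrank_fb (N * ℓ) hp A hA] at h
  exact h

/-- `[F(N ℓ) : F(N)] · ψ(N) = ψ(N ℓ)` in characteristic zero. -/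
theorem h10_deg0 (N ℓ : ℕ) [NeZero N] [NeZero ℓ] :
    Nat.card (SL(2, ℤ) ⧸ Gamma0 N) * finrankAlong Qb (heckeAlphaBar Qb N ℓ) =
      Nat.card (SL(2, ℤ) ⧸ Gamma0 (N * ℓ)) := by
  have h := h19_finrank_tower N ℓ
  rw [h78_finrank N, h78_finrank (N * ℓ)] at h
  exact h

theorem h10_card_pos (N : ℕ) [NeZero N] : 0 < Nat.card (SL(2, ℤ) ⧸ Gamma0 N) := by
  rw [← h78_finrank N]
  have := h78_finiteDimensional N
  exact Module.finrank_pos

theorem h10_finrankAlong_pos (N ℓ : ℕ) [NeZero N] [NeZero ℓ] :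
    0 < finrankAlong Qb (heckeAlphaBar Qb N ℓ) := by
  have h := h10_deg0 N ℓ
  have h2 := h10_card_pos (N * ℓ)
  rw [← h] at h2
  exact Nat.pos_of_mul_pos_left h2

/-- `ψ(N p) = (p + 1) ψ(N)` for a prime `p ∤ N`. -/
theorem h10_card_mul_prime (N p : ℕ) [NeZero N] [NeZero p] (hp : p.Prime) (hpN : ¬ p ∣ N) :
    Nat.card (SL(2, ℤ) ⧸ Gamma0 (N * p)) = (p + 1) * Nat.card (SL(2, ℤ) ⧸ Gamma0 N) := by
  rw [h29_card_quotient_Gamma0 (N * p), h29_card_quotient_Gamma0 N, mul_comm N p]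
  exact h29_psi_mul_of_not_dvd p N hp (Nat.pos_of_ne_zero (NeZero.ne N)) hpN

/-! ## The two modular instances -/

theorem h10_bar_congr {a b : ℕ} (h : a = b) :
    modularFunctionFieldBar a = modularFunctionFieldBar b := by rw [h]

/-- `[Fb(N ℓ) : Fb(N)] = [F(N ℓ) : F(N)]`, good level. -/
theorem h10_deg_good (N ℓ p : ℕ) [NeZero N] [NeZero ℓ] [Fact p.Prime] (hp : ¬ p ∣ N * ℓ)
    (A : ValuationSubring Qb) (hA : A.LiesOverPrime p) :
    finrankAlong (IsLocalRing.ResidueField A) (h10_alphaC (IsLocalRing.ResidueField A) N ℓ) =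
      finrankAlong Qb (heckeAlphaBar Qb N ℓ) := by
  have h1 := h10_degC N ℓ p hp A hA
  have h2 := h10_deg0 N ℓ
  exact Nat.eq_of_mul_eq_mul_left (h10_card_pos N) (h1.trans h2.symm)

/-- `[Fb(N ℓ) : Fb(N)] = [F(N p ℓ) : F(N p)]`, first component at level `N p`. -/
theorem h10_deg_R1 (N p ℓ : ℕ) [NeZero N] [NeZero p] [NeZero ℓ] [Fact p.Prime]
    (hp : ¬ p ∣ N * ℓ) (A : ValuationSubring Qb) (hA : A.LiesOverPrime p) :
    finrankAlong (IsLocalRing.ResidueField A) (h10_alphaC (IsLocalRing.ResidueField A) N ℓ) =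
      finrankAlong Qb (heckeAlphaBar Qb (N * p) ℓ) := by
  have hpp : p.Prime := Fact.out
  have hpN : ¬ p ∣ N := fun h => hp (Dvd.dvd.mul_right h ℓ)
  have h1 := h10_degC N ℓ p hp A hA
  have h2 := h10_deg0 (N * p) ℓ
  have hlvl : N * p * ℓ = N * ℓ * p := by ring
  have hc : Nat.card (SL(2, ℤ) ⧸ Gamma0 (N * p * ℓ)) =
      Nat.card (SL(2, ℤ) ⧸ Gamma0 (N * ℓ * p)) := by rw [hlvl]
  rw [hc, h10_card_mul_prime (N * ℓ) p hpp hp, h10_card_mul_prime N p hpp hpN, ← h1] at h2
  have hpos : 0 < (p + 1) * Nat.card (SL(2, ℤ) ⧸ Gamma0 N) :=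
    Nat.mul_pos (Nat.succ_pos p) (h10_card_pos N)
  refine (Nat.eq_of_mul_eq_mul_left hpos ?_).symm
  rw [h2]
  ring

set_option maxHeartbeats 1600000 in
/-- **(E1), good level.** For `p ∤ N ℓ` and a Gauss-integral `G ∈ F(N ℓ)`: the norm of `G` along
`α : F(N) → F(N ℓ)` is Gauss-integral and reduces to the norm of the reduction of `G` along
`Fb(N) → Fb(N ℓ)`. -/
theorem h10_normRed_good (N ℓ p : ℕ) [NeZero N] [NeZero ℓ] [Fact p.Prime] (hp : ¬ p ∣ N * ℓ)
    (A : ValuationSubring Qb) (hA : A.LiesOverPrime p)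
    (G : ↥(modularFunctionFieldBar (N * ℓ))) (hG : h19_InO A (G : LaurentSeries Qb)) :
    letI := algebraAlong (heckeAlphaBar Qb N ℓ)
    letI := algebraAlong (h10_alphaC (IsLocalRing.ResidueField A) N ℓ)
    ∃ (h : h19_InO A ((Algebra.norm ↥(modularFunctionFieldBar N) G :
          ↥(modularFunctionFieldBar N)) : LaurentSeries Qb))
      (hm : h19_redFun _ hG ∈ modularFunctionFieldFullC (IsLocalRing.ResidueField A) (N * ℓ)),
      h19_redFun _ h =
        ((Algebra.norm ↥(modularFunctionFieldFullC (IsLocalRing.ResidueField A) N)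
            (⟨h19_redFun _ hG, hm⟩ :
              ↥(modularFunctionFieldFullC (IsLocalRing.ResidueField A) (N * ℓ))) :
          ↥(modularFunctionFieldFullC (IsLocalRing.ResidueField A) N)) :
          LaurentSeries (IsLocalRing.ResidueField A)) := by
  have hpN : ¬ p ∣ N := fun h => hp (Dvd.dvd.mul_right h ℓ)
  have hRN := h54_isModRed N hpN A hA
  have hRNl := h54_isModRed (N * ℓ) hp A hA
  have hscE := h10_scal_of_datum (h54_redDatum N hpN A hA) hRN.mem_iff
  have hlandE := h10_land_of_datum (h54_redDatum N hpN A hA) hRN.mem_iff hRN.red_eq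
  have hlandF := h10_land_of_datum (h54_redDatum (N * ℓ) hp A hA) hRNl.mem_iff hRNl.red_eq
  have hsurjF := h10_surj_of_datum (h54_redDatum (N * ℓ) hp A hA) hRNl.mem_iff hRNl.red_eq
  have hEF : modularFunctionFieldBar N ≤ modularFunctionFieldBar (N * ℓ) :=
    h46_bar_le (dvd_mul_right N ℓ)
  have hEFb := full_degeneracyC_le (IsLocalRing.ResidueField A) (dvd_mul_right N ℓ)
  have hfin : letI := (IntermediateField.inclusion hEF).toRingHom.toAlgebra
      FiniteDimensional ↥(modularFunctionFieldBar N) ↥(modularFunctionFieldBar (N * ℓ)) := by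
    letI := (IntermediateField.inclusion hEF).toRingHom.toAlgebra
    exact Module.finite_of_finrank_pos (h10_finrankAlong_pos N ℓ)
  have hdeg : letI := (IntermediateField.inclusion hEF).toRingHom.toAlgebra
      letI := (IntermediateField.inclusion hEFb).toRingHom.toAlgebra
      Module.finrank ↥(modularFunctionFieldFullC (IsLocalRing.ResidueField A) N)
          ↥(modularFunctionFieldFullC (IsLocalRing.ResidueField A) (N * ℓ)) =
        Module.finrank ↥(modularFunctionFieldBar N) ↥(modularFunctionFieldBar (N * ℓ)) :=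
    h10_deg_good N ℓ p hp A hA
  obtain ⟨h, hh⟩ := h10_normRed_series (modularFunctionFieldBar N)
    (modularFunctionFieldBar (N * ℓ)) hEF _ _ hEFb hscE hlandE hlandF hsurjF hfin hdeg G hG
  exact ⟨h, h19_redFun_mem _ _ hlandF G hG, hh⟩

set_option maxHeartbeats 1600000 in
/-- **(E1), first component at level `N p`.** For `p ∤ N ℓ` and a Gauss-integral
`G ∈ F(N p ℓ)` (i.e. `G` in the first-component valuation ring, `h60_R1` at level `(N ℓ) p`): the
norm of `G` along `α : F(N p) → F(N p ℓ)` is Gauss-integral and reduces to the norm of the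
reduction of `G` along `Fb(N) → Fb(N ℓ)`. -/
theorem h10_normRed_R1 (N p ℓ : ℕ) [NeZero N] [NeZero p] [NeZero ℓ] [Fact p.Prime]
    (hp : ¬ p ∣ N * ℓ) (A : ValuationSubring Qb) (hA : A.LiesOverPrime p)
    (G : ↥(modularFunctionFieldBar (N * p * ℓ))) (hG : h19_InO A (G : LaurentSeries Qb)) :
    letI := algebraAlong (heckeAlphaBar Qb (N * p) ℓ)
    letI := algebraAlong (h10_alphaC (IsLocalRing.ResidueField A) N ℓ)
    ∃ (h : h19_InO A ((Algebra.norm ↥(modularFunctionFieldBar (N * p)) G :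
          ↥(modularFunctionFieldBar (N * p))) : LaurentSeries Qb))
      (hm : h19_redFun _ hG ∈ modularFunctionFieldFullC (IsLocalRing.ResidueField A) (N * ℓ)),
      h19_redFun _ h =
        ((Algebra.norm ↥(modularFunctionFieldFullC (IsLocalRing.ResidueField A) N)
            (⟨h19_redFun _ hG, hm⟩ :
              ↥(modularFunctionFieldFullC (IsLocalRing.ResidueField A) (N * ℓ))) :
          ↥(modularFunctionFieldFullC (IsLocalRing.ResidueField A) N)) :
          LaurentSeries (IsLocalRing.ResidueField A)) := by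
  have hpN : ¬ p ∣ N := fun h => hp (Dvd.dvd.mul_right h ℓ)
  have hRNl := h54_isModRed (N * ℓ) hp A hA
  have hscE := h10_scal_of_datum (h60_R1 N p hpN A hA) (h60_R1_mem_iff N p hpN A hA)
  have hlandE := h10_land_of_datum (h60_R1 N p hpN A hA) (h60_R1_mem_iff N p hpN A hA)
    (h60_R1_red_eq N p hpN A hA)
  have hlvl : N * p * ℓ = N * ℓ * p := by ring
  have hland' := h10_land_of_datum (h60_R1 (N * ℓ) p hp A hA) (h60_R1_mem_iff (N * ℓ) p hp A hA)
    (h60_R1_red_eq (N * ℓ) p hp A hA)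
  have hlandF : h19_Land A (modularFunctionFieldBar (N * p * ℓ))
      (modularFunctionFieldFullC (IsLocalRing.ResidueField A) (N * ℓ)) := by
    intro f y₁ y₂ hy₂ hy
    exact hland' ⟨(f : LaurentSeries Qb), by rw [← h10_bar_congr hlvl]; exact f.2⟩ y₁ y₂ hy₂ hy
  have hsurj' := h10_surj_of_datum (h54_redDatum (N * ℓ) hp A hA) hRNl.mem_iff hRNl.red_eq
  have hdvd : N * ℓ ∣ N * p * ℓ := ⟨p, by ring⟩
  have hsurjF : h19_Surj A (modularFunctionFieldBar (N * p * ℓ))
      (modularFunctionFieldFullC (IsLocalRing.ResidueField A) (N * ℓ)) := by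
    intro g hg
    obtain ⟨f, y₁, y₂, hy₂, hy, hgy⟩ := hsurj' g hg
    exact ⟨⟨(f : LaurentSeries Qb), h46_bar_le hdvd f.2⟩, y₁, y₂, hy₂, hy, hgy⟩
  have hEF : modularFunctionFieldBar (N * p) ≤ modularFunctionFieldBar (N * p * ℓ) :=
    h46_bar_le (dvd_mul_right (N * p) ℓ)
  have hEFb := full_degeneracyC_le (IsLocalRing.ResidueField A) (dvd_mul_right N ℓ)
  have hfin : letI := (IntermediateField.inclusion hEF).toRingHom.toAlgebra
      FiniteDimensional ↥(modularFunctionFieldBar (N * p))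
        ↥(modularFunctionFieldBar (N * p * ℓ)) := by
    letI := (IntermediateField.inclusion hEF).toRingHom.toAlgebra
    exact Module.finite_of_finrank_pos (h10_finrankAlong_pos (N * p) ℓ)
  have hdeg : letI := (IntermediateField.inclusion hEF).toRingHom.toAlgebra
      letI := (IntermediateField.inclusion hEFb).toRingHom.toAlgebra
      Module.finrank ↥(modularFunctionFieldFullC (IsLocalRing.ResidueField A) N)
          ↥(modularFunctionFieldFullC (IsLocalRing.ResidueField A) (N * ℓ)) =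
        Module.finrank ↥(modularFunctionFieldBar (N * p))
          ↥(modularFunctionFieldBar (N * p * ℓ)) :=
    h10_deg_R1 N p ℓ hp A hA
  obtain ⟨h, hh⟩ := h10_normRed_series (modularFunctionFieldBar (N * p))
    (modularFunctionFieldBar (N * p * ℓ)) hEF _ _ hEFb hscE hlandE hlandF hsurjF hfin hdeg G hG
  exact ⟨h, h19_redFun_mem _ _ hlandF G hG, hh⟩

/-! ## Hecke form: `G = β u` -/

set_option maxHeartbeats 1600000 in
/-- **(RES-HECKE), good level.** `red (N_α (β u)) = N_ᾱ (ū(q^ℓ))` for a Gauss-integral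
`u ∈ F(N)`, `p ∤ N ℓ`. -/
theorem h10_heckeNormRed_good (N ℓ p : ℕ) [NeZero N] [NeZero ℓ] [Fact p.Prime]
    (hp : ¬ p ∣ N * ℓ) (A : ValuationSubring Qb) (hA : A.LiesOverPrime p)
    (u : ↥(modularFunctionFieldBar N)) (hu : h19_InO A (u : LaurentSeries Qb)) :
    letI := algebraAlong (heckeAlphaBar Qb N ℓ)
    letI := algebraAlong (h10_alphaC (IsLocalRing.ResidueField A) N ℓ)
    ∃ (h : h19_InO A ((Algebra.norm ↥(modularFunctionFieldBar N) (heckeBetaBar Qb N ℓ u) :
          ↥(modularFunctionFieldBar N)) : LaurentSeries Qb))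
      (hm : qExpand (IsLocalRing.ResidueField A) ℓ (h19_redFun _ hu) ∈
        modularFunctionFieldFullC (IsLocalRing.ResidueField A) (N * ℓ)),
      h19_redFun _ h =
        ((Algebra.norm ↥(modularFunctionFieldFullC (IsLocalRing.ResidueField A) N)
            (⟨qExpand (IsLocalRing.ResidueField A) ℓ (h19_redFun _ hu), hm⟩ :
              ↥(modularFunctionFieldFullC (IsLocalRing.ResidueField A) (N * ℓ))) :
          ↥(modularFunctionFieldFullC (IsLocalRing.ResidueField A) N)) :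
          LaurentSeries (IsLocalRing.ResidueField A)) := by
  obtain ⟨hG, e⟩ := h19_InO_qExpand (A := A) ℓ hu
  have hG' : h19_InO A ((heckeBetaBar Qb N ℓ u : ↥(modularFunctionFieldBar (N * ℓ))) :
      LaurentSeries Qb) := hG
  obtain ⟨h, hm, hh⟩ := h10_normRed_good N ℓ p hp A hA (heckeBetaBar Qb N ℓ u) hG'
  have e' : h19_redFun ((heckeBetaBar Qb N ℓ u : ↥(modularFunctionFieldBar (N * ℓ))) :
      LaurentSeries Qb) hG' = qExpand (IsLocalRing.ResidueField A) ℓ (h19_redFun _ hu) := e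
  have hm' : qExpand (IsLocalRing.ResidueField A) ℓ (h19_redFun _ hu) ∈
      modularFunctionFieldFullC (IsLocalRing.ResidueField A) (N * ℓ) := e' ▸ hm
  refine ⟨h, hm', ?_⟩
  rw [hh]
  have e2 : (⟨h19_redFun _ hG', hm⟩ :
      ↥(modularFunctionFieldFullC (IsLocalRing.ResidueField A) (N * ℓ))) =
      ⟨qExpand (IsLocalRing.ResidueField A) ℓ (h19_redFun _ hu), hm'⟩ := Subtype.ext e'
  rw [e2]

set_option maxHeartbeats 1600000 in
/-- **(RES-HECKE), first component at level `N p`.** `red₁ (N_α (β u)) = N_ᾱ (ū(q^ℓ))` for a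
Gauss-integral `u ∈ F(N p)`, `p ∤ N ℓ`; here `ū = red₁ u ∈ Fb(N)`. -/
theorem h10_heckeNormRed_R1 (N p ℓ : ℕ) [NeZero N] [NeZero p] [NeZero ℓ] [Fact p.Prime]
    (hp : ¬ p ∣ N * ℓ) (A : ValuationSubring Qb) (hA : A.LiesOverPrime p)
    (u : ↥(modularFunctionFieldBar (N * p))) (hu : h19_InO A (u : LaurentSeries Qb)) :
    letI := algebraAlong (heckeAlphaBar Qb (N * p) ℓ)
    letI := algebraAlong (h10_alphaC (IsLocalRing.ResidueField A) N ℓ)
    ∃ (h : h19_InO A ((Algebra.norm ↥(modularFunctionFieldBar (N * p))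
          (heckeBetaBar Qb (N * p) ℓ u) : ↥(modularFunctionFieldBar (N * p))) :
          LaurentSeries Qb))
      (hm : qExpand (IsLocalRing.ResidueField A) ℓ (h19_redFun _ hu) ∈
        modularFunctionFieldFullC (IsLocalRing.ResidueField A) (N * ℓ)),
      h19_redFun _ h =
        ((Algebra.norm ↥(modularFunctionFieldFullC (IsLocalRing.ResidueField A) N)
            (⟨qExpand (IsLocalRing.ResidueField A) ℓ (h19_redFun _ hu), hm⟩ :
              ↥(modularFunctionFieldFullC (IsLocalRing.ResidueField A) (N * ℓ))) :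
          ↥(modularFunctionFieldFullC (IsLocalRing.ResidueField A) N)) :
          LaurentSeries (IsLocalRing.ResidueField A)) := by
  obtain ⟨hG, e⟩ := h19_InO_qExpand (A := A) ℓ hu
  have hG' : h19_InO A ((heckeBetaBar Qb (N * p) ℓ u :
      ↥(modularFunctionFieldBar (N * p * ℓ))) : LaurentSeries Qb) := hG
  obtain ⟨h, hm, hh⟩ := h10_normRed_R1 N p ℓ hp A hA (heckeBetaBar Qb (N * p) ℓ u) hG'
  have e' : h19_redFun ((heckeBetaBar Qb (N * p) ℓ u :
      ↥(modularFunctionFieldBar (N * p * ℓ))) : LaurentSeries Qb) hG' =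
      qExpand (IsLocalRing.ResidueField A) ℓ (h19_redFun _ hu) := e
  have hm' : qExpand (IsLocalRing.ResidueField A) ℓ (h19_redFun _ hu) ∈
      modularFunctionFieldFullC (IsLocalRing.ResidueField A) (N * ℓ) := e' ▸ hm
  refine ⟨h, hm', ?_⟩
  rw [hh]
  have e2 : (⟨h19_redFun _ hG', hm⟩ :
      ↥(modularFunctionFieldFullC (IsLocalRing.ResidueField A) (N * ℓ))) =
      ⟨qExpand (IsLocalRing.ResidueField A) ℓ (h19_redFun _ hu), hm'⟩ := Subtype.ext e'
  rw [e2]

end Fermat.Agent.S40
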