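/-
S40 / G40 row (E1), addendum (helper10): integrality.

In the situation of `h10_norm_red_abs` (a valuation ring `OE` of `E`, a subring `OF` of `F`,
compatible reductions onto fields, `[Fb : Eb] = [F : E]`) there is an `E`-basis of `F` inside
`OF` such that the coordinates of every element of `OF` lie in `OE`; hence `OF` is a finite
`OE`-module and every element of `OF` is integral over `OE`.

Modular instances: a Gauss-integral element of `F(N ℓ)` (resp. `F(N p ℓ)`) is integral over the
Gauss valuation ring of `F(N)` (resp. over the first-component ring `h60_R1` of `F(N p)`).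
-/
import Mathlib
import Fermat.Agent.S40.h10_NormRedMod

set_option autoImplicit false
set_option synthInstance.maxHeartbeats 400000

noncomputable section

open ModularCurve AlgebraicCurve IntermediateField CongruenceSubgroup
open scoped MatrixGroups

namespace Fermat.Agent.S40

open Fermat.Agent.S18 Fermat.Agent.S24 Fermat.Agent.S34 Fermat.Agent.S37 Fermat.Agent.S35

local notation "Qb" => AlgebraicClosure ℚ

section Abs

variable {E F Eb Fb : Type*} [Field E] [Field F] [Algebra E F] [Field Eb] [Field Fb]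
  [Algebra Eb Fb]

/-- **Orthonormal basis.** In the situation of `h10_norm_red_abs`: an `E`-basis of `F` inside
`OF` with respect to which elements of `OF` have coordinates in `OE`. -/
theorem h10_exists_basis_abs [FiniteDimensional E F] (OE : ValuationSubring E) (OF : Subring F)
    (redE : OE →+* Eb) (redF : OF →+* Fb)
    (hnu : ∀ c : OE, (c : E)⁻¹ ∉ OE → redE c = 0)
    (hO : ∀ c : E, c ∈ OE → algebraMap E F c ∈ OF)
    (hred : ∀ (c : E) (hc : c ∈ OE),
      redF ⟨algebraMap E F c, hO c hc⟩ = algebraMap Eb Fb (redE ⟨c, hc⟩))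
    (hsurj : Function.Surjective redF)
    (hdeg : Module.finrank Eb Fb = Module.finrank E F) :
    ∃ B : Module.Basis (Fin (Module.finrank E F)) E F,
      (∀ i, B i ∈ OF) ∧ ∀ x ∈ OF, ∀ i, B.repr x i ∈ OE := by
  classical
  have hn : 0 < Module.finrank E F := Module.finrank_pos
  have hfinb : Module.Finite Eb Fb := Module.finite_of_finrank_pos (by rw [hdeg]; exact hn)
  set n := Module.finrank E F with hndef
  have hne' : Nonempty (Fin n) := ⟨⟨0, hn⟩⟩
  let bb : Module.Basis (Fin n) Eb Fb := Module.finBasisOfFinrankEq Eb Fb hdeg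
  choose b hb using fun i => hsurj (bb i)
  have hli : LinearIndependent E (fun i => (b i : F)) := by
    rw [Fintype.linearIndependent_iff]
    intro g hg
    by_contra hne
    rw [not_forall] at hne
    obtain ⟨j, hj0, hj⟩ := h10_exists_max OE g hne
    have hw : ((0 : OF) : F) = ∑ i, (g i / g j) • (b i : F) := by
      have : ∑ i, (g i / g j) • (b i : F) = (g j)⁻¹ • ∑ i, g i • (b i : F) := by
        rw [Finset.smul_sum]
        refine Finset.sum_congr rfl fun i _ => ?_
        rw [smul_smul, div_eq_inv_mul]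
      rw [this, hg, smul_zero]
      rfl
    exact h10_red_sum_ne_zero OE OF redE redF hO hred bb b hb (fun i => g i / g j) hj j
      (div_self hj0) 0 hw (map_zero redF)
  let B : Module.Basis (Fin n) E F :=
    basisOfLinearIndependentOfCardEqFinrank hli (by rw [Fintype.card_fin])
  have hBb : ∀ i, B i = (b i : F) := fun i => by
    show (basisOfLinearIndependentOfCardEqFinrank hli _) i = _
    rw [coe_basisOfLinearIndependentOfCardEqFinrank]
  refine ⟨B, fun i => by rw [hBb]; exact (b i).2, ?_⟩
  intro x hx i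
  set g : Fin n → E := fun i => B.repr x i with hgdef
  by_cases hg0 : ∃ i, g i ≠ 0
  · obtain ⟨j, hj0, hj⟩ := h10_exists_max OE g hg0
    have hsum : x = ∑ i, g i • (b i : F) := by
      conv_lhs => rw [← B.sum_repr x]
      exact Finset.sum_congr rfl fun i _ => by rw [hBb]
    have hgj : g j ∈ OE := by
      by_contra hgjE
      have hinv : (g j)⁻¹ ∈ OE := (OE.mem_or_inv_mem _).resolve_left hgjE
      have h0 : redE ⟨(g j)⁻¹, hinv⟩ = 0 := hnu ⟨(g j)⁻¹, hinv⟩ (by rw [inv_inv]; exact hgjE)
      have hw : (((⟨algebraMap E F (g j)⁻¹, hO _ hinv⟩ : OF) * ⟨x, hx⟩ : OF) : F) =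
          ∑ i, (g i / g j) • (b i : F) := by
        show algebraMap E F (g j)⁻¹ * x = _
        rw [← Algebra.smul_def]
        conv_lhs => rw [hsum]
        rw [Finset.smul_sum]
        refine Finset.sum_congr rfl fun i _ => ?_
        rw [smul_smul, div_eq_inv_mul]
      refine h10_red_sum_ne_zero OE OF redE redF hO hred bb b hb (fun i => g i / g j) hj j
        (div_self hj0) _ hw ?_
      rw [map_mul, hred (g j)⁻¹ hinv, h0, map_zero, zero_mul]
    have : g i = g i / g j * g j := by field_simp
    show g i ∈ OE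
    rw [this]
    exact OE.mul_mem _ _ (hj i) hgj
  · rw [not_exists] at hg0
    have : B.repr x i = 0 := not_not.1 (hg0 i)
    rw [this]
    exact OE.zero_mem

/-- **Integrality.** In the situation of `h10_norm_red_abs` every element of `OF` is integral
over `OE` (stated for the ring homomorphism `OE → E → F`, without choosing an `Algebra OE F`
instance). -/
theorem h10_isIntegralElem_abs [FiniteDimensional E F] (OE : ValuationSubring E) (OF : Subring F)
    (redE : OE →+* Eb) (redF : OF →+* Fb)
    (hnu : ∀ c : OE, (c : E)⁻¹ ∉ OE → redE c = 0)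
    (hO : ∀ c : E, c ∈ OE → algebraMap E F c ∈ OF)
    (hred : ∀ (c : E) (hc : c ∈ OE),
      redF ⟨algebraMap E F c, hO c hc⟩ = algebraMap Eb Fb (redE ⟨c, hc⟩))
    (hsurj : Function.Surjective redF)
    (hdeg : Module.finrank Eb Fb = Module.finrank E F)
    (x : F) (hx : x ∈ OF) :
    ((algebraMap E F).comp OE.subtype).IsIntegralElem x := by
  classical
  obtain ⟨B, hB, hcoord⟩ := h10_exists_basis_abs OE OF redE redF hnu hO hred hsurj hdeg
  letI alg : Algebra OE F := ((algebraMap E F).comp OE.subtype).toAlgebra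
  let S : Subalgebra OE F :=
    { OF.toSubsemiring with
      algebraMap_mem' := fun c => hO (c : E) c.2 }
  have hS : ∀ y : F, y ∈ S ↔ y ∈ OF := fun y => Iff.rfl
  have hfg : S.toSubmodule.FG := by
    have heq : S.toSubmodule = Submodule.span OE (Set.range B) := by
      apply le_antisymm
      · intro y hy
        have hy' : y ∈ OF := hy
        rw [← B.sum_repr y]
        refine Submodule.sum_mem _ fun i _ => ?_
        have h2 := Submodule.smul_mem (Submodule.span OE (Set.range B))
          (⟨B.repr y i, hcoord y hy' i⟩ : OE) (Submodule.subset_span (Set.mem_range_self i))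
        convert h2 using 1
        rw [Algebra.smul_def]
        rfl
      · rw [Submodule.span_le]
        rintro _ ⟨i, rfl⟩
        exact hB i
    rw [heq]
    exact Submodule.fg_span (Set.finite_range B)
  exact IsIntegral.of_mem_of_fg S hfg x hx

end Abs

/-! ## Series level -/

section Series

variable {A : ValuationSubring Qb} {E F : IntermediateField Qb (LaurentSeries Qb)}
  {Eb Fb : IntermediateField (IsLocalRing.ResidueField A)
    (LaurentSeries (IsLocalRing.ResidueField A))}

/-- The reduction map of a datum with the series characterisation is `h19_redFun`. -/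
theorem h10_datum_red_coe (R : h39_RedDatum Qb ↥E (IsLocalRing.ResidueField A) ↥Eb)
    (hredeq : ∀ (f : ↥E) (hf : f ∈ R.O) (y₁ y₂ : LaurentSeries A),
      (f : LaurentSeries Qb) * coeffMap A.subtype y₂ = coeffMap A.subtype y₁ →
        ((R.red ⟨f, hf⟩ : ↥Eb) : LaurentSeries (IsLocalRing.ResidueField A)) *
            coeffMap (IsLocalRing.residue A) y₂ = coeffMap (IsLocalRing.residue A) y₁)
    (f : ↥E) (hf : f ∈ R.O) (hf' : h19_InO A (f : LaurentSeries Qb)) :
    ((R.red ⟨f, hf⟩ : ↥Eb) : LaurentSeries (IsLocalRing.ResidueField A)) =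
      h19_redFun (f : LaurentSeries Qb) hf' := by
  have h := hf'
  obtain ⟨y₁, y₂, hy₂, hy⟩ := h
  exact (h19_redFun_eq _ hf' y₁ y₂ hy₂ hy _ (hredeq f hf y₁ y₂ hy)).symm

/-- **Integrality over the Gauss ring of a subfield**, series level. -/
theorem h10_isIntegralElem_datum (hEF : E ≤ F) (hEFb : Eb ≤ Fb)
    (R : h39_RedDatum Qb ↥E (IsLocalRing.ResidueField A) ↥Eb)
    (hmem : ∀ f : ↥E, f ∈ R.O ↔ ∃ y₁ y₂ : LaurentSeries A,
      coeffMap (IsLocalRing.residue A) y₂ ≠ 0 ∧
        (f : LaurentSeries Qb) * coeffMap A.subtype y₂ = coeffMap A.subtype y₁)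
    (hredeq : ∀ (f : ↥E) (hf : f ∈ R.O) (y₁ y₂ : LaurentSeries A),
      (f : LaurentSeries Qb) * coeffMap A.subtype y₂ = coeffMap A.subtype y₁ →
        ((R.red ⟨f, hf⟩ : ↥Eb) : LaurentSeries (IsLocalRing.ResidueField A)) *
            coeffMap (IsLocalRing.residue A) y₂ = coeffMap (IsLocalRing.residue A) y₁)
    (hlandF : h19_Land A F Fb) (hsurjF : h19_Surj A F Fb)
    (hfin : letI := (IntermediateField.inclusion hEF).toRingHom.toAlgebra
      FiniteDimensional E F)
    (hdeg : letI := (IntermediateField.inclusion hEF).toRingHom.toAlgebra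
      letI := (IntermediateField.inclusion hEFb).toRingHom.toAlgebra
      Module.finrank Eb Fb = Module.finrank E F)
    (t : F) (ht : h19_InO A (t : LaurentSeries Qb)) :
    ((IntermediateField.inclusion hEF).toRingHom.comp R.O.subtype).IsIntegralElem t := by
  letI algE : Algebra E F := (IntermediateField.inclusion hEF).toRingHom.toAlgebra
  letI algEb : Algebra Eb Fb := (IntermediateField.inclusion hEFb).toRingHom.toAlgebra
  haveI : FiniteDimensional E F := hfin
  have hO : ∀ c : E, c ∈ R.O → algebraMap E F c ∈ h10_OF A F := fun c hc => (hmem c).mp hc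
  refine h10_isIntegralElem_abs R.O (h10_OF A F) R.red (h10_redF F Fb hlandF) ?_ hO ?_ ?_ hdeg t ht
  · intro c hc
    apply Subtype.ext
    rw [h10_datum_red_coe R hredeq (c : E) c.2 ((hmem _).mp c.2)]
    refine h10_redFun_eq_zero_of_inv_not_mem _ ?_
    intro h
    apply hc
    rw [hmem]
    have e : (((c : E)⁻¹ : E) : LaurentSeries Qb) = ((c : E) : LaurentSeries Qb)⁻¹ := by
      push_cast
      rfl
    rw [e]
    exact h
  · intro c hc
    apply Subtype.ext
    have h1 := h10_datum_red_coe R hredeq c hc ((hmem _).mp hc)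
    exact h1.symm
  · intro g
    obtain ⟨f', y₁, y₂, hy, hfy, hgy⟩ := hsurjF g g.2
    refine ⟨⟨f', ⟨y₁, y₂, hy, hfy⟩⟩, Subtype.ext ?_⟩
    exact h19_redFun_eq _ _ y₁ y₂ hy hfy g hgy

end Series

/-! ## Modular instances -/

/-- Reductions of Gauss-integral elements of `F(N p ℓ)` lie in `Fb(N ℓ)`. -/
theorem h10_land_top_R1 (N p ℓ : ℕ) [NeZero N] [NeZero p] [NeZero ℓ] [Fact p.Prime]
    (hp : ¬ p ∣ N * ℓ) (A : ValuationSubring Qb) (hA : A.LiesOverPrime p) :
    h19_Land A (modularFunctionFieldBar (N * p * ℓ))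
      (modularFunctionFieldFullC (IsLocalRing.ResidueField A) (N * ℓ)) := by
  have hlvl : N * p * ℓ = N * ℓ * p := by ring
  have hland' := h10_land_of_datum (h60_R1 (N * ℓ) p hp A hA) (h60_R1_mem_iff (N * ℓ) p hp A hA)
    (h60_R1_red_eq (N * ℓ) p hp A hA)
  intro f y₁ y₂ hy₂ hy
  exact hland' ⟨(f : LaurentSeries Qb), by rw [← h10_bar_congr hlvl]; exact f.2⟩ y₁ y₂ hy₂ hy

/-- Every element of `Fb(N ℓ)` is the reduction of a Gauss-integral element of `F(N p ℓ)`. -/
theorem h10_surj_top_R1 (N p ℓ : ℕ) [NeZero N] [NeZero p] [NeZero ℓ] [Fact p.Prime]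
    (hp : ¬ p ∣ N * ℓ) (A : ValuationSubring Qb) (hA : A.LiesOverPrime p) :
    h19_Surj A (modularFunctionFieldBar (N * p * ℓ))
      (modularFunctionFieldFullC (IsLocalRing.ResidueField A) (N * ℓ)) := by
  have hRNl := h54_isModRed (N * ℓ) hp A hA
  have hsurj' := h10_surj_of_datum (h54_redDatum (N * ℓ) hp A hA) hRNl.mem_iff hRNl.red_eq
  have hdvd : N * ℓ ∣ N * p * ℓ := ⟨p, by ring⟩
  intro g hg
  obtain ⟨f, y₁, y₂, hy₂, hy, hgy⟩ := hsurj' g hg
  exact ⟨⟨(f : LaurentSeries Qb), h46_bar_le hdvd f.2⟩, y₁, y₂, hy₂, hy, hgy⟩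

set_option maxHeartbeats 1600000 in
/-- **(INT), good level.** A Gauss-integral `t ∈ F(N ℓ)` is integral over the Gauss valuation
ring of `F(N)` (along `α`), `p ∤ N ℓ`. -/
theorem h10_isIntegralElem_good (N ℓ p : ℕ) [NeZero N] [NeZero ℓ] [Fact p.Prime]
    (hp : ¬ p ∣ N * ℓ) (hpN : ¬ p ∣ N) (A : ValuationSubring Qb) (hA : A.LiesOverPrime p)
    (t : ↥(modularFunctionFieldBar (N * ℓ))) (ht : h19_InO A (t : LaurentSeries Qb)) :
    ((heckeAlphaBar Qb N ℓ).toRingHom.comp (h54_redDatum N hpN A hA).O.subtype).IsIntegralElem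
      t := by
  have hRN := h54_isModRed N hpN A hA
  have hRNl := h54_isModRed (N * ℓ) hp A hA
  have hlandF := h10_land_of_datum (h54_redDatum (N * ℓ) hp A hA) hRNl.mem_iff hRNl.red_eq
  have hsurjF := h10_surj_of_datum (h54_redDatum (N * ℓ) hp A hA) hRNl.mem_iff hRNl.red_eq
  have hEF : modularFunctionFieldBar N ≤ modularFunctionFieldBar (N * ℓ) :=
    h46_bar_le (dvd_mul_right N ℓ)
  have hEFb := full_degeneracyC_le (IsLocalRing.ResidueField A) (dvd_mul_right N ℓ)
  have hfin : letI := (IntermediateField.inclusion hEF).toRingHom.toAlgebra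
      FiniteDimensional ↥(modularFunctionFieldBar N) ↥(modularFunctionFieldBar (N * ℓ)) := by
    letI := (IntermediateField.inclusion hEF).toRingHom.toAlgebra
    exact Module.finite_of_finrank_pos (h10_finrankAlong_pos N ℓ)
  have hdeg : letI := (IntermediateField.inclusion hEF).toRingHom.toAlgebra
      letI := (IntermediateField.inclusion hEFb).toRingHom.toAlgebra
      Module.finrank ↥(modularFunctionFieldFullC (IsLocalRing.ResidueField A) N)
          ↥(modularFunctionFieldFullC (IsLocalRing.ResidueField A) (N * ℓ)) =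
        Module.finrank ↥(modularFunctionFieldBar N) ↥(modularFunctionFieldBar (N * ℓ)) :=
    h10_deg_good N ℓ p hp A hA
  exact h10_isIntegralElem_datum hEF hEFb (h54_redDatum N hpN A hA) hRN.mem_iff hRN.red_eq
    hlandF hsurjF hfin hdeg t ht

set_option maxHeartbeats 1600000 in
/-- **(INT), first component at level `N p`.** A Gauss-integral `t ∈ F(N p ℓ)` is integral over
the first-component valuation ring `h60_R1` of `F(N p)` (along `α`), `p ∤ N ℓ`. -/
theorem h10_isIntegralElem_R1 (N p ℓ : ℕ) [NeZero N] [NeZero p] [NeZero ℓ] [Fact p.Prime]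
    (hp : ¬ p ∣ N * ℓ) (hpN : ¬ p ∣ N) (A : ValuationSubring Qb) (hA : A.LiesOverPrime p)
    (t : ↥(modularFunctionFieldBar (N * p * ℓ))) (ht : h19_InO A (t : LaurentSeries Qb)) :
    ((heckeAlphaBar Qb (N * p) ℓ).toRingHom.comp (h60_R1 N p hpN A hA).O.subtype).IsIntegralElem
      t := by
  have hlandF := h10_land_top_R1 N p ℓ hp A hA
  have hsurjF := h10_surj_top_R1 N p ℓ hp A hA
  have hEF : modularFunctionFieldBar (N * p) ≤ modularFunctionFieldBar (N * p * ℓ) :=
    h46_bar_le (dvd_mul_right (N * p) ℓ)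
  have hEFb := full_degeneracyC_le (IsLocalRing.ResidueField A) (dvd_mul_right N ℓ)
  have hfin : letI := (IntermediateField.inclusion hEF).toRingHom.toAlgebra
      FiniteDimensional ↥(modularFunctionFieldBar (N * p))
        ↥(modularFunctionFieldBar (N * p * ℓ)) := by
    letI := (IntermediateField.inclusion hEF).toRingHom.toAlgebra
    exact Module.finite_of_finrank_pos (h10_finrankAlong_pos (N * p) ℓ)
  have hdeg : letI := (IntermediateField.inclusion hEF).toRingHom.toAlgebra
      letI := (IntermediateField.inclusion hEFb).toRingHom.toAlgebra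
      Module.finrank ↥(modularFunctionFieldFullC (IsLocalRing.ResidueField A) N)
          ↥(modularFunctionFieldFullC (IsLocalRing.ResidueField A) (N * ℓ)) =
        Module.finrank ↥(modularFunctionFieldBar (N * p))
          ↥(modularFunctionFieldBar (N * p * ℓ)) :=
    h10_deg_R1 N p ℓ hp A hA
  exact h10_isIntegralElem_datum hEF hEFb (h60_R1 N p hpN A hA) (h60_R1_mem_iff N p hpN A hA)
    (h60_R1_red_eq N p hpN A hA) hlandF hsurjF hfin hdeg t ht

end Fermat.Agent.S40
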