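import Mathlib
import Fermat.Prelude.Def_AlgebraicCurve_DivisorClassGroup

/-!
# S40 / (BRIDGE) rows (BR2)+(BR3), generic core: the rigidity trick (helper79)

`Hom(divisible group, group without divisible elements) = 0`.  Hence two additive maps on
divisors with values in a group of finitely supported `ℤ`-valued functions which agree on a
generating set of the principal divisors agree on ALL divisors of degree `0`, as soon as `Pic⁰`
is divisible.

* `h79_hom_divisible_eq_zero` : (R1) the abstract statement;
* `h79_finsupp_int_no_divisible` : finitely supported `ℤ`-valued functions have no nonzero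
  divisible element;
* `h79_defect_zero` : (R2) an additive map `Div⁰(F) → (α →₀ ℤ)` vanishing on principal divisors
  vanishes;
* `h79_eq_on_degZero` : (R3) two additive maps `Div(F) → (α →₀ ℤ)` agreeing on a set generating
  the principal divisors agree on `Div⁰(F)`;
* `h79_red_corr` : (R3') the form used for "reduction of places commutes with a correspondence":
  `r'_* (T D) = T̄ (r_* D)` for all `D` of degree `0` from the same identity on a generating set of
  principal divisors.
-/

set_option autoImplicit false

namespace Fermat.Agent.S40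

open AlgebraicCurve

/-- **(R1)** An additive map from a divisible group to a group without nonzero divisible elements
is zero. -/
theorem h79_hom_divisible_eq_zero {G H : Type*} [AddCommGroup G] [AddCommGroup H]
    (hG : ∀ n : ℕ, n ≠ 0 → ∀ x : G, ∃ y : G, n • y = x)
    (hH : ∀ h : H, (∀ n : ℕ, n ≠ 0 → ∃ h' : H, n • h' = h) → h = 0)
    (δ : G →+ H) : δ = 0 := by
  ext x
  rw [AddMonoidHom.zero_apply]
  refine hH _ fun n hn => ?_
  obtain ⟨y, rfl⟩ := hG n hn x
  exact ⟨δ y, (map_nsmul δ n y).symm⟩

/-- An integer divisible by every positive natural number is zero. -/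
theorem h79_int_eq_zero_of_forall_dvd {a : ℤ} (h : ∀ n : ℕ, n ≠ 0 → (n : ℤ) ∣ a) : a = 0 :=
  Int.eq_zero_of_dvd_of_natAbs_lt_natAbs (h (a.natAbs + 1) (Nat.succ_ne_zero _))
    (by rw [Int.natAbs_natCast]; exact Nat.lt_succ_self _)

/-- Finitely supported `ℤ`-valued functions have no nonzero divisible element. -/
theorem h79_finsupp_int_no_divisible {α : Type*} (h : α →₀ ℤ)
    (hd : ∀ n : ℕ, n ≠ 0 → ∃ h' : α →₀ ℤ, n • h' = h) : h = 0 := by
  ext a
  rw [Finsupp.zero_apply]
  refine h79_int_eq_zero_of_forall_dvd fun n hn => ?_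
  obtain ⟨h', rfl⟩ := hd n hn
  refine ⟨h' a, ?_⟩
  rw [Finsupp.smul_apply, nsmul_eq_mul]

section Divisors

variable {K F : Type*} [Field K] [Field F] [Algebra K F] {α : Type*}

/-- **(R2)** An additive map `Div⁰(F) → (α →₀ ℤ)` which vanishes on principal divisors is zero,
if `Pic⁰(F)` is divisible. -/
theorem h79_defect_zero
    (hdiv : ∀ n : ℕ, n ≠ 0 → ∀ x : Pic0 K F, ∃ y : Pic0 K F, n • y = x)
    (δ : Divisor.degZero (K := K) (F := F) →+ (α →₀ ℤ))
    (hprin : ∀ D : Divisor.degZero (K := K) (F := F),
      (D : Divisor K F) ∈ Divisor.principal (K := K) (F := F) → δ D = 0) :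
    δ = 0 := by
  have hker : (Divisor.principal (K := K) (F := F)).addSubgroupOf
      (Divisor.degZero (K := K) (F := F)) ≤ δ.ker := by
    intro D hD
    rw [AddMonoidHom.mem_ker]
    exact hprin D (AddSubgroup.mem_addSubgroupOf.mp hD)
  have h0 : QuotientAddGroup.lift _ δ hker = 0 :=
    h79_hom_divisible_eq_zero hdiv h79_finsupp_int_no_divisible _
  ext1 D
  have h1 : QuotientAddGroup.lift _ δ hker (QuotientAddGroup.mk D) = δ D :=
    QuotientAddGroup.lift_mk _ hker D
  rw [← h1, h0]
  rfl

/-- **(R3)** Two additive maps `Div(F) → (α →₀ ℤ)` which agree on a set `S` of divisors whose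
additive closure contains all principal divisors agree on all divisors of degree `0`, if `Pic⁰(F)`
is divisible. -/
theorem h79_eq_on_degZero
    (hdiv : ∀ n : ℕ, n ≠ 0 → ∀ x : Pic0 K F, ∃ y : Pic0 K F, n • y = x)
    (A B : Divisor K F →+ (α →₀ ℤ)) (S : Set (Divisor K F))
    (hgen : Divisor.principal (K := K) (F := F) ≤ AddSubgroup.closure S)
    (hS : ∀ D ∈ S, A D = B D)
    (D : Divisor K F) (hD : D ∈ Divisor.degZero (K := K) (F := F)) : A D = B D := by
  have hcl : ∀ E ∈ AddSubgroup.closure S, (A - B) E = 0 := by
    intro E hE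
    induction hE using AddSubgroup.closure_induction with
    | mem E hE => rw [AddMonoidHom.sub_apply, hS E hE, sub_self]
    | zero => exact map_zero _
    | add E E' _ _ hE hE' => rw [map_add, hE, hE', add_zero]
    | neg E _ hE => rw [map_neg, hE, neg_zero]
  have h0 := h79_defect_zero hdiv
    ((A - B).comp (Divisor.degZero (K := K) (F := F)).subtype)
    (fun E hE => hcl _ (hgen hE))
  have h1 := DFunLike.congr_fun h0 ⟨D, hD⟩
  rw [AddMonoidHom.comp_apply, AddMonoidHom.zero_apply] at h1
  have h2 : (A - B) D = 0 := h1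
  rw [AddMonoidHom.sub_apply, sub_eq_zero] at h2
  exact h2

variable {k Fb : Type*} [Field k] [Field Fb] [Algebra k Fb]
variable {K' F' k' Fb' : Type*} [Field K'] [Field F'] [Algebra K' F'] [Field k'] [Field Fb']
  [Algebra k' Fb']

/-- **(R3') Reduction commutes with a correspondence.**  `r`, `r'` are maps of places (place
reductions at two levels), `T : Div(F) → Div(F')` and `Tb : Div(Fb) → Div(Fb')` additive maps
(a correspondence and its reduction).  If `r'_* (T D) = Tb (r_* D)` for all `D` in a set `S` whose
additive closure contains the principal divisors of `F`, then the same holds for every divisor of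
degree `0`, as soon as `Pic⁰(F)` is divisible. -/
theorem h79_red_corr
    (hdiv : ∀ n : ℕ, n ≠ 0 → ∀ x : Pic0 K F, ∃ y : Pic0 K F, n • y = x)
    (r : Place K F → Place k Fb) (r' : Place K' F' → Place k' Fb')
    (T : Divisor K F →+ Divisor K' F') (Tb : Divisor k Fb →+ Divisor k' Fb')
    (S : Set (Divisor K F))
    (hgen : Divisor.principal (K := K) (F := F) ≤ AddSubgroup.closure S)
    (hS : ∀ D ∈ S, Finsupp.mapDomain r' (T D) = Tb (Finsupp.mapDomain r D))
    (D : Divisor K F) (hD : D ∈ Divisor.degZero (K := K) (F := F)) :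
    Finsupp.mapDomain r' (T D) = Tb (Finsupp.mapDomain r D) :=
  h79_eq_on_degZero hdiv ((Finsupp.mapDomain.addMonoidHom r').comp T)
    (Tb.comp (Finsupp.mapDomain.addMonoidHom r)) S hgen hS D hD

end Divisors

end Fermat.Agent.S40
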