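import Mathlib
import Fermat.Prelude.Def_AlgebraicCurve_Correspondence
import Fermat.Agent.S40.h79_RedCorr

/-!
# S40 / (BRIDGE) row (BR2'), generic core (helper2): weak compatibility of a place reduction
with a correspondence `α_* β^*`

`r`, `r'` are maps of places (place reductions at two levels), `α β : F → F'` the two degeneracy
maps in characteristic zero, `αb βb : Fb → Fb'` their reductions.  If

* `r'_* (φ^* D) = φb^* (r_* D)` for `φ = α, β` and all `D` in a set generating the principal
  divisors,
* the same identity holds for `α` and ONE divisor `D₀` of nonzero degree,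
* `Pic⁰(F)` is divisible and all places of `F`, `F'` have degree one,

then `r_* Z = 0` implies `r_* (α_* β^* Z) = 0` for every divisor `Z` of degree `0`
(`h2_weak_corr`).  No fundamental identity, no norm formula and no separability are used on the
reduced side.

Also: `h2_zero_red` (the zero divisor of a function reduces to the zero divisor of its reduction
as soon as both have the same total multiplicity) and `h2_pullback_zero` (pull-back of a zero
divisor).
-/

set_option autoImplicit false
set_option linter.style.haveILetI false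

noncomputable section

namespace Fermat.Agent.S40

open AlgebraicCurve

/-! ## Finitely supported integer functions -/

section Finsupp

variable {α β : Type*}

/-- The total mass of a finitely supported integer function. -/
def h2_tot : (α →₀ ℤ) →+ ℤ := Finsupp.liftAddHom fun _ => AddMonoidHom.id ℤ

theorem h2_tot_apply (D : α →₀ ℤ) : h2_tot D = ∑ a ∈ D.support, D a := by
  unfold h2_tot
  rw [Finsupp.liftAddHom_apply]
  rfl

theorem h2_tot_mapDomain (f : α → β) (D : α →₀ ℤ) : h2_tot (Finsupp.mapDomain f D) = h2_tot D := by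
  unfold h2_tot
  rw [Finsupp.liftAddHom_apply, Finsupp.liftAddHom_apply]
  exact Finsupp.sum_mapDomain_index_addMonoidHom (h := fun _ => AddMonoidHom.id ℤ)

open Classical in
theorem h2_mapDomain_apply (f : α → β) (D : α →₀ ℤ) (b : β) :
    Finsupp.mapDomain f D b = ∑ a ∈ D.support, if f a = b then D a else 0 := by
  rw [Finsupp.mapDomain, Finsupp.sum, Finsupp.finsetSum_apply]
  refine Finset.sum_congr rfl fun a _ => ?_
  rw [Finsupp.single_apply]

theorem h2_mapDomain_nonneg (f : α → β) (D : α →₀ ℤ) (hD : ∀ a, 0 ≤ D a) (b : β) :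
    0 ≤ Finsupp.mapDomain f D b := by
  classical
  rw [h2_mapDomain_apply]
  refine Finset.sum_nonneg fun a _ => ?_
  split_ifs
  · exact hD a
  · exact le_rfl

theorem h2_le_mapDomain (f : α → β) (D : α →₀ ℤ) (hD : ∀ a, 0 ≤ D a) (a₀ : α) :
    D a₀ ≤ Finsupp.mapDomain f D (f a₀) := by
  classical
  rw [h2_mapDomain_apply]
  by_cases h : a₀ ∈ D.support
  · have h1 : (if f a₀ = f a₀ then D a₀ else 0) ≤
        ∑ a ∈ D.support, if f a = f a₀ then D a else 0 :=
      Finset.single_le_sum (f := fun a => if f a = f a₀ then D a else 0)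
        (fun a _ => by
          show (0 : ℤ) ≤ if f a = f a₀ then D a else 0
          split_ifs
          · exact hD a
          · exact le_rfl) h
    rwa [if_pos rfl] at h1
  · rw [Finsupp.notMem_support_iff.mp h]
    refine Finset.sum_nonneg fun a _ => ?_
    split_ifs
    · exact hD a
    · exact le_rfl

/-- Pointwise `≤` with equal total mass is equality. -/
theorem h2_eq_of_le_of_tot (E₁ E₂ : β →₀ ℤ) (hle : ∀ b, E₂ b ≤ E₁ b)
    (htot : h2_tot E₁ = h2_tot E₂) : E₁ = E₂ := by
  have h0 : h2_tot (E₁ - E₂) = 0 := by rw [map_sub, htot, sub_self]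
  rw [h2_tot_apply] at h0
  have h1 := (Finset.sum_eq_zero_iff_of_nonneg (fun b _ => by
    rw [Finsupp.sub_apply]
    exact sub_nonneg.mpr (hle b))).mp h0
  have h2 : E₁ - E₂ = 0 := by
    ext b
    by_cases hb : b ∈ (E₁ - E₂).support
    · exact h1 b hb
    · exact Finsupp.notMem_support_iff.mp hb
  exact sub_eq_zero.mp h2

end Finsupp

/-! ## Degree and total mass -/

section Deg

variable {K F : Type*} [Field K] [Field F] [Algebra K F]

/-- When all places have degree one, the degree of a divisor is its total mass. -/
theorem h2_degree_eq_tot (hdeg : ∀ P : Place K F, P.deg = 1) (D : Divisor K F) :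
    Divisor.degree D = h2_tot D := by
  induction D using Finsupp.induction with
  | zero => simp
  | single_add P n D _ _ ih =>
    rw [map_add, map_add, ih, Divisor.degree_single, hdeg]
    unfold h2_tot
    simp

end Deg

/-! ## Zero divisors -/

section Zero

variable {K F k Fb : Type*} [Field K] [Field F] [Algebra K F] [Field k] [Field Fb] [Algebra k Fb]

/-- **The zero divisor reduces to the zero divisor.**  `D = div x`, `r_* D = div x̄`
(pointwise), `Z = (x)₀`, `Zb = (x̄)₀` with the same total mass.  Then `r_* Z = Zb`. -/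
theorem h2_zero_red (r : Place K F → Place k Fb) (x : F) (xb : Fb)
    (D : Divisor K F) (hD : ∀ P, D P = P.ord x)
    (hcompat : ∀ Q, Finsupp.mapDomain r D Q = Q.ord xb)
    (Z : Divisor K F) (hZ : ∀ P, Z P = max 0 (P.ord x))
    (Zb : Divisor k Fb) (hZb : ∀ Q, Zb Q = max 0 (Q.ord xb))
    (htot : h2_tot Z = h2_tot Zb) : Finsupp.mapDomain r Z = Zb := by
  refine h2_eq_of_le_of_tot _ _ (fun Q => ?_) ((h2_tot_mapDomain r Z).trans htot)
  rw [hZb]
  refine max_le (h2_mapDomain_nonneg r Z (fun P => by rw [hZ]; exact le_max_left _ _) Q) ?_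
  have hsplit : Z = D + (Z - D) := by abel
  have hpol : ∀ P, 0 ≤ (Z - D) P := by
    intro P
    rw [Finsupp.sub_apply, hZ, hD]
    exact sub_nonneg.mpr (le_max_right _ _)
  rw [hsplit, Finsupp.mapDomain_add, Finsupp.add_apply, hcompat]
  exact le_add_of_nonneg_right (h2_mapDomain_nonneg r (Z - D) hpol Q)

end Zero

section Pull

variable {K F F' : Type*} [Field K] [Field F] [Field F'] [Algebra K F] [Algebra K F']
variable [HasPrincipalDivisors K F']

/-- The pull-back of the zero divisor of `x` is the zero divisor of `φ x`. -/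
theorem h2_pullback_zero (φ : F →ₐ[K] F') (hφ : φ.toRingHom.IsIntegral) (x : F)
    (Z : Divisor K F) (hZ : ∀ P, Z P = max 0 (P.ord x)) (w : Place K F') :
    Divisor.pullbackAlong φ hφ Z w = max 0 (w.ord (φ x)) := by
  rw [Divisor.pullbackAlong_apply, hZ, Place.ord_restrictAlong φ hφ w x,
    mul_max_of_nonneg _ _ (Nat.cast_nonneg _), mul_zero]

/-- The pull-back of a principal divisor is the divisor of the image function. -/
theorem h2_pullback_div (φ : F →ₐ[K] F') (hφ : φ.toRingHom.IsIntegral) (x : F)
    (D : Divisor K F) (hD : ∀ P, D P = P.ord x) (w : Place K F') :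
    Divisor.pullbackAlong φ hφ D w = w.ord (φ x) := by
  rw [Divisor.pullbackAlong_apply, hD, Place.ord_restrictAlong φ hφ w x]

/-- The pull-back of an effective divisor is effective. -/
theorem h2_pullback_nonneg (φ : F →ₐ[K] F') (hφ : φ.toRingHom.IsIntegral)
    (D : Divisor K F) (hD : ∀ P, 0 ≤ D P) (w : Place K F') :
    0 ≤ Divisor.pullbackAlong φ hφ D w := by
  rw [Divisor.pullbackAlong_apply]
  exact mul_nonneg (Nat.cast_nonneg _) (hD _)

end Pull

/-! ## The weak compatibility -/

section Corr

variable {K F F' k Fb Fb' : Type*} [Field K] [Field F] [Field F'] [Algebra K F] [Algebra K F']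
  [Field k] [Field Fb] [Field Fb'] [Algebra k Fb] [Algebra k Fb']

/-- The ramification index along an integral map is positive. -/
theorem h2_ramificationIndexAlong_pos (φ : F →ₐ[K] F') (hφ : φ.toRingHom.IsIntegral)
    (w : Place K F') : 0 < w.ramificationIndexAlong φ := by
  letI := algebraAlong φ
  haveI := isScalarTower_along φ
  haveI := isIntegral_along φ hφ
  exact w.ramificationIndex_pos

/-- Inertia degree one along a map between function fields all of whose places have degree
one. -/
theorem h2_inertiaDegAlong_eq_one (φ : F →ₐ[K] F') (hφ : φ.toRingHom.IsIntegral)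
    (hdegF : ∀ P : Place K F, P.deg = 1) (hdegF' : ∀ w : Place K F', w.deg = 1)
    (w : Place K F') : w.inertiaDegAlong φ hφ = 1 := by
  have h : (w.restrictAlong φ hφ).deg * w.inertiaDegAlong φ hφ = w.deg := by
    letI := algebraAlong φ
    haveI := isScalarTower_along φ
    haveI := isIntegral_along φ hφ
    exact w.deg_restrict_mul_inertiaDeg
  rw [hdegF, hdegF', one_mul] at h
  exact h

variable [HasPrincipalDivisors K F'] [HasPrincipalDivisors k Fb']

/-- **Weak compatibility of a place reduction with the correspondence `α_* β^*`.** -/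
theorem h2_weak_corr
    (α β : F →ₐ[K] F') (hα : α.toRingHom.IsIntegral) (hβ : β.toRingHom.IsIntegral)
    (αb βb : Fb →ₐ[k] Fb') (hαb : αb.toRingHom.IsIntegral) (hβb : βb.toRingHom.IsIntegral)
    (r : Place K F → Place k Fb) (r' : Place K F' → Place k Fb')
    (hdiv : ∀ n : ℕ, n ≠ 0 → ∀ x : Pic0 K F, ∃ y : Pic0 K F, n • y = x)
    (S : Set (Divisor K F))
    (hgen : Divisor.principal (K := K) (F := F) ≤ AddSubgroup.closure S)
    (hSα : ∀ D ∈ S, Finsupp.mapDomain r' (Divisor.pullbackAlong α hα D)
      = Divisor.pullbackAlong αb hαb (Finsupp.mapDomain r D))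
    (hSβ : ∀ D ∈ S, Finsupp.mapDomain r' (Divisor.pullbackAlong β hβ D)
      = Divisor.pullbackAlong βb hβb (Finsupp.mapDomain r D))
    (D₀ : Divisor K F) (hD₀ : Divisor.degree D₀ ≠ 0)
    (hD₀α : Finsupp.mapDomain r' (Divisor.pullbackAlong α hα D₀)
      = Divisor.pullbackAlong αb hαb (Finsupp.mapDomain r D₀))
    (hdegF : ∀ P : Place K F, P.deg = 1) (hdegF' : ∀ w : Place K F', w.deg = 1)
    (Z : Divisor K F) (hZ0 : Z ∈ Divisor.degZero (K := K) (F := F))
    (hZ : Finsupp.mapDomain r Z = 0) :
    Finsupp.mapDomain r (Divisor.correspondence β α hβ hα Z) = 0 := by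
  classical
  -- the two additive maps for `α`
  let AM : Divisor K F →+ Divisor k Fb' :=
    (Finsupp.mapDomain.addMonoidHom r').comp (Divisor.pullbackAlong α hα)
  let BM : Divisor K F →+ Divisor k Fb' :=
    (Divisor.pullbackAlong αb hαb).comp (Finsupp.mapDomain.addMonoidHom r)
  have Hα : ∀ D ∈ Divisor.degZero (K := K) (F := F), AM D = BM D :=
    fun D hD => h79_eq_on_degZero hdiv AM BM S hgen hSα D hD
  have Hβ : ∀ D ∈ Divisor.degZero (K := K) (F := F),
      Finsupp.mapDomain r' (Divisor.pullbackAlong β hβ D)
        = Divisor.pullbackAlong βb hβb (Finsupp.mapDomain r D) :=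
    fun D hD => h79_eq_on_degZero hdiv
      ((Finsupp.mapDomain.addMonoidHom r').comp (Divisor.pullbackAlong β hβ))
      ((Divisor.pullbackAlong βb hβb).comp (Finsupp.mapDomain.addMonoidHom r)) S hgen hSβ D hD
  -- the `α`-identity on single places
  have Hα1 : ∀ P : Place K F, AM (Finsupp.single P 1) = BM (Finsupp.single P 1) := by
    intro P
    have hE : Divisor.degree D₀ • Finsupp.single P (1 : ℤ) - D₀ ∈
        Divisor.degZero (K := K) (F := F) := by
      rw [Divisor.mem_degZero, map_sub, map_zsmul, Divisor.degree_single, hdegF]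
      simp
    have h1 := Hα _ hE
    rw [map_sub, map_sub, map_zsmul, map_zsmul, show AM D₀ = BM D₀ from hD₀α,
      sub_left_inj] at h1
    exact smul_right_injective _ hD₀ h1
  -- place-level compatibility along `α`
  have Hplace : ∀ w : Place K F',
      (r' w).restrictAlong αb hαb = r (w.restrictAlong α hα) := by
    intro w
    by_contra hne
    have h1 := DFunLike.congr_fun (Hα1 (w.restrictAlong α hα)) (r' w)
    have hR : BM (Finsupp.single (w.restrictAlong α hα) 1) (r' w) = 0 := by
      show Divisor.pullbackAlong αb hαb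
        (Finsupp.mapDomain r (Finsupp.single (w.restrictAlong α hα) 1)) (r' w) = 0
      rw [Finsupp.mapDomain_single, Divisor.pullbackAlong_apply, Finsupp.single_eq_of_ne hne,
        mul_zero]
    have hL : 0 < AM (Finsupp.single (w.restrictAlong α hα) 1) (r' w) := by
      show 0 < Finsupp.mapDomain r'
        (Divisor.pullbackAlong α hα (Finsupp.single (w.restrictAlong α hα) 1)) (r' w)
      refine lt_of_lt_of_le ?_
        (h2_le_mapDomain r' _ (h2_pullback_nonneg α hα _ (fun P => ?_)) w)
      · rw [Divisor.pullbackAlong_apply, Finsupp.single_eq_same, mul_one]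
        exact_mod_cast h2_ramificationIndexAlong_pos α hα w
      · rw [Finsupp.single_apply]
        split_ifs <;> norm_num
    rw [h1, hR] at hL
    exact lt_irrefl _ hL
  -- push-forward along `α` is the map induced by restriction
  have Hpush : ∀ Y : Divisor K F', Finsupp.mapDomain r (Divisor.pushforwardAlong α hα Y)
      = Finsupp.mapDomain (fun Q : Place k Fb' => Q.restrictAlong αb hαb)
          (Finsupp.mapDomain r' Y) := by
    intro Y
    induction Y using Finsupp.induction with
    | zero => simp
    | single_add w n Y _ _ ih =>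
      rw [map_add, Finsupp.mapDomain_add, Finsupp.mapDomain_add, Finsupp.mapDomain_add, ih,
        Divisor.pushforwardAlong_single, h2_inertiaDegAlong_eq_one α hα hdegF hdegF' w,
        Finsupp.mapDomain_single, Finsupp.mapDomain_single, Finsupp.mapDomain_single, Hplace w]
      simp
  rw [Divisor.correspondence_apply, Hpush, Hβ Z hZ0, hZ, map_zero, Finsupp.mapDomain_zero]

end Corr

end Fermat.Agent.S40

end
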