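import Mathlib
import Fermat.Agent.S37.h39_RedInputs
import Fermat.Agent.S37.h87_RedData
import Fermat.Agent.S40.h2_RedHeckeGen

/-!
# S40 / (BRIDGE) row (BR2'), modular instance (helper2)

The kernel of the reduction map `reductionModL A N : J₀(N)(Q̄) → Pic⁰(F̄(N))` at a prime `p ∤ N ℓ`
is stable under the Hecke correspondence `T_ℓ = α_* β^*` (`h2_red_hecke_ker_of_div`, with the
divisibility of `J₀(N)` as a hypothesis; the final form is in `h2_RedHecke.lean`).
-/

set_option autoImplicit false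
set_option synthInstance.maxHeartbeats 400000
set_option linter.style.haveILetI false

noncomputable section

open ModularCurve AlgebraicCurve IntermediateField HahnSeries

namespace Fermat.Agent.S40

open Fermat.Agent.S18 Fermat.Agent.S24 Fermat.Agent.S37

local notation "Qb" => AlgebraicClosure ℚ

/-! ## The degeneracy maps in characteristic `p` -/

section DegC

variable (k : Type*) [Field k] (N ℓ : ℕ) [NeZero N] [NeZero ℓ]

/-- `ᾱ`: the inclusion `F̄(N) → F̄(N ℓ)`. -/
def h2_alphaC : modularFunctionFieldFullC k N →ₐ[k] modularFunctionFieldFullC k (N * ℓ) :=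
  IntermediateField.inclusion (full_degeneracyC_le k (dvd_mul_right N ℓ))

@[simp]
theorem h2_coe_alphaC (x : modularFunctionFieldFullC k N) :
    (h2_alphaC k N ℓ x : LaurentSeries k) = (x : LaurentSeries k) :=
  IntermediateField.coe_inclusion _ x

/-- `β̄ : q ↦ q^ℓ`, `F̄(N) → F̄(N ℓ)`. -/
def h2_betaC : modularFunctionFieldFullC k N →ₐ[k] modularFunctionFieldFullC k (N * ℓ) where
  toFun x := ⟨qExpand k ℓ (x : LaurentSeries k), full_degeneracyC_map_le k N ℓ ⟨x, x.2, rfl⟩⟩
  map_one' := Subtype.ext (map_one (qExpand k ℓ))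
  map_mul' _ _ := Subtype.ext (map_mul (qExpand k ℓ) _ _)
  map_zero' := Subtype.ext (map_zero (qExpand k ℓ))
  map_add' _ _ := Subtype.ext (map_add (qExpand k ℓ) _ _)
  commutes' a := Subtype.ext <| by
    show qExpand k ℓ (algebraMap k (LaurentSeries k) a) = algebraMap k (LaurentSeries k) a
    rw [algebraMap_laurentSeries_eq_single, qExpand_single, mul_zero]

omit [NeZero N] in
@[simp]
theorem h2_coe_betaC (x : modularFunctionFieldFullC k N) :
    (h2_betaC k N ℓ x : LaurentSeries k) = qExpand k ℓ (x : LaurentSeries k) :=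
  rfl

end DegC

/-! ## Compatibility of the place reductions with `α`, `β` on integral principal divisors -/

section Compat

variable {L : Type*} [Field L] [Algebra ℚ L] {A : ValuationSubring L}
variable {k : Type*} [Field k] {π : A →+* k} {N ℓ : ℕ} [NeZero N] [NeZero ℓ]
variable {r : Place L (laurentBaseChange L (modularFunctionFieldFull N)) →
    Place k (modularFunctionFieldFullC k N)}
variable {r' : Place L (laurentBaseChange L (modularFunctionFieldFull (N * ℓ))) →
    Place k (modularFunctionFieldFullC k (N * ℓ))}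
variable [HasPrincipalDivisors L (laurentBaseChange L (modularFunctionFieldFull (N * ℓ)))]
  [HasPrincipalDivisors k (modularFunctionFieldFullC k (N * ℓ))]

theorem h2_compat_alpha (hr : IsPlaceReductionAlong A π N r)
    (hr' : IsPlaceReductionAlong A π (N * ℓ) r')
    (hα : HeckeAlphaBarIntegral L N ℓ) (hαb : (h2_alphaC k N ℓ).toRingHom.IsIntegral)
    (D : Divisor L (laurentBaseChange L (modularFunctionFieldFull N)))
    (hD : D ∈ integralPrincipalDivisors A π N) :
    Finsupp.mapDomain r' (Divisor.pullbackAlong (heckeAlphaBar L N ℓ) hα D)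
      = Divisor.pullbackAlong (h2_alphaC k N ℓ) hαb (Finsupp.mapDomain r D) := by
  obtain ⟨y, hy, hyk, hne, hDy⟩ := hD
  have hy' : coeffMap A.subtype y ∈ laurentBaseChange L (modularFunctionFieldFull (N * ℓ)) :=
    (heckeAlphaBar L N ℓ ⟨_, hy⟩).2
  have hyk' : coeffMap π y ∈ modularFunctionFieldFullC k (N * ℓ) :=
    (h2_alphaC k N ℓ ⟨_, hyk⟩).2
  ext Q
  rw [hr'.2 y hy' hyk' hne _
      (fun w => h2_pullback_div (heckeAlphaBar L N ℓ) hα ⟨_, hy⟩ D hDy w) Q,
    h2_pullback_div (h2_alphaC k N ℓ) hαb ⟨_, hyk⟩ _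
      (fun Q₀ => hr.2 y hy hyk hne D hDy Q₀) Q]
  rfl

omit [NeZero N] in
theorem h2_compat_beta (hr : IsPlaceReductionAlong A π N r)
    (hr' : IsPlaceReductionAlong A π (N * ℓ) r')
    (hβ : HeckeBetaBarIntegral L N ℓ) (hβb : (h2_betaC k N ℓ).toRingHom.IsIntegral)
    (D : Divisor L (laurentBaseChange L (modularFunctionFieldFull N)))
    (hD : D ∈ integralPrincipalDivisors A π N) :
    Finsupp.mapDomain r' (Divisor.pullbackAlong (heckeBetaBar L N ℓ) hβ D)
      = Divisor.pullbackAlong (h2_betaC k N ℓ) hβb (Finsupp.mapDomain r D) := by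
  obtain ⟨y, hy, hyk, hne, hDy⟩ := hD
  have e1 : coeffMap A.subtype (qExpand A ℓ y) = qExpand L ℓ (coeffMap A.subtype y) :=
    coeffMap_qExpand _ ℓ y
  have e2 : coeffMap π (qExpand A ℓ y) = qExpand k ℓ (coeffMap π y) :=
    coeffMap_qExpand _ ℓ y
  have hy' : coeffMap A.subtype (qExpand A ℓ y)
      ∈ laurentBaseChange L (modularFunctionFieldFull (N * ℓ)) := by
    rw [e1]
    exact (heckeBetaBar L N ℓ ⟨_, hy⟩).2
  have hyk' : coeffMap π (qExpand A ℓ y) ∈ modularFunctionFieldFullC k (N * ℓ) := by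
    rw [e2]
    exact (h2_betaC k N ℓ ⟨_, hyk⟩).2
  have hne' : coeffMap π (qExpand A ℓ y) ≠ 0 := by
    rw [e2]
    intro h0
    have h1 : h2_betaC k N ℓ ⟨_, hyk⟩ = 0 := Subtype.ext h0
    rw [map_eq_zero] at h1
    exact hne (congrArg Subtype.val h1)
  have hb1 : heckeBetaBar L N ℓ ⟨_, hy⟩ = ⟨coeffMap A.subtype (qExpand A ℓ y), hy'⟩ :=
    Subtype.ext e1.symm
  have hb2 : h2_betaC k N ℓ ⟨_, hyk⟩ = ⟨coeffMap π (qExpand A ℓ y), hyk'⟩ :=
    Subtype.ext e2.symm
  ext Q
  rw [hr'.2 (qExpand A ℓ y) hy' hyk' hne' _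
      (fun w => by rw [h2_pullback_div (heckeBetaBar L N ℓ) hβ ⟨_, hy⟩ D hDy w, hb1]) Q,
    h2_pullback_div (h2_betaC k N ℓ) hβb ⟨_, hyk⟩ _
      (fun Q₀ => hr.2 y hy hyk hne D hDy Q₀) Q, hb2]

end Compat

/-! ## The zero divisor of `j` -/

section ZeroJ

/-- The zero divisor of a chart function has total mass the degree of the chart. -/
theorem h2_tot_zero {K F : Type*} [Field K] [Field F] [Algebra K F] [IsAlgClosed K] {x : F}
    (hx : h75_IsChart K x) (Z : Divisor K F) (hZ : ∀ P, Z P = max 0 (P.ord x)) :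
    h2_tot Z = (Module.finrank K⟮x⟯ F : ℤ) := by
  have hmem : ∀ P : Place K F, P ∈ Z.support ↔ 0 < P.ord (x - algebraMap K F 0) := by
    intro P
    rw [Finsupp.mem_support_iff, hZ, map_zero, sub_zero]
    constructor
    · intro h
      by_contra h'
      exact h (max_eq_left (not_lt.mp h'))
    · intro h h'
      rw [max_eq_right h.le] at h'
      exact h.ne' h'
  rw [h2_tot_apply, ← h75_fibre_sum hx 0 Z.support hmem]
  refine Finset.sum_congr rfl fun P hP => ?_
  have hpos := (hmem P).mp hP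
  rw [map_zero, sub_zero] at hpos ⊢
  rw [hZ]
  exact max_eq_right hpos.le

/-- Existence of the divisor and of the zero divisor of a nonzero function. -/
theorem h2_exists_zero {K F : Type*} [Field K] [Field F] [Algebra K F]
    [HasPrincipalDivisors K F] (x : F) (hx : x ≠ 0) :
    ∃ D Z : Divisor K F, (∀ P, D P = P.ord x) ∧ (∀ P, Z P = max 0 (P.ord x)) := by
  obtain ⟨D, hD, -⟩ := HasPrincipalDivisors.exists_divisor (K := K) x hx
  refine ⟨D, D.mapRange (fun n => max 0 n) (max_self 0), hD, fun P => ?_⟩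
  rw [Finsupp.mapRange_apply, hD]

/-- **The zero divisor of `j` reduces to the zero divisor of `j̄`** at every level prime to
`p`, for every place reduction. -/
theorem h2_zero_j (M : ℕ) [NeZero M] {p : ℕ} [Fact p.Prime] (hpM : ¬ p ∣ M)
    (A : ValuationSubring Qb) (hA : A.LiesOverPrime p)
    (r : Place Qb (modularFunctionFieldBar M) →
      Place (IsLocalRing.ResidueField A) (modularFunctionFieldFullC (IsLocalRing.ResidueField A) M))
    (hr : IsPlaceReductionModL A M r)
    (Z : Divisor Qb (modularFunctionFieldBar M)) (hZ : ∀ P, Z P = max 0 (P.ord (h59_jbar M)))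
    (Zb : Divisor (IsLocalRing.ResidueField A)
      (modularFunctionFieldFullC (IsLocalRing.ResidueField A) M))
    (hZb : ∀ Q, Zb Q = max 0 (Q.ord (h54_jk (IsLocalRing.ResidueField A) M))) :
    Finsupp.mapDomain r Z = Zb := by
  have hk : IsAlgClosed (IsLocalRing.ResidueField A) := h19_residueField_isAlgClosed A
  have hspec := h39_modRed_spec M hpM A hA
  have hw : h39_WeakChart (h39_modRed M hpM A hA) (h59_jbar M) :=
    h39_modRed_weakChart_j M hpM A hA
  have hxK := h39_weakChart_isChart _ hw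
  have hxk := h39_weakChart_isChart_red _ hw
  have hred : (h39_modRed M hpM A hA).redF (h59_jbar M) = h54_jk _ M := h54_redF_jbar hspec
  have hfr := hw.finrank_eq
  rw [hred] at hxk hfr
  haveI := h75_hasPrincipalDivisors hxK
  obtain ⟨D, hD, -⟩ := HasPrincipalDivisors.exists_divisor (K := Qb) (h59_jbar M) hxK.ne_zero
  refine h2_zero_red r (h59_jbar M) (h54_jk _ M) D hD ?_ Z hZ Zb hZb ?_
  · intro Q
    have hy : coeffMap A.subtype (jqModC A) ∈ modularFunctionFieldBar M := by
      rw [← h54_coe_jbar M A]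
      exact (h59_jbar M).2
    have hyk : coeffMap (IsLocalRing.residue A) (jqModC A)
        ∈ modularFunctionFieldFullC (IsLocalRing.ResidueField A) M := by
      rw [coeffMap_jqModC]
      exact jqModC_mem_full _ M
    have hne : coeffMap (IsLocalRing.residue A) (jqModC A) ≠ 0 := by
      rw [coeffMap_jqModC]
      exact jqModC_ne_zero_of_nontrivial _
    have e1 : (⟨coeffMap A.subtype (jqModC A), hy⟩ : modularFunctionFieldBar M) = h59_jbar M :=
      Subtype.ext (h54_coe_jbar M A).symm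
    have e2 : (⟨coeffMap (IsLocalRing.residue A) (jqModC A), hyk⟩ :
        modularFunctionFieldFullC (IsLocalRing.ResidueField A) M) = h54_jk _ M :=
      Subtype.ext (coeffMap_jqModC _)
    rw [hr.2 (jqModC A) hy hyk hne D (fun P => by rw [hD, e1]) Q, e2]
  · rw [h2_tot_zero hxK Z hZ, h2_tot_zero hxk Zb hZb, hfr]

end ZeroJ

/-! ## Lifting principal divisors -/

section Lift

set_option maxHeartbeats 1000000 in
/-- Every principal divisor of `F̄(N)` is the reduction of a principal divisor of `F(N)`, for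
every place reduction, at a charted level. -/
theorem h2_lift_principal (N : ℕ) [NeZero N] {p : ℕ} [Fact p.Prime] (hpN : ¬ p ∣ N)
    (A : ValuationSubring Qb) (hA : A.LiesOverPrime p) (hc : 5 ≤ p ∨ 2 ∣ N ∨ 3 ∣ N)
    (r : Place Qb (modularFunctionFieldBar N) →
      Place (IsLocalRing.ResidueField A) (modularFunctionFieldFullC (IsLocalRing.ResidueField A) N))
    (hr : IsPlaceReductionModL A N r)
    (g : modularFunctionFieldFullC (IsLocalRing.ResidueField A) N) (hg : g ≠ 0) :
    ∃ D ∈ Divisor.principal (K := Qb) (F := modularFunctionFieldBar N),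
      ∀ Q, Finsupp.mapDomain r D Q = Q.ord g := by
  have hk : IsAlgClosed (IsLocalRing.ResidueField A) := h19_residueField_isAlgClosed A
  have hchart : ∃ x : ↥(modularFunctionFieldBar N), h39_Chart (h39_modRed N hpN A hA) x := by
    rcases hc with h5 | h2 | h3
    · exact ⟨_, h39_modRed_chart_j N hpN A hA h5⟩
    · exact h39_modRed_chart_h2 N hpN A hA h2
    · exact h39_modRed_chart_h3 N hpN A hA h3
  obtain ⟨x, hx⟩ := hchart
  obtain ⟨S⟩ := h39_nonempty_placeRed_of_chart (h39_modRed N hpN A hA) hx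
  obtain ⟨hPD, hdegK, hdegk⟩ := h39_level_facts N hpN A hA
  have hS : IsPlaceReductionModL A N S.r0 :=
    h39_isPlaceReductionModL_of_placeRed N A (h39_modRed_spec N hpN A hA) S hdegK hdegk
  have hgen := h62_PGI N hpN A hA
  have hagree : ∀ D ∈ Divisor.principal (K := Qb) (F := modularFunctionFieldBar N),
      Finsupp.mapDomain r D = Finsupp.mapDomain S.r0 D := by
    intro D hD
    have hD' := hgen hD
    clear hD
    induction hD' using AddSubgroup.closure_induction with
    | mem E hE =>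
      obtain ⟨y, hy, hyk, hne, hEy⟩ := hE
      ext Q
      rw [hr.2 y hy hyk hne E hEy Q, hS.2 y hy hyk hne E hEy Q]
    | zero => rw [Finsupp.mapDomain_zero, Finsupp.mapDomain_zero]
    | add E E' _ _ hE hE' => rw [Finsupp.mapDomain_add, Finsupp.mapDomain_add, hE, hE']
    | neg E _ hE =>
      rw [← Finsupp.mapDomain.addMonoidHom_apply, ← Finsupp.mapDomain.addMonoidHom_apply,
        map_neg, map_neg, Finsupp.mapDomain.addMonoidHom_apply,
        Finsupp.mapDomain.addMonoidHom_apply, hE]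
  obtain ⟨f, hf⟩ := (h39_modRed N hpN A hA).red_surjective g
  have hf0 : (f : modularFunctionFieldBar N) ≠ 0 := by
    intro h0
    apply hg
    have hf' : f = 0 := Subtype.ext h0
    rw [← hf, hf', map_zero]
  obtain ⟨D, hD, -⟩ := hPD.exists_divisor (f : modularFunctionFieldBar N) hf0
  refine ⟨D, ⟨f, hf0, hD⟩, fun Q => ?_⟩
  rw [hagree D ⟨f, hf0, hD⟩]
  have h1 := S.compat (f : modularFunctionFieldBar N) f.2 (by
    rw [Subtype.coe_eta, hf]
    exact hg) D hD Q
  rw [h1, Subtype.coe_eta, hf]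

end Lift

/-! ## The kernel of the reduction is Hecke-stable -/

section Main

/-- Integrality of `ᾱ` at a level prime to `p`. -/
theorem h2_alphaC_integral (N ℓ : ℕ) [NeZero N] [NeZero ℓ] {p : ℕ} [Fact p.Prime]
    (hp : ¬ p ∣ N * ℓ) (A : ValuationSubring Qb) (hA : A.LiesOverPrime p) :
    (h2_alphaC (IsLocalRing.ResidueField A) N ℓ).toRingHom.IsIntegral := by
  have hw' := h39_modRed_weakChart_j (N * ℓ) hp A hA
  have hxk' := h39_weakChart_isChart_red _ hw'
  rw [h54_redF_jbar (h39_modRed_spec (N * ℓ) hp A hA)] at hxk'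
  refine h88_isIntegral_of_finiteAlong _
    (h88_finiteAlong_of_finite (h2_alphaC (IsLocalRing.ResidueField A) N ℓ)
      (h54_jk (IsLocalRing.ResidueField A) N) ?_)
  have e : h2_alphaC (IsLocalRing.ResidueField A) N ℓ (h54_jk (IsLocalRing.ResidueField A) N)
      = h54_jk (IsLocalRing.ResidueField A) (N * ℓ) := Subtype.ext rfl
  rw [e]
  exact hxk'.fin

/-- Integrality of `β̄` at a level prime to `p`. -/
theorem h2_betaC_integral (N ℓ : ℕ) [NeZero N] [NeZero ℓ] {p : ℕ} [Fact p.Prime]
    (hp : ¬ p ∣ N * ℓ) (A : ValuationSubring Qb) (hA : A.LiesOverPrime p) :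
    (h2_betaC (IsLocalRing.ResidueField A) N ℓ).toRingHom.IsIntegral := by
  have hw' := h39_modRed_weakChart_j (N * ℓ) hp A hA
  have hxk' := h39_weakChart_isChart_red _ hw'
  rw [h54_redF_jbar (h39_modRed_spec (N * ℓ) hp A hA)] at hxk'
  have htr : Transcendental (IsLocalRing.ResidueField A)
      (h2_betaC (IsLocalRing.ResidueField A) N ℓ (h54_jk (IsLocalRing.ResidueField A) N)) :=
    fun h => h54_jk_transcendental (IsLocalRing.ResidueField A) N
      ((isAlgebraic_algHom_iff (h2_betaC (IsLocalRing.ResidueField A) N ℓ)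
        (h2_betaC (IsLocalRing.ResidueField A) N ℓ).toRingHom.injective).1 h)
  exact h88_isIntegral_of_finiteAlong _
    (h88_finiteAlong_of_finite (h2_betaC (IsLocalRing.ResidueField A) N ℓ)
      (h54_jk (IsLocalRing.ResidueField A) N)
      (h73_finite_of_transcendental ⟨h54_jk (IsLocalRing.ResidueField A) (N * ℓ), hxk'.fin⟩ htr))

set_option maxHeartbeats 2000000 in
/-- **(BR2'), modular instance, with divisibility as a hypothesis.**  At a charted level `N`
and a prime `p ∤ N ℓ`, the kernel of `reductionModL A N` is stable under `T_ℓ = α_* β^*`. -/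
theorem h2_red_hecke_ker_of_div (N : ℕ) [NeZero N] (ℓ : ℕ) [NeZero ℓ] {p : ℕ} [Fact p.Prime]
    (hp : ¬ p ∣ N * ℓ) (A : ValuationSubring Qb) (hA : A.LiesOverPrime p)
    (hc : 5 ≤ p ∨ 2 ∣ N ∨ 3 ∣ N)
    (hdiv : ∀ n : ℕ, n ≠ 0 → ∀ x : JZero N, ∃ y : JZero N, n • y = x)
    (z : JZero N) (hz : reductionModL A N z = 0) :
    reductionModL A N (heckeOperatorAlong Qb N ℓ z) = 0 := by
  classical
  have hpN : ¬ p ∣ N := fun h => hp (Dvd.dvd.mul_right h ℓ)
  have hc' : 5 ≤ p ∨ 2 ∣ N * ℓ ∨ 3 ∣ N * ℓ := by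
    rcases hc with h | h | h
    · exact Or.inl h
    · exact Or.inr (Or.inl (Dvd.dvd.mul_right h ℓ))
    · exact Or.inr (Or.inr (Dvd.dvd.mul_right h ℓ))
  have hk : IsAlgClosed (IsLocalRing.ResidueField A) := h19_residueField_isAlgClosed A
  have hRI := h39_reductionInputsModL N hpN A hA hc
  have hRI' := h39_reductionInputsModL (N * ℓ) hp A hA hc'
  have hr : IsPlaceReductionModL A N (placeReductionModL hRI) :=
    isPlaceReductionModL_placeReductionModL hRI
  have hr' : IsPlaceReductionModL A (N * ℓ) (placeReductionModL hRI') :=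
    isPlaceReductionModL_placeReductionModL hRI'
  have hgen : PrincipalGeneratedByIntegral A (IsLocalRing.residue A) N := h62_PGI N hpN A hA
  obtain ⟨hPD, hdegK, hdegk⟩ := h39_level_facts N hpN A hA
  obtain ⟨hPD', hdegK', hdegk'⟩ := h39_level_facts (N * ℓ) hp A hA
  -- the charts `j`, `j̄` at both levels
  have hw := h39_modRed_weakChart_j N hpN A hA
  have hw' := h39_modRed_weakChart_j (N * ℓ) hp A hA
  have hxK := h39_weakChart_isChart _ hw
  have hxK' := h39_weakChart_isChart _ hw'
  have hxk := h39_weakChart_isChart_red _ hw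
  have hxk' := h39_weakChart_isChart_red _ hw'
  rw [h54_redF_jbar (h39_modRed_spec N hpN A hA)] at hxk
  rw [h54_redF_jbar (h39_modRed_spec (N * ℓ) hp A hA)] at hxk'
  haveI hPDk : HasPrincipalDivisors (IsLocalRing.ResidueField A)
      (modularFunctionFieldFullC (IsLocalRing.ResidueField A) N) := h75_hasPrincipalDivisors hxk
  haveI hPDk' : HasPrincipalDivisors (IsLocalRing.ResidueField A)
      (modularFunctionFieldFullC (IsLocalRing.ResidueField A) (N * ℓ)) :=
    h75_hasPrincipalDivisors hxk'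
  haveI := hPD
  haveI := hPD'
  -- integrality and the Hecke inputs
  have hα : (heckeAlphaBar Qb N ℓ).toRingHom.IsIntegral := h88_alphaIntegral N ℓ
  have hβ : (heckeBetaBar Qb N ℓ).toRingHom.IsIntegral := h88_betaIntegral N ℓ
  have hFI : FundamentalIdentityAlong Qb (heckeBetaBar Qb N ℓ) hβ := h87_FI_beta N ℓ
  have hfin := h88_finiteAlong_alpha N ℓ
  have hNF := h87_NF_alpha N ℓ
  have hαb := h2_alphaC_integral N ℓ hp A hA
  have hβb := h2_betaC_integral N ℓ hp A hA
  -- the zero divisors of `j`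
  obtain ⟨-, Z, -, hZ⟩ := h2_exists_zero (K := Qb) (h59_jbar N) hxK.ne_zero
  obtain ⟨-, Z', -, hZ'⟩ := h2_exists_zero (K := Qb) (h59_jbar (N * ℓ)) hxK'.ne_zero
  obtain ⟨-, Zb, -, hZb⟩ := h2_exists_zero (K := IsLocalRing.ResidueField A)
    (h54_jk (IsLocalRing.ResidueField A) N) hxk.ne_zero
  obtain ⟨-, Zb', -, hZb'⟩ := h2_exists_zero (K := IsLocalRing.ResidueField A)
    (h54_jk (IsLocalRing.ResidueField A) (N * ℓ)) hxk'.ne_zero
  have e1 : Finsupp.mapDomain (placeReductionModL hRI) Z = Zb :=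
    h2_zero_j N hpN A hA _ hr Z hZ Zb hZb
  have e2 : Finsupp.mapDomain (placeReductionModL hRI') Z' = Zb' :=
    h2_zero_j (N * ℓ) hp A hA _ hr' Z' hZ' Zb' hZb'
  have e3 : Divisor.pullbackAlong (heckeAlphaBar Qb N ℓ) hα Z = Z' := by
    ext w
    rw [h2_pullback_zero _ hα (h59_jbar N) Z hZ w, h88_alpha_jbar, hZ']
  have e4 : Divisor.pullbackAlong (h2_alphaC (IsLocalRing.ResidueField A) N ℓ) hαb Zb = Zb' := by
    ext Q
    rw [h2_pullback_zero _ hαb (h54_jk (IsLocalRing.ResidueField A) N) Zb hZb Q, hZb']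
    rfl
  have hD₀α : Finsupp.mapDomain (placeReductionModL hRI')
      (Divisor.pullbackAlong (heckeAlphaBar Qb N ℓ) hα Z)
      = Divisor.pullbackAlong (h2_alphaC (IsLocalRing.ResidueField A) N ℓ) hαb
          (Finsupp.mapDomain (placeReductionModL hRI) Z) := by
    rw [e3, e2, e1, e4]
  have hdegZ : Divisor.degree Z ≠ 0 := by
    rw [h2_degree_eq_tot hdegK, h2_tot_zero hxK Z hZ]
    have := hxK.fin
    exact_mod_cast (Module.finrank_pos (R := Qb⟮h59_jbar N⟯)
      (M := modularFunctionFieldBar N)).ne'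
  -- the class-level argument
  obtain ⟨Z0, rfl⟩ := Pic0.mk_surjective z
  rw [reductionModL_mk hRI] at hz
  have hprin : Finsupp.mapDomain (placeReductionModL hRI)
      (Z0 : Divisor Qb (modularFunctionFieldBar N)) ∈
      Divisor.principal (K := IsLocalRing.ResidueField A)
        (F := modularFunctionFieldFullC (IsLocalRing.ResidueField A) N) :=
    AddSubgroup.mem_addSubgroupOf.mp ((QuotientAddGroup.eq_zero_iff _).mp hz)
  obtain ⟨g, hg0, hg⟩ := hprin
  obtain ⟨Dg, hDgp, hDg⟩ := h2_lift_principal N hpN A hA hc _ hr g hg0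
  have hDg0 : Dg ∈ Divisor.degZero (K := Qb) (F := modularFunctionFieldBar N) := by
    obtain ⟨f, hf0, hDf⟩ := hDgp
    obtain ⟨D', hD', hdeg'⟩ := hPD.exists_divisor f hf0
    have hDD : Dg = D' := by
      ext P
      rw [hDf, hD']
    rw [Divisor.mem_degZero, hDD]
    exact hdeg'
  have hZ1 : (Z0 : Divisor Qb (modularFunctionFieldBar N)) - Dg ∈
      Divisor.degZero (K := Qb) (F := modularFunctionFieldBar N) := sub_mem Z0.2 hDg0
  have hZ1r : Finsupp.mapDomain (placeReductionModL hRI)
      ((Z0 : Divisor Qb (modularFunctionFieldBar N)) - Dg) = 0 := by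
    ext Q
    rw [Finsupp.mapDomain_sub, Finsupp.sub_apply, hg Q, hDg Q, sub_self]
    rfl
  have key := h2_weak_corr (heckeAlphaBar Qb N ℓ) (heckeBetaBar Qb N ℓ) hα hβ
    (h2_alphaC (IsLocalRing.ResidueField A) N ℓ) (h2_betaC (IsLocalRing.ResidueField A) N ℓ)
    hαb hβb (placeReductionModL hRI) (placeReductionModL hRI') hdiv
    (integralPrincipalDivisors A (IsLocalRing.residue A) N) hgen
    (fun D hD => h2_compat_alpha hr hr' hα hαb D hD)
    (fun D hD => h2_compat_beta hr hr' hβ hβb D hD)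
    Z hdegZ hD₀α hdegK hdegK' _ hZ1 hZ1r
  have hT : heckeOperatorAlong Qb N ℓ (Pic0.mk Z0)
      = Pic0.mk (Pic0.degZeroCorrespondence (heckeBetaBar Qb N ℓ) (heckeAlphaBar Qb N ℓ)
          hβ hα hFI Z0) :=
    congrFun (congrArg DFunLike.coe (heckeOperatorAlong_eq hα hβ hFI hfin hNF)) (Pic0.mk Z0)
  rw [hT, reductionModL_mk hRI]
  refine (QuotientAddGroup.eq_zero_iff _).mpr (AddSubgroup.mem_addSubgroupOf.mpr ?_)
  show Finsupp.mapDomain (placeReductionModL hRI)
    (Divisor.correspondence (heckeBetaBar Qb N ℓ) (heckeAlphaBar Qb N ℓ) hβ hα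
      (Z0 : Divisor Qb (modularFunctionFieldBar N))) ∈ _
  have hsplit : (Z0 : Divisor Qb (modularFunctionFieldBar N))
      = ((Z0 : Divisor Qb (modularFunctionFieldBar N)) - Dg) + Dg := by abel
  rw [hsplit, map_add, Finsupp.mapDomain_add, key, zero_add]
  exact hr.mapDomain_mem_principal hgen
    (Divisor.correspondence_mem_principal _ _ hβ hα hfin hNF hDgp)

end Main

end Fermat.Agent.S40

end
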