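import Mathlib
import Fermat.Prelude.Def_ModularCurve_HeckeModule
import Fermat.Agent.S34.h60_R2
import Fermat.Agent.GAL.h67_GalPlace

/-!
# S40 / (SWAP-HECKE): the Atkin–Lehner swap at `p` commutes with `T_l` on `J₀(M p)` (helper79)

Level `M p`, `p` prime, `p ∤ M`; `w = h60_w M p hpM` the swap (Atkin–Lehner involution at `p`) of
`F(M p)` (landed, S34/h60_R2); `l` any integer with `p ∤ M l`.

* `h79_lvl` : the identification of the function fields of two equal levels (used once, for
  `(M p) l = (M l) p`; coercion to `q`-series is the identity, `h79_lvl_coe`);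
* `h79_ringHom_ext_lvl` : two ring homomorphisms out of `F(M p)` agreeing on `α_p(F(M))` and
  `β_p(F(M))` agree (power basis);
* `h79_swapUp` : the swap at `p` of level `M l p`, transported to `F((M p) l)`;
* `h79_swap_lvl_alpha`, `h79_swap_lvl_beta` : **(SWAP-LVL)** `w' ∘ α_l = α_l ∘ w`,
  `w' ∘ β_l = β_l ∘ w` for the degeneracy maps `α_l, β_l : F(M p) → F(M p l)`;
* `h79_swapAut`, `h79_swapAutUp` : the two swaps as `SemilinearAut` (trivial on constants), with
  `h79_swapAut_smul : h79_swapAut M p hpM • f = h60_w M p hpM f`;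
* `h79_intertwines_alpha`, `h79_intertwines_beta` : the intertwining relations;
* `h79_heckeOperatorAlong_swap`, `h79_heckeOperatorBar_swap` : **(SWAP-HECKE)**
  `T_l (w • x) = w • T_l x` on `J₀(M p)`;
* `h79_eigen_swap` : `T_l x = a • x → T_l (w • x) = a • (w • x)`;
* `h79_swap_rep` : if `x = [E]` and `m E = div u` then `w • x = [w • E]` and
  `m (w • E) = div (w u)`  (so `red₂ u = red₁ (w u)` is the first reduction of a representative of
  `w • x`: `h60_R2_redF`).
-/

set_option autoImplicit false
set_option synthInstance.maxHeartbeats 400000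

noncomputable section

open ModularCurve AlgebraicCurve

namespace Fermat.Agent.S40

open Fermat.Agent.S34 Fermat.Agent.S37 Fermat.Agent.S24 Fermat.Agent.GAL

local notation "Qb" => AlgebraicClosure ℚ

/-! ## Equal levels -/

/-- The identification of the function fields of two equal levels. -/
def h79_lvl {L₁ L₂ : ℕ} (h : L₁ = L₂) :
    ↥(modularFunctionFieldBar L₁) ≃+* ↥(modularFunctionFieldBar L₂) where
  toFun x := ⟨(x : LaurentSeries Qb), h ▸ x.2⟩
  invFun x := ⟨(x : LaurentSeries Qb), h ▸ x.2⟩
  left_inv _ := rfl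
  right_inv _ := rfl
  map_mul' _ _ := rfl
  map_add' _ _ := rfl

@[simp]
theorem h79_lvl_coe {L₁ L₂ : ℕ} (h : L₁ = L₂) (x : ↥(modularFunctionFieldBar L₁)) :
    ((h79_lvl h x : ↥(modularFunctionFieldBar L₂)) : LaurentSeries Qb)
      = (x : LaurentSeries Qb) := by
  subst h
  rfl

@[simp]
theorem h79_lvl_symm_coe {L₁ L₂ : ℕ} (h : L₁ = L₂) (x : ↥(modularFunctionFieldBar L₂)) :
    (((h79_lvl h).symm x : ↥(modularFunctionFieldBar L₁)) : LaurentSeries Qb)
      = (x : LaurentSeries Qb) := by
  subst h
  rfl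

/-- The `q`-series of a constant. -/
theorem h79_coe_algebraMap (L : ℕ) (c : Qb) :
    ((algebraMap Qb ↥(modularFunctionFieldBar L) c : ↥(modularFunctionFieldBar L)) :
      LaurentSeries Qb) = algebraMap Qb (LaurentSeries Qb) c :=
  rfl

/-- `q ↦ q^a` and `q ↦ q^b` commute. -/
theorem h79_qExpand_comm (a b : ℕ) [NeZero a] [NeZero b] (f : LaurentSeries Qb) :
    qExpand Qb a (qExpand Qb b f) = qExpand Qb b (qExpand Qb a f) := by
  rw [qExpand_qExpand, qExpand_qExpand]
  exact qExpand_congr (mul_comm a b) f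

section

variable (M p : ℕ) [NeZero M] [NeZero p] [Fact p.Prime] (hpM : ¬ p ∣ M)

include hpM in
/-- Two ring homomorphisms out of `F(M p)` which agree on `α_p(F(M))` and on `β_p(F(M))`
agree. -/
theorem h79_ringHom_ext_lvl {R : Type*} [Semiring R]
    (φ₁ φ₂ : ↥(modularFunctionFieldBar (M * p)) →+* R)
    (hα : ∀ y : ↥(modularFunctionFieldBar M),
      φ₁ (heckeAlphaBar Qb M p y) = φ₂ (heckeAlphaBar Qb M p y))
    (hβ : ∀ y : ↥(modularFunctionFieldBar M),
      φ₁ (heckeBetaBar Qb M p y) = φ₂ (heckeBetaBar Qb M p y)) : φ₁ = φ₂ := by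
  refine RingHom.ext fun f => ?_
  obtain ⟨c, rfl⟩ := h60_powerBasis M p Fact.out hpM f
  rw [h60_comb, map_sum, map_sum]
  refine Finset.sum_congr rfl fun i _ => ?_
  rw [map_mul, map_mul, map_pow, map_pow, hα, hβ]

variable (l : ℕ) [NeZero l] (hpMl : ¬ p ∣ M * l)

/-- The swap at `p` of level `M l p`, transported to the function field of level `(M p) l`. -/
def h79_swapUp : ↥(modularFunctionFieldBar (M * p * l)) →+* ↥(modularFunctionFieldBar (M * p * l)) :=
  ((h79_lvl (Nat.mul_right_comm M p l)).symm : _ →+* _).comp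
    ((h60_w (M * l) p hpMl).comp ((h79_lvl (Nat.mul_right_comm M p l)) : _ →+* _))

omit [NeZero M] [NeZero l] in
theorem h79_swapUp_apply (f : ↥(modularFunctionFieldBar (M * p * l))) :
    h79_swapUp M p l hpMl f = (h79_lvl (Nat.mul_right_comm M p l)).symm
      (h60_w (M * l) p hpMl (h79_lvl (Nat.mul_right_comm M p l) f)) :=
  rfl

/-- The upper swap is an involution. -/
theorem h79_swapUp_swapUp (f : ↥(modularFunctionFieldBar (M * p * l))) :
    h79_swapUp M p l hpMl (h79_swapUp M p l hpMl f) = f := by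
  rw [h79_swapUp_apply, h79_swapUp_apply, RingEquiv.apply_symm_apply, h60_w_w,
    RingEquiv.symm_apply_apply]

/-- The upper swap fixes the constants. -/
theorem h79_swapUp_algebraMap (c : Qb) :
    h79_swapUp M p l hpMl (algebraMap Qb ↥(modularFunctionFieldBar (M * p * l)) c)
      = algebraMap Qb ↥(modularFunctionFieldBar (M * p * l)) c := by
  have h1 : h79_lvl (Nat.mul_right_comm M p l)
      (algebraMap Qb ↥(modularFunctionFieldBar (M * p * l)) c)
        = algebraMap Qb ↥(modularFunctionFieldBar (M * l * p)) c :=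
    Subtype.ext (by rw [h79_lvl_coe, h79_coe_algebraMap, h79_coe_algebraMap])
  rw [h79_swapUp_apply, h1, h60_w_algebraMap]
  exact Subtype.ext (by rw [h79_lvl_symm_coe, h79_coe_algebraMap, h79_coe_algebraMap])

include hpM in
/-- **(SWAP-LVL), `α`**: the swaps at `p` of the levels `M p` and `M l p` commute with the
degeneracy map `α_l` (inclusion). -/
theorem h79_swap_lvl_alpha (f : ↥(modularFunctionFieldBar (M * p))) :
    h79_swapUp M p l hpMl (heckeAlphaBar Qb (M * p) l f)
      = heckeAlphaBar Qb (M * p) l (h60_w M p hpM f) := by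
  have key : (h79_swapUp M p l hpMl).comp (heckeAlphaBar Qb (M * p) l).toRingHom
      = (heckeAlphaBar Qb (M * p) l).toRingHom.comp (h60_w M p hpM) := by
    apply h79_ringHom_ext_lvl M p hpM
    · intro y
      have e1 : h79_lvl (Nat.mul_right_comm M p l)
          (heckeAlphaBar Qb (M * p) l (heckeAlphaBar Qb M p y))
            = heckeAlphaBar Qb (M * l) p (heckeAlphaBar Qb M l y) :=
        Subtype.ext (by
          rw [h79_lvl_coe, coe_heckeAlphaBar, coe_heckeAlphaBar, coe_heckeAlphaBar,
            coe_heckeAlphaBar])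
      show h79_swapUp M p l hpMl (heckeAlphaBar Qb (M * p) l (heckeAlphaBar Qb M p y))
        = heckeAlphaBar Qb (M * p) l (h60_w M p hpM (heckeAlphaBar Qb M p y))
      rw [h79_swapUp_apply, e1, h60_w_alpha, h60_w_alpha]
      exact Subtype.ext (by
        rw [h79_lvl_symm_coe, coe_heckeBetaBar, coe_heckeAlphaBar, coe_heckeAlphaBar,
          coe_heckeBetaBar])
    · intro y
      have e1 : h79_lvl (Nat.mul_right_comm M p l)
          (heckeAlphaBar Qb (M * p) l (heckeBetaBar Qb M p y))
            = heckeBetaBar Qb (M * l) p (heckeAlphaBar Qb M l y) :=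
        Subtype.ext (by
          rw [h79_lvl_coe, coe_heckeAlphaBar, coe_heckeBetaBar, coe_heckeBetaBar,
            coe_heckeAlphaBar])
      show h79_swapUp M p l hpMl (heckeAlphaBar Qb (M * p) l (heckeBetaBar Qb M p y))
        = heckeAlphaBar Qb (M * p) l (h60_w M p hpM (heckeBetaBar Qb M p y))
      rw [h79_swapUp_apply, e1, h60_w_beta, h60_w_beta]
      exact Subtype.ext (by
        rw [h79_lvl_symm_coe, coe_heckeAlphaBar, coe_heckeAlphaBar, coe_heckeAlphaBar,
          coe_heckeAlphaBar])
  exact DFunLike.congr_fun key f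

include hpM in
/-- **(SWAP-LVL), `β`**: the swaps at `p` of the levels `M p` and `M l p` commute with the
degeneracy map `β_l` (`q ↦ q^l`). -/
theorem h79_swap_lvl_beta (f : ↥(modularFunctionFieldBar (M * p))) :
    h79_swapUp M p l hpMl (heckeBetaBar Qb (M * p) l f)
      = heckeBetaBar Qb (M * p) l (h60_w M p hpM f) := by
  have key : (h79_swapUp M p l hpMl).comp (heckeBetaBar Qb (M * p) l).toRingHom
      = (heckeBetaBar Qb (M * p) l).toRingHom.comp (h60_w M p hpM) := by
    apply h79_ringHom_ext_lvl M p hpM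
    · intro y
      have e1 : h79_lvl (Nat.mul_right_comm M p l)
          (heckeBetaBar Qb (M * p) l (heckeAlphaBar Qb M p y))
            = heckeAlphaBar Qb (M * l) p (heckeBetaBar Qb M l y) :=
        Subtype.ext (by
          rw [h79_lvl_coe, coe_heckeBetaBar, coe_heckeAlphaBar, coe_heckeAlphaBar,
            coe_heckeBetaBar])
      show h79_swapUp M p l hpMl (heckeBetaBar Qb (M * p) l (heckeAlphaBar Qb M p y))
        = heckeBetaBar Qb (M * p) l (h60_w M p hpM (heckeAlphaBar Qb M p y))
      rw [h79_swapUp_apply, e1, h60_w_alpha, h60_w_alpha]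
      exact Subtype.ext (by
        rw [h79_lvl_symm_coe, coe_heckeBetaBar, coe_heckeBetaBar, coe_heckeBetaBar,
          coe_heckeBetaBar, h79_qExpand_comm p l])
    · intro y
      have e1 : h79_lvl (Nat.mul_right_comm M p l)
          (heckeBetaBar Qb (M * p) l (heckeBetaBar Qb M p y))
            = heckeBetaBar Qb (M * l) p (heckeBetaBar Qb M l y) :=
        Subtype.ext (by
          rw [h79_lvl_coe, coe_heckeBetaBar, coe_heckeBetaBar, coe_heckeBetaBar,
            coe_heckeBetaBar, h79_qExpand_comm l p])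
      show h79_swapUp M p l hpMl (heckeBetaBar Qb (M * p) l (heckeBetaBar Qb M p y))
        = heckeBetaBar Qb (M * p) l (h60_w M p hpM (heckeBetaBar Qb M p y))
      rw [h79_swapUp_apply, e1, h60_w_beta, h60_w_beta]
      exact Subtype.ext (by
        rw [h79_lvl_symm_coe, coe_heckeAlphaBar, coe_heckeBetaBar, coe_heckeBetaBar,
          coe_heckeAlphaBar])
  exact DFunLike.congr_fun key f

end

/-! ## The swaps as semilinear automorphisms -/

/-- An involutive ring endomorphism of a field fixing the constants, as a `SemilinearAut`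
(trivial on constants). -/
def h79_autOfInvolution {K F : Type*} [Field K] [Field F] [Algebra K F] (w : F →+* F)
    (hw2 : ∀ f, w (w f) = f) (hwK : ∀ a : K, w (algebraMap K F a) = algebraMap K F a) :
    SemilinearAut K F :=
  ⟨(({ toFun := w, invFun := w, left_inv := hw2, right_inv := hw2,
        map_mul' := map_mul w, map_add' := map_add w } : F ≃+* F), 1), fun a => hwK a⟩

@[simp]
theorem h79_autOfInvolution_smul {K F : Type*} [Field K] [Field F] [Algebra K F] (w : F →+* F)
    (hw2 : ∀ f, w (w f) = f) (hwK : ∀ a : K, w (algebraMap K F a) = algebraMap K F a) (f : F) :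
    h79_autOfInvolution w hw2 hwK • f = w f :=
  rfl

section

variable (M p : ℕ) [NeZero M] [NeZero p] [Fact p.Prime] (hpM : ¬ p ∣ M)

/-- The swap (Atkin–Lehner involution at `p`) of `F(M p)` as a `SemilinearAut`. -/
def h79_swapAut : SemilinearAut Qb ↥(modularFunctionFieldBar (M * p)) :=
  h79_autOfInvolution (h60_w M p hpM) (h60_w_w M p hpM) (h60_w_algebraMap M p hpM)

@[simp]
theorem h79_swapAut_smul (f : ↥(modularFunctionFieldBar (M * p))) :
    h79_swapAut M p hpM • f = h60_w M p hpM f :=
  h79_autOfInvolution_smul (h60_w M p hpM) _ _ f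

variable (l : ℕ) [NeZero l] (hpMl : ¬ p ∣ M * l)

/-- The swap at `p` of level `(M p) l` as a `SemilinearAut`. -/
def h79_swapAutUp : SemilinearAut Qb ↥(modularFunctionFieldBar (M * p * l)) :=
  h79_autOfInvolution (h79_swapUp M p l hpMl) (h79_swapUp_swapUp M p l hpMl)
    (h79_swapUp_algebraMap M p l hpMl)

@[simp]
theorem h79_swapAutUp_smul (f : ↥(modularFunctionFieldBar (M * p * l))) :
    h79_swapAutUp M p l hpMl • f = h79_swapUp M p l hpMl f :=
  h79_autOfInvolution_smul (h79_swapUp M p l hpMl) _ _ f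

/-- The swaps intertwine `α_l`. -/
theorem h79_intertwines_alpha :
    SemilinearAut.IntertwinesAlong
      ((heckeAlphaBar Qb (M * p) l :
        ↥(modularFunctionFieldBar (M * p)) →ₐ[Qb] ↥(modularFunctionFieldBar (M * p * l))) :
        ↥(modularFunctionFieldBar (M * p)) →+* ↥(modularFunctionFieldBar (M * p * l)))
      (h79_swapAut M p hpM) (h79_swapAutUp M p l hpMl) := by
  intro f
  rw [h79_swapAutUp_smul, h79_swapAut_smul]
  exact h79_swap_lvl_alpha M p hpM l hpMl f

/-- The swaps intertwine `β_l`. -/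
theorem h79_intertwines_beta :
    SemilinearAut.IntertwinesAlong
      ((heckeBetaBar Qb (M * p) l :
        ↥(modularFunctionFieldBar (M * p)) →ₐ[Qb] ↥(modularFunctionFieldBar (M * p * l))) :
        ↥(modularFunctionFieldBar (M * p)) →+* ↥(modularFunctionFieldBar (M * p * l)))
      (h79_swapAut M p hpM) (h79_swapAutUp M p l hpMl) := by
  intro f
  rw [h79_swapAutUp_smul, h79_swapAut_smul]
  exact h79_swap_lvl_beta M p hpM l hpMl f

include hpMl in
/-- **(SWAP-HECKE)** The Hecke operator `T_l` on `J₀(M p)` commutes with the swap at `p`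
(`p ∤ M l`). -/
theorem h79_heckeOperatorAlong_swap (x : JZero (M * p)) :
    heckeOperatorAlong Qb (M * p) l (h79_swapAut M p hpM • x)
      = h79_swapAut M p hpM • heckeOperatorAlong Qb (M * p) l x := by
  by_cases hI : HeckeInputsAlong Qb (M * p) l
  · obtain ⟨hα, hβ, hP, hfin, hFI, hN⟩ := hI
    have := hP
    rw [heckeOperatorAlong_eq hα hβ hFI hfin hN]
    exact h67_pic0_correspondence_smul _ _ hβ hα hFI hfin hN
      (h79_intertwines_beta M p hpM l hpMl) (h79_intertwines_alpha M p hpM l hpMl) x
  · rw [heckeOperatorAlong_of_not hI]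
    simp

/-- **(SWAP-HECKE)** for `heckeOperatorBar`: `T_l (w • x) = w • T_l x` on `J₀(M p)`, `l` a prime
with `p ∤ M l`. -/
theorem h79_heckeOperatorBar_swap (l : Nat.Primes) (hpMl : ¬ p ∣ M * l) (x : JZero (M * p)) :
    heckeOperatorBar (M * p) l (h79_swapAut M p hpM • x)
      = h79_swapAut M p hpM • heckeOperatorBar (M * p) l x := by
  have : NeZero (l : ℕ) := ⟨l.2.ne_zero⟩
  rw [heckeOperatorBar_apply, heckeOperatorBar_apply]
  exact h79_heckeOperatorAlong_swap M p hpM l hpMl x

/-- The swap of a `T_l`-eigenclass is a `T_l`-eigenclass with the same eigenvalue. -/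
theorem h79_eigen_swap (l : Nat.Primes) (hpMl : ¬ p ∣ M * l) (x : JZero (M * p)) (a : ℤ)
    (hx : heckeOperatorBar (M * p) l x = a • x) :
    heckeOperatorBar (M * p) l (h79_swapAut M p hpM • x) = a • (h79_swapAut M p hpM • x) := by
  rw [h79_heckeOperatorBar_swap M p hpM l hpMl x, hx, SemilinearAut.smul_zsmul]

/-- The swap of a torsion class is torsion. -/
theorem h79_swap_nsmul (n : ℕ) (x : JZero (M * p)) (hx : n • x = 0) :
    n • (h79_swapAut M p hpM • x) = 0 := by
  have h := SemilinearAut.smul_zsmul (h79_swapAut M p hpM) (n : ℤ) x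
  rw [natCast_zsmul, natCast_zsmul, hx] at h
  rw [← h]
  exact smul_zero (A := JZero (M * p)) (h79_swapAut M p hpM)

/-- **Representatives**: if `x = [E]` and `m E = div u`, then `w • x = [w • E]` and
`m (w • E) = div (w u)`. -/
theorem h79_swap_rep (m : ℤ)
    (E : Divisor.degZero (K := Qb) (F := modularFunctionFieldBar (M * p)))
    (u : ↥(modularFunctionFieldBar (M * p)))
    (hu : ∀ v : Place Qb ↥(modularFunctionFieldBar (M * p)),
      m * (E : Divisor Qb ↥(modularFunctionFieldBar (M * p))) v = v.ord u) :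
    h79_swapAut M p hpM • Pic0.mk E = Pic0.mk (SemilinearAut.degZeroSMulHom (h79_swapAut M p hpM) E)
      ∧ ∀ v : Place Qb ↥(modularFunctionFieldBar (M * p)),
        m * (SemilinearAut.degZeroSMulHom (h79_swapAut M p hpM) E :
            Divisor Qb ↥(modularFunctionFieldBar (M * p))) v = v.ord (h60_w M p hpM u) := by
  refine ⟨SemilinearAut.pic0_smul_mk _ E, fun v => ?_⟩
  rw [SemilinearAut.coe_degZeroSMulHom, SemilinearAut.divisor_smul_apply, hu]
  have h := SemilinearAut.ord_smul (h79_swapAut M p hpM) ((h79_swapAut M p hpM)⁻¹ • v) u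
  rw [smul_inv_smul] at h
  rw [← h, h79_swapAut_smul]

end

end Fermat.Agent.S40

end
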