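/-
S40 / G40 row (E1), second component (helper10).

Datum-language forms of the norm reduction `(E1)` and of the integrality `(INT)` along
`α_ℓ : F(N p) → F(N p ℓ)` for BOTH reduction data of level `p`:

* `R₁ = h60_R1 N p`, `R₂ = h60_R2 N p` on `F(N p)` (residue field `Fb(N)`);
* `R₁' = h60_R1 (N ℓ) p`, `R₂' = h60_R2 (N ℓ) p` on `F(N ℓ p)` (residue field `Fb(N ℓ)`),
  read on `F(N p ℓ)` through `h79_lvl (Nat.mul_right_comm N p ℓ)`.

For `i = 1, 2` and `G ∈ F(N p ℓ)` with `lvl G ∈ Rᵢ'.O`: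
`N_α G ∈ Rᵢ.O` and `Rᵢ.redF (N_α G) = N_ᾱ (Rᵢ'.redF (lvl G))`; `G` is integral over `Rᵢ.O`;
`Rᵢ'.redF (lvl (α u)) = ᾱ (Rᵢ.redF u)`, `Rᵢ'.redF (lvl (β u)) = β̄ (Rᵢ.redF u)`.
The second component is obtained from the first by the swaps (`h79_SwapHecke`).
-/
import Mathlib
import Fermat.Agent.S40.h10_NormRedInt
import Fermat.Agent.S40.h79_SwapHecke
import Fermat.Agent.S40.h2_RedHeckeCore

set_option autoImplicit false
set_option synthInstance.maxHeartbeats 400000

noncomputable section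

open ModularCurve AlgebraicCurve IntermediateField

namespace Fermat.Agent.S40

open Fermat.Agent.S18 Fermat.Agent.S24 Fermat.Agent.S34 Fermat.Agent.S37 Fermat.Agent.S35

local notation "Qb" => AlgebraicClosure ℚ

/-! ## Series-level description of the two reduction data -/

section Bridge

variable (M p : ℕ) [NeZero M] [NeZero p] [Fact p.Prime] (hpM : ¬ p ∣ M)
  (A : ValuationSubring Qb) (hA : A.LiesOverPrime p)

theorem h10_redFun_congr {f g : LaurentSeries Qb} (h : f = g) (hf : h19_InO A f)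
    (hg : h19_InO A g) : h19_redFun f hf = h19_redFun g hg := by
  subst h
  rfl

theorem h10_R1_mem_iff (f : ↥(modularFunctionFieldBar (M * p))) :
    f ∈ (h60_R1 M p hpM A hA).O ↔ h19_InO A (f : LaurentSeries Qb) :=
  h60_R1_mem_iff M p hpM A hA f

theorem h10_R1_redF_coe (f : ↥(modularFunctionFieldBar (M * p)))
    (hf : h19_InO A (f : LaurentSeries Qb)) :
    (((h60_R1 M p hpM A hA).redF f :
        ↥(modularFunctionFieldFullC (IsLocalRing.ResidueField A) M)) :
      LaurentSeries (IsLocalRing.ResidueField A)) = h19_redFun (f : LaurentSeries Qb) hf := by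
  have hf' : f ∈ (h60_R1 M p hpM A hA).O := (h10_R1_mem_iff M p hpM A hA f).mpr hf
  rw [(h60_R1 M p hpM A hA).redF_of_mem hf']
  exact h10_datum_red_coe (h60_R1 M p hpM A hA) (h60_R1_red_eq M p hpM A hA) f hf' hf

theorem h10_R2_mem_iff (f : ↥(modularFunctionFieldBar (M * p))) :
    f ∈ (h60_R2 M p hpM A hA).O ↔
      h19_InO A ((h60_w M p hpM f : ↥(modularFunctionFieldBar (M * p))) : LaurentSeries Qb) :=
  (h60_R2_mem_iff M p hpM A hA f).trans (h10_R1_mem_iff M p hpM A hA _)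

theorem h10_R2_redF_coe (f : ↥(modularFunctionFieldBar (M * p)))
    (hf : h19_InO A ((h60_w M p hpM f : ↥(modularFunctionFieldBar (M * p))) :
      LaurentSeries Qb)) :
    (((h60_R2 M p hpM A hA).redF f :
        ↥(modularFunctionFieldFullC (IsLocalRing.ResidueField A) M)) :
      LaurentSeries (IsLocalRing.ResidueField A)) =
      h19_redFun ((h60_w M p hpM f : ↥(modularFunctionFieldBar (M * p))) : LaurentSeries Qb)
        hf := by
  rw [h60_R2_redF]
  exact h10_R1_redF_coe M p hpM A hA _ hf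

end Bridge

section Main

variable (N p ℓ : ℕ) [NeZero N] [NeZero p] [NeZero ℓ] [Fact p.Prime]
  (hp : ¬ p ∣ N * ℓ) (hpN : ¬ p ∣ N)
  (A : ValuationSubring Qb) (hA : A.LiesOverPrime p)

omit [NeZero N] [NeZero ℓ] in
/-- The level swap `lvl ∘ W = w' ∘ lvl` (`W` the upper swap on `F(N p ℓ)`, `w'` the swap of
`F(N ℓ p)`). -/
theorem h10_lvl_swapUp (G : ↥(modularFunctionFieldBar (N * p * ℓ))) :
    h79_lvl (Nat.mul_right_comm N p ℓ) (h79_swapUp N p ℓ hp G) =
      h60_w (N * ℓ) p hp (h79_lvl (Nat.mul_right_comm N p ℓ) G) := by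
  rw [h79_swapUp_apply, RingEquiv.apply_symm_apply]

/-- Membership in the upper first-component ring, series form. -/
theorem h10_R1up_mem_iff (G : ↥(modularFunctionFieldBar (N * p * ℓ))) :
    h79_lvl (Nat.mul_right_comm N p ℓ) G ∈ (h60_R1 (N * ℓ) p hp A hA).O ↔
      h19_InO A (G : LaurentSeries Qb) := by
  rw [h10_R1_mem_iff (N * ℓ) p hp A hA, h79_lvl_coe]

/-- Membership in the upper second-component ring, series form (via the upper swap). -/
theorem h10_R2up_mem_iff (G : ↥(modularFunctionFieldBar (N * p * ℓ))) :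
    h79_lvl (Nat.mul_right_comm N p ℓ) G ∈ (h60_R2 (N * ℓ) p hp A hA).O ↔
      h19_InO A ((h79_swapUp N p ℓ hp G : ↥(modularFunctionFieldBar (N * p * ℓ))) :
        LaurentSeries Qb) := by
  rw [h60_R2_mem_iff, ← h10_lvl_swapUp, h10_R1up_mem_iff]

/-! ## Norm equivariance -/

/-- **The norm along `α_ℓ` commutes with the swaps.** -/
theorem h10_norm_swap (G : ↥(modularFunctionFieldBar (N * p * ℓ))) :
    letI := algebraAlong (heckeAlphaBar Qb (N * p) ℓ)
    Algebra.norm ↥(modularFunctionFieldBar (N * p)) (h79_swapUp N p ℓ hp G) =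
      h60_w N p hpN (Algebra.norm ↥(modularFunctionFieldBar (N * p)) G) := by
  let _ := algebraAlong (heckeAlphaBar Qb (N * p) ℓ)
  let e₁ : ↥(modularFunctionFieldBar (N * p)) ≃+* ↥(modularFunctionFieldBar (N * p)) :=
    RingEquiv.ofRingHom (h60_w N p hpN) (h60_w N p hpN) (RingHom.ext (h60_w_w N p hpN))
      (RingHom.ext (h60_w_w N p hpN))
  let e₂ : ↥(modularFunctionFieldBar (N * p * ℓ)) ≃+* ↥(modularFunctionFieldBar (N * p * ℓ)) :=
    RingEquiv.ofRingHom (h79_swapUp N p ℓ hp) (h79_swapUp N p ℓ hp)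
      (RingHom.ext (h79_swapUp_swapUp N p ℓ hp)) (RingHom.ext (h79_swapUp_swapUp N p ℓ hp))
  have he : (algebraMap ↥(modularFunctionFieldBar (N * p))
      ↥(modularFunctionFieldBar (N * p * ℓ))).comp (e₁ : _ →+* _) =
      (e₂ : _ →+* _).comp (algebraMap ↥(modularFunctionFieldBar (N * p))
        ↥(modularFunctionFieldBar (N * p * ℓ))) :=
    RingHom.ext fun f => (h79_swap_lvl_alpha N p hpN ℓ hp f).symm
  have h := Algebra.norm_eq_of_equiv_equiv e₁ e₂ he G
  have h2 : e₁ (Algebra.norm ↥(modularFunctionFieldBar (N * p)) G) =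
      Algebra.norm ↥(modularFunctionFieldBar (N * p)) (e₂ G) := by
    rw [h, RingEquiv.apply_symm_apply]
  exact h2.symm

/-! ## Reduction commutes with `α_ℓ`, `β_ℓ` (both components) -/

/-- `R₁'.redF (lvl (α u)) = ᾱ (R₁.redF u)`. -/
theorem h10_R1_alpha (u : ↥(modularFunctionFieldBar (N * p)))
    (hu : u ∈ (h60_R1 N p hpN A hA).O) :
    h79_lvl (Nat.mul_right_comm N p ℓ) (heckeAlphaBar Qb (N * p) ℓ u) ∈
        (h60_R1 (N * ℓ) p hp A hA).O ∧
      (h60_R1 (N * ℓ) p hp A hA).redF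
          (h79_lvl (Nat.mul_right_comm N p ℓ) (heckeAlphaBar Qb (N * p) ℓ u)) =
        h10_alphaC (IsLocalRing.ResidueField A) N ℓ ((h60_R1 N p hpN A hA).redF u) := by
  have hu' : h19_InO A (u : LaurentSeries Qb) := (h10_R1_mem_iff N p hpN A hA u).mp hu
  have hs : ((h79_lvl (Nat.mul_right_comm N p ℓ) (heckeAlphaBar Qb (N * p) ℓ u) :
      ↥(modularFunctionFieldBar (N * ℓ * p))) : LaurentSeries Qb) = (u : LaurentSeries Qb) := by
    rw [h79_lvl_coe, coe_heckeAlphaBar]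
  have hG : h19_InO A ((h79_lvl (Nat.mul_right_comm N p ℓ) (heckeAlphaBar Qb (N * p) ℓ u) :
      ↥(modularFunctionFieldBar (N * ℓ * p))) : LaurentSeries Qb) := by
    rw [hs]; exact hu'
  refine ⟨(h10_R1_mem_iff (N * ℓ) p hp A hA _).mpr hG, Subtype.ext ?_⟩
  rw [h10_R1_redF_coe (N * ℓ) p hp A hA _ hG, h10_coe_alphaC, h10_R1_redF_coe N p hpN A hA u hu']
  exact h10_redFun_congr A hs hG hu'

/-- `R₁'.redF (lvl (β u)) = β̄ (R₁.redF u)`. -/
theorem h10_R1_beta (u : ↥(modularFunctionFieldBar (N * p)))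
    (hu : u ∈ (h60_R1 N p hpN A hA).O) :
    h79_lvl (Nat.mul_right_comm N p ℓ) (heckeBetaBar Qb (N * p) ℓ u) ∈
        (h60_R1 (N * ℓ) p hp A hA).O ∧
      (h60_R1 (N * ℓ) p hp A hA).redF
          (h79_lvl (Nat.mul_right_comm N p ℓ) (heckeBetaBar Qb (N * p) ℓ u)) =
        h2_betaC (IsLocalRing.ResidueField A) N ℓ ((h60_R1 N p hpN A hA).redF u) := by
  have hu' : h19_InO A (u : LaurentSeries Qb) := (h10_R1_mem_iff N p hpN A hA u).mp hu
  obtain ⟨hq, eq⟩ := h19_InO_qExpand (A := A) ℓ hu'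
  have hs : ((h79_lvl (Nat.mul_right_comm N p ℓ) (heckeBetaBar Qb (N * p) ℓ u) :
      ↥(modularFunctionFieldBar (N * ℓ * p))) : LaurentSeries Qb) =
      qExpand Qb ℓ (u : LaurentSeries Qb) := by
    rw [h79_lvl_coe, coe_heckeBetaBar]
  have hG : h19_InO A ((h79_lvl (Nat.mul_right_comm N p ℓ) (heckeBetaBar Qb (N * p) ℓ u) :
      ↥(modularFunctionFieldBar (N * ℓ * p))) : LaurentSeries Qb) := by
    rw [hs]; exact hq
  refine ⟨(h10_R1_mem_iff (N * ℓ) p hp A hA _).mpr hG, Subtype.ext ?_⟩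
  rw [h10_R1_redF_coe (N * ℓ) p hp A hA _ hG, h2_coe_betaC, h10_R1_redF_coe N p hpN A hA u hu',
    ← eq]
  exact h10_redFun_congr A hs hG hq

/-- `R₂'.redF (lvl (α u)) = ᾱ (R₂.redF u)`. -/
theorem h10_R2_alpha (u : ↥(modularFunctionFieldBar (N * p)))
    (hu : u ∈ (h60_R2 N p hpN A hA).O) :
    h79_lvl (Nat.mul_right_comm N p ℓ) (heckeAlphaBar Qb (N * p) ℓ u) ∈
        (h60_R2 (N * ℓ) p hp A hA).O ∧
      (h60_R2 (N * ℓ) p hp A hA).redF
          (h79_lvl (Nat.mul_right_comm N p ℓ) (heckeAlphaBar Qb (N * p) ℓ u)) =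
        h10_alphaC (IsLocalRing.ResidueField A) N ℓ ((h60_R2 N p hpN A hA).redF u) := by
  have hu' : h60_w N p hpN u ∈ (h60_R1 N p hpN A hA).O := (h60_R2_mem_iff N p hpN A hA u).mp hu
  obtain ⟨h1, h2⟩ := h10_R1_alpha N p ℓ hp hpN A hA (h60_w N p hpN u) hu'
  rw [← h79_swap_lvl_alpha N p hpN ℓ hp u, h10_lvl_swapUp] at h1 h2
  refine ⟨(h60_R2_mem_iff (N * ℓ) p hp A hA _).mpr h1, ?_⟩
  rw [h60_R2_redF, h2, h60_R2_redF]

/-- `R₂'.redF (lvl (β u)) = β̄ (R₂.redF u)`. -/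
theorem h10_R2_beta (u : ↥(modularFunctionFieldBar (N * p)))
    (hu : u ∈ (h60_R2 N p hpN A hA).O) :
    h79_lvl (Nat.mul_right_comm N p ℓ) (heckeBetaBar Qb (N * p) ℓ u) ∈
        (h60_R2 (N * ℓ) p hp A hA).O ∧
      (h60_R2 (N * ℓ) p hp A hA).redF
          (h79_lvl (Nat.mul_right_comm N p ℓ) (heckeBetaBar Qb (N * p) ℓ u)) =
        h2_betaC (IsLocalRing.ResidueField A) N ℓ ((h60_R2 N p hpN A hA).redF u) := by
  have hu' : h60_w N p hpN u ∈ (h60_R1 N p hpN A hA).O := (h60_R2_mem_iff N p hpN A hA u).mp hu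
  obtain ⟨h1, h2⟩ := h10_R1_beta N p ℓ hp hpN A hA (h60_w N p hpN u) hu'
  rw [← h79_swap_lvl_beta N p hpN ℓ hp u, h10_lvl_swapUp] at h1 h2
  refine ⟨(h60_R2_mem_iff (N * ℓ) p hp A hA _).mpr h1, ?_⟩
  rw [h60_R2_redF, h2, h60_R2_redF]

/-! ## (E1) in datum form, both components -/

set_option maxHeartbeats 1600000 in
/-- **(E1), first component, datum form.** -/
theorem h10_normRed_R1_datum (G : ↥(modularFunctionFieldBar (N * p * ℓ)))
    (hG : h79_lvl (Nat.mul_right_comm N p ℓ) G ∈ (h60_R1 (N * ℓ) p hp A hA).O) :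
    letI := algebraAlong (heckeAlphaBar Qb (N * p) ℓ)
    letI := algebraAlong (h10_alphaC (IsLocalRing.ResidueField A) N ℓ)
    Algebra.norm ↥(modularFunctionFieldBar (N * p)) G ∈ (h60_R1 N p hpN A hA).O ∧
      (h60_R1 N p hpN A hA).redF (Algebra.norm ↥(modularFunctionFieldBar (N * p)) G) =
        Algebra.norm ↥(modularFunctionFieldFullC (IsLocalRing.ResidueField A) N)
          ((h60_R1 (N * ℓ) p hp A hA).redF (h79_lvl (Nat.mul_right_comm N p ℓ) G)) := by
  let _ := algebraAlong (heckeAlphaBar Qb (N * p) ℓ)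
  let _ := algebraAlong (h10_alphaC (IsLocalRing.ResidueField A) N ℓ)
  have hG1 : h19_InO A ((h79_lvl (Nat.mul_right_comm N p ℓ) G :
      ↥(modularFunctionFieldBar (N * ℓ * p))) : LaurentSeries Qb) :=
    (h10_R1_mem_iff (N * ℓ) p hp A hA _).mp hG
  have hs : ((h79_lvl (Nat.mul_right_comm N p ℓ) G :
      ↥(modularFunctionFieldBar (N * ℓ * p))) : LaurentSeries Qb) = (G : LaurentSeries Qb) :=
    h79_lvl_coe _ G
  have hG' : h19_InO A (G : LaurentSeries Qb) := by
    rw [← hs]; exact hG1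
  obtain ⟨h, hm, hh⟩ := h10_normRed_R1 N p ℓ hp A hA G hG'
  have e : (⟨h19_redFun _ hG', hm⟩ :
      ↥(modularFunctionFieldFullC (IsLocalRing.ResidueField A) (N * ℓ))) =
      (h60_R1 (N * ℓ) p hp A hA).redF (h79_lvl (Nat.mul_right_comm N p ℓ) G) :=
    Subtype.ext (by
      rw [h10_R1_redF_coe (N * ℓ) p hp A hA _ hG1]
      exact h10_redFun_congr A hs.symm hG' hG1)
  rw [← e]
  exact ⟨(h10_R1_mem_iff N p hpN A hA _).mpr h,
    Subtype.ext (by rw [h10_R1_redF_coe N p hpN A hA _ h, hh])⟩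

set_option maxHeartbeats 1600000 in
/-- **(E1), second component, datum form.** -/
theorem h10_normRed_R2_datum (G : ↥(modularFunctionFieldBar (N * p * ℓ)))
    (hG : h79_lvl (Nat.mul_right_comm N p ℓ) G ∈ (h60_R2 (N * ℓ) p hp A hA).O) :
    letI := algebraAlong (heckeAlphaBar Qb (N * p) ℓ)
    letI := algebraAlong (h10_alphaC (IsLocalRing.ResidueField A) N ℓ)
    Algebra.norm ↥(modularFunctionFieldBar (N * p)) G ∈ (h60_R2 N p hpN A hA).O ∧
      (h60_R2 N p hpN A hA).redF (Algebra.norm ↥(modularFunctionFieldBar (N * p)) G) =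
        Algebra.norm ↥(modularFunctionFieldFullC (IsLocalRing.ResidueField A) N)
          ((h60_R2 (N * ℓ) p hp A hA).redF (h79_lvl (Nat.mul_right_comm N p ℓ) G)) := by
  let _ := algebraAlong (heckeAlphaBar Qb (N * p) ℓ)
  let _ := algebraAlong (h10_alphaC (IsLocalRing.ResidueField A) N ℓ)
  have hW : h79_lvl (Nat.mul_right_comm N p ℓ) (h79_swapUp N p ℓ hp G) ∈
      (h60_R1 (N * ℓ) p hp A hA).O := by
    rw [h10_lvl_swapUp]
    exact (h60_R2_mem_iff (N * ℓ) p hp A hA _).mp hG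
  obtain ⟨h1, h2⟩ := h10_normRed_R1_datum N p ℓ hp hpN A hA (h79_swapUp N p ℓ hp G) hW
  rw [h10_norm_swap N p ℓ hp hpN G] at h1 h2
  refine ⟨(h60_R2_mem_iff N p hpN A hA _).mpr h1, ?_⟩
  rw [h60_R2_redF, h2, h10_lvl_swapUp, h60_R2_redF]

/-! ## Hecke form `G = β u`, both components -/

include hp in
set_option maxHeartbeats 1600000 in
/-- **(RES-HECKE), first component, datum form**: `red₁ (N_α (β u)) = N_ᾱ (β̄ (red₁ u))`. -/
theorem h10_heckeNormRed_R1_datum (u : ↥(modularFunctionFieldBar (N * p)))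
    (hu : u ∈ (h60_R1 N p hpN A hA).O) :
    letI := algebraAlong (heckeAlphaBar Qb (N * p) ℓ)
    letI := algebraAlong (h10_alphaC (IsLocalRing.ResidueField A) N ℓ)
    Algebra.norm ↥(modularFunctionFieldBar (N * p)) (heckeBetaBar Qb (N * p) ℓ u) ∈
        (h60_R1 N p hpN A hA).O ∧
      (h60_R1 N p hpN A hA).redF
          (Algebra.norm ↥(modularFunctionFieldBar (N * p)) (heckeBetaBar Qb (N * p) ℓ u)) =
        Algebra.norm ↥(modularFunctionFieldFullC (IsLocalRing.ResidueField A) N)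
          (h2_betaC (IsLocalRing.ResidueField A) N ℓ ((h60_R1 N p hpN A hA).redF u)) := by
  obtain ⟨hb, eb⟩ := h10_R1_beta N p ℓ hp hpN A hA u hu
  have h := h10_normRed_R1_datum N p ℓ hp hpN A hA (heckeBetaBar Qb (N * p) ℓ u) hb
  rw [eb] at h
  exact h

include hp in
set_option maxHeartbeats 1600000 in
/-- **(RES-HECKE), second component, datum form**: `red₂ (N_α (β u)) = N_ᾱ (β̄ (red₂ u))`. -/
theorem h10_heckeNormRed_R2_datum (u : ↥(modularFunctionFieldBar (N * p)))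
    (hu : u ∈ (h60_R2 N p hpN A hA).O) :
    letI := algebraAlong (heckeAlphaBar Qb (N * p) ℓ)
    letI := algebraAlong (h10_alphaC (IsLocalRing.ResidueField A) N ℓ)
    Algebra.norm ↥(modularFunctionFieldBar (N * p)) (heckeBetaBar Qb (N * p) ℓ u) ∈
        (h60_R2 N p hpN A hA).O ∧
      (h60_R2 N p hpN A hA).redF
          (Algebra.norm ↥(modularFunctionFieldBar (N * p)) (heckeBetaBar Qb (N * p) ℓ u)) =
        Algebra.norm ↥(modularFunctionFieldFullC (IsLocalRing.ResidueField A) N)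
          (h2_betaC (IsLocalRing.ResidueField A) N ℓ ((h60_R2 N p hpN A hA).redF u)) := by
  obtain ⟨hb, eb⟩ := h10_R2_beta N p ℓ hp hpN A hA u hu
  have h := h10_normRed_R2_datum N p ℓ hp hpN A hA (heckeBetaBar Qb (N * p) ℓ u) hb
  rw [eb] at h
  exact h

/-! ## (INT), both components, datum form -/

/-- **(INT), first component, datum form.** -/
theorem h10_isIntegralElem_R1_datum (t : ↥(modularFunctionFieldBar (N * p * ℓ)))
    (ht : h79_lvl (Nat.mul_right_comm N p ℓ) t ∈ (h60_R1 (N * ℓ) p hp A hA).O) :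
    ((heckeAlphaBar Qb (N * p) ℓ).toRingHom.comp (h60_R1 N p hpN A hA).O.subtype).IsIntegralElem
      t := by
  have h1 : h19_InO A ((h79_lvl (Nat.mul_right_comm N p ℓ) t :
      ↥(modularFunctionFieldBar (N * ℓ * p))) : LaurentSeries Qb) :=
    (h10_R1_mem_iff (N * ℓ) p hp A hA _).mp ht
  rw [h79_lvl_coe] at h1
  exact h10_isIntegralElem_R1 N p ℓ hp hpN A hA t h1

/-- **(INT), second component.** An element `t ∈ F(N p ℓ)` of the second-component valuation
ring is integral over the second-component valuation ring `h60_R2` of `F(N p)` (along `α`). -/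
theorem h10_isIntegralElem_R2 (t : ↥(modularFunctionFieldBar (N * p * ℓ)))
    (ht : h79_lvl (Nat.mul_right_comm N p ℓ) t ∈ (h60_R2 (N * ℓ) p hp A hA).O) :
    ((heckeAlphaBar Qb (N * p) ℓ).toRingHom.comp (h60_R2 N p hpN A hA).O.subtype).IsIntegralElem
      t := by
  have hW : h79_lvl (Nat.mul_right_comm N p ℓ) (h79_swapUp N p ℓ hp t) ∈
      (h60_R1 (N * ℓ) p hp A hA).O := by
    rw [h10_lvl_swapUp]
    exact (h60_R2_mem_iff (N * ℓ) p hp A hA _).mp ht
  obtain ⟨P, hPm, hP⟩ := h10_isIntegralElem_R1_datum N p ℓ hp hpN A hA _ hW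
  let ω : ↥(h60_R1 N p hpN A hA).O →+* ↥(h60_R2 N p hpN A hA).O :=
    ((h60_w N p hpN).comp (h60_R1 N p hpN A hA).O.subtype).codRestrict (h60_R2 N p hpN A hA).O
      (fun x => (h60_R2_mem_iff N p hpN A hA _).mpr (by
        show h60_w N p hpN (h60_w N p hpN (x : ↥(modularFunctionFieldBar (N * p)))) ∈ _
        rw [h60_w_w]; exact x.2))
  refine ⟨P.map ω, hPm.map ω, ?_⟩
  have hcomp : (h79_swapUp N p ℓ hp).comp
      ((heckeAlphaBar Qb (N * p) ℓ).toRingHom.comp (h60_R1 N p hpN A hA).O.subtype) =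
      ((heckeAlphaBar Qb (N * p) ℓ).toRingHom.comp (h60_R2 N p hpN A hA).O.subtype).comp ω :=
    RingHom.ext fun x => h79_swap_lvl_alpha N p hpN ℓ hp (x : ↥(modularFunctionFieldBar (N * p)))
  have h3 := congrArg (h79_swapUp N p ℓ hp) hP
  rw [Polynomial.hom_eval₂, map_zero, h79_swapUp_swapUp, hcomp] at h3
  rw [Polynomial.eval₂_map]
  exact h3

end Main

end Fermat.Agent.S40
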