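import Mathlib

/-!
# S40 / G40, row T8 (END-JET), generic core (helper38)

`O` an integrally closed ring with fraction field `K`, `L / K` a finite separable field
extension of degree `n`.

* `h38_prod_one_add` : `∏ (1 + W a_i) = 1 + W ∑ a_i + W² q` with `q` in any subring containing
  `W` and the `a_i`;
* `h38_norm_one_add_mul` : for `y ∈ L` integral over `O` and `w ∈ O`:
  `N_{L/K}(1 + w y) = 1 + w Tr_{L/K}(y) + w² r` with `r ∈ O`;
* `h38_trace_mem` : the trace of an integral element lies in `O`;
* `h38_norm_jet_const` : for `γ, w ∈ O` and `t ∈ L` integral over `O`: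
  `N_{L/K}(1 + w (γ + w t)) = 1 + n γ w + w² r` with `r ∈ O`
  (the first-order jet of the norm of an element whose jet is the CONSTANT `γ` is `n γ`);
* `h38_norm_mul_jet_const` : the same for `c₀ (1 + w (γ + w t))`.

Use (END-JET): `O` = valuation ring of the component valuation `v_i` on the function field of
level `N` over the wild field, `L` = function field of level `N r` along `α`, `w` the uniformiser
of the wild field; integrality of the elements of the valuation ring upstairs is row (E1).
-/

set_option autoImplicit false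

namespace Fermat.Agent.S40

open Finset

/-- `∏ (1 + W a_i) = 1 + W ∑ a_i + W² q` with `q` in any subring containing `W` and the `a_i`. -/
theorem h38_prod_one_add {E : Type*} [CommRing E] (T : Subring E) {ι : Type*} (s : Finset ι)
    (W : E) (hW : W ∈ T) (a : ι → E) (ha : ∀ i ∈ s, a i ∈ T) :
    ∃ q ∈ T, ∏ i ∈ s, (1 + W * a i) = 1 + W * ∑ i ∈ s, a i + W ^ 2 * q := by
  classical
  induction s using Finset.induction_on with
  | empty => exact ⟨0, T.zero_mem, by simp⟩
  | insert j s hj ih =>
    obtain ⟨q, hq, h⟩ := ih (fun i hi => ha i (Finset.mem_insert_of_mem hi))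
    have haj := ha j (Finset.mem_insert_self j s)
    have hsum : ∑ i ∈ s, a i ∈ T :=
      T.sum_mem (fun i hi => ha i (Finset.mem_insert_of_mem hi))
    refine ⟨a j * ∑ i ∈ s, a i + q + W * a j * q, ?_, ?_⟩
    · exact T.add_mem (T.add_mem (T.mul_mem haj hsum) hq) (T.mul_mem (T.mul_mem hW haj) hq)
    · rw [Finset.prod_insert hj, Finset.sum_insert hj, h]
      ring

section JetNorm

variable {O K L : Type*} [CommRing O] [IsIntegrallyClosed O] [Field K] [Algebra O K]
  [IsFractionRing O K] [Field L] [Algebra K L] [Algebra O L] [IsScalarTower O K L]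
  [FiniteDimensional K L] [Algebra.IsSeparable K L]

omit [Algebra.IsSeparable K L] in
/-- The trace of an element integral over `O` lies in `O`. -/
theorem h38_trace_mem (y : L) (hy : IsIntegral O y) :
    ∃ s : O, algebraMap O K s = Algebra.trace K L y :=
  IsIntegrallyClosed.isIntegral_iff.mp (Algebra.isIntegral_trace hy)

/-- `N(1 + w y) = 1 + w Tr(y) + w² r` with `r ∈ O`, for `y` integral over `O`. -/
theorem h38_norm_one_add_mul (w : O) (y : L) (hy : IsIntegral O y) :
    ∃ r : O, Algebra.norm K (1 + algebraMap O L w * y) =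
      1 + algebraMap O K w * Algebra.trace K L y + algebraMap O K w ^ 2 * algebraMap O K r := by
  classical
  by_cases hw : w = 0
  · refine ⟨0, ?_⟩
    simp [hw]
  let E := AlgebraicClosure K
  set a : K := algebraMap O K w with ha
  have ha0 : a ≠ 0 := by
    rw [ha]
    exact (map_ne_zero_iff _ (IsFractionRing.injective O K)).mpr hw
  set W : E := algebraMap O E w with hWdef
  have hWa : W = algebraMap K E a := IsScalarTower.algebraMap_apply O K E w
  have hW0 : W ≠ 0 := by
    rw [hWa]
    exact (map_ne_zero_iff _ (algebraMap K E).injective).mpr ha0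
  let T : Subring E := (integralClosure O E).toSubring
  have hWT : W ∈ T := (isIntegral_algebraMap : IsIntegral O (algebraMap O E w))
  have hσT : ∀ σ : L →ₐ[K] E, σ y ∈ T := by
    intro σ
    have h := hy.map (σ.restrictScalars O)
    exact h
  obtain ⟨q, hqT, hq⟩ := h38_prod_one_add T (Finset.univ : Finset (L →ₐ[K] E)) W hWT
    (fun σ => σ y) (fun σ _ => hσT σ)
  have hnorm : algebraMap K E (Algebra.norm K (1 + algebraMap O L w * y)) =
      1 + W * algebraMap K E (Algebra.trace K L y) + W ^ 2 * q := by
    rw [Algebra.norm_eq_prod_embeddings K E, trace_eq_sum_embeddings E, ← hq]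
    refine Finset.prod_congr rfl (fun σ _ => ?_)
    rw [map_add, map_one, map_mul, IsScalarTower.algebraMap_apply O K L, AlgHom.commutes, hWa]
  set ρ : K := (Algebra.norm K (1 + algebraMap O L w * y) - 1 - a * Algebra.trace K L y) / a ^ 2
    with hρ
  have hρq : algebraMap K E ρ = q := by
    have e1 : ρ * a ^ 2 =
        Algebra.norm K (1 + algebraMap O L w * y) - 1 - a * Algebra.trace K L y := by
      rw [hρ]
      exact div_mul_cancel₀ _ (pow_ne_zero 2 ha0)
    have e2 : algebraMap K E (ρ * a ^ 2) = algebraMap K E ρ * W ^ 2 := by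
      rw [map_mul, map_pow, hWa]
    have h1 : algebraMap K E ρ * W ^ 2 = q * W ^ 2 := by
      rw [← e2, e1, map_sub, map_sub, map_one, map_mul, hnorm, ← hWa]
      ring
    exact mul_right_cancel₀ (pow_ne_zero 2 hW0) h1
  have hρint : IsIntegral O ρ := by
    have h1 : IsIntegral O (algebraMap K E ρ) := by
      rw [hρq]
      exact hqT
    exact (isIntegral_algebraMap_iff (algebraMap K E).injective).mp h1
  obtain ⟨r, hr⟩ := IsIntegrallyClosed.isIntegral_iff.mp hρint
  refine ⟨r, ?_⟩
  rw [hr, hρ]
  field_simp
  ring

/-- **(END-JET), generic core.** The first-order jet of the norm of `1 + w (γ + w t)` (jet the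
constant `γ`) is `n γ`: `N(1 + w (γ + w t)) = 1 + n γ w + w² r` with `r ∈ O`. -/
theorem h38_norm_jet_const (w γ : O) (t : L) (ht : IsIntegral O t) :
    ∃ r : O, Algebra.norm K (1 + algebraMap O L w * (algebraMap O L γ + algebraMap O L w * t)) =
      algebraMap O K (1 + (Module.finrank K L : O) * γ * w + w ^ 2 * r) := by
  have hy : IsIntegral O (algebraMap O L γ + algebraMap O L w * t) :=
    isIntegral_algebraMap.add (isIntegral_algebraMap.mul ht)
  obtain ⟨r1, hr1⟩ := h38_norm_one_add_mul (K := K) w _ hy
  obtain ⟨s, hs⟩ := h38_trace_mem (K := K) t ht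
  have htr : Algebra.trace K L (algebraMap O L γ + algebraMap O L w * t) =
      (Module.finrank K L : K) * algebraMap O K γ + algebraMap O K w * algebraMap O K s := by
    rw [map_add, IsScalarTower.algebraMap_apply O K L γ, Algebra.trace_algebraMap,
      IsScalarTower.algebraMap_apply O K L w, ← Algebra.smul_def, map_smul, hs, nsmul_eq_mul,
      smul_eq_mul]
  refine ⟨s + r1, ?_⟩
  rw [hr1, htr]
  simp only [map_add, map_mul, map_one, map_pow, map_natCast]
  ring

/-- The same with a factor `c₀`: `N(c₀ (1 + w (γ + w t))) = N(c₀) (1 + n γ w + w² r)`. -/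
theorem h38_norm_mul_jet_const (c₀ : L) (w γ : O) (t : L) (ht : IsIntegral O t) :
    ∃ r : O, Algebra.norm K
        (c₀ * (1 + algebraMap O L w * (algebraMap O L γ + algebraMap O L w * t))) =
      Algebra.norm K c₀ * algebraMap O K (1 + (Module.finrank K L : O) * γ * w + w ^ 2 * r) := by
  obtain ⟨r, hr⟩ := h38_norm_jet_const (K := K) w γ t ht
  exact ⟨r, by rw [map_mul, hr]⟩

end JetNorm

end Fermat.Agent.S40
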