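/-
S40 / G40 row T8 (END-JET), norm-jet (NJ-1) for BOTH components (helper10).

Levels `N p → N p ℓ` (`p ∤ N ℓ`), `α = heckeAlphaBar Qb (N p) ℓ`, `β = heckeBetaBar Qb (N p) ℓ`,
`R` one of the two reduction data `h60_R1 N p`, `h60_R2 N p` of `F(N p)`.  For `c₀, t ∈ F(N p)`
with `t ∈ R.O` and constants `w, γ ∈ A`:

  `N_α (β (c₀ (1 + w (γ + w t)))) = N_α (β c₀) · (1 + [F(N p ℓ) : F(N p)] γ w + w² r')`

with `r' ∈ R.O`; and `N_α (β c₀)` is a unit of `R.O` when `c₀` is, with reduction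
`N_ᾱ (β̄ (red c₀))`.  Inputs: `h38_norm_mul_jet_const` (generic core, helper38) and the
integrality / norm reduction of `h10_NormRedR2`.
-/
import Mathlib
import Fermat.Agent.S40.h10_NormRedR2
import Fermat.Agent.S40.h38_JetNorm

set_option autoImplicit false
set_option synthInstance.maxHeartbeats 400000

noncomputable section

open ModularCurve AlgebraicCurve IntermediateField

namespace Fermat.Agent.S40

open Fermat.Agent.S18 Fermat.Agent.S24 Fermat.Agent.S34 Fermat.Agent.S37 Fermat.Agent.S35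

local notation "Qb" => AlgebraicClosure ℚ

section Core

variable (N p ℓ : ℕ) [NeZero N] [NeZero p] [NeZero ℓ]

set_option maxHeartbeats 1600000 in
/-- **(NJ-1), generic in the reduction datum.** -/
theorem h10_nj_core {k Fb : Type*} [Field k] [Field Fb] [Algebra k Fb]
    (R : h39_RedDatum Qb ↥(modularFunctionFieldBar (N * p)) k Fb)
    (hint : ∀ t ∈ R.O, ((heckeAlphaBar Qb (N * p) ℓ).toRingHom.comp R.O.subtype).IsIntegralElem
      (heckeBetaBar Qb (N * p) ℓ t))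
    (c0 t : ↥(modularFunctionFieldBar (N * p))) (ht : t ∈ R.O) (wc gam : Qb) (hw : wc ∈ R.A)
    (hg : gam ∈ R.A) :
    letI := algebraAlong (heckeAlphaBar Qb (N * p) ℓ)
    ∃ r' ∈ R.O, Algebra.norm ↥(modularFunctionFieldBar (N * p))
        (heckeBetaBar Qb (N * p) ℓ (c0 * (1 + algebraMap Qb _ wc *
          (algebraMap Qb _ gam + algebraMap Qb _ wc * t)))) =
      Algebra.norm ↥(modularFunctionFieldBar (N * p)) (heckeBetaBar Qb (N * p) ℓ c0) *
        (1 + (finrankAlong Qb (heckeAlphaBar Qb (N * p) ℓ) : ↥(modularFunctionFieldBar (N * p))) *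
            algebraMap Qb _ gam * algebraMap Qb _ wc + algebraMap Qb _ wc ^ 2 * r') := by
  let _ := algebraAlong (heckeAlphaBar Qb (N * p) ℓ)
  let algOL : Algebra ↥R.O ↥(modularFunctionFieldBar (N * p * ℓ)) :=
    ((heckeAlphaBar Qb (N * p) ℓ).toRingHom.comp R.O.subtype).toAlgebra
  have : IsScalarTower ↥R.O ↥(modularFunctionFieldBar (N * p))
      ↥(modularFunctionFieldBar (N * p * ℓ)) := IsScalarTower.of_algebraMap_eq fun _ => rfl
  have : FiniteDimensional ↥(modularFunctionFieldBar (N * p))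
      ↥(modularFunctionFieldBar (N * p * ℓ)) :=
    Module.finite_of_finrank_pos (h10_finrankAlong_pos (N * p) ℓ)
  have hWO : algebraMap Qb ↥(modularFunctionFieldBar (N * p)) wc ∈ R.O := (R.mem_iff wc).mp hw
  have hGO : algebraMap Qb ↥(modularFunctionFieldBar (N * p)) gam ∈ R.O := (R.mem_iff gam).mp hg
  have hti : IsIntegral ↥R.O (heckeBetaBar Qb (N * p) ℓ t) := hint t ht
  obtain ⟨r, hr⟩ := h38_norm_mul_jet_const (O := ↥R.O) (K := ↥(modularFunctionFieldBar (N * p)))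
    (L := ↥(modularFunctionFieldBar (N * p * ℓ))) (heckeBetaBar Qb (N * p) ℓ c0)
    ⟨_, hWO⟩ ⟨_, hGO⟩ (heckeBetaBar Qb (N * p) ℓ t) hti
  refine ⟨r, r.2, ?_⟩
  have e1 : algebraMap ↥R.O ↥(modularFunctionFieldBar (N * p * ℓ))
      ⟨algebraMap Qb ↥(modularFunctionFieldBar (N * p)) wc, hWO⟩ =
      algebraMap Qb ↥(modularFunctionFieldBar (N * p * ℓ)) wc :=
    AlgHom.commutes (heckeAlphaBar Qb (N * p) ℓ) wc
  have e2 : algebraMap ↥R.O ↥(modularFunctionFieldBar (N * p * ℓ))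
      ⟨algebraMap Qb ↥(modularFunctionFieldBar (N * p)) gam, hGO⟩ =
      algebraMap Qb ↥(modularFunctionFieldBar (N * p * ℓ)) gam :=
    AlgHom.commutes (heckeAlphaBar Qb (N * p) ℓ) gam
  have hβ : heckeBetaBar Qb (N * p) ℓ (c0 * (1 + algebraMap Qb _ wc *
      (algebraMap Qb _ gam + algebraMap Qb _ wc * t))) =
      heckeBetaBar Qb (N * p) ℓ c0 * (1 + algebraMap ↥R.O ↥(modularFunctionFieldBar (N * p * ℓ))
        ⟨algebraMap Qb ↥(modularFunctionFieldBar (N * p)) wc, hWO⟩ *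
        (algebraMap ↥R.O ↥(modularFunctionFieldBar (N * p * ℓ))
          ⟨algebraMap Qb ↥(modularFunctionFieldBar (N * p)) gam, hGO⟩ +
          algebraMap ↥R.O ↥(modularFunctionFieldBar (N * p * ℓ))
            ⟨algebraMap Qb ↥(modularFunctionFieldBar (N * p)) wc, hWO⟩ *
          heckeBetaBar Qb (N * p) ℓ t)) := by
    rw [e1, e2, map_mul, map_add, map_one, map_mul, map_add, map_mul, AlgHom.commutes,
      AlgHom.commutes]
  rw [hβ, hr]
  congr 1

/-- The norm along `α` of an inverse. -/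
theorem h10_norm_inv_along (x : ↥(modularFunctionFieldBar (N * p * ℓ))) :
    letI := algebraAlong (heckeAlphaBar Qb (N * p) ℓ)
    Algebra.norm ↥(modularFunctionFieldBar (N * p)) x⁻¹ =
      (Algebra.norm ↥(modularFunctionFieldBar (N * p)) x)⁻¹ := by
  let _ := algebraAlong (heckeAlphaBar Qb (N * p) ℓ)
  have : FiniteDimensional ↥(modularFunctionFieldBar (N * p))
      ↥(modularFunctionFieldBar (N * p * ℓ)) :=
    Module.finite_of_finrank_pos (h10_finrankAlong_pos (N * p) ℓ)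
  by_cases hx : x = 0
  · subst hx
    rw [inv_zero, Algebra.norm_zero, inv_zero]
  · refine eq_inv_of_mul_eq_one_left ?_
    rw [← map_mul, inv_mul_cancel₀ hx, map_one]

end Core

section Inst

variable (N p ℓ : ℕ) [NeZero N] [NeZero p] [NeZero ℓ] [Fact p.Prime]
  (hp : ¬ p ∣ N * ℓ) (hpN : ¬ p ∣ N)
  (A : ValuationSubring Qb) (hA : A.LiesOverPrime p)

include hp in
/-- **(NJ-1), first component.** -/
theorem h10_nj_R1 (c0 t : ↥(modularFunctionFieldBar (N * p)))
    (ht : t ∈ (h60_R1 N p hpN A hA).O) (wc gam : Qb) (hw : wc ∈ A) (hg : gam ∈ A) :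
    letI := algebraAlong (heckeAlphaBar Qb (N * p) ℓ)
    ∃ r' ∈ (h60_R1 N p hpN A hA).O, Algebra.norm ↥(modularFunctionFieldBar (N * p))
        (heckeBetaBar Qb (N * p) ℓ (c0 * (1 + algebraMap Qb _ wc *
          (algebraMap Qb _ gam + algebraMap Qb _ wc * t)))) =
      Algebra.norm ↥(modularFunctionFieldBar (N * p)) (heckeBetaBar Qb (N * p) ℓ c0) *
        (1 + (finrankAlong Qb (heckeAlphaBar Qb (N * p) ℓ) : ↥(modularFunctionFieldBar (N * p))) *
            algebraMap Qb _ gam * algebraMap Qb _ wc + algebraMap Qb _ wc ^ 2 * r') :=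
  h10_nj_core N p ℓ (h60_R1 N p hpN A hA)
    (fun t ht => h10_isIntegralElem_R1_datum N p ℓ hp hpN A hA _
      (h10_R1_beta N p ℓ hp hpN A hA t ht).1) c0 t ht wc gam
    (by rw [h60_R1_A]; exact hw) (by rw [h60_R1_A]; exact hg)

include hp in
/-- **(NJ-1), second component.** -/
theorem h10_nj_R2 (c0 t : ↥(modularFunctionFieldBar (N * p)))
    (ht : t ∈ (h60_R2 N p hpN A hA).O) (wc gam : Qb) (hw : wc ∈ A) (hg : gam ∈ A) :
    letI := algebraAlong (heckeAlphaBar Qb (N * p) ℓ)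
    ∃ r' ∈ (h60_R2 N p hpN A hA).O, Algebra.norm ↥(modularFunctionFieldBar (N * p))
        (heckeBetaBar Qb (N * p) ℓ (c0 * (1 + algebraMap Qb _ wc *
          (algebraMap Qb _ gam + algebraMap Qb _ wc * t)))) =
      Algebra.norm ↥(modularFunctionFieldBar (N * p)) (heckeBetaBar Qb (N * p) ℓ c0) *
        (1 + (finrankAlong Qb (heckeAlphaBar Qb (N * p) ℓ) : ↥(modularFunctionFieldBar (N * p))) *
            algebraMap Qb _ gam * algebraMap Qb _ wc + algebraMap Qb _ wc ^ 2 * r') :=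
  h10_nj_core N p ℓ (h60_R2 N p hpN A hA)
    (fun t ht => h10_isIntegralElem_R2 N p ℓ hp hpN A hA _
      (h10_R2_beta N p ℓ hp hpN A hA t ht).1) c0 t ht wc gam
    (by rw [h60_R2_A]; exact hw) (by rw [h60_R2_A]; exact hg)

include hp in
set_option maxHeartbeats 1600000 in
/-- Unit clause, first component: `N_α (β c₀)` is a unit of `R₁.O` when `c₀` is, with reduction
`N_ᾱ (β̄ (red₁ c₀))`. -/
theorem h10_nj_unit_R1 (c0 : ↥(modularFunctionFieldBar (N * p)))
    (h1 : c0 ∈ (h60_R1 N p hpN A hA).O) (h2 : c0⁻¹ ∈ (h60_R1 N p hpN A hA).O) :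
    letI := algebraAlong (heckeAlphaBar Qb (N * p) ℓ)
    letI := algebraAlong (h10_alphaC (IsLocalRing.ResidueField A) N ℓ)
    Algebra.norm ↥(modularFunctionFieldBar (N * p)) (heckeBetaBar Qb (N * p) ℓ c0) ∈
        (h60_R1 N p hpN A hA).O ∧
      (Algebra.norm ↥(modularFunctionFieldBar (N * p)) (heckeBetaBar Qb (N * p) ℓ c0))⁻¹ ∈
        (h60_R1 N p hpN A hA).O ∧
      (h60_R1 N p hpN A hA).redF
          (Algebra.norm ↥(modularFunctionFieldBar (N * p)) (heckeBetaBar Qb (N * p) ℓ c0)) =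
        Algebra.norm ↥(modularFunctionFieldFullC (IsLocalRing.ResidueField A) N)
          (h2_betaC (IsLocalRing.ResidueField A) N ℓ ((h60_R1 N p hpN A hA).redF c0)) := by
  obtain ⟨a1, a2⟩ := h10_heckeNormRed_R1_datum N p ℓ hp hpN A hA c0 h1
  obtain ⟨b1, -⟩ := h10_heckeNormRed_R1_datum N p ℓ hp hpN A hA c0⁻¹ h2
  rw [map_inv₀, h10_norm_inv_along] at b1
  exact ⟨a1, b1, a2⟩

include hp in
set_option maxHeartbeats 1600000 in
/-- Unit clause, second component. -/
theorem h10_nj_unit_R2 (c0 : ↥(modularFunctionFieldBar (N * p)))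
    (h1 : c0 ∈ (h60_R2 N p hpN A hA).O) (h2 : c0⁻¹ ∈ (h60_R2 N p hpN A hA).O) :
    letI := algebraAlong (heckeAlphaBar Qb (N * p) ℓ)
    letI := algebraAlong (h10_alphaC (IsLocalRing.ResidueField A) N ℓ)
    Algebra.norm ↥(modularFunctionFieldBar (N * p)) (heckeBetaBar Qb (N * p) ℓ c0) ∈
        (h60_R2 N p hpN A hA).O ∧
      (Algebra.norm ↥(modularFunctionFieldBar (N * p)) (heckeBetaBar Qb (N * p) ℓ c0))⁻¹ ∈
        (h60_R2 N p hpN A hA).O ∧
      (h60_R2 N p hpN A hA).redF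
          (Algebra.norm ↥(modularFunctionFieldBar (N * p)) (heckeBetaBar Qb (N * p) ℓ c0)) =
        Algebra.norm ↥(modularFunctionFieldFullC (IsLocalRing.ResidueField A) N)
          (h2_betaC (IsLocalRing.ResidueField A) N ℓ ((h60_R2 N p hpN A hA).redF c0)) := by
  obtain ⟨a1, a2⟩ := h10_heckeNormRed_R2_datum N p ℓ hp hpN A hA c0 h1
  obtain ⟨b1, -⟩ := h10_heckeNormRed_R2_datum N p ℓ hp hpN A hA c0⁻¹ h2
  rw [map_inv₀, h10_norm_inv_along] at b1
  exact ⟨a1, b1, a2⟩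

omit [Fact p.Prime] in
/-- The degree: `[F(N p ℓ) : F(N p)] = ℓ + 1` for a prime `ℓ ∤ N p`. -/
theorem h10_nj_finrank (hℓ : ℓ.Prime) (hℓN : ¬ ℓ ∣ N * p) :
    finrankAlong Qb (heckeAlphaBar Qb (N * p) ℓ) = ℓ + 1 :=
  h19_DEG (N * p) ℓ hℓ hℓN

end Inst

end Fermat.Agent.S40
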