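/-
S40 (G40), row W0 (KUM-E) of the (TR) table v2 (helper12).

`A` a valuation subring of `ℚ̄` over an odd prime `p`, `I = A.inertiaSubgroupIn ℚ`.

* `h12_hilbert90`      : Hilbert 90 for a `1`-cocycle of finite level (Poincaré series);
* `h12_kummer_of_line` : consumer form: from `g x - x = c(g) l0`, `g l0 = a(g) l0`, `g ζ = ζ^a(g)`
                         a Kummer element `e`, `g e = ζ^c(g) e`, `e^p` fixed, `g e = e ↔ g x = x`;
* `h12_kummer_cases`   : if `p ∣ v(e^p)`: either the cocycle is the coboundary of a `p`-th root of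
                         unity (split case), or `e = (unit of ℚ̄^I) * (1 + w)`, `(1+w)^p = 1 + p z`
                         with `z` an inertia-fixed unit;
* `h12_eis`            : the field `ℚ̄^I(w)`: `v(w)^p = v(p)`, the Eisenstein relation, the
                         `I`-orbit of `w`.
-/
import Mathlib
import Fermat.Agent.S40.h8_Tame
import Fermat.Agent.S36.h5_ResK0

set_option autoImplicit false

namespace Fermat.Agent.S40

open Fermat.Agent.S33 Fermat.Agent.S05 Fermat.Agent.S36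

local notation "Qb" => AlgebraicClosure ℚ
local notation "Γℚ" => (AlgebraicClosure ℚ ≃ₐ[ℚ] AlgebraicClosure ℚ)

/-! ### (a) Hilbert 90 -/

/-- **Hilbert 90** for a multiplicative `1`-cocycle `φ` on a subgroup `G` of `Gal(ℚ̄/ℚ)` which is
trivial on the elements of `G` fixing a number field `E` pointwise. -/
theorem h12_hilbert90 (G : Subgroup Γℚ) (φ : Γℚ → Qb) (hφ0 : ∀ g ∈ G, φ g ≠ 0)
    (hcoc : ∀ g ∈ G, ∀ h ∈ G, φ (g * h) = φ g * g (φ h))
    (E : IntermediateField ℚ Qb) [FiniteDimensional ℚ E]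
    (hE : ∀ u ∈ G, (∀ a ∈ E, u a = a) → φ u = 1) :
    ∃ e : Qb, e ≠ 0 ∧ ∀ g ∈ G, g e = φ g * e := by
  classical
  -- restriction to `E`
  let res : Γℚ → (E →ₐ[ℚ] Qb) := fun g => (g : Qb →ₐ[ℚ] Qb).comp E.val
  have hres : ∀ (g : Γℚ) (a : E), res g a = g (a : Qb) := fun g a => rfl
  have hres_mul : ∀ (g h : Γℚ), res (g * h) = (g : Qb →ₐ[ℚ] Qb).comp (res h) := by
    intro g h
    ext a
    rfl
  -- `φ` only depends on the restriction
  have hwd : ∀ g ∈ G, ∀ h ∈ G, res g = res h → φ g = φ h := by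
    intro g hg h hh hgh
    have hu : g⁻¹ * h ∈ G := G.mul_mem (G.inv_mem hg) hh
    have hfix : ∀ a ∈ E, (g⁻¹ * h) a = a := by
      intro a ha
      have h1 : g a = h a := DFunLike.congr_fun hgh (⟨a, ha⟩ : E)
      rw [AlgEquiv.mul_apply, ← h1, ← AlgEquiv.mul_apply, inv_mul_cancel, AlgEquiv.one_apply]
    have h2 := hcoc g hg (g⁻¹ * h) hu
    rw [mul_inv_cancel_left, hE _ hu hfix, map_one, mul_one] at h2
    exact h2.symm
  -- the coefficient function
  let coef : (E →ₐ[ℚ] Qb) → Qb := fun s =>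
    if h : ∃ g ∈ G, res g = s then φ (Classical.choose h) else 0
  have hcoef : ∀ g ∈ G, coef (res g) = φ g := by
    intro g hg
    have h : ∃ g' ∈ G, res g' = res g := ⟨g, hg, rfl⟩
    have h1 : coef (res g) = φ (Classical.choose h) := dif_pos h
    rw [h1]
    exact hwd _ (Classical.choose_spec h).1 g hg (Classical.choose_spec h).2
  letI : Fintype (E →ₐ[ℚ] Qb) := Fintype.ofFinite _
  let S : Finset (E →ₐ[ℚ] Qb) := Finset.univ.filter (fun s => ∃ g ∈ G, res g = s)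
  have hS : ∀ s, s ∈ S ↔ ∃ g ∈ G, res g = s := by
    intro s
    simp [S]
  -- non-vanishing of the Poincaré series
  have hne : ∃ a : E, ∑ s ∈ S, coef s * s a ≠ 0 := by
    by_contra hcon
    have hcon : ∀ a : E, ∑ s ∈ S, coef s * s a = 0 := by
      intro a
      by_contra h
      exact hcon ⟨a, h⟩
    have hli := linearIndependent_algHom_toLinearMap ℚ E Qb
    have hzero : ∑ s ∈ S, coef s • (AlgHom.toLinearMap s : E →ₗ[ℚ] Qb) = 0 := by
      ext a
      simp only [LinearMap.coe_sum, Finset.sum_apply, LinearMap.smul_apply, AlgHom.toLinearMap_apply,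
        smul_eq_mul, LinearMap.zero_apply]
      exact hcon a
    have h1 := (linearIndependent_iff'.1 hli) S coef hzero (res 1) ((hS _).2 ⟨1, G.one_mem, rfl⟩)
    rw [hcoef 1 G.one_mem] at h1
    exact hφ0 1 G.one_mem h1
  obtain ⟨a, ha⟩ := hne
  set e0 : Qb := ∑ s ∈ S, coef s * s a with he0
  have hequiv : ∀ g ∈ G, φ g * g e0 = e0 := by
    intro g hg
    rw [he0, map_sum, Finset.mul_sum]
    refine Finset.sum_nbij' (fun s => (g : Qb →ₐ[ℚ] Qb).comp s)
      (fun s => ((g⁻¹ : Γℚ) : Qb →ₐ[ℚ] Qb).comp s) ?_ ?_ ?_ ?_ ?_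
    · intro s hs
      obtain ⟨h, hh, rfl⟩ := (hS s).1 hs
      exact (hS _).2 ⟨g * h, G.mul_mem hg hh, hres_mul g h⟩
    · intro s hs
      obtain ⟨h, hh, rfl⟩ := (hS s).1 hs
      exact (hS _).2 ⟨g⁻¹ * h, G.mul_mem (G.inv_mem hg) hh, hres_mul g⁻¹ h⟩
    · intro s _
      ext b
      show g⁻¹ (g (s b)) = s b
      rw [← AlgEquiv.mul_apply, inv_mul_cancel, AlgEquiv.one_apply]
    · intro s _
      ext b
      show g (g⁻¹ (s b)) = s b
      rw [← AlgEquiv.mul_apply, mul_inv_cancel, AlgEquiv.one_apply]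
    · intro s hs
      obtain ⟨h, hh, rfl⟩ := (hS s).1 hs
      rw [← hres_mul g h, hcoef h hh, hcoef (g * h) (G.mul_mem hg hh), hcoc g hg h hh, map_mul,
        mul_assoc]
      rfl
  refine ⟨e0⁻¹, inv_ne_zero ha, ?_⟩
  intro g hg
  have h1 := hequiv g hg
  have hg0 : g e0 ≠ 0 := fun h => ha ((map_eq_zero_iff g g.injective).1 h)
  rw [map_inv₀]
  calc (g e0)⁻¹ = φ g * (φ g * g e0)⁻¹ := by
        rw [mul_inv, ← mul_assoc, mul_inv_cancel₀ (hφ0 g hg), one_mul]
    _ = φ g * e0⁻¹ := by rw [h1]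

/-! ### (a') consumer form -/

/-- comparison of multiples of an element of exact order `p` with powers of a primitive `p`-th
root of unity. -/
theorem h12_nsmul_eq_iff {V : Type*} [AddCommGroup V] (p : ℕ) [Fact p.Prime] (ζ : Qb)
    (hζ : IsPrimitiveRoot ζ p) (l0 : V) (hl0 : l0 ≠ 0) (hpl0 : p • l0 = 0) (n m : ℕ) :
    n • l0 = m • l0 ↔ ζ ^ n = ζ ^ m := by
  have hp : p.Prime := Fact.out
  have h1 : addOrderOf l0 = p := addOrderOf_eq_prime hpl0 hl0
  have h2 : IsOfFinOrder ζ := isOfFinOrder_iff_pow_eq_one.2 ⟨p, hp.pos, hζ.pow_eq_one⟩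
  rw [nsmul_eq_nsmul_iff_modEq, h1, h2.pow_eq_pow_iff_modEq, ← hζ.eq_orderOf]

/-- **(W0a), consumer form.** `x`, `l0` elements of a Galois module with `g x - x = c(g) l0`,
`g l0 = a(g) l0` and `g ζ = ζ ^ a(g)` on a subgroup `G`; `x` is fixed by the pointwise stabiliser
of a number field.  Then there is a Kummer element `e`. -/
theorem h12_kummer_of_line {V : Type*} [AddCommGroup V] [DistribMulAction Γℚ V] (p : ℕ)
    [Fact p.Prime] (G : Subgroup Γℚ) (ζ : Qb) (hζ : IsPrimitiveRoot ζ p)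
    (x l0 : V) (hl0 : l0 ≠ 0) (hpl0 : p • l0 = 0) (c a : Γℚ → ℕ)
    (hx : ∀ g ∈ G, g • x - x = c g • l0) (hl : ∀ g ∈ G, g • l0 = a g • l0)
    (hζa : ∀ g ∈ G, g ζ = ζ ^ a g)
    (E : IntermediateField ℚ Qb) [FiniteDimensional ℚ E]
    (hEx : ∀ u : Γℚ, (∀ b ∈ E, u b = b) → u • x = x) :
    ∃ e : Qb, e ≠ 0 ∧ (∀ g ∈ G, g e = ζ ^ c g * e) ∧ (∀ g ∈ G, g (e ^ p) = e ^ p) ∧
      (∀ g ∈ G, (g e = e ↔ g • x = x)) := by
  have hp : p.Prime := Fact.out
  have hζ0 : ζ ≠ 0 := hζ.ne_zero hp.ne_zero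
  have hiff := h12_nsmul_eq_iff p ζ hζ l0 hl0 hpl0
  have hcoc : ∀ g ∈ G, ∀ h ∈ G, ζ ^ c (g * h) = ζ ^ c g * g (ζ ^ c h) := by
    intro g hg h hh
    have h1 : (g * h) • x - x = (c h * a g + c g) • l0 := by
      have h2 : (g * h) • x - x = g • (h • x - x) + (g • x - x) := by
        rw [mul_smul, smul_sub]
        abel
      rw [h2, hx h hh, hx g hg, smul_comm g (c h) l0, hl g hg, add_smul, mul_smul]
    rw [hx (g * h) (G.mul_mem hg hh)] at h1
    rw [(hiff _ _).1 h1, pow_add, pow_mul, map_pow, hζa g hg, mul_comm, ← pow_mul, ← pow_mul,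
      mul_comm (a g)]
  have hE : ∀ u ∈ G, (∀ b ∈ E, u b = b) → ζ ^ c u = 1 := by
    intro u hu hfix
    have h1 := hx u hu
    rw [hEx u hfix, sub_self] at h1
    have h2 : c u • l0 = 0 • l0 := by rw [← h1, zero_smul]
    rw [(hiff _ _).1 h2, pow_zero]
  obtain ⟨e, he0, he⟩ := h12_hilbert90 G (fun g => ζ ^ c g) (fun g _ => pow_ne_zero _ hζ0) hcoc E hE
  refine ⟨e, he0, he, ?_, ?_⟩
  · intro g hg
    rw [map_pow, he g hg, mul_pow, ← pow_mul, mul_comm (c g) p, pow_mul, hζ.pow_eq_one, one_pow,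
      one_mul]
  · intro g hg
    rw [he g hg]
    constructor
    · intro h
      have h1 : ζ ^ c g = ζ ^ 0 := by
        rw [pow_zero]
        exact mul_right_cancel₀ he0 (by rw [h, one_mul])
      have h2 := (hiff _ _).2 h1
      rw [zero_smul, ← hx g hg] at h2
      exact sub_eq_zero.1 h2
    · intro h
      have h1 := hx g hg
      rw [h, sub_self] at h1
      have h2 : c g • l0 = 0 • l0 := by rw [← h1, zero_smul]
      rw [(hiff _ _).1 h2, pow_zero, one_mul]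

/-! ### (c) the field `ℚ̄^I(w)`, `(1 + w)^p = 1 + p z` -/

/-- the Eisenstein relation of `w`, `(1 + w) ^ p = 1 + p z`:
`w ^ p + ∑_{0 < j < p} (p choose j) w ^ j = p z`. -/
theorem h12_eis_rel (p : ℕ) [Fact p.Prime] (z w : Qb) (hw : (1 + w) ^ p = 1 + (p : Qb) * z) :
    w ^ p = (p : Qb) * z - ∑ j ∈ Finset.Ico 1 p, (p.choose j : Qb) * w ^ j := by
  have hp : p.Prime := Fact.out
  have h1 : (1 + w) ^ p = 1 + ∑ j ∈ Finset.Ico 1 p, (p.choose j : Qb) * w ^ j + w ^ p := by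
    rw [add_comm 1 w, add_pow, Finset.sum_range_succ, Finset.range_eq_Ico,
      Finset.sum_eq_sum_Ico_succ_bot hp.pos]
    simp only [one_pow, mul_one, pow_zero, Nat.choose_zero_right, Nat.cast_one, Nat.choose_self,
      Nat.sub_self, zero_add]
    congr 2
    refine Finset.sum_congr rfl (fun j _ => ?_)
    rw [mul_comm]
  rw [h1] at hw
  linear_combination hw

/-- the tail of the Eisenstein relation divided by `p w ^ 2`. -/
noncomputable def h12_eisS (p : ℕ) (w : Qb) : Qb :=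
  ∑ j ∈ Finset.Ico 2 p, ((p.choose j / p : ℕ) : Qb) * w ^ (j - 2)

theorem h12_eis_rel' (p : ℕ) [Fact p.Prime] (z w : Qb)
    (hw : (1 + w) ^ p = 1 + (p : Qb) * z) :
    w ^ p = (p : Qb) * (z - w - w ^ 2 * h12_eisS p w) := by
  have hp : p.Prime := Fact.out
  have h1 := h12_eis_rel p z w hw
  have h2 : ∑ j ∈ Finset.Ico 1 p, (p.choose j : Qb) * w ^ j
      = (p : Qb) * w + (p : Qb) * (w ^ 2 * h12_eisS p w) := by
    rw [Finset.sum_eq_sum_Ico_succ_bot hp.one_lt, Nat.choose_one_right, pow_one, h12_eisS,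
      Finset.mul_sum, Finset.mul_sum]
    congr 1
    refine Finset.sum_congr rfl (fun j hj => ?_)
    rw [Finset.mem_Ico] at hj
    have hdvd : p ∣ p.choose j := hp.dvd_choose_self (by omega) hj.2
    have h3 : (p.choose j : Qb) = (p : Qb) * ((p.choose j / p : ℕ) : Qb) := by
      rw [← Nat.cast_mul, Nat.mul_div_cancel' hdvd]
    have h4 : w ^ j = w ^ 2 * w ^ (j - 2) := by
      rw [← pow_add]
      congr 1
      omega
    rw [h3, h4]
    ring
  rw [h1, h2]
  ring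

theorem h12_eisS_mem (p : ℕ) (A : ValuationSubring Qb) (w : Qb) (hwA : w ∈ A) :
    h12_eisS p w ∈ A :=
  sum_mem (fun _ _ => mul_mem (h26_natCast_mem A _) (pow_mem hwA _))

theorem h12_eisS_fix (p : ℕ) (w : Qb) (g : Γℚ) (hg : g w = w) :
    g (h12_eisS p w) = h12_eisS p w := by
  rw [h12_eisS, map_sum]
  refine Finset.sum_congr rfl (fun j _ => ?_)
  rw [map_mul, map_pow, hg, map_natCast]

/-- **(W0c), valuations.** `w` is a uniformiser of `ℚ̄^I(w)`: `v(w)^p = v(p)`. -/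
theorem h12_eis_val (p : ℕ) [Fact p.Prime] (A : ValuationSubring Qb) (hA : A.LiesOverPrime p)
    (z w : Qb) (hz : A.valuation z = 1) (hw : (1 + w) ^ p = 1 + (p : Qb) * z) :
    w ∈ A ∧ A.valuation w < 1 ∧ A.valuation w ^ p = A.valuation (p : Qb) ∧
      A.valuation (z - w - w ^ 2 * h12_eisS p w) = 1 := by
  have hp : p.Prime := Fact.out
  have hpA : (p : Qb) ∈ A := h26_natCast_mem A p
  have hzA : z ∈ A := (A.valuation_le_one_iff z).1 (le_of_eq hz)
  have hpv : A.valuation (p : Qb) < 1 := h8_val_p_lt p A hA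
  have h1 : A.valuation (1 + w) ≤ 1 := by
    by_contra hcon
    rw [not_le] at hcon
    have h2 := pow_lt_pow_left₀ hcon zero_le hp.ne_zero
    rw [one_pow, ← map_pow, hw] at h2
    exact absurd ((A.valuation_le_one_iff _).2 (add_mem A.one_mem (mul_mem hpA hzA)))
      (not_le.2 h2)
  have hwA : w ∈ A := by
    have h2 : w = (1 + w) - 1 := by ring
    rw [h2]
    exact sub_mem ((A.valuation_le_one_iff _).1 h1) A.one_mem
  have hrel := h12_eis_rel' p z w hw
  have hsA := h12_eisS_mem p A w hwA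
  have hin : z - w - w ^ 2 * h12_eisS p w ∈ A :=
    sub_mem (sub_mem hzA hwA) (mul_mem (pow_mem hwA 2) hsA)
  have hw1 : A.valuation w < 1 := by
    by_contra hcon
    rw [not_lt] at hcon
    have h2 : (1 : A.ValueGroup) ≤ A.valuation w ^ p := one_le_pow₀ hcon
    rw [← map_pow, hrel, map_mul] at h2
    have h3 : A.valuation (p : Qb) * A.valuation (z - w - w ^ 2 * h12_eisS p w) < 1 :=
      lt_of_le_of_lt (mul_le_of_le_one_right' ((A.valuation_le_one_iff _).2 hin)) hpv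
    exact absurd h2 (not_le.2 h3)
  have hu : A.valuation (z - w - w ^ 2 * h12_eisS p w) = 1 := by
    have h2 : z - w - w ^ 2 * h12_eisS p w = z - (w + w ^ 2 * h12_eisS p w) := by ring
    rw [h2, Valuation.map_sub_eq_of_lt_left, hz]
    rw [hz]
    refine Valuation.map_add_lt _ hw1 ?_
    rw [map_mul, map_pow]
    refine lt_of_le_of_lt (mul_le_of_le_one_right' ((A.valuation_le_one_iff _).2 hsA)) ?_
    exact pow_lt_one₀ zero_le hw1 two_ne_zero
  refine ⟨hwA, hw1, ?_, hu⟩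
  rw [← map_pow, hrel, map_mul, hu, mul_one]

theorem h12_eis_ne_zero (p : ℕ) [Fact p.Prime] (A : ValuationSubring Qb) (hA : A.LiesOverPrime p)
    (z w : Qb) (hz : A.valuation z = 1) (hw : (1 + w) ^ p = 1 + (p : Qb) * z) :
    1 + w ≠ 0 ∧ w ≠ 0 := by
  have hp : p.Prime := Fact.out
  have hpv : A.valuation (p : Qb) < 1 := h8_val_p_lt p A hA
  have hz0 : z ≠ 0 := by
    rintro rfl
    rw [map_zero] at hz
    exact zero_ne_one hz
  have hp0 : (p : Qb) ≠ 0 := Nat.cast_ne_zero.2 hp.ne_zero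
  constructor
  · intro h
    rw [h, zero_pow hp.ne_zero] at hw
    have h1 : (p : Qb) * z = -1 := by linear_combination -hw
    have h2 : A.valuation ((p : Qb) * z) = 1 := by rw [h1, Valuation.map_neg, map_one]
    rw [map_mul, hz, mul_one] at h2
    exact absurd h2 (ne_of_lt hpv)
  · rintro rfl
    rw [add_zero, one_pow] at hw
    have h1 : (p : Qb) * z = 0 := by linear_combination -hw
    rcases mul_eq_zero.1 h1 with h | h
    · exact hp0 h
    · exact hz0 h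

/-- **(W0c), orbit, part 1.** every automorphism fixing `z` sends `1 + w` to `ζ ^ j (1 + w)`. -/
theorem h12_eis_orbit (p : ℕ) [Fact p.Prime] (A : ValuationSubring Qb) (hA : A.LiesOverPrime p)
    (ζ : Qb) (hζ : IsPrimitiveRoot ζ p) (z w : Qb) (hz : A.valuation z = 1)
    (hw : (1 + w) ^ p = 1 + (p : Qb) * z) (g : Γℚ) (hgz : g z = z) :
    ∃ j : ℕ, j < p ∧ g (1 + w) = ζ ^ j * (1 + w) := by
  have hp : p.Prime := Fact.out
  haveI : NeZero p := ⟨hp.ne_zero⟩
  have ht0 := (h12_eis_ne_zero p A hA z w hz hw).1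
  have h1 : (g (1 + w) / (1 + w)) ^ p = 1 := by
    rw [div_pow, ← map_pow, hw, map_add, map_one, map_mul, map_natCast, hgz]
    exact div_self (by rw [← hw]; exact pow_ne_zero _ ht0)
  obtain ⟨j, hj, hjζ⟩ := hζ.eq_pow_of_pow_eq_one h1
  refine ⟨j, hj, ?_⟩
  rw [hjζ, div_mul_cancel₀ _ ht0]

/-- **(W0c), orbit, part 2.** the inertia elements fixing `ζ` act transitively on the roots:
the `I`-orbit of `w` is exactly `{ζ ^ j (1 + w) - 1}`, `p` elements. -/
theorem h12_eis_trans (p : ℕ) [Fact p.Prime] (hp2 : p ≠ 2) (A : ValuationSubring Qb)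
    (hA : A.LiesOverPrime p) (ζ : Qb) (hζ : IsPrimitiveRoot ζ p) (z w : Qb)
    (hz : A.valuation z = 1) (hzI : ∀ g ∈ A.inertiaSubgroupIn ℚ, g z = z)
    (hw : (1 + w) ^ p = 1 + (p : Qb) * z) (j : ℕ) :
    ∃ g ∈ A.inertiaSubgroupIn ℚ, g ζ = ζ ∧ g (1 + w) = ζ ^ j * (1 + w) := by
  have hp : p.Prime := Fact.out
  haveI : NeZero p := ⟨hp.ne_zero⟩
  obtain ⟨ht0, hw0⟩ := h12_eis_ne_zero p A hA z w hz hw
  obtain ⟨hwA, hw1, hwp, -⟩ := h12_eis_val p A hA z w hz hw
  -- some element of `I'` moves `1 + w`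
  have hA1 : ∃ g0 ∈ A.inertiaSubgroupIn ℚ, g0 ζ = ζ ∧ g0 (1 + w) ≠ 1 + w := by
    by_contra hcon
    have hfix : ∀ σ ∈ A.inertiaSubgroupIn ℚ, σ ζ = ζ → σ w = w := by
      intro σ hσ hσζ
      by_contra h
      refine hcon ⟨σ, hσ, hσζ, ?_⟩
      intro h2
      apply h
      rw [map_add, map_one] at h2
      exact add_left_cancel h2
    obtain ⟨n, hn⟩ := h8_val_tame p hp2 A hA ζ hζ w hw0 hfix
    obtain ⟨hpos, hlt⟩ := h8_val_zeta_lt p hp2 A hA ζ hζ
    have h1 : A.valuation (ζ - 1) ^ (n * (p : ℤ)) = A.valuation (ζ - 1) ^ ((p - 1 : ℕ) : ℤ) := by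
      rw [zpow_mul, ← hn, zpow_natCast, zpow_natCast, hwp, h8_val_p p A ζ hζ]
    have h2 : n * (p : ℤ) = ((p - 1 : ℕ) : ℤ) :=
      zpow_right_injective₀ hpos (ne_of_lt hlt) h1
    have h3 : (p : ℤ) ∣ ((p - 1 : ℕ) : ℤ) := ⟨n, by rw [← h2, mul_comm]⟩
    have h4 : p ∣ p - 1 := Int.natCast_dvd_natCast.1 h3
    have h5 := Nat.le_of_dvd (Nat.sub_pos_of_lt hp.one_lt) h4
    have h6 := hp.one_lt
    omega
  obtain ⟨g0, hg0, hg0ζ, hg0w⟩ := hA1
  obtain ⟨i, hi, hiw⟩ := h12_eis_orbit p A hA ζ hζ z w hz hw g0 (hzI g0 hg0)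
  have hi0 : i ≠ 0 := by
    rintro rfl
    rw [pow_zero, one_mul] at hiw
    exact hg0w hiw
  have hcop : Nat.Coprime i p :=
    (Nat.Coprime.symm ((Nat.Prime.coprime_iff_not_dvd hp).2
      (fun h => hi0 (Nat.eq_zero_of_dvd_of_lt h hi))))
  have hζi : IsPrimitiveRoot (ζ ^ i) p := hζ.pow_of_coprime i hcop
  obtain ⟨k, -, hk⟩ := hζi.eq_pow_of_pow_eq_one (ξ := ζ ^ j)
    (by rw [← pow_mul, mul_comm, pow_mul, hζ.pow_eq_one, one_pow])
  have hpowζ : ∀ n : ℕ, (g0 ^ n) ζ = ζ := by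
    intro n
    induction n with
    | zero => rw [pow_zero, AlgEquiv.one_apply]
    | succ n ih => rw [pow_succ', AlgEquiv.mul_apply, ih, hg0ζ]
  have hpoww : ∀ n : ℕ, (g0 ^ n) (1 + w) = (ζ ^ i) ^ n * (1 + w) := by
    intro n
    induction n with
    | zero => rw [pow_zero, AlgEquiv.one_apply, pow_zero, one_mul]
    | succ n ih =>
      rw [pow_succ', AlgEquiv.mul_apply, ih, map_mul, map_pow, map_pow, hg0ζ, hiw, pow_succ]
      ring
  exact ⟨g0 ^ k, Subgroup.pow_mem _ hg0 k, hpowζ k, by rw [hpoww k, hk]⟩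

/-! ### (b) the case split when `p ∣ v(e ^ p)` -/

/-- a root `t` of `X ^ p = 1 + p z` (`z` inertia-fixed) which is closer to `1` than `ζ - 1` is
fixed by inertia. -/
theorem h12_close_root_fixed (p : ℕ) [Fact p.Prime] (A : ValuationSubring Qb)
    (ζ : Qb) (hζ : IsPrimitiveRoot ζ p) (t : Qb) (ht0 : t ≠ 0)
    (ht : A.valuation (t - 1) < A.valuation (ζ - 1))
    (g : Γℚ) (hg : g ∈ A.inertiaSubgroupIn ℚ) (hgt : g (t ^ p) = t ^ p) : g t = t := by
  have hp : p.Prime := Fact.out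
  haveI : NeZero p := ⟨hp.ne_zero⟩
  have h1 : (g t / t) ^ p = 1 := by
    rw [div_pow, ← map_pow, hgt]
    exact div_self (pow_ne_zero _ ht0)
  obtain ⟨i, hi, hiζ⟩ := hζ.eq_pow_of_pow_eq_one h1
  by_cases hi0 : i = 0
  · rw [hi0, pow_zero] at hiζ
    have h2 := hiζ.symm
    rwa [div_eq_one_iff_eq ht0] at h2
  · exfalso
    have hnd : ¬ p ∣ i := fun h => hi0 (Nat.eq_zero_of_dvd_of_lt h hi)
    have h2 := h8_val_zeta_pow p A ζ hζ i hnd
    have hζ1 : A.valuation (ζ - 1) ≤ 1 :=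
      (A.valuation_le_one_iff _).2 (sub_mem (h8_zeta_mem p A ζ hζ) A.one_mem)
    have h4 : A.valuation t = 1 := by
      have h5 : t = 1 + (t - 1) := by ring
      rw [h5]
      exact Valuation.map_one_add_of_lt _ (lt_of_lt_of_le ht hζ1)
    have h6 : g t - t = (ζ ^ i - 1) * t := by
      rw [hiζ, sub_mul, one_mul, div_mul_cancel₀ _ ht0]
    have h7 : A.valuation (g t - t) = A.valuation (ζ - 1) := by
      rw [h6, map_mul, h2, h4, mul_one]
    have h8 : A.valuation (g t - t) < A.valuation (ζ - 1) := by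
      have h9 : g t - t = g (t - 1) - (t - 1) := by rw [map_sub, map_one]; ring
      rw [h9]
      exact Valuation.map_sub_lt _ (by rw [h8_val_smul A hg]; exact ht) ht
    exact absurd h7 (ne_of_lt h8)

/-- **(W0b).** Case split when `p ∣ v(κ)`, `κ = e ^ p`. -/
theorem h12_kummer_cases (p : ℕ) [Fact p.Prime] (hp2 : p ≠ 2) (A : ValuationSubring Qb)
    (hA : A.LiesOverPrime p) (ζ : Qb) (hζ : IsPrimitiveRoot ζ p)
    (φ : Γℚ → Qb) (hφp : ∀ g ∈ A.inertiaSubgroupIn ℚ, φ g ^ p = 1)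
    (e : Qb) (he0 : e ≠ 0) (he : ∀ g ∈ A.inertiaSubgroupIn ℚ, g e = φ g * e)
    (m : ℤ) (hm : A.valuation (e ^ p) = A.valuation (p : Qb) ^ ((p : ℤ) * m)) :
    (∃ i : ℕ, ∀ g ∈ A.inertiaSubgroupIn ℚ, g (ζ ^ i) = φ g * ζ ^ i) ∨
    (∃ z w : Qb, A.valuation z = 1 ∧ (∀ g ∈ A.inertiaSubgroupIn ℚ, g z = z) ∧
        (1 + w) ^ p = 1 + (p : Qb) * z ∧
        (∀ g ∈ A.inertiaSubgroupIn ℚ, g (1 + w) = φ g * (1 + w)) ∧
        ∃ c0 : Qb, c0 ≠ 0 ∧ (∀ g ∈ A.inertiaSubgroupIn ℚ, g c0 = c0) ∧ e = c0 * (1 + w)) := by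
  classical
  have hp : p.Prime := Fact.out
  haveI : NeZero p := ⟨hp.ne_zero⟩
  have hp0 : (p : Qb) ≠ 0 := Nat.cast_ne_zero.2 hp.ne_zero
  have hpv0 : A.valuation (p : Qb) ≠ 0 := (map_ne_zero _).2 hp0
  have hpm0 : (p : Qb) ^ m ≠ 0 := zpow_ne_zero m hp0
  have hpmfix : ∀ g : Γℚ, g ((p : Qb) ^ m) = (p : Qb) ^ m := by
    intro g
    rw [map_zpow₀, map_natCast]
  -- step 1: divide by `p ^ m`
  set e1 : Qb := e / (p : Qb) ^ m with he1def
  have he10 : e1 ≠ 0 := div_ne_zero he0 hpm0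
  have he1 : ∀ g ∈ A.inertiaSubgroupIn ℚ, g e1 = φ g * e1 := by
    intro g hg
    rw [he1def, map_div₀, he g hg, hpmfix g, mul_div_assoc]
  have hv1 : A.valuation e1 = 1 := by
    refine h8_pow_inj_val A _ _ p hp.ne_zero ?_
    rw [one_pow, ← map_pow, he1def, div_pow, map_div₀, hm]
    have h1 : ((p : Qb) ^ m) ^ p = (p : Qb) ^ ((p : ℤ) * m) := by
      rw [← zpow_natCast, ← zpow_mul, mul_comm]
    rw [h1, map_zpow₀]
    exact div_self (zpow_ne_zero _ hpv0)
  have he1A : e1 ∈ A := (A.valuation_le_one_iff _).1 (le_of_eq hv1)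
  have he1u : e1 ∉ A.nonunits := by
    rw [ValuationSubring.mem_nonunits_iff, hv1]
    exact lt_irrefl _
  -- step 2: Teichmüller representative
  obtain ⟨n, ξ, hn0, -, hξn, hξA, hξI, hnear⟩ := h5_teich_K0 p hp A hA e1 he1A he1u
  have hξ0 : ξ ≠ 0 := by
    rintro rfl
    rw [zero_pow hn0] at hξn
    exact zero_ne_one hξn
  have hvξ : A.valuation ξ = 1 := by
    refine h8_pow_inj_val A _ _ n hn0 ?_
    rw [one_pow, ← map_pow, hξn, map_one]
  set e2 : Qb := e1 / ξ with he2def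
  have he20 : e2 ≠ 0 := div_ne_zero he10 hξ0
  have he2 : ∀ g ∈ A.inertiaSubgroupIn ℚ, g e2 = φ g * e2 := by
    intro g hg
    rw [he2def, map_div₀, he1 g hg, hξI g hg, mul_div_assoc]
  have hv2 : A.valuation e2 = 1 := by rw [he2def, map_div₀, hv1, hvξ, div_one]
  have he2A : e2 ∈ A := (A.valuation_le_one_iff _).1 (le_of_eq hv2)
  have hnear2 : A.valuation (e2 - 1) < 1 := by
    have h1 : e2 - 1 = (e1 - ξ) / ξ := by
      rw [he2def, sub_div, div_self hξ0]
    rw [h1, map_div₀, hvξ, div_one]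
    exact (ValuationSubring.mem_nonunits_iff A).1 hnear
  have hκfix : ∀ g ∈ A.inertiaSubgroupIn ℚ, g (e2 ^ p) = e2 ^ p := by
    intro g hg
    rw [map_pow, he2 g hg, mul_pow, hφp g hg, one_mul]
  have hκnear : e2 ^ p - 1 ∈ A.nonunits := by
    rw [ValuationSubring.mem_nonunits_iff, ← geom_sum_mul e2 p, map_mul]
    have h1 : (∑ i ∈ Finset.range p, e2 ^ i) ∈ A := sum_mem (fun i _ => pow_mem he2A i)
    exact lt_of_le_of_lt (mul_le_of_le_one_left' ((A.valuation_le_one_iff _).2 h1)) hnear2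
  obtain ⟨z, hzA, hzeq, hzI⟩ := h14_unr p A hA (e2 ^ p - 1) hκnear
    (fun g hg => by rw [map_sub, map_one, hκfix g hg])
  have hw : (1 + (e2 - 1)) ^ p = 1 + (p : Qb) * z := by
    rw [← hzeq]
    ring
  have hgw : ∀ g ∈ A.inertiaSubgroupIn ℚ, g (1 + (e2 - 1)) = φ g * (1 + (e2 - 1)) := by
    intro g hg
    have h1 : (1 : Qb) + (e2 - 1) = e2 := by ring
    rw [h1]
    exact he2 g hg
  by_cases hzu : A.valuation z = 1
  · right
    refine ⟨z, e2 - 1, hzu, hzI, hw, hgw, (p : Qb) ^ m * ξ, mul_ne_zero hpm0 hξ0, ?_, ?_⟩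
    · intro g hg
      rw [map_mul, hpmfix g, hξI g hg]
    · have h1 : (1 : Qb) + (e2 - 1) = e2 := by ring
      rw [h1, he2def, he1def]
      field_simp
  · left
    have hzlt : A.valuation z < 1 :=
      lt_of_le_of_ne ((A.valuation_le_one_iff _).2 hzA) hzu
    obtain ⟨z', hz'A, hz'eq, -⟩ := h14_unr p A hA z
      ((ValuationSubring.mem_nonunits_iff A).2 hzlt) hzI
    have hzle : A.valuation z ≤ A.valuation (p : Qb) := by
      rw [hz'eq, map_mul]
      exact mul_le_of_le_one_right' ((A.valuation_le_one_iff _).2 hz'A)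
    obtain ⟨hpos, hlt⟩ := h8_val_zeta_lt p hp2 A hA ζ hζ
    -- a root of unity `μ` with `μ e2` close to `1`
    have hex : ∃ μ ∈ Polynomial.nthRootsFinset p (1 : Qb),
        A.valuation (1 - μ * e2) < A.valuation (ζ - 1) := by
      by_contra hcon
      have hcon' : ∀ μ ∈ Polynomial.nthRootsFinset p (1 : Qb),
          A.valuation (ζ - 1) ≤ A.valuation (1 - μ * e2) := by
        intro μ hμ
        by_contra h
        exact hcon ⟨μ, hμ, not_le.1 h⟩
      have h1 := hζ.pow_sub_pow_eq_prod_sub_mul (1 : Qb) e2 hp.pos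
      have h2 : A.valuation ((1 : Qb) ^ p - e2 ^ p) =
          A.valuation (p : Qb) * A.valuation z := by
        have h3 : (1 : Qb) ^ p - e2 ^ p = -((p : Qb) * z) := by
          rw [← hzeq]
          ring
        rw [h3, Valuation.map_neg, map_mul]
      have h4 : A.valuation (ζ - 1) ^ p ≤ A.valuation ((1 : Qb) ^ p - e2 ^ p) := by
        rw [h1, map_prod]
        calc A.valuation (ζ - 1) ^ p
            = ∏ _μ ∈ Polynomial.nthRootsFinset p (1 : Qb), A.valuation (ζ - 1) := by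
              rw [Finset.prod_const, hζ.card_nthRootsFinset]
          _ ≤ ∏ μ ∈ Polynomial.nthRootsFinset p (1 : Qb), A.valuation (1 - μ * e2) :=
              Finset.prod_le_prod' hcon'
      rw [h2] at h4
      have h5 : A.valuation (p : Qb) * A.valuation z ≤
          A.valuation (ζ - 1) ^ (p - 1) * A.valuation (ζ - 1) ^ (p - 1) := by
        rw [← h8_val_p p A ζ hζ]
        exact mul_le_mul_right hzle _
      have h6 : A.valuation (ζ - 1) ^ (p - 1) * A.valuation (ζ - 1) ^ (p - 1) <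
          A.valuation (ζ - 1) ^ p := by
        rw [← pow_add]
        refine pow_lt_pow_right_of_lt_one₀ hpos hlt ?_
        have h7 := hp.two_le
        omega
      exact absurd (le_trans h4 h5) (not_le.2 h6)
    obtain ⟨μ, hμ, hμv⟩ := hex
    have hμp : μ ^ p = 1 := (Polynomial.mem_nthRootsFinset hp.pos (1 : Qb)).1 hμ
    have hμ0 : μ ≠ 0 := by
      rintro rfl
      rw [zero_pow hp.ne_zero] at hμp
      exact zero_ne_one hμp
    obtain ⟨t, htdef⟩ : ∃ t : Qb, t = μ * e2 := ⟨_, rfl⟩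
    have ht0 : t ≠ 0 := by rw [htdef]; exact mul_ne_zero hμ0 he20
    have htv : A.valuation (t - 1) < A.valuation (ζ - 1) := by
      rw [Valuation.map_sub_swap, htdef]
      exact hμv
    have htp : t ^ p = e2 ^ p := by rw [htdef, mul_pow, hμp, one_mul]
    have htfix : ∀ g ∈ A.inertiaSubgroupIn ℚ, g t = t := by
      intro g hg
      refine h12_close_root_fixed p A ζ hζ t ht0 htv g hg ?_
      rw [htp, hκfix g hg]
    -- `μ⁻¹` is a power of `ζ`
    have hμinv : (μ⁻¹) ^ p = 1 := by rw [inv_pow, hμp, inv_one]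
    obtain ⟨i, -, hi⟩ := hζ.eq_pow_of_pow_eq_one hμinv
    refine ⟨i, fun g hg => ?_⟩
    rw [hi]
    have h1 : e2 = μ⁻¹ * t := by
      rw [htdef, ← mul_assoc, inv_mul_cancel₀ hμ0, one_mul]
    have h2 := he2 g hg
    rw [h1, map_mul, htfix g hg, ← mul_assoc] at h2
    exact mul_right_cancel₀ ht0 h2

/-! ### (c) packaged, and the auxiliary field -/

/-- **(W0c).** The field `ℚ̄^I(w)`, `(1 + w) ^ p = 1 + p z`, `z` an inertia-fixed unit:
`w` is a uniformiser with `v(w)^p = v(p)`, it satisfies the Eisenstein relation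
`w ^ p = p (z - w - w ^ 2 s)`, and its inertia orbit consists of the `p` elements
`ζ ^ j (1 + w) - 1`, already under the inertia elements fixing `ζ`. -/
theorem h12_eis (p : ℕ) [Fact p.Prime] (hp2 : p ≠ 2) (A : ValuationSubring Qb)
    (hA : A.LiesOverPrime p) (ζ : Qb) (hζ : IsPrimitiveRoot ζ p) (z w : Qb)
    (hz : A.valuation z = 1) (hzI : ∀ g ∈ A.inertiaSubgroupIn ℚ, g z = z)
    (hw : (1 + w) ^ p = 1 + (p : Qb) * z) :
    w ∈ A.nonunits ∧ A.valuation w ^ p = A.valuation (p : Qb) ∧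
    w ^ p = (p : Qb) * z - ∑ j ∈ Finset.Ico 1 p, (p.choose j : Qb) * w ^ j ∧
    (h12_eisS p w ∈ A ∧ (∀ g : Γℚ, g w = w → g (h12_eisS p w) = h12_eisS p w) ∧
      w ^ p = (p : Qb) * (z - w - w ^ 2 * h12_eisS p w) ∧
      A.valuation (z - w - w ^ 2 * h12_eisS p w) = 1) ∧
    (∀ g ∈ A.inertiaSubgroupIn ℚ, ∃ j : ℕ, j < p ∧ g (1 + w) = ζ ^ j * (1 + w)) ∧
    (∀ j : ℕ, ∃ g ∈ A.inertiaSubgroupIn ℚ, g ζ = ζ ∧ g (1 + w) = ζ ^ j * (1 + w)) := by
  obtain ⟨hwA, hw1, hwp, hu⟩ := h12_eis_val p A hA z w hz hw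
  refine ⟨(ValuationSubring.mem_nonunits_iff A).2 hw1, hwp, h12_eis_rel p z w hw,
    ⟨h12_eisS_mem p A w hwA, h12_eisS_fix p w, h12_eis_rel' p z w hw, hu⟩, ?_, ?_⟩
  · intro g hg
    exact h12_eis_orbit p A hA ζ hζ z w hz hw g (hzI g hg)
  · intro j
    exact h12_eis_trans p hp2 A hA ζ hζ z w hz hzI hw j

/-- the `p` conjugates `ζ ^ j (1 + w) - 1`, `j < p`, are pairwise distinct. -/
theorem h12_eis_conj_inj (p : ℕ) [Fact p.Prime] (A : ValuationSubring Qb)
    (hA : A.LiesOverPrime p) (ζ : Qb) (hζ : IsPrimitiveRoot ζ p) (z w : Qb)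
    (hz : A.valuation z = 1) (hw : (1 + w) ^ p = 1 + (p : Qb) * z) (i j : ℕ) (hi : i < p)
    (hj : j < p) (h : ζ ^ i * (1 + w) - 1 = ζ ^ j * (1 + w) - 1) : i = j := by
  have ht0 := (h12_eis_ne_zero p A hA z w hz hw).1
  have h1 : ζ ^ i = ζ ^ j := mul_right_cancel₀ ht0 (sub_left_injective h)
  exact hζ.pow_inj hi hj h1

/-- an inertia element fixes `w` iff it fixes `1 + w`. -/
theorem h12_eis_fix_iff (w : Qb) (g : Γℚ) : g w = w ↔ g (1 + w) = 1 + w := by
  rw [map_add, map_one]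
  exact ⟨fun h => by rw [h], fun h => add_left_cancel h⟩

/-- the auxiliary field `ℚ̄^I((1 + p)^(1/p))` of row W8: `z = 1`. -/
theorem h12_exists_aux (p : ℕ) [Fact p.Prime] :
    ∃ w : Qb, (1 + w) ^ p = 1 + (p : Qb) * 1 := by
  have hp : p.Prime := Fact.out
  obtain ⟨t, ht⟩ := IsAlgClosed.exists_pow_nat_eq (1 + (p : Qb) * 1) hp.pos
  exact ⟨t - 1, by rw [← ht]; ring⟩

end Fermat.Agent.S40
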