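import Mathlib
import Fermat.Prelude.Def_ModularCurve_ArithmeticGalois
import Fermat.Agent.S18.GR_RedAPI
import Fermat.Agent.S40.h12_KummerEis

/-!
# S40 / (TR) rows W7, W8: the constants `w`, `z`, `η = p / w^p` of a W0 pair (helper11)

`(z, w)` a pair of the W0 form: `(1 + w)^p = 1 + p z`, `z` a unit of `A` fixed by the inertia
group `I` of `A`.  `η := p / w^p` is the unit with `η * w^p = p` (`Ω₂(η) = 1 / z̄` is (Jd)).

* `h11_eta_spec` : `η * w^p = p`, `v(η) = 1`, `η, η⁻¹ ∈ A`, `η ≠ 0`, and `η` is fixed by every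
  automorphism fixing `w`;
* `h11_const_mem`, `h11_const_fixed` : a constant of `A` lies in `R.O` for every reduction datum
  over `A`; a constant fixed by `σ` is fixed by `arithmeticGalois σ` as a function;
* `h11_eta_datum` : for every reduction datum `R` over `A` (any level; at the charted level use
  `hRA := h60_R1_A M p hpM A hA` resp. `h60_R2_A M p hpM A hA`), the functions `η`, `η⁻¹`, `w`,
  `z`, `p` lie in `R.O`; `η`, `η⁻¹`, `w` are `H`-fixed (`H = Stab_I(w)`), `z` and `p` are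
  `I`-fixed: the membership inputs `hηS`, `hηSi`, `hwS`, `hzS` of `h50_twist_jump` /
  `h86_jd_red` once `S_i` is the ring of `H`-fixed elements of `R_i.O`.
-/

set_option autoImplicit false

noncomputable section

open AlgebraicCurve ModularCurve

namespace Fermat.Agent.S40

open Fermat.Agent.S18

local notation "Qb" => AlgebraicClosure ℚ
local notation "Γℚ" => (AlgebraicClosure ℚ ≃ₐ[ℚ] AlgebraicClosure ℚ)

/-- the unit `η = p / w^p` of a W0 pair. -/
theorem h11_eta_spec (p : ℕ) [Fact p.Prime] (hp2 : p ≠ 2) (A : ValuationSubring Qb)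
    (hA : A.LiesOverPrime p) (ζ : Qb) (hζ : IsPrimitiveRoot ζ p) (z w : Qb)
    (hz : A.valuation z = 1) (hzI : ∀ g ∈ A.inertiaSubgroupIn ℚ, g z = z)
    (hw : (1 + w) ^ p = 1 + (p : Qb) * z) :
    (p : Qb) / w ^ p * w ^ p = (p : Qb) ∧ A.valuation ((p : Qb) / w ^ p) = 1 ∧
      (p : Qb) / w ^ p ∈ A ∧ ((p : Qb) / w ^ p)⁻¹ ∈ A ∧ (p : Qb) / w ^ p ≠ 0 ∧
      (∀ σ : Γℚ, σ w = w → σ ((p : Qb) / w ^ p) = (p : Qb) / w ^ p) ∧
      w ≠ 0 ∧ w ∈ A ∧ (p : Qb) ≠ 0 ∧ (p : Qb) ∈ A ∧ z ∈ A := by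
  have hp : p.Prime := Fact.out
  have hp0 : (p : Qb) ≠ 0 := Nat.cast_ne_zero.mpr hp.ne_zero
  obtain ⟨hwn, hwv, -, -, -, -⟩ := h12_eis p hp2 A hA ζ hζ z w hz hzI hw
  have hw0 : w ≠ 0 := (h12_eis_ne_zero p A hA z w hz hw).2
  have hwp0 : w ^ p ≠ 0 := pow_ne_zero _ hw0
  have hv : A.valuation ((p : Qb) / w ^ p) = 1 := by
    rw [map_div₀, map_pow, hwv]
    exact div_self ((Valuation.ne_zero_iff _).2 hp0)
  have hwA : w ∈ A := by
    have h1 : A.valuation w < 1 := (ValuationSubring.mem_nonunits_iff A).1 hwn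
    exact (A.valuation_le_one_iff w).mp h1.le
  have hpA : (p : Qb) ∈ A := by
    rw [← A.valuation_le_one_iff, ← hwv]
    exact pow_le_one₀ zero_le ((A.valuation_le_one_iff w).mpr hwA)
  refine ⟨div_mul_cancel₀ _ hwp0, hv, ?_, ?_, div_ne_zero hp0 hwp0, ?_, hw0, hwA, hp0, hpA, ?_⟩
  · rw [← A.valuation_le_one_iff, hv]
  · rw [← A.valuation_le_one_iff, map_inv₀, hv, inv_one]
  · intro σ hσ
    rw [map_div₀, map_pow, hσ, map_natCast]
  · rw [← A.valuation_le_one_iff, hz]

section Modular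

variable {k Fb : Type*} [Field k] [Field Fb] [Algebra k Fb]

/-- a constant of `A` lies in `R.O`, for a reduction datum `R` over `A`. -/
theorem h11_const_mem (N : ℕ) (A : ValuationSubring Qb)
    (R : h39_RedDatum Qb ↥(modularFunctionFieldBar N) k Fb) (hRA : R.A = A) {c : Qb}
    (hc : c ∈ A) : algebraMap Qb ↥(modularFunctionFieldBar N) c ∈ R.O := by
  subst hRA
  exact (R.mem_iff c).mp hc

/-- a constant fixed by `σ` is fixed by `arithmeticGalois σ`. -/
theorem h11_const_fixed (N : ℕ) (c : Qb) (σ : Γℚ) (hσ : σ c = c) :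
    arithmeticGalois (modularFunctionFieldFull N) σ •
        algebraMap Qb ↥(modularFunctionFieldBar N) c =
      algebraMap Qb ↥(modularFunctionFieldBar N) c := by
  rw [SemilinearAut.smul_algebraMap, baseAut_arithmeticGalois]
  exact congrArg _ hσ

/-- the inverse of a constant function. -/
theorem h11_const_inv (N : ℕ) (c : Qb) :
    (algebraMap Qb ↥(modularFunctionFieldBar N) c)⁻¹ =
      algebraMap Qb ↥(modularFunctionFieldBar N) c⁻¹ := (map_inv₀ _ c).symm

/-- **The constants of a W0 pair in a reduction datum over `A`** (any level `N`): the functions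
`η = p / w^p`, `η⁻¹`, `w`, `z`, `p` lie in `R.O`; `η`, `η⁻¹`, `w` are fixed by the stabiliser
of `w`, and `z`, `p` by the whole inertia group. -/
theorem h11_eta_datum (N : ℕ) (p : ℕ) [Fact p.Prime] (hp2 : p ≠ 2) (A : ValuationSubring Qb)
    (hA : A.LiesOverPrime p) (ζ : Qb) (hζ : IsPrimitiveRoot ζ p) (z w : Qb)
    (hz : A.valuation z = 1) (hzI : ∀ g ∈ A.inertiaSubgroupIn ℚ, g z = z)
    (hw : (1 + w) ^ p = 1 + (p : Qb) * z)
    (R : h39_RedDatum Qb ↥(modularFunctionFieldBar N) k Fb) (hRA : R.A = A) :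
    (algebraMap Qb ↥(modularFunctionFieldBar N) ((p : Qb) / w ^ p) ∈ R.O ∧
      (algebraMap Qb ↥(modularFunctionFieldBar N) ((p : Qb) / w ^ p))⁻¹ ∈ R.O ∧
      algebraMap Qb ↥(modularFunctionFieldBar N) w ∈ R.O ∧
      algebraMap Qb ↥(modularFunctionFieldBar N) z ∈ R.O ∧
      algebraMap Qb ↥(modularFunctionFieldBar N) (p : Qb) ∈ R.O) ∧
    (∀ σ : Γℚ, σ w = w →
      arithmeticGalois (modularFunctionFieldFull N) σ •
          algebraMap Qb ↥(modularFunctionFieldBar N) ((p : Qb) / w ^ p) =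
        algebraMap Qb ↥(modularFunctionFieldBar N) ((p : Qb) / w ^ p) ∧
      arithmeticGalois (modularFunctionFieldFull N) σ •
          (algebraMap Qb ↥(modularFunctionFieldBar N) ((p : Qb) / w ^ p))⁻¹ =
        (algebraMap Qb ↥(modularFunctionFieldBar N) ((p : Qb) / w ^ p))⁻¹ ∧
      arithmeticGalois (modularFunctionFieldFull N) σ •
          algebraMap Qb ↥(modularFunctionFieldBar N) w =
        algebraMap Qb ↥(modularFunctionFieldBar N) w) ∧
    (∀ σ ∈ A.inertiaSubgroupIn ℚ,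
      arithmeticGalois (modularFunctionFieldFull N) σ •
          algebraMap Qb ↥(modularFunctionFieldBar N) z =
        algebraMap Qb ↥(modularFunctionFieldBar N) z) ∧
    (∀ σ : Γℚ,
      arithmeticGalois (modularFunctionFieldFull N) σ •
          algebraMap Qb ↥(modularFunctionFieldBar N) (p : Qb) =
        algebraMap Qb ↥(modularFunctionFieldBar N) (p : Qb)) := by
  obtain ⟨-, -, h3, h4, -, h6, -, h8, -, h10, h11⟩ :=
    h11_eta_spec p hp2 A hA ζ hζ z w hz hzI hw
  refine ⟨⟨h11_const_mem N A R hRA h3, ?_, h11_const_mem N A R hRA h8,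
    h11_const_mem N A R hRA h11, h11_const_mem N A R hRA h10⟩, fun σ hσ => ⟨?_, ?_, ?_⟩,
    fun σ hσ => h11_const_fixed N z σ (hzI σ hσ),
    fun σ => h11_const_fixed N (p : Qb) σ (map_natCast σ p)⟩
  · rw [h11_const_inv]
    exact h11_const_mem N A R hRA h4
  · exact h11_const_fixed N _ σ (h6 σ hσ)
  · rw [h11_const_inv]
    refine h11_const_fixed N _ σ ?_
    rw [map_inv₀, h6 σ hσ]
  · exact h11_const_fixed N w σ hσ

end Modular

end Fermat.Agent.S40
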