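/-
S40 / G40, (TR) table v2, row W1 (INTERP + MIN), generic core (helper28).  Mathlib only.

`F` a field, `G` a group acting by ring automorphisms `ρ : G →* (F ≃+* F)`, `w : F` whose
`G`-orbit is `{ρ (g i) w : i < p}` (`p` distinct elements), `H = Stab_G(w)`.

* (INTERP) every `H`-fixed `f` is `∑_{j<p} c_j w^j` with `c_j = h28_coef ρ p w g f j` fixed by
  all of `G` (`h28_coef_fixed`, `h28_coef_sum`); the `c_j` are unique (`h28_coef_unique`) and lie
  in every additive subgroup stable under the constants that contains the conjugates of `f`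
  (`h28_coef_mem`).
* (MIN) for a valuation `v` with `v w ^ p = v π < 1` and `v (c_j) ∈ v(π)^ℤ`:
  every term is dominated by the sum (`h28_min_le`), the value group (`h28_min_val`),
  integrality passes to the coefficients (`h28_min_mem`) and an integral sum is
  `c_0 + c_1 w` modulo `w² O` (`h28_min_jet`).
* consumer forms `h28_interp_jet`, `h28_interp_res`, orbit representatives from the Kummer
  shape `γ (1 + w) = ζ^j (1 + w)` (`h28_orbit_of_kummer`), transport of valuation equalities of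
  constants (`h28_val_transport`).
-/
import Mathlib

set_option autoImplicit false

namespace Fermat.Agent.S40

open Finset Polynomial

variable {F : Type*} [Field F] {G : Type*} [Group G]

/-- the interpolation polynomial of the conjugates of `f` at the conjugates of `w`. -/
noncomputable def h28_ipol (ρ : G →* (F ≃+* F)) (p : ℕ) (w : F) (g : Fin p → G) (f : F) : F[X] :=
  Lagrange.interpolate Finset.univ (fun i => ρ (g i) w) (fun i => ρ (g i) f)

/-- (W1, INTERP) the `j`-th coefficient of `f` in the basis `1, w, …, w^(p-1)`. -/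
noncomputable def h28_coef (ρ : G →* (F ≃+* F)) (p : ℕ) (w : F) (g : Fin p → G) (f : F)
    (j : ℕ) : F :=
  (h28_ipol ρ p w g f).coeff j

theorem h28_ipol_degree (ρ : G →* (F ≃+* F)) (p : ℕ) (w : F) (g : Fin p → G)
    (hdist : Function.Injective fun i => ρ (g i) w) (f : F) :
    (h28_ipol ρ p w g f).degree < p := by
  have h := Lagrange.degree_interpolate_lt (s := (Finset.univ : Finset (Fin p)))
    (v := fun i => ρ (g i) w) (fun i => ρ (g i) f) (hdist.injOn)
  simpa [h28_ipol] using h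

theorem h28_ipol_eval (ρ : G →* (F ≃+* F)) (p : ℕ) (w : F) (g : Fin p → G)
    (hdist : Function.Injective fun i => ρ (g i) w) (f : F) (i : Fin p) :
    (h28_ipol ρ p w g f).eval (ρ (g i) w) = ρ (g i) f := by
  have h := Lagrange.eval_interpolate_at_node (s := (Finset.univ : Finset (Fin p)))
    (v := fun i => ρ (g i) w) (fun i => ρ (g i) f) (hdist.injOn) (Finset.mem_univ i)
  simpa [h28_ipol] using h

theorem h28_ipol_map (ρ : G →* (F ≃+* F)) (p : ℕ) (w : F) (g : Fin p → G)
    (hdist : Function.Injective fun i => ρ (g i) w)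
    (horb : ∀ γ : G, ∃ i, ρ γ w = ρ (g i) w)
    (f : F) (hf : ∀ γ : G, ρ γ w = w → ρ γ f = f) (γ : G) :
    (h28_ipol ρ p w g f).map (ρ γ : F →+* F) = h28_ipol ρ p w g f := by
  have hdeg := h28_ipol_degree ρ p w g hdist f
  refine Polynomial.eq_of_degrees_lt_of_eval_index_eq (Finset.univ : Finset (Fin p))
    (v := fun i => ρ (g i) w) hdist.injOn ?_ ?_ ?_
  · rw [Finset.card_univ, Fintype.card_fin]
    exact lt_of_le_of_lt (Polynomial.degree_map_le) hdeg
  · rw [Finset.card_univ, Fintype.card_fin]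
    exact hdeg
  · intro i' _
    obtain ⟨i, hi⟩ := horb (γ⁻¹ * g i')
    -- ρ γ (ρ (g i) w) = ρ (g i') w
    have h1 : ρ γ (ρ (g i) w) = ρ (g i') w := by
      rw [← hi, map_mul, RingAut.mul_apply, ← RingAut.mul_apply, ← map_mul, mul_inv_cancel,
        map_one, RingAut.one_apply]
    -- the element h := (g i')⁻¹ γ (g i) fixes w
    have h2 : ρ ((g i')⁻¹ * γ * g i) w = w := by
      rw [map_mul, map_mul, RingAut.mul_apply, RingAut.mul_apply, h1, ← RingAut.mul_apply,
        ← map_mul, inv_mul_cancel, map_one, RingAut.one_apply]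
    have h3 : ρ ((g i')⁻¹ * γ * g i) f = f := hf _ h2
    have h4 : ρ γ (ρ (g i) f) = ρ (g i') f := by
      have : ρ (g i') (ρ ((g i')⁻¹ * γ * g i) f) = ρ γ (ρ (g i) f) := by
        rw [← RingAut.mul_apply, ← map_mul, ← RingAut.mul_apply, ← map_mul]
        congr 2
        group
      rw [← this, h3]
    show ((h28_ipol ρ p w g f).map (ρ γ : F →+* F)).eval (ρ (g i') w) = _
    rw [h28_ipol_eval ρ p w g hdist f i', ← h1, Polynomial.eval_map,
      show (ρ γ) ((ρ (g i)) w) = (ρ γ : F →+* F) ((ρ (g i)) w) from rfl,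
      Polynomial.eval₂_at_apply, h28_ipol_eval ρ p w g hdist f i]
    exact h4

theorem h28_coef_fixed (ρ : G →* (F ≃+* F)) (p : ℕ) (w : F) (g : Fin p → G)
    (hdist : Function.Injective fun i => ρ (g i) w)
    (horb : ∀ γ : G, ∃ i, ρ γ w = ρ (g i) w)
    (f : F) (hf : ∀ γ : G, ρ γ w = w → ρ γ f = f) (j : ℕ) (γ : G) :
    ρ γ (h28_coef ρ p w g f j) = h28_coef ρ p w g f j := by
  have h := h28_ipol_map ρ p w g hdist horb f hf γ
  have h2 := congrArg (fun P => P.coeff j) h
  simp only [Polynomial.coeff_map] at h2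
  exact h2

theorem h28_coef_sum (ρ : G →* (F ≃+* F)) (p : ℕ) (w : F) (g : Fin p → G)
    (hdist : Function.Injective fun i => ρ (g i) w)
    (horb : ∀ γ : G, ∃ i, ρ γ w = ρ (g i) w)
    (f : F) (hf : ∀ γ : G, ρ γ w = w → ρ γ f = f) :
    f = ∑ j ∈ range p, h28_coef ρ p w g f j * w ^ j := by
  obtain ⟨i0, hi0⟩ := horb 1
  rw [map_one, RingAut.one_apply] at hi0
  have h1 : ρ (g i0) f = f := hf _ hi0.symm
  have h2 := h28_ipol_eval ρ p w g hdist f i0
  rw [← hi0, h1] at h2
  have hdeg := h28_ipol_degree ρ p w g hdist f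
  by_cases hP : h28_ipol ρ p w g f = 0
  · rw [hP, Polynomial.eval_zero] at h2
    have hs : ∑ j ∈ range p, h28_coef ρ p w g f j * w ^ j = 0 := by
      apply Finset.sum_eq_zero
      intro j _
      unfold h28_coef
      rw [hP, Polynomial.coeff_zero, zero_mul]
    rw [hs]
    exact h2.symm
  · have hnat : (h28_ipol ρ p w g f).natDegree < p := by
      rwa [Polynomial.natDegree_lt_iff_degree_lt hP]
    rw [Polynomial.eval_eq_sum_range' hnat] at h2
    exact h2.symm

/-- polynomials with coefficients in the subfield `C`. -/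
theorem h28_coeff_mem_of_range (C : Subfield F) (q : F[X])
    (hq : q ∈ (Polynomial.mapRingHom C.subtype).range) (j : ℕ) : q.coeff j ∈ C := by
  obtain ⟨q', rfl⟩ := hq
  rw [Polynomial.coe_mapRingHom, Polynomial.coeff_map]
  exact (q'.coeff j).2

theorem h28_C_mem_range (C : Subfield F) (a : F) (ha : a ∈ C) :
    (Polynomial.C a : F[X]) ∈ (Polynomial.mapRingHom C.subtype).range :=
  ⟨Polynomial.C ⟨a, ha⟩, by rw [Polynomial.coe_mapRingHom, Polynomial.map_C]; rfl⟩

theorem h28_X_mem_range (C : Subfield F) :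
    (Polynomial.X : F[X]) ∈ (Polynomial.mapRingHom C.subtype).range :=
  ⟨Polynomial.X, by rw [Polynomial.coe_mapRingHom, Polynomial.map_X]⟩

theorem h28_basis_mem_range (C : Subfield F) {ι : Type*} [DecidableEq ι] (s : Finset ι)
    (v : ι → F) (hv : ∀ i, v i ∈ C) (i : ι) :
    Lagrange.basis s v i ∈ (Polynomial.mapRingHom C.subtype).range := by
  unfold Lagrange.basis
  refine Subring.prod_mem _ ?_
  intro j _
  unfold Lagrange.basisDivisor
  refine Subring.mul_mem _ (h28_C_mem_range C _ (C.inv_mem (C.sub_mem (hv i) (hv j)))) ?_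
  exact Subring.sub_mem _ (h28_X_mem_range C) (h28_C_mem_range C _ (hv j))

theorem h28_coef_mem (ρ : G →* (F ≃+* F)) (p : ℕ) (w : F) (g : Fin p → G) (f : F)
    (C : Subfield F) (hC : ∀ i, ρ (g i) w ∈ C)
    (S : AddSubgroup F) (hSC : ∀ a ∈ C, ∀ s ∈ S, a * s ∈ S) (hSρ : ∀ i, ρ (g i) f ∈ S) (j : ℕ) :
    h28_coef ρ p w g f j ∈ S := by
  unfold h28_coef h28_ipol
  rw [Lagrange.interpolate_apply, Polynomial.finsetSum_coeff]
  refine S.sum_mem ?_
  intro i _
  rw [Polynomial.coeff_C_mul, mul_comm]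
  exact hSC _ (h28_coeff_mem_of_range C _
    (h28_basis_mem_range C Finset.univ (fun i => ρ (g i) w) hC i) j) _ (hSρ i)

theorem h28_coef_unique (ρ : G →* (F ≃+* F)) (p : ℕ) (w : F) (g : Fin p → G)
    (hdist : Function.Injective fun i => ρ (g i) w)
    (c : ℕ → F) (hc : ∀ j (γ : G), ρ γ (c j) = c j)
    (h0 : ∑ j ∈ range p, c j * w ^ j = 0) : ∀ j < p, c j = 0 := by
  set Q : F[X] := ∑ j : Fin p, Polynomial.C (c j) * Polynomial.X ^ (j : ℕ) with hQ
  have hdeg : Q.degree < p := Polynomial.degree_sum_fin_lt (fun j : Fin p => c j)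
  have hQ0 : Q = 0 := by
    refine Polynomial.eq_zero_of_degree_lt_of_eval_index_eq_zero (Finset.univ : Finset (Fin p))
      (v := fun i => ρ (g i) w) hdist.injOn ?_ ?_
    · rw [Finset.card_univ, Fintype.card_fin]
      exact hdeg
    · intro i _
      have h1 := congrArg (ρ (g i)) h0
      rw [map_sum, map_zero] at h1
      rw [hQ, Polynomial.eval_finsetSum, ← h1, Finset.sum_range]
      refine Finset.sum_congr rfl ?_
      intro j _
      rw [Polynomial.eval_mul, Polynomial.eval_C, Polynomial.eval_pow, Polynomial.eval_X,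
        map_mul, map_pow, hc]
  intro j hj
  have h2 := congrArg (fun P => P.coeff j) hQ0
  simp only [hQ, Polynomial.finsetSum_coeff, Polynomial.coeff_C_mul_X_pow,
    Polynomial.coeff_zero] at h2
  rw [Finset.sum_eq_single (⟨j, hj⟩ : Fin p)] at h2
  · simpa using h2
  · intro b _ hb
    rw [if_neg]
    intro h
    exact hb (Fin.ext h.symm)
  · intro h
    exact absurd (Finset.mem_univ _) h

variable {Γ₀ : Type*} [LinearOrderedCommGroupWithZero Γ₀]

/-- valuation of a sum whose nonzero terms have pairwise distinct valuations. -/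
theorem h28_val_sum_sup (v : Valuation F Γ₀) {ι : Type*} [DecidableEq ι] (S : Finset ι)
    (f : ι → F)
    (hd : ∀ i ∈ S, ∀ j ∈ S, i ≠ j → f i ≠ 0 → v (f i) ≠ v (f j)) :
    v (∑ i ∈ S, f i) = S.sup (fun i => v (f i)) := by
  induction S using Finset.induction_on with
  | empty => rw [Finset.sum_empty, map_zero, Finset.sup_empty]; exact bot_eq_zero.symm
  | insert a S ha ih =>
    have ih' := ih (fun i hi j hj => hd i (mem_insert_of_mem hi) j (mem_insert_of_mem hj))
    rw [Finset.sum_insert ha, Finset.sup_insert]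
    by_cases h0 : f a = 0
    · rw [h0, zero_add, map_zero, ih']
      exact (zero_max _).symm
    · have hne : v (f a) ≠ v (∑ i ∈ S, f i) := by
        rcases S.eq_empty_or_nonempty with hS | hS
        · subst hS
          rw [Finset.sum_empty, map_zero]
          exact (Valuation.ne_zero_iff v).2 h0
        · rw [ih']
          obtain ⟨j, hj, hsup⟩ := Finset.exists_mem_eq_sup S hS (fun i => v (f i))
          rw [hsup]
          exact hd a (mem_insert_self a S) j (mem_insert_of_mem hj)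
            (fun h => ha (h ▸ hj)) h0
      rw [Valuation.map_add_of_distinct_val v hne, ih']

section min

variable (v : Valuation F Γ₀) (p : ℕ) (π w : F) (hπ0 : π ≠ 0) (hπ : v π < 1)
  (hw : v w ^ p = v π)

include hπ hw in
theorem h28_min_p_ne_zero : p ≠ 0 := by
  rintro rfl
  rw [pow_zero] at hw
  rw [← hw] at hπ
  exact lt_irrefl _ hπ

include hπ0 hπ hw in
theorem h28_min_vw_ne_zero : v w ≠ 0 := by
  intro h
  have hp := h28_min_p_ne_zero v p π w hπ hw
  rw [h, zero_pow hp] at hw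
  exact (Valuation.ne_zero_iff v).2 hπ0 hw.symm

include hπ hw in
theorem h28_min_vw_lt_one : v w < 1 := by
  by_contra h
  rw [not_lt] at h
  have : (1 : Γ₀) ≤ v w ^ p := one_le_pow₀ h
  rw [hw] at this
  exact absurd hπ (not_lt.mpr this)

include hπ0 hπ hw in
/-- the valuation of a term `c * w ^ j` as an integer power of `v w`. -/
theorem h28_min_term (c : F) (m : ℤ) (hc : v c = v π ^ m) (j : ℕ) :
    v (c * w ^ j) = v w ^ ((p : ℤ) * m + j) := by
  have hw0 := h28_min_vw_ne_zero v p π w hπ0 hπ hw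
  rw [map_mul, map_pow, hc, ← hw, zpow_add₀ hw0, zpow_mul, zpow_natCast, zpow_natCast]

include hπ0 hπ hw in
theorem h28_min_sup (c : ℕ → F)
    (hc : ∀ j < p, c j ≠ 0 → ∃ m : ℤ, v (c j) = v π ^ m) :
    v (∑ j ∈ range p, c j * w ^ j) = (range p).sup (fun j => v (c j * w ^ j)) := by
  have hw0 := h28_min_vw_ne_zero v p π w hπ0 hπ hw
  have hw1 := h28_min_vw_lt_one v p π w hπ hw
  have hwne : w ≠ 0 := (Valuation.ne_zero_iff v).1 hw0
  apply h28_val_sum_sup
  intro i hi j hj hij hfi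
  rw [Finset.mem_range] at hi hj
  by_cases hfj : c j * w ^ j = 0
  · rw [hfj, map_zero]
    exact (Valuation.ne_zero_iff v).2 hfi
  have hci : c i ≠ 0 := fun h => hfi (by rw [h, zero_mul])
  have hcj : c j ≠ 0 := fun h => hfj (by rw [h, zero_mul])
  obtain ⟨m, hm⟩ := hc i hi hci
  obtain ⟨m', hm'⟩ := hc j hj hcj
  rw [h28_min_term v p π w hπ0 hπ hw (c i) m hm i, h28_min_term v p π w hπ0 hπ hw (c j) m' hm' j]
  intro h
  have hinj := zpow_right_injective₀ (zero_lt_iff.mpr hw0) hw1.ne h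
  have h1 : ((p : ℤ) * m + i) % p = ((p : ℤ) * m' + j) % p := by rw [hinj]
  rw [add_comm, Int.add_mul_emod_self_left, add_comm ((p : ℤ) * m'), Int.add_mul_emod_self_left,
    Int.emod_eq_of_lt (Int.natCast_nonneg i) (by exact_mod_cast hi),
    Int.emod_eq_of_lt (Int.natCast_nonneg j) (by exact_mod_cast hj)] at h1
  exact hij (by exact_mod_cast h1)

include hπ0 hπ hw in
/-- (W1, MIN) every term is dominated by the sum. -/
theorem h28_min_le (c : ℕ → F)
    (hc : ∀ j < p, c j ≠ 0 → ∃ m : ℤ, v (c j) = v π ^ m) :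
    ∀ j < p, v (c j * w ^ j) ≤ v (∑ j ∈ range p, c j * w ^ j) := by
  intro j hj
  rw [h28_min_sup v p π w hπ0 hπ hw c hc]
  exact Finset.le_sup (f := fun j => v (c j * w ^ j)) (Finset.mem_range.mpr hj)

include hπ0 hπ hw in
/-- (W1, MIN-VAL) the value group of the sums. -/
theorem h28_min_val (c : ℕ → F)
    (hc : ∀ j < p, c j ≠ 0 → ∃ m : ℤ, v (c j) = v π ^ m)
    (h0 : ∑ j ∈ range p, c j * w ^ j ≠ 0) :
    ∃ j < p, ∃ m : ℤ, v (∑ j ∈ range p, c j * w ^ j) = v π ^ m * v w ^ j := by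
  have hp := h28_min_p_ne_zero v p π w hπ hw
  have hne : (range p).Nonempty := Finset.nonempty_range_iff.mpr hp
  obtain ⟨j, hj, hsup⟩ := Finset.exists_mem_eq_sup (range p) hne (fun j => v (c j * w ^ j))
  have hs := h28_min_sup v p π w hπ0 hπ hw c hc
  rw [hsup] at hs
  rw [Finset.mem_range] at hj
  have hcj : c j ≠ 0 := by
    intro h
    rw [h, zero_mul, map_zero] at hs
    exact h0 ((map_eq_zero v).1 hs)
  obtain ⟨m, hm⟩ := hc j hj hcj
  exact ⟨j, hj, m, by rw [hs, map_mul, map_pow, hm]⟩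

include hπ0 hπ hw in
/-- (W1, MIN-MEM) integrality passes to the coefficients. -/
theorem h28_min_mem (c : ℕ → F)
    (hc : ∀ j < p, c j ≠ 0 → ∃ m : ℤ, v (c j) = v π ^ m)
    (hf : v (∑ j ∈ range p, c j * w ^ j) ≤ 1) : ∀ j < p, v (c j) ≤ 1 := by
  intro j hj
  by_cases hcj : c j = 0
  · rw [hcj, map_zero]
    exact zero_le_one
  obtain ⟨m, hm⟩ := hc j hj hcj
  have hw0 := h28_min_vw_ne_zero v p π w hπ0 hπ hw
  have hw1 := h28_min_vw_lt_one v p π w hπ hw
  have h1 := le_trans (h28_min_le v p π w hπ0 hπ hw c hc j hj) hf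
  rw [h28_min_term v p π w hπ0 hπ hw (c j) m hm j] at h1
  have h2 : (0 : ℤ) ≤ (p : ℤ) * m + j := by
    by_contra hneg
    rw [not_le] at hneg
    have : (1 : Γ₀) < v w ^ ((p : ℤ) * m + j) :=
      one_lt_zpow_of_neg₀ (zero_lt_iff.mpr hw0) hw1 hneg
    exact absurd h1 (not_le.mpr this)
  have hm0 : 0 ≤ m := by
    by_contra hneg
    rw [not_le] at hneg
    have h3 : (p : ℤ) * m ≤ (p : ℤ) * (-1) :=
      mul_le_mul_of_nonneg_left (by omega) (Int.natCast_nonneg p)
    have h4 : (j : ℤ) < p := by exact_mod_cast hj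
    omega
  obtain ⟨n, rfl⟩ := Int.eq_ofNat_of_zero_le hm0
  rw [hm, zpow_natCast]
  exact pow_le_one₀ zero_le hπ.le

include hπ0 hπ hw in
/-- (W1, MIN-JET) an integral sum is `c 0 + c 1 * w` modulo `w ^ 2 * O`. -/
theorem h28_min_jet (hp2 : 2 ≤ p) (c : ℕ → F)
    (hc : ∀ j < p, c j ≠ 0 → ∃ m : ℤ, v (c j) = v π ^ m)
    (hf : v (∑ j ∈ range p, c j * w ^ j) ≤ 1) :
    ∃ t : F, v t ≤ 1 ∧ (∀ j < p, v (c j) ≤ 1) ∧
      ∑ j ∈ range p, c j * w ^ j = c 0 + c 1 * w + w ^ 2 * t ∧
      t = ∑ j ∈ range (p - 2), c (j + 2) * w ^ j := by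
  have hmem := h28_min_mem v p π w hπ0 hπ hw c hc hf
  have hw1 := h28_min_vw_lt_one v p π w hπ hw
  refine ⟨∑ j ∈ range (p - 2), c (j + 2) * w ^ j, ?_, hmem, ?_, rfl⟩
  · refine Valuation.map_sum_le v ?_
    intro j hj
    rw [Finset.mem_range] at hj
    rw [map_mul, map_pow]
    exact mul_le_one' (hmem (j + 2) (by omega)) (pow_le_one₀ zero_le hw1.le)
  · obtain ⟨n, rfl⟩ : ∃ n, p = n + 2 := ⟨p - 2, by omega⟩
    rw [Finset.sum_range_succ', Finset.sum_range_succ', Nat.add_sub_cancel, Finset.mul_sum]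
    have : ∀ j ∈ range n, c (j + 1 + 1) * w ^ (j + 1 + 1) = w ^ 2 * (c (j + 2) * w ^ j) := by
      intro j _
      ring
    rw [Finset.sum_congr rfl this]
    ring

end min

/-! ### Consumer forms -/

/-- (W1) INTERP + MIN + JET for one valuation: the coefficients `h28_coef … 0`, `h28_coef … 1`
(which do not depend on the valuation) are integral and `f ≡ c₀ + c₁ w` modulo `w² O`. -/
theorem h28_interp_jet (ρ : G →* (F ≃+* F)) (p : ℕ) (hp2 : 2 ≤ p) (w : F) (g : Fin p → G)
    (hdist : Function.Injective fun i => ρ (g i) w)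
    (horb : ∀ γ : G, ∃ i, ρ γ w = ρ (g i) w)
    (f : F) (hf : ∀ γ : G, ρ γ w = w → ρ γ f = f)
    (v : Valuation F Γ₀) (π : F) (hπ0 : π ≠ 0) (hπ : v π < 1) (hw : v w ^ p = v π)
    (hint : ∀ c : F, (∀ γ : G, ρ γ c = c) → c ≠ 0 → ∃ m : ℤ, v c = v π ^ m)
    (hfv : v f ≤ 1) :
    (∀ j, v (h28_coef ρ p w g f j) ≤ 1) ∧
    ∃ t : F, v t ≤ 1 ∧
      f = h28_coef ρ p w g f 0 + h28_coef ρ p w g f 1 * w + w ^ 2 * t := by
  have hsum := h28_coef_sum ρ p w g hdist horb f hf
  have hc : ∀ j < p, h28_coef ρ p w g f j ≠ 0 →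
      ∃ m : ℤ, v (h28_coef ρ p w g f j) = v π ^ m :=
    fun j _ h0 => hint _ (fun γ => h28_coef_fixed ρ p w g hdist horb f hf j γ) h0
  have hfv' : v (∑ j ∈ range p, h28_coef ρ p w g f j * w ^ j) ≤ 1 := by rw [← hsum]; exact hfv
  obtain ⟨t, ht, hmem, hjet, -⟩ :=
    h28_min_jet v p π w hπ0 hπ hw hp2 (h28_coef ρ p w g f) hc hfv'
  refine ⟨?_, t, ht, ?_⟩
  · intro j
    by_cases hj : j < p
    · exact hmem j hj
    · -- coefficients beyond the degree vanish
      have hdeg := h28_ipol_degree ρ p w g hdist f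
      have : h28_coef ρ p w g f j = 0 := by
        unfold h28_coef
        exact Polynomial.coeff_eq_zero_of_degree_lt
          (lt_of_lt_of_le hdeg (by exact_mod_cast not_lt.mp hj))
      rw [this, map_zero]
      exact zero_le_one
  · rw [← hjet]
    exact hsum

/-- (W1) the residue of an integral `f` is the residue of its constant coefficient. -/
theorem h28_interp_res (ρ : G →* (F ≃+* F)) (p : ℕ) (hp2 : 2 ≤ p) (w : F) (g : Fin p → G)
    (hdist : Function.Injective fun i => ρ (g i) w)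
    (horb : ∀ γ : G, ∃ i, ρ γ w = ρ (g i) w)
    (f : F) (hf : ∀ γ : G, ρ γ w = w → ρ γ f = f)
    (v : Valuation F Γ₀) (π : F) (hπ0 : π ≠ 0) (hπ : v π < 1) (hw : v w ^ p = v π)
    (hint : ∀ c : F, (∀ γ : G, ρ γ c = c) → c ≠ 0 → ∃ m : ℤ, v c = v π ^ m)
    (hfv : v f ≤ 1) :
    v (f - h28_coef ρ p w g f 0) < 1 := by
  obtain ⟨hmem, t, ht, hjet⟩ :=
    h28_interp_jet ρ p hp2 w g hdist horb f hf v π hπ0 hπ hw hint hfv
  have hw1 := h28_min_vw_lt_one v p π w hπ hw
  have h1 : f - h28_coef ρ p w g f 0 = w * (h28_coef ρ p w g f 1 + w * t) := by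
    linear_combination hjet
  rw [h1, map_mul]
  have h2 : v (h28_coef ρ p w g f 1 + w * t) ≤ 1 := by
    refine le_trans (Valuation.map_add v _ _) (max_le (hmem 1) ?_)
    rw [map_mul]
    exact mul_le_one' hw1.le ht
  calc v w * v (h28_coef ρ p w g f 1 + w * t) ≤ v w * 1 := by gcongr
    _ = v w := mul_one _
    _ < 1 := hw1

/-- orbit representatives from the Kummer shape of the orbit (the output of W0 (c)):
`γ (1 + w) = ζ ^ j * (1 + w)`, every `j` occurring. -/
theorem h28_orbit_of_kummer (ρ : G →* (F ≃+* F)) (p : ℕ) (ζ w : F) (hζ : IsPrimitiveRoot ζ p)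
    (hp : p ≠ 0) (hw1 : 1 + w ≠ 0)
    (h1 : ∀ γ : G, ∃ j : ℕ, ρ γ (1 + w) = ζ ^ j * (1 + w))
    (h2 : ∀ j : ℕ, ∃ γ : G, ρ γ (1 + w) = ζ ^ j * (1 + w)) :
    ∃ g : Fin p → G, (Function.Injective fun i => ρ (g i) w) ∧
      (∀ γ : G, ∃ i, ρ γ w = ρ (g i) w) ∧
      ∀ i : Fin p, ρ (g i) (1 + w) = ζ ^ (i : ℕ) * (1 + w) := by
  choose g0 hg0 using h2
  have hsub : ∀ γ γ' : G, ρ γ (1 + w) = ρ γ' (1 + w) → ρ γ w = ρ γ' w := by
    intro γ γ' h
    rw [map_add, map_add, map_one, map_one] at h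
    exact add_left_cancel h
  have hadd : ∀ γ γ' : G, ρ γ w = ρ γ' w → ρ γ (1 + w) = ρ γ' (1 + w) := by
    intro γ γ' h
    rw [map_add, map_add, map_one, map_one, h]
  refine ⟨fun i => g0 i, ?_, ?_, fun i => hg0 i⟩
  · intro i i' h
    have h3 := hadd _ _ h
    rw [hg0, hg0] at h3
    have h4 : ζ ^ (i : ℕ) = ζ ^ (i' : ℕ) := mul_right_cancel₀ hw1 h3
    exact Fin.ext (hζ.pow_inj i.2 i'.2 h4)
  · intro γ
    obtain ⟨j, hj⟩ := h1 γ
    have hjp : j % p < p := Nat.mod_lt _ (Nat.pos_of_ne_zero hp)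
    refine ⟨⟨j % p, hjp⟩, hsub _ _ ?_⟩
    rw [hj, hg0]
    congr 1
    show ζ ^ j = ζ ^ (j % p)
    conv_lhs => rw [← Nat.div_add_mod j p, pow_add, pow_mul, hζ.pow_eq_one, one_pow, one_mul]

/-- transport of an equality of valuations of constants from `A` to a valuation ring `O` of `F`
with `O ∩ K = A`. -/
theorem h28_val_transport {K : Type*} [Field K] [Algebra K F] (A : ValuationSubring K)
    (O : ValuationSubring F) (hmem : ∀ a : K, a ∈ A ↔ algebraMap K F a ∈ O) (a b : K)
    (h : A.valuation a = A.valuation b) :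
    O.valuation (algebraMap K F a) = O.valuation (algebraMap K F b) := by
  by_cases hb : b = 0
  · have ha : a = 0 := by
      rw [hb, map_zero] at h
      exact (map_eq_zero _).1 h
    rw [ha, hb]
  have ha : a ≠ 0 := by
    intro ha
    rw [ha, map_zero] at h
    exact hb ((map_eq_zero _).1 h.symm)
  have h1 : a / b ∈ A := by
    rw [← ValuationSubring.valuation_le_one_iff, map_div₀, h,
      div_self ((Valuation.ne_zero_iff _).2 hb)]
  have h2 : b / a ∈ A := by
    rw [← ValuationSubring.valuation_le_one_iff, map_div₀, h,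
      div_self ((Valuation.ne_zero_iff _).2 hb)]
  have h1' := (hmem _).1 h1
  have h2' := (hmem _).1 h2
  rw [map_div₀, ← ValuationSubring.valuation_le_one_iff, map_div₀] at h1' h2'
  have hb' : O.valuation (algebraMap K F b) ≠ 0 :=
    (Valuation.ne_zero_iff _).2 (by rwa [Ne, map_eq_zero_iff _ (algebraMap K F).injective])
  have ha' : O.valuation (algebraMap K F a) ≠ 0 :=
    (Valuation.ne_zero_iff _).2 (by rwa [Ne, map_eq_zero_iff _ (algebraMap K F).injective])
  exact le_antisymm ((div_le_one₀ (zero_lt_iff.mpr hb')).1 h1')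
    ((div_le_one₀ (zero_lt_iff.mpr ha')).1 h2')

end Fermat.Agent.S40
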