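import Mathlib
import Fermat.Agent.S18.GR_ChartPt
import Fermat.Agent.S18.RR_Riemann
import Fermat.Agent.S27.Trunc

/-!
# S40 / (TR) count route, row W7 (W-JUMP), generic half (helper25)

Place-language core of step (C4) of the twist count (board #3534): no lattice, no modular input.
`k` is the residue field, `Fb / k` the residue function field; values at places are
`h39_Val Q f c` ("the value of `f` at `Q` is `c`").

* `h25_val_div` : values of quotients.
* `h25_node_jet_val` (J1) : if the two jet coefficients `(h₀, h₁)` of a tube unit have the same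
  values at the two branch points of a node and the value of `h₀` is nonzero, then the two
  logarithmic jets `h₁ / h₀` are regular at the node with the same value.
* `h25_const_of_regular` (J2) : a function regular at every place is constant.
* `h25_jump_val` (J4) : bookkeeping of the `Ω`-rules: from the values of the jets of
  `H = f^p u⁻¹ w^N (a/p)^δ` to the jump relation for `u`.
* `h25_jump_const` : `Ω₁(u)`, `Ω₂(u)` regular everywhere with the jump relation at every node are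
  constants `Γ₁`, `Γ₂` with `Γ₂ - Γ₁ = m_x λ` at every node.
* `h25_jump_end` (J3) : `λ ≠ 0` gives `p ∣ m_x - m_y`.
* `h25_jump_top` : the three steps in one statement.
-/

set_option autoImplicit false

noncomputable section

open AlgebraicCurve Fermat.Agent.S18 Fermat.Agent.S24 Fermat.Agent.S27

namespace Fermat.Agent.S40

variable {k Fb : Type*} [Field k] [Field Fb] [Algebra k Fb]

/-- Values of quotients. -/
theorem h25_val_div (Q : Place k Fb) {f g : Fb} {b c : k} (hf : h39_Val Q f b)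
    (hg : h39_Val Q g c) (hc : c ≠ 0) : h39_Val Q (f / g) (b / c) := by
  rw [div_eq_mul_inv, div_eq_mul_inv]
  exact h39_val_mul Q hf (h69_val_inv Q hg hc)

/-- Values of negatives. -/
theorem h25_val_neg (Q : Place k Fb) {f : Fb} {b : k} (hf : h39_Val Q f b) :
    h39_Val Q (-f) (-b) := by
  have h := h39_val_mul Q (h39_val_algebraMap Q (-1 : k)) hf
  have e1 : algebraMap k Fb (-1) * f = -f := by
    rw [map_neg, map_one, neg_one_mul]
  rw [e1, neg_one_mul] at h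
  exact h

/-- Values of differences. -/
theorem h25_val_sub (Q : Place k Fb) {f g : Fb} {b c : k} (hf : h39_Val Q f b)
    (hg : h39_Val Q g c) : h39_Val Q (f - g) (b - c) := by
  rw [sub_eq_add_neg, sub_eq_add_neg]
  exact h39_val_add Q hf (h25_val_neg Q hg)

/-- **(J1)** The logarithmic jets of a tube unit at a node.  `Q₁`, `Q₂` are the two branch points
of the node, `(h₁₀, h₁₁)` and `(h₂₀, h₂₁)` the reductions of the two jet coefficients `H₀`, `H₁`
on the two components; the node condition gives equal values `c₀`, `c₁`. -/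
theorem h25_node_jet_val (Q₁ Q₂ : Place k Fb) {h₁₀ h₁₁ h₂₀ h₂₁ : Fb} {c₀ c₁ : k}
    (h10 : h39_Val Q₁ h₁₀ c₀) (h11 : h39_Val Q₁ h₁₁ c₁)
    (h20 : h39_Val Q₂ h₂₀ c₀) (h21 : h39_Val Q₂ h₂₁ c₁) (hc₀ : c₀ ≠ 0) :
    h39_Val Q₁ (h₁₁ / h₁₀) (c₁ / c₀) ∧ h39_Val Q₂ (h₂₁ / h₂₀) (c₁ / c₀) :=
  ⟨h25_val_div Q₁ h11 h10 hc₀, h25_val_div Q₂ h21 h20 hc₀⟩

/-- **(J2)** A function which is regular at every place is constant. -/
theorem h25_const_of_regular [IsAlgClosed k] {x : Fb} (hx : h75_IsChart k x) (g : Fb)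
    (hg : ∀ Q : Place k Fb, g ∈ Q.toValuationSubring) : ∃ c : k, g = algebraMap k Fb c := by
  have hmem : g ∈ riemannRochSpace (0 : Divisor k Fb) := by
    rw [mem_riemannRochSpace_iff]
    intro v
    right
    have h1 : 0 ≤ v.ord g := h24_ord_nonneg_of_mem v (hg v)
    simpa using h1
  rw [h7_rr_zero_eq hx, Submodule.mem_span_singleton] at hmem
  obtain ⟨c, hc⟩ := hmem
  exact ⟨c, by rw [← hc, Algebra.algebraMap_eq_smul_one]⟩

/-- The value of a constant function is that constant. -/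
theorem h25_val_const (Q : Place k Fb) {g : Fb} {γ c : k} (hg : g = algebraMap k Fb γ)
    (hv : h39_Val Q g c) : c = γ := by
  subst hg
  exact h39_val_unique Q hv (h39_val_algebraMap Q γ)

/-- **(J4)** Bookkeeping of the `Ω`-rules at a node.  `ω₁`, `ω₂` are `Ω₁(u)`, `Ω₂(u)`;
`η₁ = Ω₁(H)`, `η₂ = Ω₂(H)` for the tube unit `H = f^p u⁻¹ w^N (a/p)^δ`, so that
`η₁ = -ω₁` and `η₂ = -ω₂ - δ λ`; `(δ : k) = -(m : k)`.  If `η₁`, `η₂` have the same value `d`
at the two branch points, then `ω₁` has the value `-d` at `Q₁` and `ω₂` has the value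
`-d + m λ` at `Q₂`. -/
theorem h25_jump_val (Q₁ Q₂ : Place k Fb) {ω₁ ω₂ η₁ η₂ : Fb} {d lam : k} (δ m : ℤ)
    (hδ : (δ : k) = -(m : k))
    (h1 : η₁ = -ω₁) (h2 : η₂ = -ω₂ - algebraMap k Fb ((δ : k) * lam))
    (hv1 : h39_Val Q₁ η₁ d) (hv2 : h39_Val Q₂ η₂ d) :
    h39_Val Q₁ ω₁ (-d) ∧ h39_Val Q₂ ω₂ (-d + (m : k) * lam) := by
  constructor
  · have e : ω₁ = -η₁ := by rw [h1, neg_neg]
    rw [e]
    exact h25_val_neg Q₁ hv1
  · have e : ω₂ = -η₂ - algebraMap k Fb ((δ : k) * lam) := by rw [h2]; ring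
    have hval := h25_val_sub Q₂ (h25_val_neg Q₂ hv2) (h39_val_algebraMap Q₂ ((δ : k) * lam))
    rw [← e] at hval
    have e2 : -d - (δ : k) * lam = -d + (m : k) * lam := by rw [hδ]; ring
    rw [e2] at hval
    exact hval

/-- `Ω₁(u)`, `Ω₂(u)` regular at every place and satisfying the jump relation (in value form) at
every node are constants `Γ₁`, `Γ₂` with `Γ₂ - Γ₁ = m_x λ` at every node `x`. -/
theorem h25_jump_const [IsAlgClosed k] {x : Fb} (hx : h75_IsChart k x) {ι : Type*} (Q₁ Q₂ : ι → Place k Fb)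
    (m : ι → ℤ) (lam : k) (ω₁ ω₂ : Fb)
    (hreg1 : ∀ Q : Place k Fb, ω₁ ∈ Q.toValuationSubring)
    (hreg2 : ∀ Q : Place k Fb, ω₂ ∈ Q.toValuationSubring)
    (hjump : ∀ i, ∃ c : k, h39_Val (Q₁ i) ω₁ c ∧ h39_Val (Q₂ i) ω₂ (c + (m i : k) * lam)) :
    ∃ Γ₁ Γ₂ : k, ω₁ = algebraMap k Fb Γ₁ ∧ ω₂ = algebraMap k Fb Γ₂ ∧
      ∀ i, Γ₂ - Γ₁ = (m i : k) * lam := by
  obtain ⟨Γ₁, h1⟩ := h25_const_of_regular hx ω₁ hreg1
  obtain ⟨Γ₂, h2⟩ := h25_const_of_regular hx ω₂ hreg2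
  refine ⟨Γ₁, Γ₂, h1, h2, fun i => ?_⟩
  obtain ⟨c, hc1, hc2⟩ := hjump i
  have e1 : c = Γ₁ := h25_val_const (Q₁ i) h1 hc1
  have e2 : c + (m i : k) * lam = Γ₂ := h25_val_const (Q₂ i) h2 hc2
  rw [← e2, ← e1]
  ring

/-- **(J3)** The end of (C4): if `Γ₂ - Γ₁ = m_x λ` at every node and `λ ≠ 0`, then `m_x` modulo
`p` does not depend on the node. -/
theorem h25_jump_end (p : ℕ) [CharP k p] {ι : Type*} (m : ι → ℤ) {lam Γ₁ Γ₂ : k}
    (hlam : lam ≠ 0) (h : ∀ i, Γ₂ - Γ₁ = (m i : k) * lam) (i j : ι) : (p : ℤ) ∣ m i - m j := by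
  have hij : ((m i - m j : ℤ) : k) * lam = 0 := by
    push_cast
    rw [sub_mul, ← h i, ← h j, sub_self]
  have h0 : ((m i - m j : ℤ) : k) = 0 := by
    rcases mul_eq_zero.mp hij with h0 | h0
    · exact h0
    · exact absurd h0 hlam
  exact (CharP.intCast_eq_zero_iff k p _).mp h0

/-- **W7, generic form.**  `Ω₁(u)`, `Ω₂(u)` regular at every place, jump relation in value form
at every node, `λ ≠ 0`: the node multiplicities `m_x` are constant modulo `p`, and
`Ω_i(u)` are constants `Γ_i` with `Γ₂ - Γ₁ = m_x λ`. -/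
theorem h25_jump_top [IsAlgClosed k] (p : ℕ) [CharP k p] {x : Fb} (hx : h75_IsChart k x) {ι : Type*}
    (Q₁ Q₂ : ι → Place k Fb) (m : ι → ℤ) (lam : k) (ω₁ ω₂ : Fb)
    (hreg1 : ∀ Q : Place k Fb, ω₁ ∈ Q.toValuationSubring)
    (hreg2 : ∀ Q : Place k Fb, ω₂ ∈ Q.toValuationSubring)
    (hjump : ∀ i, ∃ c : k, h39_Val (Q₁ i) ω₁ c ∧ h39_Val (Q₂ i) ω₂ (c + (m i : k) * lam)) :
    (∃ Γ₁ Γ₂ : k, ω₁ = algebraMap k Fb Γ₁ ∧ ω₂ = algebraMap k Fb Γ₂ ∧
      ∀ i, Γ₂ - Γ₁ = (m i : k) * lam) ∧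
    (lam ≠ 0 → ∀ i j, (p : ℤ) ∣ m i - m j) := by
  obtain ⟨Γ₁, Γ₂, h1, h2, h⟩ := h25_jump_const hx Q₁ Q₂ m lam ω₁ ω₂ hreg1 hreg2 hjump
  exact ⟨⟨Γ₁, Γ₂, h1, h2, h⟩, fun hlam i j => h25_jump_end p m hlam h i j⟩

end Fermat.Agent.S40

end
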