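import Mathlib
import Fermat.Agent.S40.h25_JumpCore
import Fermat.Agent.S34.h16_NodeChart

/-!
# S40 / (TR) count route, row W7 (W-JUMP): the tube layer, generic (helper38)

Setting (abstract): `F / K` the big function field with two reduction data `R1`, `R2`
(`h39_RedDatum K F k Fb`), `D0` a divisor of `F`, `Qinf` a place of `Fb`, nodes
`Q1 ν` (on the first component), `Q2 ν` (on the second component), `ν : Z`.
`S1`, `S2` are subrings of `F` (in the application: the `H`-fixed elements of `R1.O`, `R2.O`)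
and `J1 : S1 →+* Fb[ε]`, `J2 : S2 →+* Fb[ε]` the first-order jets in the Kummer parameter `w`.

* `h38_IsOm J s ω` : division-free form of "`Ω(s) = ω`": `(J s).snd = ω * (J s).fst`
  (equal to `h86_om J s = ω` when `(J s).fst ≠ 0`), with its calculus
  (`h38_isOm_mul`, `_pow`, `_pow_char`, `_of_inl`, `_inv`, `_units_zpow`).
* `h38_HNode` : the node hypothesis, D-free form, direction `(⇒)`.
* `h38_HJet` : the expansion hypothesis (W1 + MIN): the two jet coefficients of an element of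
  `S1 ∩ S2 ∩ L(n D0)` are reductions of elements `H0`, `H1` of `L(n D0) ∩ O1 ∩ O2`.
* `h38_tube_node_val` : a tube unit at a node gives equal values of `Ω₁`, `Ω₂` at the two
  branch points.
* `h38_tube_reg1`, `h38_tube_reg2` : a tube unit of exact order at a place gives regularity
  of `Ω_i` there.
* `h38_jump_of_tubes` : tube units at all nodes and all non-node places give the constants
  `Γ₁`, `Γ₂` with the jump relation.
* `h38_jump_of_fill` : the same with the tube units built from lattice elements `f`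
  (the (FILL) output of the count) : `H = f^p u₁⁻¹ (a/π)^δ`.
-/

set_option autoImplicit false

noncomputable section

open AlgebraicCurve Fermat.Agent.S18 Fermat.Agent.S24 Fermat.Agent.S27 Fermat.Agent.S34

namespace Fermat.Agent.S40

/-! ### The calculus of logarithmic jets, division-free -/

section Om

variable {S B : Type*} [CommRing S] [CommRing B]

/-- Division-free logarithmic jet: `ω` is the logarithmic `ε`-coefficient of `J s`. -/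
def h38_IsOm (J : S →+* TrivSqZeroExt B B) (s : S) (ω : B) : Prop :=
  (J s).snd = ω * (J s).fst

theorem h38_isOm_mul (J : S →+* TrivSqZeroExt B B) {s t : S} {ω τ : B}
    (hs : h38_IsOm J s ω) (ht : h38_IsOm J t τ) : h38_IsOm J (s * t) (ω + τ) := by
  unfold h38_IsOm at *
  rw [map_mul, TrivSqZeroExt.snd_mul, TrivSqZeroExt.fst_mul, hs, ht, smul_eq_mul,
    op_smul_eq_mul]
  ring

theorem h38_isOm_one (J : S →+* TrivSqZeroExt B B) : h38_IsOm J 1 0 := by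
  unfold h38_IsOm
  rw [map_one, TrivSqZeroExt.snd_one, zero_mul]

theorem h38_isOm_of_inl (J : S →+* TrivSqZeroExt B B) {s : S} {b : B}
    (h : J s = TrivSqZeroExt.inl b) : h38_IsOm J s 0 := by
  unfold h38_IsOm
  rw [h, TrivSqZeroExt.snd_inl, zero_mul]

theorem h38_isOm_pow (J : S →+* TrivSqZeroExt B B) {s : S} {ω : B}
    (hs : h38_IsOm J s ω) (n : ℕ) : h38_IsOm J (s ^ n) ((n : B) * ω) := by
  induction n with
  | zero =>
    rw [pow_zero, Nat.cast_zero, zero_mul]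
    exact h38_isOm_one J
  | succ n ih =>
    rw [pow_succ]
    have h := h38_isOm_mul J ih hs
    have e : (n : B) * ω + ω = ((n + 1 : ℕ) : B) * ω := by push_cast; ring
    rw [e] at h
    exact h

/-- In characteristic `p`, `p`-th powers have logarithmic jet `0` (no unit hypothesis). -/
theorem h38_isOm_pow_char (J : S →+* TrivSqZeroExt B B) (p : ℕ) [CharP B p] (s : S) :
    h38_IsOm J (s ^ p) 0 := by
  unfold h38_IsOm
  rw [map_pow, TrivSqZeroExt.snd_pow, zero_mul]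
  rw [← Nat.cast_smul_eq_nsmul B, CharP.cast_eq_zero, zero_smul]

theorem h38_isOm_inv (J : S →+* TrivSqZeroExt B B) {s t : S} {ω : B} (hst : s * t = 1)
    (hs : h38_IsOm J s ω) : h38_IsOm J t (-ω) := by
  unfold h38_IsOm at *
  have h1 : (J s * J t).fst = 1 := by rw [← map_mul, hst, map_one, TrivSqZeroExt.fst_one]
  have h2 : (J s * J t).snd = 0 := by rw [← map_mul, hst, map_one, TrivSqZeroExt.snd_one]
  rw [TrivSqZeroExt.fst_mul] at h1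
  rw [TrivSqZeroExt.snd_mul, smul_eq_mul, op_smul_eq_mul, hs] at h2
  linear_combination (J t).fst * h2 - ((J t).snd + ω * (J t).fst) * h1

/-- Integer powers of a unit. -/
theorem h38_isOm_units_zpow (J : S →+* TrivSqZeroExt B B) (x : Sˣ) {ω : B}
    (hx : h38_IsOm J (x : S) ω) (m : ℤ) : h38_IsOm J ((x ^ m : Sˣ) : S) ((m : B) * ω) := by
  have hinv : h38_IsOm J ((x⁻¹ : Sˣ) : S) (-ω) := h38_isOm_inv J x.mul_inv hx
  cases m with
  | ofNat n =>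
    rw [Int.ofNat_eq_natCast, zpow_natCast, Units.val_pow_eq_pow_val, Int.cast_natCast]
    exact h38_isOm_pow J hx n
  | negSucc n =>
    rw [zpow_negSucc, ← inv_pow, Units.val_pow_eq_pow_val]
    have h := h38_isOm_pow J hinv (n + 1)
    have e : ((n + 1 : ℕ) : B) * -ω = ((Int.negSucc n : ℤ) : B) * ω := by
      rw [Int.cast_negSucc]
      push_cast
      ring
    rw [e] at h
    exact h

/-- The first component of the jet of an inverse. -/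
theorem h38_fst_inv {B : Type*} [Field B] (J : S →+* TrivSqZeroExt B B) {s t : S}
    (hst : s * t = 1) : (J t).fst = ((J s).fst)⁻¹ := by
  have h1 : (J s * J t).fst = 1 := by rw [← map_mul, hst, map_one, TrivSqZeroExt.fst_one]
  rw [TrivSqZeroExt.fst_mul] at h1
  exact eq_inv_of_mul_eq_one_right h1

/-- The first component of the jet of an integer power of a unit. -/
theorem h38_fst_units_zpow {B : Type*} [Field B] (J : S →+* TrivSqZeroExt B B) (x : Sˣ)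
    (m : ℤ) : (J ((x ^ m : Sˣ) : S)).fst = ((J (x : S)).fst) ^ m := by
  have hinv : (J ((x⁻¹ : Sˣ) : S)).fst = ((J (x : S)).fst)⁻¹ := h38_fst_inv J x.mul_inv
  cases m with
  | ofNat n =>
    rw [Int.ofNat_eq_natCast, zpow_natCast, Units.val_pow_eq_pow_val, zpow_natCast, map_pow,
      TrivSqZeroExt.fst_pow]
  | negSucc n =>
    rw [zpow_negSucc, ← inv_pow, Units.val_pow_eq_pow_val, zpow_negSucc, map_pow,
      TrivSqZeroExt.fst_pow, hinv, inv_pow]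

/-- The logarithmic jet as a quotient (the `h86_om` normalisation). -/
theorem h38_isOm_div {B : Type*} [Field B] (J : S →+* TrivSqZeroExt B B) (s : S)
    (h : (J s).fst ≠ 0) : h38_IsOm J s ((J s).snd / (J s).fst) := by
  unfold h38_IsOm
  rw [div_mul_cancel₀ _ h]

/-- The logarithmic jet is unique when the first component does not vanish. -/
theorem h38_isOm_unique {B : Type*} [Field B] (J : S →+* TrivSqZeroExt B B) {s : S}
    {ω ω' : B} (h : (J s).fst ≠ 0) (h1 : h38_IsOm J s ω) (h2 : h38_IsOm J s ω') : ω = ω' := by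
  unfold h38_IsOm at h1 h2
  rw [h1] at h2
  exact mul_right_cancel₀ h h2

end Om

/-! ### Tube units: values at nodes, regularity at non-nodes -/

section Tube

variable {K F k Fb : Type*} [Field K] [Field F] [Algebra K F] [Field k] [Field Fb] [Algebra k Fb]

/-- If `b ∈ L(n Qinf)`, `a ≠ 0` has the smallest order allowed in `L(n Qinf)` at `z`
and `b = η a`, then `η` is regular at `z`. -/
theorem h38_reg_of_linf (Qinf : Place k Fb) (n : ℕ) {a b : Fb} (hb : b ∈ h16_Linf Qinf n)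
    (z : Place k Fb) (ha : a ≠ 0) (hz1 : z ≠ Qinf → z.ord a ≤ 0)
    (hz2 : z = Qinf → z.ord a ≤ -(n : ℤ)) {η : Fb} (hη : b = η * a) :
    η ∈ z.toValuationSubring := by
  by_cases h0 : η = 0
  · rw [h0]
    exact z.toValuationSubring.zero_mem
  have hb0 : b ≠ 0 := by
    rw [hη]
    exact mul_ne_zero h0 ha
  rw [h16_mem_Linf] at hb
  rcases hb with hb | ⟨hb1, hb2⟩
  · exact absurd hb hb0
  have hord : z.ord b = z.ord η + z.ord a := by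
    rw [hη]
    exact z.ord_mul h0 ha
  apply h24_mem_of_ord_nonneg
  by_cases hz : z = Qinf
  · have h1 := hz2 hz
    have h2 : -(n : ℤ) ≤ z.ord b := by
      rw [hz]
      exact hb2
    omega
  · have h1 := hz1 hz
    have h2 := hb1 z hz
    omega

variable (R1 R2 : h39_RedDatum K F k Fb) (D0 : Divisor K F) (Qinf : Place k Fb)
  {Z : Type*} (Q1 Q2 : Z → Place k Fb) (n0 : ℕ)
  (S1 S2 : Subring F) (J1 : S1 →+* TrivSqZeroExt Fb Fb) (J2 : S2 →+* TrivSqZeroExt Fb Fb)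

/-- **The node hypothesis**, `D`-free form, direction `(⇒)`: reductions of elements of
`L(n D0) ∩ O1 ∩ O2` lie in `L(n Qinf)²` and take equal values at the two branch points of
every node. -/
def h38_HNode : Prop :=
  ∀ n, n0 ≤ n → ∀ G : F, G ∈ riemannRochSpace (n • D0) → G ∈ R1.O → G ∈ R2.O →
    (R1.redF G ∈ h16_Linf Qinf n ∧ R2.redF G ∈ h16_Linf Qinf n) ∧
      ∀ ν, ∃ c : k, h39_Val (Q1 ν) (R1.redF G) c ∧ h39_Val (Q2 ν) (R2.redF G) c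

/-- **The expansion hypothesis** (W1 + MIN): the jets of an element `H ∈ S1 ∩ S2 ∩ L(n D0)`
are `(red_i H0, red_i H1)` for two elements `H0`, `H1` of `L(n D0) ∩ O1 ∩ O2` (the first two
Lagrange coefficients of `H`; the same for both components). -/
def h38_HJet : Prop :=
  ∀ (n : ℕ) (H : F) (h1 : H ∈ S1) (h2 : H ∈ S2), H ∈ riemannRochSpace (n • D0) →
    ∃ H0 H1 : F, H0 ∈ riemannRochSpace (n • D0) ∧ H1 ∈ riemannRochSpace (n • D0) ∧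
      H0 ∈ R1.O ∧ H0 ∈ R2.O ∧ H1 ∈ R1.O ∧ H1 ∈ R2.O ∧
      J1 ⟨H, h1⟩ = TrivSqZeroExt.inl (R1.redF H0) + TrivSqZeroExt.inr (R1.redF H1) ∧
      J2 ⟨H, h2⟩ = TrivSqZeroExt.inl (R2.redF H0) + TrivSqZeroExt.inr (R2.redF H1)

variable {R1 R2 D0 Qinf Q1 Q2 n0 S1 S2 J1 J2}

/-- **Tube unit at a node.**  If `H ∈ S1 ∩ S2 ∩ L(n D0)` has a reduction on the first
component which is a unit at the branch point `Q1 ν`, then its two logarithmic jets take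
the same value at the two branch points of the node `ν`. -/
theorem h38_tube_node_val (hnode : h38_HNode R1 R2 D0 Qinf Q1 Q2 n0)
    (hjet : h38_HJet R1 R2 D0 S1 S2 J1 J2) {n : ℕ} (hn : n0 ≤ n) {H : F} (h1 : H ∈ S1)
    (h2 : H ∈ S2) (hH : H ∈ riemannRochSpace (n • D0)) (ν : Z)
    (hne : (J1 ⟨H, h1⟩).fst ≠ 0) (hord : (Q1 ν).ord (J1 ⟨H, h1⟩).fst = 0) {η₁ η₂ : Fb}
    (hη₁ : h38_IsOm J1 ⟨H, h1⟩ η₁) (hη₂ : h38_IsOm J2 ⟨H, h2⟩ η₂) :
    ∃ d : k, h39_Val (Q1 ν) η₁ d ∧ h39_Val (Q2 ν) η₂ d := by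
  obtain ⟨H0, H1, hH0, hH1, h01, h02, h11, h12, e1, e2⟩ := hjet n H h1 h2 hH
  unfold h38_IsOm at hη₁ hη₂
  rw [e1] at hne hord hη₁
  rw [e2] at hη₂
  simp only [TrivSqZeroExt.fst_add, TrivSqZeroExt.fst_inl, TrivSqZeroExt.fst_inr, add_zero,
    TrivSqZeroExt.snd_add, TrivSqZeroExt.snd_inl, TrivSqZeroExt.snd_inr, zero_add]
    at hne hord hη₁ hη₂
  obtain ⟨c₀, hc01, hc02⟩ := (hnode n hn H0 hH0 h01 h02).2 ν
  obtain ⟨c₁, hc11, hc12⟩ := (hnode n hn H1 hH1 h11 h12).2 ν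
  have hc₀ : c₀ ≠ 0 := by
    rintro rfl
    rcases (h39_val_zero_iff (Q1 ν)).mp hc01 with h | h
    · exact hne h
    · omega
  have hne2 : R2.redF H0 ≠ 0 := by
    intro h
    rw [h] at hc02
    have h0 : h39_Val (Q2 ν) (0 : Fb) (0 : k) := by
      have := h39_val_algebraMap (Q2 ν) (0 : k)
      rwa [map_zero] at this
    exact hc₀ (h39_val_unique (Q2 ν) hc02 h0)
  have hv := h25_node_jet_val (Q1 ν) (Q2 ν) hc01 hc11 hc02 hc12 hc₀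
  have e3 : R1.redF H1 / R1.redF H0 = η₁ := by
    rw [hη₁, mul_div_assoc, div_self hne, mul_one]
  have e4 : R2.redF H1 / R2.redF H0 = η₂ := by
    rw [hη₂, mul_div_assoc, div_self hne2, mul_one]
  rw [e3, e4] at hv
  exact ⟨c₁ / c₀, hv⟩

/-- **Tube unit at a place of the first component.**  If the reduction of
`H ∈ S1 ∩ S2 ∩ L(n D0)` on the first component has the smallest possible order at `z`
(`0` off `Qinf`, `-n` at `Qinf`), then its logarithmic jet is regular at `z`. -/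
theorem h38_tube_reg1 (hnode : h38_HNode R1 R2 D0 Qinf Q1 Q2 n0)
    (hjet : h38_HJet R1 R2 D0 S1 S2 J1 J2) {n : ℕ} (hn : n0 ≤ n) {H : F} (h1 : H ∈ S1)
    (h2 : H ∈ S2) (hH : H ∈ riemannRochSpace (n • D0)) (z : Place k Fb)
    (hne : (J1 ⟨H, h1⟩).fst ≠ 0) (hz1 : z ≠ Qinf → z.ord (J1 ⟨H, h1⟩).fst ≤ 0)
    (hz2 : z = Qinf → z.ord (J1 ⟨H, h1⟩).fst ≤ -(n : ℤ)) {η₁ : Fb}
    (hη₁ : h38_IsOm J1 ⟨H, h1⟩ η₁) : η₁ ∈ z.toValuationSubring := by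
  obtain ⟨H0, H1, hH0, hH1, h01, h02, h11, h12, e1, e2⟩ := hjet n H h1 h2 hH
  unfold h38_IsOm at hη₁
  rw [e1] at hne hz1 hz2 hη₁
  simp only [TrivSqZeroExt.fst_add, TrivSqZeroExt.fst_inl, TrivSqZeroExt.fst_inr, add_zero,
    TrivSqZeroExt.snd_add, TrivSqZeroExt.snd_inl, TrivSqZeroExt.snd_inr, zero_add]
    at hne hz1 hz2 hη₁
  exact h38_reg_of_linf Qinf n (hnode n hn H1 hH1 h11 h12).1.1 z hne hz1 hz2 hη₁

/-- **Tube unit at a place of the second component.** -/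
theorem h38_tube_reg2 (hnode : h38_HNode R1 R2 D0 Qinf Q1 Q2 n0)
    (hjet : h38_HJet R1 R2 D0 S1 S2 J1 J2) {n : ℕ} (hn : n0 ≤ n) {H : F} (h1 : H ∈ S1)
    (h2 : H ∈ S2) (hH : H ∈ riemannRochSpace (n • D0)) (z : Place k Fb)
    (hne : (J2 ⟨H, h2⟩).fst ≠ 0) (hz1 : z ≠ Qinf → z.ord (J2 ⟨H, h2⟩).fst ≤ 0)
    (hz2 : z = Qinf → z.ord (J2 ⟨H, h2⟩).fst ≤ -(n : ℤ)) {η₂ : Fb}
    (hη₂ : h38_IsOm J2 ⟨H, h2⟩ η₂) : η₂ ∈ z.toValuationSubring := by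
  obtain ⟨H0, H1, hH0, hH1, h01, h02, h11, h12, e1, e2⟩ := hjet n H h1 h2 hH
  unfold h38_IsOm at hη₂
  rw [e2] at hne hz1 hz2 hη₂
  simp only [TrivSqZeroExt.fst_add, TrivSqZeroExt.fst_inl, TrivSqZeroExt.fst_inr, add_zero,
    TrivSqZeroExt.snd_add, TrivSqZeroExt.snd_inl, TrivSqZeroExt.snd_inr, zero_add]
    at hne hz1 hz2 hη₂
  exact h38_reg_of_linf Qinf n (hnode n hn H1 hH1 h11 h12).1.2 z hne hz1 hz2 hη₂

/-- **W7 from tube units.**  `ω₁ = Ω₁(u₁)`, `ω₂ = Ω₂(u₂)`.  Suppose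
* at every node `ν` there is a tube unit `H` (unit at `Q1 ν`) with `Ω₁(H) = -ω₁`,
  `Ω₂(H) = -ω₂ - (κ + δ) λ`, where `δ ≡ -e ν` modulo `p`;
* at every non-node place of the first component there is an `H` of exact order with
  `Ω₁(H) = -ω₁`;
* at every non-node place of the second component there is an `H` of exact order with
  `Ω₂(H) = -ω₂ - c`, `c` a constant.

Then `ω₁ = Γ₁`, `ω₂ = Γ₂` are constants and `Γ₂ - Γ₁ = (e ν - κ) λ` at every node; in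
particular `e ν` modulo `p` does not depend on the node if `λ ≠ 0`. -/
theorem h38_jump_of_tubes [IsAlgClosed k] (p : ℕ) [CharP k p] {xb : Fb}
    (hxb : h75_IsChart k xb) (hnode : h38_HNode R1 R2 D0 Qinf Q1 Q2 n0)
    (hjet : h38_HJet R1 R2 D0 S1 S2 J1 J2) (ω₁ ω₂ : Fb) (lam : k) (κ : ℤ) (e : Z → ℤ)
    (hT : ∀ ν, ∃ (del : ℤ) (n : ℕ) (H : F) (h1 : H ∈ S1) (h2 : H ∈ S2), n0 ≤ n ∧
      H ∈ riemannRochSpace (n • D0) ∧ (p : ℤ) ∣ del + e ν ∧ (J1 ⟨H, h1⟩).fst ≠ 0 ∧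
      (Q1 ν).ord (J1 ⟨H, h1⟩).fst = 0 ∧ h38_IsOm J1 ⟨H, h1⟩ (-ω₁) ∧
      h38_IsOm J2 ⟨H, h2⟩ (-ω₂ - algebraMap k Fb (((κ + del : ℤ) : k) * lam)))
    (hR1 : ∀ z : Place k Fb, (∀ ν, Q1 ν ≠ z) →
      ∃ (n : ℕ) (H : F) (h1 : H ∈ S1) (_ : H ∈ S2), n0 ≤ n ∧
        H ∈ riemannRochSpace (n • D0) ∧ (J1 ⟨H, h1⟩).fst ≠ 0 ∧
        (z ≠ Qinf → z.ord (J1 ⟨H, h1⟩).fst ≤ 0) ∧
        (z = Qinf → z.ord (J1 ⟨H, h1⟩).fst ≤ -(n : ℤ)) ∧ h38_IsOm J1 ⟨H, h1⟩ (-ω₁))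
    (hR2 : ∀ z : Place k Fb, (∀ ν, Q2 ν ≠ z) →
      ∃ (n : ℕ) (H : F) (_ : H ∈ S1) (h2 : H ∈ S2) (c : k), n0 ≤ n ∧
        H ∈ riemannRochSpace (n • D0) ∧ (J2 ⟨H, h2⟩).fst ≠ 0 ∧
        (z ≠ Qinf → z.ord (J2 ⟨H, h2⟩).fst ≤ 0) ∧
        (z = Qinf → z.ord (J2 ⟨H, h2⟩).fst ≤ -(n : ℤ)) ∧
        h38_IsOm J2 ⟨H, h2⟩ (-ω₂ - algebraMap k Fb c)) :
    (∃ Γ₁ Γ₂ : k, ω₁ = algebraMap k Fb Γ₁ ∧ ω₂ = algebraMap k Fb Γ₂ ∧
      ∀ ν, Γ₂ - Γ₁ = ((e ν - κ : ℤ) : k) * lam) ∧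
    (lam ≠ 0 → ∀ ν ν', (p : ℤ) ∣ e ν - e ν') := by
  -- the jump relation in value form at every node
  have hjump : ∀ ν, ∃ c : k, h39_Val (Q1 ν) ω₁ c ∧
      h39_Val (Q2 ν) ω₂ (c + ((e ν - κ : ℤ) : k) * lam) := by
    intro ν
    obtain ⟨del, n, H, h1, h2, hn, hH, hdvd, hne, hord, ho1, ho2⟩ := hT ν
    obtain ⟨d, hd1, hd2⟩ := h38_tube_node_val hnode hjet hn h1 h2 hH ν hne hord ho1 ho2
    have hδ : ((κ + del : ℤ) : k) = -((e ν - κ : ℤ) : k) := by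
      have h0 : ((del + e ν : ℤ) : k) = 0 := (CharP.intCast_eq_zero_iff k p _).mpr hdvd
      have h3 : ((κ + del : ℤ) : k) + ((e ν - κ : ℤ) : k) = 0 := by
        rw [← Int.cast_add]
        rw [show κ + del + (e ν - κ) = del + e ν by ring]
        exact h0
      exact eq_neg_of_add_eq_zero_left h3
    have h := h25_jump_val (Q1 ν) (Q2 ν) (ω₁ := ω₁) (ω₂ := ω₂) (lam := lam) (κ + del)
      (e ν - κ) hδ rfl rfl hd1 hd2
    exact ⟨-d, h.1, h.2⟩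
  have hreg1 : ∀ Q : Place k Fb, ω₁ ∈ Q.toValuationSubring := by
    intro Q
    by_cases hQ : ∃ ν, Q1 ν = Q
    · obtain ⟨ν, rfl⟩ := hQ
      obtain ⟨c, hc, -⟩ := hjump ν
      exact h39_val_mem _ hc
    · rw [not_exists] at hQ
      obtain ⟨n, H, h1, h2, hn, hH, hne, hz1, hz2, ho⟩ := hR1 Q hQ
      have h := h38_tube_reg1 hnode hjet hn h1 h2 hH Q hne hz1 hz2 ho
      have h' := Q.toValuationSubring.neg_mem _ h
      rwa [neg_neg] at h'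
  have hreg2 : ∀ Q : Place k Fb, ω₂ ∈ Q.toValuationSubring := by
    intro Q
    by_cases hQ : ∃ ν, Q2 ν = Q
    · obtain ⟨ν, rfl⟩ := hQ
      obtain ⟨c, -, hc⟩ := hjump ν
      exact h39_val_mem _ hc
    · rw [not_exists] at hQ
      obtain ⟨n, H, h1, h2, c, hn, hH, hne, hz1, hz2, ho⟩ := hR2 Q hQ
      have h := h38_tube_reg2 hnode hjet hn h1 h2 hH Q hne hz1 hz2 ho
      have h' := Q.toValuationSubring.neg_mem _
        (Q.toValuationSubring.add_mem _ _ h (Q.algebraMap_mem' c))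
      have e' : -(-ω₂ - algebraMap k Fb c + algebraMap k Fb c) = ω₂ := by ring
      rwa [e'] at h'
  obtain ⟨hA, hB⟩ := h25_jump_top p hxb Q1 Q2 (fun ν => e ν - κ) lam ω₁ ω₂ hreg1 hreg2 hjump
  refine ⟨hA, fun hlam ν ν' => ?_⟩
  have h := hB hlam ν ν'
  have e' : e ν - κ - (e ν' - κ) = e ν - e ν' := by ring
  rwa [e'] at h

/-! ### Tube units built from lattice elements -/

/-- Integer powers of a unit of a subring of a field, read in the field. -/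
theorem h38_coe_units_zpow (S : Subring F) (x : (↥S)ˣ) (m : ℤ) :
    (((x ^ m : (↥S)ˣ) : ↥S) : F) = (((x : (↥S)ˣ) : ↥S) : F) ^ m := by
  have h1 : (Units.map (S.subtype : ↥S →* F) (x ^ m) : F) =
      ((Units.map (S.subtype : ↥S →* F) x : Fˣ) : F) ^ m := by
    rw [map_zpow, Units.val_zpow_eq_zpow_val]
  exact h1

/-- **The tube element `H = f^p u₁⁻¹ r^δ`** (`r = a/π`), its two jets.
On the first component `H = f^p · u₁⁻¹ · r^δ`; on the second component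
`H = (f w^{-m})^p · u₂⁻¹ · a^δ · η^{-m}`, `m = κ + δ`, `η = π / w^p`. -/
theorem h38_tube_data (p : ℕ) [CharP Fb p]
    (hJ1 : ∀ f : S1, (J1 f).fst = R1.redF f) (hJ2 : ∀ f : S2, (J2 f).fst = R2.redF f)
    {u1 u2 : F} (hu1 : u1 ∈ S1) (hu1i : u1⁻¹ ∈ S1) (hu2 : u2 ∈ S2) (hu2i : u2⁻¹ ∈ S2)
    (hu0 : u1 ≠ 0) {π : F} (hπ : π ≠ 0) {κ : ℤ} (hu12 : u1 = π ^ κ * u2) {ω₁ ω₂ : Fb}
    (hω₁ : h38_IsOm J1 ⟨u1, hu1⟩ ω₁) (hω₂ : h38_IsOm J2 ⟨u2, hu2⟩ ω₂) {w η : F}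
    (hw : w ≠ 0) (hη : η * w ^ p = π) (hηS : η ∈ S2) (hηSi : η⁻¹ ∈ S2) {lam ηb : k}
    (hηfst : (J2 ⟨η, hηS⟩).fst = algebraMap k Fb ηb)
    (hηJ : h38_IsOm J2 ⟨η, hηS⟩ (algebraMap k Fb lam)) (del : ℕ) (m : ℤ) (hm : m = κ + del)
    {f r a : F} (hf1 : f ∈ S1) (hf2 : f * (w ^ m)⁻¹ ∈ S2) (hr : r ∈ S1) (ha : a ∈ S2)
    (hra : r ^ del * π ^ del = a ^ del) {ρ ab : Fb}
    (hρ : J1 ⟨r, hr⟩ = TrivSqZeroExt.inl ρ) (hab : J2 ⟨a, ha⟩ = TrivSqZeroExt.inl ab) :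
    ∃ (h1 : f ^ p * u1⁻¹ * r ^ del ∈ S1) (h2 : f ^ p * u1⁻¹ * r ^ del ∈ S2),
      (J1 ⟨_, h1⟩).fst = R1.redF f ^ p * (R1.redF u1)⁻¹ * ρ ^ del ∧
      h38_IsOm J1 ⟨_, h1⟩ (-ω₁) ∧
      (J2 ⟨_, h2⟩).fst = R2.redF (f * (w ^ m)⁻¹) ^ p * (R2.redF u2)⁻¹ * ab ^ del *
        (algebraMap k Fb ηb) ^ (-m) ∧
      h38_IsOm J2 ⟨_, h2⟩ (-ω₂ - algebraMap k Fb ((m : k) * lam)) := by
  have hη0 : η ≠ 0 := by
    rintro rfl
    rw [zero_mul] at hη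
    exact hπ hη.symm
  have hu20 : u2 ≠ 0 := by
    rintro rfl
    rw [mul_zero] at hu12
    exact hu0 hu12
  -- the first component
  have h1 : f ^ p * u1⁻¹ * r ^ del ∈ S1 :=
    S1.mul_mem (S1.mul_mem (S1.pow_mem hf1 p) hu1i) (S1.pow_mem hr del)
  have e1 : (⟨_, h1⟩ : S1) = ⟨f, hf1⟩ ^ p * ⟨u1⁻¹, hu1i⟩ * ⟨r, hr⟩ ^ del := Subtype.ext rfl
  have hst1 : (⟨u1, hu1⟩ : S1) * ⟨u1⁻¹, hu1i⟩ = 1 := Subtype.ext (mul_inv_cancel₀ hu0)
  -- the second component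
  let ηu : (↥S2)ˣ := ⟨⟨η, hηS⟩, ⟨η⁻¹, hηSi⟩, Subtype.ext (mul_inv_cancel₀ hη0),
    Subtype.ext (inv_mul_cancel₀ hη0)⟩
  have hθ : (((ηu ^ (-m) : (↥S2)ˣ) : ↥S2) : F) = η ^ (-m) := h38_coe_units_zpow S2 ηu (-m)
  have hkey : f ^ p * u1⁻¹ * r ^ del =
      (f * (w ^ m)⁻¹) ^ p * u2⁻¹ * a ^ del * η ^ (-m) := by
    have hwp : w ^ p = π * η⁻¹ := by
      rw [← hη]
      field_simp
    have e3 : ((w ^ m)⁻¹) ^ p = π ^ (-m) * η ^ m := by
      rw [inv_pow, ← zpow_natCast (w ^ m) p, ← zpow_mul, mul_comm m (p : ℤ), zpow_mul,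
        zpow_natCast, hwp, mul_zpow, inv_zpow, zpow_neg, mul_inv, inv_inv]
    rw [mul_pow, e3, ← hra, hu12, hm]
    rw [zpow_neg, zpow_neg, zpow_add₀ hπ, zpow_add₀ hη0, zpow_natCast, zpow_natCast]
    field_simp
  have h2 : f ^ p * u1⁻¹ * r ^ del ∈ S2 := by
    rw [hkey, ← hθ]
    exact S2.mul_mem (S2.mul_mem (S2.mul_mem (S2.pow_mem hf2 p) hu2i) (S2.pow_mem ha del))
      (Subtype.mem _)
  have e2 : (⟨_, h2⟩ : S2) = ⟨f * (w ^ m)⁻¹, hf2⟩ ^ p * ⟨u2⁻¹, hu2i⟩ * ⟨a, ha⟩ ^ del *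
      ((ηu ^ (-m) : (↥S2)ˣ) : ↥S2) := by
    apply Subtype.ext
    show f ^ p * u1⁻¹ * r ^ del = (f * (w ^ m)⁻¹) ^ p * u2⁻¹ * a ^ del *
      (((ηu ^ (-m) : (↥S2)ˣ) : ↥S2) : F)
    rw [hθ, hkey]
  have hst2 : (⟨u2, hu2⟩ : S2) * ⟨u2⁻¹, hu2i⟩ = 1 := Subtype.ext (mul_inv_cancel₀ hu20)
  refine ⟨h1, h2, ?_, ?_, ?_, ?_⟩
  · rw [e1, map_mul, map_mul, map_pow, map_pow, TrivSqZeroExt.fst_mul, TrivSqZeroExt.fst_mul,
      TrivSqZeroExt.fst_pow, TrivSqZeroExt.fst_pow, hJ1, h38_fst_inv J1 hst1, hJ1, hρ,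
      TrivSqZeroExt.fst_inl]
  · rw [e1]
    have h := h38_isOm_mul J1 (h38_isOm_mul J1 (h38_isOm_pow_char J1 p ⟨f, hf1⟩)
      (h38_isOm_inv J1 hst1 hω₁)) (h38_isOm_pow J1 (h38_isOm_of_inl J1 hρ) del)
    have e : (0 : Fb) + -ω₁ + (del : Fb) * 0 = -ω₁ := by ring
    rw [e] at h
    exact h
  · rw [e2, map_mul, map_mul, map_mul, map_pow, map_pow, TrivSqZeroExt.fst_mul,
      TrivSqZeroExt.fst_mul, TrivSqZeroExt.fst_mul, TrivSqZeroExt.fst_pow,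
      TrivSqZeroExt.fst_pow, hJ2, h38_fst_inv J2 hst2, hJ2, hab, TrivSqZeroExt.fst_inl,
      h38_fst_units_zpow J2 ηu (-m)]
    rw [show ((ηu : (↥S2)ˣ) : ↥S2) = ⟨η, hηS⟩ from rfl, hηfst]
  · rw [e2]
    have hηu : h38_IsOm J2 ((ηu : (↥S2)ˣ) : ↥S2) (algebraMap k Fb lam) := hηJ
    have h := h38_isOm_mul J2 (h38_isOm_mul J2 (h38_isOm_mul J2
      (h38_isOm_pow_char J2 p ⟨f * (w ^ m)⁻¹, hf2⟩) (h38_isOm_inv J2 hst2 hω₂))
      (h38_isOm_pow J2 (h38_isOm_of_inl J2 hab) del)) (h38_isOm_units_zpow J2 ηu hηu (-m))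
    have e : (0 : Fb) + -ω₂ + (del : Fb) * 0 + ((-m : ℤ) : Fb) * algebraMap k Fb lam =
        -ω₂ - algebraMap k Fb ((m : k) * lam) := by
      rw [map_mul, map_intCast]
      push_cast
      ring
    rw [e] at h
    exact h

/-- **W7, generic form with the tube units built from lattice elements.**

Data: `u₁ = u / c₁ ∈ S1ˣ`, `u₂ = u / (c₁ π^κ) ∈ S2ˣ` (so `u₁ = π^κ u₂`), with logarithmic jets
`ω₁ = Ω₁(u₁)`, `ω₂ = Ω₂(u₂)`; the Kummer parameter `w` and the unit constant `η = π / w^p`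
with `Ω₂(η) = λ`.

Hypotheses (the (FILL) output of the count and the node functions `a`):
* `hT` : at every node `ν` a lattice element `f` (`f ∈ S1`, `f w^{-(κ+δ)} ∈ S2`) and a node
  function `a` (`a/π ∈ S1` with jet `inl ρ`, `ord_{Q1 ν} ρ = -1`; `a ∈ S2` with jet `inl ā`)
  such that `f^p u₁⁻¹ (a/π)^δ ∈ L(n D0)` and `p · ord_{Q1 ν} (red₁ f) - ord_{Q1 ν} (red₁ u₁) = δ`;
* `hR1`, `hR2` : at every non-node place `z` of the first (second) component a lattice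
  element `f` (`δ = 0`) with `f^p u₁⁻¹ ∈ L(n D0)` whose reduction on that component has the
  exact order: `p · ord_z (red f) - ord_z (red u) ≤ 0` (`≤ -n` at `Qinf`).

Conclusion: `ω₁ = Γ₁`, `ω₂ = Γ₂` are constants, `Γ₂ - Γ₁ = (ord_{Q1 ν} (red₁ u₁) - κ) λ` at
every node, and if `λ ≠ 0` the orders `ord_{Q1 ν} (red₁ u₁)` are congruent modulo `p`. -/
theorem h38_jump_of_fill [IsAlgClosed k] (p : ℕ) [CharP k p] {xb : Fb}
    (hxb : h75_IsChart k xb) (hnode : h38_HNode R1 R2 D0 Qinf Q1 Q2 n0)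
    (hjet : h38_HJet R1 R2 D0 S1 S2 J1 J2)
    (hJ1 : ∀ f : S1, (J1 f).fst = R1.redF f) (hJ2 : ∀ f : S2, (J2 f).fst = R2.redF f)
    {u1 u2 : F} (hu1 : u1 ∈ S1) (hu1i : u1⁻¹ ∈ S1) (hu2 : u2 ∈ S2) (hu2i : u2⁻¹ ∈ S2)
    (hu0 : u1 ≠ 0) {π : F} (hπ : π ≠ 0) {κ : ℤ} (hu12 : u1 = π ^ κ * u2) {ω₁ ω₂ : Fb}
    (hω₁ : h38_IsOm J1 ⟨u1, hu1⟩ ω₁) (hω₂ : h38_IsOm J2 ⟨u2, hu2⟩ ω₂) {w η : F}
    (hw : w ≠ 0) (hη : η * w ^ p = π) (hηS : η ∈ S2) (hηSi : η⁻¹ ∈ S2) {lam ηb : k}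
    (hηfst : (J2 ⟨η, hηS⟩).fst = algebraMap k Fb ηb)
    (hηJ : h38_IsOm J2 ⟨η, hηS⟩ (algebraMap k Fb lam))
    (hT : ∀ ν, ∃ (del n : ℕ) (f a : F) (_ : f ∈ S1) (_ : f * (w ^ (κ + (del : ℤ)))⁻¹ ∈ S2)
      (ha1 : a * π⁻¹ ∈ S1) (ha2 : a ∈ S2) (ρ ab : Fb), n0 ≤ n ∧
      f ^ p * u1⁻¹ * (a * π⁻¹) ^ del ∈ riemannRochSpace (n • D0) ∧
      J1 ⟨a * π⁻¹, ha1⟩ = TrivSqZeroExt.inl ρ ∧ J2 ⟨a, ha2⟩ = TrivSqZeroExt.inl ab ∧
      ρ ≠ 0 ∧ (Q1 ν).ord ρ = -1 ∧ R1.redF f ≠ 0 ∧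
      (p : ℤ) * (Q1 ν).ord (R1.redF f) - (Q1 ν).ord (R1.redF u1) = del)
    (hR1 : ∀ z : Place k Fb, (∀ ν, Q1 ν ≠ z) →
      ∃ (n : ℕ) (f : F) (_ : f ∈ S1) (_ : f * (w ^ κ)⁻¹ ∈ S2), n0 ≤ n ∧
        f ^ p * u1⁻¹ ∈ riemannRochSpace (n • D0) ∧ R1.redF f ≠ 0 ∧
        (z ≠ Qinf → (p : ℤ) * z.ord (R1.redF f) - z.ord (R1.redF u1) ≤ 0) ∧
        (z = Qinf → (p : ℤ) * z.ord (R1.redF f) - z.ord (R1.redF u1) ≤ -(n : ℤ)))
    (hR2 : ∀ z : Place k Fb, (∀ ν, Q2 ν ≠ z) →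
      ∃ (n : ℕ) (f : F) (_ : f ∈ S1) (_ : f * (w ^ κ)⁻¹ ∈ S2), n0 ≤ n ∧
        f ^ p * u1⁻¹ ∈ riemannRochSpace (n • D0) ∧ R2.redF (f * (w ^ κ)⁻¹) ≠ 0 ∧
        (z ≠ Qinf → (p : ℤ) * z.ord (R2.redF (f * (w ^ κ)⁻¹)) - z.ord (R2.redF u2) ≤ 0) ∧
        (z = Qinf →
          (p : ℤ) * z.ord (R2.redF (f * (w ^ κ)⁻¹)) - z.ord (R2.redF u2) ≤ -(n : ℤ))) :
    (∃ Γ₁ Γ₂ : k, ω₁ = algebraMap k Fb Γ₁ ∧ ω₂ = algebraMap k Fb Γ₂ ∧
      ∀ ν, Γ₂ - Γ₁ = (((Q1 ν).ord (R1.redF u1) - κ : ℤ) : k) * lam) ∧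
    (lam ≠ 0 → ∀ ν ν', (p : ℤ) ∣ (Q1 ν).ord (R1.redF u1) - (Q1 ν').ord (R1.redF u1)) := by
  have : CharP Fb p := charP_of_injective_algebraMap (algebraMap k Fb).injective p
  have hu20 : u2 ≠ 0 := by
    rintro rfl
    rw [mul_zero] at hu12
    exact hu0 hu12
  have hη0 : η ≠ 0 := by
    rintro rfl
    rw [zero_mul] at hη
    exact hπ hη.symm
  -- the reductions of the units are nonzero
  have hub1 : R1.redF u1 ≠ 0 := by
    have hst1 : (⟨u1, hu1⟩ : S1) * ⟨u1⁻¹, hu1i⟩ = 1 := Subtype.ext (mul_inv_cancel₀ hu0)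
    have h1 : (J1 (⟨u1, hu1⟩ * ⟨u1⁻¹, hu1i⟩)).fst = 1 := by
      rw [hst1, map_one, TrivSqZeroExt.fst_one]
    rw [map_mul, TrivSqZeroExt.fst_mul, hJ1] at h1
    exact left_ne_zero_of_mul_eq_one h1
  have hub2 : R2.redF u2 ≠ 0 := by
    have hst2 : (⟨u2, hu2⟩ : S2) * ⟨u2⁻¹, hu2i⟩ = 1 := Subtype.ext (mul_inv_cancel₀ hu20)
    have h1 : (J2 (⟨u2, hu2⟩ * ⟨u2⁻¹, hu2i⟩)).fst = 1 := by
      rw [hst2, map_one, TrivSqZeroExt.fst_one]
    rw [map_mul, TrivSqZeroExt.fst_mul, hJ2] at h1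
    exact left_ne_zero_of_mul_eq_one h1
  have hηb : algebraMap k Fb ηb ≠ 0 := by
    have hst : (⟨η, hηS⟩ : S2) * ⟨η⁻¹, hηSi⟩ = 1 := Subtype.ext (mul_inv_cancel₀ hη0)
    have h1 : (J2 (⟨η, hηS⟩ * ⟨η⁻¹, hηSi⟩)).fst = 1 := by
      rw [hst, map_one, TrivSqZeroExt.fst_one]
    rw [map_mul, TrivSqZeroExt.fst_mul, hηfst] at h1
    exact left_ne_zero_of_mul_eq_one h1
  have h1S1 : (1 : F) ∈ S1 := S1.one_mem
  have h1S2 : (1 : F) ∈ S2 := S2.one_mem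
  have hone1 : J1 ⟨1, h1S1⟩ = TrivSqZeroExt.inl (1 : Fb) := by
    rw [show (⟨1, h1S1⟩ : S1) = 1 from rfl, map_one, TrivSqZeroExt.inl_one]
  have hone2 : J2 ⟨1, h1S2⟩ = TrivSqZeroExt.inl (1 : Fb) := by
    rw [show (⟨1, h1S2⟩ : S2) = 1 from rfl, map_one, TrivSqZeroExt.inl_one]
  refine h38_jump_of_tubes p hxb hnode hjet ω₁ ω₂ lam κ
    (fun ν => (Q1 ν).ord (R1.redF u1)) ?_ ?_ ?_
  · -- node tube units
    intro ν
    obtain ⟨del, n, f, a, hf1, hf2, ha1, ha2, ρ, ab, hn, hH, hρ, hab, hρ0, hρord, hφ, heq⟩ :=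
      hT ν
    have hra : (a * π⁻¹) ^ del * π ^ del = a ^ del := by
      rw [← mul_pow, inv_mul_cancel_right₀ hπ]
    obtain ⟨h1, h2, hfst1, hom1, -, hom2⟩ := h38_tube_data p hJ1 hJ2 hu1 hu1i hu2 hu2i hu0 hπ
      hu12 hω₁ hω₂ hw hη hηS hηSi hηfst hηJ del (κ + del) rfl hf1 hf2 ha1 ha2 hra hρ hab
    refine ⟨del, n, _, h1, h2, hn, hH, ?_, ?_, ?_, hom1, ?_⟩
    · exact ⟨(Q1 ν).ord (R1.redF f), by rw [← heq]; ring⟩
    · rw [hfst1]
      exact mul_ne_zero (mul_ne_zero (pow_ne_zero p hφ) (inv_ne_zero hub1)) (pow_ne_zero del hρ0)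
    · rw [hfst1, (Q1 ν).ord_mul (mul_ne_zero (pow_ne_zero p hφ) (inv_ne_zero hub1))
        (pow_ne_zero del hρ0), (Q1 ν).ord_mul (pow_ne_zero p hφ) (inv_ne_zero hub1),
        (Q1 ν).ord_inv, ← zpow_natCast, (Q1 ν).ord_zpow, ← zpow_natCast, (Q1 ν).ord_zpow, hρord]
      omega
    · exact hom2
  · -- non-node places of the first component
    intro z hz
    obtain ⟨n, f, hf1, hf2, hn, hH, hφ, hz1, hz2⟩ := hR1 z hz
    have hra : (1 : F) ^ 0 * π ^ 0 = (1 : F) ^ 0 := by rw [pow_zero, pow_zero, mul_one]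
    obtain ⟨h1, h2, hfst1, hom1, -, -⟩ := h38_tube_data p hJ1 hJ2 hu1 hu1i hu2 hu2i hu0 hπ
      hu12 hω₁ hω₂ hw hη hηS hηSi hηfst hηJ 0 κ (by rw [Nat.cast_zero, add_zero]) hf1 hf2 h1S1
      h1S2 hra hone1 hone2
    have hfst1' : (J1 ⟨_, h1⟩).fst = R1.redF f ^ p * (R1.redF u1)⁻¹ := by
      rw [hfst1, pow_zero, mul_one]
    have hordz : z.ord (R1.redF f ^ p * (R1.redF u1)⁻¹) =
        (p : ℤ) * z.ord (R1.redF f) - z.ord (R1.redF u1) := by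
      rw [z.ord_mul (pow_ne_zero p hφ) (inv_ne_zero hub1), z.ord_inv, ← zpow_natCast,
        z.ord_zpow]
      ring
    refine ⟨n, _, h1, h2, hn, ?_, ?_, ?_, ?_, hom1⟩
    · rw [pow_zero, mul_one]
      exact hH
    · rw [hfst1']
      exact mul_ne_zero (pow_ne_zero p hφ) (inv_ne_zero hub1)
    · intro h
      rw [hfst1', hordz]
      exact hz1 h
    · intro h
      rw [hfst1', hordz]
      exact hz2 h
  · -- non-node places of the second component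
    intro z hz
    obtain ⟨n, f, hf1, hf2, hn, hH, hφ, hz1, hz2⟩ := hR2 z hz
    have hra : (1 : F) ^ 0 * π ^ 0 = (1 : F) ^ 0 := by rw [pow_zero, pow_zero, mul_one]
    obtain ⟨h1, h2, -, -, hfst2, hom2⟩ := h38_tube_data p hJ1 hJ2 hu1 hu1i hu2 hu2i hu0 hπ
      hu12 hω₁ hω₂ hw hη hηS hηSi hηfst hηJ 0 κ (by rw [Nat.cast_zero, add_zero]) hf1 hf2 h1S1
      h1S2 hra hone1 hone2
    have hc0 : (algebraMap k Fb ηb) ^ (-κ) ≠ 0 := zpow_ne_zero _ hηb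
    have hfst2' : (J2 ⟨_, h2⟩).fst =
        R2.redF (f * (w ^ κ)⁻¹) ^ p * (R2.redF u2)⁻¹ * (algebraMap k Fb ηb) ^ (-κ) := by
      rw [hfst2, pow_zero, mul_one]
    have hordz : z.ord (R2.redF (f * (w ^ κ)⁻¹) ^ p * (R2.redF u2)⁻¹ *
        (algebraMap k Fb ηb) ^ (-κ)) =
        (p : ℤ) * z.ord (R2.redF (f * (w ^ κ)⁻¹)) - z.ord (R2.redF u2) := by
      rw [z.ord_mul (mul_ne_zero (pow_ne_zero p hφ) (inv_ne_zero hub2)) hc0,
        z.ord_mul (pow_ne_zero p hφ) (inv_ne_zero hub2), z.ord_inv, ← zpow_natCast,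
        z.ord_zpow, z.ord_zpow, h24_ord_algebraMap]
      ring
    refine ⟨n, _, h1, h2, (κ : k) * lam, hn, ?_, ?_, ?_, ?_, hom2⟩
    · rw [pow_zero, mul_one]
      exact hH
    · rw [hfst2']
      exact mul_ne_zero (mul_ne_zero (pow_ne_zero p hφ) (inv_ne_zero hub2)) hc0
    · intro h
      rw [hfst2', hordz]
      exact hz1 h
    · intro h
      rw [hfst2', hordz]
      exact hz2 h

end Tube

end Fermat.Agent.S40

end
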