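import Mathlib
import Fermat.Agent.S34.h87_ChartInst
import Fermat.Agent.S40.h28_Interp
import Fermat.Agent.S40.h38_JumpGen

/-!
# S40 / (TR) row W7: the expansion hypothesis `h38_HJet` (helper11)

`G` acts on `F` by ring automorphisms `ρ`, `w : F` has a `G`-orbit of `p` elements
(`g, hdist, horb` of W1), `H = Stab_G(w)`.  Every `H`-fixed `f` is `∑_{j<p} c_j w^j` with
`c_j = h28_coef ρ p w g f j` `G`-fixed (helper28).  If two valuation rings `R₁.O`, `R₂.O`
satisfy INT-BASE and `v_i(w)^p = v_i(π) < 1`, the coefficients of an integral `f` are integral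
(`h11_coef_mem_O`, W1 (MIN-MEM)), and they stay in every `G`-stable space `L(n D0)` which is
stable under multiplication by a subfield `C` containing the conjugates of `w`.

* `h11_hjet_gen` : for subrings `S_i` of `H`-fixed elements of `R_i.O` and jets given by the
  formula `J_i f = inl (red_i c_0) + inr (red_i c_1)` (the jets of `h25_jet_inst`), the
  expansion hypothesis `h38_HJet R1 R2 D0 S1 S2 J1 J2` of `h38_jump_of_fill` holds.
* `h11_rr_D0_gal`, `h11_rr_const_mul` : the two stability inputs at the modular level `M q`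
  for `D0 = h87_D0 M q hqM`.
-/

set_option autoImplicit false

noncomputable section

open AlgebraicCurve ModularCurve Finset

namespace Fermat.Agent.S40

open Fermat.Agent.S18 Fermat.Agent.S34

local notation "Qb" => AlgebraicClosure ℚ

section Generic

variable {K F k Fb : Type*} [Field K] [Field F] [Algebra K F] [Field k] [Field Fb] [Algebra k Fb]
  {G : Type*} [Group G]

/-- (W1, MIN-MEM) for a valuation ring: the Lagrange coefficients of an integral `H`-fixed
function are integral. -/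
theorem h11_coef_mem_O (O : ValuationSubring F) (ρ : G →* (F ≃+* F)) (p : ℕ) (w : F)
    (g : Fin p → G) (hdist : Function.Injective fun i => ρ (g i) w)
    (horb : ∀ γ : G, ∃ i, ρ γ w = ρ (g i) w)
    (π : F) (hπ0 : π ≠ 0) (hπ : O.valuation π < 1) (hvw : O.valuation w ^ p = O.valuation π)
    (hint : ∀ f : F, (∀ γ : G, ρ γ f = f) → f ≠ 0 → ∃ m : ℤ, O.valuation f = O.valuation π ^ m)
    {f : F} (hfO : f ∈ O) (hf : ∀ γ : G, ρ γ w = w → ρ γ f = f) (j : ℕ) (hj : j < p) :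
    h28_coef ρ p w g f j ∈ O := by
  have hsum := h28_coef_sum ρ p w g hdist horb f hf
  have hc : ∀ j < p, h28_coef ρ p w g f j ≠ 0 →
      ∃ m : ℤ, O.valuation (h28_coef ρ p w g f j) = O.valuation π ^ m :=
    fun j _ h0 => hint _ (fun γ => h28_coef_fixed ρ p w g hdist horb f hf j γ) h0
  have hv : O.valuation (∑ j ∈ range p, h28_coef ρ p w g f j * w ^ j) ≤ 1 := by
    rw [← hsum]
    exact (O.valuation_le_one_iff f).mpr hfO
  have h1 := h28_min_mem O.valuation p π w hπ0 hπ hvw (h28_coef ρ p w g f) hc hv j hj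
  exact (O.valuation_le_one_iff _).mp h1

/-- **The expansion hypothesis `h38_HJet`, generic.** -/
theorem h11_hjet_gen (R1 R2 : h39_RedDatum K F k Fb) (D0 : Divisor K F)
    (ρ : G →* (F ≃+* F)) (p : ℕ) (hp2 : 2 ≤ p) (w : F) (g : Fin p → G)
    (hdist : Function.Injective fun i => ρ (g i) w)
    (horb : ∀ γ : G, ∃ i, ρ γ w = ρ (g i) w)
    (π : F) (hπ0 : π ≠ 0)
    (hπ1 : R1.O.valuation π < 1) (hvw1 : R1.O.valuation w ^ p = R1.O.valuation π)
    (hint1 : ∀ f : F, (∀ γ : G, ρ γ f = f) → f ≠ 0 →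
      ∃ m : ℤ, R1.O.valuation f = R1.O.valuation π ^ m)
    (hπ2 : R2.O.valuation π < 1) (hvw2 : R2.O.valuation w ^ p = R2.O.valuation π)
    (hint2 : ∀ f : F, (∀ γ : G, ρ γ f = f) → f ≠ 0 →
      ∃ m : ℤ, R2.O.valuation f = R2.O.valuation π ^ m)
    (C : Subfield F) (hC : ∀ i, ρ (g i) w ∈ C)
    (hCL : ∀ n : ℕ, ∀ a ∈ C, ∀ s ∈ riemannRochSpace (n • D0), a * s ∈ riemannRochSpace (n • D0))
    (hρL : ∀ (n : ℕ) (γ : G) (f : F), f ∈ riemannRochSpace (n • D0) →
      ρ γ f ∈ riemannRochSpace (n • D0))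
    (S1 S2 : Subring F)
    (hS1 : ∀ f ∈ S1, f ∈ R1.O ∧ ∀ γ : G, ρ γ w = w → ρ γ f = f)
    (hS2 : ∀ f ∈ S2, f ∈ R2.O ∧ ∀ γ : G, ρ γ w = w → ρ γ f = f)
    (J1 : S1 →+* TrivSqZeroExt Fb Fb) (J2 : S2 →+* TrivSqZeroExt Fb Fb)
    (hJ1 : ∀ f : S1, J1 f = TrivSqZeroExt.inl (R1.redF (h28_coef ρ p w g (f : F) 0)) +
      TrivSqZeroExt.inr (R1.redF (h28_coef ρ p w g (f : F) 1)))
    (hJ2 : ∀ f : S2, J2 f = TrivSqZeroExt.inl (R2.redF (h28_coef ρ p w g (f : F) 0)) +
      TrivSqZeroExt.inr (R2.redF (h28_coef ρ p w g (f : F) 1))) :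
    h38_HJet R1 R2 D0 S1 S2 J1 J2 := by
  intro n H h1 h2 hH
  obtain ⟨hH1, hHfix⟩ := hS1 H h1
  obtain ⟨hH2, -⟩ := hS2 H h2
  have h0p : 0 < p := by omega
  have h1p : 1 < p := by omega
  have hL : ∀ j, h28_coef ρ p w g H j ∈ riemannRochSpace (n • D0) := fun j =>
    h28_coef_mem ρ p w g H C hC (riemannRochSpace (n • D0)).toAddSubgroup
      (fun a ha s hs => hCL n a ha s hs) (fun i => hρL n (g i) H hH) j
  refine ⟨h28_coef ρ p w g H 0, h28_coef ρ p w g H 1, hL 0, hL 1, ?_, ?_, ?_, ?_, hJ1 ⟨H, h1⟩,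
    hJ2 ⟨H, h2⟩⟩
  · exact h11_coef_mem_O R1.O ρ p w g hdist horb π hπ0 hπ1 hvw1 hint1 hH1 hHfix 0 h0p
  · exact h11_coef_mem_O R2.O ρ p w g hdist horb π hπ0 hπ2 hvw2 hint2 hH2 hHfix 0 h0p
  · exact h11_coef_mem_O R1.O ρ p w g hdist horb π hπ0 hπ1 hvw1 hint1 hH1 hHfix 1 h1p
  · exact h11_coef_mem_O R2.O ρ p w g hdist horb π hπ0 hπ2 hvw2 hint2 hH2 hHfix 1 h1p

end Generic

section Modular

variable (M q : ℕ) [NeZero M] [NeZero q] [Fact q.Prime] (hqM : ¬ q ∣ M)

/-- `L(n D0)` is stable under the arithmetic Galois action (level `M q`). -/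
theorem h11_rr_D0_gal (n : ℕ) (σ : Qb ≃ₐ[ℚ] Qb) (f : ↥(modularFunctionFieldBar (M * q)))
    (hf : f ∈ riemannRochSpace (n • h87_D0 M q hqM)) :
    arithmeticGalois (modularFunctionFieldFull (M * q)) σ • f ∈
      riemannRochSpace (n • h87_D0 M q hqM) := by
  have h1 : arithmeticGalois (modularFunctionFieldFull (M * q)) σ • (n • h87_D0 M q hqM) =
      n • h87_D0 M q hqM := by
    rw [smul_comm, h87_D0_gal]
  have h2 := h51_smul_mem_rr (arithmeticGalois (modularFunctionFieldFull (M * q)) σ) hf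
  rwa [h1] at h2

omit [NeZero M] [NeZero q] [Fact q.Prime] in
/-- `L(D)` is stable under multiplication by constants (range of `algebraMap`). -/
theorem h11_rr_const_mul (N : ℕ) (D : Divisor Qb ↥(modularFunctionFieldBar N))
    (a : ↥(modularFunctionFieldBar N))
    (ha : a ∈ (algebraMap Qb ↥(modularFunctionFieldBar N)).fieldRange)
    (s : ↥(modularFunctionFieldBar N)) (hs : s ∈ riemannRochSpace D) :
    a * s ∈ riemannRochSpace D := by
  obtain ⟨c, rfl⟩ := ha
  rw [← Algebra.smul_def]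
  exact (riemannRochSpace D).smul_mem c hs

end Modular

end Fermat.Agent.S40
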