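import Mathlib
import Fermat.Agent.S18.GR_RedAPI
import Fermat.Agent.S40.h28_Interp

/-!
# S40 / W3 (LAT*): the hypothesis (MIN) from W1 (INTERP + MIN) and INT-BASE (helper78)

`G` acts on the field `F` by ring automorphisms `ρ`, `w : F` has a `G`-orbit of `p` elements,
`H = Stab_G(w)`.  Every `H`-fixed `f` is `∑_{j<p} c_j w^j` with `G`-fixed `c_j` (helper28's
`h28_coef_sum`); if a valuation `v` takes values in `v(π)^ℤ` on the nonzero `G`-fixed elements
and `v(w)^p = v(π) < 1`, then `v(f) ∈ v(w)^ℤ` (`h78_min_val_core`), hence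

* `h78_min_core`  : an `H`-fixed non-unit `f` of a valuation ring `O` is divisible by `w` in `O`;
* `h78_min_datum` : the same for an S18 reduction datum, in the shape of the hypotheses
  `hmin₁`, `hmin₂` of `h11_latStar_pair` / `h78_latStar_pair_W`:
  `f ∈ R.O → R.redF f = 0 → w⁻¹ • f ∈ R.O`, with INT-BASE in the unit form
  `∃ m : ℤ, π^m c ∈ R.O ∧ (π^m c)⁻¹ ∈ R.O` for the nonzero `G`-fixed `c`.
-/

set_option autoImplicit false

namespace Fermat.Agent.S40

open Finset Fermat.Agent.S18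

section Core

variable {F : Type*} [Field F] {G : Type*} [Group G]
  {Γ₀ : Type*} [LinearOrderedCommGroupWithZero Γ₀]

/-- the value of an `H`-fixed element is an integral power of `v w`. -/
theorem h78_min_val_core (ρ : G →* (F ≃+* F)) (p : ℕ) (w : F) (g : Fin p → G)
    (hdist : Function.Injective fun i => ρ (g i) w)
    (horb : ∀ γ : G, ∃ i, ρ γ w = ρ (g i) w)
    (v : Valuation F Γ₀) (π : F) (hπ0 : π ≠ 0) (hπ : v π < 1) (hw : v w ^ p = v π)
    (hint : ∀ c : F, (∀ γ : G, ρ γ c = c) → c ≠ 0 → ∃ m : ℤ, v c = v π ^ m)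
    (f : F) (hf : ∀ γ : G, ρ γ w = w → ρ γ f = f) (hf0 : f ≠ 0) :
    ∃ n : ℤ, v f = v w ^ n := by
  have hsum := h28_coef_sum ρ p w g hdist horb f hf
  have hc : ∀ j < p, h28_coef ρ p w g f j ≠ 0 →
      ∃ m : ℤ, v (h28_coef ρ p w g f j) = v π ^ m :=
    fun j _ h0 => hint _ (fun γ => h28_coef_fixed ρ p w g hdist horb f hf j γ) h0
  have h0 : ∑ j ∈ range p, h28_coef ρ p w g f j * w ^ j ≠ 0 := by
    rw [← hsum]
    exact hf0
  obtain ⟨j, -, m, hv⟩ := h28_min_val v p π w hπ0 hπ hw (h28_coef ρ p w g f) hc h0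
  have hw0 := h28_min_vw_ne_zero v p π w hπ0 hπ hw
  refine ⟨(p : ℤ) * m + j, ?_⟩
  rw [hsum, hv, ← hw, zpow_add₀ hw0, zpow_mul, zpow_natCast, zpow_natCast]

/-- **(MIN), valuation-ring form**: an `H`-fixed non-unit of `O` is divisible by `w` in `O`. -/
theorem h78_min_core (ρ : G →* (F ≃+* F)) (p : ℕ) (w : F) (g : Fin p → G)
    (hdist : Function.Injective fun i => ρ (g i) w)
    (horb : ∀ γ : G, ∃ i, ρ γ w = ρ (g i) w)
    (O : ValuationSubring F) (π : F) (hπ0 : π ≠ 0) (hπ : O.valuation π < 1)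
    (hw : O.valuation w ^ p = O.valuation π)
    (hint : ∀ c : F, (∀ γ : G, ρ γ c = c) → c ≠ 0 →
      ∃ m : ℤ, O.valuation c = O.valuation π ^ m)
    (f : F) (hf : ∀ γ : G, ρ γ w = w → ρ γ f = f) (hfu : f = 0 ∨ f⁻¹ ∉ O) :
    w⁻¹ * f ∈ O := by
  by_cases hf0 : f = 0
  · rw [hf0, mul_zero]
    exact O.zero_mem
  have hfinv : f⁻¹ ∉ O := hfu.resolve_left hf0
  obtain ⟨n, hn⟩ := h78_min_val_core ρ p w g hdist horb O.valuation π hπ0 hπ hw hint f hf hf0
  have hw0 := h28_min_vw_ne_zero O.valuation p π w hπ0 hπ hw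
  have hw1 := h28_min_vw_lt_one O.valuation p π w hπ hw
  have hwpos : 0 < O.valuation w := zero_lt_iff.mpr hw0
  have hvf : O.valuation f < 1 := by
    have h1 : f ∈ O.nonunits := (ValuationSubring.mem_nonunits_iff_or O).mpr (Or.inr hfinv)
    exact O.mem_nonunits_iff.mp h1
  have hn1 : 1 ≤ n := by
    by_contra hcon
    have h1 : 1 ≤ O.valuation w ^ n := one_le_zpow_of_nonpos₀ hwpos hw1.le (by omega)
    rw [← hn] at h1
    exact absurd hvf (not_lt.mpr h1)
  rw [← O.valuation_le_one_iff, map_mul, map_inv₀, hn]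
  have h2 : (O.valuation w)⁻¹ * O.valuation w ^ n = O.valuation w ^ (n - 1) := by
    rw [zpow_sub₀ hw0, zpow_one, mul_comm, div_eq_mul_inv]
  rw [h2]
  exact zpow_le_one₀ hwpos hw1.le (by omega)

end Core

section Datum

variable {K F k Fb : Type*} [Field K] [Field F] [Algebra K F] [Field k] [Field Fb] [Algebra k Fb]
  {G : Type*} [Group G]

/-- **(MIN), reduction-datum form** (= the hypotheses `hmin₁`, `hmin₂` of `h11_latStar_pair`):
an `H`-fixed element of `R.O` with zero reduction is divisible by `w` in `R.O`. -/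
theorem h78_min_datum (R : h39_RedDatum K F k Fb) (ρ : G →* (F ≃+* F)) (p : ℕ) (w π : K)
    (g : Fin p → G)
    (hdist : Function.Injective fun i => ρ (g i) (algebraMap K F w))
    (horb : ∀ γ : G, ∃ i, ρ γ (algebraMap K F w) = ρ (g i) (algebraMap K F w))
    (hπ0 : π ≠ 0) (hπ : π ∈ R.A.nonunits) (hw : R.A.valuation w ^ p = R.A.valuation π)
    (hint : ∀ c : F, (∀ γ : G, ρ γ c = c) → c ≠ 0 →
      ∃ m : ℤ, algebraMap K F (π ^ m) * c ∈ R.O ∧ (algebraMap K F (π ^ m) * c)⁻¹ ∈ R.O)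
    (f : F) (hf : ∀ γ : G, ρ γ (algebraMap K F w) = algebraMap K F w → ρ γ f = f)
    (hfO : f ∈ R.O) (h0 : R.redF f = 0) : w⁻¹ • f ∈ R.O := by
  have hπF : algebraMap K F π ≠ 0 := by
    rw [Ne, map_eq_zero]
    exact hπ0
  have hπv : R.O.valuation (algebraMap K F π) < 1 := by
    rw [← ValuationSubring.mem_nonunits_iff, ValuationSubring.mem_nonunits_iff_or]
    right
    rcases (ValuationSubring.mem_nonunits_iff_or R.A).mp hπ with h | h
    · exact absurd h hπ0
    · intro hmem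
      rw [← map_inv₀] at hmem
      exact h ((R.mem_iff _).mpr hmem)
  have hwv : R.O.valuation (algebraMap K F w) ^ p = R.O.valuation (algebraMap K F π) := by
    have h1 := h28_val_transport R.A R.O R.mem_iff (w ^ p) π (by rw [map_pow]; exact hw)
    rw [map_pow, map_pow] at h1
    exact h1
  have hint' : ∀ c : F, (∀ γ : G, ρ γ c = c) → c ≠ 0 →
      ∃ m : ℤ, R.O.valuation c = R.O.valuation (algebraMap K F π) ^ m := by
    intro c hc hc0
    obtain ⟨m, h1, h2⟩ := hint c hc hc0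
    refine ⟨-m, ?_⟩
    have h3 : R.O.valuation (algebraMap K F (π ^ m) * c) = 1 := by
      apply le_antisymm ((R.O.valuation_le_one_iff _).mpr h1)
      have h4 := (R.O.valuation_le_one_iff _).mpr h2
      rw [map_inv₀] at h4
      have h5 : R.O.valuation (algebraMap K F (π ^ m) * c) ≠ 0 := by
        rw [Ne, map_eq_zero]
        refine mul_ne_zero ?_ hc0
        rw [Ne, map_eq_zero]
        exact zpow_ne_zero _ hπ0
      have h6 := mul_le_mul_left h4 (R.O.valuation (algebraMap K F (π ^ m) * c))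
      rwa [inv_mul_cancel₀ h5, one_mul] at h6
    rw [map_mul, map_zpow₀, map_zpow₀] at h3
    have h7 : R.O.valuation (algebraMap K F π) ≠ 0 := by
      rw [Ne, map_eq_zero]
      exact hπF
    rw [zpow_neg]
    exact eq_inv_of_mul_eq_one_right h3
  have hfu := (h39_redF_eq_zero_iff R hfO).mp h0
  have key := h78_min_core ρ p (algebraMap K F w) g hdist horb R.O (algebraMap K F π) hπF hπv hwv
    hint' f hf hfu
  rw [Algebra.smul_def, map_inv₀]
  exact key

end Datum

end Fermat.Agent.S40
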