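import Mathlib
import Fermat.Agent.S18.GR_RedAPI
import Fermat.Agent.S40.h28_Interp
import Fermat.Agent.S40.h12_KummerEis
import Fermat.Agent.S40.h78_MinCore
import Fermat.Agent.S36.h69_K0

/-!
# S40 / W3 (LAT*): the hypothesis (MIN) at the modular level (helper78)

* `h78_min_semilinear` : semilinear form.  `Γ` acts on `F/K` by semilinear automorphisms, `I ≤ Γ`,
  `w ∈ K` with `I`-orbit of Kummer shape (`γ (1 + w) = ζ^j (1 + w)`, every `j` occurring),
  `v(w)^p = v(π) < 1`, INT-BASE for the `I`-fixed functions (unit form).  Then a function `f`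
  fixed by `Stab_I(w)`, lying in `R.O` with zero reduction, is divisible by `w` in `R.O`.
* `h78_min_mod` : the instance for `F̄(N)`, `I` the inertia group of `A` over `p`, and `(z, w)`
  of the form delivered by W0 (`h12_kummer_cases`): `(1 + w)^p = 1 + p z`, `z` an `I`-fixed unit.
  This is `hmin₁` / `hmin₂` of `h11_latStar_pair` / `h78_latStar_pair_W` for
  `S0 = {f | ∀ σ ∈ I, σ w = w → σ • f = f}`; the only remaining hypothesis is INT-BASE for the
  datum `R` (helper47's `h47_int_base_R1` / `h47_int_base_R2` shape).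
-/

set_option autoImplicit false

noncomputable section

open AlgebraicCurve ModularCurve

namespace Fermat.Agent.S40

open Fermat.Agent.S18

local notation "Qb" => AlgebraicClosure ℚ

section Semilinear

variable {K F k Fb : Type*} [Field K] [Field F] [Algebra K F] [Field k] [Field Fb] [Algebra k Fb]
  {Γ : Type*} [Group Γ]

/-- the action of a subgroup on `F` by ring automorphisms. -/
def h78_rho (act : Γ →* SemilinearAut K F) (I : Subgroup Γ) : ↥I →* (F ≃+* F) where
  toFun γ := SemilinearAut.toRingAut (act (γ : Γ))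
  map_one' := by
    rw [Subgroup.coe_one, map_one]
    rfl
  map_mul' a b := by
    rw [Subgroup.coe_mul, map_mul]
    rfl

theorem h78_rho_apply (act : Γ →* SemilinearAut K F) (I : Subgroup Γ) (γ : ↥I) (f : F) :
    h78_rho act I γ f = act (γ : Γ) • f := rfl

theorem h78_rho_algebraMap (act : Γ →* SemilinearAut K F) (I : Subgroup Γ) (γ : ↥I) (a : K) :
    h78_rho act I γ (algebraMap K F a) =
      algebraMap K F (SemilinearAut.baseAut (act (γ : Γ)) a) := by
  rw [h78_rho_apply, SemilinearAut.smul_algebraMap]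

/-- **(MIN), semilinear form.** -/
theorem h78_min_semilinear (act : Γ →* SemilinearAut K F) (I : Subgroup Γ)
    (R : h39_RedDatum K F k Fb) (p : ℕ) (hp : p ≠ 0) (ζ w π : K) (hζ : IsPrimitiveRoot ζ p)
    (hw1 : 1 + w ≠ 0)
    (h1 : ∀ γ ∈ I, ∃ j : ℕ, SemilinearAut.baseAut (act γ) (1 + w) = ζ ^ j * (1 + w))
    (h2 : ∀ j : ℕ, ∃ γ ∈ I, SemilinearAut.baseAut (act γ) (1 + w) = ζ ^ j * (1 + w))
    (hπ0 : π ≠ 0) (hπ : π ∈ R.A.nonunits) (hw : R.A.valuation w ^ p = R.A.valuation π)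
    (hint : ∀ c : F, (∀ γ ∈ I, act γ • c = c) → c ≠ 0 →
      ∃ m : ℤ, algebraMap K F (π ^ m) * c ∈ R.O ∧ (algebraMap K F (π ^ m) * c)⁻¹ ∈ R.O)
    (f : F) (hf : ∀ γ ∈ I, SemilinearAut.baseAut (act γ) w = w → act γ • f = f)
    (hfO : f ∈ R.O) (h0 : R.redF f = 0) : w⁻¹ • f ∈ R.O := by
  have hinj : Function.Injective (algebraMap K F) := (algebraMap K F).injective
  have hζF : IsPrimitiveRoot (algebraMap K F ζ) p := hζ.map_of_injective hinj
  have hw1F : 1 + algebraMap K F w ≠ 0 := by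
    rw [← map_one (algebraMap K F), ← map_add, Ne, map_eq_zero]
    exact hw1
  have hkey : ∀ (γ : ↥I) (j : ℕ),
      SemilinearAut.baseAut (act (γ : Γ)) (1 + w) = ζ ^ j * (1 + w) →
      h78_rho act I γ (1 + algebraMap K F w) =
        algebraMap K F ζ ^ j * (1 + algebraMap K F w) := by
    intro γ j h
    have h3 : (1 : F) + algebraMap K F w = algebraMap K F (1 + w) := by
      rw [map_add, map_one]
    rw [h3, h78_rho_algebraMap, h, map_mul, map_pow]
  obtain ⟨g, hdist, horb, -⟩ := h28_orbit_of_kummer (h78_rho act I) p (algebraMap K F ζ)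
    (algebraMap K F w) hζF hp hw1F
    (fun γ => by
      obtain ⟨j, hj⟩ := h1 γ γ.2
      exact ⟨j, hkey γ j hj⟩)
    (fun j => by
      obtain ⟨γ, hγ, hj⟩ := h2 j
      exact ⟨⟨γ, hγ⟩, hkey ⟨γ, hγ⟩ j hj⟩)
  refine h78_min_datum R (h78_rho act I) p w π g hdist horb hπ0 hπ hw ?_ f ?_ hfO h0
  · intro c hc hc0
    exact hint c (fun γ hγ => hc ⟨γ, hγ⟩) hc0
  · intro γ hγ
    rw [h78_rho_algebraMap] at hγ
    exact hf γ γ.2 (hinj hγ)

end Semilinear

section Modular

variable {k Fb : Type*} [Field k] [Field Fb] [Algebra k Fb]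

/-- **(MIN) at the modular level**: `A` over `p`, `(z, w)` of the W0 form, `R` a reduction datum
of `F̄(N)` over `A` satisfying INT-BASE.  A function fixed by the stabiliser of `w` in the inertia
group, lying in `R.O` with zero reduction, is divisible by `w` in `R.O`. -/
theorem h78_min_mod (N : ℕ) (p : ℕ) [Fact p.Prime] (hp2 : p ≠ 2) (A : ValuationSubring Qb)
    (hA : A.LiesOverPrime p) (ζ : Qb) (hζ : IsPrimitiveRoot ζ p) (z w : Qb)
    (hz : A.valuation z = 1) (hzI : ∀ g ∈ A.inertiaSubgroupIn ℚ, g z = z)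
    (hw : (1 + w) ^ p = 1 + (p : Qb) * z)
    (R : h39_RedDatum Qb ↥(modularFunctionFieldBar N) k Fb) (hRA : R.A = A)
    (hint : ∀ c : ↥(modularFunctionFieldBar N),
      (∀ σ ∈ A.inertiaSubgroupIn ℚ, arithmeticGalois (modularFunctionFieldFull N) σ • c = c) →
      c ≠ 0 → ∃ m : ℤ,
        algebraMap Qb ↥(modularFunctionFieldBar N) ((p : Qb) ^ m) * c ∈ R.O ∧
        (algebraMap Qb ↥(modularFunctionFieldBar N) ((p : Qb) ^ m) * c)⁻¹ ∈ R.O)
    (f : ↥(modularFunctionFieldBar N))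
    (hf : ∀ σ ∈ A.inertiaSubgroupIn ℚ, σ w = w →
      arithmeticGalois (modularFunctionFieldFull N) σ • f = f)
    (hfO : f ∈ R.O) (h0 : R.redF f = 0) : w⁻¹ • f ∈ R.O := by
  have hp : p.Prime := Fact.out
  obtain ⟨-, hwv, -, -, h5, h6⟩ := h12_eis p hp2 A hA ζ hζ z w hz hzI hw
  have hw1 := (h12_eis_ne_zero p A hA z w hz hw).1
  subst hRA
  exact h78_min_semilinear (arithmeticGalois (modularFunctionFieldFull N))
    (R.A.inertiaSubgroupIn ℚ) R p hp.ne_zero ζ w (p : Qb) hζ hw1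
    (fun γ hγ => by
      obtain ⟨j, -, hj⟩ := h5 γ hγ
      exact ⟨j, hj⟩)
    (fun j => by
      obtain ⟨γ, hγ, -, hj⟩ := h6 j
      exact ⟨γ, hγ, hj⟩)
    (Nat.cast_ne_zero.mpr hp.ne_zero) hA hwv hint f hf hfO h0

end Modular

end Fermat.Agent.S40
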