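import Mathlib
import Fermat.Agent.S36.h6_VertVal
import Fermat.Agent.S40.h12_KummerEis
import Fermat.Agent.S40.h78_MinMod

/-!
# S40 / (TR): the scale of an `H`-fixed function is a power of `w` (helper11)

`(z, w)` is a pair of the W0 form (`(1 + w)^p = 1 + p z`, `z` an inertia-fixed unit of `A`),
`I` the inertia group of `A`, `H = Stab_I(w)`; "`H`-fixed" is spelled
`∀ σ ∈ I, σ w = w → σ • f = f`.

By W1 (MIN) the value of an `H`-fixed function under a valuation satisfying INT-BASE is an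
integral power of `v(w)` (`h78_min_val_core`).  Hence an `H`-fixed `u ≠ 0` has a scale which is
a POWER OF `w`: `u / w^a` is a unit of `R.O` for some `a : ℤ`, and `u / w^a` is again `H`-fixed.

* `h11_hval_datum`      : generic value statement for an S18 reduction datum;
* `h11_unit_of_val`     : `v(f) = v(w)^n` gives `f / w^n ∈ R.O^×`, `R.redF (f / w^n) ≠ 0`;
* `h11_hscale_semilinear`, `h11_hscale_mod` : semilinear / modular forms (INT-BASE a hypothesis);
* `h11_hscale_R1`, `h11_hscale_R2` : the charted level `M p`, no open hypothesis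
  (INT-BASE = `h6_R1_unit_scale` / `h6_R2_unit_scale`);
* `h11_hscale_pair` : both at once, with the `H`-fixedness of the normalised functions.
-/

set_option autoImplicit false

noncomputable section

open AlgebraicCurve ModularCurve

namespace Fermat.Agent.S40

open Fermat.Agent.S18 Fermat.Agent.S34 Fermat.Agent.S36

local notation "Qb" => AlgebraicClosure ℚ

section Datum

variable {K F k Fb : Type*} [Field K] [Field F] [Algebra K F] [Field k] [Field Fb] [Algebra k Fb]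
  {G : Type*} [Group G]

/-- the value of an `H`-fixed function is an integral power of `v(w)` (reduction-datum form of
`h78_min_val_core`, same hypotheses as `h78_min_datum`). -/
theorem h11_hval_datum (R : h39_RedDatum K F k Fb) (ρ : G →* (F ≃+* F)) (p : ℕ) (w π : K)
    (g : Fin p → G)
    (hdist : Function.Injective fun i => ρ (g i) (algebraMap K F w))
    (horb : ∀ γ : G, ∃ i, ρ γ (algebraMap K F w) = ρ (g i) (algebraMap K F w))
    (hπ0 : π ≠ 0) (hπ : π ∈ R.A.nonunits) (hw : R.A.valuation w ^ p = R.A.valuation π)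
    (hint : ∀ c : F, (∀ γ : G, ρ γ c = c) → c ≠ 0 →
      ∃ m : ℤ, algebraMap K F (π ^ m) * c ∈ R.O ∧ (algebraMap K F (π ^ m) * c)⁻¹ ∈ R.O)
    (f : F) (hf : ∀ γ : G, ρ γ (algebraMap K F w) = algebraMap K F w → ρ γ f = f)
    (hf0 : f ≠ 0) :
    ∃ n : ℤ, R.O.valuation f = R.O.valuation (algebraMap K F w) ^ n := by
  have hπF : algebraMap K F π ≠ 0 := by
    rw [Ne, map_eq_zero]
    exact hπ0
  have hπv : R.O.valuation (algebraMap K F π) < 1 := by
    rw [← ValuationSubring.mem_nonunits_iff, ValuationSubring.mem_nonunits_iff_or]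
    right
    rcases (ValuationSubring.mem_nonunits_iff_or R.A).mp hπ with h | h
    · exact absurd h hπ0
    · intro hmem
      rw [← map_inv₀] at hmem
      exact h ((R.mem_iff _).mpr hmem)
  have hwv : R.O.valuation (algebraMap K F w) ^ p = R.O.valuation (algebraMap K F π) := by
    have h1 := h28_val_transport R.A R.O R.mem_iff (w ^ p) π (by rw [map_pow]; exact hw)
    rw [map_pow, map_pow] at h1
    exact h1
  have hint' : ∀ c : F, (∀ γ : G, ρ γ c = c) → c ≠ 0 →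
      ∃ m : ℤ, R.O.valuation c = R.O.valuation (algebraMap K F π) ^ m := by
    intro c hc hc0
    obtain ⟨m, h1, h2⟩ := hint c hc hc0
    refine ⟨-m, ?_⟩
    have h3 : R.O.valuation (algebraMap K F (π ^ m) * c) = 1 := by
      apply le_antisymm ((R.O.valuation_le_one_iff _).mpr h1)
      have h4 := (R.O.valuation_le_one_iff _).mpr h2
      rw [map_inv₀] at h4
      have h5 : R.O.valuation (algebraMap K F (π ^ m) * c) ≠ 0 := by
        rw [Ne, map_eq_zero]
        refine mul_ne_zero ?_ hc0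
        rw [Ne, map_eq_zero]
        exact zpow_ne_zero _ hπ0
      have h6 := mul_le_mul_left h4 (R.O.valuation (algebraMap K F (π ^ m) * c))
      rwa [inv_mul_cancel₀ h5, one_mul] at h6
    rw [map_mul, map_zpow₀, map_zpow₀] at h3
    rw [zpow_neg]
    exact eq_inv_of_mul_eq_one_right h3
  exact h78_min_val_core ρ p (algebraMap K F w) g hdist horb R.O.valuation (algebraMap K F π)
    hπF hπv hwv hint' f hf hf0

/-- a function whose value is `v(w)^n` becomes a unit of `R.O` after division by `w^n`. -/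
theorem h11_unit_of_val (R : h39_RedDatum K F k Fb) {w : K} (hw0 : w ≠ 0) {f : F} (hf0 : f ≠ 0)
    {n : ℤ} (h : R.O.valuation f = R.O.valuation (algebraMap K F w) ^ n) :
    f / algebraMap K F (w ^ n) ∈ R.O ∧ (f / algebraMap K F (w ^ n))⁻¹ ∈ R.O ∧
      R.redF (f / algebraMap K F (w ^ n)) ≠ 0 := by
  have hwF : algebraMap K F w ≠ 0 := by
    rw [Ne, map_eq_zero]
    exact hw0
  have hv0 : R.O.valuation (algebraMap K F w) ^ n ≠ 0 :=
    zpow_ne_zero _ ((Valuation.ne_zero_iff _).2 hwF)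
  have hval : R.O.valuation (f / algebraMap K F (w ^ n)) = 1 := by
    rw [map_div₀, map_zpow₀, map_zpow₀, h, div_self hv0]
  have h1 : f / algebraMap K F (w ^ n) ∈ R.O := by
    rw [← ValuationSubring.valuation_le_one_iff, hval]
  have h2 : (f / algebraMap K F (w ^ n))⁻¹ ∈ R.O := by
    rw [← ValuationSubring.valuation_le_one_iff, map_inv₀, hval, inv_one]
  refine ⟨h1, h2, fun h0 => ?_⟩
  rcases (h39_redF_eq_zero_iff R h1).mp h0 with h' | h'
  · have h3 : algebraMap K F (w ^ n) ≠ 0 := by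
      rw [Ne, map_eq_zero]
      exact zpow_ne_zero _ hw0
    exact (div_ne_zero hf0 h3) h'
  · exact h' h2

end Datum

section Semilinear

variable {K F k Fb : Type*} [Field K] [Field F] [Algebra K F] [Field k] [Field Fb] [Algebra k Fb]
  {Γ : Type*} [Group Γ]

/-- **H-UNIT-SCALE, semilinear form** (hypotheses of `h78_min_semilinear`). -/
theorem h11_hscale_semilinear (act : Γ →* SemilinearAut K F) (I : Subgroup Γ)
    (R : h39_RedDatum K F k Fb) (p : ℕ) (hp : p ≠ 0) (ζ w π : K) (hζ : IsPrimitiveRoot ζ p)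
    (hw1 : 1 + w ≠ 0) (hw0 : w ≠ 0)
    (h1 : ∀ γ ∈ I, ∃ j : ℕ, SemilinearAut.baseAut (act γ) (1 + w) = ζ ^ j * (1 + w))
    (h2 : ∀ j : ℕ, ∃ γ ∈ I, SemilinearAut.baseAut (act γ) (1 + w) = ζ ^ j * (1 + w))
    (hπ0 : π ≠ 0) (hπ : π ∈ R.A.nonunits) (hw : R.A.valuation w ^ p = R.A.valuation π)
    (hint : ∀ c : F, (∀ γ ∈ I, act γ • c = c) → c ≠ 0 →
      ∃ m : ℤ, algebraMap K F (π ^ m) * c ∈ R.O ∧ (algebraMap K F (π ^ m) * c)⁻¹ ∈ R.O)
    (f : F) (hf : ∀ γ ∈ I, SemilinearAut.baseAut (act γ) w = w → act γ • f = f)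
    (hf0 : f ≠ 0) :
    ∃ a : ℤ, f / algebraMap K F (w ^ a) ∈ R.O ∧ (f / algebraMap K F (w ^ a))⁻¹ ∈ R.O ∧
      R.redF (f / algebraMap K F (w ^ a)) ≠ 0 := by
  have hinj : Function.Injective (algebraMap K F) := (algebraMap K F).injective
  have hζF : IsPrimitiveRoot (algebraMap K F ζ) p := hζ.map_of_injective hinj
  have hw1F : 1 + algebraMap K F w ≠ 0 := by
    rw [← map_one (algebraMap K F), ← map_add, Ne, map_eq_zero]
    exact hw1
  have hkey : ∀ (γ : ↥I) (j : ℕ),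
      SemilinearAut.baseAut (act (γ : Γ)) (1 + w) = ζ ^ j * (1 + w) →
      h78_rho act I γ (1 + algebraMap K F w) =
        algebraMap K F ζ ^ j * (1 + algebraMap K F w) := by
    intro γ j h
    have h3 : (1 : F) + algebraMap K F w = algebraMap K F (1 + w) := by
      rw [map_add, map_one]
    rw [h3, h78_rho_algebraMap, h, map_mul, map_pow]
  obtain ⟨g, hdist, horb, -⟩ := h28_orbit_of_kummer (h78_rho act I) p (algebraMap K F ζ)
    (algebraMap K F w) hζF hp hw1F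
    (fun γ => by
      obtain ⟨j, hj⟩ := h1 γ γ.2
      exact ⟨j, hkey γ j hj⟩)
    (fun j => by
      obtain ⟨γ, hγ, hj⟩ := h2 j
      exact ⟨⟨γ, hγ⟩, hkey ⟨γ, hγ⟩ j hj⟩)
  obtain ⟨n, hn⟩ := h11_hval_datum R (h78_rho act I) p w π g hdist horb hπ0 hπ hw
    (fun c hc hc0 => hint c (fun γ hγ => hc ⟨γ, hγ⟩) hc0) f
    (fun γ hγ => by
      rw [h78_rho_algebraMap] at hγ
      exact hf γ γ.2 (hinj hγ))
    hf0
  exact ⟨n, h11_unit_of_val R hw0 hf0 hn⟩

end Semilinear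

section Modular

variable {k Fb : Type*} [Field k] [Field Fb] [Algebra k Fb]

/-- **H-UNIT-SCALE at the modular level** (hypotheses of `h78_min_mod`): `A` over `p`, `(z, w)`
of the W0 form, `R` a reduction datum of `F̄(N)` over `A` satisfying INT-BASE.  A nonzero
function fixed by the stabiliser of `w` in the inertia group has a scale `w ^ a`, `a : ℤ`. -/
theorem h11_hscale_mod (N : ℕ) (p : ℕ) [Fact p.Prime] (hp2 : p ≠ 2) (A : ValuationSubring Qb)
    (hA : A.LiesOverPrime p) (ζ : Qb) (hζ : IsPrimitiveRoot ζ p) (z w : Qb)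
    (hz : A.valuation z = 1) (hzI : ∀ g ∈ A.inertiaSubgroupIn ℚ, g z = z)
    (hw : (1 + w) ^ p = 1 + (p : Qb) * z)
    (R : h39_RedDatum Qb ↥(modularFunctionFieldBar N) k Fb) (hRA : R.A = A)
    (hint : ∀ c : ↥(modularFunctionFieldBar N),
      (∀ σ ∈ A.inertiaSubgroupIn ℚ, arithmeticGalois (modularFunctionFieldFull N) σ • c = c) →
      c ≠ 0 → ∃ m : ℤ,
        algebraMap Qb ↥(modularFunctionFieldBar N) ((p : Qb) ^ m) * c ∈ R.O ∧
        (algebraMap Qb ↥(modularFunctionFieldBar N) ((p : Qb) ^ m) * c)⁻¹ ∈ R.O)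
    (f : ↥(modularFunctionFieldBar N))
    (hf : ∀ σ ∈ A.inertiaSubgroupIn ℚ, σ w = w →
      arithmeticGalois (modularFunctionFieldFull N) σ • f = f)
    (hf0 : f ≠ 0) :
    ∃ a : ℤ, f / algebraMap Qb ↥(modularFunctionFieldBar N) (w ^ a) ∈ R.O ∧
      (f / algebraMap Qb ↥(modularFunctionFieldBar N) (w ^ a))⁻¹ ∈ R.O ∧
      R.redF (f / algebraMap Qb ↥(modularFunctionFieldBar N) (w ^ a)) ≠ 0 := by
  have hp : p.Prime := Fact.out
  obtain ⟨-, hwv, -, -, h5, h6⟩ := h12_eis p hp2 A hA ζ hζ z w hz hzI hw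
  obtain ⟨hw1, hw0⟩ := h12_eis_ne_zero p A hA z w hz hw
  subst hRA
  exact h11_hscale_semilinear (arithmeticGalois (modularFunctionFieldFull N))
    (R.A.inertiaSubgroupIn ℚ) R p hp.ne_zero ζ w (p : Qb) hζ hw1 hw0
    (fun γ hγ => by
      obtain ⟨j, -, hj⟩ := h5 γ hγ
      exact ⟨j, hj⟩)
    (fun j => by
      obtain ⟨γ, hγ, -, hj⟩ := h6 j
      exact ⟨γ, hγ, hj⟩)
    (Nat.cast_ne_zero.mpr hp.ne_zero) hA hwv hint f hf hf0

/-- division by a power of `w` preserves `H`-fixedness. -/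
theorem h11_hfixed_div (N : ℕ) (w : Qb) (a : ℤ) (f : ↥(modularFunctionFieldBar N))
    (σ : Qb ≃ₐ[ℚ] Qb) (hσw : σ w = w)
    (hf : arithmeticGalois (modularFunctionFieldFull N) σ • f = f) :
    arithmeticGalois (modularFunctionFieldFull N) σ •
        (f / algebraMap Qb ↥(modularFunctionFieldBar N) (w ^ a)) =
      f / algebraMap Qb ↥(modularFunctionFieldBar N) (w ^ a) := by
  have h1 : SemilinearAut.baseAut (arithmeticGalois (modularFunctionFieldFull N) σ)
      ((w ^ a)⁻¹) = (w ^ a)⁻¹ := by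
    rw [baseAut_arithmeticGalois]
    show σ ((w ^ a)⁻¹) = (w ^ a)⁻¹
    rw [map_inv₀, map_zpow₀, hσw]
  rw [div_eq_mul_inv, ← map_inv₀, _root_.smul_mul', hf, SemilinearAut.smul_algebraMap, h1]

/-- division by an `σ`-fixed constant preserves `σ`-fixedness. -/
theorem h11_hfixed_div_const (N : ℕ) (c : Qb) (f : ↥(modularFunctionFieldBar N))
    (σ : Qb ≃ₐ[ℚ] Qb) (hσc : σ c = c)
    (hf : arithmeticGalois (modularFunctionFieldFull N) σ • f = f) :
    arithmeticGalois (modularFunctionFieldFull N) σ •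
        (f / algebraMap Qb ↥(modularFunctionFieldBar N) c) =
      f / algebraMap Qb ↥(modularFunctionFieldBar N) c := by
  have h1 : SemilinearAut.baseAut (arithmeticGalois (modularFunctionFieldFull N) σ) c⁻¹ = c⁻¹ := by
    rw [baseAut_arithmeticGalois]
    show σ c⁻¹ = c⁻¹
    rw [map_inv₀, hσc]
  rw [div_eq_mul_inv, ← map_inv₀, _root_.smul_mul', hf, SemilinearAut.smul_algebraMap, h1]

/-- the inverse of a `σ`-fixed function is `σ`-fixed. -/
theorem h11_hfixed_inv (N : ℕ) (f : ↥(modularFunctionFieldBar N)) (σ : Qb ≃ₐ[ℚ] Qb)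
    (hf : arithmeticGalois (modularFunctionFieldFull N) σ • f = f) :
    arithmeticGalois (modularFunctionFieldFull N) σ • f⁻¹ = f⁻¹ := by
  rw [_root_.smul_inv'', hf]

end Modular

section Charted

variable (M p : ℕ) [NeZero M] [NeZero p] [Fact p.Prime] (hp2 : p ≠ 2) (hpM : ¬ p ∣ M)
  (A : ValuationSubring Qb) (hA : A.LiesOverPrime p)

include hp2 in
/-- **H-UNIT-SCALE for `R₁` at the charted level, no open hypothesis.** -/
theorem h11_hscale_R1 (ζ : Qb) (hζ : IsPrimitiveRoot ζ p) (z w : Qb)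
    (hz : A.valuation z = 1) (hzI : ∀ g ∈ A.inertiaSubgroupIn ℚ, g z = z)
    (hw : (1 + w) ^ p = 1 + (p : Qb) * z)
    (u : ↥(modularFunctionFieldBar (M * p))) (hu0 : u ≠ 0)
    (hu : ∀ σ ∈ A.inertiaSubgroupIn ℚ, σ w = w →
      arithmeticGalois (modularFunctionFieldFull (M * p)) σ • u = u) :
    ∃ a : ℤ,
      u / algebraMap Qb ↥(modularFunctionFieldBar (M * p)) (w ^ a) ∈ (h60_R1 M p hpM A hA).O ∧
      (u / algebraMap Qb ↥(modularFunctionFieldBar (M * p)) (w ^ a))⁻¹ ∈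
        (h60_R1 M p hpM A hA).O ∧
      (h60_R1 M p hpM A hA).redF
        (u / algebraMap Qb ↥(modularFunctionFieldBar (M * p)) (w ^ a)) ≠ 0 ∧
      ∀ σ ∈ A.inertiaSubgroupIn ℚ, σ w = w →
        arithmeticGalois (modularFunctionFieldFull (M * p)) σ •
            (u / algebraMap Qb ↥(modularFunctionFieldBar (M * p)) (w ^ a)) =
          u / algebraMap Qb ↥(modularFunctionFieldBar (M * p)) (w ^ a) := by
  have hint₁ : ∀ g : ↥(modularFunctionFieldBar (M * p)),
      (∀ σ ∈ A.inertiaSubgroupIn ℚ,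
        arithmeticGalois (modularFunctionFieldFull (M * p)) σ • g = g) → g ≠ 0 → ∃ m : ℤ,
        algebraMap Qb ↥(modularFunctionFieldBar (M * p)) ((p : Qb) ^ m) * g ∈
          (h60_R1 M p hpM A hA).O ∧
        (algebraMap Qb ↥(modularFunctionFieldBar (M * p)) ((p : Qb) ^ m) * g)⁻¹ ∈
          (h60_R1 M p hpM A hA).O := by
    intro g hg hg0
    obtain ⟨m, h1, h2⟩ := h6_R1_unit_scale M p hpM A hA g hg0 hg
    refine ⟨-m, ?_, ?_⟩
    · rw [map_zpow₀]
      exact h1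
    · rw [map_zpow₀]
      exact h2
  obtain ⟨a, h1, h2, h3⟩ := h11_hscale_mod (M * p) p hp2 A hA ζ hζ z w hz hzI hw
    (h60_R1 M p hpM A hA) (h60_R1_A M p hpM A hA) hint₁ u hu hu0
  exact ⟨a, h1, h2, h3, fun σ hσ hσw => h11_hfixed_div (M * p) w a u σ hσw (hu σ hσ hσw)⟩

include hp2 in
/-- **H-UNIT-SCALE for `R₂` at the charted level, no open hypothesis.** -/
theorem h11_hscale_R2 (ζ : Qb) (hζ : IsPrimitiveRoot ζ p) (z w : Qb)
    (hz : A.valuation z = 1) (hzI : ∀ g ∈ A.inertiaSubgroupIn ℚ, g z = z)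
    (hw : (1 + w) ^ p = 1 + (p : Qb) * z)
    (u : ↥(modularFunctionFieldBar (M * p))) (hu0 : u ≠ 0)
    (hu : ∀ σ ∈ A.inertiaSubgroupIn ℚ, σ w = w →
      arithmeticGalois (modularFunctionFieldFull (M * p)) σ • u = u) :
    ∃ b : ℤ,
      u / algebraMap Qb ↥(modularFunctionFieldBar (M * p)) (w ^ b) ∈ (h60_R2 M p hpM A hA).O ∧
      (u / algebraMap Qb ↥(modularFunctionFieldBar (M * p)) (w ^ b))⁻¹ ∈
        (h60_R2 M p hpM A hA).O ∧
      (h60_R2 M p hpM A hA).redF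
        (u / algebraMap Qb ↥(modularFunctionFieldBar (M * p)) (w ^ b)) ≠ 0 ∧
      ∀ σ ∈ A.inertiaSubgroupIn ℚ, σ w = w →
        arithmeticGalois (modularFunctionFieldFull (M * p)) σ •
            (u / algebraMap Qb ↥(modularFunctionFieldBar (M * p)) (w ^ b)) =
          u / algebraMap Qb ↥(modularFunctionFieldBar (M * p)) (w ^ b) := by
  have hint₂ : ∀ g : ↥(modularFunctionFieldBar (M * p)),
      (∀ σ ∈ A.inertiaSubgroupIn ℚ,
        arithmeticGalois (modularFunctionFieldFull (M * p)) σ • g = g) → g ≠ 0 → ∃ m : ℤ,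
        algebraMap Qb ↥(modularFunctionFieldBar (M * p)) ((p : Qb) ^ m) * g ∈
          (h60_R2 M p hpM A hA).O ∧
        (algebraMap Qb ↥(modularFunctionFieldBar (M * p)) ((p : Qb) ^ m) * g)⁻¹ ∈
          (h60_R2 M p hpM A hA).O := by
    intro g hg hg0
    obtain ⟨m, h1, h2⟩ := h6_R2_unit_scale M p hpM A hA g hg0 hg
    refine ⟨-m, ?_, ?_⟩
    · rw [map_zpow₀]
      exact h1
    · rw [map_zpow₀]
      exact h2
  obtain ⟨b, h1, h2, h3⟩ := h11_hscale_mod (M * p) p hp2 A hA ζ hζ z w hz hzI hw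
    (h60_R2 M p hpM A hA) (h60_R2_A M p hpM A hA) hint₂ u hu hu0
  exact ⟨b, h1, h2, h3, fun σ hσ hσw => h11_hfixed_div (M * p) w b u σ hσw (hu σ hσ hσw)⟩

include hp2 in
/-- **The normalised pair `(u₁, u₂)` of an `H`-fixed `u`**, given the conclusion of W8
(`h85_wnorm` at `c₁ = w ^ a`) as the hypothesis `hW8`:
`u₁ = u / w^a` is an `R₁`-unit, `u₂ = u / (w^a p^κ)` an `R₂`-unit, `u₁ = p^κ u₂`, and
`u₁, u₂` and their inverses are `H`-fixed. -/
theorem h11_hscale_pair (ζ : Qb) (hζ : IsPrimitiveRoot ζ p) (z w : Qb)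
    (hz : A.valuation z = 1) (hzI : ∀ g ∈ A.inertiaSubgroupIn ℚ, g z = z)
    (hw : (1 + w) ^ p = 1 + (p : Qb) * z)
    (u : ↥(modularFunctionFieldBar (M * p))) (hu0 : u ≠ 0)
    (hu : ∀ σ ∈ A.inertiaSubgroupIn ℚ, σ w = w →
      arithmeticGalois (modularFunctionFieldFull (M * p)) σ • u = u)
    (hW8 : ∀ a : ℤ,
      u / algebraMap Qb ↥(modularFunctionFieldBar (M * p)) (w ^ a) ∈ (h60_R1 M p hpM A hA).O →
      (h60_R1 M p hpM A hA).redF
        (u / algebraMap Qb ↥(modularFunctionFieldBar (M * p)) (w ^ a)) ≠ 0 →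
      ∃ κ : ℤ,
        u / algebraMap Qb ↥(modularFunctionFieldBar (M * p)) (w ^ a * (p : Qb) ^ κ) ∈
          (h60_R2 M p hpM A hA).O ∧
        (h60_R2 M p hpM A hA).redF
          (u / algebraMap Qb ↥(modularFunctionFieldBar (M * p)) (w ^ a * (p : Qb) ^ κ)) ≠ 0) :
    ∃ (a κ : ℤ) (u₁ u₂ : ↥(modularFunctionFieldBar (M * p))),
      u₁ = u / algebraMap Qb ↥(modularFunctionFieldBar (M * p)) (w ^ a) ∧
      u₂ = u / algebraMap Qb ↥(modularFunctionFieldBar (M * p)) (w ^ a * (p : Qb) ^ κ) ∧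
      u₁ ≠ 0 ∧ u₂ ≠ 0 ∧
      u₁ = algebraMap Qb ↥(modularFunctionFieldBar (M * p)) (p : Qb) ^ κ * u₂ ∧
      u₁ = algebraMap Qb ↥(modularFunctionFieldBar (M * p)) ((p : Qb) ^ κ) * u₂ ∧
      (u₁ ∈ (h60_R1 M p hpM A hA).O ∧ u₁⁻¹ ∈ (h60_R1 M p hpM A hA).O ∧
        (h60_R1 M p hpM A hA).redF u₁ ≠ 0) ∧
      (u₂ ∈ (h60_R2 M p hpM A hA).O ∧ u₂⁻¹ ∈ (h60_R2 M p hpM A hA).O ∧
        (h60_R2 M p hpM A hA).redF u₂ ≠ 0) ∧
      (∀ σ ∈ A.inertiaSubgroupIn ℚ, σ w = w →
        arithmeticGalois (modularFunctionFieldFull (M * p)) σ • u₁ = u₁ ∧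
        arithmeticGalois (modularFunctionFieldFull (M * p)) σ • u₁⁻¹ = u₁⁻¹ ∧
        arithmeticGalois (modularFunctionFieldFull (M * p)) σ • u₂ = u₂ ∧
        arithmeticGalois (modularFunctionFieldFull (M * p)) σ • u₂⁻¹ = u₂⁻¹) := by
  have hp : p.Prime := Fact.out
  have hp0 : (p : Qb) ≠ 0 := Nat.cast_ne_zero.mpr hp.ne_zero
  have hw0 : w ≠ 0 := (h12_eis_ne_zero p A hA z w hz hw).2
  obtain ⟨a, h1, h2, h3, h4⟩ := h11_hscale_R1 M p hp2 hpM A hA ζ hζ z w hz hzI hw u hu0 hu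
  obtain ⟨κ, h5, h6⟩ := hW8 a h1 h3
  have hc0 : w ^ a * (p : Qb) ^ κ ≠ 0 := mul_ne_zero (zpow_ne_zero _ hw0) (zpow_ne_zero _ hp0)
  have hcF : algebraMap Qb ↥(modularFunctionFieldBar (M * p)) (w ^ a * (p : Qb) ^ κ) ≠ 0 := by
    rw [Ne, map_eq_zero]
    exact hc0
  have hwF : algebraMap Qb ↥(modularFunctionFieldBar (M * p)) (w ^ a) ≠ 0 := by
    rw [Ne, map_eq_zero]
    exact zpow_ne_zero _ hw0
  have hpF : algebraMap Qb ↥(modularFunctionFieldBar (M * p)) ((p : Qb) ^ κ) ≠ 0 := by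
    rw [Ne, map_eq_zero]
    exact zpow_ne_zero _ hp0
  have hu20 : u / algebraMap Qb ↥(modularFunctionFieldBar (M * p)) (w ^ a * (p : Qb) ^ κ) ≠ 0 :=
    div_ne_zero hu0 hcF
  have h7 : (u / algebraMap Qb ↥(modularFunctionFieldBar (M * p)) (w ^ a * (p : Qb) ^ κ))⁻¹ ∈
      (h60_R2 M p hpM A hA).O := by
    by_contra hcon
    exact h6 ((h39_redF_eq_zero_iff (h60_R2 M p hpM A hA) h5).mpr (Or.inr hcon))
  have hrel : u / algebraMap Qb ↥(modularFunctionFieldBar (M * p)) (w ^ a) =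
      algebraMap Qb ↥(modularFunctionFieldBar (M * p)) ((p : Qb) ^ κ) *
        (u / algebraMap Qb ↥(modularFunctionFieldBar (M * p)) (w ^ a * (p : Qb) ^ κ)) := by
    rw [map_mul]
    field_simp
  refine ⟨a, κ, _, _, rfl, rfl, div_ne_zero hu0 hwF, hu20, ?_, hrel, ⟨h1, h2, h3⟩, ⟨h5, h7, h6⟩,
    fun σ hσ hσw => ?_⟩
  · rw [← map_zpow₀]
    exact hrel
  · have hσp : σ ((p : Qb)) = (p : Qb) := map_natCast σ p
    have hσc : σ (w ^ a * (p : Qb) ^ κ) = w ^ a * (p : Qb) ^ κ := by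
      rw [map_mul, map_zpow₀, map_zpow₀, hσw, hσp]
    have e1 := h4 σ hσ hσw
    have e2 := h11_hfixed_div_const (M * p) (w ^ a * (p : Qb) ^ κ) u σ hσc (hu σ hσ hσw)
    exact ⟨e1, h11_hfixed_inv (M * p) _ σ e1, e2, h11_hfixed_inv (M * p) _ σ e2⟩

end Charted

end Fermat.Agent.S40
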