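/-
S40 / G40, (TR) by the lattice count, row W4: the first-order jet and the `Ω` calculus.

`S0 → S` commutative rings, `red : S0 →+* B`, `w : S` with `S = ⊕_{j<p} S0 w^j` and an
Eisenstein-type relation `w^p = ∑_{j<p} a_j w^j`, `red (a_j) = 0`.  Then there is a unique ring
homomorphism `J : S →+* B[ε]` (dual numbers) with `J c = red c` on `S0` and `J w = ε`
(`h86_jet_exists`, `h86_jet_unique`, `h86_jet_sum_fst`, `h86_jet_sum_snd`).

`h86_om J s := (J s).snd / (J s).fst` is the logarithmic first-order coefficient; it is additive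
on elements with nonzero reduction, kills `p`-th powers in characteristic `p`, kills `S0`, and its
value on `η = p / w^p` is computed from the relation (`h86_om_eta`); for the Kummer relation
`(1 + w)^p = 1 + p z` one gets `Ω(η) = 1 / red z` (`h86_kummer_rel`, `h86_om_eta_kummer`).

Mathlib only.
-/
import Mathlib

set_option autoImplicit false

namespace Fermat.Agent.S40

open Polynomial

section Dual

variable {B : Type*} [CommRing B]

theorem h86_eps_pow (n : ℕ) (hn : 2 ≤ n) : (DualNumber.eps : DualNumber B) ^ n = 0 := by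
  obtain ⟨m, rfl⟩ : ∃ m, n = m + 2 := ⟨n - 2, by omega⟩
  rw [pow_add, pow_two, DualNumber.eps_mul_eps, mul_zero]

theorem h86_fst_eps_pow (n : ℕ) :
    TrivSqZeroExt.fst ((DualNumber.eps : DualNumber B) ^ n) = if n = 0 then 1 else 0 := by
  rcases n with _ | _ | n
  · simp
  · simp [DualNumber.fst_eps]
  · rw [h86_eps_pow (n + 1 + 1) (by omega)]
    simp

theorem h86_snd_eps_pow (n : ℕ) :
    TrivSqZeroExt.snd ((DualNumber.eps : DualNumber B) ^ n) = if n = 1 then 1 else 0 := by
  rcases n with _ | _ | n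
  · simp
  · simp [DualNumber.snd_eps]
  · rw [h86_eps_pow (n + 1 + 1) (by omega)]
    simp

end Dual

section Jet

variable {S0 S B : Type*} [CommRing S0] [CommRing S] [CommRing B] [Algebra S0 S]

/-- a ring hom to the dual numbers which is `red` on `S0` and sends `w` to `ε`: the two
coefficients of `∑ c_j w^j`. -/
theorem h86_jet_sum (red : S0 →+* B) (w : S) (J : S →+* DualNumber B)
    (hJc : ∀ c : S0, J (algebraMap S0 S c) = TrivSqZeroExt.inl (red c))
    (hJw : J w = DualNumber.eps) (p : ℕ) (hp : 2 ≤ p) (c : Fin p → S0) :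
    TrivSqZeroExt.fst (J (∑ j : Fin p, algebraMap S0 S (c j) * w ^ (j : ℕ))) =
        red (c ⟨0, by omega⟩) ∧
      TrivSqZeroExt.snd (J (∑ j : Fin p, algebraMap S0 S (c j) * w ^ (j : ℕ))) =
        red (c ⟨1, by omega⟩) := by
  have hJ : J (∑ j : Fin p, algebraMap S0 S (c j) * w ^ (j : ℕ)) =
      ∑ j : Fin p, TrivSqZeroExt.inl (red (c j)) * (DualNumber.eps : DualNumber B) ^ (j : ℕ) := by
    rw [map_sum]
    apply Finset.sum_congr rfl
    intro j _
    rw [map_mul, map_pow, hJc, hJw]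
  rw [hJ]
  constructor
  · rw [TrivSqZeroExt.fst_sum]
    rw [Finset.sum_eq_single (⟨0, by omega⟩ : Fin p)]
    · simp
    · intro j _ hj
      have hj0 : (j : ℕ) ≠ 0 := fun h => hj (Fin.ext h)
      rw [TrivSqZeroExt.fst_mul, h86_fst_eps_pow, if_neg hj0, mul_zero]
    · intro h
      exact absurd (Finset.mem_univ _) h
  · rw [TrivSqZeroExt.snd_sum]
    rw [Finset.sum_eq_single (⟨1, by omega⟩ : Fin p)]
    · simp [DualNumber.snd_eps]
    · intro j _ hj
      have hj1 : (j : ℕ) ≠ 1 := fun h => hj (Fin.ext h)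
      rw [TrivSqZeroExt.snd_mul, h86_snd_eps_pow, if_neg hj1]
      simp
    · intro h
      exact absurd (Finset.mem_univ _) h

/-- **Existence of the first-order jet.** -/
theorem h86_jet_exists (red : S0 →+* B) (w : S) (p : ℕ) (hp : 2 ≤ p) (a : Fin p → S0)
    (ha : ∀ j, red (a j) = 0)
    (hrel : w ^ p = ∑ j : Fin p, algebraMap S0 S (a j) * w ^ (j : ℕ))
    (hgen : ∀ s : S, ∃ c : Fin p → S0, s = ∑ j : Fin p, algebraMap S0 S (c j) * w ^ (j : ℕ))
    (hind : ∀ c : Fin p → S0, ∑ j : Fin p, algebraMap S0 S (c j) * w ^ (j : ℕ) = 0 → c = 0) :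
    ∃ J : S →+* DualNumber B,
      (∀ c : S0, J (algebraMap S0 S c) = TrivSqZeroExt.inl (red c)) ∧ J w = DualNumber.eps := by
  classical
  -- the two maps out of the polynomial ring
  let φ : S0[X] →+* DualNumber B :=
    Polynomial.eval₂RingHom ((TrivSqZeroExt.inlHom B B).comp red) DualNumber.eps
  let ψ : S0[X] →+* S := (Polynomial.aeval w : S0[X] →ₐ[S0] S).toRingHom
  have hψC : ∀ c : S0, ψ (C c) = algebraMap S0 S c := fun c => Polynomial.aeval_C w c
  have hψX : ψ X = w := Polynomial.aeval_X w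
  have hφC : ∀ c : S0, φ (C c) = TrivSqZeroExt.inl (red c) := fun c => by
    show Polynomial.eval₂ ((TrivSqZeroExt.inlHom B B).comp red) DualNumber.eps (C c) = _
    rw [Polynomial.eval₂_C]
    rfl
  have hφX : φ X = DualNumber.eps := by
    show Polynomial.eval₂ ((TrivSqZeroExt.inlHom B B).comp red) DualNumber.eps X = _
    rw [Polynomial.eval₂_X]
  have hψsum : ∀ c : Fin p → S0, ψ (∑ j : Fin p, C (c j) * X ^ (j : ℕ)) =
      ∑ j : Fin p, algebraMap S0 S (c j) * w ^ (j : ℕ) := by
    intro c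
    rw [map_sum]
    apply Finset.sum_congr rfl
    intro j _
    rw [map_mul, map_pow, hψC, hψX]
  have hsurj : Function.Surjective ψ := by
    intro s
    obtain ⟨c, hc⟩ := hgen s
    exact ⟨∑ j : Fin p, C (c j) * X ^ (j : ℕ), by rw [hψsum, hc]⟩
  -- the Eisenstein polynomial
  set E : S0[X] := X ^ p - ∑ j : Fin p, C (a j) * X ^ (j : ℕ) with hE
  have hdeg : (∑ j : Fin p, C (a j) * X ^ (j : ℕ)).degree < (p : WithBot ℕ) :=
    Polynomial.degree_sum_fin_lt a
  have hEm : E.Monic := Polynomial.monic_X_pow_sub hdeg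
  have hψE : ψ E = 0 := by
    rw [hE, map_sub, map_pow, hψX, hψsum, hrel, sub_self]
  have hφE : φ E = 0 := by
    rw [hE, map_sub, map_pow, hφX, h86_eps_pow p hp, map_sum, zero_sub, neg_eq_zero]
    apply Finset.sum_eq_zero
    intro j _
    rw [map_mul, hφC, ha j]
    simp
  have hker : RingHom.ker ψ ≤ RingHom.ker φ := by
    intro g hg
    rw [RingHom.mem_ker] at hg ⊢
    rcases subsingleton_or_nontrivial S0 with hsub | hnt
    · have : g = 0 := Subsingleton.elim _ _
      rw [this, map_zero]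
    have hEdeg : E.natDegree = p := by
      have h1 : E.degree = (p : WithBot ℕ) := by
        rw [hE, Polynomial.degree_sub_eq_left_of_degree_lt (by rwa [Polynomial.degree_X_pow]),
          Polynomial.degree_X_pow]
      exact Polynomial.natDegree_eq_of_degree_eq_some h1
    have hdiv := Polynomial.modByMonic_add_div g E
    set r : S0[X] := g %ₘ E with hr
    have hψr : ψ r = 0 := by
      have : ψ g = ψ r + ψ E * ψ (g /ₘ E) := by rw [← map_mul, ← map_add, hdiv]
      rw [hg, hψE, zero_mul, add_zero] at this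
      exact this.symm
    have hE1 : E ≠ 1 := by
      intro h
      rw [h, Polynomial.natDegree_one] at hEdeg
      omega
    have hrdeg : r.natDegree < p := by
      have := Polynomial.natDegree_modByMonic_lt g hEm hE1
      rwa [hEdeg] at this
    have hrsum : r = ∑ j : Fin p, C (r.coeff (j : ℕ)) * X ^ (j : ℕ) := by
      conv_lhs => rw [Polynomial.as_sum_range' r p hrdeg]
      rw [← Fin.sum_univ_eq_sum_range (fun i => Polynomial.monomial i (r.coeff i)) p]
      apply Finset.sum_congr rfl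
      intro j _
      rw [Polynomial.C_mul_X_pow_eq_monomial]
    have hr0 : r = 0 := by
      have h1 : ∑ j : Fin p, algebraMap S0 S (r.coeff (j : ℕ)) * w ^ (j : ℕ) = 0 := by
        rw [← hψsum (fun j => r.coeff (j : ℕ)), ← hrsum, hψr]
      have h2 := hind (fun j => r.coeff (j : ℕ)) h1
      rw [hrsum]
      apply Finset.sum_eq_zero
      intro j _
      have : r.coeff (j : ℕ) = 0 := congrFun h2 j
      rw [this, map_zero, zero_mul]
    rw [← hdiv, hr0, zero_add, map_mul, hφE, zero_mul]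
  refine ⟨RingHom.liftOfSurjective ψ hsurj ⟨φ, hker⟩, ?_, ?_⟩
  · intro c
    rw [← hψC c, RingHom.liftOfSurjective_comp_apply]
    exact hφC c
  · rw [← hψX, RingHom.liftOfSurjective_comp_apply]
    exact hφX

/-- **Uniqueness of the jet** (any target ring). -/
theorem h86_jet_unique {T : Type*} [CommRing T] (w : S) (p : ℕ)
    (hgen : ∀ s : S, ∃ c : Fin p → S0, s = ∑ j : Fin p, algebraMap S0 S (c j) * w ^ (j : ℕ))
    (J J' : S →+* T) (hc : ∀ c : S0, J (algebraMap S0 S c) = J' (algebraMap S0 S c))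
    (hw : J w = J' w) : J = J' := by
  ext s
  obtain ⟨c, rfl⟩ := hgen s
  rw [map_sum, map_sum]
  apply Finset.sum_congr rfl
  intro j _
  rw [map_mul, map_mul, map_pow, map_pow, hc, hw]

end Jet

section Omega

variable {S : Type*} [CommRing S] {B : Type*} [Field B]

/-- the logarithmic first-order coefficient `Ω(s) = c₁ / c₀` of `J s = c₀ + c₁ ε`. -/
noncomputable def h86_om (J : S →+* DualNumber B) (s : S) : B :=
  TrivSqZeroExt.snd (J s) / TrivSqZeroExt.fst (J s)

theorem h86_om_def (J : S →+* DualNumber B) (s : S) :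
    h86_om J s = TrivSqZeroExt.snd (J s) / TrivSqZeroExt.fst (J s) := rfl

theorem h86_fst_mul (J : S →+* DualNumber B) (s t : S) :
    TrivSqZeroExt.fst (J (s * t)) = TrivSqZeroExt.fst (J s) * TrivSqZeroExt.fst (J t) := by
  rw [map_mul, TrivSqZeroExt.fst_mul]

theorem h86_snd_mul (J : S →+* DualNumber B) (s t : S) :
    TrivSqZeroExt.snd (J (s * t)) =
      TrivSqZeroExt.fst (J s) * TrivSqZeroExt.snd (J t) +
        TrivSqZeroExt.fst (J t) * TrivSqZeroExt.snd (J s) := by
  rw [map_mul, TrivSqZeroExt.snd_mul]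
  simp [smul_eq_mul, mul_comm]

theorem h86_om_mul (J : S →+* DualNumber B) (s t : S)
    (hs : TrivSqZeroExt.fst (J s) ≠ 0) (ht : TrivSqZeroExt.fst (J t) ≠ 0) :
    h86_om J (s * t) = h86_om J s + h86_om J t := by
  unfold h86_om
  rw [h86_fst_mul, h86_snd_mul]
  field_simp
  ring

theorem h86_om_one (J : S →+* DualNumber B) : h86_om J 1 = 0 := by
  unfold h86_om
  rw [map_one]
  simp

theorem h86_fst_pow (J : S →+* DualNumber B) (s : S) (n : ℕ) :
    TrivSqZeroExt.fst (J (s ^ n)) = TrivSqZeroExt.fst (J s) ^ n := by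
  rw [map_pow, TrivSqZeroExt.fst_pow]

theorem h86_om_pow (J : S →+* DualNumber B) (s : S) (hs : TrivSqZeroExt.fst (J s) ≠ 0)
    (n : ℕ) : h86_om J (s ^ n) = (n : B) * h86_om J s := by
  induction n with
  | zero => rw [pow_zero, h86_om_one]; simp
  | succ n ih =>
    rw [pow_succ, h86_om_mul J _ _ (by rw [h86_fst_pow]; exact pow_ne_zero n hs) hs, ih]
    push_cast
    ring

/-- `Ω` kills `p`-th powers in characteristic `p` (no unit hypothesis). -/
theorem h86_om_pow_char (J : S →+* DualNumber B) (p : ℕ) [CharP B p] (s : S) :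
    h86_om J (s ^ p) = 0 := by
  unfold h86_om
  have : TrivSqZeroExt.snd (J (s ^ p)) = 0 := by
    rw [map_pow, TrivSqZeroExt.snd_pow]
    rw [← Nat.cast_smul_eq_nsmul B, CharP.cast_eq_zero, zero_smul]
  rw [this, zero_div]

theorem h86_om_of_snd (J : S →+* DualNumber B) (s : S) (h : TrivSqZeroExt.snd (J s) = 0) :
    h86_om J s = 0 := by
  unfold h86_om
  rw [h, zero_div]

/-- `Ω` of an element whose jet is constant (`J s = inl b`), e.g. an element of `S0`. -/
theorem h86_om_of_inl (J : S →+* DualNumber B) (s : S) (b : B)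
    (h : J s = TrivSqZeroExt.inl b) : h86_om J s = 0 :=
  h86_om_of_snd J s (by rw [h, TrivSqZeroExt.snd_inl])

theorem h86_fst_ne_zero_of_mul_eq_one (J : S →+* DualNumber B) (s t : S) (h : s * t = 1) :
    TrivSqZeroExt.fst (J s) ≠ 0 ∧ TrivSqZeroExt.fst (J t) ≠ 0 := by
  have h1 : TrivSqZeroExt.fst (J s) * TrivSqZeroExt.fst (J t) = 1 := by
    rw [← h86_fst_mul, h, map_one, TrivSqZeroExt.fst_one]
  constructor
  · intro h0
    rw [h0, zero_mul] at h1
    exact zero_ne_one h1
  · intro h0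
    rw [h0, mul_zero] at h1
    exact zero_ne_one h1

theorem h86_om_of_mul_eq_one (J : S →+* DualNumber B) (s t : S) (h : s * t = 1) :
    h86_om J t = -h86_om J s := by
  obtain ⟨hs, ht⟩ := h86_fst_ne_zero_of_mul_eq_one J s t h
  have := h86_om_mul J s t hs ht
  rw [h, h86_om_one] at this
  exact eq_neg_of_add_eq_zero_right this.symm

end Omega

section Eta

variable {S0 S B : Type*} [CommRing S0] [CommRing S] [Field B] [Algebra S0 S]

/-- **`Ω(η)` for `η = p / w^p`**, from the relation `w^p = p ∑_{j<p} α_j w^j`: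
`Ω(η) = - red α₁ / red α₀`. -/
theorem h86_om_eta (red : S0 →+* B) (w : S) (J : S →+* DualNumber B)
    (hJc : ∀ c : S0, J (algebraMap S0 S c) = TrivSqZeroExt.inl (red c))
    (hJw : J w = DualNumber.eps) (p : ℕ) (hp : 2 ≤ p) (α : Fin p → S0)
    (hrel : w ^ p = (p : S) * ∑ j : Fin p, algebraMap S0 S (α j) * w ^ (j : ℕ))
    (η : S) (hη : η * w ^ p = (p : S)) (hreg : ∀ s : S, (p : S) * s = 0 → s = 0) :
    TrivSqZeroExt.fst (J η) * red (α ⟨0, by omega⟩) = 1 ∧
      h86_om J η = -(red (α ⟨1, by omega⟩) / red (α ⟨0, by omega⟩)) := by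
  set t : S := ∑ j : Fin p, algebraMap S0 S (α j) * w ^ (j : ℕ) with ht
  have hηt : η * t = 1 := by
    have h1 : (p : S) * (η * t - 1) = 0 := by
      have : (p : S) * (η * t - 1) = η * ((p : S) * t) - (p : S) := by ring
      rw [this, ← hrel, hη, sub_self]
    exact sub_eq_zero.1 (hreg _ h1)
  obtain ⟨hf, hs⟩ := h86_jet_sum red w J hJc hJw p hp α
  rw [← ht] at hf hs
  have hom : h86_om J t = red (α ⟨1, by omega⟩) / red (α ⟨0, by omega⟩) := by
    unfold h86_om
    rw [hf, hs]
  constructor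
  · rw [← hf, ← h86_fst_mul, hηt, map_one, TrivSqZeroExt.fst_one]
  · rw [h86_om_of_mul_eq_one J t η (by rw [mul_comm]; exact hηt), hom]

/-- the coefficients of the Kummer relation `(1 + w)^p = 1 + p z`. -/
def h86_alpha (p : ℕ) (z0 : S0) (j : Fin p) : S0 :=
  if (j : ℕ) = 0 then z0 else -((p.choose (j : ℕ) / p : ℕ) : S0)

/-- **The Kummer relation in Eisenstein form**: `(1 + w)^p = 1 + p z` gives
`w^p = p (z - ∑_{0<j<p} (C(p,j)/p) w^j)`. -/
theorem h86_kummer_rel (p : ℕ) (hp : p.Prime) (w : S) (z0 : S0)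
    (hw : (1 + w) ^ p = 1 + (p : S) * algebraMap S0 S z0) :
    w ^ p = (p : S) * ∑ j : Fin p, algebraMap S0 S (h86_alpha p z0 j) * w ^ (j : ℕ) := by
  have hbin : (1 + w) ^ p = ∑ m ∈ Finset.range p, w ^ m * (p.choose m : S) + w ^ p := by
    rw [add_comm 1 w, add_pow, Finset.sum_range_succ]
    simp
  have hsum : (p : S) * ∑ j : Fin p, algebraMap S0 S (h86_alpha p z0 j) * w ^ (j : ℕ) +
      ∑ m ∈ Finset.range p, w ^ m * (p.choose m : S) = (p : S) * algebraMap S0 S z0 + 1 := by
    rw [← Fin.sum_univ_eq_sum_range (fun m => w ^ m * (p.choose m : S)) p, Finset.mul_sum,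
      ← Finset.sum_add_distrib]
    rw [Finset.sum_eq_single (⟨0, hp.pos⟩ : Fin p)]
    · simp [h86_alpha]
    · intro j _ hj
      have hj0 : (j : ℕ) ≠ 0 := fun h => hj (Fin.ext h)
      have hdvd : p ∣ p.choose (j : ℕ) := hp.dvd_choose_self hj0 j.2
      obtain ⟨c, hc⟩ := hdvd
      have hc' : p.choose (j : ℕ) / p = c := by
        rw [hc, Nat.mul_div_cancel_left c hp.pos]
      unfold h86_alpha
      rw [if_neg hj0, hc', hc]
      push_cast
      ring
    · intro h
      exact absurd (Finset.mem_univ _) h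
  have := hbin.symm.trans hw
  linear_combination this - hsum

/-- **`Ω(η) = 1 / red z`** for the Kummer relation `(1 + w)^p = 1 + p z`. -/
theorem h86_om_eta_kummer (red : S0 →+* B) (w : S) (J : S →+* DualNumber B)
    (hJc : ∀ c : S0, J (algebraMap S0 S c) = TrivSqZeroExt.inl (red c))
    (hJw : J w = DualNumber.eps) (p : ℕ) (hp : p.Prime) (z0 : S0)
    (hw : (1 + w) ^ p = 1 + (p : S) * algebraMap S0 S z0)
    (η : S) (hη : η * w ^ p = (p : S)) (hreg : ∀ s : S, (p : S) * s = 0 → s = 0) :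
    TrivSqZeroExt.fst (J η) * red z0 = 1 ∧ h86_om J η = 1 / red z0 := by
  have hp2' : 2 ≤ p := hp.two_le
  obtain ⟨h1, h2⟩ := h86_om_eta red w J hJc hJw p hp2' (h86_alpha p z0)
    (h86_kummer_rel p hp w z0 hw) η hη hreg
  have ha0 : h86_alpha p z0 (⟨0, by omega⟩ : Fin p) = z0 := by
    unfold h86_alpha
    rw [if_pos rfl]
  have ha1 : h86_alpha p z0 (⟨1, by omega⟩ : Fin p) = -1 := by
    unfold h86_alpha
    rw [if_neg (by simp), Nat.choose_one_right, Nat.div_self hp.pos]
    simp
  rw [ha0] at h1 h2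
  rw [ha1] at h2
  refine ⟨h1, ?_⟩
  rw [h2, map_neg, map_one]
  ring

/-- the relation in the form needed by `h86_jet_exists`: `a_j = p α_j`, `red (a_j) = 0`. -/
theorem h86_kummer_rel_jet (red : S0 →+* B) (p : ℕ) (hredp : red (p : S0) = 0) (hp : p.Prime)
    (w : S) (z0 : S0) (hw : (1 + w) ^ p = 1 + (p : S) * algebraMap S0 S z0) :
    (∀ j : Fin p, red ((p : S0) * h86_alpha p z0 j) = 0) ∧
      w ^ p = ∑ j : Fin p, algebraMap S0 S ((p : S0) * h86_alpha p z0 j) * w ^ (j : ℕ) := by
  refine ⟨fun j => by rw [map_mul, hredp, zero_mul], ?_⟩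
  rw [h86_kummer_rel p hp w z0 hw, Finset.mul_sum]
  apply Finset.sum_congr rfl
  intro j _
  rw [map_mul, map_natCast]
  ring

end Eta

end Fermat.Agent.S40
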