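import Mathlib
import Fermat.Agent.S18.GR_RedAPI
import Fermat.Agent.S40.h86_Jet
import Fermat.Agent.S40.h28_Interp

/-!
# S40 / (TR) row W7, part (W7-J) (helper25): the jet INSTANCE

Abstract setting (one reduction datum at a time): `R : h39_RedDatum K F k Fb`, a group `G`
(inertia) acting on `F` through `ρ : G →* (F ≃+* F)`, `w z : F` with `(1 + w) ^ p = 1 + p z`
(`z` a `G`-fixed element of `R.O`), orbit representatives `g : Fin p → G` of the conjugates of
`w`, and (INT-BASE): the valuation of a nonzero `G`-fixed function is an integral power of the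
valuation of `p`.

* `h25_SH R ρ w` : the subring of `F` of integral functions fixed by the stabiliser of `w`;
* `h25_S0 R ρ w` : its `G`-fixed part (a subring of `h25_SH`);
* `h25_jetFun R ρ p w g f := inl (red c₀) + inr (red c₁)`, `cⱼ := h28_coef ρ p w g f j` the
  coefficients of `f` in `1, w, .., w^(p-1)` (they do NOT depend on `R`);
* `h25_jet_inst` : `h25_jetFun` is a ring homomorphism `J` on `h25_SH` with
  `J f = inl (red f)` for `G`-fixed `f`, `J w = inr 1`, `(J f).fst = red f`.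
-/

set_option autoImplicit false

noncomputable section

namespace Fermat.Agent.S40

open Fermat.Agent.S18

variable {K F k Fb : Type*} [Field K] [Field F] [Algebra K F] [Field k] [Field Fb] [Algebra k Fb]
  (R : h39_RedDatum K F k Fb) {G : Type*} [Group G] (ρ : G →* (F ≃+* F))

/-- Integral functions fixed by the stabiliser of `w`. -/
def h25_SH (w : F) : Subring F where
  carrier := {f | f ∈ R.O ∧ ∀ γ : G, ρ γ w = w → ρ γ f = f}
  mul_mem' := by
    rintro a b ⟨ha, ha'⟩ ⟨hb, hb'⟩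
    exact ⟨R.O.mul_mem _ _ ha hb, fun γ hγ => by rw [map_mul, ha' γ hγ, hb' γ hγ]⟩
  one_mem' := ⟨R.O.one_mem, fun γ _ => map_one _⟩
  add_mem' := by
    rintro a b ⟨ha, ha'⟩ ⟨hb, hb'⟩
    exact ⟨R.O.add_mem _ _ ha hb, fun γ hγ => by rw [map_add, ha' γ hγ, hb' γ hγ]⟩
  zero_mem' := ⟨R.O.zero_mem, fun γ _ => map_zero _⟩
  neg_mem' := by
    rintro a ⟨ha, ha'⟩
    exact ⟨R.O.neg_mem _ ha, fun γ hγ => by rw [map_neg, ha' γ hγ]⟩

theorem h25_mem_SH (w f : F) :
    f ∈ h25_SH R ρ w ↔ f ∈ R.O ∧ ∀ γ : G, ρ γ w = w → ρ γ f = f := Iff.rfl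

/-- The `G`-fixed part of `h25_SH`. -/
def h25_S0 (w : F) : Subring (h25_SH R ρ w) where
  carrier := {f | ∀ γ : G, ρ γ (f : F) = f}
  mul_mem' := by
    intro a b ha hb γ
    rw [Subring.coe_mul, map_mul, ha γ, hb γ]
  one_mem' := fun γ => by rw [Subring.coe_one, map_one]
  add_mem' := by
    intro a b ha hb γ
    rw [Subring.coe_add, map_add, ha γ, hb γ]
  zero_mem' := fun γ => by rw [Subring.coe_zero, map_zero]
  neg_mem' := by
    intro a ha γ
    rw [Subring.coe_neg, map_neg, ha γ]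

theorem h25_mem_S0 (w : F) (f : h25_SH R ρ w) :
    f ∈ h25_S0 R ρ w ↔ ∀ γ : G, ρ γ (f : F) = f := Iff.rfl

/-- The reduction on `h25_SH`. -/
def h25_redS (w : F) : h25_SH R ρ w →+* Fb :=
  R.red.comp (Subring.inclusion (show h25_SH R ρ w ≤ R.O.toSubring from fun _ hf => hf.1))

theorem h25_redS_apply (w : F) (f : h25_SH R ρ w) : h25_redS R ρ w f = R.redF (f : F) := by
  rw [R.redF_of_mem f.2.1]
  rfl

/-- The jet, as a function on `F`: `f = c₀ + c₁ w + ..` goes to `(red c₀, red c₁)`. -/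
def h25_jetFun (p : ℕ) (w : F) (g : Fin p → G) (f : F) : TrivSqZeroExt Fb Fb :=
  TrivSqZeroExt.inl (R.redF (h28_coef ρ p w g f 0)) +
    TrivSqZeroExt.inr (R.redF (h28_coef ρ p w g f 1))

theorem h25_jetFun_fst (p : ℕ) (w : F) (g : Fin p → G) (f : F) :
    (h25_jetFun R ρ p w g f).fst = R.redF (h28_coef ρ p w g f 0) := by
  simp [h25_jetFun]

theorem h25_jetFun_snd (p : ℕ) (w : F) (g : Fin p → G) (f : F) :
    (h25_jetFun R ρ p w g f).snd = R.redF (h28_coef ρ p w g f 1) := by
  simp [h25_jetFun]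

/-- `redF` vanishes on elements of valuation `< 1`. -/
theorem h25_redF_of_val_lt {f : F} (h : R.O.valuation f < 1) : R.redF f = 0 := by
  have hf : f ∈ R.O := (R.O.valuation_le_one_iff f).mp h.le
  rw [h39_redF_eq_zero_iff R hf]
  by_cases h0 : f = 0
  · exact Or.inl h0
  · refine Or.inr fun hinv => ?_
    have h1 : R.O.valuation f⁻¹ ≤ 1 := (R.O.valuation_le_one_iff _).mpr hinv
    rw [map_inv₀] at h1
    have h2 : R.O.valuation f ≠ 0 := (Valuation.ne_zero_iff _).mpr h0
    have h3 : 1 < (R.O.valuation f)⁻¹ := (one_lt_inv₀ (zero_lt_iff.mpr h2)).mpr h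
    exact absurd h1 (not_le.mpr h3)

/-- The coefficients of an element of `h25_SH` are integral (MIN-MEM + INT-BASE). -/
theorem h25_coef_mem_O (p : ℕ) (w : F) (g : Fin p → G)
    (hdist : Function.Injective fun i => ρ (g i) w) (horb : ∀ γ : G, ∃ i, ρ γ w = ρ (g i) w)
    (π : F) (hπ0 : π ≠ 0) (hπ : R.O.valuation π < 1)
    (hvw : R.O.valuation w ^ p = R.O.valuation π)
    (hint : ∀ f : F, (∀ γ : G, ρ γ f = f) → f ≠ 0 →
      ∃ m : ℤ, R.O.valuation f = R.O.valuation π ^ m)
    {f : F} (hf : f ∈ h25_SH R ρ w) (j : ℕ) (hj : j < p) :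
    h28_coef ρ p w g f j ∈ R.O := by
  have hsum := h28_coef_sum ρ p w g hdist horb f hf.2
  have hfix := h28_coef_fixed ρ p w g hdist horb f hf.2
  have hc : ∀ j < p, h28_coef ρ p w g f j ≠ 0 →
      ∃ m : ℤ, R.O.valuation (h28_coef ρ p w g f j) = R.O.valuation π ^ m :=
    fun j _ h0 => hint _ (hfix j) h0
  have hle : R.O.valuation (∑ j ∈ Finset.range p, h28_coef ρ p w g f j * w ^ j) ≤ 1 := by
    rw [← hsum]
    exact (R.O.valuation_le_one_iff f).mpr hf.1
  exact (R.O.valuation_le_one_iff _).mp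
    (h28_min_mem R.O.valuation p π w hπ0 hπ hvw (fun j => h28_coef ρ p w g f j) hc hle j hj)

/-- `(1 + w) ^ p = 1 + p z` as an Eisenstein relation with explicit coefficients. -/
theorem h25_kummer_rel (p : ℕ) (hp : p ≠ 0) (w z : F)
    (hrel : (1 + w) ^ p = 1 + (p : F) * z) :
    w ^ p = ∑ j ∈ Finset.range p,
      (if j = 0 then (p : F) * z else -((p.choose j : ℕ) : F)) * w ^ j := by
  have h1 : (1 + w) ^ p = ∑ m ∈ Finset.range (p + 1), ((p.choose m : ℕ) : F) * w ^ m := by
    rw [add_comm, add_pow]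
    refine Finset.sum_congr rfl fun m _ => ?_
    rw [one_pow, mul_one, mul_comm]
  rw [Finset.sum_range_succ, Nat.choose_self, Nat.cast_one, one_mul] at h1
  have h2 : ∀ j ∈ Finset.range p,
      (if j = 0 then (p : F) * z else -((p.choose j : ℕ) : F)) * w ^ j =
        -(((p.choose j : ℕ) : F) * w ^ j) + (if j = 0 then (p : F) * z + 1 else 0) := by
    intro j _
    by_cases hj : j = 0
    · subst hj
      simp
    · rw [if_neg hj, if_neg hj, add_zero, neg_mul]
  rw [Finset.sum_congr rfl h2, Finset.sum_add_distrib, Finset.sum_neg_distrib]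
  rw [Finset.sum_ite_eq' (Finset.range p) 0 (fun _ => (p : F) * z + 1),
    if_pos (Finset.mem_range.mpr (Nat.pos_of_ne_zero hp))]
  linear_combination hrel - h1

/-- **The jet instance (W7-J).** -/
theorem h25_jet_inst (p : ℕ) (hpp : p.Prime) (w z : F) (g : Fin p → G)
    (hdist : Function.Injective fun i => ρ (g i) w) (horb : ∀ γ : G, ∃ i, ρ γ w = ρ (g i) w)
    (hrel : (1 + w) ^ p = 1 + (p : F) * z)
    (hzO : z ∈ R.O) (hzfix : ∀ γ : G, ρ γ z = z)
    (hp0 : (p : F) ≠ 0) (hπ : R.O.valuation (p : F) < 1)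
    (hvw : R.O.valuation w ^ p = R.O.valuation (p : F))
    (hint : ∀ f : F, (∀ γ : G, ρ γ f = f) → f ≠ 0 →
      ∃ m : ℤ, R.O.valuation f = R.O.valuation (p : F) ^ m) :
    ∃ (hw : w ∈ h25_SH R ρ w) (J : h25_SH R ρ w →+* TrivSqZeroExt Fb Fb),
      (∀ f : h25_SH R ρ w, J f = h25_jetFun R ρ p w g (f : F)) ∧
      (∀ f : h25_SH R ρ w, (∀ γ : G, ρ γ (f : F) = f) →
        J f = TrivSqZeroExt.inl (R.redF (f : F))) ∧
      J ⟨w, hw⟩ = TrivSqZeroExt.inr 1 ∧
      ∀ f : h25_SH R ρ w, (J f).fst = R.redF (f : F) := by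
  classical
  have hp2 : 2 ≤ p := hpp.two_le
  -- `w` is a non-unit
  have hw1 : R.O.valuation w < 1 := by
    by_contra h
    push Not at h
    have h1 : 1 ≤ R.O.valuation w ^ p := one_le_pow₀ h
    rw [hvw] at h1
    exact absurd hπ (not_lt.mpr h1)
  have hwO : w ∈ R.O := (R.O.valuation_le_one_iff w).mp hw1.le
  have hwS : w ∈ h25_SH R ρ w := ⟨hwO, fun γ hγ => hγ⟩
  have hredw : R.redF w = 0 := h25_redF_of_val_lt R hw1
  have hredp : R.redF (p : F) = 0 := h25_redF_of_val_lt R hπ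
  have hpO : (p : F) ∈ R.O := (R.O.valuation_le_one_iff _).mp hπ.le
  have hpFb : ((p : ℕ) : Fb) = 0 := by
    rw [← hredp, R.redF_of_mem hpO]
    exact (map_natCast R.red p).symm
  refine ⟨hwS, ?_⟩
  set S := h25_SH R ρ w with hS
  set S0 := h25_S0 R ρ w with hS0
  set wS : S := ⟨w, hwS⟩ with hwSdef
  set red0 : S0 →+* Fb := (h25_redS R ρ w).comp S0.subtype with hred0
  have hred0_apply : ∀ c : S0, red0 c = R.redF ((c : S) : F) := fun c =>
    h25_redS_apply R ρ w (c : S)
  have halg : ∀ c : S0, algebraMap S0 S c = (c : S) := fun c => rfl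
  -- the coefficients of the Eisenstein relation
  have hpzS : (p : F) * z ∈ S :=
    ⟨R.O.mul_mem _ _ hpO hzO, fun γ _ => by rw [map_mul, map_natCast, hzfix γ]⟩
  have hpzS0 : (⟨(p : F) * z, hpzS⟩ : S) ∈ S0 := fun γ => by
    show ρ γ ((p : F) * z) = (p : F) * z
    rw [map_mul, map_natCast, hzfix γ]
  let a : Fin p → S0 := fun j =>
    if (j : ℕ) = 0 then ⟨⟨(p : F) * z, hpzS⟩, hpzS0⟩ else -((p.choose j : ℕ) : S0)
  have ha : ∀ j, red0 (a j) = 0 := by
    intro j
    by_cases hj : (j : ℕ) = 0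
    · simp only [a, if_pos hj]
      rw [hred0_apply]
      show R.redF ((p : F) * z) = 0
      rw [h39_redF_mul R hpO hzO, hredp, zero_mul]
    · simp only [a, if_neg hj]
      rw [map_neg, map_natCast]
      have hdvd : p ∣ p.choose j := hpp.dvd_choose_self hj j.2
      obtain ⟨m, hm⟩ := hdvd
      rw [hm, Nat.cast_mul, hpFb, zero_mul, neg_zero]
  have hacoe : ∀ j : Fin p, (((a j : S0) : S) : F) =
      if (j : ℕ) = 0 then (p : F) * z else -((p.choose j : ℕ) : F) := by
    intro j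
    by_cases hj : (j : ℕ) = 0
    · simp only [a, if_pos hj]
    · simp only [a, if_neg hj]
      rfl
  have hrelS : wS ^ p = ∑ j, algebraMap S0 S (a j) * wS ^ (j : ℕ) := by
    apply Subring.subtype_injective
    rw [map_pow, map_sum]
    simp only [map_mul, map_pow, halg]
    show w ^ p = ∑ j : Fin p, (((a j : S0) : S) : F) * w ^ (j : ℕ)
    rw [h25_kummer_rel p hpp.ne_zero w z hrel,
      ← Fin.sum_univ_eq_sum_range
        (fun j => (if j = 0 then (p : F) * z else -((p.choose j : ℕ) : F)) * w ^ j) p]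
    exact Finset.sum_congr rfl fun j _ => by rw [hacoe j]
  -- coefficients of an element of `S`
  have hcoefS : ∀ (s : S) (j : ℕ), j < p → h28_coef ρ p w g (s : F) j ∈ S := fun s j hj =>
    ⟨h25_coef_mem_O R ρ p w g hdist horb (p : F) hp0 hπ hvw hint s.2 j hj,
      fun γ _ => h28_coef_fixed ρ p w g hdist horb (s : F) s.2.2 j γ⟩
  have hcoefS0 : ∀ (s : S) (j : ℕ) (hj : j < p),
      (⟨h28_coef ρ p w g (s : F) j, hcoefS s j hj⟩ : S) ∈ S0 := fun s j hj γ =>
    h28_coef_fixed ρ p w g hdist horb (s : F) s.2.2 j γ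
  let cf : S → Fin p → S0 := fun s j =>
    ⟨⟨h28_coef ρ p w g (s : F) j, hcoefS s j j.2⟩, hcoefS0 s j j.2⟩
  have hcf : ∀ s : S, s = ∑ j, algebraMap S0 S (cf s j) * wS ^ (j : ℕ) := by
    intro s
    apply Subring.subtype_injective
    rw [map_sum]
    simp only [map_mul, map_pow, halg]
    show (s : F) = ∑ j : Fin p, h28_coef ρ p w g (s : F) j * w ^ (j : ℕ)
    rw [Fin.sum_univ_eq_sum_range (fun j => h28_coef ρ p w g (s : F) j * w ^ j) p]
    exact h28_coef_sum ρ p w g hdist horb (s : F) s.2.2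
  have hgen : ∀ s : S, ∃ c : Fin p → S0, s = ∑ j, algebraMap S0 S (c j) * wS ^ (j : ℕ) :=
    fun s => ⟨cf s, hcf s⟩
  have hind : ∀ c : Fin p → S0, ∑ j, algebraMap S0 S (c j) * wS ^ (j : ℕ) = 0 → c = 0 := by
    intro c hc
    let c'' : ℕ → F := fun j => if h : j < p then (((c ⟨j, h⟩ : S0) : S) : F) else 0
    have hc'' : ∀ j (γ : G), ρ γ (c'' j) = c'' j := by
      intro j γ
      by_cases h : j < p
      · simp only [c'', dif_pos h]
        exact (c ⟨j, h⟩).2 γ
      · simp only [c'', dif_neg h]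
        exact map_zero _
    have h0 : ∑ j ∈ Finset.range p, c'' j * w ^ j = 0 := by
      rw [← Fin.sum_univ_eq_sum_range (fun j => c'' j * w ^ j) p]
      have h1 := congrArg S.subtype hc
      rw [map_sum, map_zero] at h1
      simp only [map_mul, map_pow, halg] at h1
      rw [← h1]
      refine Finset.sum_congr rfl fun j _ => ?_
      simp only [c'', dif_pos j.2]
      rfl
    have h2 := h28_coef_unique ρ p w g hdist c'' hc'' h0
    funext j
    apply Subtype.ext
    apply Subtype.ext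
    have h3 := h2 j j.2
    simp only [c'', dif_pos j.2] at h3
    exact h3
  obtain ⟨J, hJa, hJw0⟩ := h86_jet_exists red0 wS p hp2 a ha hrelS hgen hind
  have hJw : J wS = TrivSqZeroExt.inr 1 := hJw0
  have hsq : (TrivSqZeroExt.inr (1 : Fb) : TrivSqZeroExt Fb Fb) ^ 2 = 0 := by
    rw [pow_two, TrivSqZeroExt.inr_mul_inr]
  -- the explicit formula
  have hformula : ∀ f : S, J f = h25_jetFun R ρ p w g (f : F) := by
    intro f
    have h1 : J f = ∑ j : Fin p,
        TrivSqZeroExt.inl (R.redF (h28_coef ρ p w g (f : F) j)) *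
          (TrivSqZeroExt.inr (1 : Fb) : TrivSqZeroExt Fb Fb) ^ (j : ℕ) := by
      conv_lhs => rw [hcf f]
      rw [map_sum]
      refine Finset.sum_congr rfl fun j _ => ?_
      rw [map_mul, map_pow, hJa, hJw, hred0_apply]
    rw [h1, Fin.sum_univ_eq_sum_range
      (fun j => TrivSqZeroExt.inl (R.redF (h28_coef ρ p w g (f : F) j)) *
          (TrivSqZeroExt.inr (1 : Fb) : TrivSqZeroExt Fb Fb) ^ j) p]
    have hsub : ({0, 1} : Finset ℕ) ⊆ Finset.range p := by
      intro x hx
      rw [Finset.mem_insert, Finset.mem_singleton] at hx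
      rw [Finset.mem_range]
      omega
    rw [← Finset.sum_subset hsub, Finset.sum_pair (by norm_num), pow_zero, mul_one, pow_one,
      TrivSqZeroExt.inl_mul_inr, smul_eq_mul, mul_one]
    · rfl
    · intro x _ hx
      rw [Finset.mem_insert, Finset.mem_singleton] at hx
      have hx2 : 2 ≤ x := by omega
      rw [pow_eq_zero_of_le hx2 hsq, mul_zero]
  refine ⟨J, hformula, ?_, hJw, ?_⟩
  · intro f hf
    have h1 := hJa ⟨f, hf⟩
    rw [hred0_apply] at h1
    exact h1
  · intro f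
    rw [hformula, h25_jetFun_fst]
    have h1 := congrArg (h25_redS R ρ w) (hcf f)
    rw [map_sum, h25_redS_apply] at h1
    rw [h1, Finset.sum_eq_single (⟨0, hpp.pos⟩ : Fin p)]
    · rw [map_mul, map_pow, pow_zero, mul_one, halg, h25_redS_apply]
    · intro j _ hj
      have hj0 : (j : ℕ) ≠ 0 := fun h => hj (Fin.ext h)
      rw [map_mul, map_pow, h25_redS_apply R ρ w wS]
      show _ * R.redF w ^ (j : ℕ) = 0
      rw [hredw, zero_pow hj0, mul_zero]
    · intro h
      exact absurd (Finset.mem_univ _) h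

end Fermat.Agent.S40
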