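import Mathlib
import Fermat.Agent.S40.h25_JetInst
import Fermat.Agent.S40.h12_KummerEis
import Fermat.Agent.S36.h69_K0

/-!
# S40 / (TR) row W7, part (W7-J) (helper25): the jet instance at a modular level

`A` a valuation ring of `ℚ̄` over `p`, `I` its inertia group, `(z, w)` the pair of row W0
(`(1 + w) ^ p = 1 + p z`, `z` an `I`-fixed unit), `F = F̄(N)` any level.

* `h25_rho N I` : the action of a subgroup `I` of `Gal(ℚ̄/ℚ)` on `F̄(N)` as a monoid
  homomorphism into `F ≃+* F` (`h25_rho_apply`, `h25_rho_algebraMap`, `h25_rho_fixed_iff`);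
* `h25_orbit_mod` : orbit representatives `g : Fin p → I` of the conjugates of `w` (from
  `h12_eis`), in the shape consumed by `h28_Interp` / `h25_JetInst`;
* `h25_mem_SH_mod` : `h25_SH R ρ w` is "integral and fixed by `H`" for the stabiliser `H` of `w`;
* `h25_jet_mod` : the jet `J` of `h25_jet_inst` for ANY reduction datum `R` of `F̄(N)` over `A`
  satisfying (INT-BASE) in valuation form (the shape of `h22_pair_val`).
-/

set_option autoImplicit false

noncomputable section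

open AlgebraicCurve ModularCurve IntermediateField

namespace Fermat.Agent.S40

open Fermat.Agent.S18 Fermat.Agent.S36

local notation "Qb" => AlgebraicClosure ℚ

section rho

variable (N : ℕ) (I : Subgroup (Qb ≃ₐ[ℚ] Qb))

/-- The action of a subgroup of `Gal(ℚ̄/ℚ)` on the function field of level `N`. -/
def h25_rho : ↥I →* (↥(modularFunctionFieldBar N) ≃+* ↥(modularFunctionFieldBar N)) :=
  (MulSemiringAction.toRingAut (SemilinearAut Qb ↥(modularFunctionFieldBar N))
      ↥(modularFunctionFieldBar N)).comp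
    ((arithmeticGalois (modularFunctionFieldFull N)).comp I.subtype)

theorem h25_rho_apply (γ : ↥I) (f : ↥(modularFunctionFieldBar N)) :
    h25_rho N I γ f =
      arithmeticGalois (modularFunctionFieldFull N) (γ : Qb ≃ₐ[ℚ] Qb) • f := rfl

theorem h25_rho_algebraMap (γ : ↥I) (c : Qb) :
    h25_rho N I γ (algebraMap Qb ↥(modularFunctionFieldBar N) c) =
      algebraMap Qb ↥(modularFunctionFieldBar N) ((γ : Qb ≃ₐ[ℚ] Qb) c) :=
  arithmeticRingAut_algebraMap (modularFunctionFieldFull N) (γ : Qb ≃ₐ[ℚ] Qb) c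

theorem h25_rho_fixed_iff (f : ↥(modularFunctionFieldBar N)) :
    (∀ γ : ↥I, h25_rho N I γ f = f) ↔ f ∈ h69_F0 N I := by
  rw [h69_mem_F0]
  exact ⟨fun h σ hσ => h ⟨σ, hσ⟩, fun h γ => h γ γ.2⟩

/-- `h25_SH` in terms of the stabiliser `H` of `w`. -/
theorem h25_mem_SH_mod (H : Subgroup (Qb ≃ₐ[ℚ] Qb)) (hHI : H ≤ I) (w : Qb)
    (hH : ∀ σ ∈ I, (σ w = w ↔ σ ∈ H))
    {k Fb : Type*} [Field k] [Field Fb] [Algebra k Fb]
    (R : h39_RedDatum Qb ↥(modularFunctionFieldBar N) k Fb) (f : ↥(modularFunctionFieldBar N)) :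
    f ∈ h25_SH R (h25_rho N I) (algebraMap Qb ↥(modularFunctionFieldBar N) w) ↔
      f ∈ R.O ∧ f ∈ h69_F0 N H := by
  have hinj : Function.Injective (algebraMap Qb ↥(modularFunctionFieldBar N)) :=
    (algebraMap Qb ↥(modularFunctionFieldBar N)).injective
  rw [h25_mem_SH, h69_mem_F0]
  constructor
  · rintro ⟨h1, h2⟩
    refine ⟨h1, fun σ hσ => ?_⟩
    have h3 := h2 ⟨σ, hHI hσ⟩ (by
      rw [h25_rho_algebraMap]
      exact congrArg _ ((hH σ (hHI hσ)).mpr hσ))
    exact h3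
  · rintro ⟨h1, h2⟩
    refine ⟨h1, fun γ hγ => ?_⟩
    rw [h25_rho_algebraMap] at hγ
    exact h2 γ ((hH γ γ.2).mp (hinj hγ))

end rho

/-- Orbit representatives of the conjugates of `w` (row W0 (c)). -/
theorem h25_orbit_mod (N : ℕ) (p : ℕ) [Fact p.Prime] (hp2 : p ≠ 2) (A : ValuationSubring Qb)
    (hA : A.LiesOverPrime p) (ζ : Qb) (hζ : IsPrimitiveRoot ζ p) (z w : Qb)
    (hz : A.valuation z = 1) (hzI : ∀ g ∈ A.inertiaSubgroupIn ℚ, g z = z)
    (hw : (1 + w) ^ p = 1 + (p : Qb) * z) :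
    ∃ g : Fin p → ↥(A.inertiaSubgroupIn ℚ),
      (Function.Injective fun i => h25_rho N (A.inertiaSubgroupIn ℚ) (g i)
        (algebraMap Qb ↥(modularFunctionFieldBar N) w)) ∧
      (∀ γ : ↥(A.inertiaSubgroupIn ℚ), ∃ i,
        h25_rho N (A.inertiaSubgroupIn ℚ) γ (algebraMap Qb ↥(modularFunctionFieldBar N) w) =
          h25_rho N (A.inertiaSubgroupIn ℚ) (g i)
            (algebraMap Qb ↥(modularFunctionFieldBar N) w)) ∧
      ∀ i : Fin p, (g i : Qb ≃ₐ[ℚ] Qb) (1 + w) = ζ ^ (i : ℕ) * (1 + w) := by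
  obtain ⟨-, -, -, -, h5, h6⟩ := h12_eis p hp2 A hA ζ hζ z w hz hzI hw
  have hp : p.Prime := Fact.out
  have hinj : Function.Injective (algebraMap Qb ↥(modularFunctionFieldBar N)) :=
    (algebraMap Qb ↥(modularFunctionFieldBar N)).injective
  have hζF : IsPrimitiveRoot (algebraMap Qb ↥(modularFunctionFieldBar N) ζ) p :=
    hζ.map_of_injective hinj
  have h1w : 1 + algebraMap Qb ↥(modularFunctionFieldBar N) w ≠ 0 := by
    rw [← map_one (algebraMap Qb ↥(modularFunctionFieldBar N)), ← map_add]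
    exact (map_ne_zero _).mpr (h12_eis_ne_zero p A hA z w hz hw).1
  have hone : ∀ γ : ↥(A.inertiaSubgroupIn ℚ),
      h25_rho N (A.inertiaSubgroupIn ℚ) γ (1 + algebraMap Qb ↥(modularFunctionFieldBar N) w) =
        algebraMap Qb ↥(modularFunctionFieldBar N) ((γ : Qb ≃ₐ[ℚ] Qb) (1 + w)) := by
    intro γ
    rw [← map_one (algebraMap Qb ↥(modularFunctionFieldBar N)), ← map_add, h25_rho_algebraMap]
  obtain ⟨g, hg1, hg2, hg3⟩ := h28_orbit_of_kummer (h25_rho N (A.inertiaSubgroupIn ℚ)) p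
    (algebraMap Qb ↥(modularFunctionFieldBar N) ζ) (algebraMap Qb ↥(modularFunctionFieldBar N) w)
    hζF hp.ne_zero h1w
    (by
      intro γ
      obtain ⟨j, -, hj⟩ := h5 γ γ.2
      refine ⟨j, ?_⟩
      rw [hone, hj, map_mul, map_pow, map_add, map_one])
    (by
      intro j
      obtain ⟨σ, hσ, -, hj⟩ := h6 j
      refine ⟨⟨σ, hσ⟩, ?_⟩
      rw [hone]
      show algebraMap Qb ↥(modularFunctionFieldBar N) (σ (1 + w)) = _
      rw [hj, map_mul, map_pow, map_add, map_one])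
  refine ⟨g, hg1, hg2, fun i => ?_⟩
  have h := hg3 i
  rw [hone, ← map_one (algebraMap Qb ↥(modularFunctionFieldBar N)), ← map_add, ← map_pow,
    ← map_mul] at h
  exact hinj h

/-- transport of `v a < 1` from the constants to the function field. -/
theorem h25_val_lt_transport {K F k Fb : Type*} [Field K] [Field F] [Algebra K F] [Field k]
    [Field Fb] [Algebra k Fb] (R : h39_RedDatum K F k Fb) (a : K)
    (h : R.A.valuation a < 1) : R.O.valuation (algebraMap K F a) < 1 := by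
  by_cases ha : a = 0
  · rw [ha, map_zero, map_zero]
    exact zero_lt_one
  have h1 : a ∈ R.A := (R.A.valuation_le_one_iff a).mp h.le
  have h2 : a⁻¹ ∉ R.A := fun h2 => by
    have h3 := (R.A.valuation_le_one_iff _).mpr h2
    rw [map_inv₀] at h3
    exact absurd h3 (not_le.mpr
      ((one_lt_inv₀ (zero_lt_iff.mpr ((Valuation.ne_zero_iff _).mpr ha))).mpr h))
  have h3 := (R.mem_iff a).mp h1
  refine lt_of_le_of_ne ((R.O.valuation_le_one_iff _).mpr h3) fun h4 => h2 ?_
  rw [R.mem_iff, map_inv₀, ← R.O.valuation_le_one_iff, map_inv₀, h4, inv_one]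

/-- **The jet at a modular level**, for any reduction datum over `A` with (INT-BASE). -/
theorem h25_jet_mod (N : ℕ) (p : ℕ) [Fact p.Prime] (A : ValuationSubring Qb)
    (hA : A.LiesOverPrime p) (z w : Qb)
    (hz : A.valuation z = 1) (hzI : ∀ g ∈ A.inertiaSubgroupIn ℚ, g z = z)
    (hw : (1 + w) ^ p = 1 + (p : Qb) * z)
    (g : Fin p → ↥(A.inertiaSubgroupIn ℚ))
    (hdist : Function.Injective fun i => h25_rho N (A.inertiaSubgroupIn ℚ) (g i)
      (algebraMap Qb ↥(modularFunctionFieldBar N) w))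
    (horb : ∀ γ : ↥(A.inertiaSubgroupIn ℚ), ∃ i,
      h25_rho N (A.inertiaSubgroupIn ℚ) γ (algebraMap Qb ↥(modularFunctionFieldBar N) w) =
        h25_rho N (A.inertiaSubgroupIn ℚ) (g i) (algebraMap Qb ↥(modularFunctionFieldBar N) w))
    {k Fb : Type*} [Field k] [Field Fb] [Algebra k Fb]
    (R : h39_RedDatum Qb ↥(modularFunctionFieldBar N) k Fb) (hRA : R.A = A)
    (hint : ∀ f : ↥(modularFunctionFieldBar N), f ≠ 0 →
      f ∈ h69_F0 N (A.inertiaSubgroupIn ℚ) →
      ∃ n : ℤ, R.O.valuation f =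
        R.O.valuation (algebraMap Qb ↥(modularFunctionFieldBar N) (p : Qb)) ^ n) :
    ∃ (hwS : algebraMap Qb ↥(modularFunctionFieldBar N) w ∈
        h25_SH R (h25_rho N (A.inertiaSubgroupIn ℚ))
          (algebraMap Qb ↥(modularFunctionFieldBar N) w))
      (J : ↥(h25_SH R (h25_rho N (A.inertiaSubgroupIn ℚ))
          (algebraMap Qb ↥(modularFunctionFieldBar N) w)) →+* TrivSqZeroExt Fb Fb),
      (∀ f, J f = h25_jetFun R (h25_rho N (A.inertiaSubgroupIn ℚ)) p
        (algebraMap Qb ↥(modularFunctionFieldBar N) w) g (f : ↥(modularFunctionFieldBar N))) ∧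
      (∀ f : ↥(h25_SH R (h25_rho N (A.inertiaSubgroupIn ℚ))
          (algebraMap Qb ↥(modularFunctionFieldBar N) w)),
        (f : ↥(modularFunctionFieldBar N)) ∈ h69_F0 N (A.inertiaSubgroupIn ℚ) →
          J f = TrivSqZeroExt.inl (R.redF (f : ↥(modularFunctionFieldBar N)))) ∧
      J ⟨algebraMap Qb ↥(modularFunctionFieldBar N) w, hwS⟩ = TrivSqZeroExt.inr 1 ∧
      ∀ f, (J f).fst = R.redF (f : ↥(modularFunctionFieldBar N)) := by
  subst hRA
  have hp : p.Prime := Fact.out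
  have hinj : Function.Injective (algebraMap Qb ↥(modularFunctionFieldBar N)) :=
    (algebraMap Qb ↥(modularFunctionFieldBar N)).injective
  have hpF : ((p : ℕ) : ↥(modularFunctionFieldBar N)) =
      algebraMap Qb ↥(modularFunctionFieldBar N) (p : Qb) := (map_natCast _ p).symm
  obtain ⟨-, -, hvw, -⟩ := h12_eis_val p R.A hA z w hz hw
  have hrelF : (1 + algebraMap Qb ↥(modularFunctionFieldBar N) w) ^ p =
      1 + ((p : ℕ) : ↥(modularFunctionFieldBar N)) *
        algebraMap Qb ↥(modularFunctionFieldBar N) z := by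
    have h := congrArg (algebraMap Qb ↥(modularFunctionFieldBar N)) hw
    rw [map_pow, map_add, map_one, map_add, map_one, map_mul, map_natCast] at h
    exact h
  have hzO : algebraMap Qb ↥(modularFunctionFieldBar N) z ∈ R.O :=
    (R.mem_iff z).mp ((R.A.valuation_le_one_iff z).mp hz.le)
  have hzfix : ∀ γ : ↥(R.A.inertiaSubgroupIn ℚ),
      h25_rho N (R.A.inertiaSubgroupIn ℚ) γ (algebraMap Qb ↥(modularFunctionFieldBar N) z) =
        algebraMap Qb ↥(modularFunctionFieldBar N) z := fun γ => by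
    rw [h25_rho_algebraMap, hzI γ γ.2]
  have hp0 : ((p : ℕ) : ↥(modularFunctionFieldBar N)) ≠ 0 := by
    rw [hpF]
    exact (map_ne_zero _).mpr (Nat.cast_ne_zero.mpr hp.ne_zero)
  have hπ : R.O.valuation ((p : ℕ) : ↥(modularFunctionFieldBar N)) < 1 := by
    rw [hpF]
    exact h25_val_lt_transport R _ (h8_val_p_lt p R.A hA)
  have hvwF : R.O.valuation (algebraMap Qb ↥(modularFunctionFieldBar N) w) ^ p =
      R.O.valuation ((p : ℕ) : ↥(modularFunctionFieldBar N)) := by
    rw [hpF, ← map_pow, ← map_pow]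
    exact h28_val_transport R.A R.O R.mem_iff (w ^ p) (p : Qb) (by rw [map_pow]; exact hvw)
  have hint' : ∀ f : ↥(modularFunctionFieldBar N),
      (∀ γ : ↥(R.A.inertiaSubgroupIn ℚ), h25_rho N (R.A.inertiaSubgroupIn ℚ) γ f = f) →
      f ≠ 0 → ∃ m : ℤ, R.O.valuation f =
        R.O.valuation ((p : ℕ) : ↥(modularFunctionFieldBar N)) ^ m := by
    intro f hfix hf0
    obtain ⟨m, h1⟩ := hint f hf0 ((h25_rho_fixed_iff N _ f).mp hfix)
    rw [← hpF] at h1
    exact ⟨m, h1⟩
  obtain ⟨hwS, J, hJ1, hJ2, hJ3, hJ4⟩ := h25_jet_inst R (h25_rho N (R.A.inertiaSubgroupIn ℚ)) p hp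
    (algebraMap Qb ↥(modularFunctionFieldBar N) w) (algebraMap Qb ↥(modularFunctionFieldBar N) z)
    g hdist horb hrelF hzO hzfix hp0 hπ hvwF hint'
  exact ⟨hwS, J, hJ1, fun f hf => hJ2 f ((h25_rho_fixed_iff N _ _).mpr hf), hJ3, hJ4⟩

end Fermat.Agent.S40
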