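import Mathlib
import Fermat.Agent.S18.GR_RedAPI
import Fermat.Agent.S40.h86_Jet
import Fermat.Agent.S40.h38_JumpGen

/-!
# S40 / (TR) by lattice count, row W7: the jet of `η = p / w^p` ((Jd)) (helper86)

* `h86_constSub J` : the subring of elements with constant jet (`snd (J s) = 0`).
* `h86_jd` : for a jet `J : S →+* B[ε]` with `J w = ε`, `z` of constant jet,
  `(1 + w)^p = 1 + p z` and `η w^p = p`:  `fst (J η) · z̄ = 1` and `Ω(η) = 1 / z̄` (`z̄ = fst (J z)`).
* `h86_jd_red` : the same for a jet on a subring `S` of a function field with a reduction datum,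
  in the binder shape `hηfst`, `hηJ` of `h38_jump_of_fill` / `h38_twist_w67` / `h50_twist_jump`,
  with `ηb = lam = (resK z)⁻¹`.
-/

set_option autoImplicit false

noncomputable section

namespace Fermat.Agent.S40

open Fermat.Agent.S18

section Const

variable {S : Type*} [CommRing S] {B : Type*} [Field B]

/-- the subring of elements whose jet is constant. -/
def h86_constSub (J : S →+* DualNumber B) : Subring S where
  carrier := {s | TrivSqZeroExt.snd (J s) = 0}
  mul_mem' := by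
    intro a b ha hb
    have ha' : TrivSqZeroExt.snd (J a) = 0 := ha
    have hb' : TrivSqZeroExt.snd (J b) = 0 := hb
    show TrivSqZeroExt.snd (J (a * b)) = 0
    rw [h86_snd_mul, ha', hb', mul_zero, mul_zero, add_zero]
  one_mem' := by
    show TrivSqZeroExt.snd (J 1) = 0
    rw [map_one, TrivSqZeroExt.snd_one]
  add_mem' := by
    intro a b ha hb
    have ha' : TrivSqZeroExt.snd (J a) = 0 := ha
    have hb' : TrivSqZeroExt.snd (J b) = 0 := hb
    show TrivSqZeroExt.snd (J (a + b)) = 0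
    rw [map_add, TrivSqZeroExt.snd_add, ha', hb', add_zero]
  zero_mem' := by
    show TrivSqZeroExt.snd (J 0) = 0
    rw [map_zero, TrivSqZeroExt.snd_zero]
  neg_mem' := by
    intro a ha
    have ha' : TrivSqZeroExt.snd (J a) = 0 := ha
    show TrivSqZeroExt.snd (J (-a)) = 0
    rw [map_neg, TrivSqZeroExt.snd_neg, ha', neg_zero]

theorem h86_mem_constSub (J : S →+* DualNumber B) (s : S) :
    s ∈ h86_constSub J ↔ TrivSqZeroExt.snd (J s) = 0 := Iff.rfl

/-- **(Jd), abstract**: the jet of `η = p / w^p`. -/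
theorem h86_jd (J : S →+* DualNumber B) (p : ℕ) (hp : p.Prime) (w z η : S)
    (hJw : J w = DualNumber.eps) (hJz : TrivSqZeroExt.snd (J z) = 0)
    (hw : (1 + w) ^ p = 1 + (p : S) * z) (hη : η * w ^ p = (p : S))
    (hreg : ∀ s : S, (p : S) * s = 0 → s = 0) :
    TrivSqZeroExt.fst (J η) * TrivSqZeroExt.fst (J z) = 1 ∧
      TrivSqZeroExt.snd (J η) = (TrivSqZeroExt.fst (J z))⁻¹ * TrivSqZeroExt.fst (J η) := by
  let red : ↥(h86_constSub J) →+* B :=
    ((TrivSqZeroExt.fstHom B B B : DualNumber B →ₐ[B] B) : DualNumber B →+* B).comp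
      (J.comp (h86_constSub J).subtype)
  have hred : ∀ c : ↥(h86_constSub J), red c = TrivSqZeroExt.fst (J (c : S)) := fun c => rfl
  have hJc : ∀ c : ↥(h86_constSub J),
      J (algebraMap ↥(h86_constSub J) S c) = TrivSqZeroExt.inl (red c) := by
    intro c
    apply TrivSqZeroExt.ext
    · rw [TrivSqZeroExt.fst_inl, hred]
      rfl
    · rw [TrivSqZeroExt.snd_inl]
      exact c.2
  obtain ⟨h1, h2⟩ := h86_om_eta_kummer red w J hJc hJw p hp ⟨z, hJz⟩ hw η hη hreg
  rw [hred] at h1 h2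
  refine ⟨h1, ?_⟩
  have hf : TrivSqZeroExt.fst (J η) ≠ 0 := by
    intro h0
    rw [h0, zero_mul] at h1
    exact zero_ne_one h1
  rw [h86_om_def] at h2
  rw [div_eq_iff hf] at h2
  rw [h2, one_div]

end Const

section Red

variable {K F k Fb : Type*} [Field K] [Field F] [Algebra K F] [Field k] [Field Fb] [Algebra k Fb]

/-- **(Jd) for a reduction datum**, in the binder shape `hηfst`, `hηJ` of `h38_jump_of_fill`,
`h38_twist_w67`, `h50_twist_jump`: for the Kummer pair `(1 + w)^p = 1 + p z` (`z` with constant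
jet: (Ja); `J w = ε`: (Jb)) and `η w^p = p`: `fst (J η) = z̄⁻¹` and `Ω(η) = z̄⁻¹`,
`z̄ = resK z`. -/
theorem h86_jd_red (R : h39_RedDatum K F k Fb) (S : Subring F)
    (J : ↥S →+* TrivSqZeroExt Fb Fb) (hfst : ∀ f : ↥S, (J f).fst = R.redF f)
    (p : ℕ) (hp : p.Prime) (hpK : (p : K) ≠ 0) (w z η : K) (hz : z ∈ R.A)
    (hwS : algebraMap K F w ∈ S) (hzS : algebraMap K F z ∈ S) (hηS : algebraMap K F η ∈ S)
    (hJw : J ⟨algebraMap K F w, hwS⟩ = TrivSqZeroExt.inr 1)
    (hJz : (J ⟨algebraMap K F z, hzS⟩).snd = 0)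
    (hrel : (1 + w) ^ p = 1 + (p : K) * z) (hη : η * w ^ p = (p : K)) :
    (J ⟨algebraMap K F η, hηS⟩).fst = algebraMap k Fb (R.resK z)⁻¹ ∧
      h38_IsOm J ⟨algebraMap K F η, hηS⟩ (algebraMap k Fb (R.resK z)⁻¹) := by
  have hpF : (p : F) ≠ 0 := by
    have h : algebraMap K F (p : K) ≠ 0 := (map_ne_zero _).mpr hpK
    rwa [map_natCast] at h
  have hw' : (1 + (⟨algebraMap K F w, hwS⟩ : ↥S)) ^ p =
      1 + (p : ↥S) * ⟨algebraMap K F z, hzS⟩ := by
    apply Subtype.ext
    have h := congrArg (algebraMap K F) hrel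
    rw [map_pow, map_add, map_one, map_add, map_one, map_mul, map_natCast] at h
    push_cast
    exact h
  have hη' : (⟨algebraMap K F η, hηS⟩ : ↥S) * ⟨algebraMap K F w, hwS⟩ ^ p = (p : ↥S) := by
    apply Subtype.ext
    have h := congrArg (algebraMap K F) hη
    rw [map_mul, map_pow, map_natCast] at h
    push_cast
    exact h
  have hreg : ∀ s : ↥S, (p : ↥S) * s = 0 → s = 0 := by
    intro s hs
    have h := congrArg (Subtype.val) hs
    push_cast at h
    rcases mul_eq_zero.mp h with h | h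
    · exact absurd h hpF
    · exact Subtype.ext h
  obtain ⟨h1, h2⟩ := h86_jd J p hp ⟨algebraMap K F w, hwS⟩ ⟨algebraMap K F z, hzS⟩
    ⟨algebraMap K F η, hηS⟩ hJw hJz hw' hη' hreg
  have hzb : TrivSqZeroExt.fst (J ⟨algebraMap K F z, hzS⟩) = algebraMap k Fb (R.resK z) := by
    rw [hfst]
    exact h39_redF_algebraMap R hz
  rw [hzb] at h1 h2
  have e : TrivSqZeroExt.fst (J ⟨algebraMap K F η, hηS⟩) = algebraMap k Fb (R.resK z)⁻¹ := by
    rw [map_inv₀]
    exact eq_inv_of_mul_eq_one_left h1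
  refine ⟨e, ?_⟩
  unfold h38_IsOm
  rw [h2, map_inv₀]

end Red

end Fermat.Agent.S40

end
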