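import Mathlib
import Fermat.Agent.S36.h22_VertVal
import Fermat.Agent.S40.h25_JetMod
import Fermat.Agent.S40.h86_JetD
import Fermat.Agent.S40.h11_HJet
import Fermat.Agent.S40.h11_EtaUnit

/-!
# S40 / (TR) row W7: the jet package at a charted level (helper11; insurance twin of the
package planned as `h25_JetChart`)

Level `M p`, `p ∤ M`, `p` odd, `A` over `p`, `I` the inertia group of `A`, `(z, w)` a W0 pair.
`ρ = h25_rho (M p) I`, `w_F = algebraMap w`, `S_i = h25_SH R_i ρ w_F` (the `Stab_I(w)`-fixed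
elements of `R_i.O`), `R₁ = h60_R1`, `R₂ = h60_R2`.

`h11_jet_chart` : there are orbit representatives `g` and jets `J_i : S_i →+* Fb[ε]` with
(Je) the explicit formula, (Ja) `J_i f = inl (red_i f)` for `I`-fixed `f`, (Jb) `J_i w = ε`,
(Jc) `(J_i f).fst = red_i f`, the expansion hypothesis `h38_HJet` for `D0 = h87_D0 M p hpM`, and
(Jd): `η = p / w^p` and `η⁻¹` lie in `S₂`, `(J₂ η).fst = (z̄)⁻¹`, `Ω₂(η) = (z̄)⁻¹ ≠ 0`.
-/

set_option autoImplicit false

noncomputable section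

open AlgebraicCurve ModularCurve

namespace Fermat.Agent.S40

open Fermat.Agent.S18 Fermat.Agent.S34 Fermat.Agent.S36

local notation "Qb" => AlgebraicClosure ℚ

variable (M p : ℕ) [NeZero M] [NeZero p] [Fact p.Prime] (hp2 : p ≠ 2) (hpM : ¬ p ∣ M)
  (A : ValuationSubring Qb) (hA : A.LiesOverPrime p)

include hp2 in
/-- **The jet package at a charted level.** -/
theorem h11_jet_chart (ζ : Qb) (hζ : IsPrimitiveRoot ζ p) (z w : Qb)
    (hz : A.valuation z = 1) (hzI : ∀ g ∈ A.inertiaSubgroupIn ℚ, g z = z)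
    (hw : (1 + w) ^ p = 1 + (p : Qb) * z) :
    ∃ (g : Fin p → ↥(A.inertiaSubgroupIn ℚ))
      (J1 : ↥(h25_SH (h60_R1 M p hpM A hA) (h25_rho (M * p) (A.inertiaSubgroupIn ℚ))
          (algebraMap Qb ↥(modularFunctionFieldBar (M * p)) w)) →+*
        TrivSqZeroExt ↥(modularFunctionFieldFullC (IsLocalRing.ResidueField A) M)
          ↥(modularFunctionFieldFullC (IsLocalRing.ResidueField A) M))
      (J2 : ↥(h25_SH (h60_R2 M p hpM A hA) (h25_rho (M * p) (A.inertiaSubgroupIn ℚ))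
          (algebraMap Qb ↥(modularFunctionFieldBar (M * p)) w)) →+*
        TrivSqZeroExt ↥(modularFunctionFieldFullC (IsLocalRing.ResidueField A) M)
          ↥(modularFunctionFieldFullC (IsLocalRing.ResidueField A) M)),
      -- orbit data
      ((Function.Injective fun i => h25_rho (M * p) (A.inertiaSubgroupIn ℚ) (g i)
          (algebraMap Qb ↥(modularFunctionFieldBar (M * p)) w)) ∧
        (∀ γ : ↥(A.inertiaSubgroupIn ℚ), ∃ i,
          h25_rho (M * p) (A.inertiaSubgroupIn ℚ) γ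
              (algebraMap Qb ↥(modularFunctionFieldBar (M * p)) w) =
            h25_rho (M * p) (A.inertiaSubgroupIn ℚ) (g i)
              (algebraMap Qb ↥(modularFunctionFieldBar (M * p)) w)) ∧
        ∀ i : Fin p, (g i : Qb ≃ₐ[ℚ] Qb) (1 + w) = ζ ^ (i : ℕ) * (1 + w)) ∧
      -- (Je)
      ((∀ f, J1 f = h25_jetFun (h60_R1 M p hpM A hA) (h25_rho (M * p) (A.inertiaSubgroupIn ℚ)) p
          (algebraMap Qb ↥(modularFunctionFieldBar (M * p)) w) g
          (f : ↥(modularFunctionFieldBar (M * p)))) ∧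
        (∀ f, J2 f = h25_jetFun (h60_R2 M p hpM A hA) (h25_rho (M * p) (A.inertiaSubgroupIn ℚ)) p
          (algebraMap Qb ↥(modularFunctionFieldBar (M * p)) w) g
          (f : ↥(modularFunctionFieldBar (M * p))))) ∧
      -- (Ja)
      ((∀ f : ↥(h25_SH (h60_R1 M p hpM A hA) (h25_rho (M * p) (A.inertiaSubgroupIn ℚ))
            (algebraMap Qb ↥(modularFunctionFieldBar (M * p)) w)),
          (f : ↥(modularFunctionFieldBar (M * p))) ∈ h69_F0 (M * p) (A.inertiaSubgroupIn ℚ) →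
          J1 f = TrivSqZeroExt.inl
            ((h60_R1 M p hpM A hA).redF (f : ↥(modularFunctionFieldBar (M * p))))) ∧
        (∀ f : ↥(h25_SH (h60_R2 M p hpM A hA) (h25_rho (M * p) (A.inertiaSubgroupIn ℚ))
            (algebraMap Qb ↥(modularFunctionFieldBar (M * p)) w)),
          (f : ↥(modularFunctionFieldBar (M * p))) ∈ h69_F0 (M * p) (A.inertiaSubgroupIn ℚ) →
          J2 f = TrivSqZeroExt.inl
            ((h60_R2 M p hpM A hA).redF (f : ↥(modularFunctionFieldBar (M * p)))))) ∧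
      -- (Jb)
      ((∃ hwS, J1 ⟨algebraMap Qb ↥(modularFunctionFieldBar (M * p)) w, hwS⟩ =
          TrivSqZeroExt.inr 1) ∧
        (∃ hwS, J2 ⟨algebraMap Qb ↥(modularFunctionFieldBar (M * p)) w, hwS⟩ =
          TrivSqZeroExt.inr 1)) ∧
      -- (Jc)
      ((∀ f, (J1 f).fst = (h60_R1 M p hpM A hA).redF (f : ↥(modularFunctionFieldBar (M * p)))) ∧
        (∀ f, (J2 f).fst = (h60_R2 M p hpM A hA).redF (f : ↥(modularFunctionFieldBar (M * p))))) ∧
      -- the expansion hypothesis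
      h38_HJet (h60_R1 M p hpM A hA) (h60_R2 M p hpM A hA) (h87_D0 M p hpM)
        (h25_SH (h60_R1 M p hpM A hA) (h25_rho (M * p) (A.inertiaSubgroupIn ℚ))
          (algebraMap Qb ↥(modularFunctionFieldBar (M * p)) w))
        (h25_SH (h60_R2 M p hpM A hA) (h25_rho (M * p) (A.inertiaSubgroupIn ℚ))
          (algebraMap Qb ↥(modularFunctionFieldBar (M * p)) w)) J1 J2 ∧
      -- (Jd)
      (∃ (hηS : algebraMap Qb ↥(modularFunctionFieldBar (M * p)) ((p : Qb) / w ^ p) ∈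
            h25_SH (h60_R2 M p hpM A hA) (h25_rho (M * p) (A.inertiaSubgroupIn ℚ))
              (algebraMap Qb ↥(modularFunctionFieldBar (M * p)) w))
          (_ : (algebraMap Qb ↥(modularFunctionFieldBar (M * p)) ((p : Qb) / w ^ p))⁻¹ ∈
            h25_SH (h60_R2 M p hpM A hA) (h25_rho (M * p) (A.inertiaSubgroupIn ℚ))
              (algebraMap Qb ↥(modularFunctionFieldBar (M * p)) w)),
          (J2 ⟨algebraMap Qb ↥(modularFunctionFieldBar (M * p)) ((p : Qb) / w ^ p), hηS⟩).fst =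
              algebraMap (IsLocalRing.ResidueField A)
                ↥(modularFunctionFieldFullC (IsLocalRing.ResidueField A) M)
                ((h60_R2 M p hpM A hA).resK z)⁻¹ ∧
            h38_IsOm J2 ⟨algebraMap Qb ↥(modularFunctionFieldBar (M * p)) ((p : Qb) / w ^ p), hηS⟩
              (algebraMap (IsLocalRing.ResidueField A)
                ↥(modularFunctionFieldFullC (IsLocalRing.ResidueField A) M)
                ((h60_R2 M p hpM A hA).resK z)⁻¹)) ∧
      ((h60_R2 M p hpM A hA).resK z)⁻¹ ≠ 0 := by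
  classical
  have hp : p.Prime := Fact.out
  have hp0 : (p : Qb) ≠ 0 := Nat.cast_ne_zero.mpr hp.ne_zero
  have hinj : Function.Injective (algebraMap Qb ↥(modularFunctionFieldBar (M * p))) :=
    (algebraMap Qb ↥(modularFunctionFieldBar (M * p))).injective
  obtain ⟨g, hdist, horb, hg3⟩ := h25_orbit_mod (M * p) p hp2 A hA ζ hζ z w hz hzI hw
  obtain ⟨hη, -, -, -, -, -, hw0, -, -, -, hzA⟩ := h11_eta_spec p hp2 A hA ζ hζ z w hz hzI hw
  obtain ⟨-, hwv, -, -, -, -⟩ := h12_eis p hp2 A hA ζ hζ z w hz hzI hw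
  -- INT-BASE in valuation form
  have hint1 : ∀ f : ↥(modularFunctionFieldBar (M * p)), f ≠ 0 →
      f ∈ h69_F0 (M * p) (A.inertiaSubgroupIn ℚ) →
      ∃ n : ℤ, (h60_R1 M p hpM A hA).O.valuation f =
        (h60_R1 M p hpM A hA).O.valuation
          (algebraMap Qb ↥(modularFunctionFieldBar (M * p)) (p : Qb)) ^ n :=
    fun f hf hfix => h22_pair_val M p hpM A hA 0 f hf hfix
  have hint2 : ∀ f : ↥(modularFunctionFieldBar (M * p)), f ≠ 0 →
      f ∈ h69_F0 (M * p) (A.inertiaSubgroupIn ℚ) →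
      ∃ n : ℤ, (h60_R2 M p hpM A hA).O.valuation f =
        (h60_R2 M p hpM A hA).O.valuation
          (algebraMap Qb ↥(modularFunctionFieldBar (M * p)) (p : Qb)) ^ n :=
    fun f hf hfix => h22_pair_val M p hpM A hA 1 f hf hfix
  obtain ⟨hwS1, J1, hJe1, hJa1, hJb1, hJc1⟩ := h25_jet_mod (M * p) p A hA z w hz hzI hw g hdist
    horb (h60_R1 M p hpM A hA) (h60_R1_A M p hpM A hA) hint1
  obtain ⟨hwS2, J2, hJe2, hJa2, hJb2, hJc2⟩ := h25_jet_mod (M * p) p A hA z w hz hzI hw g hdist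
    horb (h60_R2 M p hpM A hA) (h60_R2_A M p hpM A hA) hint2
  -- the inputs of `h11_hjet_gen`
  have hπ0 : algebraMap Qb ↥(modularFunctionFieldBar (M * p)) (p : Qb) ≠ 0 :=
    (map_ne_zero _).mpr hp0
  have hπA : ∀ R : h39_RedDatum Qb ↥(modularFunctionFieldBar (M * p))
      (IsLocalRing.ResidueField A) ↥(modularFunctionFieldFullC (IsLocalRing.ResidueField A) M),
      R.A = A → R.O.valuation (algebraMap Qb ↥(modularFunctionFieldBar (M * p)) (p : Qb)) < 1 ∧
        R.O.valuation (algebraMap Qb ↥(modularFunctionFieldBar (M * p)) w) ^ p =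
          R.O.valuation (algebraMap Qb ↥(modularFunctionFieldBar (M * p)) (p : Qb)) := by
    intro R hRA
    constructor
    · refine h25_val_lt_transport R _ ?_
      rw [hRA]
      exact h8_val_p_lt p A hA
    · have h1 := h28_val_transport R.A R.O R.mem_iff (w ^ p) (p : Qb)
        (by rw [hRA, map_pow]; exact hwv)
      rw [map_pow, map_pow] at h1
      exact h1
  have hfixiff : ∀ f : ↥(modularFunctionFieldBar (M * p)),
      (∀ γ : ↥(A.inertiaSubgroupIn ℚ), h25_rho (M * p) (A.inertiaSubgroupIn ℚ) γ f = f) →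
      f ∈ h69_F0 (M * p) (A.inertiaSubgroupIn ℚ) :=
    fun f hf => (h25_rho_fixed_iff (M * p) (A.inertiaSubgroupIn ℚ) f).mp hf
  have hjet : h38_HJet (h60_R1 M p hpM A hA) (h60_R2 M p hpM A hA) (h87_D0 M p hpM)
      (h25_SH (h60_R1 M p hpM A hA) (h25_rho (M * p) (A.inertiaSubgroupIn ℚ))
        (algebraMap Qb ↥(modularFunctionFieldBar (M * p)) w))
      (h25_SH (h60_R2 M p hpM A hA) (h25_rho (M * p) (A.inertiaSubgroupIn ℚ))
        (algebraMap Qb ↥(modularFunctionFieldBar (M * p)) w)) J1 J2 := by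
    refine h11_hjet_gen (h60_R1 M p hpM A hA) (h60_R2 M p hpM A hA) (h87_D0 M p hpM)
      (h25_rho (M * p) (A.inertiaSubgroupIn ℚ)) p hp.two_le
      (algebraMap Qb ↥(modularFunctionFieldBar (M * p)) w) g hdist horb
      (algebraMap Qb ↥(modularFunctionFieldBar (M * p)) (p : Qb)) hπ0
      (hπA _ (h60_R1_A M p hpM A hA)).1 (hπA _ (h60_R1_A M p hpM A hA)).2
      (fun f hf hf0 => hint1 f hf0 (hfixiff f hf))
      (hπA _ (h60_R2_A M p hpM A hA)).1 (hπA _ (h60_R2_A M p hpM A hA)).2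
      (fun f hf hf0 => hint2 f hf0 (hfixiff f hf))
      (algebraMap Qb ↥(modularFunctionFieldBar (M * p))).fieldRange ?_
      (fun n a ha s hs => h11_rr_const_mul (M * p) _ a ha s hs)
      (fun n γ f hf => h11_rr_D0_gal M p hpM n (γ : Qb ≃ₐ[ℚ] Qb) f hf)
      _ _ (fun f hf => hf) (fun f hf => hf) J1 J2 (fun f => hJe1 f) (fun f => hJe2 f)
    intro i
    rw [h25_rho_algebraMap]
    exact ⟨_, rfl⟩
  -- memberships for (Jd)
  obtain ⟨⟨hηO, hηiO, -, hzO, -⟩, hHfix, hzfix, -⟩ := h11_eta_datum (M * p) p hp2 A hA ζ hζ z w hz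
    hzI hw (h60_R2 M p hpM A hA) (h60_R2_A M p hpM A hA)
  have hstab : ∀ γ : ↥(A.inertiaSubgroupIn ℚ),
      h25_rho (M * p) (A.inertiaSubgroupIn ℚ) γ
          (algebraMap Qb ↥(modularFunctionFieldBar (M * p)) w) =
        algebraMap Qb ↥(modularFunctionFieldBar (M * p)) w → (γ : Qb ≃ₐ[ℚ] Qb) w = w := by
    intro γ hγ
    rw [h25_rho_algebraMap] at hγ
    exact hinj hγ
  have hηS : algebraMap Qb ↥(modularFunctionFieldBar (M * p)) ((p : Qb) / w ^ p) ∈
      h25_SH (h60_R2 M p hpM A hA) (h25_rho (M * p) (A.inertiaSubgroupIn ℚ))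
        (algebraMap Qb ↥(modularFunctionFieldBar (M * p)) w) :=
    ⟨hηO, fun γ hγ => (hHfix (γ : Qb ≃ₐ[ℚ] Qb) (hstab γ hγ)).1⟩
  have hηSi : (algebraMap Qb ↥(modularFunctionFieldBar (M * p)) ((p : Qb) / w ^ p))⁻¹ ∈
      h25_SH (h60_R2 M p hpM A hA) (h25_rho (M * p) (A.inertiaSubgroupIn ℚ))
        (algebraMap Qb ↥(modularFunctionFieldBar (M * p)) w) :=
    ⟨hηiO, fun γ hγ => (hHfix (γ : Qb ≃ₐ[ℚ] Qb) (hstab γ hγ)).2.1⟩
  have hzS : algebraMap Qb ↥(modularFunctionFieldBar (M * p)) z ∈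
      h25_SH (h60_R2 M p hpM A hA) (h25_rho (M * p) (A.inertiaSubgroupIn ℚ))
        (algebraMap Qb ↥(modularFunctionFieldBar (M * p)) w) :=
    ⟨hzO, fun γ _ => hzfix (γ : Qb ≃ₐ[ℚ] Qb) γ.2⟩
  have hzF0 : algebraMap Qb ↥(modularFunctionFieldBar (M * p)) z ∈
      h69_F0 (M * p) (A.inertiaSubgroupIn ℚ) :=
    (h69_mem_F0 (M * p) _ _).mpr hzfix
  have hJz : (J2 ⟨algebraMap Qb ↥(modularFunctionFieldBar (M * p)) z, hzS⟩).snd = 0 := by
    rw [hJa2 ⟨_, hzS⟩ hzF0, TrivSqZeroExt.snd_inl]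
  have hzA2 : z ∈ (h60_R2 M p hpM A hA).A := by
    rw [h60_R2_A M p hpM A hA]
    exact hzA
  obtain ⟨hfst, hom⟩ := h86_jd_red (h60_R2 M p hpM A hA) _ J2 hJc2 p hp hp0 w z
    ((p : Qb) / w ^ p) hzA2 hwS2 hzS hηS hJb2 hJz hw hη
  refine ⟨g, J1, J2, ⟨hdist, horb, hg3⟩, ⟨hJe1, hJe2⟩, ⟨hJa1, hJa2⟩, ⟨⟨hwS1, hJb1⟩, ⟨hwS2, hJb2⟩⟩,
    ⟨hJc1, hJc2⟩, hjet, ⟨hηS, hηSi, hfst, hom⟩, ?_⟩
  -- `(z̄)⁻¹ ≠ 0` because `η` is a unit of `R₂.O`
  intro h0
  rw [h0, map_zero, hJc2] at hfst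
  rcases (h39_redF_eq_zero_iff (h60_R2 M p hpM A hA) hηO).mp hfst with h | h
  · exact (map_ne_zero _).mpr (div_ne_zero hp0 (pow_ne_zero _ hw0)) h
  · exact h hηiO

end Fermat.Agent.S40
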