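import Mathlib
import Fermat.Agent.S34.h22_LatON

/-!
# S40 / (TR) row W3 (LAT*), generic core (helper11): rational elements of a twisted lattice
with independent reductions, by discriminant descent

`D : h22_Lat K F k Rb` is a lattice datum with orthonormal bases (`h22_ON D`); it is only used
for coordinates and boundedness.  `w` is a non-unit of the valuation ring `A` of the constants
with `⋂ wⁿ A = 0` (hypothesis `harch`).

A *twisted lattice* is given by a predicate `Lc : F → Prop` and a map `ρ : F → Wb` into a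
`k`-module, additive and `res`-semilinear on `Lc`, with `w^m Lc ⊆ O` and `w^m O ⊆ Lc`.
The *rational* elements are a set `S0 ⊆ F`, stable under addition and under multiplication by
the rational constants `C0 ⊆ K` (`1, w, w⁻¹ ∈ C0`, and `C0 ∩ A` surjects onto the residue
field).  The only arithmetic input is

* (MIN) a rational element of `Lc` with `ρ f = 0` is divisible by `w` in `Lc`.

`h11_latStar` : if a finite-dimensional `K`-subspace `V` of `F` has a `K`-basis of rational
elements, then there are `dim_K V` rational elements of `V ∩ Lc` whose images under `ρ` are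
`k`-linearly independent.

Proof: scale a rational basis `b` into `Lc`; let `C` be its matrix in an orthonormal basis of
`V ∩ O`.  Then `w^(m r) det C ∈ A`.  If the `ρ (b i)` are dependent, lift a relation to rational
integral constants `c i` with `c j = 1`; `f = ∑ c i • b i` is rational with `ρ f = 0`, so
`w⁻¹ f ∈ Lc` by (MIN), and replacing `b j` by `w⁻¹ f` divides `det C` by `w`.  This cannot go on
for ever.
-/

set_option autoImplicit false

noncomputable section

open Module

namespace Fermat.Agent.S40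

open Fermat.Agent.S34

variable {K F k Rb : Type*} [Field K] [Field F] [Algebra K F] [Field k] [CommRing Rb]
  [Algebra k Rb]

/-- A nonzero constant is not divisible by all powers of the non-unit `w` (rank one). -/
theorem h11_not_pow_dvd (A : ValuationSubring K) {w : K} (hwn : w ∈ A.nonunits)
    (harch : ∀ a : K, ∃ n : ℕ, w ^ n * a ∈ A) {d : K} (hd : d ≠ 0) :
    ∃ n : ℕ, ∀ a ∈ A, d ≠ w ^ n * a := by
  obtain ⟨n, hn⟩ := harch d⁻¹
  refine ⟨n + 1, fun a ha h => ?_⟩
  have hw0 : w ≠ 0 := by
    rintro rfl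
    rw [zero_pow (Nat.succ_ne_zero n), zero_mul] at h
    exact hd h
  have ha0 : a ≠ 0 := by
    rintro rfl
    rw [mul_zero] at h
    exact hd h
  have h1 : w⁻¹ = a * (w ^ n * d⁻¹) := by
    rw [h]
    field_simp
    ring
  have h2 : w⁻¹ ∈ A := by
    rw [h1]
    exact A.mul_mem _ _ ha hn
  rcases (ValuationSubring.mem_nonunits_iff_or A).mp hwn with h3 | h3
  · exact hw0 h3
  · exact h3 h2

/-- The determinant of a matrix with entries in a valuation ring lies in it. -/
theorem h11_det_mem (A : ValuationSubring K) {r : ℕ} (M : Matrix (Fin r) (Fin r) K)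
    (hM : ∀ i j, M i j ∈ A) : M.det ∈ A := by
  rw [Matrix.det_apply']
  refine sum_mem fun σ _ => A.mul_mem _ _ ?_ (prod_mem fun i _ => hM _ _)
  exact intCast_mem A _

section core

variable (D : h22_Lat K F k Rb) {Wb : Type*} [AddCommGroup Wb] [Module k Wb]
  (Lc : F → Prop) (ρ : F → Wb)

/-- integral combinations stay in the twisted lattice, and `ρ` is semilinear on them -/
theorem h11_sum_aux (hL0 : Lc 0)
    (hLadd : ∀ f g, Lc f → Lc g → Lc (f + g))
    (hLsmul : ∀ (a : K) (f : F), a ∈ D.A → Lc f → Lc (a • f))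
    (hρadd : ∀ f g, Lc f → Lc g → ρ (f + g) = ρ f + ρ g)
    (hρsmul : ∀ (a : K) (f : F), a ∈ D.A → Lc f → ρ (a • f) = D.resK a • ρ f)
    {ι : Type*} (s : Finset ι) (a : ι → K) (x : ι → F) (ha : ∀ i, a i ∈ D.A)
    (hx : ∀ i, Lc (x i)) :
    Lc (∑ i ∈ s, a i • x i) ∧ ρ (∑ i ∈ s, a i • x i) = ∑ i ∈ s, D.resK (a i) • ρ (x i) := by
  classical
  have hρ0 : ρ 0 = 0 := by
    have h := hρadd 0 0 hL0 hL0
    rw [add_zero] at h
    exact left_eq_add.mp h
  induction s using Finset.induction_on with
  | empty => simp [hL0, hρ0]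
  | insert i s hi ih =>
    rw [Finset.sum_insert hi, Finset.sum_insert hi]
    have h1 : Lc (a i • x i) := hLsmul _ _ (ha i) (hx i)
    exact ⟨hLadd _ _ h1 ih.1, by rw [hρadd _ _ h1 ih.1, hρsmul _ _ (ha i) (hx i), ih.2]⟩

/-- **Discriminant descent.** -/
theorem h11_latStar_aux
    (w : K) (hw0 : w ≠ 0)
    (hL0 : Lc 0)
    (hLadd : ∀ f g, Lc f → Lc g → Lc (f + g))
    (hLsmul : ∀ (a : K) (f : F), a ∈ D.A → Lc f → Lc (a • f))
    (hρadd : ∀ f g, Lc f → Lc g → ρ (f + g) = ρ f + ρ g)
    (hρsmul : ∀ (a : K) (f : F), a ∈ D.A → Lc f → ρ (a • f) = D.resK a • ρ f)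
    (m : ℕ) (hsq1 : ∀ f, Lc f → w ^ m • f ∈ D.O)
    (S0 : Set F) (C0 : Set K)
    (hS0 : (0 : F) ∈ S0) (hSadd : ∀ f g, f ∈ S0 → g ∈ S0 → f + g ∈ S0)
    (hSsmul : ∀ (c : K) (f : F), c ∈ C0 → f ∈ S0 → c • f ∈ S0)
    (hC1 : (1 : K) ∈ C0) (hCw' : w⁻¹ ∈ C0)
    (hres : ∀ a ∈ D.A, ∃ c ∈ C0, c ∈ D.A ∧ D.resK c = D.resK a)
    (hmin : ∀ f ∈ S0, Lc f → ρ f = 0 → Lc (w⁻¹ • f))
    (V : Submodule K F) {r : ℕ} (e : Fin r → F) (heO : ∀ i, e i ∈ D.O)
    (hind : LinearIndependent k (fun i => D.redF (e i))) :
    ∀ (n : ℕ) (b : Fin r → F) (C : Matrix (Fin r) (Fin r) K),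
      (∀ i, b i ∈ S0) → (∀ i, b i ∈ V) → (∀ i, Lc (b i)) →
      (∀ i, b i = ∑ j, C i j • e j) → C.det ≠ 0 →
      (∀ a ∈ D.A, w ^ (m * r) * C.det ≠ w ^ n * a) →
      ∃ g : Fin r → F, (∀ i, g i ∈ S0) ∧ (∀ i, g i ∈ V) ∧ (∀ i, Lc (g i)) ∧
        LinearIndependent k (fun i => ρ (g i)) := by
  classical
  intro n
  induction n with
  | zero =>
    intro b C hbS hbV hbL hbC hdet hn
    exfalso
    have hent : ∀ i j, w ^ m * C i j ∈ D.A := by
      intro i
      refine h22_on_coeff_mem D e heO hind (fun j => w ^ m * C i j) ?_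
      have : ∑ j, (w ^ m * C i j) • e j = w ^ m • b i := by
        rw [hbC i, Finset.smul_sum]
        exact Finset.sum_congr rfl fun j _ => by rw [mul_smul]
      rw [this]
      exact hsq1 _ (hbL i)
    have hdetA : (w ^ m • C).det ∈ D.A :=
      h11_det_mem D.A (w ^ m • C) (fun i j => by
        rw [Matrix.smul_apply, smul_eq_mul]
        exact hent i j)
    rw [Matrix.det_smul, Fintype.card_fin, ← pow_mul] at hdetA
    exact hn _ hdetA (by rw [pow_zero, one_mul])
  | succ n ih =>
    intro b C hbS hbV hbL hbC hdet hn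
    by_cases hli : LinearIndependent k (fun i => ρ (b i))
    · exact ⟨b, hbS, hbV, hbL, hli⟩
    · rw [Fintype.linearIndependent_iff] at hli
      push Not at hli
      obtain ⟨t, ht, j, htj⟩ := hli
      have hlift : ∀ i, ∃ c ∈ C0, c ∈ D.A ∧ D.resK c = t i / t j := by
        intro i
        obtain ⟨a, ha⟩ := D.res_surjective (t i / t j)
        obtain ⟨c, hc0, hcA, hc⟩ := hres (a : K) a.2
        refine ⟨c, hc0, hcA, ?_⟩
        rw [hc, D.resK_of_mem a.2]
        exact ha
      choose c0 hc0C hc0A hc0res using hlift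
      set c : Fin r → K := Function.update c0 j 1 with hc
      have hcj : c j = 1 := by rw [hc, Function.update_self]
      have hcne : ∀ i, i ≠ j → c i = c0 i := fun i hi => by
        rw [hc, Function.update_of_ne hi]
      have hcC : ∀ i, c i ∈ C0 := by
        intro i
        by_cases hi : i = j
        · rw [hi, hcj]
          exact hC1
        · rw [hcne i hi]
          exact hc0C i
      have hcA : ∀ i, c i ∈ D.A := by
        intro i
        by_cases hi : i = j
        · rw [hi, hcj]
          exact D.A.one_mem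
        · rw [hcne i hi]
          exact hc0A i
      have hcres : ∀ i, D.resK (c i) = t i / t j := by
        intro i
        by_cases hi : i = j
        · rw [hi, hcj, h22_resK_one D, div_self htj]
        · rw [hcne i hi]
          exact hc0res i
      set f : F := ∑ i, c i • b i with hf
      have hfS : f ∈ S0 := by
        have : ∀ s : Finset (Fin r), (∑ i ∈ s, c i • b i) ∈ S0 := by
          intro s
          induction s using Finset.induction_on with
          | empty => simpa using hS0
          | insert i s hi ih' =>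
            rw [Finset.sum_insert hi]
            exact hSadd _ _ (hSsmul _ _ (hcC i) (hbS i)) ih'
        exact this _
      have hfV : f ∈ V := sum_mem fun i _ => V.smul_mem _ (hbV i)
      obtain ⟨hfL, hfρ⟩ := h11_sum_aux D Lc ρ hL0 hLadd hLsmul hρadd hρsmul Finset.univ c b hcA hbL
      have hρf : ρ f = 0 := by
        rw [hf, hfρ]
        have : ∑ i, D.resK (c i) • ρ (b i) = (t j)⁻¹ • ∑ i, t i • ρ (b i) := by
          rw [Finset.smul_sum]
          refine Finset.sum_congr rfl fun i _ => ?_
          rw [hcres i, smul_smul, div_eq_inv_mul]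
        rw [this, ht, smul_zero]
      have hfmin : Lc (w⁻¹ • f) := hmin f hfS hfL hρf
      refine ih (Function.update b j (w⁻¹ • f))
        (C.updateRow j (w⁻¹ • ∑ i, c i • C i)) ?_ ?_ ?_ ?_ ?_ ?_
      · intro i
        by_cases hi : i = j
        · rw [hi, Function.update_self]
          exact hSsmul _ _ hCw' hfS
        · rw [Function.update_of_ne hi]
          exact hbS i
      · intro i
        by_cases hi : i = j
        · rw [hi, Function.update_self]
          exact V.smul_mem _ hfV
        · rw [Function.update_of_ne hi]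
          exact hbV i
      · intro i
        by_cases hi : i = j
        · rw [hi, Function.update_self]
          exact hfmin
        · rw [Function.update_of_ne hi]
          exact hbL i
      · intro i
        by_cases hi : i = j
        · rw [hi, Function.update_self]
          simp only [Matrix.updateRow_self, Pi.smul_apply, Finset.sum_apply, smul_eq_mul]
          rw [hf, Finset.smul_sum]
          have h1 : ∀ i', w⁻¹ • c i' • b i' = ∑ l, (w⁻¹ * (c i' * C i' l)) • e l := by
            intro i'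
            conv_lhs => rw [hbC i']
            rw [Finset.smul_sum, Finset.smul_sum]
            exact Finset.sum_congr rfl fun l _ => by rw [smul_smul, smul_smul, mul_assoc]
          rw [Finset.sum_congr rfl fun i' _ => h1 i', Finset.sum_comm]
          refine Finset.sum_congr rfl fun l _ => ?_
          rw [← Finset.sum_smul, Finset.mul_sum]
        · rw [Function.update_of_ne hi]
          simp only [Matrix.updateRow_ne hi]
          exact hbC i
      · rw [Matrix.det_updateRow_smul, Matrix.det_updateRow_sum, hcj, one_smul]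
        exact mul_ne_zero (inv_ne_zero hw0) hdet
      · intro a ha h
        rw [Matrix.det_updateRow_smul, Matrix.det_updateRow_sum, hcj, one_smul] at h
        refine hn a ha ?_
        have : w ^ (m * r) * C.det = w * (w ^ (m * r) * (w⁻¹ * C.det)) := by
          field_simp
        rw [this, h, pow_succ]
        ring

/-- **W3 (LAT\*), generic core.**  `dim_K V` rational elements of `V ∩ Lc` with `k`-independent
images under `ρ`. -/
theorem h11_latStar (hON : h22_ON D)
    (w : K) (hw0 : w ≠ 0) (hwn : w ∈ D.A.nonunits)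
    (harch : ∀ a : K, ∃ n : ℕ, w ^ n * a ∈ D.A)
    (hL0 : Lc 0)
    (hLadd : ∀ f g, Lc f → Lc g → Lc (f + g))
    (hLsmul : ∀ (a : K) (f : F), a ∈ D.A → Lc f → Lc (a • f))
    (hρadd : ∀ f g, Lc f → Lc g → ρ (f + g) = ρ f + ρ g)
    (hρsmul : ∀ (a : K) (f : F), a ∈ D.A → Lc f → ρ (a • f) = D.resK a • ρ f)
    (m : ℕ) (hsq1 : ∀ f, Lc f → w ^ m • f ∈ D.O) (hsq2 : ∀ f, f ∈ D.O → Lc (w ^ m • f))
    (S0 : Set F) (C0 : Set K)
    (hS0 : (0 : F) ∈ S0) (hSadd : ∀ f g, f ∈ S0 → g ∈ S0 → f + g ∈ S0)
    (hSsmul : ∀ (c : K) (f : F), c ∈ C0 → f ∈ S0 → c • f ∈ S0)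
    (hC1 : (1 : K) ∈ C0) (hCw : w ∈ C0) (hCw' : w⁻¹ ∈ C0)
    (hres : ∀ a ∈ D.A, ∃ c ∈ C0, c ∈ D.A ∧ D.resK c = D.resK a)
    (hmin : ∀ f ∈ S0, Lc f → ρ f = 0 → Lc (w⁻¹ • f))
    (V : Submodule K F) [Module.Finite K V]
    (hSP : ∃ b : Fin (Module.finrank K V) → F, (∀ i, b i ∈ S0) ∧ (∀ i, b i ∈ V) ∧
      LinearIndependent K b) :
    ∃ g : Fin (Module.finrank K V) → F, (∀ i, g i ∈ S0) ∧ (∀ i, g i ∈ V) ∧ (∀ i, Lc (g i)) ∧
      LinearIndependent k (fun i => ρ (g i)) := by
  classical
  obtain ⟨e, heV, heO, hind⟩ := hON V inferInstance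
  obtain ⟨b0, hb0S, hb0V, hb0li⟩ := hSP
  -- coordinates of the rational basis in the orthonormal basis
  have hcoord : ∀ i, ∃ c : Fin (Module.finrank K V) → K, b0 i = ∑ j, c j • e j := fun i => by
    obtain ⟨c, hc, -⟩ := h22_on_span D V e heV heO hind (b0 i) (hb0V i)
    exact ⟨c, hc⟩
  choose C0' hC0' using hcoord
  let M0 : Matrix (Fin (Module.finrank K V)) (Fin (Module.finrank K V)) K := fun i j => C0' i j
  have hM0det : M0.det ≠ 0 := by
    intro h0
    obtain ⟨v, hv0, hv⟩ := Matrix.exists_vecMul_eq_zero_iff.mpr h0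
    apply hv0
    have hsum : ∑ i, v i • b0 i = 0 := by
      have h1 : ∀ i, v i • b0 i = ∑ j, (v i * M0 i j) • e j := by
        intro i
        conv_lhs => rw [hC0' i]
        rw [Finset.smul_sum]
        exact Finset.sum_congr rfl fun j _ => by rw [smul_smul]
      rw [Finset.sum_congr rfl fun i _ => h1 i, Finset.sum_comm]
      refine Finset.sum_eq_zero fun j _ => ?_
      rw [← Finset.sum_smul]
      have h2 : ∑ i, v i * M0 i j = 0 := by
        have := congrFun hv j
        simpa [Matrix.vecMul, dotProduct] using this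
      rw [h2, zero_smul]
    funext i
    exact Fintype.linearIndependent_iff.mp hb0li v hsum i
  -- a uniform power of `w` making all coordinates integral
  have hwA : w ∈ D.A := ValuationSubring.nonunits_subset hwn
  choose nn hnn using fun (ij : Fin (Module.finrank K V) × Fin (Module.finrank K V)) =>
    harch (M0 ij.1 ij.2)
  obtain ⟨N, hN⟩ : ∃ N : ℕ, ∀ ij, nn ij ≤ N :=
    ⟨Finset.univ.sup nn, fun ij => Finset.le_sup (Finset.mem_univ ij)⟩
  have hMN : ∀ i j, w ^ N * M0 i j ∈ D.A := by
    intro i j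
    have h1 := hnn (i, j)
    have h2 : w ^ N * M0 i j = w ^ (N - nn (i, j)) * (w ^ nn (i, j) * M0 i j) := by
      rw [← mul_assoc, ← pow_add, Nat.sub_add_cancel (hN (i, j))]
    rw [h2]
    exact D.A.mul_mem _ _ (pow_mem hwA _) h1
  have hpowS : ∀ (n : ℕ) (f : F), f ∈ S0 → w ^ n • f ∈ S0 := by
    intro n f hf
    induction n with
    | zero => simpa using hf
    | succ n ih =>
      rw [pow_succ', mul_smul]
      exact hSsmul _ _ hCw ih
  have hbO : ∀ i, w ^ N • b0 i ∈ D.O := by
    intro i
    have : w ^ N • b0 i = ∑ j, (w ^ N * M0 i j) • e j := by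
      conv_lhs => rw [hC0' i]
      rw [Finset.smul_sum]
      exact Finset.sum_congr rfl fun j _ => by rw [smul_smul]
    rw [this]
    exact h22_sum_smul_mem D Finset.univ _ e (fun j => hMN i j) heO
  have hdet : (w ^ (m + N) • M0).det ≠ 0 := by
    rw [Matrix.det_smul]
    exact mul_ne_zero (pow_ne_zero _ (pow_ne_zero _ hw0)) hM0det
  obtain ⟨n, hn⟩ := h11_not_pow_dvd D.A hwn harch
    (d := w ^ (m * Module.finrank K V) * (w ^ (m + N) • M0).det)
    (mul_ne_zero (pow_ne_zero _ hw0) hdet)
  refine h11_latStar_aux D Lc ρ w hw0 hL0 hLadd hLsmul hρadd hρsmul m hsq1 S0 C0 hS0 hSadd hSsmul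
    hC1 hCw' hres hmin V e heO hind n (fun i => w ^ (m + N) • b0 i) (w ^ (m + N) • M0)
    (fun i => hpowS _ _ (hb0S i)) (fun i => V.smul_mem _ (hb0V i)) ?_ ?_ hdet hn
  · intro i
    have : w ^ (m + N) • b0 i = w ^ m • (w ^ N • b0 i) := by rw [pow_add, mul_smul]
    rw [this]
    exact hsq2 _ (hbO i)
  · intro i
    conv_lhs => rw [hC0' i]
    rw [Finset.smul_sum]
    exact Finset.sum_congr rfl fun j _ => by
      rw [smul_smul, Matrix.smul_apply, smul_eq_mul]

end core

/-- A finite-dimensional subspace spanned by a set `S0` has a basis in `S0`. -/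
theorem h11_exists_basis_of_span (S0 : Set F) (V : Submodule K F) [Module.Finite K V]
    (hSP : V ≤ Submodule.span K (S0 ∩ (V : Set F))) :
    ∃ b : Fin (Module.finrank K V) → F, (∀ i, b i ∈ S0) ∧ (∀ i, b i ∈ V) ∧
      LinearIndependent K b := by
  classical
  set s : Set V := {v | (v : F) ∈ S0} with hs
  have himg : V.subtype '' s = S0 ∩ (V : Set F) := by
    ext f
    constructor
    · rintro ⟨v, hv, rfl⟩
      exact ⟨hv, v.2⟩
    · rintro ⟨hf, hfV⟩
      exact ⟨⟨f, hfV⟩, hf, rfl⟩
  have htop : ⊤ ≤ Submodule.span K s := by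
    intro v _
    have h1 : (v : F) ∈ Submodule.span K (S0 ∩ (V : Set F)) := hSP v.2
    rw [← himg, ← Submodule.map_span] at h1
    obtain ⟨v', hv', hvv⟩ := h1
    have : v' = v := Subtype.ext hvv
    rwa [← this]
  obtain ⟨ι, B, hB⟩ : ∃ (ι : Type _) (B : Module.Basis ι K V), Set.range B ⊆ s :=
    ⟨_, Module.Basis.ofSpan htop, Module.Basis.ofSpan_subset htop⟩
  have hfin : Finite ι := Module.Finite.finite_basis B
  let _ : Fintype ι := Fintype.ofFinite ι
  have hcard : Fintype.card ι = Module.finrank K V := (Module.finrank_eq_card_basis B).symm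
  let eq := Fintype.equivFinOfCardEq hcard
  refine ⟨fun i => (B (eq.symm i) : F), fun i => ?_, fun i => (B (eq.symm i)).2, ?_⟩
  · have h1 : B (eq.symm i) ∈ s := hB ⟨_, rfl⟩
    exact h1
  · have h1 : LinearIndependent K (fun i => B (eq.symm i)) :=
      B.linearIndependent.comp _ eq.symm.injective
    exact h1.map' V.subtype (Submodule.ker_subtype V)

end Fermat.Agent.S40
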