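import Mathlib
import Fermat.Agent.S18.GR_RedAPI
import Fermat.Agent.S34.h22_LatFamily
import Fermat.Agent.S40.h11_LatStar

/-!
# S40 / (TR) row W3 (LAT*) for a pair of reduction data (helper11)

`R₁, R₂ : h39_RedDatum K F k Fb_i` two reduction data with common constants (the two components
of the special fibre), `D = h22_latOfPair R₁ R₂ ..` their pair lattice, with orthonormal bases.
For a non-unit `w` of `A` and `c : ℤ` the *twisted lattice* is

  `Λ(c) = {f | f ∈ O₁ ∧ w^(-c) f ∈ O₂}`   (`v₁ f ≥ 0`, `v₂ f ≥ c v(w)`),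

with the twisted reduction `f ↦ (red₁ f, red₂ (w^(-c) f))`.

`h11_latStar_pair` : let `S0` be a set of "rational" functions, stable under addition and under
multiplication by the rational constants `C0` (`1, w, w⁻¹ ∈ C0`, `C0 ∩ A` onto the residue
field), such that a rational element of `O_i` with zero reduction is divisible by `w` in `O_i`
(`i = 1, 2`: the min-formula).  If the finite-dimensional `K`-space `V` is spanned by its
rational elements, then there are `dim_K V` rational elements of `V ∩ Λ(c)` with `k`-linearly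
independent twisted reductions.  (So `dim_k red_c (V ∩ Λ(c) ∩ S0) ≥ dim_K V`.)
-/

set_option autoImplicit false

noncomputable section

open Module

namespace Fermat.Agent.S40

open Fermat.Agent.S18 Fermat.Agent.S34

variable {K F k : Type*} [Field K] [Field F] [Algebra K F] [Field k]

/-- `redF` is semilinear over the residue map. -/
theorem h11_redF_smul {Fb : Type*} [Field Fb] [Algebra k Fb] (R : h39_RedDatum K F k Fb) {a : K}
    (ha : a ∈ R.A) {f : F} (hf : f ∈ R.O) : R.redF (a • f) = R.resK a • R.redF f := by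
  rw [Algebra.smul_def, h39_redF_mul R ((R.mem_iff a).mp ha) hf, h39_redF_algebraMap R ha,
    Algebra.smul_def]

variable {Fb₁ Fb₂ : Type*} [Field Fb₁] [Field Fb₂] [Algebra k Fb₁] [Algebra k Fb₂]

/-- **W3 (LAT\*) for a pair of reduction data.** -/
theorem h11_latStar_pair
    (R₁ : h39_RedDatum K F k Fb₁) (R₂ : h39_RedDatum K F k Fb₂)
    (A : ValuationSubring K) (res : A →+* k) (hres_surj : Function.Surjective res)
    (hA₁ : R₁.A = A) (hA₂ : R₂.A = A)
    (hres₁ : ∀ (a : K) (ha : a ∈ A), R₁.resK a = res ⟨a, ha⟩)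
    (hres₂ : ∀ (a : K) (ha : a ∈ A), R₂.resK a = res ⟨a, ha⟩)
    (hON : h22_ON (h22_latOfPair R₁ R₂ A res hres_surj hA₁ hA₂ hres₁ hres₂))
    (w : K) (hw0 : w ≠ 0) (hwn : w ∈ A.nonunits) (harch : ∀ a : K, ∃ n : ℕ, w ^ n * a ∈ A)
    (c : ℤ) (S0 : Set F) (C0 : Set K)
    (hS0 : (0 : F) ∈ S0) (hSadd : ∀ f g, f ∈ S0 → g ∈ S0 → f + g ∈ S0)
    (hSsmul : ∀ (a : K) (f : F), a ∈ C0 → f ∈ S0 → a • f ∈ S0)
    (hC1 : (1 : K) ∈ C0) (hCw : w ∈ C0) (hCw' : w⁻¹ ∈ C0)
    (hres : ∀ (a : K) (ha : a ∈ A), ∃ b ∈ C0, ∃ hb : b ∈ A, res ⟨b, hb⟩ = res ⟨a, ha⟩)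
    (hmin₁ : ∀ f ∈ S0, f ∈ R₁.O → R₁.redF f = 0 → w⁻¹ • f ∈ R₁.O)
    (hmin₂ : ∀ f ∈ S0, f ∈ R₂.O → R₂.redF f = 0 → w⁻¹ • f ∈ R₂.O)
    (V : Submodule K F) [Module.Finite K V]
    (hSP : V ≤ Submodule.span K (S0 ∩ (V : Set F))) :
    ∃ g : Fin (Module.finrank K V) → F, (∀ i, g i ∈ S0) ∧ (∀ i, g i ∈ V) ∧
      (∀ i, g i ∈ R₁.O ∧ w ^ (-c) • g i ∈ R₂.O) ∧
      LinearIndependent k (fun i => (R₁.redF (g i), R₂.redF (w ^ (-c) • g i))) := by
  classical
  set D := h22_latOfPair R₁ R₂ A res hres_surj hA₁ hA₂ hres₁ hres₂ with hD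
  have hDA : D.A = A := rfl
  have hDO : ∀ f : F, f ∈ D.O ↔ f ∈ R₁.O ∧ f ∈ R₂.O := fun f => Iff.rfl
  have hwA : w ∈ A := ValuationSubring.nonunits_subset hwn
  have hzA : ∀ z : ℤ, 0 ≤ z → w ^ z ∈ A := by
    intro z hz
    lift z to ℕ using hz
    rw [zpow_natCast]
    exact pow_mem hwA z
  have hA1O : ∀ (a : K) (f : F), a ∈ A → f ∈ R₁.O → a • f ∈ R₁.O := by
    intro a f ha hf
    rw [Algebra.smul_def]
    exact R₁.O.mul_mem _ _ ((R₁.mem_iff a).mp (hA₁ ▸ ha)) hf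
  have hA2O : ∀ (a : K) (f : F), a ∈ A → f ∈ R₂.O → a • f ∈ R₂.O := by
    intro a f ha hf
    rw [Algebra.smul_def]
    exact R₂.O.mul_mem _ _ ((R₂.mem_iff a).mp (hA₂ ▸ ha)) hf
  have hDres : ∀ (a : K) (ha : a ∈ A), D.resK a = res ⟨a, ha⟩ := fun a ha => D.resK_of_mem ha
  -- powers of `w` preserve the rational elements
  have hpowS : ∀ (a : K), a ∈ C0 → ∀ (n : ℕ) (f : F), f ∈ S0 → a ^ n • f ∈ S0 := by
    intro a ha n f hf
    induction n with
    | zero => simpa using hf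
    | succ n ih =>
      rw [pow_succ', mul_smul]
      exact hSsmul _ _ ha ih
  have hzS : ∀ (z : ℤ) (f : F), f ∈ S0 → w ^ z • f ∈ S0 := by
    intro z f hf
    rcases z with n | n
    · rw [Int.ofNat_eq_natCast, zpow_natCast]
      exact hpowS w hCw n f hf
    · rw [zpow_negSucc, ← inv_pow]
      exact hpowS w⁻¹ hCw' (n + 1) f hf
  obtain ⟨g, hgS, hgV, hgL, hgli⟩ := h11_latStar D
    (fun f => f ∈ R₁.O ∧ w ^ (-c) • f ∈ R₂.O)
    (fun f => ((R₁.redF f, R₂.redF (w ^ (-c) • f)) : Fb₁ × Fb₂))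
    hON w hw0 hwn harch
    (by
      refine ⟨R₁.O.zero_mem, ?_⟩
      rw [smul_zero]
      exact R₂.O.zero_mem)
    (fun f g hf hg => ⟨R₁.O.add_mem _ _ hf.1 hg.1, by
      rw [smul_add]
      exact R₂.O.add_mem _ _ hf.2 hg.2⟩)
    (fun a f ha hf => ⟨hA1O a f ha hf.1, by
      rw [smul_comm]
      exact hA2O a _ ha hf.2⟩)
    (fun f g hf hg => by
      refine Prod.ext ?_ ?_
      · exact h39_redF_add R₁ hf.1 hg.1
      · show R₂.redF (w ^ (-c) • (f + g)) = _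
        rw [smul_add]
        exact h39_redF_add R₂ hf.2 hg.2)
    (fun a f ha hf => by
      have ha' : a ∈ A := ha
      refine Prod.ext ?_ ?_
      · show R₁.redF (a • f) = D.resK a • R₁.redF f
        rw [h11_redF_smul R₁ (hA₁ ▸ ha') hf.1, hres₁ a ha', hDres a ha']
      · show R₂.redF (w ^ (-c) • a • f) = D.resK a • R₂.redF (w ^ (-c) • f)
        rw [smul_comm, h11_redF_smul R₂ (hA₂ ▸ ha') hf.2, hres₂ a ha', hDres a ha'])
    c.natAbs
    (fun f hf => by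
      rw [hDO]
      refine ⟨hA1O _ _ (pow_mem hwA _) hf.1, ?_⟩
      have h1 : w ^ c.natAbs • f = w ^ ((c.natAbs : ℤ) + c) • (w ^ (-c) • f) := by
        rw [smul_smul, ← zpow_add₀ hw0, add_neg_cancel_right, zpow_natCast]
      rw [h1]
      exact hA2O _ _ (hzA _ (by omega)) hf.2)
    (fun f hf => by
      rw [hDO] at hf
      refine ⟨hA1O _ _ (pow_mem hwA _) hf.1, ?_⟩
      have h1 : w ^ (-c) • w ^ c.natAbs • f = w ^ (-c + (c.natAbs : ℤ)) • f := by
        rw [smul_smul, zpow_add₀ hw0, zpow_natCast]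
      rw [h1]
      exact hA2O _ _ (hzA _ (by omega)) hf.2)
    S0 C0 hS0 hSadd hSsmul hC1 hCw hCw'
    (fun a ha => by
      obtain ⟨b, hbC, hbA, hb⟩ := hres a ha
      exact ⟨b, hbC, hbA, by rw [hDres b hbA, hDres a ha, hb]⟩)
    (fun f hfS hf h0 => by
      have h1 : R₁.redF f = 0 := congrArg Prod.fst h0
      have h2 : R₂.redF (w ^ (-c) • f) = 0 := congrArg Prod.snd h0
      refine ⟨hmin₁ f hfS hf.1 h1, ?_⟩
      rw [smul_comm]
      exact hmin₂ _ (hzS _ f hfS) hf.2 h2)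
    V (h11_exists_basis_of_span S0 V hSP)
  exact ⟨g, hgS, hgV, hgL, hgli⟩

end Fermat.Agent.S40
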