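import Mathlib
import Fermat.Agent.S18.h64_RankOne
import Fermat.Agent.S34.h87_ChartInst
import Fermat.Agent.S36.h6_ResK0
import Fermat.Agent.S36.h69_Rat
import Fermat.Agent.S40.h11_LatStarPair

/-!
# S40 / (TR) row W3 (LAT*) at the charted level `Mq` (helper11)

`R₁ = h60_R1 M q hqM A hA`, `R₂ = h60_R2 M q hqM A hA` the two components of the special fibre of
`X₀(Mq)` at `A`, `H` a subgroup of the inertia group of `A`, `w` an `H`-fixed non-unit of `A`,
`c : ℤ`.  Twisted lattice `Λ(c) = {f | f ∈ O₁ ∧ w^(-c) f ∈ O₂}`, twisted reduction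
`f ↦ (red₁ f, red₂ (w^(-c) f))`.

`h11_latStar_mod` : assume the two one-component min-formulas

* (MIN_i) an `H`-fixed `f ∈ O_i` with `red_i f = 0` is divisible by `w` in `O_i`  (`i = 1, 2`).

Then every `H`-stable finite-dimensional `ℚ̄`-subspace `V` of `F(Mq)` contains `dim V` many
`H`-fixed elements of `Λ(c)` with `k`-linearly independent twisted reductions.
`h11_latStar_rr` is the case `V = L(E)`, `E` an `H`-invariant divisor.

Discharged here: orthonormal bases (`h87_D_on`), rank one (`h64_rankOne_Qbar`), `A = A₀ + 𝔪`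
(`h6_res_K0`), vector space descent (`h69_span_fixed`).
-/

set_option autoImplicit false

noncomputable section

open AlgebraicCurve ModularCurve Module

namespace Fermat.Agent.S40

open Fermat.Agent.S18 Fermat.Agent.S34 Fermat.Agent.S36

local notation "Qb" => AlgebraicClosure ℚ

variable (M q : ℕ) [NeZero M] [NeZero q] [Fact q.Prime] (hqM : ¬ q ∣ M)
  (A : ValuationSubring Qb) (hA : A.LiesOverPrime q)

/-- **W3 (LAT\*) at the charted level**, for an `H`-stable finite-dimensional subspace. -/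
theorem h11_latStar_mod (H : Subgroup (Qb ≃ₐ[ℚ] Qb)) (hHI : H ≤ A.inertiaSubgroupIn ℚ)
    (w : Qb) (hw0 : w ≠ 0) (hwn : w ∈ A.nonunits) (hwH : ∀ σ ∈ H, σ w = w) (c : ℤ)
    (hmin₁ : ∀ f : ↥(modularFunctionFieldBar (M * q)),
      (∀ σ ∈ H, arithmeticGalois (modularFunctionFieldFull (M * q)) σ • f = f) →
      f ∈ (h60_R1 M q hqM A hA).O → (h60_R1 M q hqM A hA).redF f = 0 →
      w⁻¹ • f ∈ (h60_R1 M q hqM A hA).O)
    (hmin₂ : ∀ f : ↥(modularFunctionFieldBar (M * q)),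
      (∀ σ ∈ H, arithmeticGalois (modularFunctionFieldFull (M * q)) σ • f = f) →
      f ∈ (h60_R2 M q hqM A hA).O → (h60_R2 M q hqM A hA).redF f = 0 →
      w⁻¹ • f ∈ (h60_R2 M q hqM A hA).O)
    (V : Submodule Qb ↥(modularFunctionFieldBar (M * q))) [Module.Finite Qb V]
    (hV : ∀ σ ∈ H, ∀ v ∈ V, arithmeticGalois (modularFunctionFieldFull (M * q)) σ • v ∈ V) :
    ∃ g : Fin (Module.finrank Qb V) → ↥(modularFunctionFieldBar (M * q)),
      (∀ i, ∀ σ ∈ H, arithmeticGalois (modularFunctionFieldFull (M * q)) σ • g i = g i) ∧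
      (∀ i, g i ∈ V) ∧
      (∀ i, g i ∈ (h60_R1 M q hqM A hA).O ∧ w ^ (-c) • g i ∈ (h60_R2 M q hqM A hA).O) ∧
      LinearIndependent (IsLocalRing.ResidueField A) (fun i =>
        ((h60_R1 M q hqM A hA).redF (g i), (h60_R2 M q hqM A hA).redF (w ^ (-c) • g i))) := by
  classical
  have hsmul : ∀ (a : Qb) (f : ↥(modularFunctionFieldBar (M * q))) (σ : Qb ≃ₐ[ℚ] Qb),
      arithmeticGalois (modularFunctionFieldFull (M * q)) σ • (a • f) =
        σ a • arithmeticGalois (modularFunctionFieldFull (M * q)) σ • f := by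
    intro a f σ
    rw [h69_smul_smul, baseAut_arithmeticGalois]
    rfl
  have hON : h22_ON (h22_latOfPair (h60_R1 M q hqM A hA) (h60_R2 M q hqM A hA) A
      (IsLocalRing.residue A) IsLocalRing.residue_surjective (h60_R1_A M q hqM A hA)
      (h60_R2_A M q hqM A hA) (h87_R1_resK M q hqM A hA) (h87_R2_resK M q hqM A hA)) :=
    h87_D_on M q hqM A hA
  have harch : ∀ a : Qb, ∃ n : ℕ, w ^ n * a ∈ A := by
    intro a
    rcases eq_or_ne a 0 with rfl | ha
    · exact ⟨0, by rw [mul_zero]; exact A.zero_mem⟩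
    · obtain ⟨n, t, ht, hn⟩ := h64_rankOne_Qbar (Fact.out : q.Prime) A hA w hwn a⁻¹
        (inv_ne_zero ha)
      refine ⟨n, ?_⟩
      rw [hn, mul_assoc, mul_comm t a, ← mul_assoc, inv_mul_cancel₀ ha, one_mul]
      exact ht
  have hSP : V ≤ Submodule.span Qb
      ({f | ∀ σ ∈ H, arithmeticGalois (modularFunctionFieldFull (M * q)) σ • f = f} ∩
        (V : Set ↥(modularFunctionFieldBar (M * q)))) := by
    have h1 := h69_span_fixed (M * q) H V hV
    have h2 : {g | g ∈ V ∧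
        ∀ σ ∈ H, arithmeticGalois (modularFunctionFieldFull (M * q)) σ • g = g} =
        {f | ∀ σ ∈ H, arithmeticGalois (modularFunctionFieldFull (M * q)) σ • f = f} ∩
          (V : Set ↥(modularFunctionFieldBar (M * q))) := by
      ext g
      exact ⟨fun h => ⟨h.2, h.1⟩, fun h => ⟨h.2, h.1⟩⟩
    rw [← h2, h1]
  exact h11_latStar_pair (h60_R1 M q hqM A hA) (h60_R2 M q hqM A hA) A
    (IsLocalRing.residue A) IsLocalRing.residue_surjective (h60_R1_A M q hqM A hA)
    (h60_R2_A M q hqM A hA) (h87_R1_resK M q hqM A hA) (h87_R2_resK M q hqM A hA) hON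
    w hw0 hwn harch c
    {f | ∀ σ ∈ H, arithmeticGalois (modularFunctionFieldFull (M * q)) σ • f = f}
    {a | ∀ σ ∈ H, σ a = a}
    (fun σ _ => smul_zero _)
    (fun f g hf hg σ hσ => by rw [smul_add, hf σ hσ, hg σ hσ])
    (fun a f ha hf σ hσ => by rw [hsmul, ha σ hσ, hf σ hσ])
    (fun σ _ => map_one σ) hwH
    (fun σ hσ => by rw [map_inv₀, hwH σ hσ])
    (fun a ha => by
      obtain ⟨a0, ha0, hfix, hnear⟩ := h6_res_K0 q A hA a ha
      refine ⟨a0, fun σ hσ => hfix σ (hHI hσ), ha0, ?_⟩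
      have h1 : (⟨a, ha⟩ : A) - ⟨a0, ha0⟩ ∈ IsLocalRing.maximalIdeal A := by
        rw [← ValuationSubring.coe_mem_nonunits_iff]
        exact hnear
      have h2 := (IsLocalRing.residue_eq_zero_iff _).mpr h1
      rw [map_sub, sub_eq_zero] at h2
      exact h2.symm)
    hmin₁ hmin₂ V hSP

/-- **W3 (LAT\*) at the charted level**, for `L(E)`, `E` an `H`-invariant divisor. -/
theorem h11_latStar_rr (H : Subgroup (Qb ≃ₐ[ℚ] Qb)) (hHI : H ≤ A.inertiaSubgroupIn ℚ)
    (w : Qb) (hw0 : w ≠ 0) (hwn : w ∈ A.nonunits) (hwH : ∀ σ ∈ H, σ w = w) (c : ℤ)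
    (hmin₁ : ∀ f : ↥(modularFunctionFieldBar (M * q)),
      (∀ σ ∈ H, arithmeticGalois (modularFunctionFieldFull (M * q)) σ • f = f) →
      f ∈ (h60_R1 M q hqM A hA).O → (h60_R1 M q hqM A hA).redF f = 0 →
      w⁻¹ • f ∈ (h60_R1 M q hqM A hA).O)
    (hmin₂ : ∀ f : ↥(modularFunctionFieldBar (M * q)),
      (∀ σ ∈ H, arithmeticGalois (modularFunctionFieldFull (M * q)) σ • f = f) →
      f ∈ (h60_R2 M q hqM A hA).O → (h60_R2 M q hqM A hA).redF f = 0 →
      w⁻¹ • f ∈ (h60_R2 M q hqM A hA).O)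
    (E : Divisor Qb ↥(modularFunctionFieldBar (M * q)))
    [Module.Finite Qb ↥(riemannRochSpace E)]
    (hE : ∀ σ ∈ H, arithmeticGalois (modularFunctionFieldFull (M * q)) σ • E = E) :
    ∃ g : Fin (Module.finrank Qb ↥(riemannRochSpace E)) → ↥(modularFunctionFieldBar (M * q)),
      (∀ i, ∀ σ ∈ H, arithmeticGalois (modularFunctionFieldFull (M * q)) σ • g i = g i) ∧
      (∀ i, g i ∈ riemannRochSpace E) ∧
      (∀ i, g i ∈ (h60_R1 M q hqM A hA).O ∧ w ^ (-c) • g i ∈ (h60_R2 M q hqM A hA).O) ∧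
      LinearIndependent (IsLocalRing.ResidueField A) (fun i =>
        ((h60_R1 M q hqM A hA).redF (g i), (h60_R2 M q hqM A hA).redF (w ^ (-c) • g i))) :=
  h11_latStar_mod M q hqM A hA H hHI w hw0 hwn hwH c hmin₁ hmin₂ (riemannRochSpace E)
    (fun σ hσ _ hv => Fermat.Agent.S17.h35_smul_mem_rr_of_fix _ E (hE σ hσ) hv)

end Fermat.Agent.S40
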