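import Mathlib
import Fermat.Agent.S34.h22_LatON

/-!
# S40 / T3 (K0-LAT), generic core (helper78)

`D : h22_Lat K F k Rb` a lattice datum with (ON) (in the application: the lattice of the Kummer
cover `F' = F(θ)`, `Rb = ` the product of the residue fields of the `2p` sheets).
`F0 ⊆ F` a subfield (the functions fixed by inertia), `K0 ⊆ K` a subfield of constants lying in
`F0`, `q ∈ K0` a non-unit of `A` with

* `harch` : every nonzero constant divides a power of `q` (rank one);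
* `hres`  : `A = (A ∩ K0) + 𝔪_A` (the residue field of `K0` is all of `k`);
* `hint`  : an element of `F0 ∩ O` with zero reduction is divisible by `q` in `O`
  (the sheet valuations are integer valued on `F0`, with `v(q) = 1`).

Then for every finite-dimensional `K`-subspace `V` of `F` spanned by `V ∩ F0`:

* `h78_k0_on`    : `V` has an orthonormal family of `dim V` elements of `V ∩ F0 ∩ O`;
* `h78_k0_red`   : **(K0-RED)** every reduction of an element of `V ∩ O` is the reduction of an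
  element of `V ∩ F0 ∩ O`;
* `h78_k0_coord` : the elements of `V ∩ F0 ∩ O` are the combinations of the family with
  coefficients in `A ∩ K0` (given linear disjointness `hLD`).
-/

set_option autoImplicit false

open Module

namespace Fermat.Agent.S40

open Fermat.Agent.S34

variable {K F k Rb : Type*} [Field K] [Field F] [Algebra K F] [Field k] [CommRing Rb]
  [Algebra k Rb]

/-- `⋂ qᵐ A = 0` for a non-unit `q` dividing (a power of itself) every nonzero constant. -/
theorem h78_eq_zero_of_forall_pow (A : ValuationSubring K) (q : K) (hqnon : q ∈ A.nonunits)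
    (harch : ∀ a : K, a ≠ 0 → ∃ n : ℕ, q ^ n * a⁻¹ ∈ A) (a : K)
    (h : ∀ m : ℕ, ∃ b : K, b ∈ A ∧ a = q ^ m * b) : a = 0 := by
  by_contra ha
  obtain ⟨n, hn⟩ := harch a ha
  obtain ⟨b, hb, hab⟩ := h (n + 1)
  have hq0 : q ≠ 0 := by
    rintro rfl
    rw [hab, pow_succ, mul_zero, zero_mul] at ha
    exact ha rfl
  have hb0 : b ≠ 0 := by
    rintro rfl
    rw [hab, mul_zero] at ha
    exact ha rfl
  have h1 : q ^ n * a⁻¹ = (q * b)⁻¹ := by
    rw [hab, pow_succ]
    field_simp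
  rw [h1] at hn
  have h2 : A.valuation (q * b) < 1 := by
    rw [map_mul]
    have h3 : A.valuation q < 1 := A.mem_nonunits_iff.mp hqnon
    have h4 : A.valuation b ≤ 1 := (A.valuation_le_one_iff b).mpr hb
    calc A.valuation q * A.valuation b ≤ A.valuation q * 1 := by gcongr
      _ = A.valuation q := mul_one _
      _ < 1 := h3
  have h5 : A.valuation (q * b)⁻¹ ≤ 1 := (A.valuation_le_one_iff _).mpr hn
  rw [map_inv₀] at h5
  have h6 : A.valuation (q * b) ≠ 0 := by
    rw [Ne, map_eq_zero]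
    exact mul_ne_zero hq0 hb0
  have h7 : (1 : A.ValueGroup) ≤ A.valuation (q * b) := by
    have := mul_le_mul_left h5 (A.valuation (q * b))
    rwa [inv_mul_cancel₀ h6, one_mul] at this
  exact absurd h2 (not_lt.mpr h7)

/-- every nonzero function has a `q`-power multiple in `O`. -/
theorem h78_exists_pow_mem (D : h22_Lat K F k Rb) (q : K)
    (harch : ∀ a : K, a ≠ 0 → ∃ n : ℕ, q ^ n * a⁻¹ ∈ D.A) (g : F) :
    ∃ n : ℕ, algebraMap K F (q ^ n) * g ∈ D.O := by
  by_cases hg : g = 0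
  · exact ⟨0, by rw [hg, mul_zero]; exact D.O.zero_mem⟩
  obtain ⟨c, hc, hmem, -⟩ := D.exists_scale g hg
  obtain ⟨n, hn⟩ := harch c hc
  refine ⟨n, ?_⟩
  have h1 : algebraMap K F (q ^ n) * g = algebraMap K F (q ^ n * c⁻¹) * (algebraMap K F c * g) := by
    rw [← mul_assoc, ← map_mul, mul_assoc, inv_mul_cancel₀ hc, mul_one]
  rw [h1]
  exact D.O.mul_mem ((D.mem_iff _).mp hn) hmem

/-- a functional is bounded on `V ∩ O`. -/
theorem h78_functional_bounded (D : h22_Lat K F k Rb) (hON : h22_ON D) (q : K) (hqA : q ∈ D.A)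
    (harch : ∀ a : K, a ≠ 0 → ∃ n : ℕ, q ^ n * a⁻¹ ∈ D.A)
    (V : Submodule K F) [Module.Finite K V] (φ : F →ₗ[K] K) :
    ∃ N : ℕ, ∀ f : F, f ∈ V → f ∈ D.O → q ^ N * φ f ∈ D.A := by
  classical
  obtain ⟨e, heV, heO, hind⟩ := hON V inferInstance
  have key : ∀ i, ∃ n : ℕ, q ^ n * φ (e i) ∈ D.A := by
    intro i
    by_cases h0 : φ (e i) = 0
    · exact ⟨0, by rw [h0, mul_zero]; exact D.A.zero_mem⟩
    · obtain ⟨n, hn⟩ := harch (φ (e i))⁻¹ (inv_ne_zero h0)
      exact ⟨n, by rwa [inv_inv] at hn⟩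
  choose n hn using key
  refine ⟨∑ i, n i, fun f hfV hfO => ?_⟩
  obtain ⟨c, hc, hcA⟩ := h22_on_span D V e heV heO hind f hfV
  have hcA' := hcA hfO
  rw [hc, map_sum, Finset.mul_sum]
  refine sum_mem fun i _ => ?_
  rw [map_smul, smul_eq_mul]
  have hle : n i ≤ ∑ j, n j := Finset.single_le_sum (fun j _ => Nat.zero_le (n j))
    (Finset.mem_univ i)
  obtain ⟨d, hd⟩ := Nat.exists_eq_add_of_le hle
  have h1 : q ^ (∑ j, n j) * (c i * φ (e i)) = q ^ d * c i * (q ^ n i * φ (e i)) := by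
    rw [hd, pow_add]
    ring
  rw [h1]
  exact D.A.mul_mem _ _ (D.A.mul_mem _ _ (D.A.pow_mem hqA d) (hcA' i)) (hn i)

/-- lifting residues to `K0`. -/
theorem h78_exists_res (D : h22_Lat K F k Rb) (K0 : Subfield K)
    (hres : ∀ a : K, a ∈ D.A → ∃ a0 : K, a0 ∈ K0 ∧ a0 ∈ D.A ∧ a - a0 ∈ D.A.nonunits) (c : k) :
    ∃ a0 : K, a0 ∈ K0 ∧ a0 ∈ D.A ∧ D.resK a0 = c := by
  obtain ⟨a, ha⟩ := D.res_surjective c
  obtain ⟨a0, h1, h2, h3⟩ := hres a.1 a.2
  refine ⟨a0, h1, h2, ?_⟩
  rw [D.resK_of_mem h2, ← ha]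
  have h4 : D.res (a - ⟨a0, h2⟩) = 0 := (h22_res_eq_zero_iff D _).mpr h3
  rw [map_sub, sub_eq_zero] at h4
  exact h4.symm

/-- `redF` is additive on `O`. -/
theorem h78_redF_sub (D : h22_Lat K F k Rb) {f g : F} (hf : f ∈ D.O) (hg : g ∈ D.O) :
    D.redF (f - g) = D.redF f - D.redF g := by
  rw [D.redF_of_mem hf, D.redF_of_mem hg, D.redF_of_mem (D.O.sub_mem hf hg), ← map_sub]
  rfl

section Main

variable (D : h22_Lat K F k Rb) (hON : h22_ON D)
  (F0 : Subfield F) (K0 : Subfield K) (hK0 : ∀ c : K, c ∈ K0 → algebraMap K F c ∈ F0)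
  (q : K) (hq0 : q ≠ 0) (hqK0 : q ∈ K0) (hqnon : q ∈ D.A.nonunits)
  (harch : ∀ a : K, a ≠ 0 → ∃ n : ℕ, q ^ n * a⁻¹ ∈ D.A)
  (hres : ∀ a : K, a ∈ D.A → ∃ a0 : K, a0 ∈ K0 ∧ a0 ∈ D.A ∧ a - a0 ∈ D.A.nonunits)
  (hint : ∀ f : F, f ∈ F0 → f ∈ D.O → D.redF f = 0 → (algebraMap K F q)⁻¹ * f ∈ D.O)

include hK0 hres in
/-- a `K0`-rational integral combination of a family in `F0 ∩ O` with prescribed residues. -/
theorem h78_exists_comb {r : ℕ} (V : Submodule K F) (e : Fin r → F) (heV : ∀ i, e i ∈ V)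
    (heF : ∀ i, e i ∈ F0) (heO : ∀ i, e i ∈ D.O) (c : Fin r → k) :
    ∃ s : F, s ∈ V ∧ s ∈ F0 ∧ s ∈ D.O ∧ s ∈ Submodule.span K (Set.range e) ∧
      D.redF s = ∑ i, c i • D.redF (e i) := by
  choose a haK haA har using fun i => h78_exists_res D K0 hres (c i)
  refine ⟨∑ i, a i • e i, ?_, ?_, ?_, ?_, ?_⟩
  · exact sum_mem fun i _ => V.smul_mem _ (heV i)
  · refine sum_mem fun i _ => ?_
    rw [Algebra.smul_def]
    exact F0.mul_mem (hK0 _ (haK i)) (heF i)
  · exact h22_sum_smul_mem D Finset.univ a e haA heO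
  · exact sum_mem fun i _ => Submodule.smul_mem _ _ (Submodule.subset_span ⟨i, rfl⟩)
  · rw [h22_redF_sum_smul D Finset.univ a e haA heO]
    exact Finset.sum_congr rfl fun i _ => by rw [har i]

include hON hK0 hq0 hqK0 hqnon harch hres hint in
/-- the inductive step: an orthonormal `F0`-family which is too short can be enlarged. -/
theorem h78_k0_step (V : Submodule K F) [Module.Finite K V]
    (hspan : V ≤ Submodule.span K {f : F | f ∈ V ∧ f ∈ F0})
    {r : ℕ} (hr : r < Module.finrank K V) (e : Fin r → F) (heV : ∀ i, e i ∈ V)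
    (heF : ∀ i, e i ∈ F0) (heO : ∀ i, e i ∈ D.O) :
    ∃ g : F, g ∈ V ∧ g ∈ F0 ∧ g ∈ D.O ∧
      D.redF g ∉ Submodule.span k (Set.range fun i => D.redF (e i)) := by
  classical
  by_contra hcon
  push Not at hcon
  have hqA : q ∈ D.A := D.A.nonunits_le hqnon
  set W : Submodule K F := Submodule.span K (Set.range e) with hW
  have hWV : W ≤ V := Submodule.span_le.mpr (by rintro _ ⟨i, rfl⟩; exact heV i)
  -- an element of `V ∩ F0` outside `W`
  obtain ⟨g0, hg0V, hg0F, hg0W⟩ : ∃ g0 : F, g0 ∈ V ∧ g0 ∈ F0 ∧ g0 ∉ W := by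
    by_contra hall
    push Not at hall
    have h1 : V ≤ W := hspan.trans (Submodule.span_le.mpr fun f hf => hall f hf.1 hf.2)
    have hfinW : Module.Finite K W := Module.Finite.span_of_finite K (Set.finite_range e)
    have h2 : Module.finrank K V ≤ Module.finrank K W := Submodule.finrank_mono h1
    have h3 : Module.finrank K W ≤ r := by
      have h4 : Module.finrank K W ≤ Fintype.card (Fin r) := finrank_range_le_card (R := K) e
      rwa [Fintype.card_fin] at h4
    omega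
  obtain ⟨n0, hn0⟩ := h78_exists_pow_mem D q harch g0
  have hqn0 : q ^ n0 ≠ 0 := pow_ne_zero _ hq0
  set g : F := algebraMap K F (q ^ n0) * g0 with hg
  have hgV : g ∈ V := by
    rw [hg, ← Algebra.smul_def]
    exact V.smul_mem _ hg0V
  have hgF : g ∈ F0 := F0.mul_mem (hK0 _ (K0.pow_mem hqK0 n0)) hg0F
  have hgW : g ∉ W := by
    intro h
    apply hg0W
    have h1 : g0 = (q ^ n0)⁻¹ • g := by
      rw [hg, Algebra.smul_def, ← mul_assoc, ← map_mul, inv_mul_cancel₀ hqn0, map_one, one_mul]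
    rw [h1]
    exact W.smul_mem _ h
  -- the approximating sequence
  have hseq : ∀ m : ℕ, ∃ gm : F, gm ∈ V ∧ gm ∈ F0 ∧ gm ∈ D.O ∧
      g - algebraMap K F (q ^ m) * gm ∈ W := by
    intro m
    induction m with
    | zero => exact ⟨g, hgV, hgF, hn0, by simp⟩
    | succ m ih =>
      obtain ⟨gm, h1, h2, h3, h4⟩ := ih
      obtain ⟨c, hc⟩ := (Submodule.mem_span_range_iff_exists_fun k).mp (hcon gm h1 h2 h3)
      obtain ⟨s, hsV, hsF, hsO, hsW, hsred⟩ :=
        h78_exists_comb D F0 K0 hK0 hres V e heV heF heO c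
      have hred0 : D.redF (gm - s) = 0 := by
        rw [h78_redF_sub D h3 hsO, hsred, ← hc, sub_self]
      have hmem := hint (gm - s) (F0.sub_mem h2 hsF) (D.O.sub_mem h3 hsO) hred0
      have hqF : algebraMap K F q ≠ 0 := by
        rw [Ne, map_eq_zero]
        exact hq0
      refine ⟨(algebraMap K F q)⁻¹ * (gm - s), ?_, ?_, hmem, ?_⟩
      · have h5 : (algebraMap K F q)⁻¹ * (gm - s) = q⁻¹ • (gm - s) := by
          rw [Algebra.smul_def, map_inv₀]
        rw [h5]
        exact V.smul_mem _ (V.sub_mem h1 hsV)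
      · exact F0.mul_mem (F0.inv_mem (hK0 _ hqK0)) (F0.sub_mem h2 hsF)
      · have h5 : g - algebraMap K F (q ^ (m + 1)) * ((algebraMap K F q)⁻¹ * (gm - s)) =
            (g - algebraMap K F (q ^ m) * gm) + (q ^ m) • s := by
          rw [pow_succ, map_mul, Algebra.smul_def]
          field_simp
          ring
        rw [h5]
        exact W.add_mem h4 (W.smul_mem _ hsW)
  -- a functional vanishing on `W` but not at `g`
  obtain ⟨φ, hφg, hφW⟩ := Submodule.exists_dual_map_eq_bot_of_notMem hgW inferInstance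
  have hφW' : ∀ w ∈ W, φ w = 0 := by
    intro w hw
    have : φ w ∈ W.map φ := Submodule.mem_map_of_mem hw
    rw [hφW] at this
    exact (Submodule.mem_bot K).mp this
  obtain ⟨N, hN⟩ := h78_functional_bounded D hON q hqA harch V φ
  have hzero : q ^ N * φ g = 0 := by
    apply h78_eq_zero_of_forall_pow D.A q hqnon harch
    intro m
    obtain ⟨gm, h1, h2, h3, h4⟩ := hseq m
    refine ⟨q ^ N * φ gm, hN gm h1 h3, ?_⟩
    have h5 := hφW' _ h4
    rw [map_sub, sub_eq_zero, ← Algebra.smul_def, map_smul, smul_eq_mul] at h5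
    rw [h5]
    ring
  rcases mul_eq_zero.mp hzero with h | h
  · exact pow_ne_zero N hq0 h
  · exact hφg h

include hON hK0 hq0 hqK0 hqnon harch hres hint in
/-- orthonormal `F0`-families of every length `≤ dim V`. -/
theorem h78_k0_on_aux (V : Submodule K F) [Module.Finite K V]
    (hspan : V ≤ Submodule.span K {f : F | f ∈ V ∧ f ∈ F0}) (r : ℕ)
    (hr : r ≤ Module.finrank K V) :
    ∃ e : Fin r → F, (∀ i, e i ∈ V) ∧ (∀ i, e i ∈ F0) ∧ (∀ i, e i ∈ D.O) ∧
      LinearIndependent k (fun i => D.redF (e i)) := by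
  induction r with
  | zero => exact ⟨Fin.elim0, fun i => i.elim0, fun i => i.elim0, fun i => i.elim0,
      linearIndependent_empty_type⟩
  | succ r ih =>
    obtain ⟨e, heV, heF, heO, hind⟩ := ih (by omega)
    obtain ⟨g, hgV, hgF, hgO, hg⟩ := h78_k0_step D hON F0 K0 hK0 q hq0 hqK0 hqnon harch hres hint
      V hspan (show r < Module.finrank K V by omega) e heV heF heO
    refine ⟨Fin.snoc e g, ?_, ?_, ?_, ?_⟩
    · intro i
      refine Fin.lastCases ?_ (fun j => ?_) i
      · rw [Fin.snoc_last]; exact hgV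
      · rw [Fin.snoc_castSucc]; exact heV j
    · intro i
      refine Fin.lastCases ?_ (fun j => ?_) i
      · rw [Fin.snoc_last]; exact hgF
      · rw [Fin.snoc_castSucc]; exact heF j
    · intro i
      refine Fin.lastCases ?_ (fun j => ?_) i
      · rw [Fin.snoc_last]; exact hgO
      · rw [Fin.snoc_castSucc]; exact heO j
    · have h1 : (fun i => D.redF ((Fin.snoc e g : Fin (r + 1) → F) i)) =
          (Fin.snoc (fun i => D.redF (e i)) (D.redF g) : Fin (r + 1) → Rb) := by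
        funext i
        refine Fin.lastCases ?_ (fun j => ?_) i
        · rw [Fin.snoc_last, Fin.snoc_last]
        · rw [Fin.snoc_castSucc, Fin.snoc_castSucc]
      rw [h1, linearIndependent_finSnoc]
      exact ⟨hind, hg⟩

include hON hK0 hq0 hqK0 hqnon harch hres hint in
/-- **(K0-ON)** a subspace spanned by its `F0`-elements has an orthonormal basis in
`V ∩ F0 ∩ O`. -/
theorem h78_k0_on (V : Submodule K F) [Module.Finite K V]
    (hspan : V ≤ Submodule.span K {f : F | f ∈ V ∧ f ∈ F0}) :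
    ∃ e : Fin (Module.finrank K V) → F, (∀ i, e i ∈ V) ∧ (∀ i, e i ∈ F0) ∧ (∀ i, e i ∈ D.O) ∧
      LinearIndependent k (fun i => D.redF (e i)) :=
  h78_k0_on_aux D hON F0 K0 hK0 q hq0 hqK0 hqnon harch hres hint V hspan _ le_rfl

include hON hK0 hq0 hqK0 hqnon harch hres hint in
/-- **(K0-RED)** every reduction of an element of `V ∩ O` is the reduction of an element of
`V ∩ F0 ∩ O`. -/
theorem h78_k0_red (V : Submodule K F) [Module.Finite K V]
    (hspan : V ≤ Submodule.span K {f : F | f ∈ V ∧ f ∈ F0}) (f : F) (hfV : f ∈ V)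
    (hfO : f ∈ D.O) : ∃ g : F, g ∈ V ∧ g ∈ F0 ∧ g ∈ D.O ∧ D.redF g = D.redF f := by
  obtain ⟨e, heV, heF, heO, hind⟩ :=
    h78_k0_on D hON F0 K0 hK0 q hq0 hqK0 hqnon harch hres hint V hspan
  obtain ⟨c, hc, hcA⟩ := h22_on_span D V e heV heO hind f hfV
  obtain ⟨s, hsV, hsF, hsO, -, hsred⟩ :=
    h78_exists_comb D F0 K0 hK0 hres V e heV heF heO (fun i => D.resK (c i))
  refine ⟨s, hsV, hsF, hsO, ?_⟩
  rw [hsred, hc, h22_redF_sum_smul D Finset.univ c e (hcA hfO) heO]

include hON hK0 hq0 hqK0 hqnon harch hres hint in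
/-- **(K0-COORD)** with linear disjointness: `V ∩ F0 ∩ O` is the free `A ∩ K0`-module on an
orthonormal `F0`-basis of `V`. -/
theorem h78_k0_coord (V : Submodule K F) [Module.Finite K V]
    (hspan : V ≤ Submodule.span K {f : F | f ∈ V ∧ f ∈ F0})
    (hLD : ∀ (n : ℕ) (e : Fin n → F), (∀ i, e i ∈ F0) → LinearIndependent K e →
      ∀ c : Fin n → K, (∑ i, c i • e i) ∈ F0 → ∀ i, c i ∈ K0) :
    ∃ e : Fin (Module.finrank K V) → F, (∀ i, e i ∈ V) ∧ (∀ i, e i ∈ F0) ∧ (∀ i, e i ∈ D.O) ∧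
      LinearIndependent k (fun i => D.redF (e i)) ∧
      ∀ f : F, f ∈ V → f ∈ F0 → f ∈ D.O →
        ∃ c : Fin (Module.finrank K V) → K, (∀ i, c i ∈ K0) ∧ (∀ i, c i ∈ D.A) ∧
          f = ∑ i, c i • e i := by
  obtain ⟨e, heV, heF, heO, hind⟩ :=
    h78_k0_on D hON F0 K0 hK0 q hq0 hqK0 hqnon harch hres hint V hspan
  refine ⟨e, heV, heF, heO, hind, fun f hfV hfF hfO => ?_⟩
  obtain ⟨c, hc, hcA⟩ := h22_on_span D V e heV heO hind f hfV
  refine ⟨c, ?_, hcA hfO, hc⟩
  exact hLD _ e heF (h22_on_linearIndependent D e heO hind) c (hc ▸ hfF)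

end Main

end Fermat.Agent.S40
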