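import Mathlib
import Fermat.Agent.S34.h22_LatON
import Fermat.Agent.S40.h78_K0Lat

/-!
# S40 / W3 (LAT*), generic core (helper78; header of helper11)

`D : h22_Lat K F k Rb` with (ON) is the untwisted lattice datum; `w` a non-unit constant with
the rank-one property `harch`.  A *twisted lattice* is given as a predicate `Lc : F → Prop`,
stable under `+` and under multiplication by `A`, squeezed between `w^m O` and `w^(-m) O`,
together with a reduction map `ρ : F → Wb` into a `k`-module which is additive and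
`res`-semilinear on `Lc`.  `S0` are the rational functions, `C0` the rational constants
(`w, w⁻¹ ∈ C0`, every residue is the residue of a rational integral constant), and

* `hmin` **(MIN)** : a rational element of `Lc` with zero reduction is divisible by `w` in `Lc`.

Then every finite-dimensional `K`-subspace `V` of `F` which is spanned by its rational elements
contains `dim V` rational elements of `Lc` with `k`-linearly independent reductions
(`h78_latStar`); hence `dim_K V ≤ dim_k U` for every `k`-subspace `U` containing the reductions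
of the rational elements of `V ∩ Lc` (`h78_latStar_finrank_le`).

The proof is the one of `h78_k0_on`: induction on the length of the family; if the family cannot
be enlarged, (RES)+(MIN) approximate a rational element `g ∉ W = span_K(family)` by elements of
`W` modulo `w^j Lc` for all `j`, and a functional vanishing on `W`, bounded on `V ∩ Lc`, kills
`g` by rank one.
-/

set_option autoImplicit false

open Module

namespace Fermat.Agent.S40

open Fermat.Agent.S34

variable {K F k Rb : Type*} [Field K] [Field F] [Algebra K F] [Field k] [CommRing Rb]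
  [Algebra k Rb]

section LatStar

variable (D : h22_Lat K F k Rb) (hON : h22_ON D)
  (w : K) (hw0 : w ≠ 0) (hwnon : w ∈ D.A.nonunits)
  (harch : ∀ a : K, ∃ n : ℕ, w ^ n * a ∈ D.A)
  {Wb : Type*} [AddCommGroup Wb] [Module k Wb]
  (Lc : F → Prop) (ρ : F → Wb)
  (hLc_add : ∀ f g : F, Lc f → Lc g → Lc (f + g))
  (hLc_smul : ∀ (a : D.A) (f : F), Lc f → Lc ((a : K) • f))
  (hρ_add : ∀ f g : F, Lc f → Lc g → ρ (f + g) = ρ f + ρ g)
  (hρ_smul : ∀ (a : D.A) (f : F), Lc f → ρ ((a : K) • f) = D.res a • ρ f)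
  (m : ℕ) (hsq1 : ∀ f : F, Lc f → w ^ m • f ∈ D.O) (hsq2 : ∀ f : F, f ∈ D.O → Lc (w ^ m • f))
  (S0 : Set F) (C0 : Set K)
  (hS0_add : ∀ f g : F, f ∈ S0 → g ∈ S0 → f + g ∈ S0)
  (hS0_smul : ∀ (c : K) (f : F), c ∈ C0 → f ∈ S0 → c • f ∈ S0)
  (hwC0 : w ∈ C0) (hwC0' : w⁻¹ ∈ C0)
  (hres : ∀ a : D.A, ∃ c : D.A, (c : K) ∈ C0 ∧ D.res c = D.res a)
  (hmin : ∀ f : F, f ∈ S0 → Lc f → ρ f = 0 → Lc (w⁻¹ • f))

include hS0_smul hwC0 in
theorem h78_ls_pow_smul_mem (n : ℕ) (f : F) (hf : f ∈ S0) : w ^ n • f ∈ S0 := by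
  induction n with
  | zero => simpa using hf
  | succ n ih =>
    rw [pow_succ', mul_smul]
    exact hS0_smul _ _ hwC0 ih

include hLc_smul hwnon in
theorem h78_ls_pow_smul_Lc (n : ℕ) (f : F) (hf : Lc f) : Lc (w ^ n • f) :=
  hLc_smul ⟨w ^ n, D.A.pow_mem (D.A.nonunits_le hwnon) n⟩ f hf

include hLc_add hLc_smul hρ_add hρ_smul hS0_add hS0_smul hres in
/-- adding a rational integral combination of a family in `S0 ∩ Lc` with prescribed residues. -/
theorem h78_ls_comb {r : ℕ} (V : Submodule K F) (e : Fin r → F) (heV : ∀ i, e i ∈ V)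
    (heS : ∀ i, e i ∈ S0) (heL : ∀ i, Lc (e i)) (c : Fin r → k) (g : F) (hgV : g ∈ V)
    (hgS : g ∈ S0) (hgL : Lc g) :
    ∃ s : F, s ∈ Submodule.span K (Set.range e) ∧ g + s ∈ V ∧ g + s ∈ S0 ∧ Lc (g + s) ∧
      ρ (g + s) = ρ g + ∑ i, c i • ρ (e i) := by
  classical
  have hc : ∀ i, ∃ a : D.A, (a : K) ∈ C0 ∧ D.res a = c i := by
    intro i
    obtain ⟨a, ha⟩ := D.res_surjective (c i)
    obtain ⟨a0, h1, h2⟩ := hres a
    exact ⟨a0, h1, h2.trans ha⟩
  choose a haC har using hc
  have key : ∀ t : Finset (Fin r), ∃ s : F, s ∈ Submodule.span K (Set.range e) ∧ g + s ∈ V ∧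
      g + s ∈ S0 ∧ Lc (g + s) ∧ ρ (g + s) = ρ g + ∑ i ∈ t, c i • ρ (e i) := by
    intro t
    induction t using Finset.induction_on with
    | empty =>
      exact ⟨0, Submodule.zero_mem _, by simpa using hgV, by simpa using hgS, by simpa using hgL,
        by simp⟩
    | insert i t hi ih =>
      obtain ⟨s, h1, h2, h3, h4, h5⟩ := ih
      refine ⟨s + (a i : K) • e i, ?_, ?_, ?_, ?_, ?_⟩
      · exact Submodule.add_mem _ h1 (Submodule.smul_mem _ _ (Submodule.subset_span ⟨i, rfl⟩))
      · rw [← add_assoc]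
        exact V.add_mem h2 (V.smul_mem _ (heV i))
      · rw [← add_assoc]
        exact hS0_add _ _ h3 (hS0_smul _ _ (haC i) (heS i))
      · rw [← add_assoc]
        exact hLc_add _ _ h4 (hLc_smul (a i) _ (heL i))
      · rw [← add_assoc, hρ_add _ _ h4 (hLc_smul (a i) _ (heL i)), h5, hρ_smul (a i) _ (heL i),
          har i, Finset.sum_insert hi]
        abel
  exact key Finset.univ

include hON hw0 hwnon harch hLc_add hLc_smul hρ_add hρ_smul hsq1 hsq2 hS0_add hS0_smul hwC0 hwC0'
  hres hmin in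
/-- the inductive step. -/
theorem h78_ls_step (V : Submodule K F) [Module.Finite K V]
    (hSP : V ≤ Submodule.span K {f : F | f ∈ S0 ∧ f ∈ V})
    {r : ℕ} (hr : r < Module.finrank K V) (e : Fin r → F) (heV : ∀ i, e i ∈ V)
    (heS : ∀ i, e i ∈ S0) (heL : ∀ i, Lc (e i)) :
    ∃ g : F, g ∈ V ∧ g ∈ S0 ∧ Lc g ∧
      ρ g ∉ Submodule.span k (Set.range fun i => ρ (e i)) := by
  classical
  by_contra hcon
  push Not at hcon
  have hwA : w ∈ D.A := D.A.nonunits_le hwnon
  have harch' : ∀ a : K, a ≠ 0 → ∃ n : ℕ, w ^ n * a⁻¹ ∈ D.A := fun a _ => harch a⁻¹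
  set W : Submodule K F := Submodule.span K (Set.range e) with hW
  -- a rational element of `V` outside `W`
  obtain ⟨g0, hg0V, hg0S, hg0W⟩ : ∃ g0 : F, g0 ∈ V ∧ g0 ∈ S0 ∧ g0 ∉ W := by
    by_contra hall
    push Not at hall
    have h1 : V ≤ W := hSP.trans (Submodule.span_le.mpr fun f hf => hall f hf.2 hf.1)
    have hfinW : Module.Finite K W := Module.Finite.span_of_finite K (Set.finite_range e)
    have h2 : Module.finrank K V ≤ Module.finrank K W := Submodule.finrank_mono h1
    have h3 : Module.finrank K W ≤ r := by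
      have h4 : Module.finrank K W ≤ Fintype.card (Fin r) := finrank_range_le_card (R := K) e
      rwa [Fintype.card_fin] at h4
    omega
  obtain ⟨n0, hn0⟩ := h78_exists_pow_mem D w harch' g0
  set g : F := w ^ m • (w ^ n0 • g0) with hg
  have hgV : g ∈ V := V.smul_mem _ (V.smul_mem _ hg0V)
  have hgS : g ∈ S0 := h78_ls_pow_smul_mem w S0 C0 hS0_smul hwC0 _ _
    (h78_ls_pow_smul_mem w S0 C0 hS0_smul hwC0 _ _ hg0S)
  have hgL : Lc g := hsq2 _ (by rw [Algebra.smul_def]; exact hn0)
  have hgW : g ∉ W := by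
    intro h
    apply hg0W
    have h1 : g0 = (w ^ n0)⁻¹ • (w ^ m)⁻¹ • g := by
      rw [hg, inv_smul_smul₀ (pow_ne_zero _ hw0), inv_smul_smul₀ (pow_ne_zero _ hw0)]
    rw [h1]
    exact W.smul_mem _ (W.smul_mem _ h)
  clear_value g
  -- the approximating sequence
  have hseq : ∀ j : ℕ, ∃ gj : F, gj ∈ V ∧ gj ∈ S0 ∧ Lc gj ∧ g - w ^ j • gj ∈ W := by
    intro j
    induction j with
    | zero => exact ⟨g, hgV, hgS, hgL, by simp⟩
    | succ j ih =>
      obtain ⟨gj, h1, h2, h3, h4⟩ := ih
      obtain ⟨c, hc⟩ := (Submodule.mem_span_range_iff_exists_fun k).mp (hcon gj h1 h2 h3)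
      obtain ⟨s, hsW, hsV, hsS, hsL, hsρ⟩ :=
        h78_ls_comb D Lc ρ hLc_add hLc_smul hρ_add hρ_smul S0 C0 hS0_add hS0_smul hres V e heV
          heS heL (fun i => - c i) gj h1 h2 h3
      have hρ0 : ρ (gj + s) = 0 := by
        rw [hsρ, ← hc]
        simp
      refine ⟨w⁻¹ • (gj + s), V.smul_mem _ hsV, hS0_smul _ _ hwC0' hsS, hmin _ hsS hsL hρ0, ?_⟩
      have h5 : g - w ^ (j + 1) • w⁻¹ • (gj + s) = (g - w ^ j • gj) - w ^ j • s := by
        rw [smul_smul, pow_succ, mul_assoc, mul_inv_cancel₀ hw0, mul_one, smul_add]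
        abel
      rw [h5]
      exact W.sub_mem h4 (W.smul_mem _ hsW)
  -- a functional vanishing on `W` but not at `g`
  obtain ⟨φ, hφg, hφW⟩ := Submodule.exists_dual_map_eq_bot_of_notMem hgW inferInstance
  have hφW' : ∀ x ∈ W, φ x = 0 := by
    intro x hx
    have : φ x ∈ W.map φ := Submodule.mem_map_of_mem hx
    rw [hφW] at this
    exact (Submodule.mem_bot K).mp this
  obtain ⟨N, hN⟩ := h78_functional_bounded D hON w hwA harch' V φ
  have hzero : w ^ (N + m) * φ g = 0 := by
    apply h78_eq_zero_of_forall_pow D.A w hwnon harch'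
    intro j
    obtain ⟨gj, h1, h2, h3, h4⟩ := hseq j
    refine ⟨w ^ N * φ (w ^ m • gj), hN _ (V.smul_mem _ h1) (hsq1 _ h3), ?_⟩
    have h5 := hφW' _ h4
    rw [map_sub, sub_eq_zero, map_smul, smul_eq_mul] at h5
    rw [h5, map_smul, smul_eq_mul, pow_add]
    ring
  rcases mul_eq_zero.mp hzero with h | h
  · exact pow_ne_zero _ hw0 h
  · exact hφg h

include hON hw0 hwnon harch hLc_add hLc_smul hρ_add hρ_smul hsq1 hsq2 hS0_add hS0_smul hwC0 hwC0'
  hres hmin in
theorem h78_latStar_aux (V : Submodule K F) [Module.Finite K V]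
    (hSP : V ≤ Submodule.span K {f : F | f ∈ S0 ∧ f ∈ V}) (r : ℕ)
    (hr : r ≤ Module.finrank K V) :
    ∃ g : Fin r → F, (∀ i, g i ∈ S0) ∧ (∀ i, g i ∈ V) ∧ (∀ i, Lc (g i)) ∧
      LinearIndependent k (fun i => ρ (g i)) := by
  induction r with
  | zero => exact ⟨Fin.elim0, fun i => i.elim0, fun i => i.elim0, fun i => i.elim0,
      linearIndependent_empty_type⟩
  | succ r ih =>
    obtain ⟨e, heS, heV, heL, hind⟩ := ih (by omega)
    obtain ⟨g, hgV, hgS, hgL, hg⟩ := h78_ls_step D hON w hw0 hwnon harch Lc ρ hLc_add hLc_smul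
      hρ_add hρ_smul m hsq1 hsq2 S0 C0 hS0_add hS0_smul hwC0 hwC0' hres hmin V hSP
      (show r < Module.finrank K V by omega) e heV heS heL
    refine ⟨Fin.snoc e g, ?_, ?_, ?_, ?_⟩
    · intro i
      refine Fin.lastCases ?_ (fun j => ?_) i
      · rw [Fin.snoc_last]; exact hgS
      · rw [Fin.snoc_castSucc]; exact heS j
    · intro i
      refine Fin.lastCases ?_ (fun j => ?_) i
      · rw [Fin.snoc_last]; exact hgV
      · rw [Fin.snoc_castSucc]; exact heV j
    · intro i
      refine Fin.lastCases ?_ (fun j => ?_) i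
      · rw [Fin.snoc_last]; exact hgL
      · rw [Fin.snoc_castSucc]; exact heL j
    · have h1 : (fun i => ρ ((Fin.snoc e g : Fin (r + 1) → F) i)) =
          (Fin.snoc (fun i => ρ (e i)) (ρ g) : Fin (r + 1) → Wb) := by
        funext i
        refine Fin.lastCases ?_ (fun j => ?_) i
        · rw [Fin.snoc_last, Fin.snoc_last]
        · rw [Fin.snoc_castSucc, Fin.snoc_castSucc]
      rw [h1, linearIndependent_finSnoc]
      exact ⟨hind, hg⟩

include hON hw0 hwnon harch hLc_add hLc_smul hρ_add hρ_smul hsq1 hsq2 hS0_add hS0_smul hwC0 hwC0'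
  hres hmin in
/-- **W3 (LAT\*), generic core.**  A finite-dimensional subspace `V` spanned by its rational
elements contains `dim V` rational elements of the twisted lattice `Lc` with `k`-linearly
independent twisted reductions. -/
theorem h78_latStar (V : Submodule K F) [Module.Finite K V]
    (hSP : V ≤ Submodule.span K {f : F | f ∈ S0 ∧ f ∈ V}) :
    ∃ g : Fin (Module.finrank K V) → F, (∀ i, g i ∈ S0) ∧ (∀ i, g i ∈ V) ∧ (∀ i, Lc (g i)) ∧
      LinearIndependent k (fun i => ρ (g i)) :=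
  h78_latStar_aux D hON w hw0 hwnon harch Lc ρ hLc_add hLc_smul hρ_add hρ_smul m hsq1 hsq2 S0 C0
    hS0_add hS0_smul hwC0 hwC0' hres hmin V hSP _ le_rfl

include hON hw0 hwnon harch hLc_add hLc_smul hρ_add hρ_smul hsq1 hsq2 hS0_add hS0_smul hwC0 hwC0'
  hres hmin in
/-- **Dimension form**: `dim_K V ≤ dim_k U` for every finite-dimensional `k`-subspace `U` of
`Wb` containing the twisted reductions of the rational elements of `V ∩ Lc`. -/
theorem h78_latStar_finrank_le (V : Submodule K F) [Module.Finite K V]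
    (hSP : V ≤ Submodule.span K {f : F | f ∈ S0 ∧ f ∈ V})
    (U : Submodule k Wb) [Module.Finite k U]
    (hU : ∀ f : F, f ∈ S0 → f ∈ V → Lc f → ρ f ∈ U) :
    Module.finrank K V ≤ Module.finrank k U := by
  obtain ⟨g, hgS, hgV, hgL, hind⟩ := h78_latStar D hON w hw0 hwnon harch Lc ρ hLc_add hLc_smul
    hρ_add hρ_smul m hsq1 hsq2 S0 C0 hS0_add hS0_smul hwC0 hwC0' hres hmin V hSP
  have hind' : LinearIndependent k (fun i => (⟨ρ (g i), hU _ (hgS i) (hgV i) (hgL i)⟩ : U)) :=
    LinearIndependent.of_comp U.subtype hind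
  simpa using hind'.fintype_card_le_finrank

end LatStar

end Fermat.Agent.S40
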