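import Mathlib
import Fermat.Agent.S34.h22_LatON
import Fermat.Agent.S40.h78_K0Lat
import Fermat.Agent.S40.h78_LatStar

/-!
# S40 / W3 (LAT*), generic core, part 2: coordinates and rational lifts (helper78)

Setting of `h78_LatStar` (twisted lattice `Lc`, twisted reduction `ρ`, rational elements `S0`,
rational constants `C0`).  For a family `g` of elements of `Lc` with `k`-linearly independent
reductions:

* `h78_ls_coeff_mem` : a combination `∑ cᵢ gᵢ` lying in `Lc` has all `cᵢ ∈ A`;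
* `h78_ls_linearIndependent` : the family is `K`-linearly independent;
* `h78_ls_span` : if the family has `dim V` elements of `V`, every `f ∈ V` is `∑ cᵢ gᵢ`, with
  `cᵢ ∈ A` when `f ∈ Lc`.

Consequences for a subspace `V` spanned by its rational elements:

* `h78_latStar_red` **(K\*-RED)** : every twisted reduction of an element of `V ∩ Lc` is the
  twisted reduction of a RATIONAL element of `V ∩ Lc`;
* `h78_latStar_ker` : an element of `V ∩ Lc` with zero reduction lies in `𝔪_A · (V ∩ Lc)`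
  coefficientwise (all its coordinates are non-units).
-/

set_option autoImplicit false

open Module

namespace Fermat.Agent.S40

open Fermat.Agent.S34

variable {K F k Rb : Type*} [Field K] [Field F] [Algebra K F] [Field k] [CommRing Rb]
  [Algebra k Rb]

section Coord

variable (D : h22_Lat K F k Rb)
  {Wb : Type*} [AddCommGroup Wb] [Module k Wb]
  (Lc : F → Prop) (ρ : F → Wb)
  (hLc_add : ∀ f g : F, Lc f → Lc g → Lc (f + g))
  (hLc_smul : ∀ (a : D.A) (f : F), Lc f → Lc ((a : K) • f))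
  (hρ_add : ∀ f g : F, Lc f → Lc g → ρ (f + g) = ρ f + ρ g)
  (hρ_smul : ∀ (a : D.A) (f : F), Lc f → ρ ((a : K) • f) = D.res a • ρ f)

include hLc_smul in
theorem h78_ls_zero (f : F) (hf : Lc f) : Lc 0 := by
  have := hLc_smul 0 f hf
  simpa using this

include hLc_smul hρ_smul in
theorem h78_ls_rho_zero (f : F) (hf : Lc f) : ρ 0 = 0 := by
  have h0 : Lc 0 := h78_ls_zero D Lc hLc_smul f hf
  have := hρ_smul 0 0 h0
  simpa using this

include hLc_add hLc_smul hρ_add hρ_smul in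
/-- integral combinations of a family in `Lc` stay in `Lc`, and `ρ` is computed termwise. -/
theorem h78_ls_sum {r : ℕ} (g : Fin r → F) (hgL : ∀ i, Lc (g i)) (f0 : F) (hf0 : Lc f0)
    (c : Fin r → K) (hc : ∀ i, c i ∈ D.A) (t : Finset (Fin r)) :
    Lc (∑ i ∈ t, c i • g i) ∧
      ρ (∑ i ∈ t, c i • g i) = ∑ i ∈ t, D.res ⟨c i, hc i⟩ • ρ (g i) := by
  classical
  induction t using Finset.induction_on with
  | empty =>
    exact ⟨by simpa using h78_ls_zero D Lc hLc_smul f0 hf0,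
      by simpa using h78_ls_rho_zero D Lc ρ hLc_smul hρ_smul f0 hf0⟩
  | insert i t hi ih =>
    have h1 : Lc (c i • g i) := hLc_smul ⟨c i, hc i⟩ _ (hgL i)
    rw [Finset.sum_insert hi, Finset.sum_insert hi]
    refine ⟨hLc_add _ _ h1 ih.1, ?_⟩
    rw [hρ_add _ _ h1 ih.1, ih.2]
    congr 1
    exact hρ_smul ⟨c i, hc i⟩ _ (hgL i)

include hLc_add hLc_smul hρ_add hρ_smul in
/-- **coefficients are integral**: if `∑ cᵢ gᵢ ∈ Lc` for a family in `Lc` with independent
reductions, then all `cᵢ ∈ A`. -/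
theorem h78_ls_coeff_mem {r : ℕ} (g : Fin r → F) (hgL : ∀ i, Lc (g i))
    (hind : LinearIndependent k (fun i => ρ (g i))) (c : Fin r → K)
    (hf : Lc (∑ i, c i • g i)) : ∀ i, c i ∈ D.A := by
  classical
  intro i₁
  obtain ⟨i₀, hi₀⟩ := h22_exists_pivot D.A c i₁
  by_contra hcon
  have hv1 : 1 < D.A.valuation (c i₁) :=
    not_le.mp fun h => hcon ((D.A.valuation_le_one_iff _).mp h)
  have hv0 : 1 < D.A.valuation (c i₀) := lt_of_lt_of_le hv1 (hi₀ i₁)
  have hc0 : c i₀ ≠ 0 := by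
    intro h
    rw [h, map_zero] at hv0
    exact absurd hv0 (by simp)
  have hvne : D.A.valuation (c i₀) ≠ 0 := by
    rw [Ne, map_eq_zero]
    exact hc0
  set a : K := (c i₀)⁻¹ with ha
  have hanon : a ∈ D.A.nonunits := by
    rw [ValuationSubring.mem_nonunits_iff, ha, map_inv₀]
    exact inv_lt_one_of_one_lt₀ hv0
  have haA : a ∈ D.A := D.A.nonunits_le hanon
  have hcA : ∀ i, a * c i ∈ D.A := by
    intro i
    rw [← D.A.valuation_le_one_iff, map_mul, ha, map_inv₀]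
    rw [inv_mul_le_iff₀ (lt_of_le_of_ne zero_le (Ne.symm hvne)), mul_one]
    exact hi₀ i
  have h1 : a • ∑ i, c i • g i = ∑ i, (a * c i) • g i := by
    rw [Finset.smul_sum]
    exact Finset.sum_congr rfl fun i _ => by rw [mul_smul]
  have h2 : ρ (a • ∑ i, c i • g i) = 0 := by
    have := hρ_smul ⟨a, haA⟩ _ hf
    rw [this, (h22_res_eq_zero_iff D ⟨a, haA⟩).mpr hanon, zero_smul]
  have h3 := (h78_ls_sum D Lc ρ hLc_add hLc_smul hρ_add hρ_smul g hgL _ hf (fun i => a * c i) hcA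
    Finset.univ).2
  rw [← h1, h2] at h3
  have h4 := Fintype.linearIndependent_iff.mp hind (fun i => D.res ⟨a * c i, hcA i⟩) h3.symm i₀
  have h5 : (⟨a * c i₀, hcA i₀⟩ : D.A) = 1 := by
    apply Subtype.ext
    show a * c i₀ = 1
    rw [ha, inv_mul_cancel₀ hc0]
  rw [h5, map_one] at h4
  exact one_ne_zero h4

include hLc_add hLc_smul hρ_add hρ_smul in
/-- a family in `Lc` with independent reductions is `K`-linearly independent (`A ≠ ⊤`). -/
theorem h78_ls_linearIndependent (w : K) (hw0 : w ≠ 0) (hwnon : w ∈ D.A.nonunits)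
    {r : ℕ} (g : Fin r → F) (hgL : ∀ i, Lc (g i))
    (hind : LinearIndependent k (fun i => ρ (g i))) : LinearIndependent K g := by
  classical
  rw [Fintype.linearIndependent_iff]
  intro c hc i₁
  by_contra hne
  have hL0 : Lc 0 := h78_ls_zero D Lc hLc_smul _ (hgL i₁)
  have hA : ∀ t : K, ∀ i, t * c i ∈ D.A := by
    intro t
    refine h78_ls_coeff_mem D Lc ρ hLc_add hLc_smul hρ_add hρ_smul g hgL hind (fun i => t * c i) ?_
    have : ∑ i, (t * c i) • g i = t • ∑ i, c i • g i := by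
      rw [Finset.smul_sum]
      exact Finset.sum_congr rfl fun i _ => by rw [mul_smul]
    rw [this, hc, smul_zero]
    exact hL0
  have h1 := hA (w⁻¹ * (c i₁)⁻¹) i₁
  rw [mul_assoc, inv_mul_cancel₀ hne, mul_one] at h1
  rcases (ValuationSubring.mem_nonunits_iff_or D.A).mp hwnon with h | h
  · exact hw0 h
  · exact h h1

include hLc_add hLc_smul hρ_add hρ_smul in
/-- a family of `dim V` elements of `V ∩ Lc` with independent reductions is a `K`-basis of `V`,
and `V ∩ Lc` is the `A`-module it generates. -/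
theorem h78_ls_span (w : K) (hw0 : w ≠ 0) (hwnon : w ∈ D.A.nonunits)
    (V : Submodule K F) [Module.Finite K V]
    (g : Fin (Module.finrank K V) → F) (hgV : ∀ i, g i ∈ V) (hgL : ∀ i, Lc (g i))
    (hind : LinearIndependent k (fun i => ρ (g i))) (f : F) (hf : f ∈ V) :
    ∃ c : Fin (Module.finrank K V) → K, f = ∑ i, c i • g i ∧ (Lc f → ∀ i, c i ∈ D.A) := by
  classical
  have hK : LinearIndependent K g :=
    h78_ls_linearIndependent D Lc ρ hLc_add hLc_smul hρ_add hρ_smul w hw0 hwnon g hgL hind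
  have hK' : LinearIndependent K (fun i => (⟨g i, hgV i⟩ : V)) :=
    LinearIndependent.of_comp V.subtype hK
  have hspan := hK'.span_eq_top_of_card_eq_finrank' (by simp)
  have hmem : (⟨f, hf⟩ : V) ∈ Submodule.span K (Set.range fun i => (⟨g i, hgV i⟩ : V)) := by
    rw [hspan]
    trivial
  obtain ⟨c, hc⟩ := (Submodule.mem_span_range_iff_exists_fun K).mp hmem
  have hc' : f = ∑ i, c i • g i := by
    have := congrArg (V.subtype) hc
    simp only [map_sum, map_smul, Submodule.subtype_apply] at this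
    exact this.symm
  refine ⟨c, hc', fun hfL => ?_⟩
  exact h78_ls_coeff_mem D Lc ρ hLc_add hLc_smul hρ_add hρ_smul g hgL hind c (hc' ▸ hfL)

end Coord

section Red

variable (D : h22_Lat K F k Rb) (hON : h22_ON D)
  (w : K) (hw0 : w ≠ 0) (hwnon : w ∈ D.A.nonunits)
  (harch : ∀ a : K, ∃ n : ℕ, w ^ n * a ∈ D.A)
  {Wb : Type*} [AddCommGroup Wb] [Module k Wb]
  (Lc : F → Prop) (ρ : F → Wb)
  (hLc_add : ∀ f g : F, Lc f → Lc g → Lc (f + g))
  (hLc_smul : ∀ (a : D.A) (f : F), Lc f → Lc ((a : K) • f))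
  (hρ_add : ∀ f g : F, Lc f → Lc g → ρ (f + g) = ρ f + ρ g)
  (hρ_smul : ∀ (a : D.A) (f : F), Lc f → ρ ((a : K) • f) = D.res a • ρ f)
  (m : ℕ) (hsq1 : ∀ f : F, Lc f → w ^ m • f ∈ D.O) (hsq2 : ∀ f : F, f ∈ D.O → Lc (w ^ m • f))
  (S0 : Set F) (C0 : Set K) (hS0_zero : (0 : F) ∈ S0)
  (hS0_add : ∀ f g : F, f ∈ S0 → g ∈ S0 → f + g ∈ S0)
  (hS0_smul : ∀ (c : K) (f : F), c ∈ C0 → f ∈ S0 → c • f ∈ S0)
  (hwC0 : w ∈ C0) (hwC0' : w⁻¹ ∈ C0)
  (hres : ∀ a : D.A, ∃ c : D.A, (c : K) ∈ C0 ∧ D.res c = D.res a)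
  (hmin : ∀ f : F, f ∈ S0 → Lc f → ρ f = 0 → Lc (w⁻¹ • f))

include hON hw0 hwnon harch hLc_add hLc_smul hρ_add hρ_smul hsq1 hsq2 hS0_zero hS0_add hS0_smul
  hwC0 hwC0' hres hmin in
/-- **(K\*-RED)** every twisted reduction of an element of `V ∩ Lc` is the twisted reduction of
a rational element of `V ∩ Lc`. -/
theorem h78_latStar_red (V : Submodule K F) [Module.Finite K V]
    (hSP : V ≤ Submodule.span K {f : F | f ∈ S0 ∧ f ∈ V}) (f : F) (hfV : f ∈ V) (hfL : Lc f) :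
    ∃ g : F, g ∈ S0 ∧ g ∈ V ∧ Lc g ∧ ρ g = ρ f := by
  obtain ⟨g, hgS, hgV, hgL, hind⟩ := h78_latStar D hON w hw0 hwnon harch Lc ρ hLc_add hLc_smul
    hρ_add hρ_smul m hsq1 hsq2 S0 C0 hS0_add hS0_smul hwC0 hwC0' hres hmin V hSP
  obtain ⟨c, hc, hcA⟩ := h78_ls_span D Lc ρ hLc_add hLc_smul hρ_add hρ_smul w hw0 hwnon V g hgV
    hgL hind f hfV
  have hcA' := hcA hfL
  have hL0 : Lc 0 := h78_ls_zero D Lc hLc_smul f hfL
  have hρ0 : ρ 0 = 0 := h78_ls_rho_zero D Lc ρ hLc_smul hρ_smul f hfL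
  obtain ⟨s, -, hsV, hsS, hsL, hsρ⟩ :=
    h78_ls_comb D Lc ρ hLc_add hLc_smul hρ_add hρ_smul S0 C0 hS0_add hS0_smul hres V g hgV
      hgS hgL (fun i => D.res ⟨c i, hcA' i⟩) 0 V.zero_mem hS0_zero hL0
  rw [zero_add] at hsV hsS hsL hsρ
  refine ⟨s, hsS, hsV, hsL, ?_⟩
  rw [hsρ, hρ0, zero_add, hc]
  exact ((h78_ls_sum D Lc ρ hLc_add hLc_smul hρ_add hρ_smul g hgL f hfL c hcA' Finset.univ).2).symm

include hON hw0 hwnon harch hLc_add hLc_smul hρ_add hρ_smul hsq1 hsq2 hS0_add hS0_smul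
  hwC0 hwC0' hres hmin in
/-- **rational orthonormal basis with coordinates**: the family of `h78_latStar` together with
the coordinate statement for all of `V ∩ Lc` (coefficients in `A`; reduction zero iff all
coefficients are non-units). -/
theorem h78_latStar_basis (V : Submodule K F) [Module.Finite K V]
    (hSP : V ≤ Submodule.span K {f : F | f ∈ S0 ∧ f ∈ V}) :
    ∃ g : Fin (Module.finrank K V) → F, (∀ i, g i ∈ S0) ∧ (∀ i, g i ∈ V) ∧ (∀ i, Lc (g i)) ∧
      LinearIndependent k (fun i => ρ (g i)) ∧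
      ∀ f : F, f ∈ V → ∃ c : Fin (Module.finrank K V) → K, f = ∑ i, c i • g i ∧
        (Lc f → (∀ i, c i ∈ D.A) ∧ (ρ f = 0 → ∀ i, c i ∈ D.A.nonunits)) := by
  obtain ⟨g, hgS, hgV, hgL, hind⟩ := h78_latStar D hON w hw0 hwnon harch Lc ρ hLc_add hLc_smul
    hρ_add hρ_smul m hsq1 hsq2 S0 C0 hS0_add hS0_smul hwC0 hwC0' hres hmin V hSP
  refine ⟨g, hgS, hgV, hgL, hind, fun f hfV => ?_⟩
  obtain ⟨c, hc, hcA⟩ := h78_ls_span D Lc ρ hLc_add hLc_smul hρ_add hρ_smul w hw0 hwnon V g hgV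
    hgL hind f hfV
  refine ⟨c, hc, fun hfL => ⟨hcA hfL, fun h0 i => ?_⟩⟩
  have hcA' := hcA hfL
  have h1 := (h78_ls_sum D Lc ρ hLc_add hLc_smul hρ_add hρ_smul g hgL f hfL c hcA'
    Finset.univ).2
  rw [← hc, h0] at h1
  have h2 := Fintype.linearIndependent_iff.mp hind (fun i => D.res ⟨c i, hcA' i⟩) h1.symm i
  exact (h22_res_eq_zero_iff D ⟨c i, hcA' i⟩).mp h2

end Red

end Fermat.Agent.S40
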