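import Mathlib
import Fermat.Agent.S18.GR_RedAPI
import Fermat.Agent.S34.h22_LatON
import Fermat.Agent.S34.h22_LatFamily
import Fermat.Agent.S40.h78_K0Lat
import Fermat.Agent.S40.h78_LatStar
import Fermat.Agent.S40.h78_LatStarRed
import Fermat.Agent.S40.h11_LatStar
import Fermat.Agent.S40.h11_LatStarPair

/-!
# S40 / W3 (LAT*): the space of twisted reductions as a `k`-subspace (helper78)

Output shape asked for by the count row W6 (helper31, (M3)):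

* `h78_W_of_family` (generic): for a family `g` of `dim V` rational elements of `V ∩ Lc` with
  `k`-independent twisted reductions, `W := span_k (ρ gᵢ)` is a `k`-subspace of dimension
  `dim_K V`, equal to `ρ (V ∩ Lc)`, and each of its elements is the twisted reduction of a
  RATIONAL element of `V ∩ Lc`;
* `h78_latStar_pair_W` : the same for the twisted pair lattice
  `Λ(c) = {f | f ∈ O₁ ∧ w^(-c) f ∈ O₂}` of two reduction data, in the binders of helper11's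
  `h11_latStar_pair` (the family is his);
* `h78_latStar_pair_W_div` : the same with the twist written as a division by `t = w ^ c`.
-/

set_option autoImplicit false

open Module

namespace Fermat.Agent.S40

open Fermat.Agent.S18 Fermat.Agent.S34

variable {K F k : Type*} [Field K] [Field F] [Algebra K F] [Field k]

section Generic

variable {Rb : Type*} [CommRing Rb] [Algebra k Rb]
  (D : h22_Lat K F k Rb)
  (w : K) (hw0 : w ≠ 0) (hwnon : w ∈ D.A.nonunits)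
  {Wb : Type*} [AddCommGroup Wb] [Module k Wb]
  (Lc : F → Prop) (ρ : F → Wb)
  (hLc_add : ∀ f g : F, Lc f → Lc g → Lc (f + g))
  (hLc_smul : ∀ (a : D.A) (f : F), Lc f → Lc ((a : K) • f))
  (hρ_add : ∀ f g : F, Lc f → Lc g → ρ (f + g) = ρ f + ρ g)
  (hρ_smul : ∀ (a : D.A) (f : F), Lc f → ρ ((a : K) • f) = D.res a • ρ f)
  (S0 : Set F) (C0 : Set K) (hS0_zero : (0 : F) ∈ S0)
  (hS0_add : ∀ f g : F, f ∈ S0 → g ∈ S0 → f + g ∈ S0)
  (hS0_smul : ∀ (c : K) (f : F), c ∈ C0 → f ∈ S0 → c • f ∈ S0)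
  (hres : ∀ a : D.A, ∃ c : D.A, (c : K) ∈ C0 ∧ D.res c = D.res a)

include hw0 hwnon hLc_add hLc_smul hρ_add hρ_smul hS0_zero hS0_add hS0_smul hres in
/-- **The space of twisted reductions.**  From a rational orthonormal family of `dim V` elements
of `V ∩ Lc`: `W = span_k (ρ gᵢ)` has dimension `dim_K V`, is the set of twisted reductions of
`V ∩ Lc`, and every element of `W` is the twisted reduction of a rational element. -/
theorem h78_W_of_family (V : Submodule K F) [Module.Finite K V]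
    (g : Fin (Module.finrank K V) → F) (hgS : ∀ i, g i ∈ S0) (hgV : ∀ i, g i ∈ V)
    (hgL : ∀ i, Lc (g i)) (hind : LinearIndependent k (fun i => ρ (g i))) (hL0 : Lc 0) :
    ∃ W : Submodule k Wb, Module.Finite k W ∧ Module.finrank k W = Module.finrank K V ∧
      (∀ φ ∈ W, ∃ f : F, f ∈ S0 ∧ f ∈ V ∧ Lc f ∧ ρ f = φ) ∧
      (∀ f : F, f ∈ V → Lc f → ρ f ∈ W) := by
  classical
  have hρ0 : ρ 0 = 0 := h78_ls_rho_zero D Lc ρ hLc_smul hρ_smul 0 hL0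
  refine ⟨Submodule.span k (Set.range fun i => ρ (g i)),
    Module.Finite.span_of_finite k (Set.finite_range _), ?_, ?_, ?_⟩
  · rw [finrank_span_eq_card hind, Fintype.card_fin]
  · intro φ hφ
    obtain ⟨c, hc⟩ := (Submodule.mem_span_range_iff_exists_fun k).mp hφ
    obtain ⟨s, -, hsV, hsS, hsL, hsρ⟩ :=
      h78_ls_comb D Lc ρ hLc_add hLc_smul hρ_add hρ_smul S0 C0 hS0_add hS0_smul hres V g hgV
        hgS hgL c 0 V.zero_mem hS0_zero hL0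
    rw [zero_add] at hsV hsS hsL hsρ
    exact ⟨s, hsS, hsV, hsL, by rw [hsρ, hρ0, zero_add, hc]⟩
  · intro f hfV hfL
    obtain ⟨c, hc, hcA⟩ := h78_ls_span D Lc ρ hLc_add hLc_smul hρ_add hρ_smul w hw0 hwnon V g
      hgV hgL hind f hfV
    have hcA' := hcA hfL
    have h1 := (h78_ls_sum D Lc ρ hLc_add hLc_smul hρ_add hρ_smul g hgL f hfL c hcA'
      Finset.univ).2
    rw [hc, h1]
    exact sum_mem fun i _ => Submodule.smul_mem _ _ (Submodule.subset_span ⟨i, rfl⟩)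

end Generic

section Pair

variable {Fb₁ Fb₂ : Type*} [Field Fb₁] [Field Fb₂] [Algebra k Fb₁] [Algebra k Fb₂]

/-- **W3 (LAT\*), output for the count (M3)**: the twisted reductions of `V ∩ Λ(c)` form a
`k`-subspace `W` of `Fb₁ × Fb₂` of dimension `dim_K V`, each element of which is the twisted
reduction of a RATIONAL element of `V ∩ Λ(c)`.  Binders = those of `h11_latStar_pair`. -/
theorem h78_latStar_pair_W
    (R₁ : h39_RedDatum K F k Fb₁) (R₂ : h39_RedDatum K F k Fb₂)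
    (A : ValuationSubring K) (res : A →+* k) (hres_surj : Function.Surjective res)
    (hA₁ : R₁.A = A) (hA₂ : R₂.A = A)
    (hres₁ : ∀ (a : K) (ha : a ∈ A), R₁.resK a = res ⟨a, ha⟩)
    (hres₂ : ∀ (a : K) (ha : a ∈ A), R₂.resK a = res ⟨a, ha⟩)
    (hON : h22_ON (h22_latOfPair R₁ R₂ A res hres_surj hA₁ hA₂ hres₁ hres₂))
    (w : K) (hw0 : w ≠ 0) (hwn : w ∈ A.nonunits) (harch : ∀ a : K, ∃ n : ℕ, w ^ n * a ∈ A)
    (c : ℤ) (S0 : Set F) (C0 : Set K)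
    (hS0 : (0 : F) ∈ S0) (hSadd : ∀ f g, f ∈ S0 → g ∈ S0 → f + g ∈ S0)
    (hSsmul : ∀ (a : K) (f : F), a ∈ C0 → f ∈ S0 → a • f ∈ S0)
    (hC1 : (1 : K) ∈ C0) (hCw : w ∈ C0) (hCw' : w⁻¹ ∈ C0)
    (hres : ∀ (a : K) (ha : a ∈ A), ∃ b ∈ C0, ∃ hb : b ∈ A, res ⟨b, hb⟩ = res ⟨a, ha⟩)
    (hmin₁ : ∀ f ∈ S0, f ∈ R₁.O → R₁.redF f = 0 → w⁻¹ • f ∈ R₁.O)
    (hmin₂ : ∀ f ∈ S0, f ∈ R₂.O → R₂.redF f = 0 → w⁻¹ • f ∈ R₂.O)
    (V : Submodule K F) [Module.Finite K V]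
    (hSP : V ≤ Submodule.span K (S0 ∩ (V : Set F))) :
    ∃ W : Submodule k (Fb₁ × Fb₂), Module.Finite k W ∧
      Module.finrank k W = Module.finrank K V ∧
      (∀ φ ∈ W, ∃ f : F, f ∈ S0 ∧ f ∈ V ∧ f ∈ R₁.O ∧ w ^ (-c) • f ∈ R₂.O ∧
        (R₁.redF f, R₂.redF (w ^ (-c) • f)) = φ) ∧
      (∀ f : F, f ∈ V → f ∈ R₁.O → w ^ (-c) • f ∈ R₂.O →
        (R₁.redF f, R₂.redF (w ^ (-c) • f)) ∈ W) := by
  classical
  obtain ⟨g, hgS, hgV, hgL, hgli⟩ := h11_latStar_pair R₁ R₂ A res hres_surj hA₁ hA₂ hres₁ hres₂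
    hON w hw0 hwn harch c S0 C0 hS0 hSadd hSsmul hC1 hCw hCw' hres hmin₁ hmin₂ V hSP
  set D := h22_latOfPair R₁ R₂ A res hres_surj hA₁ hA₂ hres₁ hres₂ with hD
  have hA1O : ∀ (a : K) (f : F), a ∈ A → f ∈ R₁.O → a • f ∈ R₁.O := by
    intro a f ha hf
    rw [Algebra.smul_def]
    exact R₁.O.mul_mem _ _ ((R₁.mem_iff a).mp (hA₁ ▸ ha)) hf
  have hA2O : ∀ (a : K) (f : F), a ∈ A → f ∈ R₂.O → a • f ∈ R₂.O := by
    intro a f ha hf
    rw [Algebra.smul_def]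
    exact R₂.O.mul_mem _ _ ((R₂.mem_iff a).mp (hA₂ ▸ ha)) hf
  have hL0 : (0 : F) ∈ R₁.O ∧ w ^ (-c) • (0 : F) ∈ R₂.O := by
    refine ⟨R₁.O.zero_mem, ?_⟩
    rw [smul_zero]
    exact R₂.O.zero_mem
  obtain ⟨W, hWfin, hWrank, hW1, hW2⟩ := h78_W_of_family D w hw0 (show w ∈ D.A.nonunits from hwn)
    (fun f => f ∈ R₁.O ∧ w ^ (-c) • f ∈ R₂.O)
    (fun f => ((R₁.redF f, R₂.redF (w ^ (-c) • f)) : Fb₁ × Fb₂))
    (fun f g hf hg => ⟨R₁.O.add_mem _ _ hf.1 hg.1, by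
      rw [smul_add]
      exact R₂.O.add_mem _ _ hf.2 hg.2⟩)
    (fun a f hf => ⟨hA1O a f a.2 hf.1, by
      rw [smul_comm]
      exact hA2O a _ a.2 hf.2⟩)
    (fun f g hf hg => by
      refine Prod.ext ?_ ?_
      · exact h39_redF_add R₁ hf.1 hg.1
      · show R₂.redF (w ^ (-c) • (f + g)) = _
        rw [smul_add]
        exact h39_redF_add R₂ hf.2 hg.2)
    (fun a f hf => by
      have ha' : (a : K) ∈ A := a.2
      refine Prod.ext ?_ ?_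
      · show R₁.redF ((a : K) • f) = res a • R₁.redF f
        rw [h11_redF_smul R₁ (hA₁ ▸ ha') hf.1, hres₁ a ha']
        rfl
      · show R₂.redF (w ^ (-c) • (a : K) • f) = res a • R₂.redF (w ^ (-c) • f)
        rw [smul_comm, h11_redF_smul R₂ (hA₂ ▸ ha') hf.2, hres₂ a ha']
        rfl)
    S0 C0 hS0 hSadd hSsmul
    (fun a => by
      obtain ⟨b, hbC, hbA, hb⟩ := hres a a.2
      exact ⟨⟨b, hbA⟩, hbC, hb⟩)
    V g hgS hgV hgL hgli hL0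
  exact ⟨W, hWfin, hWrank, fun φ hφ => by
    obtain ⟨f, h1, h2, h3, h4⟩ := hW1 φ hφ
    exact ⟨f, h1, h2, h3.1, h3.2, h4⟩, fun f hfV h1 h2 => hW2 f hfV ⟨h1, h2⟩⟩

/-- the twist `w^(-c) • f` written as a division by `t = w ^ c`. -/
theorem h78_zpow_neg_smul (w : K) (c : ℤ) (f : F) :
    w ^ (-c) • f = f / algebraMap K F (w ^ c) := by
  rw [Algebra.smul_def, zpow_neg, map_inv₀, div_eq_inv_mul]

/-- `h78_latStar_pair_W` with the twist written as `f / t`, `t = w ^ c`. -/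
theorem h78_latStar_pair_W_div
    (R₁ : h39_RedDatum K F k Fb₁) (R₂ : h39_RedDatum K F k Fb₂)
    (A : ValuationSubring K) (res : A →+* k) (hres_surj : Function.Surjective res)
    (hA₁ : R₁.A = A) (hA₂ : R₂.A = A)
    (hres₁ : ∀ (a : K) (ha : a ∈ A), R₁.resK a = res ⟨a, ha⟩)
    (hres₂ : ∀ (a : K) (ha : a ∈ A), R₂.resK a = res ⟨a, ha⟩)
    (hON : h22_ON (h22_latOfPair R₁ R₂ A res hres_surj hA₁ hA₂ hres₁ hres₂))
    (w : K) (hw0 : w ≠ 0) (hwn : w ∈ A.nonunits) (harch : ∀ a : K, ∃ n : ℕ, w ^ n * a ∈ A)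
    (c : ℤ) (t : K) (ht : t = w ^ c) (S0 : Set F) (C0 : Set K)
    (hS0 : (0 : F) ∈ S0) (hSadd : ∀ f g, f ∈ S0 → g ∈ S0 → f + g ∈ S0)
    (hSsmul : ∀ (a : K) (f : F), a ∈ C0 → f ∈ S0 → a • f ∈ S0)
    (hC1 : (1 : K) ∈ C0) (hCw : w ∈ C0) (hCw' : w⁻¹ ∈ C0)
    (hres : ∀ (a : K) (ha : a ∈ A), ∃ b ∈ C0, ∃ hb : b ∈ A, res ⟨b, hb⟩ = res ⟨a, ha⟩)
    (hmin₁ : ∀ f ∈ S0, f ∈ R₁.O → R₁.redF f = 0 → w⁻¹ • f ∈ R₁.O)
    (hmin₂ : ∀ f ∈ S0, f ∈ R₂.O → R₂.redF f = 0 → w⁻¹ • f ∈ R₂.O)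
    (V : Submodule K F) [Module.Finite K V]
    (hSP : V ≤ Submodule.span K (S0 ∩ (V : Set F))) :
    ∃ W : Submodule k (Fb₁ × Fb₂), Module.Finite k W ∧
      Module.finrank k W = Module.finrank K V ∧
      (∀ φ ∈ W, ∃ f : F, f ∈ S0 ∧ f ∈ V ∧ f ∈ R₁.O ∧ f / algebraMap K F t ∈ R₂.O ∧
        (R₁.redF f, R₂.redF (f / algebraMap K F t)) = φ) ∧
      (∀ f : F, f ∈ V → f ∈ R₁.O → f / algebraMap K F t ∈ R₂.O →
        (R₁.redF f, R₂.redF (f / algebraMap K F t)) ∈ W) := by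
  obtain ⟨W, h1, h2, h3, h4⟩ := h78_latStar_pair_W R₁ R₂ A res hres_surj hA₁ hA₂ hres₁ hres₂
    hON w hw0 hwn harch c S0 C0 hS0 hSadd hSsmul hC1 hCw hCw' hres hmin₁ hmin₂ V hSP
  subst ht
  refine ⟨W, h1, h2, fun φ hφ => ?_, fun f hfV hf1 hf2 => ?_⟩
  · obtain ⟨f, hfS, hfV, hf1, hf2, hf3⟩ := h3 φ hφ
    rw [h78_zpow_neg_smul] at hf2 hf3
    exact ⟨f, hfS, hfV, hf1, hf2, hf3⟩
  · have := h4 f hfV hf1 (by rw [h78_zpow_neg_smul]; exact hf2)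
    rwa [h78_zpow_neg_smul] at this

end Pair

end Fermat.Agent.S40
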