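import Mathlib
import Fermat.Agent.S40.h11_LatStarMod
import Fermat.Agent.S40.h78_LatStarW

/-!
# S40 / (TR) row W3 (LAT*) at the charted level `Mq`, subspace form (helper11)

Same setting as `h11_LatStarMod`: `R₁ = h60_R1 M q hqM A hA`, `R₂ = h60_R2 M q hqM A hA`,
`H ≤` inertia, `w` an `H`-fixed non-unit of `A`, `c : ℤ`, `t = w ^ c`, twisted lattice
`Λ(c) = {f | f ∈ O₁ ∧ f / t ∈ O₂}`, twisted reduction `f ↦ (red₁ f, red₂ (f / t))`.

`h11_latStar_mod_W` : under the two one-component min-formulas, for every `H`-stable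
finite-dimensional `ℚ̄`-subspace `V` of `F(Mq)` the twisted reductions of `V ∩ Λ(c)` form a
`k`-subspace `W ≤ Fb × Fb` with `dim_k W = dim V`, and every element of `W` is the twisted
reduction of an `H`-FIXED element of `V ∩ Λ(c)`.

This is the instance of helper78's `h78_latStar_pair_W_div` (shape (M3) of the count row W6 /
the rational lift used by W7).  `h11_latStar_rr_W` is the case `V = L(E)`.
-/

set_option autoImplicit false

noncomputable section

open AlgebraicCurve ModularCurve Module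

namespace Fermat.Agent.S40

open Fermat.Agent.S18 Fermat.Agent.S34 Fermat.Agent.S36

local notation "Qb" => AlgebraicClosure ℚ

/-- rank one in the form used by the lattice lemmas -/
theorem h11_mod_arch (q : ℕ) [Fact q.Prime] (A : ValuationSubring Qb) (hA : A.LiesOverPrime q)
    (w : Qb) (hwn : w ∈ A.nonunits) : ∀ a : Qb, ∃ n : ℕ, w ^ n * a ∈ A := by
  intro a
  rcases eq_or_ne a 0 with rfl | ha
  · exact ⟨0, by rw [mul_zero]; exact A.zero_mem⟩
  · obtain ⟨n, t, ht, hn⟩ := h64_rankOne_Qbar (Fact.out : q.Prime) A hA w hwn a⁻¹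
      (inv_ne_zero ha)
    refine ⟨n, ?_⟩
    rw [hn, mul_assoc, mul_comm t a, ← mul_assoc, inv_mul_cancel₀ ha, one_mul]
    exact ht

/-- `A = A₀ + 𝔪` in residue form, for the constants fixed by a subgroup of inertia -/
theorem h11_mod_res (q : ℕ) [Fact q.Prime] (A : ValuationSubring Qb) (hA : A.LiesOverPrime q)
    (H : Subgroup (Qb ≃ₐ[ℚ] Qb)) (hHI : H ≤ A.inertiaSubgroupIn ℚ) (a : Qb)
    (ha : a ∈ A) :
    ∃ b ∈ {a : Qb | ∀ σ ∈ H, σ a = a}, ∃ hb : b ∈ A,
      IsLocalRing.residue A ⟨b, hb⟩ = IsLocalRing.residue A ⟨a, ha⟩ := by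
  obtain ⟨a0, ha0, hfix, hnear⟩ := h6_res_K0 q A hA a ha
  refine ⟨a0, fun σ hσ => hfix σ (hHI hσ), ha0, ?_⟩
  have h1 : (⟨a, ha⟩ : A) - ⟨a0, ha0⟩ ∈ IsLocalRing.maximalIdeal A := by
    rw [← ValuationSubring.coe_mem_nonunits_iff]
    exact hnear
  have h2 := (IsLocalRing.residue_eq_zero_iff _).mpr h1
  rw [map_sub, sub_eq_zero] at h2
  exact h2.symm

/-- vector space descent in the form used by the lattice lemmas -/
theorem h11_mod_SP (N : ℕ) [NeZero N] (H : Subgroup (Qb ≃ₐ[ℚ] Qb))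
    (V : Submodule Qb ↥(modularFunctionFieldBar N))
    (hV : ∀ σ ∈ H, ∀ v ∈ V, arithmeticGalois (modularFunctionFieldFull N) σ • v ∈ V) :
    V ≤ Submodule.span Qb
      ({f | ∀ σ ∈ H, arithmeticGalois (modularFunctionFieldFull N) σ • f = f} ∩
        (V : Set ↥(modularFunctionFieldBar N))) := by
  have h1 := h69_span_fixed N H V hV
  have h2 : {g | g ∈ V ∧ ∀ σ ∈ H, arithmeticGalois (modularFunctionFieldFull N) σ • g = g} =
      {f | ∀ σ ∈ H, arithmeticGalois (modularFunctionFieldFull N) σ • f = f} ∩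
        (V : Set ↥(modularFunctionFieldBar N)) := by
    ext g
    exact ⟨fun h => ⟨h.2, h.1⟩, fun h => ⟨h.2, h.1⟩⟩
  rw [← h2, h1]

/-- semilinearity of the arithmetic Galois action -/
theorem h11_mod_smul (N : ℕ) [NeZero N] (a : Qb) (f : ↥(modularFunctionFieldBar N))
    (σ : Qb ≃ₐ[ℚ] Qb) :
    arithmeticGalois (modularFunctionFieldFull N) σ • (a • f) =
      σ a • arithmeticGalois (modularFunctionFieldFull N) σ • f := by
  rw [h69_smul_smul, baseAut_arithmeticGalois]
  rfl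

variable (M q : ℕ) [NeZero M] [NeZero q] [Fact q.Prime] (hqM : ¬ q ∣ M)
  (A : ValuationSubring Qb) (hA : A.LiesOverPrime q)

/-- **W3 (LAT\*) at the charted level, subspace form.** -/
theorem h11_latStar_mod_W (H : Subgroup (Qb ≃ₐ[ℚ] Qb)) (hHI : H ≤ A.inertiaSubgroupIn ℚ)
    (w : Qb) (hw0 : w ≠ 0) (hwn : w ∈ A.nonunits) (hwH : ∀ σ ∈ H, σ w = w) (c : ℤ)
    (hmin₁ : ∀ f : ↥(modularFunctionFieldBar (M * q)),
      (∀ σ ∈ H, arithmeticGalois (modularFunctionFieldFull (M * q)) σ • f = f) →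
      f ∈ (h60_R1 M q hqM A hA).O → (h60_R1 M q hqM A hA).redF f = 0 →
      w⁻¹ • f ∈ (h60_R1 M q hqM A hA).O)
    (hmin₂ : ∀ f : ↥(modularFunctionFieldBar (M * q)),
      (∀ σ ∈ H, arithmeticGalois (modularFunctionFieldFull (M * q)) σ • f = f) →
      f ∈ (h60_R2 M q hqM A hA).O → (h60_R2 M q hqM A hA).redF f = 0 →
      w⁻¹ • f ∈ (h60_R2 M q hqM A hA).O)
    (V : Submodule Qb ↥(modularFunctionFieldBar (M * q))) [Module.Finite Qb V]
    (hV : ∀ σ ∈ H, ∀ v ∈ V, arithmeticGalois (modularFunctionFieldFull (M * q)) σ • v ∈ V) :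
    ∃ W : Submodule (IsLocalRing.ResidueField A)
        (↥(modularFunctionFieldFullC (IsLocalRing.ResidueField A) M) ×
          ↥(modularFunctionFieldFullC (IsLocalRing.ResidueField A) M)),
      Module.Finite (IsLocalRing.ResidueField A) W ∧
      Module.finrank (IsLocalRing.ResidueField A) W = Module.finrank Qb V ∧
      (∀ φ ∈ W, ∃ f : ↥(modularFunctionFieldBar (M * q)),
        (∀ σ ∈ H, arithmeticGalois (modularFunctionFieldFull (M * q)) σ • f = f) ∧ f ∈ V ∧
        f ∈ (h60_R1 M q hqM A hA).O ∧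
        f / algebraMap Qb ↥(modularFunctionFieldBar (M * q)) (w ^ c) ∈ (h60_R2 M q hqM A hA).O ∧
        ((h60_R1 M q hqM A hA).redF f,
          (h60_R2 M q hqM A hA).redF
            (f / algebraMap Qb ↥(modularFunctionFieldBar (M * q)) (w ^ c))) = φ) ∧
      (∀ f : ↥(modularFunctionFieldBar (M * q)), f ∈ V → f ∈ (h60_R1 M q hqM A hA).O →
        f / algebraMap Qb ↥(modularFunctionFieldBar (M * q)) (w ^ c) ∈ (h60_R2 M q hqM A hA).O →
        ((h60_R1 M q hqM A hA).redF f,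
          (h60_R2 M q hqM A hA).redF
            (f / algebraMap Qb ↥(modularFunctionFieldBar (M * q)) (w ^ c))) ∈ W) := by
  classical
  have hON : h22_ON (h22_latOfPair (h60_R1 M q hqM A hA) (h60_R2 M q hqM A hA) A
      (IsLocalRing.residue A) IsLocalRing.residue_surjective (h60_R1_A M q hqM A hA)
      (h60_R2_A M q hqM A hA) (h87_R1_resK M q hqM A hA) (h87_R2_resK M q hqM A hA)) :=
    h87_D_on M q hqM A hA
  exact h78_latStar_pair_W_div (h60_R1 M q hqM A hA) (h60_R2 M q hqM A hA) A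
    (IsLocalRing.residue A) IsLocalRing.residue_surjective (h60_R1_A M q hqM A hA)
    (h60_R2_A M q hqM A hA) (h87_R1_resK M q hqM A hA) (h87_R2_resK M q hqM A hA) hON
    w hw0 hwn (h11_mod_arch q A hA w hwn) c (w ^ c) rfl
    {f | ∀ σ ∈ H, arithmeticGalois (modularFunctionFieldFull (M * q)) σ • f = f}
    {a | ∀ σ ∈ H, σ a = a}
    (fun σ _ => smul_zero _)
    (fun f g hf hg σ hσ => by rw [smul_add, hf σ hσ, hg σ hσ])
    (fun a f ha hf σ hσ => by rw [h11_mod_smul, ha σ hσ, hf σ hσ])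
    (fun σ _ => map_one σ) hwH
    (fun σ hσ => by rw [map_inv₀, hwH σ hσ])
    (fun a ha => h11_mod_res q A hA H hHI a ha)
    hmin₁ hmin₂ V (h11_mod_SP (M * q) H V hV)

/-- **W3 (LAT\*) at the charted level, subspace form**, for `L(E)`, `E` an `H`-invariant
divisor. -/
theorem h11_latStar_rr_W (H : Subgroup (Qb ≃ₐ[ℚ] Qb)) (hHI : H ≤ A.inertiaSubgroupIn ℚ)
    (w : Qb) (hw0 : w ≠ 0) (hwn : w ∈ A.nonunits) (hwH : ∀ σ ∈ H, σ w = w) (c : ℤ)
    (hmin₁ : ∀ f : ↥(modularFunctionFieldBar (M * q)),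
      (∀ σ ∈ H, arithmeticGalois (modularFunctionFieldFull (M * q)) σ • f = f) →
      f ∈ (h60_R1 M q hqM A hA).O → (h60_R1 M q hqM A hA).redF f = 0 →
      w⁻¹ • f ∈ (h60_R1 M q hqM A hA).O)
    (hmin₂ : ∀ f : ↥(modularFunctionFieldBar (M * q)),
      (∀ σ ∈ H, arithmeticGalois (modularFunctionFieldFull (M * q)) σ • f = f) →
      f ∈ (h60_R2 M q hqM A hA).O → (h60_R2 M q hqM A hA).redF f = 0 →
      w⁻¹ • f ∈ (h60_R2 M q hqM A hA).O)
    (E : Divisor Qb ↥(modularFunctionFieldBar (M * q)))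
    [Module.Finite Qb ↥(riemannRochSpace E)]
    (hE : ∀ σ ∈ H, arithmeticGalois (modularFunctionFieldFull (M * q)) σ • E = E) :
    ∃ W : Submodule (IsLocalRing.ResidueField A)
        (↥(modularFunctionFieldFullC (IsLocalRing.ResidueField A) M) ×
          ↥(modularFunctionFieldFullC (IsLocalRing.ResidueField A) M)),
      Module.Finite (IsLocalRing.ResidueField A) W ∧
      Module.finrank (IsLocalRing.ResidueField A) W =
        Module.finrank Qb ↥(riemannRochSpace E) ∧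
      (∀ φ ∈ W, ∃ f : ↥(modularFunctionFieldBar (M * q)),
        (∀ σ ∈ H, arithmeticGalois (modularFunctionFieldFull (M * q)) σ • f = f) ∧
        f ∈ riemannRochSpace E ∧ f ∈ (h60_R1 M q hqM A hA).O ∧
        f / algebraMap Qb ↥(modularFunctionFieldBar (M * q)) (w ^ c) ∈ (h60_R2 M q hqM A hA).O ∧
        ((h60_R1 M q hqM A hA).redF f,
          (h60_R2 M q hqM A hA).redF
            (f / algebraMap Qb ↥(modularFunctionFieldBar (M * q)) (w ^ c))) = φ) ∧
      (∀ f : ↥(modularFunctionFieldBar (M * q)), f ∈ riemannRochSpace E →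
        f ∈ (h60_R1 M q hqM A hA).O →
        f / algebraMap Qb ↥(modularFunctionFieldBar (M * q)) (w ^ c) ∈ (h60_R2 M q hqM A hA).O →
        ((h60_R1 M q hqM A hA).redF f,
          (h60_R2 M q hqM A hA).redF
            (f / algebraMap Qb ↥(modularFunctionFieldBar (M * q)) (w ^ c))) ∈ W) :=
  h11_latStar_mod_W M q hqM A hA H hHI w hw0 hwn hwH c hmin₁ hmin₂ (riemannRochSpace E)
    (fun σ hσ _ hv => Fermat.Agent.S17.h35_smul_mem_rr_of_fix _ E (hE σ hσ) hv)

end Fermat.Agent.S40
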