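import Mathlib
import Fermat.Agent.S36.h6_VertVal
import Fermat.Agent.S40.h12_KummerEis
import Fermat.Agent.S40.h78_MinMod
import Fermat.Agent.S40.h11_LatStarModW

/-!
# S40 / (TR) row W3 (LAT*) at the charted level, hypothesis-free, in the data of W0 (helper11)

`(z, w)` is a pair of the form delivered by W0 (`h12_kummer_cases`): `(1 + w)^p = 1 + p z` with
`z` a unit of `A` fixed by the inertia group `I` of `A` (this covers the pair attached to the
torsion point and the auxiliary pair `z = 1` used by the norm row W8).  `H = Stab_I(w)`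
(`h11_stab A w`); "`H`-fixed" is spelled `∀ σ ∈ I, σ w = w → σ • f = f`, as in `h78_min_mod`.

Level `M p`, `p ∤ M`, `p` odd; `R₁ = h60_R1 M p hpM A hA`, `R₂ = h60_R2 M p hpM A hA`; `c : ℤ`;
twisted lattice `Λ(c) = {f | f ∈ O₁ ∧ f / w^c ∈ O₂}`, twisted reduction
`f ↦ (red₁ f, red₂ (f / w^c))`.

* `h11_latStar_W0` : for every `H`-stable finite-dimensional `ℚ̄`-subspace `V` of `F(Mp)` the
  twisted reductions of `V ∩ Λ(c)` form a `k`-subspace `W ≤ Fb × Fb` with `dim_k W = dim V`,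
  and every element of `W` is the twisted reduction of an `H`-FIXED element of `V ∩ Λ(c)`.
* `h11_latStar_W0_rr` : the case `V = L(E)`, `E` an `H`-invariant divisor.

No open hypothesis: (MIN) is `h78_min_mod` (helper78) with INT-BASE `h6_R1_unit_scale` /
`h6_R2_unit_scale` (helper6), the Kummer data is `h12_eis` (helper12).
-/

set_option autoImplicit false

noncomputable section

open AlgebraicCurve ModularCurve Module

namespace Fermat.Agent.S40

open Fermat.Agent.S18 Fermat.Agent.S34 Fermat.Agent.S36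

local notation "Qb" => AlgebraicClosure ℚ

/-- `Stab_I(w)`: the elements of the inertia group of `A` fixing `w`. -/
def h11_stab (A : ValuationSubring Qb) (w : Qb) : Subgroup (Qb ≃ₐ[ℚ] Qb) where
  carrier := {σ | σ ∈ A.inertiaSubgroupIn ℚ ∧ σ w = w}
  mul_mem' := by
    rintro σ τ ⟨hσ, hσw⟩ ⟨hτ, hτw⟩
    refine ⟨mul_mem hσ hτ, ?_⟩
    show σ (τ w) = w
    rw [hτw, hσw]
  one_mem' := ⟨one_mem _, rfl⟩
  inv_mem' := by
    rintro σ ⟨hσ, hσw⟩
    refine ⟨inv_mem hσ, ?_⟩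
    show σ.symm w = w
    rw [AlgEquiv.symm_apply_eq]
    exact hσw.symm

theorem h11_mem_stab (A : ValuationSubring Qb) (w : Qb) (σ : Qb ≃ₐ[ℚ] Qb) :
    σ ∈ h11_stab A w ↔ σ ∈ A.inertiaSubgroupIn ℚ ∧ σ w = w := Iff.rfl

variable (M p : ℕ) [NeZero M] [NeZero p] [Fact p.Prime] (hp2 : p ≠ 2) (hpM : ¬ p ∣ M)
  (A : ValuationSubring Qb) (hA : A.LiesOverPrime p)

include hp2 in
/-- **W3 (LAT\*) at the charted level, in W0 data, no open hypothesis.** -/
theorem h11_latStar_W0 (ζ : Qb) (hζ : IsPrimitiveRoot ζ p) (z w : Qb)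
    (hz : A.valuation z = 1) (hzI : ∀ g ∈ A.inertiaSubgroupIn ℚ, g z = z)
    (hw : (1 + w) ^ p = 1 + (p : Qb) * z) (c : ℤ)
    (V : Submodule Qb ↥(modularFunctionFieldBar (M * p))) [Module.Finite Qb V]
    (hV : ∀ σ ∈ A.inertiaSubgroupIn ℚ, σ w = w → ∀ v ∈ V,
      arithmeticGalois (modularFunctionFieldFull (M * p)) σ • v ∈ V) :
    ∃ W : Submodule (IsLocalRing.ResidueField A)
        (↥(modularFunctionFieldFullC (IsLocalRing.ResidueField A) M) ×
          ↥(modularFunctionFieldFullC (IsLocalRing.ResidueField A) M)),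
      Module.Finite (IsLocalRing.ResidueField A) W ∧
      Module.finrank (IsLocalRing.ResidueField A) W = Module.finrank Qb V ∧
      (∀ φ ∈ W, ∃ f : ↥(modularFunctionFieldBar (M * p)),
        (∀ σ ∈ A.inertiaSubgroupIn ℚ, σ w = w →
          arithmeticGalois (modularFunctionFieldFull (M * p)) σ • f = f) ∧ f ∈ V ∧
        f ∈ (h60_R1 M p hpM A hA).O ∧
        f / algebraMap Qb ↥(modularFunctionFieldBar (M * p)) (w ^ c) ∈ (h60_R2 M p hpM A hA).O ∧
        ((h60_R1 M p hpM A hA).redF f,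
          (h60_R2 M p hpM A hA).redF
            (f / algebraMap Qb ↥(modularFunctionFieldBar (M * p)) (w ^ c))) = φ) ∧
      (∀ f : ↥(modularFunctionFieldBar (M * p)), f ∈ V → f ∈ (h60_R1 M p hpM A hA).O →
        f / algebraMap Qb ↥(modularFunctionFieldBar (M * p)) (w ^ c) ∈ (h60_R2 M p hpM A hA).O →
        ((h60_R1 M p hpM A hA).redF f,
          (h60_R2 M p hpM A hA).redF
            (f / algebraMap Qb ↥(modularFunctionFieldBar (M * p)) (w ^ c))) ∈ W) := by
  classical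
  obtain ⟨hwn, -, -, -, -, -⟩ := h12_eis p hp2 A hA ζ hζ z w hz hzI hw
  have hw0 : w ≠ 0 := (h12_eis_ne_zero p A hA z w hz hw).2
  -- INT-BASE in the shape of `h78_min_mod`
  have hint₁ : ∀ g : ↥(modularFunctionFieldBar (M * p)),
      (∀ σ ∈ A.inertiaSubgroupIn ℚ,
        arithmeticGalois (modularFunctionFieldFull (M * p)) σ • g = g) → g ≠ 0 → ∃ m : ℤ,
        algebraMap Qb ↥(modularFunctionFieldBar (M * p)) ((p : Qb) ^ m) * g ∈
          (h60_R1 M p hpM A hA).O ∧
        (algebraMap Qb ↥(modularFunctionFieldBar (M * p)) ((p : Qb) ^ m) * g)⁻¹ ∈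
          (h60_R1 M p hpM A hA).O := by
    intro g hg hg0
    obtain ⟨m, h1, h2⟩ := h6_R1_unit_scale M p hpM A hA g hg0 hg
    refine ⟨-m, ?_, ?_⟩
    · rw [map_zpow₀]
      exact h1
    · rw [map_zpow₀]
      exact h2
  have hint₂ : ∀ g : ↥(modularFunctionFieldBar (M * p)),
      (∀ σ ∈ A.inertiaSubgroupIn ℚ,
        arithmeticGalois (modularFunctionFieldFull (M * p)) σ • g = g) → g ≠ 0 → ∃ m : ℤ,
        algebraMap Qb ↥(modularFunctionFieldBar (M * p)) ((p : Qb) ^ m) * g ∈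
          (h60_R2 M p hpM A hA).O ∧
        (algebraMap Qb ↥(modularFunctionFieldBar (M * p)) ((p : Qb) ^ m) * g)⁻¹ ∈
          (h60_R2 M p hpM A hA).O := by
    intro g hg hg0
    obtain ⟨m, h1, h2⟩ := h6_R2_unit_scale M p hpM A hA g hg0 hg
    refine ⟨-m, ?_, ?_⟩
    · rw [map_zpow₀]
      exact h1
    · rw [map_zpow₀]
      exact h2
  obtain ⟨W, hW1, hW2, hW3, hW4⟩ := h11_latStar_mod_W M p hpM A hA (h11_stab A w)
    (fun σ hσ => hσ.1) w hw0 hwn (fun σ hσ => hσ.2) c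
    (fun f hf hfO h0 => h78_min_mod (M * p) p hp2 A hA ζ hζ z w hz hzI hw
      (h60_R1 M p hpM A hA) (h60_R1_A M p hpM A hA) hint₁ f
      (fun σ hσ hσw => hf σ ⟨hσ, hσw⟩) hfO h0)
    (fun f hf hfO h0 => h78_min_mod (M * p) p hp2 A hA ζ hζ z w hz hzI hw
      (h60_R2 M p hpM A hA) (h60_R2_A M p hpM A hA) hint₂ f
      (fun σ hσ hσw => hf σ ⟨hσ, hσw⟩) hfO h0)
    V (fun σ hσ v hv => hV σ hσ.1 hσ.2 v hv)
  refine ⟨W, hW1, hW2, fun φ hφ => ?_, hW4⟩
  obtain ⟨f, hf, hrest⟩ := hW3 φ hφ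
  exact ⟨f, fun σ hσ hσw => hf σ ⟨hσ, hσw⟩, hrest⟩

include hp2 in
/-- **W3 (LAT\*) at the charted level, in W0 data**, for `L(E)`, `E` invariant under
`Stab_I(w)`. -/
theorem h11_latStar_W0_rr (ζ : Qb) (hζ : IsPrimitiveRoot ζ p) (z w : Qb)
    (hz : A.valuation z = 1) (hzI : ∀ g ∈ A.inertiaSubgroupIn ℚ, g z = z)
    (hw : (1 + w) ^ p = 1 + (p : Qb) * z) (c : ℤ)
    (E : Divisor Qb ↥(modularFunctionFieldBar (M * p)))
    [Module.Finite Qb ↥(riemannRochSpace E)]
    (hE : ∀ σ ∈ A.inertiaSubgroupIn ℚ, σ w = w →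
      arithmeticGalois (modularFunctionFieldFull (M * p)) σ • E = E) :
    ∃ W : Submodule (IsLocalRing.ResidueField A)
        (↥(modularFunctionFieldFullC (IsLocalRing.ResidueField A) M) ×
          ↥(modularFunctionFieldFullC (IsLocalRing.ResidueField A) M)),
      Module.Finite (IsLocalRing.ResidueField A) W ∧
      Module.finrank (IsLocalRing.ResidueField A) W =
        Module.finrank Qb ↥(riemannRochSpace E) ∧
      (∀ φ ∈ W, ∃ f : ↥(modularFunctionFieldBar (M * p)),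
        (∀ σ ∈ A.inertiaSubgroupIn ℚ, σ w = w →
          arithmeticGalois (modularFunctionFieldFull (M * p)) σ • f = f) ∧
        f ∈ riemannRochSpace E ∧ f ∈ (h60_R1 M p hpM A hA).O ∧
        f / algebraMap Qb ↥(modularFunctionFieldBar (M * p)) (w ^ c) ∈ (h60_R2 M p hpM A hA).O ∧
        ((h60_R1 M p hpM A hA).redF f,
          (h60_R2 M p hpM A hA).redF
            (f / algebraMap Qb ↥(modularFunctionFieldBar (M * p)) (w ^ c))) = φ) ∧
      (∀ f : ↥(modularFunctionFieldBar (M * p)), f ∈ riemannRochSpace E →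
        f ∈ (h60_R1 M p hpM A hA).O →
        f / algebraMap Qb ↥(modularFunctionFieldBar (M * p)) (w ^ c) ∈ (h60_R2 M p hpM A hA).O →
        ((h60_R1 M p hpM A hA).redF f,
          (h60_R2 M p hpM A hA).redF
            (f / algebraMap Qb ↥(modularFunctionFieldBar (M * p)) (w ^ c))) ∈ W) :=
  h11_latStar_W0 M p hp2 hpM A hA ζ hζ z w hz hzI hw c (riemannRochSpace E)
    (fun σ hσ hσw _ hv => Fermat.Agent.S17.h35_smul_mem_rr_of_fix _ E (hE σ hσ hσw) hv)

end Fermat.Agent.S40
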