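import Mathlib
import Fermat.Agent.S18.GR_RedAPI
import Fermat.Agent.S34.h22_LatON
import Fermat.Agent.S33.h10_N1Glue

/-!
# S40 / (TR) by lattice count, row W6: the twisted lattices over the algebraic closure (helper31)

No rationality, no Galois action: for two reduction data `R₁, R₂` on `F` with the same rank-one
constants, a separating element, the pair lattice `D` (`O = O₁ ∩ O₂`, `red = (red₁, red₂)`) with
the (ON) property, and ANY nonzero constant `γ`: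

* `h31_twist_unit` : a twisting unit `g` with `red₁ g = 1` and `red₂ (g / γ) = 1`
  (two-valuation glue `h10_glue`);
* `h31_twist_lat` : for every finite-dimensional `V ⊆ F` the twisted lattice
  `{f ∈ V | f ∈ O₁, f / γ ∈ O₂}` has a `k`-space `W` of twisted reductions
  `(red₁ f, red₂ (f / γ))` of dimension `dim_K V` (`f ↦ f / g` identifies it with
  `g⁻¹ V ∩ D.O`, and (ON) applies to `g⁻¹ V`).
-/

set_option autoImplicit false

noncomputable section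

open AlgebraicCurve Module

namespace Fermat.Agent.S40

open Fermat.Agent.S18 Fermat.Agent.S34 Fermat.Agent.S33

variable {K F k Fb : Type*} [Field K] [Field F] [Algebra K F] [Field k] [Field Fb] [Algebra k Fb]

/-- **Twisting unit**: `g` with `red₁ g = 1` and `red₂ (g / γ) = 1`. -/
theorem h31_twist_unit (R₁ R₂ : h39_RedDatum K F k Fb) (hA : R₁.A = R₂.A)
    (hrk : h39_RankOne R₁.A)
    (hsep : ∃ t : F, t ∈ R₁.O ∧ t ∈ R₂.O ∧ R₁.redF t = 1 ∧ R₂.redF t = 0)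
    (π : K) (hπ0 : π ≠ 0) (hπ : π ∈ R₁.A) (hπinv : π⁻¹ ∉ R₁.A)
    (γ : K) (hγ : γ ≠ 0) :
    ∃ g : F, g ≠ 0 ∧ g ∈ R₁.O ∧ R₁.redF g = 1 ∧ (algebraMap K F γ)⁻¹ * g ∈ R₂.O ∧
      R₂.redF ((algebraMap K F γ)⁻¹ * g) = 1 := by
  have hγF : algebraMap K F γ ≠ 0 := (map_ne_zero _).2 hγ
  obtain ⟨W, ⟨s₁, hs₁, e₁⟩, ⟨s₂, hs₂, e₂⟩⟩ :=
    h10_glue R₁ R₂ hA hrk hsep 1 (algebraMap K F γ) one_ne_zero hγF hπ0
  rw [one_mul] at e₁
  have hπ₂ : π ∈ R₂.A := hA ▸ hπ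
  have hπinv₂ : π⁻¹ ∉ R₂.A := hA ▸ hπinv
  have hres₁ : R₁.resK π = 0 := (h39_resK_eq_zero_iff R₁ hπ).mpr (Or.inr hπinv)
  have hres₂ : R₂.resK π = 0 := (h39_resK_eq_zero_iff R₂ hπ₂).mpr (Or.inr hπinv₂)
  have hπO₁ : algebraMap K F π ∈ R₁.O := (R₁.mem_iff π).mp hπ
  have hπO₂ : algebraMap K F π ∈ R₂.O := (R₂.mem_iff π).mp hπ₂
  have hm₁ : 1 + algebraMap K F π * s₁ ∈ R₁.O :=
    R₁.O.add_mem _ _ R₁.O.one_mem (R₁.O.mul_mem _ _ hπO₁ hs₁)
  have hm₂ : 1 + algebraMap K F π * s₂ ∈ R₂.O :=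
    R₂.O.add_mem _ _ R₂.O.one_mem (R₂.O.mul_mem _ _ hπO₂ hs₂)
  have hr₁ : R₁.redF (1 + algebraMap K F π * s₁) = 1 := by
    rw [h39_redF_add R₁ R₁.O.one_mem (R₁.O.mul_mem _ _ hπO₁ hs₁), h39_redF_one,
      h39_redF_mul R₁ hπO₁ hs₁, h39_redF_algebraMap R₁ hπ, hres₁, map_zero, zero_mul, add_zero]
  have hr₂ : R₂.redF (1 + algebraMap K F π * s₂) = 1 := by
    rw [h39_redF_add R₂ R₂.O.one_mem (R₂.O.mul_mem _ _ hπO₂ hs₂), h39_redF_one,
      h39_redF_mul R₂ hπO₂ hs₂, h39_redF_algebraMap R₂ hπ₂, hres₂, map_zero, zero_mul, add_zero]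
  have hW2 : (algebraMap K F γ)⁻¹ * W = 1 + algebraMap K F π * s₂ := by
    rw [e₂, ← mul_assoc, inv_mul_cancel₀ hγF, one_mul]
  refine ⟨W, ?_, ?_, ?_, ?_, ?_⟩
  · intro h0
    rw [e₁] at h0
    rw [h0, h39_redF_zero] at hr₁
    exact zero_ne_one hr₁
  · rw [e₁]
    exact hm₁
  · rw [e₁]
    exact hr₁
  · rw [hW2]
    exact hm₂
  · rw [hW2]
    exact hr₂

/-- **The twisted lattice has full rank** (no rationality): for every finite-dimensional `V` and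
every constant `γ ≠ 0` there is a `k`-space `W` of dimension `dim_K V` consisting of twisted
reductions `(red₁ f, red₂ (f / γ))` of elements `f ∈ V` with `f ∈ O₁`, `f / γ ∈ O₂`. -/
theorem h31_twist_lat (R₁ R₂ : h39_RedDatum K F k Fb) (hA : R₁.A = R₂.A)
    (hrk : h39_RankOne R₁.A)
    (hsep : ∃ t : F, t ∈ R₁.O ∧ t ∈ R₂.O ∧ R₁.redF t = 1 ∧ R₂.redF t = 0)
    (π : K) (hπ0 : π ≠ 0) (hπ : π ∈ R₁.A) (hπinv : π⁻¹ ∉ R₁.A)
    (D : h22_Lat K F k (Fb × Fb)) (hON : h22_ON D)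
    (hDO : ∀ f : F, f ∈ D.O ↔ f ∈ R₁.O ∧ f ∈ R₂.O)
    (hDred : ∀ f : F, f ∈ R₁.O → f ∈ R₂.O → D.redF f = (R₁.redF f, R₂.redF f))
    (γ : K) (hγ : γ ≠ 0) (V : Submodule K F) [Module.Finite K V] :
    ∃ W : Submodule k (Fb × Fb), Module.Finite k W ∧ finrank k W = finrank K V ∧
      ∀ φ ∈ W, ∃ f : F, f ∈ V ∧ f ∈ R₁.O ∧ (algebraMap K F γ)⁻¹ * f ∈ R₂.O ∧
        φ = (R₁.redF f, R₂.redF ((algebraMap K F γ)⁻¹ * f)) := by
  classical
  obtain ⟨g, hg0, hg₁, hgr₁, hg₂, hgr₂⟩ :=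
    h31_twist_unit R₁ R₂ hA hrk hsep π hπ0 hπ hπinv γ hγ
  have hginv : g⁻¹ ≠ 0 := inv_ne_zero hg0
  have hinj : Function.Injective (LinearMap.mulLeft K g⁻¹) := fun x y h => by
    simpa [hginv] using h
  set V' : Submodule K F := V.map (LinearMap.mulLeft K g⁻¹) with hV'
  have hrank : finrank K V' = finrank K V :=
    (Submodule.equivMapOfInjective _ hinj V).finrank_eq.symm
  have hfin : Module.Finite K V' := inferInstance
  obtain ⟨e, heV, heO, hind⟩ := hON V' hfin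
  refine ⟨Submodule.span k (Set.range fun i => D.redF (e i)),
    Module.Finite.span_of_finite k (Set.finite_range _), ?_, ?_⟩
  · rw [finrank_span_eq_card hind, Fintype.card_fin, hrank]
  · intro φ hφ
    obtain ⟨c, hc⟩ := (Submodule.mem_span_range_iff_exists_fun k).mp hφ
    have hlift : ∀ i, ∃ a : K, a ∈ D.A ∧ D.resK a = c i := by
      intro i
      obtain ⟨a, ha⟩ := D.res_surjective (c i)
      exact ⟨(a : K), a.2, by rw [D.resK_of_mem a.2]; exact ha⟩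
    choose a haA hares using hlift
    set h : F := ∑ i, a i • e i with hh
    have hhO : h ∈ D.O := h22_sum_smul_mem D Finset.univ a e haA heO
    have hhred : D.redF h = φ := by
      rw [hh, h22_redF_sum_smul D Finset.univ a e haA heO, ← hc]
      exact Finset.sum_congr rfl fun i _ => by rw [hares i]
    have hhV' : h ∈ V' := Submodule.sum_mem _ fun i _ => Submodule.smul_mem _ _ (heV i)
    obtain ⟨hh₁, hh₂⟩ := (hDO h).mp hhO
    obtain ⟨v, hvV, hv⟩ := hhV'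
    have hv' : g⁻¹ * v = h := hv
    have hgh : g * h = v := by
      rw [← hv', ← mul_assoc, mul_inv_cancel₀ hg0, one_mul]
    have hassoc : (algebraMap K F γ)⁻¹ * (g * h) = (algebraMap K F γ)⁻¹ * g * h := by ring
    refine ⟨g * h, ?_, R₁.O.mul_mem _ _ hg₁ hh₁, ?_, ?_⟩
    · rw [hgh]
      exact hvV
    · rw [hassoc]
      exact R₂.O.mul_mem _ _ hg₂ hh₂
    · rw [← hhred, hDred h hh₁ hh₂, hassoc, h39_redF_mul R₁ hg₁ hh₁, hgr₁, one_mul,
        h39_redF_mul R₂ hg₂ hh₂, hgr₂, one_mul]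

end Fermat.Agent.S40

end
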