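import Mathlib

/-!
# S40 / (TR) v2, row W6 (W-UB), piece (K3): the arithmetic of the twist count (helper50)

`h50_twist_arith`: if for every twist `del < p` the rounding defect `S` plus the sum over the
nodes of the local terms
`(x - del) % p + (y + del) % p + p [p ∣ x - del] + p [p ∣ y + del ∧ p ∤ x - del]`
is at most `p * #Z`, then `S = 0`, `p ∣ x ν + y ν` at every node, and equality holds for every
twist.  (Sum over `del`: the residues `(x - del) % p` run through `0, …, p - 1`; at least one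
twist has a non-void node condition, and at least two if `p ∤ x + y`.)
-/

set_option autoImplicit false

namespace Fermat.Agent.S40

section arith

/-- A function on `range p` that is injective modulo `p` has residues summing to
`0 + 1 + ⋯ + (p - 1)`. -/
theorem h50_sum_emod_perm (p : ℕ) (hp : 0 < p) (h : ℕ → ℤ)
    (hinj : ∀ δ < p, ∀ δ' < p, (p : ℤ) ∣ h δ - h δ' → δ = δ') :
    ∑ δ ∈ Finset.range p, h δ % (p : ℤ) = ∑ j ∈ Finset.range p, (j : ℤ) := by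
  have hp' : (0 : ℤ) < (p : ℤ) := by exact_mod_cast hp
  have hp0 : (p : ℤ) ≠ 0 := hp'.ne'
  let e : ℕ → ℕ := fun δ => (h δ % (p : ℤ)).toNat
  have he : ∀ δ, ((e δ : ℕ) : ℤ) = h δ % (p : ℤ) := fun δ =>
    Int.toNat_of_nonneg (Int.emod_nonneg _ hp0)
  have hinjOn : Set.InjOn e (Finset.range p : Set ℕ) := by
    intro δ hδ δ' hδ' hee
    have h1 : h δ % (p : ℤ) = h δ' % (p : ℤ) := by rw [← he, ← he, hee]
    exact hinj δ (Finset.mem_range.mp hδ) δ' (Finset.mem_range.mp hδ')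
      (Int.dvd_of_emod_eq_zero ((Int.emod_eq_emod_iff_emod_sub_eq_zero).mp h1))
  have himg : (Finset.range p).image e = Finset.range p := by
    apply Finset.eq_of_subset_of_card_le
    · intro j hj
      obtain ⟨δ, -, rfl⟩ := Finset.mem_image.mp hj
      rw [Finset.mem_range]
      have : ((e δ : ℕ) : ℤ) < (p : ℤ) := by rw [he]; exact Int.emod_lt_of_pos _ hp'
      exact_mod_cast this
    · rw [Finset.card_image_of_injOn hinjOn]
  calc ∑ δ ∈ Finset.range p, h δ % (p : ℤ) = ∑ δ ∈ Finset.range p, ((e δ : ℕ) : ℤ) :=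
        Finset.sum_congr rfl fun δ _ => (he δ).symm
    _ = ∑ j ∈ (Finset.range p).image e, (j : ℤ) := (Finset.sum_image hinjOn).symm
    _ = ∑ j ∈ Finset.range p, (j : ℤ) := by rw [himg]

theorem h50_two_mul_sum_range (p : ℕ) (hp : 0 < p) :
    2 * ∑ j ∈ Finset.range p, (j : ℤ) = (p : ℤ) * ((p : ℤ) - 1) := by
  have h := Finset.sum_range_id_mul_two p
  have h2 : ((∑ i ∈ Finset.range p, i : ℕ) : ℤ) * 2 = (p : ℤ) * ((p - 1 : ℕ) : ℤ) := by
    exact_mod_cast h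
  rw [Nat.cast_sum] at h2
  rw [Nat.cast_sub hp, Nat.cast_one] at h2
  linarith

theorem h50_sum_emod_sub (p : ℕ) (hp : 0 < p) (a : ℤ) :
    ∑ δ ∈ Finset.range p, (a - (δ : ℤ)) % (p : ℤ) = ∑ j ∈ Finset.range p, (j : ℤ) := by
  refine h50_sum_emod_perm p hp (fun δ => a - (δ : ℤ)) fun δ hδ δ' hδ' hd => ?_
  have h1 : (p : ℤ) ∣ (δ' : ℤ) - (δ : ℤ) := by
    have : a - (δ : ℤ) - (a - (δ' : ℤ)) = (δ' : ℤ) - (δ : ℤ) := by ring
    rwa [this] at hd
  obtain ⟨m, hm⟩ := h1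
  have hδ1 : (δ : ℤ) < p := by exact_mod_cast hδ
  have hδ2 : (δ' : ℤ) < p := by exact_mod_cast hδ'
  have hδ3 : (0 : ℤ) ≤ δ := Int.natCast_nonneg _
  have hδ4 : (0 : ℤ) ≤ δ' := Int.natCast_nonneg _
  have hp' : (0 : ℤ) < (p : ℤ) := by exact_mod_cast hp
  have hm0 : m = 0 := by
    have h1 : -1 < m := by nlinarith
    have h2 : m < 1 := by nlinarith
    omega
  rw [hm0, mul_zero] at hm
  have : (δ' : ℤ) = δ := by linarith
  exact_mod_cast this.symm

theorem h50_sum_emod_add (p : ℕ) (hp : 0 < p) (b : ℤ) :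
    ∑ δ ∈ Finset.range p, (b + (δ : ℤ)) % (p : ℤ) = ∑ j ∈ Finset.range p, (j : ℤ) := by
  refine h50_sum_emod_perm p hp (fun δ => b + (δ : ℤ)) fun δ hδ δ' hδ' hd => ?_
  have h1 : (p : ℤ) ∣ (δ : ℤ) - (δ' : ℤ) := by
    have : b + (δ : ℤ) - (b + (δ' : ℤ)) = (δ : ℤ) - (δ' : ℤ) := by ring
    rwa [this] at hd
  obtain ⟨m, hm⟩ := h1
  have hδ1 : (δ : ℤ) < p := by exact_mod_cast hδ
  have hδ2 : (δ' : ℤ) < p := by exact_mod_cast hδ'
  have hδ3 : (0 : ℤ) ≤ δ := Int.natCast_nonneg _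
  have hδ4 : (0 : ℤ) ≤ δ' := Int.natCast_nonneg _
  have hp' : (0 : ℤ) < (p : ℤ) := by exact_mod_cast hp
  have hm0 : m = 0 := by
    have h1 : -1 < m := by nlinarith
    have h2 : m < 1 := by nlinarith
    omega
  rw [hm0, mul_zero] at hm
  have : (δ : ℤ) = δ' := by linarith
  exact_mod_cast this

/-- The indicator of "the node condition at `δ` is non-void". -/
noncomputable def h50_ind01 (p : ℕ) (a b : ℤ) (δ : ℕ) : ℤ :=
  open Classical in if (p : ℤ) ∣ a - (δ : ℤ) ∨ (p : ℤ) ∣ b + (δ : ℤ) then 1 else 0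

theorem h50_ind01_nonneg (p : ℕ) (a b : ℤ) (δ : ℕ) : 0 ≤ h50_ind01 p a b δ := by
  unfold h50_ind01
  split_ifs <;> norm_num

/-- At least one twist has a non-void node condition, and at least two if `p ∤ a + b`. -/
theorem h50_sum_ind01 (p : ℕ) (hp : 0 < p) (a b : ℤ) :
    1 + (if (p : ℤ) ∣ a + b then 0 else 1) ≤ ∑ δ ∈ Finset.range p, h50_ind01 p a b δ := by
  classical
  have hp' : (0 : ℤ) < (p : ℤ) := by exact_mod_cast hp
  have hp0 : (p : ℤ) ≠ 0 := hp'.ne'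
  let δ1 : ℕ := (a % (p : ℤ)).toNat
  let δ2 : ℕ := ((-b) % (p : ℤ)).toNat
  have h1 : ((δ1 : ℕ) : ℤ) = a % (p : ℤ) := Int.toNat_of_nonneg (Int.emod_nonneg _ hp0)
  have h2 : ((δ2 : ℕ) : ℤ) = (-b) % (p : ℤ) := Int.toNat_of_nonneg (Int.emod_nonneg _ hp0)
  have hδ1 : δ1 ∈ Finset.range p := by
    rw [Finset.mem_range]
    have : ((δ1 : ℕ) : ℤ) < (p : ℤ) := by rw [h1]; exact Int.emod_lt_of_pos _ hp'
    exact_mod_cast this
  have hδ2 : δ2 ∈ Finset.range p := by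
    rw [Finset.mem_range]
    have : ((δ2 : ℕ) : ℤ) < (p : ℤ) := by rw [h2]; exact Int.emod_lt_of_pos _ hp'
    exact_mod_cast this
  have hd1 : (p : ℤ) ∣ a - (δ1 : ℤ) := by
    rw [h1]
    exact Int.dvd_self_sub_emod
  have hd2 : (p : ℤ) ∣ b + (δ2 : ℤ) := by
    rw [h2]
    have h3 : (p : ℤ) ∣ (-b) - (-b) % (p : ℤ) := Int.dvd_self_sub_emod
    have h4 : b + (-b) % (p : ℤ) = -((-b) - (-b) % (p : ℤ)) := by ring
    rw [h4]
    exact (dvd_neg).mpr h3
  have hi1 : h50_ind01 p a b δ1 = 1 := by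
    unfold h50_ind01
    rw [if_pos (Or.inl hd1)]
  have hi2 : h50_ind01 p a b δ2 = 1 := by
    unfold h50_ind01
    rw [if_pos (Or.inr hd2)]
  by_cases hab : (p : ℤ) ∣ a + b
  · rw [if_pos hab, add_zero]
    calc (1 : ℤ) = h50_ind01 p a b δ1 := hi1.symm
      _ ≤ ∑ δ ∈ Finset.range p, h50_ind01 p a b δ :=
        Finset.single_le_sum (fun δ _ => h50_ind01_nonneg p a b δ) hδ1
  · rw [if_neg hab]
    have hne : δ1 ≠ δ2 := by
      intro h
      apply hab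
      have h5 : (p : ℤ) ∣ (a - (δ1 : ℤ)) + (b + (δ2 : ℤ)) := dvd_add hd1 hd2
      have h6 : (a - (δ1 : ℤ)) + (b + (δ2 : ℤ)) = a + b := by rw [h]; ring
      rwa [h6] at h5
    have hsub : ({δ1, δ2} : Finset ℕ) ⊆ Finset.range p := by
      intro j hj
      rcases Finset.mem_insert.mp hj with rfl | hj
      · exact hδ1
      · rw [Finset.mem_singleton.mp hj]; exact hδ2
    calc (1 : ℤ) + 1 = ∑ δ ∈ ({δ1, δ2} : Finset ℕ), h50_ind01 p a b δ := by
          rw [Finset.sum_pair hne, hi1, hi2]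
      _ ≤ ∑ δ ∈ Finset.range p, h50_ind01 p a b δ :=
        Finset.sum_le_sum_of_subset_of_nonneg hsub fun δ _ _ => h50_ind01_nonneg p a b δ

/-- When `p ∣ a + b`, the local count at a node is exactly `p` at every twist. -/
theorem h50_local_eq (p : ℕ) (hp : 0 < p) (a b : ℤ) (hab : (p : ℤ) ∣ a + b) (δ : ℕ) :
    (a - (δ : ℤ)) % (p : ℤ) + (b + (δ : ℤ)) % (p : ℤ) + (p : ℤ) * h50_ind01 p a b δ = p := by
  classical
  have hp' : (0 : ℤ) < (p : ℤ) := by exact_mod_cast hp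
  have hp0 : (p : ℤ) ≠ 0 := hp'.ne'
  have hsum : (p : ℤ) ∣ (a - (δ : ℤ)) + (b + (δ : ℤ)) := by
    have : (a - (δ : ℤ)) + (b + (δ : ℤ)) = a + b := by ring
    rwa [this]
  by_cases h1 : (p : ℤ) ∣ a - (δ : ℤ)
  · have h2 : (p : ℤ) ∣ b + (δ : ℤ) := (Int.dvd_add_right h1).mp hsum
    unfold h50_ind01
    rw [if_pos (Or.inl h1), Int.emod_eq_zero_of_dvd h1, Int.emod_eq_zero_of_dvd h2]
    ring
  · have h2 : ¬ (p : ℤ) ∣ b + (δ : ℤ) := fun h => h1 ((Int.dvd_add_left h).mp hsum)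
    unfold h50_ind01
    rw [if_neg (by tauto), mul_zero, add_zero]
    have e1 := Int.emod_add_mul_ediv (a - (δ : ℤ)) (p : ℤ)
    have e2 := Int.emod_add_mul_ediv (b + (δ : ℤ)) (p : ℤ)
    have n1 := Int.emod_nonneg (a - (δ : ℤ)) hp0
    have n2 := Int.emod_nonneg (b + (δ : ℤ)) hp0
    have l1 := Int.emod_lt_of_pos (a - (δ : ℤ)) hp'
    have l2 := Int.emod_lt_of_pos (b + (δ : ℤ)) hp'
    have z1 : (a - (δ : ℤ)) % (p : ℤ) ≠ 0 := fun h => h1 (Int.dvd_of_emod_eq_zero h)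
    obtain ⟨m, hm⟩ := hsum
    set r1 := (a - (δ : ℤ)) % (p : ℤ)
    set r2 := (b + (δ : ℤ)) % (p : ℤ)
    have hr : r1 + r2 = (p : ℤ) * (m - (a - (δ : ℤ)) / (p : ℤ) - (b + (δ : ℤ)) / (p : ℤ)) := by
      linarith [mul_sub (p : ℤ) m ((a - (δ : ℤ)) / (p : ℤ)),
        mul_sub (p : ℤ) (m - (a - (δ : ℤ)) / (p : ℤ)) ((b + (δ : ℤ)) / (p : ℤ))]
    set q := m - (a - (δ : ℤ)) / (p : ℤ) - (b + (δ : ℤ)) / (p : ℤ)
    have hq1 : 0 < q := by
      have : 0 < (p : ℤ) * q := by rw [← hr]; omega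
      exact (mul_pos_iff_of_pos_left hp').mp this
    have hq2 : q < 2 := by
      by_contra hcon
      push Not at hcon
      have : (p : ℤ) * 2 ≤ (p : ℤ) * q := mul_le_mul_of_nonneg_left hcon hp'.le
      linarith
    have hq : q = 1 := by omega
    rw [hr, hq, mul_one]


/-- The two `if`-terms of the local count are `p` times the indicator. -/
theorem h50_ite_eq (p : ℕ) (a b : ℤ) (δ : ℕ) :
    (if (p : ℤ) ∣ a - (δ : ℤ) then (p : ℤ) else 0)
      + (if (p : ℤ) ∣ b + (δ : ℤ) ∧ ¬ (p : ℤ) ∣ a - (δ : ℤ) then (p : ℤ) else 0)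
      = (p : ℤ) * h50_ind01 p a b δ := by
  unfold h50_ind01
  by_cases h1 : (p : ℤ) ∣ a - (δ : ℤ)
  · rw [if_pos h1, if_neg (by tauto), if_pos (Or.inl h1)]
    ring
  · by_cases h2 : (p : ℤ) ∣ b + (δ : ℤ)
    · rw [if_neg h1, if_pos ⟨h2, h1⟩, if_pos (Or.inr h2)]
      ring
    · rw [if_neg h1, if_neg (by tauto), if_neg (by tauto)]
      ring

/-- The sum over the twists of the local count at one node. -/
theorem h50_sum_local (p : ℕ) (hp : 0 < p) (a b : ℤ) :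
    (p : ℤ) * (p : ℤ) + (p : ℤ) * (if (p : ℤ) ∣ a + b then 0 else 1) ≤
      ∑ δ ∈ Finset.range p, ((a - (δ : ℤ)) % (p : ℤ) + (b + (δ : ℤ)) % (p : ℤ)
        + (if (p : ℤ) ∣ a - (δ : ℤ) then (p : ℤ) else 0)
        + (if (p : ℤ) ∣ b + (δ : ℤ) ∧ ¬ (p : ℤ) ∣ a - (δ : ℤ) then (p : ℤ) else 0)) := by
  have hp' : (0 : ℤ) < (p : ℤ) := by exact_mod_cast hp
  have e : ∀ δ ∈ Finset.range p, ((a - (δ : ℤ)) % (p : ℤ) + (b + (δ : ℤ)) % (p : ℤ)
        + (if (p : ℤ) ∣ a - (δ : ℤ) then (p : ℤ) else 0)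
        + (if (p : ℤ) ∣ b + (δ : ℤ) ∧ ¬ (p : ℤ) ∣ a - (δ : ℤ) then (p : ℤ) else 0))
      = (a - (δ : ℤ)) % (p : ℤ) + (b + (δ : ℤ)) % (p : ℤ) + (p : ℤ) * h50_ind01 p a b δ := by
    intro δ _
    rw [add_assoc, h50_ite_eq]
  rw [Finset.sum_congr rfl e, Finset.sum_add_distrib, Finset.sum_add_distrib, ← Finset.mul_sum,
    h50_sum_emod_sub p hp a, h50_sum_emod_add p hp b]
  have h1 := h50_two_mul_sum_range p hp
  have h2 := h50_sum_ind01 p hp a b
  have h3 : (p : ℤ) * (1 + (if (p : ℤ) ∣ a + b then 0 else 1)) ≤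
      (p : ℤ) * ∑ δ ∈ Finset.range p, h50_ind01 p a b δ := mul_le_mul_of_nonneg_left h2 hp'.le
  nlinarith

/-- **(K3) The arithmetic of the twist count.** -/
theorem h50_twist_arith (p : ℕ) (hp : 0 < p) {Z : Type*} [Fintype Z] (x y : Z → ℤ) (S : ℤ)
    (hS : 0 ≤ S)
    (h : ∀ del : ℕ, del < p → S + ∑ nu, ((x nu - del) % p + (y nu + del) % p
          + (if (p : ℤ) ∣ x nu - del then (p : ℤ) else 0)
          + (if (p : ℤ) ∣ y nu + del ∧ ¬ (p : ℤ) ∣ x nu - del then (p : ℤ) else 0))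
        ≤ p * Fintype.card Z) :
    S = 0 ∧ (∀ nu, (p : ℤ) ∣ x nu + y nu) ∧
      ∀ del : ℕ, del < p → S + ∑ nu, ((x nu - del) % p + (y nu + del) % p
          + (if (p : ℤ) ∣ x nu - del then (p : ℤ) else 0)
          + (if (p : ℤ) ∣ y nu + del ∧ ¬ (p : ℤ) ∣ x nu - del then (p : ℤ) else 0))
        = p * Fintype.card Z := by
  classical
  have hp' : (0 : ℤ) < (p : ℤ) := by exact_mod_cast hp
  -- sum the hypothesis over the twists
  have hsum : ∑ del ∈ Finset.range p, (S + ∑ nu, ((x nu - del) % p + (y nu + del) % p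
          + (if (p : ℤ) ∣ x nu - del then (p : ℤ) else 0)
          + (if (p : ℤ) ∣ y nu + del ∧ ¬ (p : ℤ) ∣ x nu - del then (p : ℤ) else 0)))
      ≤ ∑ _del ∈ Finset.range p, ((p : ℤ) * Fintype.card Z) :=
    Finset.sum_le_sum fun del hdel => h del (Finset.mem_range.mp hdel)
  rw [Finset.sum_add_distrib, Finset.sum_const, Finset.sum_const, Finset.card_range,
    Finset.sum_comm] at hsum
  have hlow : ∑ nu : Z, ((p : ℤ) * (p : ℤ) + (p : ℤ) * (if (p : ℤ) ∣ x nu + y nu then 0 else 1)) ≤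
      ∑ nu : Z, ∑ del ∈ Finset.range p, ((x nu - del) % p + (y nu + del) % p
          + (if (p : ℤ) ∣ x nu - del then (p : ℤ) else 0)
          + (if (p : ℤ) ∣ y nu + del ∧ ¬ (p : ℤ) ∣ x nu - del then (p : ℤ) else 0)) :=
    Finset.sum_le_sum fun nu _ => h50_sum_local p hp (x nu) (y nu)
  rw [Finset.sum_add_distrib, Finset.sum_const, ← Finset.mul_sum, Finset.card_univ] at hlow
  simp only [nsmul_eq_mul] at hsum hlow
  have hnn : ∀ nu ∈ (Finset.univ : Finset Z),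
      (0 : ℤ) ≤ (if (p : ℤ) ∣ x nu + y nu then (0 : ℤ) else 1) := by
    intro nu _
    split_ifs <;> norm_num
  have hN := Finset.sum_nonneg hnn
  -- `p S + p Σ n_ν ≤ 0`
  have key : (p : ℤ) * S + (p : ℤ) * ∑ nu : Z, (if (p : ℤ) ∣ x nu + y nu then (0 : ℤ) else 1) ≤ 0 := by
    nlinarith
  have hS0 : S = 0 := by
    have h1 : (p : ℤ) * S ≤ 0 := by nlinarith [mul_nonneg hp'.le hN]
    have h2 : S ≤ 0 := by
      by_contra hcon
      push Not at hcon
      nlinarith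
    exact le_antisymm h2 hS
  have hN0 : ∑ nu : Z, (if (p : ℤ) ∣ x nu + y nu then (0 : ℤ) else 1) = 0 := by
    have h1 : (p : ℤ) * ∑ nu : Z, (if (p : ℤ) ∣ x nu + y nu then (0 : ℤ) else 1) ≤ 0 := by
      nlinarith [mul_nonneg hp'.le hS]
    have h2 : ∑ nu : Z, (if (p : ℤ) ∣ x nu + y nu then (0 : ℤ) else 1) ≤ 0 := by
      by_contra hcon
      push Not at hcon
      nlinarith
    exact le_antisymm h2 hN
  have hdvd : ∀ nu, (p : ℤ) ∣ x nu + y nu := by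
    intro nu
    have h1 := (Finset.sum_eq_zero_iff_of_nonneg hnn).mp hN0 nu (Finset.mem_univ nu)
    by_contra hcon
    rw [if_neg hcon] at h1
    exact one_ne_zero h1
  refine ⟨hS0, hdvd, fun del _ => ?_⟩
  have e : ∀ nu ∈ (Finset.univ : Finset Z), ((x nu - del) % p + (y nu + del) % p
          + (if (p : ℤ) ∣ x nu - del then (p : ℤ) else 0)
          + (if (p : ℤ) ∣ y nu + del ∧ ¬ (p : ℤ) ∣ x nu - del then (p : ℤ) else 0)) = (p : ℤ) := by
    intro nu _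
    rw [add_assoc, h50_ite_eq]
    exact h50_local_eq p hp (x nu) (y nu) (hdvd nu) del
  rw [Finset.sum_congr rfl e, hS0, zero_add, Finset.sum_const, Finset.card_univ, nsmul_eq_mul,
    mul_comm]

end arith

end Fermat.Agent.S40
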