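import Mathlib
import Fermat.Agent.S18.RR_Large

/-!
# S40 / (TR) v2, row W6 (W-UB), piece (K1): rank of a twisted space of pairs (helper50)

* `h50_fst_snd_surj` : linear algebra.  `V ≤ A × B` with second components in `LB` and
  snd-kernel inside `LA × 0`; if `dim LA + dim LB ≤ dim V` then every element of `LB` is a second
  component and `LA × 0 ≤ V`.
* `h50_twist_rank` : the same for Riemann–Roch spaces of large degree on a curve over an
  algebraically closed field, with the dimensions computed by Riemann–Roch.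
* `h50_rr_exact` : in large degree there is a function of exact order `-(D Q)` at a given
  place `Q`.
-/

set_option autoImplicit false

open AlgebraicCurve Module

namespace Fermat.Agent.S40

open Fermat.Agent.S18

section linalg

variable {k A B : Type*} [Field k] [AddCommGroup A] [Module k A] [AddCommGroup B] [Module k B]

/-- Rank–nullity for the second projection, with the equality case. -/
theorem h50_fst_snd_rank (V : Submodule k (A × B)) (LA : Submodule k A)
    (LB : Submodule k B) [FiniteDimensional k LA] [FiniteDimensional k LB]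
    (h1 : ∀ φ ∈ V, φ.2 = 0 → φ.1 ∈ LA) (h2 : ∀ φ ∈ V, φ.2 ∈ LB) :
    FiniteDimensional k V ∧ finrank k V ≤ finrank k LA + finrank k LB ∧
      (finrank k LA + finrank k LB ≤ finrank k V →
        (∀ b ∈ LB, ∃ a : A, (a, b) ∈ V) ∧ (∀ a ∈ LA, (a, (0 : B)) ∈ V)) := by
  let g : V →ₗ[k] LB :=
    ((LinearMap.snd k A B).comp V.subtype).codRestrict LB (fun φ => h2 φ.1 φ.2)
  have hker : ∀ φ : LinearMap.ker g, (φ.1.1 : A × B).2 = 0 := by
    intro φ
    have h := LinearMap.mem_ker.mp φ.2
    exact congrArg Subtype.val h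
  let f : LinearMap.ker g →ₗ[k] LA :=
    ((LinearMap.fst k A B).comp (V.subtype.comp (LinearMap.ker g).subtype)).codRestrict LA
      (fun φ => h1 φ.1.1 φ.1.2 (hker φ))
  have hf : Function.Injective f := by
    intro φ ψ h
    have h1' : (φ.1.1 : A × B).1 = (ψ.1.1 : A × B).1 := congrArg Subtype.val h
    have h2' : (φ.1.1 : A × B).2 = (ψ.1.1 : A × B).2 := by rw [hker φ, hker ψ]
    exact Subtype.ext (Subtype.ext (Prod.ext h1' h2'))
  have hfinker : FiniteDimensional k (LinearMap.ker g) := Module.Finite.of_injective f hf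
  have hfinquot : FiniteDimensional k (V ⧸ LinearMap.ker g) :=
    Module.Finite.equiv g.quotKerEquivRange.symm
  have hfinV : FiniteDimensional k V := Module.Finite.of_submodule_quotient (LinearMap.ker g)
  have e1 := LinearMap.finrank_range_add_finrank_ker g
  have e2 : finrank k (LinearMap.ker g) ≤ finrank k LA :=
    LinearMap.finrank_le_finrank_of_injective hf
  have e3 : finrank k (LinearMap.range g) ≤ finrank k LB := Submodule.finrank_le _
  refine ⟨hfinV, by omega, fun hge => ?_⟩
  have e4 : finrank k (LinearMap.range g) = finrank k LB := by omega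
  have e5 : finrank k (LinearMap.ker g) = finrank k LA := by omega
  have hrange : LinearMap.range g = ⊤ := Submodule.eq_top_of_finrank_eq e4
  have hsurj : Function.Surjective f := by
    have h := LinearMap.injective_iff_surjective_of_finrank_eq_finrank (K := k)
      (V := LinearMap.ker g) (V₂ := LA) e5 (f := f)
    exact h.mp hf
  refine ⟨fun b hb => ?_, fun a ha => ?_⟩
  · have hmem : (⟨b, hb⟩ : LB) ∈ LinearMap.range g := by rw [hrange]; trivial
    obtain ⟨v, hv⟩ := hmem
    refine ⟨(v : A × B).1, ?_⟩
    have hb' : (v : A × B).2 = b := congrArg Subtype.val hv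
    have : ((v : A × B).1, b) = (v : A × B) := by rw [← hb']
    rw [this]
    exact v.2
  · obtain ⟨κ, hκ⟩ := hsurj ⟨a, ha⟩
    have ha' : (κ.1.1 : A × B).1 = a := congrArg Subtype.val hκ
    have : (a, (0 : B)) = (κ.1.1 : A × B) := by rw [← ha', ← hker κ]
    rw [this]
    exact κ.1.2

end linalg

section rr

variable {k Fb : Type*} [Field k] [Field Fb] [Algebra k Fb] [IsAlgClosed k]

/-- **(K1), rank.**  A space of pairs with second components in `L(D₂)` and snd-kernel inside
`L(D₁) × 0` has dimension at most `deg D₁ + deg D₂ + 2 - 2g`; in the equality case it contains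
`L(D₁) × 0` and surjects onto `L(D₂)`. -/
theorem h50_twist_rank {xb : Fb} (hxb : h75_IsChart k xb) :
    ∃ c : ℤ, ∀ D1 D2 : Divisor k Fb, c ≤ Divisor.degree D1 → c ≤ Divisor.degree D2 →
      ∀ W : Submodule k (Fb × Fb),
        (∀ a ∈ W, a.2 ∈ riemannRochSpace D2) →
        (∀ a ∈ W, a.2 = 0 → a.1 ∈ riemannRochSpace D1) →
        (Module.finrank k W : ℤ) ≤
            Divisor.degree D1 + Divisor.degree D2 + 2 - 2 * (h75_genus k xb : ℤ) ∧
          ((Module.finrank k W : ℤ) =
              Divisor.degree D1 + Divisor.degree D2 + 2 - 2 * (h75_genus k xb : ℤ) →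
            (∀ φ2 ∈ riemannRochSpace D2, ∃ φ1 : Fb, (φ1, φ2) ∈ W) ∧
              (∀ φ1 ∈ riemannRochSpace D1, (φ1, (0 : Fb)) ∈ W)) := by
  obtain ⟨c, hc⟩ := h75_rr hxb
  refine ⟨c, fun D1 D2 hD1 hD2 W hW2 hW1 => ?_⟩
  have hfin1 : Module.Finite k (riemannRochSpace D1) := (h75_riemann hxb D1).1
  have hfin2 : Module.Finite k (riemannRochSpace D2) := (h75_riemann hxb D2).1
  obtain ⟨-, hle, hsurj⟩ := h50_fst_snd_rank W (riemannRochSpace D1) (riemannRochSpace D2)
    hW1 hW2
  have hr1 := hc D1 hD1
  have hr2 := hc D2 hD2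
  have hle' : (finrank k W : ℤ) ≤
      (finrank k (riemannRochSpace D1) : ℤ) + (finrank k (riemannRochSpace D2) : ℤ) := by
    exact_mod_cast hle
  refine ⟨by rw [hr1, hr2] at hle'; linarith, fun heq => hsurj ?_⟩
  have : (finrank k (riemannRochSpace D1) : ℤ) + (finrank k (riemannRochSpace D2) : ℤ) ≤
      (finrank k W : ℤ) := by
    rw [hr1, hr2, heq]
    linarith
  exact_mod_cast this

/-- **(K1), exactness.**  In large degree, `L(D)` contains a function of exact order `-(D Q)`
at any given place `Q`. -/
theorem h50_rr_exact {xb : Fb} (hxb : h75_IsChart k xb) :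
    ∃ c : ℤ, ∀ D : Divisor k Fb, c ≤ Divisor.degree D → ∀ Q : Place k Fb,
      ∃ φ ∈ riemannRochSpace D, φ ≠ 0 ∧ Q.ord φ = -(D Q) := by
  classical
  obtain ⟨c, hc⟩ := h75_rr hxb
  refine ⟨c + 1, fun D hD Q => ?_⟩
  have hdegQ : Q.deg = 1 := h75_deg_eq_one hxb Q
  have hd' : Divisor.degree (D - Finsupp.single Q 1) = Divisor.degree D - 1 := by
    rw [map_sub, Divisor.degree_single, hdegQ]
    simp
  have hr := hc D (by linarith)
  have hr' := hc (D - Finsupp.single Q 1) (by rw [hd']; linarith)
  have hfin : Module.Finite k (riemannRochSpace D) := (h75_riemann hxb D).1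
  have hlt : finrank k (riemannRochSpace (D - Finsupp.single Q 1)) <
      finrank k (riemannRochSpace D) := by
    have : (finrank k (riemannRochSpace (D - Finsupp.single Q 1)) : ℤ) <
        (finrank k (riemannRochSpace D) : ℤ) := by
      rw [hr, hr', hd']
      linarith
    exact_mod_cast this
  have hnle : ¬ riemannRochSpace D ≤ riemannRochSpace (D - Finsupp.single Q 1) := by
    intro hle
    have hfin' : Module.Finite k (riemannRochSpace (D - Finsupp.single Q 1)) :=
      (h75_riemann hxb _).1
    exact absurd (Submodule.finrank_mono hle) (not_le.mpr hlt)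
  obtain ⟨φ, hφD, hφ'⟩ := SetLike.not_le_iff_exists.mp hnle
  have hφ0 : φ ≠ 0 := by
    rintro rfl
    exact hφ' (Submodule.zero_mem _)
  refine ⟨φ, hφD, hφ0, ?_⟩
  have h1 := (mem_riemannRochSpace_iff.mp hφD Q).resolve_left hφ0
  rw [mem_riemannRochSpace_iff] at hφ'
  push Not at hφ'
  obtain ⟨v, -, hv⟩ := hφ'
  have hvQ : v = Q := by
    by_contra hne
    have h2 := (mem_riemannRochSpace_iff.mp hφD v).resolve_left hφ0
    rw [Finsupp.sub_apply, Finsupp.single_apply, if_neg (fun h => hne h.symm), sub_zero] at hv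
    exact absurd h2 (not_le.mpr hv)
  subst hvQ
  rw [Finsupp.sub_apply, Finsupp.single_eq_same] at hv
  omega

end rr

end Fermat.Agent.S40
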