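import Mathlib
import Fermat.Agent.S18.RR_Large

/-!
# S40 / (TR) v2, row W6 (W-UB): the generic upper bound of the twist count (helper50)

Generic (Mathlib + Prelude divisor API + S18 Riemann–Roch) core of (C3) of the lattice count:
a space `V` of pairs `(φ₁, φ₂)` of functions on a curve over an algebraically closed field whose
orders are bounded below by `p`-scaled divisors and whose leading terms are linked at finitely
many "nodes" in the weak form (NODE-IFF) has dimension at most the expected one.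
-/

set_option autoImplicit false

open AlgebraicCurve Module

namespace Fermat.Agent.S40

open Fermat.Agent.S18

section linalg

variable {k A B : Type*} [Field k] [AddCommGroup A] [Module k A] [AddCommGroup B] [Module k B]

/-- A space of pairs whose second components lie in `LB` and whose elements with vanishing
second component have first component in `LA` has dimension at most `dim LA + dim LB`. -/
theorem h50_finrank_le_fst_snd (V : Submodule k (A × B)) (LA : Submodule k A)
    (LB : Submodule k B) [FiniteDimensional k LA] [FiniteDimensional k LB]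
    (h1 : ∀ φ ∈ V, φ.2 = 0 → φ.1 ∈ LA) (h2 : ∀ φ ∈ V, φ.2 ∈ LB) :
    FiniteDimensional k V ∧ finrank k V ≤ finrank k LA + finrank k LB := by
  let g : V →ₗ[k] LB :=
    ((LinearMap.snd k A B).comp V.subtype).codRestrict LB (fun φ => h2 φ.1 φ.2)
  have hker : ∀ φ : LinearMap.ker g, (φ.1.1 : A × B).2 = 0 := by
    intro φ
    have h := LinearMap.mem_ker.mp φ.2
    exact congrArg Subtype.val h
  let f : LinearMap.ker g →ₗ[k] LA :=
    ((LinearMap.fst k A B).comp (V.subtype.comp (LinearMap.ker g).subtype)).codRestrict LA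
      (fun φ => h1 φ.1.1 φ.1.2 (hker φ))
  have hf : Function.Injective f := by
    intro φ ψ h
    have h1' : (φ.1.1 : A × B).1 = (ψ.1.1 : A × B).1 := congrArg Subtype.val h
    have h2' : (φ.1.1 : A × B).2 = (ψ.1.1 : A × B).2 := by rw [hker φ, hker ψ]
    exact Subtype.ext (Subtype.ext (Prod.ext h1' h2'))
  have hfinker : FiniteDimensional k (LinearMap.ker g) := Module.Finite.of_injective f hf
  have hfinrange : FiniteDimensional k (LinearMap.range g) := inferInstance
  have hfinquot : FiniteDimensional k (V ⧸ LinearMap.ker g) :=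
    Module.Finite.equiv g.quotKerEquivRange.symm
  have hfinV : FiniteDimensional k V := Module.Finite.of_submodule_quotient (LinearMap.ker g)
  refine ⟨hfinV, ?_⟩
  have e1 := LinearMap.finrank_range_add_finrank_ker g
  have e2 : finrank k (LinearMap.ker g) ≤ finrank k LA :=
    LinearMap.finrank_le_finrank_of_injective hf
  have e3 : finrank k (LinearMap.range g) ≤ finrank k LB := Submodule.finrank_le _
  omega

end linalg


section divisor

variable {k Fb : Type*} [Field k] [Field Fb] [Algebra k Fb]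

/-- Floor division of a divisor by `p`. -/
noncomputable def h50_fdiv (G : Divisor k Fb) (p : ℕ) : Divisor k Fb :=
  Finsupp.mapRange (fun e : ℤ => e / (p : ℤ)) (by simp) G

theorem h50_fdiv_apply (G : Divisor k Fb) (p : ℕ) (z : Place k Fb) :
    h50_fdiv G p z = G z / (p : ℤ) := by
  simp [h50_fdiv]

/-- The indicator divisor of a finite set of places. -/
noncomputable def h50_ind (T : Finset (Place k Fb)) : Divisor k Fb :=
  ∑ z ∈ T, Finsupp.single z 1

theorem h50_ind_apply_mem {T : Finset (Place k Fb)} {z : Place k Fb} (hz : z ∈ T) :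
    h50_ind T z = 1 := by
  classical
  simp [h50_ind, Finsupp.finsetSum_apply, Finsupp.single_apply, hz]

theorem h50_ind_apply_not_mem {T : Finset (Place k Fb)} {z : Place k Fb} (hz : z ∉ T) :
    h50_ind T z = 0 := by
  classical
  rw [h50_ind, Finsupp.finsetSum_apply]
  refine Finset.sum_eq_zero fun w hw => ?_
  rw [Finsupp.single_apply, if_neg]
  rintro rfl
  exact hz hw

theorem h50_degree_ind (hdeg : ∀ P : Place k Fb, P.deg = 1) (T : Finset (Place k Fb)) :
    Divisor.degree (h50_ind T) = T.card := by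
  simp [h50_ind, map_sum, Divisor.degree_single, hdeg]

/-- The degree as a sum over any finite set containing the support. -/
theorem h50_degree_eq_sum (hdeg : ∀ P : Place k Fb, P.deg = 1) (D : Divisor k Fb)
    (s : Finset (Place k Fb)) (hs : D.support ⊆ s) :
    Divisor.degree D = ∑ z ∈ s, D z := by
  have h1 : Divisor.degree D = ∑ z ∈ D.support, D z := by
    simp [Divisor.degree, Finsupp.liftAddHom_apply, Finsupp.sum, hdeg]
  rw [h1]
  refine Finset.sum_subset hs fun z _ hz => ?_
  simpa using hz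

theorem h50_mul_degree_fdiv (hdeg : ∀ P : Place k Fb, P.deg = 1) (G : Divisor k Fb) (p : ℕ)
    (s : Finset (Place k Fb)) (hs : G.support ⊆ s) :
    (p : ℤ) * Divisor.degree (h50_fdiv G p) = Divisor.degree G - ∑ z ∈ s, G z % (p : ℤ) := by
  have hs' : (h50_fdiv G p).support ⊆ s := by
    intro z hz
    apply hs
    rw [Finsupp.mem_support_iff] at hz ⊢
    intro h0
    apply hz
    rw [h50_fdiv_apply, h0, Int.zero_ediv]
  rw [h50_degree_eq_sum hdeg _ s hs', h50_degree_eq_sum hdeg G s hs, Finset.mul_sum,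
    ← Finset.sum_sub_distrib]
  refine Finset.sum_congr rfl fun z _ => ?_
  rw [h50_fdiv_apply]
  have := Int.emod_add_mul_ediv (G z) (p : ℤ)
  linarith

/-- Membership in the Riemann–Roch space of the floor-divided divisor from `p`-scaled bounds. -/
theorem h50_mem_rr {p : ℕ} (hp : 0 < p) (G : Divisor k Fb) (T : Finset (Place k Fb)) (f : Fb)
    (h1 : ∀ z : Place k Fb, f = 0 ∨ 0 ≤ (p : ℤ) * z.ord f + G z)
    (h2 : ∀ z ∈ T, f = 0 ∨ (p : ℤ) ≤ (p : ℤ) * z.ord f + G z) :
    f ∈ riemannRochSpace (h50_fdiv G p - h50_ind T) := by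
  rw [mem_riemannRochSpace_iff]
  intro z
  by_cases hf : f = 0
  · exact Or.inl hf
  right
  have hp' : (0 : ℤ) < (p : ℤ) := by exact_mod_cast hp
  rw [Finsupp.sub_apply, h50_fdiv_apply]
  by_cases hz : z ∈ T
  · rw [h50_ind_apply_mem hz]
    have h := (h2 z hz).resolve_left hf
    have h3 : 1 - z.ord f ≤ G z / (p : ℤ) := by
      rw [Int.le_ediv_iff_mul_le hp']
      nlinarith
    linarith
  · rw [h50_ind_apply_not_mem hz]
    have h := (h1 z).resolve_left hf
    have h3 : - z.ord f ≤ G z / (p : ℤ) := by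
      rw [Int.le_ediv_iff_mul_le hp']
      nlinarith
    linarith

variable [IsAlgClosed k]

/-- **The basic upper bound.**  `V` a space of pairs with `p`-scaled order bounds `G₁`, `G₂`;
on the kernel of the second projection the first components vanish one more step at the places
of `TA`; all second components vanish one more step at the places of `TB`. -/
theorem h50_ubound {xb : Fb} (hxb : h75_IsChart k xb) (p : ℕ) (hp : 0 < p) :
    ∃ c : ℤ, ∀ (G1 G2 : Divisor k Fb) (TA TB : Finset (Place k Fb)),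
      c + TA.card ≤ Divisor.degree (h50_fdiv G1 p) →
      c + TB.card ≤ Divisor.degree (h50_fdiv G2 p) →
      ∀ V : Submodule k (Fb × Fb),
        (∀ φ ∈ V, φ.2 = 0 → ∀ z : Place k Fb, φ.1 = 0 ∨ 0 ≤ (p : ℤ) * z.ord φ.1 + G1 z) →
        (∀ φ ∈ V, φ.2 = 0 → ∀ z ∈ TA, φ.1 = 0 ∨ (p : ℤ) ≤ (p : ℤ) * z.ord φ.1 + G1 z) →
        (∀ φ ∈ V, ∀ z : Place k Fb, φ.2 = 0 ∨ 0 ≤ (p : ℤ) * z.ord φ.2 + G2 z) →
        (∀ φ ∈ V, ∀ z ∈ TB, φ.2 = 0 ∨ (p : ℤ) ≤ (p : ℤ) * z.ord φ.2 + G2 z) →
        FiniteDimensional k V ∧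
          (finrank k V : ℤ) ≤
            Divisor.degree (h50_fdiv G1 p) + Divisor.degree (h50_fdiv G2 p)
              - (TA.card + TB.card) + 2 * (1 - (h75_genus k xb : ℤ)) := by
  obtain ⟨c, hc⟩ := h75_rr hxb
  refine ⟨c, fun G1 G2 TA TB h1 h2 V hb1 hs1 hb2 hs2 => ?_⟩
  have hdeg : ∀ P : Place k Fb, P.deg = 1 := fun P => h75_deg_eq_one hxb P
  have hfin1 : Module.Finite k (riemannRochSpace (h50_fdiv G1 p - h50_ind TA)) :=
    (h75_riemann hxb _).1
  have hfin2 : Module.Finite k (riemannRochSpace (h50_fdiv G2 p - h50_ind TB)) :=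
    (h75_riemann hxb _).1
  obtain ⟨hfinV, hle⟩ := h50_finrank_le_fst_snd V
    (riemannRochSpace (h50_fdiv G1 p - h50_ind TA)) (riemannRochSpace (h50_fdiv G2 p - h50_ind TB))
    (fun φ hφ h0 => h50_mem_rr hp G1 TA φ.1 (hb1 φ hφ h0) (hs1 φ hφ h0))
    (fun φ hφ => h50_mem_rr hp G2 TB φ.2 (hb2 φ hφ) (hs2 φ hφ))
  refine ⟨hfinV, ?_⟩
  have hd1 : Divisor.degree (h50_fdiv G1 p - h50_ind TA) =
      Divisor.degree (h50_fdiv G1 p) - TA.card := by
    rw [map_sub, h50_degree_ind hdeg]
  have hd2 : Divisor.degree (h50_fdiv G2 p - h50_ind TB) =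
      Divisor.degree (h50_fdiv G2 p) - TB.card := by
    rw [map_sub, h50_degree_ind hdeg]
  have hr1 := hc (h50_fdiv G1 p - h50_ind TA) (by rw [hd1]; linarith)
  have hr2 := hc (h50_fdiv G2 p - h50_ind TB) (by rw [hd2]; linarith)
  have hle' : (finrank k V : ℤ) ≤
      (finrank k (riemannRochSpace (h50_fdiv G1 p - h50_ind TA)) : ℤ) +
        (finrank k (riemannRochSpace (h50_fdiv G2 p - h50_ind TB)) : ℤ) := by
    exact_mod_cast hle
  rw [hr1, hr2, hd1, hd2] at hle'
  linarith

end divisor

end Fermat.Agent.S40
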