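import Mathlib
import Fermat.Agent.S18.RR_Large
import Fermat.Agent.S40.h50_TwistArith
import Fermat.Agent.S40.h50_TwistRank
import Fermat.Agent.S40.h50_UBound

/-!
# S40 / (TR) by lattice count, row W6 (W-UB), part (COUNT) (helper31)

Purely on the residue curve `Fb / k` (S18 Riemann-Roch).  `η₁, η₂` are nonzero functions
(the reductions of `u⁻¹` on the two components), `Q1 ν`, `Q2 ν` the two points of the node `ν`,
`Qinf` the cusp.  `h31_TwistProp … n del φ` is the conclusion of `h31_twist_incl` for the pair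
`φ = (φ₁, φ₂)`.

`h31_twist_count`: if for every twist `del < p` a `k`-subspace `W del` of pairs satisfies
`h31_TwistProp` and has dimension at least `2n + 2 - 2g - #Z` (`n` large), then

* (i) `p ∣ ord_Q η₁` at every non-node `Q` of the first component (cusp included), and the same
  for `η₂` on the second component;
* (ii) `p ∣ ord_(Q1 ν) η₁ + ord_(Q2 ν) η₂` at every node;
* (iii) `W del` is as large as allowed: every `φ₂` with the bounds is a second component, every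
  `φ₁` with the strict bounds gives `(φ₁, 0) ∈ W del`;
* (iv), (v) existence of elements attaining the bounds (the "tube units" of the jump step).

Proof: second projection `W del → L(D₂)`, kernel inside `L(D₁) × 0` (helper50's
`h50_twist_rank`), degrees by `h50_mul_degree_fdiv`, sum over `del` by `h50_twist_arith`.
-/

set_option autoImplicit false

noncomputable section

open AlgebraicCurve Module

namespace Fermat.Agent.S40

open Fermat.Agent.S18

open scoped Classical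

variable {k Fb : Type*} [Field k] [Field Fb] [Algebra k Fb]

/-- The conclusion of `h31_twist_incl` for a pair `φ = (φ₁, φ₂)`. -/
def h31_TwistProp (Qinf : Place k Fb) {Z : Type*} (Q1 Q2 : Z → Place k Fb) (p : ℕ)
    (η₁ η₂ : Fb) (n del : ℕ) (φ : Fb × Fb) : Prop :=
  (φ.1 ≠ 0 → ∀ Q : Place k Fb,
    -(((p * n) • Finsupp.single Qinf (1 : ℤ) : Divisor k Fb) Q) ≤ p * Q.ord φ.1 + Q.ord η₁) ∧
  (φ.1 ≠ 0 → ∀ ν, (del : ℤ) ≤ p * (Q1 ν).ord φ.1 + (Q1 ν).ord η₁) ∧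
  (φ.2 ≠ 0 → ∀ z : Place k Fb, (∀ ν, Q2 ν ≠ z) →
    -(((p * n) • Finsupp.single Qinf (1 : ℤ) : Divisor k Fb) z) ≤ p * z.ord φ.2 + z.ord η₂) ∧
  (φ.2 ≠ 0 → ∀ ν, -(del : ℤ) ≤ p * (Q2 ν).ord φ.2 + (Q2 ν).ord η₂) ∧
  (∀ ν, (φ.1 ≠ 0 ∧ p * (Q1 ν).ord φ.1 + (Q1 ν).ord η₁ = del) ↔
    (φ.2 ≠ 0 ∧ p * (Q2 ν).ord φ.2 + (Q2 ν).ord η₂ = -(del : ℤ)))

/-- The `p`-scaled twisted divisor: `m Qinf + E + d N`. -/
def h31_G (Qinf : Place k Fb) (N : Finset (Place k Fb)) (E : Divisor k Fb) (m : ℕ) (d : ℤ) :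
    Divisor k Fb :=
  m • Finsupp.single Qinf (1 : ℤ) + E + d • h50_ind N

theorem h31_G_apply_mem (Qinf : Place k Fb) (N : Finset (Place k Fb)) (E : Divisor k Fb)
    (m : ℕ) (d : ℤ) {z : Place k Fb} (hz : z ∈ N) (hzi : z ≠ Qinf) :
    h31_G Qinf N E m d z = E z + d := by
  unfold h31_G
  rw [Finsupp.add_apply, Finsupp.add_apply, Finsupp.smul_apply, Finsupp.smul_apply,
    h50_ind_apply_mem hz, Finsupp.single_apply, if_neg (Ne.symm hzi)]
  simp

theorem h31_G_apply_not_mem (Qinf : Place k Fb) (N : Finset (Place k Fb)) (E : Divisor k Fb)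
    (m : ℕ) (d : ℤ) {z : Place k Fb} (hz : z ∉ N) :
    h31_G Qinf N E m d z = (m • Finsupp.single Qinf (1 : ℤ) : Divisor k Fb) z + E z := by
  unfold h31_G
  rw [Finsupp.add_apply, Finsupp.add_apply, Finsupp.smul_apply (b := d),
    h50_ind_apply_not_mem hz]
  simp

theorem h31_G_support (Qinf : Place k Fb) (N : Finset (Place k Fb)) (E : Divisor k Fb)
    (m : ℕ) (d : ℤ) :
    (h31_G Qinf N E m d).support ⊆ insert Qinf E.support ∪ N := by
  classical
  intro z hz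
  by_contra hcon
  rw [Finset.mem_union, Finset.mem_insert, not_or, not_or] at hcon
  obtain ⟨⟨hzi, hzE⟩, hzN⟩ := hcon
  rw [Finsupp.mem_support_iff, h31_G_apply_not_mem Qinf N E m d hzN, Finsupp.smul_apply,
    Finsupp.single_apply, if_neg (Ne.symm hzi)] at hz
  rw [Finsupp.mem_support_iff, not_not] at hzE
  apply hz
  rw [hzE]
  simp

theorem h31_degree_G (hdeg : ∀ P : Place k Fb, P.deg = 1) (Qinf : Place k Fb)
    (N : Finset (Place k Fb)) (E : Divisor k Fb) (m : ℕ) (d : ℤ) :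
    Divisor.degree (h31_G Qinf N E m d) = m + Divisor.degree E + d * N.card := by
  unfold h31_G
  rw [map_add, map_add, map_nsmul, map_zsmul, Divisor.degree_single, hdeg Qinf,
    h50_degree_ind hdeg]
  simp

/-- the degree of the floor of the twisted divisor, `p`-scaled -/
theorem h31_mul_degree_fdiv_G (hdeg : ∀ P : Place k Fb, P.deg = 1) (Qinf : Place k Fb)
    {Z : Type*} [Fintype Z] (Q : Z → Place k Fb) (hQ : ∀ ν, Q ν ≠ Qinf)
    (hinj : Function.Injective Q) (E : Divisor k Fb) (p n : ℕ) (d : ℤ) :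
    (p : ℤ) * Divisor.degree (h50_fdiv (h31_G Qinf (Finset.univ.image Q) E (p * n) d) p) =
      p * n + Divisor.degree E + d * Fintype.card Z
        - (∑ z ∈ insert Qinf E.support \ Finset.univ.image Q, E z % (p : ℤ)
          + ∑ ν, (E (Q ν) + d) % (p : ℤ)) := by
  have hcard : (Finset.univ.image Q).card = Fintype.card Z := by
    rw [Finset.card_image_of_injective _ hinj, Finset.card_univ]
  rw [h50_mul_degree_fdiv hdeg _ p _ (h31_G_support Qinf (Finset.univ.image Q) E (p * n) d),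
    h31_degree_G hdeg, hcard, ← Finset.sdiff_union_self_eq_union,
    Finset.sum_union Finset.sdiff_disjoint]
  have h1 : ∑ z ∈ insert Qinf E.support \ Finset.univ.image Q,
      h31_G Qinf (Finset.univ.image Q) E (p * n) d z % (p : ℤ) =
      ∑ z ∈ insert Qinf E.support \ Finset.univ.image Q, E z % (p : ℤ) := by
    refine Finset.sum_congr rfl fun z hz => ?_
    rw [h31_G_apply_not_mem Qinf _ E (p * n) d (Finset.mem_sdiff.mp hz).2, Finsupp.smul_apply]
    have : ((p * n : ℕ) • (Finsupp.single Qinf (1 : ℤ) : Divisor k Fb) z : ℤ) =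
        (p : ℤ) * (n * (Finsupp.single Qinf (1 : ℤ) : Divisor k Fb) z) := by
      rw [nsmul_eq_mul]
      push_cast
      ring
    rw [this, add_comm, Int.add_mul_emod_self_left]
  have h2 : ∑ z ∈ Finset.univ.image Q,
      h31_G Qinf (Finset.univ.image Q) E (p * n) d z % (p : ℤ) =
      ∑ ν, (E (Q ν) + d) % (p : ℤ) := by
    rw [Finset.sum_image (fun a _ b _ h => hinj h)]
    refine Finset.sum_congr rfl fun ν _ => ?_
    rw [h31_G_apply_mem Qinf _ E (p * n) d (Finset.mem_image_of_mem Q (Finset.mem_univ ν))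
      (hQ ν)]
  rw [h1, h2]
  push_cast
  ring

/-- `p`-scaled bounds for the twisted divisor from the bounds at the nodes and off the nodes -/
theorem h31_G_bound (Qinf : Place k Fb) {Z : Type*} [Fintype Z] (Q : Z → Place k Fb)
    (hQ : ∀ ν, Q ν ≠ Qinf) (E : Divisor k Fb) (m : ℕ) (d : ℤ) (o : Place k Fb → ℤ)
    (hoff : ∀ z : Place k Fb, (∀ ν, Q ν ≠ z) →
      -((m • Finsupp.single Qinf (1 : ℤ) : Divisor k Fb) z) ≤ o z + E z)
    (hnode : ∀ ν, -d ≤ o (Q ν) + E (Q ν)) (z : Place k Fb) :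
    0 ≤ o z + h31_G Qinf (Finset.univ.image Q) E m d z := by
  by_cases hz : z ∈ Finset.univ.image Q
  · obtain ⟨ν, -, rfl⟩ := Finset.mem_image.mp hz
    rw [h31_G_apply_mem Qinf _ E m d hz (hQ ν)]
    have := hnode ν
    omega
  · rw [h31_G_apply_not_mem Qinf _ E m d hz]
    have := hoff z (fun ν h => hz (h ▸ Finset.mem_image_of_mem Q (Finset.mem_univ ν)))
    omega

section Divisors

variable {Z : Type*} [Fintype Z]

/-- nodes of the first component where the bound can be attained at the twist `del` -/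
def h31_TA (Q1 : Z → Place k Fb) (E1 : Divisor k Fb) (p del : ℕ) : Finset (Place k Fb) :=
  (Finset.univ.filter fun ν => (p : ℤ) ∣ E1 (Q1 ν) - del).image Q1

/-- nodes of the second component where the bound can be attained but not on the first -/
def h31_TB (Q1 Q2 : Z → Place k Fb) (E1 E2 : Divisor k Fb) (p del : ℕ) :
    Finset (Place k Fb) :=
  (Finset.univ.filter fun ν => (p : ℤ) ∣ E2 (Q2 ν) + del ∧ ¬ (p : ℤ) ∣ E1 (Q1 ν) - del).image Q2

/-- the divisor bounding the first components of the snd-kernel -/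
def h31_D1 (Qinf : Place k Fb) (Q1 : Z → Place k Fb) (E1 : Divisor k Fb) (p n del : ℕ) :
    Divisor k Fb :=
  h50_fdiv (h31_G Qinf (Finset.univ.image Q1) E1 (p * n) (-(del : ℤ))) p -
    h50_ind (h31_TA Q1 E1 p del)

/-- the divisor bounding the second components -/
def h31_D2 (Qinf : Place k Fb) (Q1 Q2 : Z → Place k Fb) (E1 E2 : Divisor k Fb) (p n del : ℕ) :
    Divisor k Fb :=
  h50_fdiv (h31_G Qinf (Finset.univ.image Q2) E2 (p * n) (del : ℤ)) p -
    h50_ind (h31_TB Q1 Q2 E1 E2 p del)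

theorem h31_card_TA (Q1 : Z → Place k Fb) (hinj1 : Function.Injective Q1) (E1 : Divisor k Fb)
    (p del : ℕ) :
    ((p : ℤ) * (h31_TA Q1 E1 p del).card : ℤ) =
      ∑ ν, (if (p : ℤ) ∣ E1 (Q1 ν) - del then (p : ℤ) else 0) := by
  unfold h31_TA
  rw [Finset.card_image_of_injective _ hinj1, Finset.card_filter]
  push_cast
  rw [Finset.mul_sum]
  refine Finset.sum_congr rfl fun ν _ => ?_
  split_ifs <;> simp

theorem h31_card_TB (Q1 Q2 : Z → Place k Fb) (hinj2 : Function.Injective Q2)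
    (E1 E2 : Divisor k Fb) (p del : ℕ) :
    ((p : ℤ) * (h31_TB Q1 Q2 E1 E2 p del).card : ℤ) =
      ∑ ν, (if (p : ℤ) ∣ E2 (Q2 ν) + del ∧ ¬ (p : ℤ) ∣ E1 (Q1 ν) - del then (p : ℤ) else 0) := by
  unfold h31_TB
  rw [Finset.card_image_of_injective _ hinj2, Finset.card_filter]
  push_cast
  rw [Finset.mul_sum]
  refine Finset.sum_congr rfl fun ν _ => ?_
  split_ifs <;> simp

theorem h31_mul_degree_D1 (hdeg : ∀ P : Place k Fb, P.deg = 1) (Qinf : Place k Fb)
    (Q1 : Z → Place k Fb) (hQ1 : ∀ ν, Q1 ν ≠ Qinf) (hinj1 : Function.Injective Q1)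
    (E1 : Divisor k Fb) (p n del : ℕ) :
    (p : ℤ) * Divisor.degree (h31_D1 Qinf Q1 E1 p n del) =
      p * n + Divisor.degree E1 - del * Fintype.card Z
        - (∑ z ∈ insert Qinf E1.support \ Finset.univ.image Q1, E1 z % (p : ℤ)
          + ∑ ν, ((E1 (Q1 ν) - del) % (p : ℤ)
            + (if (p : ℤ) ∣ E1 (Q1 ν) - del then (p : ℤ) else 0))) := by
  unfold h31_D1
  rw [map_sub, mul_sub, h31_mul_degree_fdiv_G hdeg Qinf Q1 hQ1 hinj1, h50_degree_ind hdeg,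
    h31_card_TA Q1 hinj1, Finset.sum_add_distrib]
  have : ∀ ν, (E1 (Q1 ν) + -(del : ℤ)) % (p : ℤ) = (E1 (Q1 ν) - del) % (p : ℤ) := fun ν => by
    rw [sub_eq_add_neg]
  simp only [this]
  ring

theorem h31_mul_degree_D2 (hdeg : ∀ P : Place k Fb, P.deg = 1) (Qinf : Place k Fb)
    (Q1 Q2 : Z → Place k Fb) (hQ2 : ∀ ν, Q2 ν ≠ Qinf) (hinj2 : Function.Injective Q2)
    (E1 E2 : Divisor k Fb) (p n del : ℕ) :
    (p : ℤ) * Divisor.degree (h31_D2 Qinf Q1 Q2 E1 E2 p n del) =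
      p * n + Divisor.degree E2 + del * Fintype.card Z
        - (∑ z ∈ insert Qinf E2.support \ Finset.univ.image Q2, E2 z % (p : ℤ)
          + ∑ ν, ((E2 (Q2 ν) + del) % (p : ℤ)
            + (if (p : ℤ) ∣ E2 (Q2 ν) + del ∧ ¬ (p : ℤ) ∣ E1 (Q1 ν) - del then (p : ℤ)
              else 0))) := by
  unfold h31_D2
  rw [map_sub, mul_sub, h31_mul_degree_fdiv_G hdeg Qinf Q2 hQ2 hinj2, h50_degree_ind hdeg,
    h31_card_TB Q1 Q2 hinj2, Finset.sum_add_distrib]
  ring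

end Divisors

section Membership

variable {Z : Type*} [Fintype Z]

/-- second components lie in `L(D₂)` -/
theorem h31_twist_mem2 (Qinf : Place k Fb) (Q1 Q2 : Z → Place k Fb) (hQ2 : ∀ ν, Q2 ν ≠ Qinf)
    (p : ℕ) (hp : 0 < p) (η₁ η₂ : Fb) (E1 E2 : Divisor k Fb)
    (hE1 : ∀ v : Place k Fb, E1 v = v.ord η₁) (hE2 : ∀ v : Place k Fb, E2 v = v.ord η₂)
    (n del : ℕ) (φ : Fb × Fb) (h : h31_TwistProp Qinf Q1 Q2 p η₁ η₂ n del φ) :
    φ.2 ∈ riemannRochSpace (h31_D2 Qinf Q1 Q2 E1 E2 p n del) := by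
  obtain ⟨-, -, hB2, hB2', hNC⟩ := h
  unfold h31_D2
  refine h50_mem_rr hp _ _ φ.2 (fun z => ?_) (fun z hz => ?_)
  · by_cases h0 : φ.2 = 0
    · exact Or.inl h0
    right
    exact h31_G_bound Qinf Q2 hQ2 E2 (p * n) del (fun z => p * z.ord φ.2)
      (fun z hz => by rw [hE2]; exact hB2 h0 z hz)
      (fun ν => by rw [hE2]; exact hB2' h0 ν) z
  · by_cases h0 : φ.2 = 0
    · exact Or.inl h0
    right
    obtain ⟨ν, hν, rfl⟩ := Finset.mem_image.mp hz
    obtain ⟨hd2, hd1⟩ := (Finset.mem_filter.mp hν).2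
    rw [h31_G_apply_mem Qinf _ E2 (p * n) del
      (Finset.mem_image_of_mem Q2 (Finset.mem_univ ν)) (hQ2 ν)]
    have hge := hB2' h0 ν
    rw [← hE2] at hge
    have hne : (p : ℤ) * (Q2 ν).ord φ.2 + E2 (Q2 ν) ≠ -(del : ℤ) := by
      intro heq
      have h1 := ((hNC ν).mpr ⟨h0, by rw [← hE2]; exact heq⟩).2
      apply hd1
      rw [hE1]
      exact ⟨-(Q1 ν).ord φ.1, by linarith⟩
    have hdvd : (p : ℤ) ∣ (p : ℤ) * (Q2 ν).ord φ.2 + (E2 (Q2 ν) + del) :=
      Dvd.dvd.add (dvd_mul_right _ _) hd2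
    have hpos : 0 < (p : ℤ) * (Q2 ν).ord φ.2 + (E2 (Q2 ν) + del) := by omega
    exact Int.le_of_dvd hpos hdvd

/-- first components of the snd-kernel lie in `L(D₁)` -/
theorem h31_twist_mem1 (Qinf : Place k Fb) (Q1 Q2 : Z → Place k Fb) (hQ1 : ∀ ν, Q1 ν ≠ Qinf)
    (p : ℕ) (hp : 0 < p) (η₁ η₂ : Fb) (E1 : Divisor k Fb)
    (hE1 : ∀ v : Place k Fb, E1 v = v.ord η₁)
    (n del : ℕ) (φ : Fb × Fb) (h : h31_TwistProp Qinf Q1 Q2 p η₁ η₂ n del φ) (h2 : φ.2 = 0) :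
    φ.1 ∈ riemannRochSpace (h31_D1 Qinf Q1 E1 p n del) := by
  obtain ⟨hB1, hB1', -, -, hNC⟩ := h
  unfold h31_D1
  refine h50_mem_rr hp _ _ φ.1 (fun z => ?_) (fun z hz => ?_)
  · by_cases h0 : φ.1 = 0
    · exact Or.inl h0
    right
    exact h31_G_bound Qinf Q1 hQ1 E1 (p * n) (-(del : ℤ)) (fun z => p * z.ord φ.1)
      (fun z _ => by rw [hE1]; exact hB1 h0 z)
      (fun ν => by rw [hE1, neg_neg]; exact hB1' h0 ν) z
  · by_cases h0 : φ.1 = 0
    · exact Or.inl h0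
    right
    obtain ⟨ν, hν, rfl⟩ := Finset.mem_image.mp hz
    have hd1 := (Finset.mem_filter.mp hν).2
    rw [h31_G_apply_mem Qinf _ E1 (p * n) (-(del : ℤ))
      (Finset.mem_image_of_mem Q1 (Finset.mem_univ ν)) (hQ1 ν)]
    have hge := hB1' h0 ν
    rw [← hE1] at hge
    have hne : (p : ℤ) * (Q1 ν).ord φ.1 + E1 (Q1 ν) ≠ (del : ℤ) := by
      intro heq
      exact ((hNC ν).mp ⟨h0, by rw [← hE1]; exact heq⟩).1 h2
    have hdvd : (p : ℤ) ∣ (p : ℤ) * (Q1 ν).ord φ.1 + (E1 (Q1 ν) - del) :=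
      Dvd.dvd.add (dvd_mul_right _ _) hd1
    have hpos : 0 < (p : ℤ) * (Q1 ν).ord φ.1 + (E1 (Q1 ν) - del) := by omega
    have := Int.le_of_dvd hpos hdvd
    linarith

end Membership

section Count

variable [IsAlgClosed k] {Z : Type*} [Fintype Z]

/-- the local term of the first component is between `0` and `p` -/
theorem h31_local1_le (p : ℕ) (hp : 0 < p) (x : ℤ) (del : ℕ) :
    0 ≤ (x - del) % (p : ℤ) + (if (p : ℤ) ∣ x - del then (p : ℤ) else 0) ∧
      (x - del) % (p : ℤ) + (if (p : ℤ) ∣ x - del then (p : ℤ) else 0) ≤ p := by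
  have hp' : (0 : ℤ) < (p : ℤ) := by exact_mod_cast hp
  have h1 := Int.emod_nonneg (x - del) hp'.ne'
  have h2 := Int.emod_lt_of_pos (x - del) hp'
  split_ifs with h
  · rw [Int.emod_eq_zero_of_dvd h]
    omega
  · omega

/-- the local term of the second component is between `0` and `p` -/
theorem h31_local2_le (p : ℕ) (hp : 0 < p) (x y : ℤ) (del : ℕ) :
    0 ≤ (y + del) % (p : ℤ) +
        (if (p : ℤ) ∣ y + del ∧ ¬ (p : ℤ) ∣ x - del then (p : ℤ) else 0) ∧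
      (y + del) % (p : ℤ) +
        (if (p : ℤ) ∣ y + del ∧ ¬ (p : ℤ) ∣ x - del then (p : ℤ) else 0) ≤ p := by
  have hp' : (0 : ℤ) < (p : ℤ) := by exact_mod_cast hp
  have h1 := Int.emod_nonneg (y + del) hp'.ne'
  have h2 := Int.emod_lt_of_pos (y + del) hp'
  split_ifs with h
  · rw [Int.emod_eq_zero_of_dvd h.1]
    omega
  · omega

/-- **(COUNT)**: see the file header. -/
theorem h31_twist_count {xb : Fb} (hxb : h75_IsChart k xb)
    (Qinf : Place k Fb) (Q1 Q2 : Z → Place k Fb)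
    (hQ1 : ∀ ν, Q1 ν ≠ Qinf) (hQ2 : ∀ ν, Q2 ν ≠ Qinf)
    (hinj1 : Function.Injective Q1) (hinj2 : Function.Injective Q2)
    (p : ℕ) (hp : 0 < p) (η₁ η₂ : Fb) (hη₁ : η₁ ≠ 0) (hη₂ : η₂ ≠ 0) :
    ∃ n1 : ℕ, ∀ n, n1 ≤ n → ∀ W : ℕ → Submodule k (Fb × Fb),
      (∀ del, del < p → ∀ φ ∈ W del, h31_TwistProp Qinf Q1 Q2 p η₁ η₂ n del φ) →
      (∀ del, del < p →
        (2 * n + 2 - 2 * (h75_genus k xb : ℤ) - Fintype.card Z : ℤ) ≤ finrank k (W del)) →
      (∀ Q : Place k Fb, (∀ ν, Q1 ν ≠ Q) → (p : ℤ) ∣ Q.ord η₁) ∧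
      (∀ Q : Place k Fb, (∀ ν, Q2 ν ≠ Q) → (p : ℤ) ∣ Q.ord η₂) ∧
      (∀ ν, (p : ℤ) ∣ (Q1 ν).ord η₁ + (Q2 ν).ord η₂) ∧
      (∀ del, del < p → ∀ φ2 : Fb,
        (φ2 ≠ 0 → (∀ z : Place k Fb, (∀ ν, Q2 ν ≠ z) →
            -(((p * n) • Finsupp.single Qinf (1 : ℤ) : Divisor k Fb) z) ≤
              p * z.ord φ2 + z.ord η₂) ∧
          ∀ ν, -(del : ℤ) ≤ p * (Q2 ν).ord φ2 + (Q2 ν).ord η₂) →
        ∃ φ1 : Fb, (φ1, φ2) ∈ W del) ∧
      (∀ del, del < p → ∀ φ1 : Fb,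
        (φ1 ≠ 0 → (∀ Q : Place k Fb,
            -(((p * n) • Finsupp.single Qinf (1 : ℤ) : Divisor k Fb) Q) ≤
              p * Q.ord φ1 + Q.ord η₁) ∧
          ∀ ν, (del : ℤ) < p * (Q1 ν).ord φ1 + (Q1 ν).ord η₁) →
        (φ1, (0 : Fb)) ∈ W del) ∧
      (∀ ν, ∃ del, del < p ∧ ∃ φ ∈ W del,
        (φ.1 ≠ 0 ∧ p * (Q1 ν).ord φ.1 + (Q1 ν).ord η₁ = del) ∧
        (φ.2 ≠ 0 ∧ p * (Q2 ν).ord φ.2 + (Q2 ν).ord η₂ = -(del : ℤ))) ∧
      (∀ Q : Place k Fb, (∀ ν, Q1 ν ≠ Q) → ∃ φ ∈ W 0, φ.1 ≠ 0 ∧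
        p * Q.ord φ.1 + Q.ord η₁ =
          -(((p * n) • Finsupp.single Qinf (1 : ℤ) : Divisor k Fb) Q)) ∧
      (∀ z : Place k Fb, (∀ ν, Q2 ν ≠ z) → ∃ φ ∈ W 0, φ.2 ≠ 0 ∧
        p * z.ord φ.2 + z.ord η₂ =
          -(((p * n) • Finsupp.single Qinf (1 : ℤ) : Divisor k Fb) z)) := by
  obtain ⟨E1, hE1⟩ := h7_exists_div hxb η₁ hη₁
  obtain ⟨E2, hE2⟩ := h7_exists_div hxb η₂ hη₂
  have hdE1 : Divisor.degree E1 = 0 := h7_degree_div hxb hη₁ E1 hE1
  have hdE2 : Divisor.degree E2 = 0 := h7_degree_div hxb hη₂ E2 hE2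
  have hdeg : ∀ P : Place k Fb, P.deg = 1 := fun P => h75_deg_eq_one hxb P
  obtain ⟨c, hc⟩ := h50_twist_rank hxb
  obtain ⟨c', hc'⟩ := h50_rr_exact hxb
  have hp' : (0 : ℤ) < (p : ℤ) := by exact_mod_cast hp
  generalize hS1 : (∑ z ∈ insert Qinf E1.support \ Finset.univ.image Q1, E1 z % (p : ℤ)) = S1
  generalize hS2 : (∑ z ∈ insert Qinf E2.support \ Finset.univ.image Q2, E2 z % (p : ℤ)) = S2
  have hS1nn : 0 ≤ S1 := by
    rw [← hS1]
    exact Finset.sum_nonneg fun z _ => Int.emod_nonneg _ hp'.ne'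
  have hS2nn : 0 ≤ S2 := by
    rw [← hS2]
    exact Finset.sum_nonneg fun z _ => Int.emod_nonneg _ hp'.ne'
  generalize hcZ : (Fintype.card Z : ℤ) = cZ
  have hcZnn : 0 ≤ cZ := by
    rw [← hcZ]
    exact Int.natCast_nonneg _
  -- the sums of the local terms
  have hT1 : ∀ del : ℕ, 0 ≤ ∑ ν, ((E1 (Q1 ν) - del) % (p : ℤ)
      + (if (p : ℤ) ∣ E1 (Q1 ν) - del then (p : ℤ) else 0)) ∧
      ∑ ν, ((E1 (Q1 ν) - del) % (p : ℤ)
        + (if (p : ℤ) ∣ E1 (Q1 ν) - del then (p : ℤ) else 0)) ≤ p * cZ := by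
    intro del
    refine ⟨Finset.sum_nonneg fun ν _ => (h31_local1_le p hp _ del).1, ?_⟩
    have := Finset.sum_le_sum (s := (Finset.univ : Finset Z))
      fun ν _ => (h31_local1_le p hp (E1 (Q1 ν)) del).2
    rw [Finset.sum_const, Finset.card_univ, nsmul_eq_mul, hcZ] at this
    linarith
  have hT2 : ∀ del : ℕ, 0 ≤ ∑ ν, ((E2 (Q2 ν) + del) % (p : ℤ)
      + (if (p : ℤ) ∣ E2 (Q2 ν) + del ∧ ¬ (p : ℤ) ∣ E1 (Q1 ν) - del then (p : ℤ) else 0)) ∧
      ∑ ν, ((E2 (Q2 ν) + del) % (p : ℤ)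
        + (if (p : ℤ) ∣ E2 (Q2 ν) + del ∧ ¬ (p : ℤ) ∣ E1 (Q1 ν) - del then (p : ℤ) else 0))
        ≤ p * cZ := by
    intro del
    refine ⟨Finset.sum_nonneg fun ν _ => (h31_local2_le p hp _ _ del).1, ?_⟩
    have := Finset.sum_le_sum (s := (Finset.univ : Finset Z))
      fun ν _ => (h31_local2_le p hp (E1 (Q1 ν)) (E2 (Q2 ν)) del).2
    rw [Finset.sum_const, Finset.card_univ, nsmul_eq_mul, hcZ] at this
    linarith
  refine ⟨(max c c').toNat + 3 * Fintype.card Z + S1.toNat + S2.toNat, fun n hn W hW hr => ?_⟩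
  have hnZ : max c c' + 3 * cZ + S1 + S2 ≤ (n : ℤ) := by
    have h1 : (((max c c').toNat + 3 * Fintype.card Z + S1.toNat + S2.toNat : ℕ) : ℤ) ≤ n := by
      exact_mod_cast hn
    push_cast at h1
    have h2 := Int.self_le_toNat (max c c')
    have h3 := Int.self_le_toNat S1
    have h4 := Int.self_le_toNat S2
    rw [hcZ] at h1
    linarith
  -- degrees
  have hd1 : ∀ del : ℕ, (p : ℤ) * Divisor.degree (h31_D1 Qinf Q1 E1 p n del) =
      p * n - del * cZ - (S1 + ∑ ν, ((E1 (Q1 ν) - del) % (p : ℤ)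
        + (if (p : ℤ) ∣ E1 (Q1 ν) - del then (p : ℤ) else 0))) := by
    intro del
    rw [h31_mul_degree_D1 hdeg Qinf Q1 hQ1 hinj1, hdE1, hS1, hcZ, add_zero]
  have hd2 : ∀ del : ℕ, (p : ℤ) * Divisor.degree (h31_D2 Qinf Q1 Q2 E1 E2 p n del) =
      p * n + del * cZ - (S2 + ∑ ν, ((E2 (Q2 ν) + del) % (p : ℤ)
        + (if (p : ℤ) ∣ E2 (Q2 ν) + del ∧ ¬ (p : ℤ) ∣ E1 (Q1 ν) - del then (p : ℤ) else 0))) := by
    intro del
    rw [h31_mul_degree_D2 hdeg Qinf Q1 Q2 hQ2 hinj2, hdE2, hS2, hcZ, add_zero]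
  have hlow1 : ∀ del : ℕ, del < p → max c c' ≤ Divisor.degree (h31_D1 Qinf Q1 E1 p n del) := by
    intro del hdel
    have hdel' : (del : ℤ) ≤ p := by exact_mod_cast hdel.le
    have h1 := hd1 del
    have h2 := (hT1 del).2
    have h3 : (del : ℤ) * cZ ≤ p * cZ := mul_le_mul_of_nonneg_right hdel' hcZnn
    have h4 : S1 ≤ p * S1 := by nlinarith
    have h5 : (p : ℤ) * (max c c') ≤ p * Divisor.degree (h31_D1 Qinf Q1 E1 p n del) := by
      have h6 : (p : ℤ) * (max c c') ≤ p * (n - 2 * cZ - S1) :=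
        mul_le_mul_of_nonneg_left (by linarith) hp'.le
      nlinarith
    exact le_of_mul_le_mul_left h5 hp'
  have hlow2 : ∀ del : ℕ, del < p →
      max c c' ≤ Divisor.degree (h31_D2 Qinf Q1 Q2 E1 E2 p n del) := by
    intro del hdel
    have h1 := hd2 del
    have h2 := (hT2 del).2
    have h3 : (0 : ℤ) ≤ (del : ℤ) * cZ := mul_nonneg (Int.natCast_nonneg _) hcZnn
    have h4 : S2 ≤ p * S2 := by nlinarith
    have h5 : (p : ℤ) * (max c c') ≤ p * Divisor.degree (h31_D2 Qinf Q1 Q2 E1 E2 p n del) := by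
      have h6 : (p : ℤ) * (max c c') ≤ p * (n - cZ - S2) :=
        mul_le_mul_of_nonneg_left (by linarith) hp'.le
      nlinarith
    exact le_of_mul_le_mul_left h5 hp'
  -- the rank statement for every twist
  have hrank : ∀ del : ℕ, del < p →
      (finrank k (W del) : ℤ) ≤ Divisor.degree (h31_D1 Qinf Q1 E1 p n del) +
          Divisor.degree (h31_D2 Qinf Q1 Q2 E1 E2 p n del) + 2 - 2 * (h75_genus k xb : ℤ) ∧
        ((finrank k (W del) : ℤ) = Divisor.degree (h31_D1 Qinf Q1 E1 p n del) +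
            Divisor.degree (h31_D2 Qinf Q1 Q2 E1 E2 p n del) + 2 - 2 * (h75_genus k xb : ℤ) →
          (∀ φ2 ∈ riemannRochSpace (h31_D2 Qinf Q1 Q2 E1 E2 p n del),
              ∃ φ1 : Fb, (φ1, φ2) ∈ W del) ∧
            (∀ φ1 ∈ riemannRochSpace (h31_D1 Qinf Q1 E1 p n del), (φ1, (0 : Fb)) ∈ W del)) := by
    intro del hdel
    exact hc _ _ (le_trans (le_max_left c c') (hlow1 del hdel))
      (le_trans (le_max_left c c') (hlow2 del hdel)) (W del)
      (fun a ha => h31_twist_mem2 Qinf Q1 Q2 hQ2 p hp η₁ η₂ E1 E2 hE1 hE2 n del a (hW del hdel a ha))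
      (fun a ha h0 => h31_twist_mem1 Qinf Q1 Q2 hQ1 p hp η₁ η₂ E1 hE1 n del a
        (hW del hdel a ha) h0)
  -- the hypothesis of the arithmetic
  have hsplit : ∀ del : ℕ, ∑ ν, ((E1 (Q1 ν) - del) % (p : ℤ) + (E2 (Q2 ν) + del) % (p : ℤ)
        + (if (p : ℤ) ∣ E1 (Q1 ν) - del then (p : ℤ) else 0)
        + (if (p : ℤ) ∣ E2 (Q2 ν) + del ∧ ¬ (p : ℤ) ∣ E1 (Q1 ν) - del then (p : ℤ) else 0)) =
      ∑ ν, ((E1 (Q1 ν) - del) % (p : ℤ)
        + (if (p : ℤ) ∣ E1 (Q1 ν) - del then (p : ℤ) else 0)) +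
      ∑ ν, ((E2 (Q2 ν) + del) % (p : ℤ)
        + (if (p : ℤ) ∣ E2 (Q2 ν) + del ∧ ¬ (p : ℤ) ∣ E1 (Q1 ν) - del then (p : ℤ) else 0)) := by
    intro del
    rw [← Finset.sum_add_distrib]
    exact Finset.sum_congr rfl fun ν _ => by ring
  have harith := h50_twist_arith p hp (fun ν => E1 (Q1 ν)) (fun ν => E2 (Q2 ν)) (S1 + S2)
    (by linarith) (by
      intro del hdel
      rw [hsplit del, hcZ]
      have h1 := (hrank del hdel).1
      have h2 := hr del hdel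
      have h3 : (p : ℤ) * (2 * n - cZ) ≤ p * (Divisor.degree (h31_D1 Qinf Q1 E1 p n del) +
          Divisor.degree (h31_D2 Qinf Q1 Q2 E1 E2 p n del)) :=
        mul_le_mul_of_nonneg_left (by linarith) hp'.le
      rw [mul_add, hd1 del, hd2 del] at h3
      linarith)
  obtain ⟨hS0, hxy, heq⟩ := harith
  have hS10 : S1 = 0 := by linarith
  have hS20 : S2 = 0 := by linarith
  -- equality of ranks, hence surjectivity, for every twist
  have hsurj : ∀ del : ℕ, del < p →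
      (∀ φ2 ∈ riemannRochSpace (h31_D2 Qinf Q1 Q2 E1 E2 p n del),
          ∃ φ1 : Fb, (φ1, φ2) ∈ W del) ∧
        (∀ φ1 ∈ riemannRochSpace (h31_D1 Qinf Q1 E1 p n del), (φ1, (0 : Fb)) ∈ W del) := by
    intro del hdel
    apply (hrank del hdel).2
    have h1 := (hrank del hdel).1
    have h2 := hr del hdel
    have h3 := heq del hdel
    rw [hsplit del, hcZ] at h3
    have h4 : (p : ℤ) * (Divisor.degree (h31_D1 Qinf Q1 E1 p n del) +
        Divisor.degree (h31_D2 Qinf Q1 Q2 E1 E2 p n del)) = p * (2 * n - cZ) := by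
      rw [mul_add, hd1 del, hd2 del]
      linarith
    have h5 := mul_left_cancel₀ hp'.ne' h4
    linarith
  -- divisibility off the nodes
  have hoff1 : ∀ Q : Place k Fb, (∀ ν, Q1 ν ≠ Q) → (p : ℤ) ∣ E1 Q := by
    intro Q hQ
    by_cases hsupp : Q ∈ insert Qinf E1.support \ Finset.univ.image Q1
    · have h0 := (Finset.sum_eq_zero_iff_of_nonneg
        (fun z _ => Int.emod_nonneg _ hp'.ne')).mp (hS1.trans hS10) Q hsupp
      exact Int.dvd_of_emod_eq_zero h0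
    · have : E1 Q = 0 := by
        by_contra hne
        apply hsupp
        rw [Finset.mem_sdiff, Finset.mem_insert]
        refine ⟨Or.inr (Finsupp.mem_support_iff.mpr hne), fun hmem => ?_⟩
        obtain ⟨ν, -, hν⟩ := Finset.mem_image.mp hmem
        exact hQ ν hν
      rw [this]
      exact dvd_zero _
  have hoff2 : ∀ Q : Place k Fb, (∀ ν, Q2 ν ≠ Q) → (p : ℤ) ∣ E2 Q := by
    intro Q hQ
    by_cases hsupp : Q ∈ insert Qinf E2.support \ Finset.univ.image Q2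
    · have h0 := (Finset.sum_eq_zero_iff_of_nonneg
        (fun z _ => Int.emod_nonneg _ hp'.ne')).mp (hS2.trans hS20) Q hsupp
      exact Int.dvd_of_emod_eq_zero h0
    · have : E2 Q = 0 := by
        by_contra hne
        apply hsupp
        rw [Finset.mem_sdiff, Finset.mem_insert]
        refine ⟨Or.inr (Finsupp.mem_support_iff.mpr hne), fun hmem => ?_⟩
        obtain ⟨ν, -, hν⟩ := Finset.mem_image.mp hmem
        exact hQ ν hν
      rw [this]
      exact dvd_zero _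
  -- `TB` is empty
  have hTB : ∀ del : ℕ, h31_TB Q1 Q2 E1 E2 p del = ∅ := by
    intro del
    unfold h31_TB
    rw [Finset.image_eq_empty, Finset.filter_eq_empty_iff]
    rintro ν - ⟨h2, h1⟩
    apply h1
    have h3 := hxy ν
    have : E1 (Q1 ν) - del = (E1 (Q1 ν) + E2 (Q2 ν)) - (E2 (Q2 ν) + del) := by ring
    rw [this]
    exact dvd_sub h3 h2
  -- membership from the plain bounds
  have hmem2 : ∀ del : ℕ, ∀ φ2 : Fb,
      (φ2 ≠ 0 → (∀ z : Place k Fb, (∀ ν, Q2 ν ≠ z) →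
          -(((p * n) • Finsupp.single Qinf (1 : ℤ) : Divisor k Fb) z) ≤
            p * z.ord φ2 + z.ord η₂) ∧
        ∀ ν, -(del : ℤ) ≤ p * (Q2 ν).ord φ2 + (Q2 ν).ord η₂) →
      φ2 ∈ riemannRochSpace (h31_D2 Qinf Q1 Q2 E1 E2 p n del) := by
    intro del φ2 h
    unfold h31_D2
    refine h50_mem_rr hp _ _ φ2 (fun z => ?_) (fun z hz => ?_)
    · by_cases h0 : φ2 = 0
      · exact Or.inl h0
      right
      exact h31_G_bound Qinf Q2 hQ2 E2 (p * n) del (fun z => p * z.ord φ2)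
        (fun z hz => by rw [hE2]; exact (h h0).1 z hz)
        (fun ν => by rw [hE2]; exact (h h0).2 ν) z
    · rw [hTB del] at hz
      exact absurd hz (Finset.notMem_empty z)
  have hmem1 : ∀ del : ℕ, ∀ φ1 : Fb,
      (φ1 ≠ 0 → (∀ Q : Place k Fb,
          -(((p * n) • Finsupp.single Qinf (1 : ℤ) : Divisor k Fb) Q) ≤
            p * Q.ord φ1 + Q.ord η₁) ∧
        ∀ ν, (del : ℤ) < p * (Q1 ν).ord φ1 + (Q1 ν).ord η₁) →
      φ1 ∈ riemannRochSpace (h31_D1 Qinf Q1 E1 p n del) := by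
    intro del φ1 h
    unfold h31_D1
    refine h50_mem_rr hp _ _ φ1 (fun z => ?_) (fun z hz => ?_)
    · by_cases h0 : φ1 = 0
      · exact Or.inl h0
      right
      exact h31_G_bound Qinf Q1 hQ1 E1 (p * n) (-(del : ℤ)) (fun z => p * z.ord φ1)
        (fun z _ => by rw [hE1]; exact (h h0).1 z)
        (fun ν => by rw [hE1, neg_neg]; exact ((h h0).2 ν).le) z
    · by_cases h0 : φ1 = 0
      · exact Or.inl h0
      right
      obtain ⟨ν, hν, rfl⟩ := Finset.mem_image.mp hz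
      have hd1' := (Finset.mem_filter.mp hν).2
      rw [h31_G_apply_mem Qinf _ E1 (p * n) (-(del : ℤ))
        (Finset.mem_image_of_mem Q1 (Finset.mem_univ ν)) (hQ1 ν)]
      have hgt := (h h0).2 ν
      rw [← hE1] at hgt
      have hdvd : (p : ℤ) ∣ (p : ℤ) * (Q1 ν).ord φ1 + (E1 (Q1 ν) - del) :=
        Dvd.dvd.add (dvd_mul_right _ _) hd1'
      have hpos : 0 < (p : ℤ) * (Q1 ν).ord φ1 + (E1 (Q1 ν) - del) := by omega
      have := Int.le_of_dvd hpos hdvd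
      linarith
  refine ⟨fun Q hQ => by rw [← hE1]; exact hoff1 Q hQ, fun Q hQ => by rw [← hE2]; exact hoff2 Q hQ,
    fun ν => by rw [← hE1, ← hE2]; exact hxy ν,
    fun del hdel φ2 h => (hsurj del hdel).1 φ2 (hmem2 del φ2 h),
    fun del hdel φ1 h => (hsurj del hdel).2 φ1 (hmem1 del φ1 h), ?_, ?_, ?_⟩
  · -- tube units at the nodes
    intro ν
    have hmodnn := Int.emod_nonneg (E1 (Q1 ν)) hp'.ne'
    have hmodlt := Int.emod_lt_of_pos (E1 (Q1 ν)) hp'
    obtain ⟨del, hdeleq⟩ := Int.eq_ofNat_of_zero_le hmodnn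
    have hdel : del < p := by
      have : (del : ℤ) < p := by rw [← hdeleq]; exact hmodlt
      exact_mod_cast this
    have hdvd1 : (p : ℤ) ∣ E1 (Q1 ν) - del := by
      rw [← hdeleq]
      exact ⟨E1 (Q1 ν) / (p : ℤ), by have := Int.emod_add_mul_ediv (E1 (Q1 ν)) (p : ℤ); linarith⟩
    have hdvd2 : (p : ℤ) ∣ E2 (Q2 ν) + del := by
      have : E2 (Q2 ν) + del = (E1 (Q1 ν) + E2 (Q2 ν)) - (E1 (Q1 ν) - del) := by ring
      rw [this]
      exact dvd_sub (hxy ν) hdvd1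
    obtain ⟨φ2, hφ2, hφ20, hord⟩ := hc' _ (le_trans (le_max_right c c') (hlow2 del hdel)) (Q2 ν)
    obtain ⟨φ1, hmem⟩ := (hsurj del hdel).1 φ2 hφ2
    have hval : h31_D2 Qinf Q1 Q2 E1 E2 p n del (Q2 ν) = (E2 (Q2 ν) + del) / (p : ℤ) := by
      unfold h31_D2
      rw [Finsupp.sub_apply, hTB del, h50_fdiv_apply,
        h31_G_apply_mem Qinf _ E2 (p * n) del (Finset.mem_image_of_mem Q2 (Finset.mem_univ ν))
          (hQ2 ν)]
      simp [h50_ind]
    have h2 : (p : ℤ) * (Q2 ν).ord φ2 + (Q2 ν).ord η₂ = -(del : ℤ) := by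
      rw [hord, hval, ← hE2, mul_neg, Int.mul_ediv_cancel' hdvd2]
      ring
    have hprop := hW del hdel (φ1, φ2) hmem
    have h1 := (hprop.2.2.2.2 ν).mpr ⟨hφ20, h2⟩
    exact ⟨del, hdel, (φ1, φ2), hmem, h1, hφ20, h2⟩
  · -- tube units off the nodes, first component
    intro Q hQ
    have hQN : Q ∉ Finset.univ.image Q1 := fun hmem => by
      obtain ⟨ν, -, hν⟩ := Finset.mem_image.mp hmem
      exact hQ ν hν
    obtain ⟨φ1, hφ1, hφ10, hord⟩ := hc' _ (le_trans (le_max_right c c') (hlow1 0 hp)) Q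
    have hmem := (hsurj 0 hp).2 φ1 hφ1
    have hQT : Q ∉ h31_TA Q1 E1 p 0 := fun hmem' => by
      obtain ⟨ν, -, hν⟩ := Finset.mem_image.mp hmem'
      exact hQ ν hν
    have hval : h31_D1 Qinf Q1 E1 p n 0 Q =
        (((p * n) • Finsupp.single Qinf (1 : ℤ) : Divisor k Fb) Q + E1 Q) / (p : ℤ) := by
      unfold h31_D1
      rw [Finsupp.sub_apply, h50_ind_apply_not_mem hQT, h50_fdiv_apply,
        h31_G_apply_not_mem Qinf _ E1 (p * n) _ hQN, sub_zero]
    have hdvd : (p : ℤ) ∣ ((p * n) • Finsupp.single Qinf (1 : ℤ) : Divisor k Fb) Q + E1 Q := by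
      refine Dvd.dvd.add ?_ (hoff1 Q hQ)
      rw [Finsupp.smul_apply, nsmul_eq_mul]
      push_cast
      exact ⟨n * (Finsupp.single Qinf (1 : ℤ) : Divisor k Fb) Q, by ring⟩
    refine ⟨(φ1, 0), hmem, hφ10, ?_⟩
    show (p : ℤ) * Q.ord φ1 + Q.ord η₁ = _
    rw [hord, hval, ← hE1, mul_neg, Int.mul_ediv_cancel' hdvd]
    ring
  · -- tube units off the nodes, second component
    intro z hz
    have hzN : z ∉ Finset.univ.image Q2 := fun hmem => by
      obtain ⟨ν, -, hν⟩ := Finset.mem_image.mp hmem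
      exact hz ν hν
    obtain ⟨φ2, hφ2, hφ20, hord⟩ := hc' _ (le_trans (le_max_right c c') (hlow2 0 hp)) z
    obtain ⟨φ1, hmem⟩ := (hsurj 0 hp).1 φ2 hφ2
    have hval : h31_D2 Qinf Q1 Q2 E1 E2 p n 0 z =
        (((p * n) • Finsupp.single Qinf (1 : ℤ) : Divisor k Fb) z + E2 z) / (p : ℤ) := by
      unfold h31_D2
      rw [Finsupp.sub_apply, hTB 0, h50_fdiv_apply,
        h31_G_apply_not_mem Qinf _ E2 (p * n) _ hzN]
      simp [h50_ind]
    have hdvd : (p : ℤ) ∣ ((p * n) • Finsupp.single Qinf (1 : ℤ) : Divisor k Fb) z + E2 z := by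
      refine Dvd.dvd.add ?_ (hoff2 z hz)
      rw [Finsupp.smul_apply, nsmul_eq_mul]
      push_cast
      exact ⟨n * (Finsupp.single Qinf (1 : ℤ) : Divisor k Fb) z, by ring⟩
    refine ⟨(φ1, φ2), hmem, hφ20, ?_⟩
    show (p : ℤ) * z.ord φ2 + z.ord η₂ = _
    rw [hord, hval, ← hE2, mul_neg, Int.mul_ediv_cancel' hdvd]
    ring

end Count

end Fermat.Agent.S40

end
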