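import Mathlib
import Fermat.Agent.S34.h16_NodeChart
import Fermat.Agent.S18.GR_RedAPI
import Fermat.Agent.S18.GR_ChartPt
import Fermat.Agent.S18.h34_HoloCore

/-!
# S40 / (TR) by lattice count, row W6 (W-UB), part (INCL) (helper31)

Generic statement, in the abstract language of S18/S34: two reduction data `R₁, R₂` on a function
field `F / K` (the two components of the special fibre, residue curve `Fb / k`), the node
description `hnode` of `red (L(n D0) ∩ O₁ ∩ O₂)` (direction `⟹` of `S34/h87_sf_data`).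

For ONE element `f` of the twisted lattice (`f ∈ O₁`, `f / t ∈ O₂`, `f ^ p / u₁ ∈ L(p n D0)`)
the theorem `h31_twist_incl` gives the bounds on the reductions
`φ₁ = red₁ f`, `φ₂ = red₂ (f / t)`:

* (B1), (B1') orders of `φ₁` at all places, resp. at the nodes of the first component;
* (B2), (B2') orders of `φ₂` at the non-node places, resp. at the nodes of the second component;
* (NC) at every node: `φ₁` attains the bound (B1') iff `φ₂` attains the bound (B2').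

Proof: `hnode` applied to `H₀ = f ^ p / u₁`, to `H_ν = H₀ (a_ν / π) ^ del` and to
`H'' = H₀ s ^ p / π ^ del`.
-/

set_option autoImplicit false

noncomputable section

open AlgebraicCurve Module

namespace Fermat.Agent.S40

open Fermat.Agent.S18 Fermat.Agent.S34 Fermat.Agent.S24

variable {K F k Fb : Type*} [Field K] [Field F] [Algebra K F] [Field k] [Field Fb] [Algebra k Fb]

/-- a value at a place is nonzero iff the function is a unit there -/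
theorem h31_val_ne_zero_iff (P : Place k Fb) {g : Fb} {c : k} (h : h39_Val P g c) :
    c ≠ 0 ↔ (g ≠ 0 ∧ P.ord g = 0) := by
  constructor
  · intro hc
    refine ⟨?_, h39_ord_eq_zero_of_val P h hc⟩
    rintro rfl
    rcases h with h | h
    · exact hc ((map_eq_zero (algebraMap k Fb)).mp h.symm)
    · rw [zero_sub, h35_ord_neg, h35_ord_algebraMap] at h
      exact lt_irrefl _ h
  · rintro ⟨hg, hord⟩ rfl
    rcases (h39_val_zero_iff P).mp h with h | h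
    · exact hg h
    · omega

/-- powers in Riemann-Roch spaces -/
theorem h31_pow_mem_rr {D : Divisor K F} {g : F} (hg : g ∈ riemannRochSpace D) (j : ℕ) :
    g ^ j ∈ riemannRochSpace (j • D) := by
  induction j with
  | zero =>
    rw [pow_zero, zero_nsmul]
    intro v
    show v.adicValuation (1 : F) ≤ WithZero.exp ((0 : Divisor K F) v)
    rw [map_one, Finsupp.zero_apply, WithZero.exp_zero]
  | succ j ih =>
    rw [pow_succ, succ_nsmul]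
    exact h51_mul_mem_rr ih hg

/-- constants act on Riemann-Roch spaces -/
theorem h31_const_mul_mem_rr {D : Divisor K F} {g : F} (hg : g ∈ riemannRochSpace D) (c : K) :
    algebraMap K F c * g ∈ riemannRochSpace D := by
  have := (riemannRochSpace D).smul_mem c hg
  rwa [Algebra.smul_def] at this

/-- the reduction of a unit of `A` is a nonzero constant -/
theorem h31_redF_const_unit (R : h39_RedDatum K F k Fb) {θ : K} (hθ : θ ∈ R.A)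
    (hθ' : θ⁻¹ ∈ R.A) (hθ0 : θ ≠ 0) :
    R.redF (algebraMap K F θ) = algebraMap k Fb (R.resK θ) ∧ R.resK θ ≠ 0 := by
  refine ⟨h39_redF_algebraMap R hθ, fun h => ?_⟩
  rcases (h39_resK_eq_zero_iff R hθ).mp h with h | h
  · exact hθ0 h
  · exact h hθ'

/-- the reduction of a unit of `O` is nonzero -/
theorem h31_redF_unit_ne_zero (R : h39_RedDatum K F k Fb) {u : F} (hu0 : u ≠ 0) (hu : u ∈ R.O)
    (hu' : u⁻¹ ∈ R.O) : R.redF u ≠ 0 := by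
  intro h
  rcases (h39_redF_eq_zero_iff R hu).mp h with h | h
  · exact hu0 h
  · exact h hu'

/-- **(INCL)**: the bounds on the reductions of one element of the twisted lattice.  See the
file header. -/
theorem h31_twist_incl (R₁ R₂ : h39_RedDatum K F k Fb) (D0 : Divisor K F) (Qinf : Place k Fb)
    {Z : Type*} (Q1 Q2 : Z → Place k Fb) (hQ1 : ∀ ν, Q1 ν ≠ Qinf) (hQ2 : ∀ ν, Q2 ν ≠ Qinf)
    (n0 : ℕ)
    (hnode : ∀ n, n0 ≤ n → ∀ G : F, G ∈ riemannRochSpace (n • D0) → G ∈ R₁.O → G ∈ R₂.O →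
      (R₁.redF G ∈ h16_Linf Qinf n ∧ R₂.redF G ∈ h16_Linf Qinf n) ∧
        ∀ ν, ∃ c : k, h39_Val (Q1 ν) (R₁.redF G) c ∧ h39_Val (Q2 ν) (R₂.redF G) c)
    (p : ℕ) (hp : 0 < p) (π : K) (hπ0 : π ≠ 0) (hπ₁ : π ∈ R₁.A) (hπ₂ : π ∈ R₂.A)
    (u₁ u₂ : F) (hu₁0 : u₁ ≠ 0) (hu₁' : u₁⁻¹ ∈ R₁.O) (hu₁ : u₁ ∈ R₁.O)
    (hu₂' : u₂⁻¹ ∈ R₂.O) (hu₂ : u₂ ∈ R₂.O)
    (κ : K) (hκ : u₁ = algebraMap K F κ * u₂)
    (del : ℕ) (hdel : del < p) (t θ : K) (ht : t ^ p = θ * κ * π ^ del)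
    (hθ : θ ∈ R₂.A) (hθ' : θ⁻¹ ∈ R₂.A) (hθ0 : θ ≠ 0)
    (a : Z → F) (na : ℕ) (ha : ∀ ν, a ν ∈ riemannRochSpace (na • D0))
    (ha₁ : ∀ ν, (algebraMap K F π)⁻¹ * a ν ∈ R₁.O) (ha₂ : ∀ ν, a ν ∈ R₂.O)
    (haρ : ∀ ν, R₁.redF ((algebraMap K F π)⁻¹ * a ν) ≠ 0 ∧
      (Q1 ν).ord (R₁.redF ((algebraMap K F π)⁻¹ * a ν)) = -1)
    (haα : ∀ ν, R₂.redF (a ν) ≠ 0 ∧ (Q2 ν).ord (R₂.redF (a ν)) = 1)
    (hsep : ∀ z : Place k Fb, (∀ ν, Q2 ν ≠ z) → ∃ (s : F) (ns : ℕ),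
      s ∈ riemannRochSpace (ns • D0) ∧ (algebraMap K F π)⁻¹ * s ∈ R₁.O ∧ s ∈ R₂.O ∧
        R₂.redF s ≠ 0 ∧
        z.ord (R₂.redF s) ≤ -((ns • Finsupp.single Qinf (1 : ℤ) : Divisor k Fb) z))
    (n : ℕ) (hn : n0 ≤ p * n)
    (f : F) (hf₁ : f ∈ R₁.O) (hf₂ : (algebraMap K F t)⁻¹ * f ∈ R₂.O)
    (hfu : f ^ p * u₁⁻¹ ∈ riemannRochSpace ((p * n) • D0)) :
    (R₁.redF f ≠ 0 → ∀ Q : Place k Fb,
      -(((p * n) • Finsupp.single Qinf (1 : ℤ) : Divisor k Fb) Q) ≤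
        p * Q.ord (R₁.redF f) + Q.ord (R₁.redF u₁⁻¹)) ∧
    (R₁.redF f ≠ 0 → ∀ ν,
      (del : ℤ) ≤ p * (Q1 ν).ord (R₁.redF f) + (Q1 ν).ord (R₁.redF u₁⁻¹)) ∧
    (R₂.redF ((algebraMap K F t)⁻¹ * f) ≠ 0 → ∀ z : Place k Fb, (∀ ν, Q2 ν ≠ z) →
      -(((p * n) • Finsupp.single Qinf (1 : ℤ) : Divisor k Fb) z) ≤
        p * z.ord (R₂.redF ((algebraMap K F t)⁻¹ * f)) + z.ord (R₂.redF u₂⁻¹)) ∧
    (R₂.redF ((algebraMap K F t)⁻¹ * f) ≠ 0 → ∀ ν,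
      -(del : ℤ) ≤ p * (Q2 ν).ord (R₂.redF ((algebraMap K F t)⁻¹ * f)) +
        (Q2 ν).ord (R₂.redF u₂⁻¹)) ∧
    (∀ ν, (R₁.redF f ≠ 0 ∧
        p * (Q1 ν).ord (R₁.redF f) + (Q1 ν).ord (R₁.redF u₁⁻¹) = del) ↔
      (R₂.redF ((algebraMap K F t)⁻¹ * f) ≠ 0 ∧
        p * (Q2 ν).ord (R₂.redF ((algebraMap K F t)⁻¹ * f)) + (Q2 ν).ord (R₂.redF u₂⁻¹)
          = -(del : ℤ))) := by
  classical
  have hcπ0 : algebraMap K F π ≠ 0 := (map_ne_zero _).mpr hπ0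
  have hκ0 : κ ≠ 0 := by
    rintro rfl
    apply hu₁0
    rw [hκ, map_zero, zero_mul]
  have hcκ0 : algebraMap K F κ ≠ 0 := (map_ne_zero _).mpr hκ0
  have hu₂0 : u₂ ≠ 0 := by
    rintro rfl
    apply hu₁0
    rw [hκ, mul_zero]
  have ht0 : t ≠ 0 := by
    intro h
    rw [h, zero_pow hp.ne'] at ht
    exact (mul_ne_zero (mul_ne_zero hθ0 hκ0) (pow_ne_zero _ hπ0)) ht.symm
  have hct0 : algebraMap K F t ≠ 0 := (map_ne_zero _).mpr ht0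
  have hctp : algebraMap K F t ^ p =
      algebraMap K F θ * algebraMap K F κ * algebraMap K F π ^ del := by
    rw [← map_pow, ht, map_mul, map_mul, map_pow]
  generalize hg : (algebraMap K F t)⁻¹ * f = g at hf₂ ⊢
  have hfg : f = algebraMap K F t * g := by
    rw [← hg, ← mul_assoc, mul_inv_cancel₀ hct0, one_mul]
  generalize hφ1 : R₁.redF f = φ1
  generalize hφ2 : R₂.redF g = φ2
  generalize hη₁ : R₁.redF u₁⁻¹ = η₁
  generalize hη₂ : R₂.redF u₂⁻¹ = η₂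
  have hη₁0 : η₁ ≠ 0 := by
    rw [← hη₁]
    exact h31_redF_unit_ne_zero R₁ (inv_ne_zero hu₁0) hu₁' (by rwa [inv_inv])
  have hη₂0 : η₂ ≠ 0 := by
    rw [← hη₂]
    exact h31_redF_unit_ne_zero R₂ (inv_ne_zero hu₂0) hu₂' (by rwa [inv_inv])
  have hcπ₁ : algebraMap K F π ∈ R₁.O := (R₁.mem_iff π).mp hπ₁
  have hcπ₂ : algebraMap K F π ∈ R₂.O := (R₂.mem_iff π).mp hπ₂
  have hcθ₂ : algebraMap K F θ ∈ R₂.O := (R₂.mem_iff θ).mp hθ
  obtain ⟨hθred, hθres⟩ := h31_redF_const_unit R₂ hθ hθ' hθ0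
  have hc0 : algebraMap k Fb (R₂.resK θ) ≠ 0 := (map_ne_zero _).mpr hθres
  -- the key identity
  have hH0 : f ^ p * u₁⁻¹ =
      algebraMap K F θ * algebraMap K F π ^ del * (g ^ p * u₂⁻¹) := by
    rw [hfg, mul_pow, hctp, hκ, mul_inv]
    field_simp
  have hH0₁ : f ^ p * u₁⁻¹ ∈ R₁.O := R₁.O.mul_mem _ _ (R₁.O.pow_mem hf₁ p) hu₁'
  have hgpu : g ^ p * u₂⁻¹ ∈ R₂.O := R₂.O.mul_mem _ _ (R₂.O.pow_mem hf₂ p) hu₂'
  have hH0₂ : f ^ p * u₁⁻¹ ∈ R₂.O := by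
    rw [hH0]
    exact R₂.O.mul_mem _ _ (R₂.O.mul_mem _ _ hcθ₂ (R₂.O.pow_mem hcπ₂ del)) hgpu
  have hredH0₁ : R₁.redF (f ^ p * u₁⁻¹) = φ1 ^ p * η₁ := by
    rw [h39_redF_mul R₁ (R₁.O.pow_mem hf₁ p) hu₁', h39_redF_pow R₁ hf₁, hφ1, hη₁]
  have hredgpu : R₂.redF (g ^ p * u₂⁻¹) = φ2 ^ p * η₂ := by
    rw [h39_redF_mul R₂ (R₂.O.pow_mem hf₂ p) hu₂', h39_redF_pow R₂ hf₂, hφ2, hη₂]
  -- (B1)
  have B1 : φ1 ≠ 0 → ∀ Q : Place k Fb,
      -(((p * n) • Finsupp.single Qinf (1 : ℤ) : Divisor k Fb) Q) ≤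
        p * Q.ord φ1 + Q.ord η₁ := by
    intro hφ Q
    have h1 := (hnode (p * n) hn _ hfu hH0₁ hH0₂).1.1
    rw [hredH0₁] at h1
    unfold h16_Linf at h1
    rcases (mem_riemannRochSpace_iff.mp h1) Q with h | h
    · exact absurd h (mul_ne_zero (pow_ne_zero p hφ) hη₁0)
    · rwa [Q.ord_mul (pow_ne_zero p hφ) hη₁0, h34_ord_pow] at h
  -- the nodes
  have node : ∀ ν, (φ1 ≠ 0 → (del : ℤ) ≤ p * (Q1 ν).ord φ1 + (Q1 ν).ord η₁) ∧
      (φ2 ≠ 0 → -(del : ℤ) ≤ p * (Q2 ν).ord φ2 + (Q2 ν).ord η₂) ∧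
      ((φ1 ≠ 0 ∧ p * (Q1 ν).ord φ1 + (Q1 ν).ord η₁ = del) ↔
        (φ2 ≠ 0 ∧ p * (Q2 ν).ord φ2 + (Q2 ν).ord η₂ = -(del : ℤ))) := by
    intro ν
    have hb₁ : (algebraMap K F π)⁻¹ * a ν ∈ R₁.O := ha₁ ν
    obtain ⟨hρ0, hρord⟩ := haρ ν
    obtain ⟨hα0, hαord⟩ := haα ν
    generalize hb : (algebraMap K F π)⁻¹ * a ν = b at hb₁ hρ0 hρord
    have hHrr : f ^ p * u₁⁻¹ * b ^ del ∈ riemannRochSpace ((p * n + del * na) • D0) := by
      have h1 : b ∈ riemannRochSpace (na • D0) := by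
        have := h31_const_mul_mem_rr (ha ν) π⁻¹
        rwa [map_inv₀, hb] at this
      have h2 := h31_pow_mem_rr h1 del
      have h3 := h51_mul_mem_rr hfu h2
      rwa [← mul_nsmul', ← add_nsmul] at h3
    have hH₁ : f ^ p * u₁⁻¹ * b ^ del ∈ R₁.O :=
      R₁.O.mul_mem _ _ hH0₁ (R₁.O.pow_mem hb₁ del)
    have hHeq : f ^ p * u₁⁻¹ * b ^ del =
        algebraMap K F θ * (g ^ p * u₂⁻¹) * (a ν) ^ del := by
      rw [hH0, ← hb, mul_pow, inv_pow]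
      field_simp
    have hH₂ : f ^ p * u₁⁻¹ * b ^ del ∈ R₂.O := by
      rw [hHeq]
      exact R₂.O.mul_mem _ _ (R₂.O.mul_mem _ _ hcθ₂ hgpu) (R₂.O.pow_mem (ha₂ ν) del)
    have hred₁ : R₁.redF (f ^ p * u₁⁻¹ * b ^ del) = φ1 ^ p * η₁ * R₁.redF b ^ del := by
      rw [h39_redF_mul R₁ hH0₁ (R₁.O.pow_mem hb₁ del), hredH0₁, h39_redF_pow R₁ hb₁]
    have hred₂ : R₂.redF (f ^ p * u₁⁻¹ * b ^ del) =
        algebraMap k Fb (R₂.resK θ) * (φ2 ^ p * η₂) * R₂.redF (a ν) ^ del := by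
      rw [hHeq, h39_redF_mul R₂ (R₂.O.mul_mem _ _ hcθ₂ hgpu) (R₂.O.pow_mem (ha₂ ν) del),
        h39_redF_mul R₂ hcθ₂ hgpu, hθred, hredgpu, h39_redF_pow R₂ (ha₂ ν)]
    obtain ⟨⟨hL1, hL2⟩, hval⟩ := hnode (p * n + del * na)
      (le_trans hn (Nat.le_add_right _ _)) _ hHrr hH₁ hH₂
    obtain ⟨c, hc1, hc2⟩ := hval ν
    rw [hred₁] at hL1 hc1
    rw [hred₂] at hL2 hc2
    have hord₁ : φ1 ≠ 0 → φ1 ^ p * η₁ * R₁.redF b ^ del ≠ 0 ∧
        (Q1 ν).ord (φ1 ^ p * η₁ * R₁.redF b ^ del) =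
          p * (Q1 ν).ord φ1 + (Q1 ν).ord η₁ - del := by
      intro hφ
      have h0 : φ1 ^ p * η₁ ≠ 0 := mul_ne_zero (pow_ne_zero p hφ) hη₁0
      refine ⟨mul_ne_zero h0 (pow_ne_zero _ hρ0), ?_⟩
      rw [(Q1 ν).ord_mul h0 (pow_ne_zero _ hρ0), (Q1 ν).ord_mul (pow_ne_zero p hφ) hη₁0,
        h34_ord_pow, h34_ord_pow, hρord]
      ring
    have hord₂ : φ2 ≠ 0 →
        algebraMap k Fb (R₂.resK θ) * (φ2 ^ p * η₂) * R₂.redF (a ν) ^ del ≠ 0 ∧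
        (Q2 ν).ord (algebraMap k Fb (R₂.resK θ) * (φ2 ^ p * η₂) * R₂.redF (a ν) ^ del) =
          p * (Q2 ν).ord φ2 + (Q2 ν).ord η₂ + del := by
      intro hφ
      have h0 : φ2 ^ p * η₂ ≠ 0 := mul_ne_zero (pow_ne_zero p hφ) hη₂0
      refine ⟨mul_ne_zero (mul_ne_zero hc0 h0) (pow_ne_zero _ hα0), ?_⟩
      rw [(Q2 ν).ord_mul (mul_ne_zero hc0 h0) (pow_ne_zero _ hα0), (Q2 ν).ord_mul hc0 h0,
        h35_ord_algebraMap, (Q2 ν).ord_mul (pow_ne_zero p hφ) hη₂0, h34_ord_pow, h34_ord_pow,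
        hαord]
      ring
    have hz₁ : φ1 = 0 → φ1 ^ p * η₁ * R₁.redF b ^ del = 0 := by
      intro h
      rw [h, zero_pow hp.ne', zero_mul, zero_mul]
    have hz₂ : φ2 = 0 →
        algebraMap k Fb (R₂.resK θ) * (φ2 ^ p * η₂) * R₂.redF (a ν) ^ del = 0 := by
      intro h
      rw [h, zero_pow hp.ne', zero_mul, mul_zero, zero_mul]
    have hreg₁ : φ1 ≠ 0 → 0 ≤ (Q1 ν).ord (φ1 ^ p * η₁ * R₁.redF b ^ del) := fun hφ =>
      ((h16_mem_Linf.mp hL1).resolve_left (hord₁ hφ).1).1 (Q1 ν) (hQ1 ν)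
    have hreg₂ : φ2 ≠ 0 → 0 ≤ (Q2 ν).ord
        (algebraMap k Fb (R₂.resK θ) * (φ2 ^ p * η₂) * R₂.redF (a ν) ^ del) := fun hφ =>
      ((h16_mem_Linf.mp hL2).resolve_left (hord₂ hφ).1).1 (Q2 ν) (hQ2 ν)
    have e1 := h31_val_ne_zero_iff (Q1 ν) hc1
    have e2 := h31_val_ne_zero_iff (Q2 ν) hc2
    refine ⟨fun hφ => ?_, fun hφ => ?_, ?_, ?_⟩
    · have := hreg₁ hφ
      rw [(hord₁ hφ).2] at this
      omega
    · have := hreg₂ hφ
      rw [(hord₂ hφ).2] at this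
      omega
    · rintro ⟨hφ, heq⟩
      have h1 : c ≠ 0 := e1.mpr ⟨(hord₁ hφ).1, by rw [(hord₁ hφ).2]; omega⟩
      obtain ⟨h2, h3⟩ := e2.mp h1
      have hφ' : φ2 ≠ 0 := fun h => h2 (hz₂ h)
      refine ⟨hφ', ?_⟩
      rw [(hord₂ hφ').2] at h3
      omega
    · rintro ⟨hφ, heq⟩
      have h1 : c ≠ 0 := e2.mpr ⟨(hord₂ hφ).1, by rw [(hord₂ hφ).2]; omega⟩
      obtain ⟨h2, h3⟩ := e1.mp h1
      have hφ' : φ1 ≠ 0 := fun h => h2 (hz₁ h)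
      refine ⟨hφ', ?_⟩
      rw [(hord₁ hφ').2] at h3
      omega
  -- (B2): the non-node places of the second component
  have B2 : φ2 ≠ 0 → ∀ z : Place k Fb, (∀ ν, Q2 ν ≠ z) →
      -(((p * n) • Finsupp.single Qinf (1 : ℤ) : Divisor k Fb) z) ≤
        p * z.ord φ2 + z.ord η₂ := by
    intro hφ z hz
    obtain ⟨s, ns, hsrr, hs₁, hs₂, hσ0, hσord⟩ := hsep z hz
    generalize hb : (algebraMap K F π)⁻¹ * s = b at hs₁
    have hHrr : f ^ p * u₁⁻¹ * (b ^ p * algebraMap K F π ^ (p - del)) ∈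
        riemannRochSpace ((p * n + p * ns) • D0) := by
      have h1 : b ∈ riemannRochSpace (ns • D0) := by
        have := h31_const_mul_mem_rr hsrr π⁻¹
        rwa [map_inv₀, hb] at this
      have h2 := h31_pow_mem_rr h1 p
      have h3 : b ^ p * algebraMap K F π ^ (p - del) ∈ riemannRochSpace (p • (ns • D0)) := by
        have := h31_const_mul_mem_rr h2 (π ^ (p - del))
        rwa [map_pow, mul_comm] at this
      have h4 := h51_mul_mem_rr hfu h3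
      rwa [← mul_nsmul', ← add_nsmul] at h4
    have hH₁ : f ^ p * u₁⁻¹ * (b ^ p * algebraMap K F π ^ (p - del)) ∈ R₁.O :=
      R₁.O.mul_mem _ _ hH0₁ (R₁.O.mul_mem _ _ (R₁.O.pow_mem hs₁ p) (R₁.O.pow_mem hcπ₁ _))
    have hHeq : f ^ p * u₁⁻¹ * (b ^ p * algebraMap K F π ^ (p - del)) =
        algebraMap K F θ * (g ^ p * u₂⁻¹) * s ^ p := by
      have hpow : algebraMap K F π ^ del * algebraMap K F π ^ (p - del) =
          algebraMap K F π ^ p := by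
        rw [← pow_add]
        congr 1
        omega
      have hpp : algebraMap K F π ^ p ≠ 0 := pow_ne_zero _ hcπ0
      rw [hH0, ← hb, mul_pow, inv_pow]
      calc algebraMap K F θ * algebraMap K F π ^ del * (g ^ p * u₂⁻¹) *
            ((algebraMap K F π ^ p)⁻¹ * s ^ p * algebraMap K F π ^ (p - del))
          = algebraMap K F θ * (g ^ p * u₂⁻¹) * s ^ p *
            ((algebraMap K F π ^ del * algebraMap K F π ^ (p - del)) *
              (algebraMap K F π ^ p)⁻¹) := by ring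
        _ = algebraMap K F θ * (g ^ p * u₂⁻¹) * s ^ p := by
          rw [hpow, mul_inv_cancel₀ hpp, mul_one]
    have hH₂ : f ^ p * u₁⁻¹ * (b ^ p * algebraMap K F π ^ (p - del)) ∈ R₂.O := by
      rw [hHeq]
      exact R₂.O.mul_mem _ _ (R₂.O.mul_mem _ _ hcθ₂ hgpu) (R₂.O.pow_mem hs₂ p)
    have hred₂ : R₂.redF (f ^ p * u₁⁻¹ * (b ^ p * algebraMap K F π ^ (p - del))) =
        algebraMap k Fb (R₂.resK θ) * (φ2 ^ p * η₂) * R₂.redF s ^ p := by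
      rw [hHeq, h39_redF_mul R₂ (R₂.O.mul_mem _ _ hcθ₂ hgpu) (R₂.O.pow_mem hs₂ p),
        h39_redF_mul R₂ hcθ₂ hgpu, hθred, hredgpu, h39_redF_pow R₂ hs₂]
    have hL2 := (hnode (p * n + p * ns) (le_trans hn (Nat.le_add_right _ _)) _ hHrr hH₁ hH₂).1.2
    rw [hred₂] at hL2
    unfold h16_Linf at hL2
    have h0 : φ2 ^ p * η₂ ≠ 0 := mul_ne_zero (pow_ne_zero p hφ) hη₂0
    rcases (mem_riemannRochSpace_iff.mp hL2) z with h | h
    · exact absurd h (mul_ne_zero (mul_ne_zero hc0 h0) (pow_ne_zero _ hσ0))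
    · rw [z.ord_mul (mul_ne_zero hc0 h0) (pow_ne_zero _ hσ0), z.ord_mul hc0 h0,
        h35_ord_algebraMap, z.ord_mul (pow_ne_zero p hφ) hη₂0, h34_ord_pow, h34_ord_pow] at h
      simp only [Finsupp.smul_apply, nsmul_eq_mul] at h hσord ⊢
      push_cast at h hσord ⊢
      have hp' : (0 : ℤ) ≤ (p : ℤ) := Int.natCast_nonneg p
      nlinarith [mul_le_mul_of_nonneg_left hσord hp']
  rw [← hφ1, ← hφ2, ← hη₁, ← hη₂] at *
  exact ⟨B1, fun hφ ν => (node ν).1 hφ, B2, fun hφ ν => (node ν).2.1 hφ,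
    fun ν => (node ν).2.2⟩

end Fermat.Agent.S40

end
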