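import Mathlib
import Fermat.Agent.S40.h31_TwistIncl
import Fermat.Agent.S40.h31_TwistCount

/-!
# S40 / (TR) by lattice count, row W6 (W-UB): (INCL) + (COUNT) assembled (helper31)

`h31_twist_main`: in the abstract S18/S34 language (two reduction data `R₁, R₂`, node description
`hnode`, node functions `a ν`, separators `hsep`), for the class datum `u₁ = κ u₂`
(`u₁ = u / c₁`, `u₂ = u / c₂` units of `O₁`, `O₂`) and the twists `t del` (`t del ^ p = θ κ π ^ del`,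
`θ` a unit): if for all large `n` and every twist `del < p` a `k`-subspace `W del` of twisted
reductions of elements `f` (`f ∈ O₁`, `f / t del ∈ O₂`, `f ^ p / u₁ ∈ L(p n D0)`) has dimension
at least `2n + 2 - 2g - #Z`, then the conclusions (i)-(v) of `h31_twist_count` hold for
`η₁ = red₁ u₁⁻¹`, `η₂ = red₂ u₂⁻¹`.
-/

set_option autoImplicit false

noncomputable section

open AlgebraicCurve Module

namespace Fermat.Agent.S40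

open Fermat.Agent.S18 Fermat.Agent.S34 Fermat.Agent.S24

variable {K F k Fb : Type*} [Field K] [Field F] [Algebra K F] [Field k] [Field Fb] [Algebra k Fb]

/-- **W6, generic form**: (INCL) + (COUNT). -/
theorem h31_twist_main [IsAlgClosed k] (R₁ R₂ : h39_RedDatum K F k Fb) (D0 : Divisor K F)
    (Qinf : Place k Fb) {Z : Type*} [Fintype Z] (Q1 Q2 : Z → Place k Fb)
    (hQ1 : ∀ ν, Q1 ν ≠ Qinf) (hQ2 : ∀ ν, Q2 ν ≠ Qinf)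
    (hinj1 : Function.Injective Q1) (hinj2 : Function.Injective Q2)
    {xb : Fb} (hxb : h75_IsChart k xb) (n0 : ℕ)
    (hnode : ∀ n, n0 ≤ n → ∀ G : F, G ∈ riemannRochSpace (n • D0) → G ∈ R₁.O → G ∈ R₂.O →
      (R₁.redF G ∈ h16_Linf Qinf n ∧ R₂.redF G ∈ h16_Linf Qinf n) ∧
        ∀ ν, ∃ c : k, h39_Val (Q1 ν) (R₁.redF G) c ∧ h39_Val (Q2 ν) (R₂.redF G) c)
    (p : ℕ) (hp : 0 < p) (π : K) (hπ0 : π ≠ 0) (hπ₁ : π ∈ R₁.A) (hπ₂ : π ∈ R₂.A)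
    (u₁ u₂ : F) (hu₁0 : u₁ ≠ 0) (hu₁' : u₁⁻¹ ∈ R₁.O) (hu₁ : u₁ ∈ R₁.O)
    (hu₂' : u₂⁻¹ ∈ R₂.O) (hu₂ : u₂ ∈ R₂.O)
    (κ : K) (hκ : u₁ = algebraMap K F κ * u₂)
    (t θ : ℕ → K) (ht : ∀ del, del < p → t del ^ p = θ del * κ * π ^ del)
    (hθ : ∀ del, del < p → θ del ∈ R₂.A) (hθ' : ∀ del, del < p → (θ del)⁻¹ ∈ R₂.A)
    (hθ0 : ∀ del, del < p → θ del ≠ 0)
    (a : Z → F) (na : ℕ) (ha : ∀ ν, a ν ∈ riemannRochSpace (na • D0))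
    (ha₁ : ∀ ν, (algebraMap K F π)⁻¹ * a ν ∈ R₁.O) (ha₂ : ∀ ν, a ν ∈ R₂.O)
    (haρ : ∀ ν, R₁.redF ((algebraMap K F π)⁻¹ * a ν) ≠ 0 ∧
      (Q1 ν).ord (R₁.redF ((algebraMap K F π)⁻¹ * a ν)) = -1)
    (haα : ∀ ν, R₂.redF (a ν) ≠ 0 ∧ (Q2 ν).ord (R₂.redF (a ν)) = 1)
    (hsep : ∀ z : Place k Fb, (∀ ν, Q2 ν ≠ z) → ∃ (s : F) (ns : ℕ),
      s ∈ riemannRochSpace (ns • D0) ∧ (algebraMap K F π)⁻¹ * s ∈ R₁.O ∧ s ∈ R₂.O ∧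
        R₂.redF s ≠ 0 ∧
        z.ord (R₂.redF s) ≤ -((ns • Finsupp.single Qinf (1 : ℤ) : Divisor k Fb) z)) :
    ∃ n1 : ℕ, ∀ n, n1 ≤ n → ∀ W : ℕ → Submodule k (Fb × Fb),
      (∀ del, del < p → ∀ φ ∈ W del, ∃ f : F, f ∈ R₁.O ∧
        (algebraMap K F (t del))⁻¹ * f ∈ R₂.O ∧
        f ^ p * u₁⁻¹ ∈ riemannRochSpace ((p * n) • D0) ∧
        φ = (R₁.redF f, R₂.redF ((algebraMap K F (t del))⁻¹ * f))) →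
      (∀ del, del < p →
        (2 * n + 2 - 2 * (h75_genus k xb : ℤ) - Fintype.card Z : ℤ) ≤ finrank k (W del)) →
      (∀ del, del < p → ∀ φ ∈ W del,
        h31_TwistProp Qinf Q1 Q2 p (R₁.redF u₁⁻¹) (R₂.redF u₂⁻¹) n del φ) ∧
      (∀ Q : Place k Fb, (∀ ν, Q1 ν ≠ Q) → (p : ℤ) ∣ Q.ord (R₁.redF u₁⁻¹)) ∧
      (∀ Q : Place k Fb, (∀ ν, Q2 ν ≠ Q) → (p : ℤ) ∣ Q.ord (R₂.redF u₂⁻¹)) ∧
      (∀ ν, (p : ℤ) ∣ (Q1 ν).ord (R₁.redF u₁⁻¹) + (Q2 ν).ord (R₂.redF u₂⁻¹)) ∧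
      (∀ del, del < p → ∀ φ2 : Fb,
        (φ2 ≠ 0 → (∀ z : Place k Fb, (∀ ν, Q2 ν ≠ z) →
            -(((p * n) • Finsupp.single Qinf (1 : ℤ) : Divisor k Fb) z) ≤
              p * z.ord φ2 + z.ord (R₂.redF u₂⁻¹)) ∧
          ∀ ν, -(del : ℤ) ≤ p * (Q2 ν).ord φ2 + (Q2 ν).ord (R₂.redF u₂⁻¹)) →
        ∃ φ1 : Fb, (φ1, φ2) ∈ W del) ∧
      (∀ del, del < p → ∀ φ1 : Fb,
        (φ1 ≠ 0 → (∀ Q : Place k Fb,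
            -(((p * n) • Finsupp.single Qinf (1 : ℤ) : Divisor k Fb) Q) ≤
              p * Q.ord φ1 + Q.ord (R₁.redF u₁⁻¹)) ∧
          ∀ ν, (del : ℤ) < p * (Q1 ν).ord φ1 + (Q1 ν).ord (R₁.redF u₁⁻¹)) →
        (φ1, (0 : Fb)) ∈ W del) ∧
      (∀ ν, ∃ del, del < p ∧ ∃ φ ∈ W del,
        (φ.1 ≠ 0 ∧ p * (Q1 ν).ord φ.1 + (Q1 ν).ord (R₁.redF u₁⁻¹) = del) ∧
        (φ.2 ≠ 0 ∧ p * (Q2 ν).ord φ.2 + (Q2 ν).ord (R₂.redF u₂⁻¹) = -(del : ℤ))) ∧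
      (∀ Q : Place k Fb, (∀ ν, Q1 ν ≠ Q) → ∃ φ ∈ W 0, φ.1 ≠ 0 ∧
        p * Q.ord φ.1 + Q.ord (R₁.redF u₁⁻¹) =
          -(((p * n) • Finsupp.single Qinf (1 : ℤ) : Divisor k Fb) Q)) ∧
      (∀ z : Place k Fb, (∀ ν, Q2 ν ≠ z) → ∃ φ ∈ W 0, φ.2 ≠ 0 ∧
        p * z.ord φ.2 + z.ord (R₂.redF u₂⁻¹) =
          -(((p * n) • Finsupp.single Qinf (1 : ℤ) : Divisor k Fb) z)) := by
  have hu₂0 : u₂ ≠ 0 := by
    rintro rfl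
    apply hu₁0
    rw [hκ, mul_zero]
  have hη₁0 : R₁.redF u₁⁻¹ ≠ 0 :=
    h31_redF_unit_ne_zero R₁ (inv_ne_zero hu₁0) hu₁' (by rwa [inv_inv])
  have hη₂0 : R₂.redF u₂⁻¹ ≠ 0 :=
    h31_redF_unit_ne_zero R₂ (inv_ne_zero hu₂0) hu₂' (by rwa [inv_inv])
  obtain ⟨n1, hn1⟩ := h31_twist_count hxb Qinf Q1 Q2 hQ1 hQ2 hinj1 hinj2 p hp
    (R₁.redF u₁⁻¹) (R₂.redF u₂⁻¹) hη₁0 hη₂0
  refine ⟨max n1 n0, fun n hn W hW hr => ?_⟩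
  have hn0 : n0 ≤ p * n :=
    le_trans (le_trans (le_max_right n1 n0) hn) (Nat.le_mul_of_pos_left n hp)
  have hprop : ∀ del, del < p → ∀ φ ∈ W del,
      h31_TwistProp Qinf Q1 Q2 p (R₁.redF u₁⁻¹) (R₂.redF u₂⁻¹) n del φ := by
    intro del hdel φ hφ
    obtain ⟨f, hf₁, hf₂, hfu, rfl⟩ := hW del hdel φ hφ
    exact h31_twist_incl R₁ R₂ D0 Qinf Q1 Q2 hQ1 hQ2 n0 hnode p hp π hπ0 hπ₁ hπ₂ u₁ u₂ hu₁0 hu₁'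
      hu₁ hu₂' hu₂ κ hκ del hdel (t del) (θ del) (ht del hdel) (hθ del hdel) (hθ' del hdel)
      (hθ0 del hdel) a na ha ha₁ ha₂ haρ haα hsep n hn0 f hf₁ hf₂ hfu
  exact ⟨hprop, hn1 n (le_trans (le_max_left n1 n0) hn) W hprop hr⟩

end Fermat.Agent.S40

end
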