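import Mathlib
import Fermat.Agent.S36.h62_NodeIface
import Fermat.Agent.S18.Defs

/-!
# S40 / row T9a (TAIL-PT): smooth points of the special fibre -- generic core (helper43)

Three independent generic layers.

## 1. One-branch factorisation (language of `h80_ValFam`, K₀-rational)

`V : h80_ValFam F ι`, `m` a point (prime ideal of `V.B`), `c` a valuation through `m`, and (UNIT*)
for the OTHER valuations through `m` (at a one-branch point `h62_Pt` these are the horizontal
ones).

* `h43_pt_factor` : if `n ∣ v_i f` for every `i ≠ c` through `m`, then `f = h * w ^ n` with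
  `v_i h = 0` for all `i ≠ c` through `m`, `v_c w = 0`, `v_c h = v_c f`.
* `h43_centre_unit` : units of `B_m` reduce to units at a place `Q` "centred at `m`"
  (`red b` regular at `Q` for `b ∈ B`, `red t` a unit at `Q` for `t ∈ B ∖ m`).
* `h43_pt_ord_dvd` : **(TAIL-PT), generic**: `v_c f = 0` and `n ∣ v_i f` for all other `i` through
  `m` imply `n ∣ ord_Q (red f)`.
* `h43_pt_ord_dvd'` : the same with the two centre conditions as hypotheses.

## 2. The normalised residue order of a function for a reduction datum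

`R : h39_RedDatum K F k Fb`, `Q : Place k Fb`.

* `h43_rred R f` : `red (c f)` for a chosen constant `c` making `c f` a unit of `R.O`;
  `h43_rord R Q f := ord_Q (h43_rred R f)`.
* `h43_rord_eq` : `h43_rord R Q f = ord_Q (red (c f))` for EVERY unit scaling `c`.
* `h43_rord_mul`, `h43_rord_pow`, `h43_rord_algebraMap`, `h43_rord_inv` : `h43_rord R Q` is a
  homomorphism `Fˣ → ℤ`, trivial on constants.
* `h43_rord_dvd_transfer` : if `u = a * u' * b ^ n` (`a` a constant) then
  `n ∣ h43_rord R Q u ↔ n ∣ h43_rord R Q u'`  (cover ⟶ base transfer of T7/T9a).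

## 3. The missing point, by degree

* `h43_dvd_ord_of_forall_ne` : if all places have degree one and `n ∣ ord_Q g` for every
  `Q ≠ Q₀`, then `n ∣ ord_{Q₀} g`.
* `h43_rord_dvd_all` : the same for `h43_rord`.
* `h43_exists_root_class` : if `n ∣ h43_rord R Q f` for all `Q`, the divisor `(1/n) div (red f)`
  has degree `0` and its class in `Pic0 k Fb` is killed by `n`  (the classes `c_i(x)` of T10).

## 4. Assembly

* `h43_tail_pt_gen`, `h43_tail_pt` : `V` a `K₀`-rational valuation family on `F0`, `φ : F0 → F`,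
  `R` the reduction datum of the sheet `c` on `F`, `m` a one-branch point (`h62_Pt`) with a place
  `Q` of the residue field centred at it, the other valuations through `m` restrictions of places
  of `F`; `u0 ∈ F0` with `n ∣ ord_P (φ u0)` for all places `P` of `F`.  Then
  `n ∣ h43_rord R Q (φ u0)` (when the local equation of the sheet at `m` is a constant).
-/

set_option autoImplicit false

noncomputable section

namespace Fermat.Agent.S40

open Fermat.Agent.S36 Fermat.Agent.S18 AlgebraicCurve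

/-! ### 1. One-branch factorisation -/

section core

variable {F : Type*} [Field F] {ι : Type*}

/-- **One-branch factorisation.**  If the orders of `f` at all valuations through `m` other than
`c` are divisible by `n` (and these valuations have local equations at `m`), then
`f = h * w ^ n` with `h` a unit at the valuations `≠ c` through `m` and `v_c w = 0`. -/
theorem h43_pt_factor (V : h80_ValFam F ι) (m : Ideal V.B) (c : ι) (n : ℕ)
    (hunit : ∀ i, V.Through m i → i ≠ c →
      ∃ e : F, e ≠ 0 ∧ V.v i e = 1 ∧ ∀ j, V.Through m j → j ≠ i → V.v j e = 0)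
    {f : F} (hf : f ≠ 0) (hdiv : ∀ i, V.Through m i → i ≠ c → (n : ℤ) ∣ V.v i f) :
    ∃ h w : F, h ≠ 0 ∧ w ≠ 0 ∧ (∀ i, V.Through m i → i ≠ c → V.v i h = 0) ∧
      (V.Through m c → V.v c w = 0) ∧ (V.Through m c → V.v c h = V.v c f) ∧ f = h * w ^ n := by
  classical
  set E : ι → ℤ := fun i => if i = c then 0 else V.v i f / n with hEdef
  have hEc : E c = 0 := by simp [hEdef]
  have hEne : ∀ i, i ≠ c → E i = V.v i f / n := fun i hi => by simp [hEdef, hi]
  have hE : {i | E i ≠ 0}.Finite :=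
    (V.finite_supp f hf).subset fun i hi => by
      intro h0
      apply hi
      by_cases hic : i = c
      · rw [hic]
        exact hEc
      · rw [hEne i hic, h0, Int.zero_ediv]
  obtain ⟨w, hw0, hw⟩ := h80_exists_localEq V m E hE (fun i hi hEi =>
    hunit i hi (fun h => hEi (by rw [h]; exact hEc)))
  have hwn : w ^ n ≠ 0 := pow_ne_zero _ hw0
  refine ⟨f / w ^ n, w, div_ne_zero hf hwn, hw0, fun i hi hic => ?_, fun hc => ?_, fun hc => ?_,
    ?_⟩
  · rw [h80_v_div V i hf hwn, h80_v_pow V i hw0, hw i hi, hEne i hic,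
      Int.mul_ediv_cancel' (hdiv i hi hic)]
    ring
  · rw [hw c hc, hEc]
  · rw [h80_v_div V c hf hwn, h80_v_pow V c hw0, hw c hc, hEc]
    ring
  · field_simp

variable {Fb : Type*} [Field Fb]

/-- `red 1 = 1` for a map multiplicative and nonvanishing on the `v_c`-units. -/
theorem h43_red_one (V : h80_ValFam F ι) (c : ι) (red : F → Fb)
    (hred_mul : ∀ f g : F, f ≠ 0 → g ≠ 0 → V.v c f = 0 → V.v c g = 0 →
      red (f * g) = red f * red g)
    (hred_ne : ∀ f : F, f ≠ 0 → V.v c f = 0 → red f ≠ 0) : red 1 = 1 := by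
  have h1 := hred_mul 1 1 one_ne_zero one_ne_zero (h80_v_one V c) (h80_v_one V c)
  rw [mul_one] at h1
  have h2 := hred_ne 1 one_ne_zero (h80_v_one V c)
  exact (mul_eq_left₀ h2).mp h1.symm

/-- `red (w ^ n) = (red w) ^ n` on the `v_c`-units. -/
theorem h43_red_pow (V : h80_ValFam F ι) (c : ι) (red : F → Fb)
    (hred_mul : ∀ f g : F, f ≠ 0 → g ≠ 0 → V.v c f = 0 → V.v c g = 0 →
      red (f * g) = red f * red g)
    (hred_ne : ∀ f : F, f ≠ 0 → V.v c f = 0 → red f ≠ 0)
    {w : F} (hw0 : w ≠ 0) (hwc : V.v c w = 0) (n : ℕ) : red (w ^ n) = red w ^ n := by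
  induction n with
  | zero => simpa using h43_red_one V c red hred_mul hred_ne
  | succ n ih =>
    have hvn : V.v c (w ^ n) = 0 := by rw [h80_v_pow V c hw0, hwc, mul_zero]
    rw [pow_succ, hred_mul _ _ (pow_ne_zero n hw0) hw0 hvn hwc, ih, pow_succ]

/-- An additive-on-products order function kills `1` and is additive on powers. -/
theorem h43_ordQ_pow (ordQ : Fb → ℤ)
    (hord_mul : ∀ x y : Fb, x ≠ 0 → y ≠ 0 → ordQ (x * y) = ordQ x + ordQ y)
    {x : Fb} (hx : x ≠ 0) (n : ℕ) : ordQ (x ^ n) = n * ordQ x := by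
  have h1 : ordQ 1 = 0 := by
    have := hord_mul 1 1 one_ne_zero one_ne_zero
    rw [mul_one] at this
    omega
  induction n with
  | zero => simp [h1]
  | succ n ih =>
    rw [pow_succ, hord_mul _ _ (pow_ne_zero n hx) hx, ih]
    push_cast
    ring

/-- **Units at `m` reduce to units at `Q`.**  `Q` is centred at `m`: elements of `B` reduce to
functions regular at `Q` (`hC1`), elements of `B ∖ m` to units at `Q` (`hC2`). -/
theorem h43_centre_unit (V : h80_ValFam F ι) (m : Ideal V.B) [hm : m.IsPrime] (c : ι)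
    (hc : V.Through m c) (red : F → Fb) (ordQ : Fb → ℤ)
    (hred_mul : ∀ f g : F, f ≠ 0 → g ≠ 0 → V.v c f = 0 → V.v c g = 0 →
      red (f * g) = red f * red g)
    (hred_ne : ∀ f : F, f ≠ 0 → V.v c f = 0 → red f ≠ 0)
    (hord_mul : ∀ x y : Fb, x ≠ 0 → y ≠ 0 → ordQ (x * y) = ordQ x + ordQ y)
    (hC1 : ∀ b : V.B, (b : F) ≠ 0 → V.v c b = 0 → 0 ≤ ordQ (red b))
    (hC2 : ∀ t : V.B, t ∉ m → ordQ (red t) = 0)
    {h : F} (h0 : h ≠ 0) (hh : ∀ i, V.Through m i → V.v i h = 0) : ordQ (red h) = 0 := by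
  obtain ⟨⟨b, t, ht, hbt⟩, ⟨b', t', ht', hbt'⟩⟩ := h80_inLoc_of_through_zero V m h0 hh
  have ht0 := h80_ne_zero_of_not_mem V ht
  have ht0' := h80_ne_zero_of_not_mem V ht'
  have hvt := h80_through_eq_zero V hc ht
  have hvt' := h80_through_eq_zero V hc ht'
  have hvh := hh c hc
  have hvhi : V.v c h⁻¹ = 0 := by rw [h80_v_inv V c h0, hvh, neg_zero]
  have hb0 : (b : F) ≠ 0 := by
    rw [← hbt]
    exact mul_ne_zero ht0 h0
  have hb0' : (b' : F) ≠ 0 := by
    rw [← hbt']
    exact mul_ne_zero ht0' (inv_ne_zero h0)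
  have hvb : V.v c b = 0 := by rw [← hbt, V.map_mul c _ _ ht0 h0, hvt, hvh, add_zero]
  have hvb' : V.v c b' = 0 := by
    rw [← hbt', V.map_mul c _ _ ht0' (inv_ne_zero h0), hvt', hvhi, add_zero]
  -- `b b' = t t'` is a unit at `Q`
  have hprod : (b : F) * (b' : F) = ((t * t' : V.B) : F) := by
    rw [← hbt, ← hbt']
    push_cast
    field_simp
  have htt : t * t' ∉ m := fun hmem => (hm.mem_or_mem hmem).elim ht ht'
  have e1 : ordQ (red b) + ordQ (red b') = 0 := by
    rw [← hord_mul _ _ (hred_ne _ hb0 hvb) (hred_ne _ hb0' hvb'), ← hred_mul _ _ hb0 hb0' hvb hvb',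
      hprod]
    exact hC2 _ htt
  have e2 := hC1 b hb0 hvb
  have e3 := hC1 b' hb0' hvb'
  have e4 : ordQ (red b) = 0 := by omega
  -- `red b = red t * red h`
  have e5 : ordQ (red b) = ordQ (red t) + ordQ (red h) := by
    rw [← hord_mul _ _ (hred_ne _ ht0 hvt) (hred_ne _ h0 hvh), ← hred_mul _ _ ht0 h0 hvt hvh, hbt]
  have e6 := hC2 t ht
  omega

/-- **(TAIL-PT), generic core.**  `m` a point, `c` a valuation through `m`, (UNIT*) for the other
valuations through `m`; `red` a reduction map for `v_c` (multiplicative and nonvanishing on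
`v_c`-units), `ordQ` the order at a place `Q` of the residue field centred at `m` (units of `B_m`
reduce to units at `Q`).  If `v_c f = 0` and `n` divides the order of `f` at every other valuation
through `m`, then `n ∣ ord_Q (red f)`. -/
theorem h43_pt_ord_dvd (V : h80_ValFam F ι) (m : Ideal V.B) (c : ι) (hc : V.Through m c) (n : ℕ)
    (hunit : ∀ i, V.Through m i → i ≠ c →
      ∃ e : F, e ≠ 0 ∧ V.v i e = 1 ∧ ∀ j, V.Through m j → j ≠ i → V.v j e = 0)
    (red : F → Fb) (ordQ : Fb → ℤ)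
    (hred_mul : ∀ f g : F, f ≠ 0 → g ≠ 0 → V.v c f = 0 → V.v c g = 0 →
      red (f * g) = red f * red g)
    (hred_ne : ∀ f : F, f ≠ 0 → V.v c f = 0 → red f ≠ 0)
    (hord_mul : ∀ x y : Fb, x ≠ 0 → y ≠ 0 → ordQ (x * y) = ordQ x + ordQ y)
    (hcentre : ∀ h : F, h ≠ 0 → (∀ i, V.Through m i → V.v i h = 0) → ordQ (red h) = 0)
    {f : F} (hf : f ≠ 0) (hfc : V.v c f = 0)
    (hdiv : ∀ i, V.Through m i → i ≠ c → (n : ℤ) ∣ V.v i f) :
    (n : ℤ) ∣ ordQ (red f) := by
  obtain ⟨h, w, h0, w0, hh, hwc, hhc, hfe⟩ := h43_pt_factor V m c n hunit hf hdiv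
  have hvw : V.v c w = 0 := hwc hc
  have hvh : V.v c h = 0 := by rw [hhc hc, hfc]
  have hhall : ∀ i, V.Through m i → V.v i h = 0 := fun i hi => by
    by_cases hic : i = c
    · rw [hic]
      exact hvh
    · exact hh i hi hic
  have hvwn : V.v c (w ^ n) = 0 := by rw [h80_v_pow V c w0, hvw, mul_zero]
  have e1 : red f = red h * red w ^ n := by
    rw [hfe, hred_mul _ _ h0 (pow_ne_zero n w0) hvh hvwn,
      h43_red_pow V c red hred_mul hred_ne w0 hvw]
  have hrw := hred_ne w w0 hvw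
  rw [e1, hord_mul _ _ (hred_ne h h0 hvh) (pow_ne_zero n hrw), hcentre h h0 hhall, zero_add,
    h43_ordQ_pow ordQ hord_mul hrw]
  exact dvd_mul_right _ _

/-- **(TAIL-PT), generic core**, with the centre of `Q` given by the two conditions
`hC1` (regularity of `red b`, `b ∈ B`) and `hC2` (`red t` a unit at `Q` for `t ∈ B ∖ m`). -/
theorem h43_pt_ord_dvd' (V : h80_ValFam F ι) (m : Ideal V.B) [m.IsPrime] (c : ι)
    (hc : V.Through m c) (n : ℕ)
    (hunit : ∀ i, V.Through m i → i ≠ c →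
      ∃ e : F, e ≠ 0 ∧ V.v i e = 1 ∧ ∀ j, V.Through m j → j ≠ i → V.v j e = 0)
    (red : F → Fb) (ordQ : Fb → ℤ)
    (hred_mul : ∀ f g : F, f ≠ 0 → g ≠ 0 → V.v c f = 0 → V.v c g = 0 →
      red (f * g) = red f * red g)
    (hred_ne : ∀ f : F, f ≠ 0 → V.v c f = 0 → red f ≠ 0)
    (hord_mul : ∀ x y : Fb, x ≠ 0 → y ≠ 0 → ordQ (x * y) = ordQ x + ordQ y)
    (hC1 : ∀ b : V.B, (b : F) ≠ 0 → V.v c b = 0 → 0 ≤ ordQ (red b))
    (hC2 : ∀ t : V.B, t ∉ m → ordQ (red t) = 0)
    {f : F} (hf : f ≠ 0) (hfc : V.v c f = 0)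
    (hdiv : ∀ i, V.Through m i → i ≠ c → (n : ℤ) ∣ V.v i f) :
    (n : ℤ) ∣ ordQ (red f) :=
  h43_pt_ord_dvd V m c hc n hunit red ordQ hred_mul hred_ne hord_mul
    (fun _ h0 hh => h43_centre_unit V m c hc red ordQ hred_mul hred_ne hord_mul hC1 hC2 h0 hh)
    hf hfc hdiv

/-- At a one-branch point `h62_Pt` the hypotheses `hc`, `hunit` of `h43_pt_ord_dvd` hold. -/
theorem h43_pt_ord_dvd_of_pt (V : h80_ValFam F ι) {q : ℕ} {m : Ideal V.B} {c : ι} {z : V.B}
    {e : ℕ} (hpt : h62_Pt V q m c z e) (n : ℕ)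
    (red : F → Fb) (ordQ : Fb → ℤ)
    (hred_mul : ∀ f g : F, f ≠ 0 → g ≠ 0 → V.v c f = 0 → V.v c g = 0 →
      red (f * g) = red f * red g)
    (hred_ne : ∀ f : F, f ≠ 0 → V.v c f = 0 → red f ≠ 0)
    (hord_mul : ∀ x y : Fb, x ≠ 0 → y ≠ 0 → ordQ (x * y) = ordQ x + ordQ y)
    (hC1 : ∀ b : V.B, (b : F) ≠ 0 → V.v c b = 0 → 0 ≤ ordQ (red b))
    (hC2 : ∀ t : V.B, t ∉ m → ordQ (red t) = 0)
    {f : F} (hf : f ≠ 0) (hfc : V.v c f = 0)
    (hdiv : ∀ i, V.Through m i → V.v i (q : F) = 0 → (n : ℤ) ∣ V.v i f) :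
    (n : ℤ) ∣ ordQ (red f) := by
  have : m.IsPrime := hpt.isMax.isPrime
  refine h43_pt_ord_dvd' V m c hpt.thr n (fun i hi _ => hpt.unitStar i hi) red ordQ hred_mul
    hred_ne hord_mul hC1 hC2 hf hfc (fun i hi hic => hdiv i hi ?_)
  by_contra hne
  have h0 : 0 ≤ V.v i (q : F) := (V.mem_B _ hpt.q_ne).mp (natCast_mem V.B q) i
  exact hic (hpt.vert i hi (lt_of_le_of_ne h0 (Ne.symm hne)))

end core

/-! ### 2. The normalised residue order -/

section rord

variable {K F k Fb : Type*} [Field K] [Field F] [Algebra K F] [Field k] [Field Fb] [Algebra k Fb]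

/-- Constants have order `0` at every place. -/
theorem h43_ord_algebraMap (P : Place K F) (c : K) : P.ord (algebraMap K F c) = 0 := by
  rcases eq_or_ne c 0 with rfl | hc
  · simp
  · have h1 := P.algebraMap_mem' c
    have h2 := P.algebraMap_mem' c⁻¹
    have hmul : algebraMap K F c * algebraMap K F c⁻¹ = 1 := by
      rw [← map_mul, mul_inv_cancel₀ hc, map_one]
    let u : P.toValuationSubringˣ :=
      ⟨⟨algebraMap K F c, h1⟩, ⟨algebraMap K F c⁻¹, h2⟩, Subtype.ext hmul,
        Subtype.ext ((mul_comm _ _).trans hmul)⟩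
    exact P.ord_coe_unit u

/-- `f` is a unit of the valuation ring of `R`. -/
def h43_IsRUnit (R : h39_RedDatum K F k Fb) (f : F) : Prop := f ≠ 0 ∧ f ∈ R.O ∧ f⁻¹ ∈ R.O

theorem h43_isRUnit_one (R : h39_RedDatum K F k Fb) : h43_IsRUnit R 1 :=
  ⟨one_ne_zero, R.O.one_mem, by rw [inv_one]; exact R.O.one_mem⟩

theorem h43_isRUnit_mul (R : h39_RedDatum K F k Fb) {f g : F} (hf : h43_IsRUnit R f)
    (hg : h43_IsRUnit R g) : h43_IsRUnit R (f * g) :=
  ⟨mul_ne_zero hf.1 hg.1, R.O.mul_mem _ _ hf.2.1 hg.2.1, by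
    rw [mul_inv]
    exact R.O.mul_mem _ _ hf.2.2 hg.2.2⟩

theorem h43_isRUnit_inv (R : h39_RedDatum K F k Fb) {f : F} (hf : h43_IsRUnit R f) :
    h43_IsRUnit R f⁻¹ :=
  ⟨inv_ne_zero hf.1, hf.2.2, by rw [inv_inv]; exact hf.2.1⟩

theorem h43_isRUnit_pow (R : h39_RedDatum K F k Fb) {f : F} (hf : h43_IsRUnit R f) (n : ℕ) :
    h43_IsRUnit R (f ^ n) := by
  induction n with
  | zero => simpa using h43_isRUnit_one R
  | succ n ih =>
    rw [pow_succ]
    exact h43_isRUnit_mul R ih hf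

theorem h43_redF_mul (R : h39_RedDatum K F k Fb) {f g : F} (hf : f ∈ R.O) (hg : g ∈ R.O) :
    R.redF (f * g) = R.redF f * R.redF g := by
  rw [R.redF_of_mem hf, R.redF_of_mem hg, R.redF_of_mem (R.O.mul_mem _ _ hf hg), ← map_mul]
  rfl

theorem h43_redF_one (R : h39_RedDatum K F k Fb) : R.redF 1 = 1 := by
  rw [R.redF_of_mem R.O.one_mem]
  exact map_one R.red

theorem h43_redF_unit_ne_zero (R : h39_RedDatum K F k Fb) {f : F} (hf : h43_IsRUnit R f) :
    R.redF f ≠ 0 := by
  intro h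
  have h1 := h43_redF_mul R hf.2.1 hf.2.2
  rw [mul_inv_cancel₀ hf.1, h43_redF_one, h, zero_mul] at h1
  exact one_ne_zero h1

theorem h43_redF_pow (R : h39_RedDatum K F k Fb) {f : F} (hf : f ∈ R.O) (n : ℕ) :
    R.redF (f ^ n) = R.redF f ^ n := by
  induction n with
  | zero => simpa using h43_redF_one R
  | succ n ih => rw [pow_succ, h43_redF_mul R (R.O.pow_mem hf n) hf, ih, pow_succ]

/-- A constant which is a unit of `R.O` reduces to a constant. -/
theorem h43_redF_const (R : h39_RedDatum K F k Fb) {a : K} (ha : algebraMap K F a ∈ R.O) :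
    ∃ b : k, R.redF (algebraMap K F a) = algebraMap k Fb b := by
  have haA : a ∈ R.A := (R.mem_iff a).mpr ha
  exact ⟨R.res ⟨a, haA⟩, by rw [R.redF_of_mem ha]; exact R.red_algebraMap a haA ha⟩

/-- Multiplying a unit by a unit constant does not change the order of the reduction. -/
theorem h43_ord_redF_const_mul (R : h39_RedDatum K F k Fb) (Q : Place k Fb) {a : K} {g : F}
    (ha : h43_IsRUnit R (algebraMap K F a)) (hg : h43_IsRUnit R g) :
    Q.ord (R.redF (algebraMap K F a * g)) = Q.ord (R.redF g) := by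
  obtain ⟨b, hb⟩ := h43_redF_const R ha.2.1
  rw [h43_redF_mul R ha.2.1 hg.2.1,
    Q.ord_mul (h43_redF_unit_ne_zero R ha) (h43_redF_unit_ne_zero R hg), hb, h43_ord_algebraMap,
    zero_add]

open Classical in
/-- The normalised reduction of a function: `red (c f)` for a chosen constant `c` such that
`c f` is a unit of `R.O` (`0` at `0`).  Well defined up to a nonzero constant of `k`. -/
def h43_rred (R : h39_RedDatum K F k Fb) (f : F) : Fb :=
  if hf : f = 0 then 0
  else R.redF (algebraMap K F (Classical.choose (R.exists_scale f hf)) * f)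

/-- The normalised residue order of `f` at the place `Q` of the residue field. -/
def h43_rord (R : h39_RedDatum K F k Fb) (Q : Place k Fb) (f : F) : ℤ := Q.ord (h43_rred R f)

theorem h43_rred_zero (R : h39_RedDatum K F k Fb) : h43_rred R 0 = 0 := by
  unfold h43_rred
  rw [dif_pos rfl]

theorem h43_rord_zero (R : h39_RedDatum K F k Fb) (Q : Place k Fb) : h43_rord R Q 0 = 0 := by
  unfold h43_rord
  rw [h43_rred_zero, Place.ord_zero]

theorem h43_rred_spec (R : h39_RedDatum K F k Fb) {f : F} (hf : f ≠ 0) :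
    ∃ c : K, c ≠ 0 ∧ h43_IsRUnit R (algebraMap K F c * f) ∧
      h43_rred R f = R.redF (algebraMap K F c * f) := by
  have hs := Classical.choose_spec (R.exists_scale f hf)
  refine ⟨Classical.choose (R.exists_scale f hf), hs.1,
    ⟨mul_ne_zero ((map_ne_zero _).mpr hs.1) hf, hs.2.1, hs.2.2⟩, ?_⟩
  unfold h43_rred
  rw [dif_neg hf]

theorem h43_rred_ne_zero (R : h39_RedDatum K F k Fb) {f : F} (hf : f ≠ 0) :
    h43_rred R f ≠ 0 := by
  obtain ⟨c, -, hu, he⟩ := h43_rred_spec R hf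
  rw [he]
  exact h43_redF_unit_ne_zero R hu

/-- `h43_rord` is computed by ANY unit scaling. -/
theorem h43_rord_eq (R : h39_RedDatum K F k Fb) (Q : Place k Fb) {f : F} {c : K}
    (hc : h43_IsRUnit R (algebraMap K F c * f)) :
    h43_rord R Q f = Q.ord (R.redF (algebraMap K F c * f)) := by
  have hf : f ≠ 0 := right_ne_zero_of_mul hc.1
  have hc0 : c ≠ 0 := fun h => by
    rw [h, map_zero] at hc
    exact left_ne_zero_of_mul hc.1 rfl
  obtain ⟨c0, hc00, hu0, he⟩ := h43_rred_spec R hf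
  have hratio : algebraMap K F (c / c0) = (algebraMap K F c * f) * (algebraMap K F c0 * f)⁻¹ := by
    rw [map_div₀]
    have := (map_ne_zero (algebraMap K F)).mpr hc00
    field_simp
  have hur : h43_IsRUnit R (algebraMap K F (c / c0)) := by
    rw [hratio]
    exact h43_isRUnit_mul R hc (h43_isRUnit_inv R hu0)
  have hsplit : algebraMap K F c * f = algebraMap K F (c / c0) * (algebraMap K F c0 * f) := by
    rw [hratio, inv_mul_cancel_right₀ hu0.1]
  unfold h43_rord
  rw [he, hsplit, h43_ord_redF_const_mul R Q hur hu0]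

/-- For a unit of `R.O` the normalised order is the order of the reduction. -/
theorem h43_rord_of_unit (R : h39_RedDatum K F k Fb) (Q : Place k Fb) {f : F}
    (hf : h43_IsRUnit R f) : h43_rord R Q f = Q.ord (R.redF f) := by
  have h1 : h43_IsRUnit R (algebraMap K F 1 * f) := by rwa [map_one, one_mul]
  rw [h43_rord_eq R Q h1, map_one, one_mul]

theorem h43_rord_mul (R : h39_RedDatum K F k Fb) (Q : Place k Fb) {f g : F} (hf : f ≠ 0)
    (hg : g ≠ 0) : h43_rord R Q (f * g) = h43_rord R Q f + h43_rord R Q g := by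
  obtain ⟨cf, -, huf, -⟩ := h43_rred_spec R hf
  obtain ⟨cg, -, hug, -⟩ := h43_rred_spec R hg
  have hsplit : algebraMap K F (cf * cg) * (f * g) =
      (algebraMap K F cf * f) * (algebraMap K F cg * g) := by
    rw [map_mul]
    ring
  have hu : h43_IsRUnit R (algebraMap K F (cf * cg) * (f * g)) := by
    rw [hsplit]
    exact h43_isRUnit_mul R huf hug
  rw [h43_rord_eq R Q hu, h43_rord_eq R Q huf, h43_rord_eq R Q hug, hsplit,
    h43_redF_mul R huf.2.1 hug.2.1,
    Q.ord_mul (h43_redF_unit_ne_zero R huf) (h43_redF_unit_ne_zero R hug)]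

theorem h43_rord_algebraMap (R : h39_RedDatum K F k Fb) (Q : Place k Fb) (a : K) :
    h43_rord R Q (algebraMap K F a) = 0 := by
  rcases eq_or_ne a 0 with rfl | ha
  · rw [map_zero, h43_rord_zero]
  · have h1 : algebraMap K F a⁻¹ * algebraMap K F a = 1 := by
      rw [← map_mul, inv_mul_cancel₀ ha, map_one]
    have hu : h43_IsRUnit R (algebraMap K F a⁻¹ * algebraMap K F a) := by
      rw [h1]
      exact h43_isRUnit_one R
    rw [h43_rord_eq R Q hu, h1, h43_redF_one, Place.ord_one]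

theorem h43_rord_one (R : h39_RedDatum K F k Fb) (Q : Place k Fb) : h43_rord R Q 1 = 0 := by
  have := h43_rord_algebraMap R Q (1 : K)
  rwa [map_one] at this

theorem h43_rord_pow (R : h39_RedDatum K F k Fb) (Q : Place k Fb) {f : F} (hf : f ≠ 0) (n : ℕ) :
    h43_rord R Q (f ^ n) = n * h43_rord R Q f := by
  induction n with
  | zero => simp [h43_rord_one]
  | succ n ih =>
    rw [pow_succ, h43_rord_mul R Q (pow_ne_zero n hf) hf, ih]
    push_cast
    ring

theorem h43_rord_inv (R : h39_RedDatum K F k Fb) (Q : Place k Fb) {f : F} (hf : f ≠ 0) :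
    h43_rord R Q f⁻¹ = - h43_rord R Q f := by
  have h := h43_rord_mul R Q hf (inv_ne_zero hf)
  rw [mul_inv_cancel₀ hf, h43_rord_one] at h
  omega

theorem h43_rord_zpow (R : h39_RedDatum K F k Fb) (Q : Place k Fb) {f : F} (hf : f ≠ 0) (j : ℤ) :
    h43_rord R Q (f ^ j) = j * h43_rord R Q f := by
  cases j with
  | ofNat n => simpa using h43_rord_pow R Q hf n
  | negSucc n =>
    rw [zpow_negSucc, h43_rord_inv R Q (pow_ne_zero _ hf), h43_rord_pow R Q hf]
    push_cast [Int.negSucc_eq]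
    ring

/-- **Transfer.**  If `u = a * u' * b ^ n` with `a` a constant, the normalised residue orders of
`u` and `u'` agree modulo `n`. -/
theorem h43_rord_transfer (R : h39_RedDatum K F k Fb) (Q : Place k Fb) {u u' b : F} {a : K}
    (n : ℕ) (ha : a ≠ 0) (hu' : u' ≠ 0) (hb : b ≠ 0) (hu : u = algebraMap K F a * u' * b ^ n) :
    h43_rord R Q u = h43_rord R Q u' + n * h43_rord R Q b := by
  have ha' : algebraMap K F a ≠ 0 := (map_ne_zero _).mpr ha
  rw [hu, h43_rord_mul R Q (mul_ne_zero ha' hu') (pow_ne_zero n hb), h43_rord_mul R Q ha' hu',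
    h43_rord_algebraMap, zero_add, h43_rord_pow R Q hb]

theorem h43_rord_dvd_transfer (R : h39_RedDatum K F k Fb) (Q : Place k Fb) {u u' b : F} {a : K}
    (n : ℕ) (ha : a ≠ 0) (hu' : u' ≠ 0) (hb : b ≠ 0) (hu : u = algebraMap K F a * u' * b ^ n) :
    (n : ℤ) ∣ h43_rord R Q u ↔ (n : ℤ) ∣ h43_rord R Q u' := by
  rw [h43_rord_transfer R Q n ha hu' hb hu]
  exact Int.dvd_add_left (dvd_mul_right _ _)

/-- Compatibility with a pull-back of reduction data: if `φ : F → F'` carries units of `R.O` to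
units of `R'.O` compatibly with the reductions (up to an embedding `ψ` of the residue fields
preserving the order at `Q'` over `Q`), the normalised orders agree. -/
theorem h43_rord_map {F' Fb' : Type*} [Field F'] [Algebra K F'] [Field Fb'] [Algebra k Fb']
    (R : h39_RedDatum K F k Fb) (R' : h39_RedDatum K F' k Fb') (φ : F →ₐ[K] F')
    (Q : Place k Fb) (Q' : Place k Fb')
    (hφ : ∀ g : F, h43_IsRUnit R g →
      h43_IsRUnit R' (φ g) ∧ Q'.ord (R'.redF (φ g)) = Q.ord (R.redF g))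
    {f : F} (hf : f ≠ 0) : h43_rord R' Q' (φ f) = h43_rord R Q f := by
  obtain ⟨c, -, hu, -⟩ := h43_rred_spec R hf
  obtain ⟨hu', he⟩ := hφ _ hu
  rw [map_mul, AlgHom.commutes] at hu' he
  rw [h43_rord_eq R' Q' hu', h43_rord_eq R Q hu, he]

end rord

/-! ### 3. The missing point, by degree; the `n`-th root class -/

section degree

variable {k Fb : Type*} [Field k] [Field Fb] [Algebra k Fb]

theorem h43_degree_eq_sum (hdeg : ∀ Q : Place k Fb, Q.deg = 1) (D : Divisor k Fb) :
    Divisor.degree D = ∑ v ∈ D.support, D v := by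
  unfold Divisor.degree
  rw [Finsupp.liftAddHom_apply, Finsupp.sum]
  refine Finset.sum_congr rfl fun v _ => ?_
  rw [AddMonoidHom.mulRight_apply, hdeg v]
  simp

/-- **The missing point, by degree.**  All places of degree one; if `n ∣ ord_Q g` for every place
`Q ≠ Q₀`, then also `n ∣ ord_{Q₀} g`. -/
theorem h43_dvd_ord_of_forall_ne [HasPrincipalDivisors k Fb] (hdeg : ∀ Q : Place k Fb, Q.deg = 1)
    (n : ℕ) {g : Fb} (hg : g ≠ 0) (Q0 : Place k Fb)
    (h : ∀ Q : Place k Fb, Q ≠ Q0 → (n : ℤ) ∣ Q.ord g) : (n : ℤ) ∣ Q0.ord g := by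
  classical
  obtain ⟨D, hD, hdegD⟩ := HasPrincipalDivisors.exists_divisor (K := k) g hg
  have hsum := h43_degree_eq_sum hdeg D
  rw [hdegD] at hsum
  by_cases hQ : Q0 ∈ D.support
  · rw [← Finset.add_sum_erase _ _ hQ] at hsum
    have h1 : (n : ℤ) ∣ ∑ v ∈ D.support.erase Q0, D v :=
      Finset.dvd_sum fun v hv => by
        rw [hD v]
        exact h v (Finset.ne_of_mem_erase hv)
    have h2 : Q0.ord g = - ∑ v ∈ D.support.erase Q0, D v := by
      rw [← hD Q0]
      linarith
    rw [h2]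
    exact (dvd_neg).mpr h1
  · have h0 : D Q0 = 0 := Finsupp.notMem_support_iff.mp hQ
    rw [← hD Q0, h0]
    exact dvd_zero _

variable {K F : Type*} [Field K] [Field F] [Algebra K F]

/-- The normalised residue orders of `f` form a divisor of degree `0`. -/
theorem h43_exists_rdiv [HasPrincipalDivisors k Fb] (R : h39_RedDatum K F k Fb) {f : F}
    (hf : f ≠ 0) :
    ∃ D : Divisor k Fb, (∀ Q, D Q = h43_rord R Q f) ∧ Divisor.degree D = 0 :=
  HasPrincipalDivisors.exists_divisor (K := k) (h43_rred R f) (h43_rred_ne_zero R hf)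

/-- **The missing point for `h43_rord`.** -/
theorem h43_rord_dvd_all [HasPrincipalDivisors k Fb] (hdeg : ∀ Q : Place k Fb, Q.deg = 1)
    (R : h39_RedDatum K F k Fb) (n : ℕ) {f : F} (hf : f ≠ 0) (Q0 : Place k Fb)
    (h : ∀ Q : Place k Fb, Q ≠ Q0 → (n : ℤ) ∣ h43_rord R Q f) (Q : Place k Fb) :
    (n : ℤ) ∣ h43_rord R Q f := by
  by_cases hQ : Q = Q0
  · rw [hQ]
    exact h43_dvd_ord_of_forall_ne hdeg n (h43_rred_ne_zero R hf) Q0 h
  · exact h Q hQ

/-- **The `n`-th root class.**  If all normalised residue orders of `f` are divisible by `n ≠ 0`,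
the divisor `(1/n) div (red f)` has degree `0` and its class in `Pic⁰` is killed by `n`. -/
theorem h43_exists_root_class [HasPrincipalDivisors k Fb] (R : h39_RedDatum K F k Fb) {n : ℕ}
    (hn : n ≠ 0) {f : F} (hf : f ≠ 0) (h : ∀ Q, (n : ℤ) ∣ h43_rord R Q f) :
    ∃ D : Divisor.degZero (K := k) (F := Fb),
      (∀ Q, (n : ℤ) * (D : Divisor k Fb) Q = h43_rord R Q f) ∧ n • Pic0.mk D = 0 := by
  obtain ⟨D0, hD0, hdeg0⟩ := h43_exists_rdiv R hf
  set D : Divisor k Fb := D0.mapRange (fun a => a / (n : ℤ)) (Int.zero_ediv _) with hDdef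
  have hval : ∀ Q, (n : ℤ) * D Q = h43_rord R Q f := fun Q => by
    rw [hDdef, Finsupp.mapRange_apply, hD0 Q]
    exact Int.mul_ediv_cancel' (h Q)
  have hsmul : n • D = D0 := by
    ext Q
    rw [Finsupp.smul_apply, hD0 Q, ← hval Q, nsmul_eq_mul]
  have hdegD : Divisor.degree D = 0 := by
    have h1 : n • Divisor.degree D = 0 := by rw [← map_nsmul, hsmul, hdeg0]
    rcases smul_eq_zero.mp h1 with h2 | h2
    · exact absurd h2 hn
    · exact h2
  refine ⟨⟨D, hdegD⟩, hval, ?_⟩
  have hmem : (n • (⟨D, hdegD⟩ : Divisor.degZero (K := k) (F := Fb))) ∈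
      (Divisor.principal (K := k) (F := Fb)).addSubgroupOf (Divisor.degZero (K := k) (F := Fb)) := by
    rw [AddSubgroup.mem_addSubgroupOf]
    show n • D ∈ Divisor.principal (K := k) (F := Fb)
    rw [hsmul]
    exact ⟨h43_rred R f, h43_rred_ne_zero R hf, hD0⟩
  exact (QuotientAddGroup.eq_zero_iff _).mpr hmem

end degree

/-! ### 4. (TAIL-PT) assembled: `K₀`-rational valuation family + reduction datum of the sheet -/

section assembly

variable {F0 : Type*} [Field F0] {ι : Type*}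
  {K F k Fb : Type*} [Field K] [Field F] [Algebra K F] [Field k] [Field Fb] [Algebra k Fb]

/-- **(TAIL-PT), assembled, general local equation.**

* `V` : the `K₀`-rational valuation family of `F0`, `φ : F0 → F` the inclusion into the function
  field over the algebraically closed constants, `R` the reduction datum of the sheet `c`
  (`hvc` : `v_c`-units of `F0` are units of `R.O`);
* `m` a one-branch point of `V` on the sheet `c` (`h62_Pt`), `Q` a place of the residue field
  centred at `m` (`hC1`, `hC2`);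
* `hhor` : the other valuations through `m` are restrictions of places of `F`;
* `u0 ∈ F0` with `n ∣ ord_P (φ u0)` at every place `P` of `F` (e.g. `n E = div (φ u0)`).

Then `n ∣ rord_Q (φ u0) - v_c(u0) * rord_Q (φ z)`, `z` the local equation of the sheet at `m`. -/
theorem h43_tail_pt_gen (V : h80_ValFam F0 ι) (R : h39_RedDatum K F k Fb) (φ : F0 →+* F) {c : ι}
    (hvc : ∀ f : F0, f ≠ 0 → V.v c f = 0 → h43_IsRUnit R (φ f))
    (Q : Place k Fb) {q : ℕ} {m : Ideal V.B} {z : V.B} {e : ℕ} (hpt : h62_Pt V q m c z e)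
    (hC1 : ∀ b : V.B, (b : F0) ≠ 0 → V.v c b = 0 → 0 ≤ Q.ord (R.redF (φ b)))
    (hC2 : ∀ t : V.B, t ∉ m → Q.ord (R.redF (φ t)) = 0)
    (hhor : ∀ i, V.Through m i → i ≠ c →
      ∃ P : Place K F, ∀ f : F0, f ≠ 0 → V.v i f = P.ord (φ f))
    (n : ℕ) {u0 : F0} (hu0 : u0 ≠ 0) (hdiv : ∀ P : Place K F, (n : ℤ) ∣ P.ord (φ u0)) :
    (n : ℤ) ∣ h43_rord R Q (φ u0) - V.v c u0 * h43_rord R Q (φ z) := by
  have hm : m.IsPrime := hpt.isMax.isPrime
  have hz0 : (z : F0) ≠ 0 := hpt.z_ne
  set f : F0 := u0 * (z : F0) ^ (-(V.v c u0)) with hfdef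
  have hzp0 : (z : F0) ^ (-(V.v c u0)) ≠ 0 := zpow_ne_zero _ hz0
  have hf0 : f ≠ 0 := mul_ne_zero hu0 hzp0
  have hfc : V.v c f = 0 := by
    rw [hfdef, V.map_mul c _ _ hu0 hzp0, h80_v_zpow V c hz0, hpt.vz]
    ring
  have hfi : ∀ i, V.Through m i → i ≠ c → V.v i f = V.v i u0 := fun i hi hic => by
    rw [hfdef, V.map_mul i _ _ hu0 hzp0, h80_v_zpow V i hz0, hpt.vz' i hi hic]
    ring
  have key : (n : ℤ) ∣ Q.ord (R.redF (φ f)) := by
    refine h43_pt_ord_dvd' V m c hpt.thr n (fun i hi _ => hpt.unitStar i hi)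
      (fun g => R.redF (φ g)) Q.ord ?_ ?_ (fun x y hx hy => Q.ord_mul hx hy) hC1 hC2 hf0 hfc ?_
    · intro g g' hg hg' hvg hvg'
      show R.redF (φ (g * g')) = R.redF (φ g) * R.redF (φ g')
      rw [map_mul]
      exact h43_redF_mul R (hvc g hg hvg).2.1 (hvc g' hg' hvg').2.1
    · intro g hg hvg
      exact h43_redF_unit_ne_zero R (hvc g hg hvg)
    · intro i hi hic
      obtain ⟨P, hP⟩ := hhor i hi hic
      rw [hfi i hi hic, hP u0 hu0]
      exact hdiv P
  have hφu : φ u0 ≠ 0 := (map_ne_zero φ).mpr hu0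
  have hφz : φ (z : F0) ≠ 0 := (map_ne_zero φ).mpr hz0
  have e1 : h43_rord R Q (φ f) = Q.ord (R.redF (φ f)) := h43_rord_of_unit R Q (hvc f hf0 hfc)
  have e2 : h43_rord R Q (φ f) = h43_rord R Q (φ u0) - V.v c u0 * h43_rord R Q (φ z) := by
    rw [hfdef, map_mul, map_zpow₀, h43_rord_mul R Q hφu (zpow_ne_zero _ hφz),
      h43_rord_zpow R Q hφz]
    ring
  rw [← e2, e1]
  exact key

/-- **(TAIL-PT), assembled**: when the local equation `z` of the sheet at `m` is a constant
(smooth point of a reduced component: `z = p`), `n ∣ rord_Q (φ u0)`. -/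
theorem h43_tail_pt (V : h80_ValFam F0 ι) (R : h39_RedDatum K F k Fb) (φ : F0 →+* F) {c : ι}
    (hvc : ∀ f : F0, f ≠ 0 → V.v c f = 0 → h43_IsRUnit R (φ f))
    (Q : Place k Fb) {q : ℕ} {m : Ideal V.B} {z : V.B} {e : ℕ} (hpt : h62_Pt V q m c z e)
    (hz : ∃ a : K, φ (z : F0) = algebraMap K F a)
    (hC1 : ∀ b : V.B, (b : F0) ≠ 0 → V.v c b = 0 → 0 ≤ Q.ord (R.redF (φ b)))
    (hC2 : ∀ t : V.B, t ∉ m → Q.ord (R.redF (φ t)) = 0)
    (hhor : ∀ i, V.Through m i → i ≠ c →
      ∃ P : Place K F, ∀ f : F0, f ≠ 0 → V.v i f = P.ord (φ f))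
    (n : ℕ) {u0 : F0} (hu0 : u0 ≠ 0) (hdiv : ∀ P : Place K F, (n : ℤ) ∣ P.ord (φ u0)) :
    (n : ℤ) ∣ h43_rord R Q (φ u0) := by
  have h := h43_tail_pt_gen V R φ hvc Q hpt hC1 hC2 hhor n hu0 hdiv
  obtain ⟨a, ha⟩ := hz
  rwa [ha, h43_rord_algebraMap, mul_zero, sub_zero] at h

end assembly

end Fermat.Agent.S40

end
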