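import Mathlib
import Fermat.Agent.S18.RR_Large
import Fermat.Agent.S40.h31_TwistLat
import Fermat.Agent.S40.h31_TwistMain
import Fermat.Agent.S40.h43_TailPt

/-!
# S40 / (TR) by lattice count, row W6 (W-UB): the count over an algebraically closed field of
constants, for an ARBITRARY function `u` with `div u = p E` (helper31)

`h31_twist_qbar`: abstract S18/S34 language.  `K` algebraically closed (so the twist constants
`t del`, `t del ^ p = (c₁ / c₂) π ^ del`, exist), two reduction data `R₁, R₂` with common rank-one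
constants and a separating element, the pair lattice `D` with (ON), a chart of `F` (Riemann-Roch),
`deg D0 = 2`, the node description `hnode` with `#Z = g_F - 2 g_Fb + 1` nodes, node functions
`a ν` and separators `hsep` (binders of `h31_twist_incl`).  Then for every `u ≠ 0` and every
divisor `E` of degree `0` with `p E = div u`:

* `p ∣ h43_rord R₁ Q u` at every place `Q` of the first component which is not a node,
* `p ∣ h43_rord R₂ Q u` at every place `Q` of the second component which is not a node,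
* `p ∣ h43_rord R₁ (Q1 ν) u + h43_rord R₂ (Q2 ν) u` at every node `ν`.

No rationality and no Galois hypothesis on `(E, u)`.
-/

set_option autoImplicit false

noncomputable section

open AlgebraicCurve Module

namespace Fermat.Agent.S40

open Fermat.Agent.S18 Fermat.Agent.S34 Fermat.Agent.S24

variable {K F k Fb : Type*} [Field K] [Field F] [Algebra K F] [Field k] [Field Fb] [Algebra k Fb]

/-- `f ∈ L(n D0 - E)` and `p E = div u` give `f ^ p / (c u) ∈ L(p n D0)`. -/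
theorem h31_pow_div_mem_rr (D0 E : Divisor K F) (p : ℕ) (hp : 0 < p) (u : F) (hu : u ≠ 0)
    (hE : ∀ P : Place K F, (p : ℤ) * E P = P.ord u) (c : K) (hc : c ≠ 0) (n : ℕ) {f : F}
    (hf : f ∈ riemannRochSpace (n • D0 - E)) :
    f ^ p * (algebraMap K F c * u)⁻¹ ∈ riemannRochSpace ((p * n) • D0) := by
  rw [mem_riemannRochSpace_iff] at hf ⊢
  intro v
  by_cases hf0 : f = 0
  · left
    rw [hf0, zero_pow hp.ne', zero_mul]
  right
  have hcF : algebraMap K F c ≠ 0 := (map_ne_zero _).2 hc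
  have h1 := (hf v).resolve_left hf0
  have h2 : v.ord (f ^ p * (algebraMap K F c * u)⁻¹) = p * v.ord f - v.ord u := by
    rw [Place.ord_mul v (pow_ne_zero p hf0) (inv_ne_zero (mul_ne_zero hcF hu)), Place.ord_inv,
      Place.ord_mul v hcF hu, h43_ord_algebraMap, zero_add, ← zpow_natCast, Place.ord_zpow]
    ring
  have h3 : (n • D0 - E) v = n * D0 v - E v := by
    rw [Finsupp.sub_apply, Finsupp.smul_apply, nsmul_eq_mul]
  have h4 : ((p * n) • D0) v = (p : ℤ) * n * D0 v := by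
    rw [Finsupp.smul_apply, nsmul_eq_mul]
    push_cast
    ring
  rw [h2, h4, ← hE v]
  rw [h3] at h1
  have hp' : (0 : ℤ) ≤ p := Int.natCast_nonneg p
  nlinarith [mul_le_mul_of_nonneg_left h1 hp']

/-- **W6 over an algebraically closed field of constants**: see the file header. -/
theorem h31_twist_qbar [IsAlgClosed K] [IsAlgClosed k]
    (R₁ R₂ : h39_RedDatum K F k Fb) (hA : R₁.A = R₂.A) (hrk : h39_RankOne R₁.A)
    (hsep0 : ∃ t : F, t ∈ R₁.O ∧ t ∈ R₂.O ∧ R₁.redF t = 1 ∧ R₂.redF t = 0)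
    (D : h22_Lat K F k (Fb × Fb)) (hON : h22_ON D)
    (hDO : ∀ f : F, f ∈ D.O ↔ f ∈ R₁.O ∧ f ∈ R₂.O)
    (hDred : ∀ f : F, f ∈ R₁.O → f ∈ R₂.O → D.redF f = (R₁.redF f, R₂.redF f))
    {xF : F} (hxF : h75_IsChart K xF)
    (D0 : Divisor K F) (hdeg : Divisor.degree D0 = 2)
    (Qinf : Place k Fb) {Z : Type*} [Fintype Z] (Q1 Q2 : Z → Place k Fb)
    (hQ1 : ∀ ν, Q1 ν ≠ Qinf) (hQ2 : ∀ ν, Q2 ν ≠ Qinf)
    (hinj1 : Function.Injective Q1) (hinj2 : Function.Injective Q2)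
    {xb : Fb} (hxb : h75_IsChart k xb)
    (hcard : (Fintype.card Z : ℤ) = (h75_genus K xF : ℤ) - 2 * (h75_genus k xb : ℤ) + 1)
    (n0 : ℕ)
    (hnode : ∀ n, n0 ≤ n → ∀ G : F, G ∈ riemannRochSpace (n • D0) → G ∈ R₁.O → G ∈ R₂.O →
      (R₁.redF G ∈ h16_Linf Qinf n ∧ R₂.redF G ∈ h16_Linf Qinf n) ∧
        ∀ ν, ∃ c : k, h39_Val (Q1 ν) (R₁.redF G) c ∧ h39_Val (Q2 ν) (R₂.redF G) c)
    (p : ℕ) (hp : 0 < p) (π : K) (hπ0 : π ≠ 0) (hπ₁ : π ∈ R₁.A) (hπinv : π⁻¹ ∉ R₁.A)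
    (a : Z → F) (na : ℕ) (ha : ∀ ν, a ν ∈ riemannRochSpace (na • D0))
    (ha₁ : ∀ ν, (algebraMap K F π)⁻¹ * a ν ∈ R₁.O) (ha₂ : ∀ ν, a ν ∈ R₂.O)
    (haρ : ∀ ν, R₁.redF ((algebraMap K F π)⁻¹ * a ν) ≠ 0 ∧
      (Q1 ν).ord (R₁.redF ((algebraMap K F π)⁻¹ * a ν)) = -1)
    (haα : ∀ ν, R₂.redF (a ν) ≠ 0 ∧ (Q2 ν).ord (R₂.redF (a ν)) = 1)
    (hsep : ∀ z : Place k Fb, (∀ ν, Q2 ν ≠ z) → ∃ (s : F) (ns : ℕ),
      s ∈ riemannRochSpace (ns • D0) ∧ (algebraMap K F π)⁻¹ * s ∈ R₁.O ∧ s ∈ R₂.O ∧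
        R₂.redF s ≠ 0 ∧
        z.ord (R₂.redF s) ≤ -((ns • Finsupp.single Qinf (1 : ℤ) : Divisor k Fb) z))
    (u : F) (hu : u ≠ 0) (E : Divisor K F) (hE : ∀ P : Place K F, (p : ℤ) * E P = P.ord u)
    (hEdeg : Divisor.degree E = 0) :
    (∀ Q : Place k Fb, (∀ ν, Q1 ν ≠ Q) → (p : ℤ) ∣ h43_rord R₁ Q u) ∧
    (∀ Q : Place k Fb, (∀ ν, Q2 ν ≠ Q) → (p : ℤ) ∣ h43_rord R₂ Q u) ∧
    (∀ ν, (p : ℤ) ∣ h43_rord R₁ (Q1 ν) u + h43_rord R₂ (Q2 ν) u) := by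
  classical
  have hπ₂ : π ∈ R₂.A := hA ▸ hπ₁
  -- the scaling constants
  obtain ⟨c₁, hc₁0, hc₁u, hc₁u'⟩ := R₁.exists_scale u hu
  obtain ⟨c₂, hc₂0, hc₂u, hc₂u'⟩ := R₂.exists_scale u hu
  have hc₁F : algebraMap K F c₁ ≠ 0 := (map_ne_zero _).2 hc₁0
  have hc₂F : algebraMap K F c₂ ≠ 0 := (map_ne_zero _).2 hc₂0
  have hu₁0 : algebraMap K F c₁ * u ≠ 0 := mul_ne_zero hc₁F hu
  have hu₂0 : algebraMap K F c₂ * u ≠ 0 := mul_ne_zero hc₂F hu
  have hκ0 : c₁ / c₂ ≠ 0 := div_ne_zero hc₁0 hc₂0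
  have hκ : algebraMap K F c₁ * u = algebraMap K F (c₁ / c₂) * (algebraMap K F c₂ * u) := by
    rw [map_div₀]
    field_simp
  -- the twist constants
  have hroot : ∀ del : ℕ, ∃ t : K, t ^ p = 1 * (c₁ / c₂) * π ^ del := fun del =>
    IsAlgClosed.exists_pow_nat_eq _ hp
  choose t ht using hroot
  have ht0 : ∀ del, t del ≠ 0 := by
    intro del h0
    have := ht del
    rw [h0, zero_pow hp.ne', one_mul] at this
    exact mul_ne_zero hκ0 (pow_ne_zero del hπ0) this.symm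
  obtain ⟨n1, hn1⟩ := h31_twist_main R₁ R₂ D0 Qinf Q1 Q2 hQ1 hQ2 hinj1 hinj2 hxb n0 hnode p hp π
    hπ0 hπ₁ hπ₂ (algebraMap K F c₁ * u) (algebraMap K F c₂ * u) hu₁0 hc₁u' hc₁u hc₂u' hc₂u
    (c₁ / c₂) hκ t (fun _ => 1) (fun del _ => ht del) (fun _ _ => R₂.A.one_mem)
    (fun _ _ => by rw [inv_one]; exact R₂.A.one_mem) (fun _ _ => one_ne_zero) a na ha ha₁ ha₂ haρ
    haα hsep
  -- Riemann-Roch on `F`
  obtain ⟨cF, hcF⟩ := h75_rr hxF
  set n : ℕ := max n1 cF.toNat with hn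
  have hn1' : n1 ≤ n := le_max_left _ _
  have hdegV : Divisor.degree (n • D0 - E) = 2 * (n : ℤ) := by
    rw [map_sub, map_nsmul, hdeg, hEdeg, sub_zero, nsmul_eq_mul]
    ring
  have hcFn : cF ≤ Divisor.degree (n • D0 - E) := by
    rw [hdegV]
    have h1 : cF ≤ (cF.toNat : ℤ) := Int.self_le_toNat cF
    have h2 : (cF.toNat : ℤ) ≤ (n : ℤ) := by exact_mod_cast le_max_right n1 cF.toNat
    have h3 : (0 : ℤ) ≤ (n : ℤ) := Int.natCast_nonneg n
    linarith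
  have hrankV := hcF (n • D0 - E) hcFn
  rw [hdegV] at hrankV
  have hfinV : Module.Finite K ↥(riemannRochSpace (n • D0 - E)) := (h75_riemann hxF _).1
  -- the twisted lattices
  have hlat : ∀ del : ℕ, ∃ W : Submodule k (Fb × Fb), Module.Finite k W ∧
      finrank k W = finrank K ↥(riemannRochSpace (n • D0 - E)) ∧
      ∀ φ ∈ W, ∃ f : F, f ∈ riemannRochSpace (n • D0 - E) ∧ f ∈ R₁.O ∧
        (algebraMap K F (t del))⁻¹ * f ∈ R₂.O ∧
        φ = (R₁.redF f, R₂.redF ((algebraMap K F (t del))⁻¹ * f)) := fun del =>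
    h31_twist_lat R₁ R₂ hA hrk hsep0 π hπ0 hπ₁ hπinv D hON hDO hDred (t del) (ht0 del)
      (riemannRochSpace (n • D0 - E))
  choose W hWfin hWrank hWmem using hlat
  have hW : ∀ del, del < p → ∀ φ ∈ W del, ∃ f : F, f ∈ R₁.O ∧
      (algebraMap K F (t del))⁻¹ * f ∈ R₂.O ∧
      f ^ p * (algebraMap K F c₁ * u)⁻¹ ∈ riemannRochSpace ((p * n) • D0) ∧
      φ = (R₁.redF f, R₂.redF ((algebraMap K F (t del))⁻¹ * f)) := by
    intro del _ φ hφ
    obtain ⟨f, hfV, hf₁, hf₂, hfφ⟩ := hWmem del φ hφ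
    exact ⟨f, hf₁, hf₂, h31_pow_div_mem_rr D0 E p hp u hu hE c₁ hc₁0 n hfV, hfφ⟩
  have hr : ∀ del, del < p →
      (2 * n + 2 - 2 * (h75_genus k xb : ℤ) - Fintype.card Z : ℤ) ≤ finrank k (W del) := by
    intro del _
    rw [hWrank del, hrankV, hcard]
    linarith
  obtain ⟨-, hi1, hi2, hii, -⟩ := hn1 n hn1' W hW hr
  -- translation to `h43_rord`
  have hU₁ : h43_IsRUnit R₁ (algebraMap K F c₁ * u) := ⟨hu₁0, hc₁u, hc₁u'⟩
  have hU₂ : h43_IsRUnit R₂ (algebraMap K F c₂ * u) := ⟨hu₂0, hc₂u, hc₂u'⟩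
  have hord₁ : ∀ Q : Place k Fb, Q.ord (R₁.redF (algebraMap K F c₁ * u)⁻¹) =
      -h43_rord R₁ Q u := by
    intro Q
    rw [h43_rord_eq R₁ Q hU₁,
      (h39_inv_of_redF_ne_zero R₁ (h31_redF_unit_ne_zero R₁ hu₁0 hc₁u hc₁u')).2, Place.ord_inv]
  have hord₂ : ∀ Q : Place k Fb, Q.ord (R₂.redF (algebraMap K F c₂ * u)⁻¹) =
      -h43_rord R₂ Q u := by
    intro Q
    rw [h43_rord_eq R₂ Q hU₂,
      (h39_inv_of_redF_ne_zero R₂ (h31_redF_unit_ne_zero R₂ hu₂0 hc₂u hc₂u')).2, Place.ord_inv]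
  refine ⟨fun Q hQ => ?_, fun Q hQ => ?_, fun ν => ?_⟩
  · have := hi1 Q hQ
    rw [hord₁ Q] at this
    exact (dvd_neg.mp this)
  · have := hi2 Q hQ
    rw [hord₂ Q] at this
    exact (dvd_neg.mp this)
  · have := hii ν
    rw [hord₁, hord₂, ← neg_add] at this
    exact (dvd_neg.mp this)

end Fermat.Agent.S40

end
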