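import Mathlib
import Fermat.Agent.S34.h20_ChartSF
import Fermat.Agent.S34.h16_NodeChart

/-!
# S40 / row W2 (I3): separators on the special fibre, generic core  (helper48)

`Fb` a function field over the algebraically closed field `k` with a chart `xb`, `Qinf` a place
(the cusp), `T` a finite set of places different from `Qinf` (the node points of a component).

* `h48_exists_sep` : for `z ∉ T`, `z ≠ Qinf` and `n ≥ 2 g + |T| + 1` there is `s ∈ L(n Qinf)`
  vanishing on `T` with `s(z) = 1`.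
* `h48_exists_exact` : for `n ≥ 2 g + |T| + 1` there is `s ∈ L(n Qinf)`, `s ≠ 0`, vanishing on
  `T`, with a pole of order EXACTLY `n` at `Qinf`.
* `h48_sep_snd`, `h48_exact_snd`, `h48_sep_fst`, `h48_exact_fst` : the pair forms `(0, s₂)`,
  `(s₁, 0)` in `h51_Rd D (n • D0)` for a lattice `D` with values in `Fb × Fb` whose reductions are
  cut out by node conditions (the sharp node theorem, hypothesis `hnode`).
-/

set_option autoImplicit false

noncomputable section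

open AlgebraicCurve Module

namespace Fermat.Agent.S40

open Fermat.Agent.S18 Fermat.Agent.S24 Fermat.Agent.S27 Fermat.Agent.S34

variable {k Fb : Type*} [Field k] [Field Fb] [Algebra k Fb] [IsAlgClosed k]
  {xb : Fb} (hx : h75_IsChart k xb) (Qinf : Place k Fb)

include hx in
/-- A function with poles only at `Qinf`, vanishing on `T`, with value `1` at `z`. -/
theorem h48_exists_sep (T : Finset (Place k Fb)) (hT : ∀ Q ∈ T, Q ≠ Qinf) (z : Place k Fb)
    (hz : z ≠ Qinf) (hzT : z ∉ T) (n : ℕ) (hn : 2 * h75_genus k xb + T.card + 1 ≤ n) :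
    ∃ s : Fb, s ∈ h16_Linf Qinf n ∧ (∀ Q ∈ T, h39_Val Q s 0) ∧ h39_Val z s 1 := by
  classical
  have hQ : ∀ ν : {Q // Q ∈ insert z T}, (ν : Place k Fb) ≠ Qinf := by
    rintro ⟨Q, hQ⟩
    rcases Finset.mem_insert.mp hQ with rfl | h
    · exact hz
    · exact hT Q h
  have hcard : Fintype.card {Q // Q ∈ insert z T} = T.card + 1 := by
    rw [Fintype.card_coe, Finset.card_insert_of_notMem hzT]
  have hsurj := h20_evMap_surjective hx Qinf (fun ν : {Q // Q ∈ insert z T} => (ν : Place k Fb))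
    hQ Subtype.val_injective n (by rw [hcard]; omega)
  obtain ⟨f, hf⟩ := hsurj (fun ν => if (ν : Place k Fb) = z then 1 else 0)
  refine ⟨f.1, f.2, fun Q hQT => ?_, ?_⟩
  · have h := h20_evMap_spec hx Qinf (fun ν : {Q // Q ∈ insert z T} => (ν : Place k Fb)) hQ n f
      ⟨Q, Finset.mem_insert_of_mem hQT⟩
    rw [hf] at h
    have hne : Q ≠ z := fun h' => hzT (h' ▸ hQT)
    simpa [hne] using h
  · have h := h20_evMap_spec hx Qinf (fun ν : {Q // Q ∈ insert z T} => (ν : Place k Fb)) hQ n f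
      ⟨z, Finset.mem_insert_self z T⟩
    rw [hf] at h
    simpa using h

include hx in
/-- A nonzero function with poles only at `Qinf`, vanishing on `T`, with a pole of order exactly
`n` at `Qinf`. -/
theorem h48_exists_exact (T : Finset (Place k Fb)) (hT : ∀ Q ∈ T, Q ≠ Qinf) (n : ℕ)
    (hn : 2 * h75_genus k xb + T.card + 1 ≤ n) :
    ∃ s : Fb, s ≠ 0 ∧ s ∈ h16_Linf Qinf n ∧ (∀ Q ∈ T, h39_Val Q s 0) ∧
      Qinf.ord s = -(n : ℤ) := by
  classical
  obtain ⟨m, rfl⟩ : ∃ m, n = m + 1 := ⟨n - 1, by omega⟩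
  set QT : {Q // Q ∈ T} → Place k Fb := fun ν => (ν : Place k Fb) with hQT
  have hQTinj : Function.Injective QT := Subtype.val_injective
  have hcard : Fintype.card {Q // Q ∈ T} = T.card := Fintype.card_coe T
  set DT : Divisor k Fb := h20_DZ QT with hDT
  have hDT_mem : ∀ Q ∈ T, DT Q = 1 := fun Q hQ => h20_DZ_node QT hQTinj ⟨Q, hQ⟩
  have hDT_not : ∀ v : Place k Fb, v ∉ T → DT v = 0 := fun v hv =>
    h20_DZ_of_ne QT (fun ν h => hv (h ▸ ν.2))
  have hDT_inf : DT Qinf = 0 := hDT_not Qinf (fun h => hT Qinf h rfl)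
  have hDT_nonneg : ∀ v : Place k Fb, 0 ≤ DT v := by
    intro v
    by_cases hv : v ∈ T
    · rw [hDT_mem v hv]; norm_num
    · rw [hDT_not v hv]
  have hdegT : Divisor.degree DT = T.card := by
    rw [hDT, h20_degree_DZ hx QT, hcard]
  have hdeg : ∀ j : ℕ, Divisor.degree (h20_Dinf Qinf j - DT) = (j : ℤ) - T.card := by
    intro j
    rw [map_sub, h20_degree_Dinf hx Qinf j, hdegT]
  have hfin : ∀ j : ℕ, Module.Finite k (riemannRochSpace (h20_Dinf Qinf j - DT)) :=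
    fun j => (h75_riemann hx _).1
  have hrank : ∀ j : ℕ, 2 * h75_genus k xb + T.card ≤ j →
      (Module.finrank k (riemannRochSpace (h20_Dinf Qinf j - DT)) : ℤ) =
        (j : ℤ) - T.card + 1 - h75_genus k xb := by
    intro j hj
    have hj' : (2 * h75_genus k xb : ℤ) + (T.card : ℤ) ≤ (j : ℤ) := by exact_mod_cast hj
    rw [h15_finrank_rr_of_deg hx _ (by rw [hdeg]; omega), hdeg]
  have h1 := hrank m (by omega)
  have h2 := hrank (m + 1) (by omega)
  -- an element of `W (m + 1)` outside `W m`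
  have hex : ∃ s ∈ riemannRochSpace (h20_Dinf Qinf (m + 1) - DT),
      s ∉ riemannRochSpace (h20_Dinf Qinf m - DT) := by
    by_contra hcon
    have hle : riemannRochSpace (h20_Dinf Qinf (m + 1) - DT) ≤
        riemannRochSpace (h20_Dinf Qinf m - DT) := fun s hs => by
      by_contra h
      exact hcon ⟨s, hs, h⟩
    have := hfin m
    have h3 := Submodule.finrank_mono hle
    have h3' : (Module.finrank k (riemannRochSpace (h20_Dinf Qinf (m + 1) - DT)) : ℤ) ≤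
        (Module.finrank k (riemannRochSpace (h20_Dinf Qinf m - DT)) : ℤ) := by exact_mod_cast h3
    rw [h1, h2] at h3'
    push_cast at h3'
    omega
  obtain ⟨s, hs, hs'⟩ := hex
  have hs0 : s ≠ 0 := by
    rintro rfl
    exact hs' (Submodule.zero_mem _)
  rw [mem_riemannRochSpace_iff] at hs
  have hord : ∀ v : Place k Fb, -(h20_Dinf Qinf (m + 1) - DT) v ≤ v.ord s :=
    fun v => (hs v).resolve_left hs0
  have hinf : -((m + 1 : ℕ) : ℤ) ≤ Qinf.ord s := by
    have h := hord Qinf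
    rw [Finsupp.sub_apply, h20_Dinf_self, hDT_inf, sub_zero] at h
    exact h
  have hoff : ∀ v : Place k Fb, v ≠ Qinf → DT v ≤ v.ord s := by
    intro v hv
    have h := hord v
    rw [Finsupp.sub_apply, h20_Dinf_of_ne Qinf (m + 1) hv, zero_sub, neg_neg] at h
    exact h
  refine ⟨s, hs0, ?_, fun Q hQ => ?_, ?_⟩
  · rw [h16_mem_Linf]
    exact Or.inr ⟨fun P hP => le_trans (hDT_nonneg P) (hoff P hP), hinf⟩
  · rw [h39_val_zero_iff]
    right
    have h := hoff Q (hT Q hQ)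
    rw [hDT_mem Q hQ] at h
    omega
  · by_contra hne
    apply hs'
    rw [mem_riemannRochSpace_iff]
    intro v
    right
    by_cases hv : v = Qinf
    · subst hv
      rw [Finsupp.sub_apply, h20_Dinf_self, hDT_inf, sub_zero]
      push_cast at hinf
      omega
    · rw [Finsupp.sub_apply, h20_Dinf_of_ne Qinf m hv, zero_sub, neg_neg]
      exact hoff v hv

/-! ### Pair forms for a lattice with values in `Fb × Fb` -/

section Pair

variable {K F : Type*} [Field K] [Field F] [Algebra K F]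
  (D : h22_Lat K F k (Fb × Fb)) (D0 : Divisor K F) (Sg : Finset (Place k Fb))
  (Φ : Place k Fb → Place k Fb) (hSg : ∀ Q ∈ Sg, Q ≠ Qinf ∧ Φ Q ≠ Qinf) (n0 : ℕ)
  (hnode : ∀ n, n0 ≤ n → ∀ a : Fb × Fb, a ∈ h51_Rd D (n • D0) ↔
    (a.1 ∈ h16_Linf Qinf n ∧ a.2 ∈ h16_Linf Qinf n) ∧
      ∀ Q ∈ Sg, ∃ c : k, h39_Val (Φ Q) a.1 c ∧ h39_Val Q a.2 c)

include hx hSg hnode

/-- (I3) on the second component: a reduction `(0, s₂)` with `s₂(z) = 1` at a non-node point
`z`. -/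
theorem h48_sep_snd (z : Place k Fb) (hz : z ≠ Qinf) (hzS : z ∉ Sg) (n : ℕ) (hn0 : n0 ≤ n)
    (hn : 2 * h75_genus k xb + Sg.card + 1 ≤ n) :
    ∃ s2 : Fb, ((0 : Fb), s2) ∈ h51_Rd D (n • D0) ∧ h39_Val z s2 1 := by
  obtain ⟨s, hs, hsS, hsz⟩ := h48_exists_sep hx Qinf Sg (fun Q hQ => (hSg Q hQ).1) z hz hzS n hn
  refine ⟨s, (hnode n hn0 (0, s)).mpr ⟨⟨Submodule.zero_mem _, hs⟩, fun Q hQ => ⟨0, ?_, hsS Q hQ⟩⟩,
    hsz⟩
  exact (h39_val_zero_iff _).mpr (Or.inl rfl)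

/-- (I3) on the second component: a reduction `(0, s₂)` with `s₂ ≠ 0` of exact pole order `n`
at the cusp. -/
theorem h48_exact_snd (n : ℕ) (hn0 : n0 ≤ n) (hn : 2 * h75_genus k xb + Sg.card + 1 ≤ n) :
    ∃ s2 : Fb, s2 ≠ 0 ∧ ((0 : Fb), s2) ∈ h51_Rd D (n • D0) ∧ Qinf.ord s2 = -(n : ℤ) := by
  obtain ⟨s, hs0, hs, hsS, hord⟩ :=
    h48_exists_exact hx Qinf Sg (fun Q hQ => (hSg Q hQ).1) n hn
  refine ⟨s, hs0,
    (hnode n hn0 (0, s)).mpr ⟨⟨Submodule.zero_mem _, hs⟩, fun Q hQ => ⟨0, ?_, hsS Q hQ⟩⟩, hord⟩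
  exact (h39_val_zero_iff _).mpr (Or.inl rfl)

/-- (I3) on the first component: a reduction `(s₁, 0)` with `s₁(z) = 1` at a point `z` which is
not a node point `Φ Q`. -/
theorem h48_sep_fst (z : Place k Fb) (hz : z ≠ Qinf) (hzS : ∀ Q ∈ Sg, z ≠ Φ Q) (n : ℕ)
    (hn0 : n0 ≤ n) (hn : 2 * h75_genus k xb + Sg.card + 1 ≤ n) :
    ∃ s1 : Fb, (s1, (0 : Fb)) ∈ h51_Rd D (n • D0) ∧ h39_Val z s1 1 := by
  classical
  have hT : ∀ Q ∈ Sg.image Φ, Q ≠ Qinf := by
    intro Q hQ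
    obtain ⟨Q', hQ', rfl⟩ := Finset.mem_image.mp hQ
    exact (hSg Q' hQ').2
  have hzT : z ∉ Sg.image Φ := by
    intro h
    obtain ⟨Q', hQ', h'⟩ := Finset.mem_image.mp h
    exact hzS Q' hQ' h'.symm
  have hcard : (Sg.image Φ).card ≤ Sg.card := Finset.card_image_le
  obtain ⟨s, hs, hsS, hsz⟩ := h48_exists_sep hx Qinf (Sg.image Φ) hT z hz hzT n (by omega)
  refine ⟨s, (hnode n hn0 (s, 0)).mpr ⟨⟨hs, Submodule.zero_mem _⟩, fun Q hQ =>
    ⟨0, hsS (Φ Q) (Finset.mem_image_of_mem Φ hQ), ?_⟩⟩, hsz⟩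
  exact (h39_val_zero_iff _).mpr (Or.inl rfl)

/-- (I3) on the first component: a reduction `(s₁, 0)` with `s₁ ≠ 0` of exact pole order `n` at
the cusp. -/
theorem h48_exact_fst (n : ℕ) (hn0 : n0 ≤ n) (hn : 2 * h75_genus k xb + Sg.card + 1 ≤ n) :
    ∃ s1 : Fb, s1 ≠ 0 ∧ (s1, (0 : Fb)) ∈ h51_Rd D (n • D0) ∧ Qinf.ord s1 = -(n : ℤ) := by
  classical
  have hT : ∀ Q ∈ Sg.image Φ, Q ≠ Qinf := by
    intro Q hQ
    obtain ⟨Q', hQ', rfl⟩ := Finset.mem_image.mp hQ
    exact (hSg Q' hQ').2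
  have hcard : (Sg.image Φ).card ≤ Sg.card := Finset.card_image_le
  obtain ⟨s, hs0, hs, hsS, hord⟩ := h48_exists_exact hx Qinf (Sg.image Φ) hT n (by omega)
  refine ⟨s, hs0, (hnode n hn0 (s, 0)).mpr ⟨⟨hs, Submodule.zero_mem _⟩, fun Q hQ =>
    ⟨0, hsS (Φ Q) (Finset.mem_image_of_mem Φ hQ), ?_⟩⟩, hord⟩
  exact (h39_val_zero_iff _).mpr (Or.inl rfl)

end Pair

end Fermat.Agent.S40
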