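import Mathlib
import Fermat.Agent.S34.h20_ChartNode
import Fermat.Agent.S36.h64_NodeCount
import Fermat.Agent.S40.h48_Sep
import Fermat.Agent.S40.h31_TwistQbar

/-!
# S40 / (TR) by lattice count, row W6 (W-UB): the `Sg`-form (helper31)

The W9 binder block gives the node set as a finset `Sg` of places of `Fb` with a partner map `Φ`
(node on the first component `Φ Q`, on the second `Q`) and the SHARP node theorem
`a ∈ red (L(n D0) ∩ O) ↔ a ∈ L(n Qinf)² ∧ ∀ Q ∈ Sg, a.1(Φ Q) = a.2(Q)` for `n ≥ n0`.  From it: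

* `h31_hnode_of_sharp` : the `D`-free node description (binder `hnode` of `h31_twist_incl`) for
  `Z := {Q // Q ∈ Sg}`, `Q1 ν := Φ ν`, `Q2 ν := ν`;
* `h31_twist_sep` : the separators (binder `hsep` of `h31_twist_incl`) by the power trick (any
  lift `s'` of `(0, σ)`, then `s := s' ^ N` with `N` large, rank one);
* `h31_node_card` : `#Sg = g_F - 2 g_Fb + 1`;
* `h31_twist_qbar_sg` : **W6 in the `Sg`-form**: for every `u ≠ 0` and every divisor `E` of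
  degree `0` with `p E = div u`: `p ∣ h43_rord R₁ Q u` off the nodes `Φ S` of the first component,
  `p ∣ h43_rord R₂ Q u` off the nodes `S` of the second, and
  `p ∣ h43_rord R₁ (Φ S) u + h43_rord R₂ S u` for `S ∈ Sg`.
-/

set_option autoImplicit false

noncomputable section

open AlgebraicCurve Module

namespace Fermat.Agent.S40

open Fermat.Agent.S18 Fermat.Agent.S34 Fermat.Agent.S24 Fermat.Agent.S27 Fermat.Agent.S33

variable {K F k Fb : Type*} [Field K] [Field F] [Algebra K F] [Field k] [Field Fb] [Algebra k Fb]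

/-- The sharp node theorem in the `h20_P` form is the one in the `h16_Linf` form. -/
theorem h31_sharp_Linf (D : h22_Lat K F k (Fb × Fb)) (D0 : Divisor K F) (Qinf : Place k Fb)
    (Sg : Finset (Place k Fb)) (Φ : Place k Fb → Place k Fb) (n0 : ℕ)
    (hnode : ∀ n, n0 ≤ n → ∀ a : Fb × Fb, a ∈ h51_Rd D (n • D0) ↔
      (a ∈ h20_P Qinf n ∧ ∀ Q ∈ Sg, ∃ c : k, h39_Val (Φ Q) a.1 c ∧ h39_Val Q a.2 c)) :
    ∀ n, n0 ≤ n → ∀ a : Fb × Fb, a ∈ h51_Rd D (n • D0) ↔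
      (a.1 ∈ h16_Linf Qinf n ∧ a.2 ∈ h16_Linf Qinf n) ∧
        ∀ Q ∈ Sg, ∃ c : k, h39_Val (Φ Q) a.1 c ∧ h39_Val Q a.2 c := by
  intro n hn a
  rw [hnode n hn a, h20_mem_P_Linf]

/-- The `D`-free node description from the sharp node theorem. -/
theorem h31_hnode_of_sharp (R₁ R₂ : h39_RedDatum K F k Fb) (D : h22_Lat K F k (Fb × Fb))
    (hDO : ∀ f : F, f ∈ D.O ↔ f ∈ R₁.O ∧ f ∈ R₂.O)
    (hDred : ∀ f : F, f ∈ R₁.O → f ∈ R₂.O → D.redF f = (R₁.redF f, R₂.redF f))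
    (D0 : Divisor K F) (Qinf : Place k Fb) (Sg : Finset (Place k Fb))
    (Φ : Place k Fb → Place k Fb) (n0 : ℕ)
    (hnode : ∀ n, n0 ≤ n → ∀ a : Fb × Fb, a ∈ h51_Rd D (n • D0) ↔
      (a ∈ h20_P Qinf n ∧ ∀ Q ∈ Sg, ∃ c : k, h39_Val (Φ Q) a.1 c ∧ h39_Val Q a.2 c)) :
    ∀ n, n0 ≤ n → ∀ G : F, G ∈ riemannRochSpace (n • D0) → G ∈ R₁.O → G ∈ R₂.O →
      (R₁.redF G ∈ h16_Linf Qinf n ∧ R₂.redF G ∈ h16_Linf Qinf n) ∧
        ∀ ν : {Q // Q ∈ Sg}, ∃ c : k,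
          h39_Val (Φ ν.1) (R₁.redF G) c ∧ h39_Val ν.1 (R₂.redF G) c := by
  intro n hn G hG h1 h2
  have hmem : (R₁.redF G, R₂.redF G) ∈ h51_Rd D (n • D0) :=
    ⟨G, hG, (hDO G).mpr ⟨h1, h2⟩, hDred G h1 h2⟩
  obtain ⟨hP, hc⟩ := (hnode n hn _).mp hmem
  exact ⟨h20_mem_P_Linf.mp hP, fun ν => hc ν.1 ν.2⟩

/-- **The separators by the power trick** (binder `hsep` of `h31_twist_incl`). -/
theorem h31_twist_sep [IsAlgClosed k] (R₁ R₂ : h39_RedDatum K F k Fb) (hrk : h39_RankOne R₁.A)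
    (D : h22_Lat K F k (Fb × Fb))
    (hDO : ∀ f : F, f ∈ D.O ↔ f ∈ R₁.O ∧ f ∈ R₂.O)
    (hDred : ∀ f : F, f ∈ R₁.O → f ∈ R₂.O → D.redF f = (R₁.redF f, R₂.redF f))
    {xb : Fb} (hxb : h75_IsChart k xb) (D0 : Divisor K F) (Qinf : Place k Fb)
    (Sg : Finset (Place k Fb)) (Φ : Place k Fb → Place k Fb)
    (hSg : ∀ Q ∈ Sg, Q ≠ Qinf ∧ Φ Q ≠ Qinf) (n0 : ℕ)
    (hnode : ∀ n, n0 ≤ n → ∀ a : Fb × Fb, a ∈ h51_Rd D (n • D0) ↔
      (a ∈ h20_P Qinf n ∧ ∀ Q ∈ Sg, ∃ c : k, h39_Val (Φ Q) a.1 c ∧ h39_Val Q a.2 c))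
    (π : K) (hπ0 : π ≠ 0) (z : Place k Fb) (hz : z ∉ Sg) :
    ∃ (s : F) (ns : ℕ), s ∈ riemannRochSpace (ns • D0) ∧ (algebraMap K F π)⁻¹ * s ∈ R₁.O ∧
      s ∈ R₂.O ∧ R₂.redF s ≠ 0 ∧
      z.ord (R₂.redF s) ≤ -((ns • Finsupp.single Qinf (1 : ℤ) : Divisor k Fb) z) := by
  classical
  have hnode' := h31_sharp_Linf D D0 Qinf Sg Φ n0 hnode
  set n : ℕ := n0 + (2 * h75_genus k xb + Sg.card + 1) with hn
  have hn0 : n0 ≤ n := Nat.le_add_right _ _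
  have hn1 : 2 * h75_genus k xb + Sg.card + 1 ≤ n := Nat.le_add_left _ _
  -- a lift `s'` of `(0, s2)` with `s2 ≠ 0` and `ord_z s2 ≤ -(n Qinf)(z)`
  have hs2 : ∃ s2 : Fb, s2 ≠ 0 ∧ ((0 : Fb), s2) ∈ h51_Rd D (n • D0) ∧
      z.ord s2 = -((n • Finsupp.single Qinf (1 : ℤ) : Divisor k Fb) z) := by
    by_cases hzinf : z = Qinf
    · obtain ⟨s2, hs20, hmem, hord⟩ := h48_exact_snd hxb Qinf D D0 Sg Φ hSg n0 hnode' n hn0 hn1
      refine ⟨s2, hs20, hmem, ?_⟩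
      rw [hzinf, hord, Finsupp.smul_apply, Finsupp.single_eq_same, nsmul_eq_mul, mul_one]
    · obtain ⟨s2, hmem, hval⟩ := h48_sep_snd hxb Qinf D D0 Sg Φ hSg n0 hnode' z hzinf hz n hn0 hn1
      obtain ⟨hs20, hord⟩ := (h31_val_ne_zero_iff z hval).mp one_ne_zero
      refine ⟨s2, hs20, hmem, ?_⟩
      rw [hord, Finsupp.smul_apply, Finsupp.single_eq_of_ne hzinf, smul_zero, neg_zero]
  obtain ⟨s2, hs20, ⟨s', hs'L, hs'O, hs'red⟩, hord⟩ := hs2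
  obtain ⟨hs'1, hs'2⟩ := (hDO s').mp hs'O
  rw [hDred s' hs'1 hs'2, Prod.mk.injEq] at hs'red
  obtain ⟨hr1, hr2⟩ := hs'red
  -- `s' = c g` with `c` of zero residue; rank one
  obtain ⟨c, g, hcA, hcres, hgO, hsg⟩ := h39_exists_factor_of_redF_eq_zero R₁ hs'1 hr1
  obtain ⟨N, hN⟩ := h10_rankOne_pow R₁ hrk hcA hcres hπ0
  set N' : ℕ := N + 1 with hN'
  have hN'pos : 0 < N' := Nat.succ_pos N
  have hcN : c ^ N' * π⁻¹ ∈ R₁.A := hN N' (Nat.le_succ N)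
  refine ⟨s' ^ N', N' * n, ?_, ?_, R₂.O.pow_mem hs'2 N', ?_, ?_⟩
  · have := h31_pow_mem_rr hs'L N'
    rwa [← mul_nsmul'] at this
  · have h1 : (algebraMap K F π)⁻¹ * s' ^ N' = algebraMap K F (c ^ N' * π⁻¹) * g ^ N' := by
      rw [hsg, mul_pow, map_mul, map_pow, map_inv₀]
      ring
    rw [h1]
    exact R₁.O.mul_mem _ _ ((R₁.mem_iff _).mp hcN) (R₁.O.pow_mem hgO N')
  · rw [h39_redF_pow R₂ hs'2, hr2]
    exact pow_ne_zero N' hs20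
  · rw [h39_redF_pow R₂ hs'2, hr2, ← zpow_natCast, Place.ord_zpow, hord, Finsupp.smul_apply,
      Finsupp.smul_apply, nsmul_eq_mul, nsmul_eq_mul]
    push_cast
    apply le_of_eq
    ring

/-- **The number of nodes** from the sharp node theorem: `#Sg = g_F - 2 g_Fb + 1`. -/
theorem h31_node_card [IsAlgClosed K] [IsAlgClosed k]
    {xF : F} (hxF : h75_IsChart K xF) {xb : Fb} (hxb : h75_IsChart k xb)
    (D : h22_Lat K F k (Fb × Fb)) (hON : h22_ON D)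
    (D0 : Divisor K F) (hdeg : Divisor.degree D0 = 2) (Qinf : Place k Fb)
    (Sg : Finset (Place k Fb)) (Φ : Place k Fb → Place k Fb) (hΦ : Function.Injective Φ)
    (hSg : ∀ Q ∈ Sg, Q ≠ Qinf ∧ Φ Q ≠ Qinf) (n0 : ℕ)
    (hnode : ∀ n, n0 ≤ n → ∀ a : Fb × Fb, a ∈ h51_Rd D (n • D0) ↔
      (a ∈ h20_P Qinf n ∧ ∀ Q ∈ Sg, ∃ c : k, h39_Val (Φ Q) a.1 c ∧ h39_Val Q a.2 c)) :
    (Sg.card : ℤ) = (h75_genus K xF : ℤ) - 2 * (h75_genus k xb : ℤ) + 1 := by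
  classical
  set gF := h75_genus K xF with hgF
  set gb := h75_genus k xb with hgb
  set n : ℕ := n0 + 2 * gF + 2 * gb + Sg.card with hn
  have hnodeP := h31_sharp_Linf D D0 Qinf Sg Φ n0 hnode
  have hnode' := h20_chart_hnode hxb Qinf Sg Φ hSg D D0 n0 hnodeP n (by omega)
  have hind := h20_chart_hind_nodes hxb Qinf Sg Φ hSg hΦ n (by omega)
  have : FiniteDimensional k (h20_P Qinf n) := h20_P_finite hxb Qinf n
  let e1 := h20_e1 hxb Qinf (h20_nodeQ1 Sg Φ) (h20_nodeQ1_ne Qinf Sg Φ hSg)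
  let e2 := h20_e2 hxb Qinf (h20_nodeQ2 Sg) (h20_nodeQ2_ne Qinf Sg Φ hSg)
  let ι : h20_P Qinf n → h20_Bs Qinf := fun a => ⟨a.1, h20_P_le_Bs Qinf n a.1 a.2⟩
  have hιadd : ∀ a b, ι (a + b) = ι a + ι b := fun a b => Subtype.ext rfl
  have hιsmul : ∀ (c : k) a, ι (c • a) = c • ι a := fun c a => Subtype.ext rfl
  let δ : h20_P Qinf n →ₗ[k] ({Q // Q ∈ Sg} → k) :=
    { toFun := fun a ν => e2 ν (ι a) - e1 ν (ι a)
      map_add' := by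
        intro a b
        funext ν
        simp only [hιadd, map_add, Pi.add_apply]
        ring
      map_smul' := by
        intro c a
        funext ν
        simp only [hιsmul, map_smul, Pi.smul_apply, RingHom.id_apply, smul_eq_mul]
        ring }
  have hδ : ∀ a ν, δ a ν = e2 ν (ι a) - e1 ν (ι a) := fun a ν => rfl
  have hsurj : Function.Surjective δ := by
    intro t
    obtain ⟨a, h, h1, h2⟩ := hind (fun _ => 0) t
    refine ⟨⟨a, h⟩, ?_⟩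
    funext ν
    rw [hδ]
    have h1' : e1 ν (ι ⟨a, h⟩) = 0 := h1 ν
    have h2' : e2 ν (ι ⟨a, h⟩) = t ν := h2 ν
    rw [h1', h2', sub_zero]
  have hR : ∀ a : Fb × Fb, a ∈ h51_Rd D (n • D0) ↔ ∃ h : a ∈ h20_P Qinf n, δ ⟨a, h⟩ = 0 := by
    intro a
    rw [hnode' a]
    constructor
    · rintro ⟨h, he⟩
      refine ⟨h, ?_⟩
      funext ν
      rw [hδ]
      have := he ν
      show e2 ν (ι ⟨a, h⟩) - e1 ν (ι ⟨a, h⟩) = 0
      exact sub_eq_zero.mpr this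
    · rintro ⟨h, he⟩
      refine ⟨h, fun ν => ?_⟩
      have := congrFun he ν
      rw [hδ] at this
      exact sub_eq_zero.mp this
  have hcount := Fermat.Agent.S36.h64_finrank_node_kernel (h20_P Qinf n) (h51_Rd D (n • D0)) δ
    hsurj hR
  rw [Fintype.card_coe] at hcount
  have hcodim := h16_codim_chart hxF hxb D hON D0 hdeg Qinf n (by omega) (by omega)
  have hPeq : finrank k (h20_P Qinf n) = finrank k (h16_pairFil (h16_Linf Qinf) n) := rfl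
  rw [← hPeq, hcount] at hcodim
  push_cast at hcodim
  linarith

/-- **W6 in the `Sg`-form** (generic): see the file header. -/
theorem h31_twist_qbar_sg [IsAlgClosed K] [IsAlgClosed k]
    (R₁ R₂ : h39_RedDatum K F k Fb) (hA : R₁.A = R₂.A) (hrk : h39_RankOne R₁.A)
    (hsep0 : ∃ t : F, t ∈ R₁.O ∧ t ∈ R₂.O ∧ R₁.redF t = 1 ∧ R₂.redF t = 0)
    (D : h22_Lat K F k (Fb × Fb)) (hON : h22_ON D)
    (hDO : ∀ f : F, f ∈ D.O ↔ f ∈ R₁.O ∧ f ∈ R₂.O)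
    (hDred : ∀ f : F, f ∈ R₁.O → f ∈ R₂.O → D.redF f = (R₁.redF f, R₂.redF f))
    {xF : F} (hxF : h75_IsChart K xF) {xb : Fb} (hxb : h75_IsChart k xb)
    (D0 : Divisor K F) (hdeg : Divisor.degree D0 = 2) (Qinf : Place k Fb)
    (Sg : Finset (Place k Fb)) (Φ : Place k Fb → Place k Fb) (hΦ : Function.Injective Φ)
    (hSg : ∀ Q ∈ Sg, Q ≠ Qinf ∧ Φ Q ≠ Qinf) (n0 : ℕ)
    (hnode : ∀ n, n0 ≤ n → ∀ a : Fb × Fb, a ∈ h51_Rd D (n • D0) ↔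
      (a ∈ h20_P Qinf n ∧ ∀ Q ∈ Sg, ∃ c : k, h39_Val (Φ Q) a.1 c ∧ h39_Val Q a.2 c))
    (p : ℕ) (hp : 0 < p) (π : K) (hπ0 : π ≠ 0) (hπ₁ : π ∈ R₁.A) (hπinv : π⁻¹ ∉ R₁.A)
    (a : {Q // Q ∈ Sg} → F) (na : ℕ) (ha : ∀ ν, a ν ∈ riemannRochSpace (na • D0))
    (ha₁ : ∀ ν, (algebraMap K F π)⁻¹ * a ν ∈ R₁.O) (ha₂ : ∀ ν, a ν ∈ R₂.O)
    (haρ : ∀ ν : {Q // Q ∈ Sg}, R₁.redF ((algebraMap K F π)⁻¹ * a ν) ≠ 0 ∧
      (Φ ν.1).ord (R₁.redF ((algebraMap K F π)⁻¹ * a ν)) = -1)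
    (haα : ∀ ν : {Q // Q ∈ Sg}, R₂.redF (a ν) ≠ 0 ∧ (ν.1).ord (R₂.redF (a ν)) = 1)
    (u : F) (hu : u ≠ 0) (E : Divisor K F) (hE : ∀ P : Place K F, (p : ℤ) * E P = P.ord u)
    (hEdeg : Divisor.degree E = 0) :
    (∀ Q : Place k Fb, (∀ S ∈ Sg, Φ S ≠ Q) → (p : ℤ) ∣ h43_rord R₁ Q u) ∧
    (∀ Q : Place k Fb, Q ∉ Sg → (p : ℤ) ∣ h43_rord R₂ Q u) ∧
    (∀ S ∈ Sg, (p : ℤ) ∣ h43_rord R₁ (Φ S) u + h43_rord R₂ S u) := by
  classical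
  have hcard : (Fintype.card {Q // Q ∈ Sg} : ℤ) =
      (h75_genus K xF : ℤ) - 2 * (h75_genus k xb : ℤ) + 1 := by
    rw [Fintype.card_coe]
    exact h31_node_card hxF hxb D hON D0 hdeg Qinf Sg Φ hΦ hSg n0 hnode
  have hmain := h31_twist_qbar R₁ R₂ hA hrk hsep0 D hON hDO hDred hxF D0 hdeg Qinf
    (fun ν : {Q // Q ∈ Sg} => Φ ν.1) (fun ν : {Q // Q ∈ Sg} => ν.1)
    (fun ν => (hSg ν.1 ν.2).2) (fun ν => (hSg ν.1 ν.2).1)
    (fun ν ν' h => Subtype.ext (hΦ h)) Subtype.val_injective hxb hcard n0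
    (h31_hnode_of_sharp R₁ R₂ D hDO hDred D0 Qinf Sg Φ n0 hnode) p hp π hπ0 hπ₁ hπinv a na ha
    ha₁ ha₂ haρ haα
    (fun z hz => h31_twist_sep R₁ R₂ hrk D hDO hDred hxb D0 Qinf Sg Φ hSg n0 hnode π hπ0 z
      (fun hzS => hz ⟨z, hzS⟩ rfl))
    u hu E hE hEdeg
  obtain ⟨h1, h2, h3⟩ := hmain
  exact ⟨fun Q hQ => h1 Q (fun ν => hQ ν.1 ν.2), fun Q hQ => h2 Q (fun ν h => hQ (h ▸ ν.2)),
    fun S hS => h3 ⟨S, hS⟩⟩

end Fermat.Agent.S40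

end
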