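import Mathlib
import Fermat.Agent.S34.h87_NodeInst
import Fermat.Agent.S40.h31_TwistSg

/-!
# S40 / (TR) rows W6/W7: the W9 binder block in the shapes of the generic theorems (helper31)

At a level `M p` (`p ∤ M` prime), from the W9 binder block `(Sg, hSg, n0, hnode)` (the sharp node
theorem of `h87_node_closed`, taken as a hypothesis), for `Z := {Q // Q ∈ Sg}`,
`Q1 ν := Φ ν.1`, `Q2 ν := ν.1`:

* `h31_block_hnode` : the binder `hnode` of `h31_twist_incl` / `h50_twist_w6` / `h38_twist_w67`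
  (the body of `h38_HNode`);
* `h31_block_hsep` : the binder `hsep` of the same theorems, with `π := (p : Qb)`;
* `h31_block_card` : `#Z = g(F(M p)) - 2 g(Fb(M)) + 1`;
* `h31_block_rank` : the rank clause `2 n + 2 - 2 g(Fb(M)) - #Z ≤ r` from
  `r = 2 n + 1 - g(F(M p))`;
* `h31_block_Q1_ne`, `h31_block_Q2_ne`, `h31_block_Q1_inj` : the side conditions.
-/

set_option autoImplicit false
set_option synthInstance.maxHeartbeats 400000

noncomputable section

open AlgebraicCurve ModularCurve Module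

namespace Fermat.Agent.S40

open Fermat.Agent.S18 Fermat.Agent.S34 Fermat.Agent.S24 Fermat.Agent.S27 Fermat.Agent.S37

local notation "Qb" => AlgebraicClosure ℚ

section Block

variable (M p : ℕ) [NeZero M] [NeZero p] [Fact p.Prime] (hpM : ¬ p ∣ M)
  (A : ValuationSubring Qb) (hA : A.LiesOverPrime p)
  [CharP (IsLocalRing.ResidueField A) p] [IsAlgClosed (IsLocalRing.ResidueField A)]
  (Sg : Finset (Place (IsLocalRing.ResidueField A)
    ↥(modularFunctionFieldFullC (IsLocalRing.ResidueField A) M)))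
  (hSg : ∀ Q ∈ Sg, Q ≠ h11_placeInftyC (IsLocalRing.ResidueField A) M ∧
    h96_frobPerm (h84_isFrobChart_jk M p hpM A hA) Q ≠
      h11_placeInftyC (IsLocalRing.ResidueField A) M ∧
    h96_frobPerm (h84_isFrobChart_jk M p hpM A hA)
      (h96_frobPerm (h84_isFrobChart_jk M p hpM A hA) Q) = Q)
  (n0 : ℕ)
  (hnode : ∀ n, n0 ≤ n → ∀ a : ↥(modularFunctionFieldFullC (IsLocalRing.ResidueField A) M) ×
      ↥(modularFunctionFieldFullC (IsLocalRing.ResidueField A) M),
    a ∈ h51_Rd (h87_D M p hpM A hA) (n • h87_D0 M p hpM) ↔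
      (a ∈ h20_P (h11_placeInftyC (IsLocalRing.ResidueField A) M) n ∧
        ∀ Q ∈ Sg, ∃ c : IsLocalRing.ResidueField A,
          h39_Val (h96_frobPerm (h84_isFrobChart_jk M p hpM A hA) Q) a.1 c ∧
            h39_Val Q a.2 c))

include hSg in
theorem h31_block_Q1_ne (ν : {Q // Q ∈ Sg}) :
    h96_frobPerm (h84_isFrobChart_jk M p hpM A hA) ν.1 ≠
      h11_placeInftyC (IsLocalRing.ResidueField A) M :=
  (hSg ν.1 ν.2).2.1

include hSg in
theorem h31_block_Q2_ne (ν : {Q // Q ∈ Sg}) :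
    ν.1 ≠ h11_placeInftyC (IsLocalRing.ResidueField A) M :=
  (hSg ν.1 ν.2).1

theorem h31_block_Q1_inj :
    Function.Injective (fun ν : {Q // Q ∈ Sg} =>
      h96_frobPerm (h84_isFrobChart_jk M p hpM A hA) ν.1) :=
  fun _ _ h => Subtype.ext ((h96_frobPerm (h84_isFrobChart_jk M p hpM A hA)).injective h)

include hnode in
/-- the binder `hnode` of `h31_twist_incl` / `h50_twist_w6` / `h38_twist_w67` (`h38_HNode`). -/
theorem h31_block_hnode :
    ∀ n, n0 ≤ n → ∀ G : ↥(modularFunctionFieldBar (M * p)),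
      G ∈ riemannRochSpace (n • h87_D0 M p hpM) → G ∈ (h60_R1 M p hpM A hA).O →
      G ∈ (h60_R2 M p hpM A hA).O →
      ((h60_R1 M p hpM A hA).redF G ∈
          h16_Linf (h11_placeInftyC (IsLocalRing.ResidueField A) M) n ∧
        (h60_R2 M p hpM A hA).redF G ∈
          h16_Linf (h11_placeInftyC (IsLocalRing.ResidueField A) M) n) ∧
      ∀ ν : {Q // Q ∈ Sg}, ∃ c : IsLocalRing.ResidueField A,
        h39_Val (h96_frobPerm (h84_isFrobChart_jk M p hpM A hA) ν.1)
          ((h60_R1 M p hpM A hA).redF G) c ∧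
        h39_Val ν.1 ((h60_R2 M p hpM A hA).redF G) c :=
  h31_hnode_of_sharp (h60_R1 M p hpM A hA) (h60_R2 M p hpM A hA) (h87_D M p hpM A hA)
    (fun _ => h87_D_mem M p hpM A hA) (fun _ h1 h2 => h87_D_redF M p hpM A hA h1 h2)
    (h87_D0 M p hpM) (h11_placeInftyC (IsLocalRing.ResidueField A) M) Sg
    (h96_frobPerm (h84_isFrobChart_jk M p hpM A hA)) n0 hnode

include hSg hnode in
/-- the binder `hsep` of `h31_twist_incl` / `h50_twist_w6` / `h38_twist_w67`, `π := (p : Qb)`. -/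
theorem h31_block_hsep :
    ∀ z : Place (IsLocalRing.ResidueField A)
        ↥(modularFunctionFieldFullC (IsLocalRing.ResidueField A) M),
      (∀ ν : {Q // Q ∈ Sg}, ν.1 ≠ z) →
      ∃ (s : ↥(modularFunctionFieldBar (M * p))) (ns : ℕ),
        s ∈ riemannRochSpace (ns • h87_D0 M p hpM) ∧
        (algebraMap Qb ↥(modularFunctionFieldBar (M * p)) (p : Qb))⁻¹ * s ∈
          (h60_R1 M p hpM A hA).O ∧
        s ∈ (h60_R2 M p hpM A hA).O ∧ (h60_R2 M p hpM A hA).redF s ≠ 0 ∧
        z.ord ((h60_R2 M p hpM A hA).redF s) ≤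
          -((ns • Finsupp.single (h11_placeInftyC (IsLocalRing.ResidueField A) M) (1 : ℤ) :
            Divisor (IsLocalRing.ResidueField A)
              ↥(modularFunctionFieldFullC (IsLocalRing.ResidueField A) M)) z) := by
  intro z hz
  have hp : p.Prime := Fact.out
  have hp0 : (p : Qb) ≠ 0 := Nat.cast_ne_zero.mpr hp.ne_zero
  have hrk : h39_RankOne (h60_R1 M p hpM A hA).A := by
    rw [h60_R1_A M p hpM A hA]
    exact h64_rankOne_h39 hp A hA
  exact h31_twist_sep (h60_R1 M p hpM A hA) (h60_R2 M p hpM A hA) hrk (h87_D M p hpM A hA)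
    (fun _ => h87_D_mem M p hpM A hA) (fun _ h1 h2 => h87_D_redF M p hpM A hA h1 h2)
    (h84_isChart_jk M p hpM A hA) (h87_D0 M p hpM)
    (h11_placeInftyC (IsLocalRing.ResidueField A) M) Sg
    (h96_frobPerm (h84_isFrobChart_jk M p hpM A hA))
    (fun Q hQ => ⟨(hSg Q hQ).1, (hSg Q hQ).2.1⟩) n0 hnode (p : Qb) hp0 z
    (fun hzS => hz ⟨z, hzS⟩ rfl)

include hSg hnode in
/-- the number of nodes: `#Sg = g(F(M p)) - 2 g(Fb(M)) + 1`. -/
theorem h31_block_card :
    (Fintype.card {Q // Q ∈ Sg} : ℤ) =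
      (h75_genus Qb (h59_jbar (M * p)) : ℤ) -
        2 * (h75_genus (IsLocalRing.ResidueField A) (h54_jk (IsLocalRing.ResidueField A) M) : ℤ)
        + 1 := by
  rw [Fintype.card_coe]
  exact h31_node_card (h54_isChart_jbar (M * p)) (h84_isChart_jk M p hpM A hA)
    (h87_D M p hpM A hA) (h87_D_on M p hpM A hA) (h87_D0 M p hpM) (h87_D0_degree M p hpM)
    (h11_placeInftyC (IsLocalRing.ResidueField A) M) Sg
    (h96_frobPerm (h84_isFrobChart_jk M p hpM A hA))
    (h96_frobPerm (h84_isFrobChart_jk M p hpM A hA)).injective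
    (fun Q hQ => ⟨(hSg Q hQ).1, (hSg Q hQ).2.1⟩) n0 hnode

include hSg hnode in
/-- the rank clause of `h50_twist_w6` / `h38_twist_w67` from `r = 2 n + 1 - g(F(M p))`. -/
theorem h31_block_rank (n : ℕ) (r : ℤ)
    (hr : r = 2 * (n : ℤ) + 1 - (h75_genus Qb (h59_jbar (M * p)) : ℤ)) :
    2 * (n : ℤ) + 2 -
        2 * (h75_genus (IsLocalRing.ResidueField A) (h54_jk (IsLocalRing.ResidueField A) M) : ℤ)
        - Fintype.card {Q // Q ∈ Sg} ≤ r := by
  rw [h31_block_card M p hpM A hA Sg hSg n0 hnode, hr]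
  linarith

end Block

end Fermat.Agent.S40

end
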