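import Mathlib
import Fermat.Agent.S40.h50_UBound
import Fermat.Agent.S40.h50_TwistRank
import Fermat.Agent.S40.h50_TwistArith

/-!
# S40 / (TR) v2, row W6 (W-UB): the twist count (COUNT), generic (helper50)

Assembly of (K1) `h50_twist_rank`/`h50_rr_exact`, (K2) the floor-divided bound divisors of
`h50_UBound`, and (K3) `h50_twist_arith`.
-/

set_option autoImplicit false

open AlgebraicCurve Module

namespace Fermat.Agent.S40

open Fermat.Agent.S18

section bound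

variable {k Fb : Type*} [Field k] [Field Fb] [Algebra k Fb]

/-- The bound divisor `E + m Q∞ + d N` (`N` the set of nodes of a component). -/
noncomputable def h50_G (E : Divisor k Fb) (Qinf : Place k Fb) (m : ℤ)
    (N : Finset (Place k Fb)) (d : ℤ) : Divisor k Fb :=
  E + m • Finsupp.single Qinf 1 + d • h50_ind N

theorem h50_G_apply_node (E : Divisor k Fb) (Qinf : Place k Fb) (m : ℤ)
    (N : Finset (Place k Fb)) (d : ℤ) {z : Place k Fb} (hz : z ∈ N) (hne : z ≠ Qinf) :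
    h50_G E Qinf m N d z = E z + d := by
  simp [h50_G, h50_ind_apply_mem hz, Ne.symm hne]

theorem h50_G_apply_inf (E : Divisor k Fb) (Qinf : Place k Fb) (m : ℤ)
    (N : Finset (Place k Fb)) (d : ℤ) (hinf : Qinf ∉ N) :
    h50_G E Qinf m N d Qinf = E Qinf + m := by
  simp [h50_G, h50_ind_apply_not_mem hinf]

theorem h50_G_apply_other (E : Divisor k Fb) (Qinf : Place k Fb) (m : ℤ)
    (N : Finset (Place k Fb)) (d : ℤ) {z : Place k Fb} (hz : z ∉ N) (hne : z ≠ Qinf) :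
    h50_G E Qinf m N d z = E z := by
  simp [h50_G, h50_ind_apply_not_mem hz, Ne.symm hne]

theorem h50_G_support [DecidableEq (Place k Fb)] (E : Divisor k Fb) (Qinf : Place k Fb) (m : ℤ)
    (N : Finset (Place k Fb)) (d : ℤ) :
    (h50_G E Qinf m N d).support ⊆ (E.support ∪ {Qinf}) ∪ N := by
  intro z hz
  by_contra hcon
  simp only [Finset.mem_union, Finset.mem_singleton, not_or] at hcon
  obtain ⟨⟨h1, h2⟩, h3⟩ := hcon
  rw [Finsupp.mem_support_iff, h50_G_apply_other E Qinf m N d h3 h2] at hz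
  exact hz (by simpa using h1)

theorem h50_G_degree (hdeg : ∀ P : Place k Fb, P.deg = 1) (E : Divisor k Fb)
    (Qinf : Place k Fb) (m : ℤ) (N : Finset (Place k Fb)) (d : ℤ) :
    Divisor.degree (h50_G E Qinf m N d) = Divisor.degree E + m + d * N.card := by
  rw [h50_G, map_add, map_add, map_zsmul, map_zsmul, h50_degree_ind hdeg,
    Divisor.degree_single, hdeg]
  simp

/-- The degree of the floor-divided bound divisor. -/
theorem h50_G_fdiv_degree [DecidableEq (Place k Fb)] (hdeg : ∀ P : Place k Fb, P.deg = 1)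
    (p : ℕ) (E : Divisor k Fb) (Qinf : Place k Fb) (m : ℤ) (N : Finset (Place k Fb)) (d : ℤ)
    (hinf : Qinf ∉ N) :
    (p : ℤ) * Divisor.degree (h50_fdiv (h50_G E Qinf ((p : ℤ) * m) N d) p) =
      Divisor.degree E + (p : ℤ) * m + d * N.card
        - ∑ z ∈ ((E.support ∪ {Qinf}) ∪ N) \ N, E z % (p : ℤ)
        - ∑ z ∈ N, (E z + d) % (p : ℤ) := by
  rw [h50_mul_degree_fdiv hdeg _ p _ (h50_G_support E Qinf ((p : ℤ) * m) N d),
    h50_G_degree hdeg]
  have hsub : N ⊆ (E.support ∪ {Qinf}) ∪ N := Finset.subset_union_right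
  rw [← Finset.sum_sdiff hsub]
  have e1 : ∑ z ∈ ((E.support ∪ {Qinf}) ∪ N) \ N, h50_G E Qinf ((p : ℤ) * m) N d z % (p : ℤ) =
      ∑ z ∈ ((E.support ∪ {Qinf}) ∪ N) \ N, E z % (p : ℤ) := by
    refine Finset.sum_congr rfl fun z hz => ?_
    have hzN : z ∉ N := (Finset.mem_sdiff.mp hz).2
    by_cases hzi : z = Qinf
    · subst hzi
      rw [h50_G_apply_inf E z ((p : ℤ) * m) N d hzN, Int.add_mul_emod_self_left]
    · rw [h50_G_apply_other E Qinf ((p : ℤ) * m) N d hzN hzi]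
  have e2 : ∑ z ∈ N, h50_G E Qinf ((p : ℤ) * m) N d z % (p : ℤ) =
      ∑ z ∈ N, (E z + d) % (p : ℤ) := by
    refine Finset.sum_congr rfl fun z hz => ?_
    have hzi : z ≠ Qinf := fun h => hinf (h ▸ hz)
    rw [h50_G_apply_node E Qinf ((p : ℤ) * m) N d hz hzi]
  rw [e1, e2]
  ring

end bound

section count

variable {k Fb : Type*} [Field k] [Field Fb] [Algebra k Fb] [IsAlgClosed k]

/-- Residues are bounded by `p` per term. -/
theorem h50_sum_emod_le {ι : Type*} (s : Finset ι) (f : ι → ℤ) (p : ℕ) (hp : 0 < p) :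
    ∑ z ∈ s, f z % (p : ℤ) ≤ (p : ℤ) * s.card := by
  have hp' : (0 : ℤ) < (p : ℤ) := by exact_mod_cast hp
  have h := Finset.sum_le_card_nsmul s (fun z => f z % (p : ℤ)) (p : ℤ)
    (fun z _ => (Int.emod_lt_of_pos _ hp').le)
  rw [nsmul_eq_mul] at h
  linarith

theorem h50_sum_emod_nonneg {ι : Type*} (s : Finset ι) (f : ι → ℤ) (p : ℕ) (hp : 0 < p) :
    0 ≤ ∑ z ∈ s, f z % (p : ℤ) := by
  have hp0 : (p : ℤ) ≠ 0 := by exact_mod_cast hp.ne'
  exact Finset.sum_nonneg fun z _ => Int.emod_nonneg _ hp0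

/-- **(COUNT), generic.**  `η₁, η₂` nonzero functions on a curve over an algebraically closed
field, `Q∞` a place, `Q₁ ν`, `Q₂ ν` the nodes on the two components.  If for every twist
`del < p` a space `W del` of pairs `(φ₁, φ₂)` satisfies the order bounds (B1), (B1'), (B2), (B2')
and the node condition (NC) and has dimension at least `2n + 2 - 2g - #Z`, then
`p ∣ ord_Q η_i` off the nodes, `p ∣ ord η₁ + ord η₂` at the nodes, and the spaces `W del`
contain elements with equality in the bounds (tube units). -/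
theorem h50_twist_count {xb : Fb} (hxb : h75_IsChart k xb) (p : ℕ) (hp : 0 < p)
    {Z : Type*} [Fintype Z] (Qinf : Place k Fb) (Q1 Q2 : Z → Place k Fb)
    (hQ1 : Function.Injective Q1) (hQ2 : Function.Injective Q2)
    (hQ1inf : ∀ ν, Q1 ν ≠ Qinf) (hQ2inf : ∀ ν, Q2 ν ≠ Qinf)
    (η1 η2 : Fb) (hη1 : η1 ≠ 0) (hη2 : η2 ≠ 0) :
    ∃ n1 : ℕ, ∀ n : ℕ, n1 ≤ n → ∀ W : ℕ → Submodule k (Fb × Fb),
      (∀ del < p, ∀ φ ∈ W del, φ.1 ≠ 0 → ∀ Q : Place k Fb, Q ≠ Qinf →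
        0 ≤ (p : ℤ) * Q.ord φ.1 + Q.ord η1) →
      (∀ del < p, ∀ φ ∈ W del, φ.1 ≠ 0 →
        -((p : ℤ) * n) ≤ (p : ℤ) * Qinf.ord φ.1 + Qinf.ord η1) →
      (∀ del < p, ∀ φ ∈ W del, φ.1 ≠ 0 → ∀ ν,
        (del : ℤ) ≤ (p : ℤ) * (Q1 ν).ord φ.1 + (Q1 ν).ord η1) →
      (∀ del < p, ∀ φ ∈ W del, φ.2 ≠ 0 → ∀ Q : Place k Fb, Q ≠ Qinf → (∀ ν, Q ≠ Q2 ν) →
        0 ≤ (p : ℤ) * Q.ord φ.2 + Q.ord η2) →
      (∀ del < p, ∀ φ ∈ W del, φ.2 ≠ 0 →
        -((p : ℤ) * n) ≤ (p : ℤ) * Qinf.ord φ.2 + Qinf.ord η2) →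
      (∀ del < p, ∀ φ ∈ W del, φ.2 ≠ 0 → ∀ ν,
        -(del : ℤ) ≤ (p : ℤ) * (Q2 ν).ord φ.2 + (Q2 ν).ord η2) →
      (∀ del < p, ∀ φ ∈ W del, ∀ ν,
        (φ.1 ≠ 0 ∧ (p : ℤ) * (Q1 ν).ord φ.1 + (Q1 ν).ord η1 = del) ↔
          (φ.2 ≠ 0 ∧ (p : ℤ) * (Q2 ν).ord φ.2 + (Q2 ν).ord η2 = -(del : ℤ))) →
      (∀ del < p, (2 * (n : ℤ) + 2 - 2 * (h75_genus k xb : ℤ) - Fintype.card Z) ≤
        (finrank k (W del) : ℤ)) →
      ((∀ Q : Place k Fb, (∀ ν, Q ≠ Q1 ν) → (p : ℤ) ∣ Q.ord η1) ∧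
        (∀ Q : Place k Fb, (∀ ν, Q ≠ Q2 ν) → (p : ℤ) ∣ Q.ord η2)) ∧
      (∀ ν, (p : ℤ) ∣ (Q1 ν).ord η1 + (Q2 ν).ord η2) ∧
      (∀ ν, ∀ del < p, (p : ℤ) ∣ (Q1 ν).ord η1 - del →
        ∃ φ ∈ W del, φ.1 ≠ 0 ∧ (p : ℤ) * (Q1 ν).ord φ.1 + (Q1 ν).ord η1 = del ∧
          φ.2 ≠ 0 ∧ (p : ℤ) * (Q2 ν).ord φ.2 + (Q2 ν).ord η2 = -(del : ℤ)) ∧
      (∀ Q : Place k Fb, (∀ ν, Q ≠ Q1 ν) → ∃ φ ∈ W 0, φ.1 ≠ 0 ∧
        (Q ≠ Qinf → (p : ℤ) * Q.ord φ.1 + Q.ord η1 = 0) ∧
        (Q = Qinf → (p : ℤ) * Q.ord φ.1 + Q.ord η1 = -((p : ℤ) * n))) ∧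
      (∀ Q : Place k Fb, (∀ ν, Q ≠ Q2 ν) → ∃ φ ∈ W 0, φ.2 ≠ 0 ∧
        (Q ≠ Qinf → (p : ℤ) * Q.ord φ.2 + Q.ord η2 = 0) ∧
        (Q = Qinf → (p : ℤ) * Q.ord φ.2 + Q.ord η2 = -((p : ℤ) * n))) := by
  classical
  have hp' : (0 : ℤ) < (p : ℤ) := by exact_mod_cast hp
  have hp0 : (p : ℤ) ≠ 0 := hp'.ne'
  have hdeg : ∀ P : Place k Fb, P.deg = 1 := fun P => h75_deg_eq_one hxb P
  obtain ⟨c1, hc1⟩ := h50_twist_rank hxb
  obtain ⟨c2, hc2⟩ := h50_rr_exact hxb
  obtain ⟨E1, hE1⟩ := h7_exists_div hxb η1 hη1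
  obtain ⟨E2, hE2⟩ := h7_exists_div hxb η2 hη2
  have hE1deg : Divisor.degree E1 = 0 := h7_degree_div hxb hη1 E1 hE1
  have hE2deg : Divisor.degree E2 = 0 := h7_degree_div hxb hη2 E2 hE2
  -- the node sets
  set N1 : Finset (Place k Fb) := Finset.univ.image Q1 with hN1
  set N2 : Finset (Place k Fb) := Finset.univ.image Q2 with hN2
  have hN1card : N1.card = Fintype.card Z := by
    rw [hN1, Finset.card_image_of_injective _ hQ1, Finset.card_univ]
  have hN2card : N2.card = Fintype.card Z := by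
    rw [hN2, Finset.card_image_of_injective _ hQ2, Finset.card_univ]
  have hmemN1 : ∀ ν, Q1 ν ∈ N1 := fun ν => Finset.mem_image_of_mem Q1 (Finset.mem_univ ν)
  have hmemN2 : ∀ ν, Q2 ν ∈ N2 := fun ν => Finset.mem_image_of_mem Q2 (Finset.mem_univ ν)
  have hinfN1 : Qinf ∉ N1 := by
    intro h
    obtain ⟨ν, -, hν⟩ := Finset.mem_image.mp h
    exact hQ1inf ν hν
  have hinfN2 : Qinf ∉ N2 := by
    intro h
    obtain ⟨ν, -, hν⟩ := Finset.mem_image.mp h
    exact hQ2inf ν hν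
  have hnotN1 : ∀ Q : Place k Fb, (∀ ν, Q ≠ Q1 ν) → Q ∉ N1 := by
    intro Q hQ h
    obtain ⟨ν, -, hν⟩ := Finset.mem_image.mp h
    exact hQ ν hν.symm
  have hnotN2 : ∀ Q : Place k Fb, (∀ ν, Q ≠ Q2 ν) → Q ∉ N2 := by
    intro Q hQ h
    obtain ⟨ν, -, hν⟩ := Finset.mem_image.mp h
    exact hQ ν hν.symm
  set s1 : Finset (Place k Fb) := (E1.support ∪ {Qinf}) ∪ N1 with hs1
  set s2 : Finset (Place k Fb) := (E2.support ∪ {Qinf}) ∪ N2 with hs2
  -- the rounding defects off the nodes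
  set S1 : ℤ := ∑ z ∈ s1 \ N1, E1 z % (p : ℤ) with hS1
  set S2 : ℤ := ∑ z ∈ s2 \ N2, E2 z % (p : ℤ) with hS2
  have hS1nn : 0 ≤ S1 := h50_sum_emod_nonneg _ _ p hp
  have hS2nn : 0 ≤ S2 := h50_sum_emod_nonneg _ _ p hp
  have hS1le : S1 ≤ (p : ℤ) * s1.card := by
    refine (h50_sum_emod_le _ _ p hp).trans ?_
    have : ((s1 \ N1).card : ℤ) ≤ s1.card := by
      exact_mod_cast Finset.card_le_card Finset.sdiff_subset
    nlinarith
  have hS2le : S2 ≤ (p : ℤ) * s2.card := by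
    refine (h50_sum_emod_le _ _ p hp).trans ?_
    have : ((s2 \ N2).card : ℤ) ≤ s2.card := by
      exact_mod_cast Finset.card_le_card Finset.sdiff_subset
    nlinarith
  set x : Z → ℤ := fun ν => (Q1 ν).ord η1 with hx
  set y : Z → ℤ := fun ν => (Q2 ν).ord η2 with hy
  refine ⟨c1.natAbs + c2.natAbs + s1.card + s2.card + 3 * Fintype.card Z, fun n hn W hB1 hB1i hB1' hB2 hB2i hB2' hNC hrk => ?_⟩
  have hnZ : (c1.natAbs : ℤ) + c2.natAbs + s1.card + s2.card + 3 * Fintype.card Z ≤ (n : ℤ) := by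
    exact_mod_cast hn
  have hc1abs : c1 ≤ (c1.natAbs : ℤ) := Int.le_natAbs
  have hc2abs : c2 ≤ (c2.natAbs : ℤ) := Int.le_natAbs
  have hc1nn : (0 : ℤ) ≤ (c1.natAbs : ℤ) := Int.natCast_nonneg _
  have hc2nn : (0 : ℤ) ≤ (c2.natAbs : ℤ) := Int.natCast_nonneg _
  -- the bound divisors
  set G1 : ℕ → Divisor k Fb := fun del => h50_G E1 Qinf ((p : ℤ) * n) N1 (-(del : ℤ)) with hG1
  set G2 : ℕ → Divisor k Fb := fun del => h50_G E2 Qinf ((p : ℤ) * n) N2 (del : ℤ) with hG2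
  have hG1node : ∀ del ν, G1 del (Q1 ν) = x ν - del := by
    intro del ν
    rw [hG1, h50_G_apply_node E1 Qinf _ N1 _ (hmemN1 ν) (hQ1inf ν), hE1]
    ring
  have hG2node : ∀ del ν, G2 del (Q2 ν) = y ν + del := by
    intro del ν
    rw [hG2, h50_G_apply_node E2 Qinf _ N2 _ (hmemN2 ν) (hQ2inf ν), hE2]
  have hG1inf : ∀ del, G1 del Qinf = Qinf.ord η1 + (p : ℤ) * n := by
    intro del
    rw [hG1, h50_G_apply_inf E1 Qinf _ N1 _ hinfN1, hE1]
  have hG2inf : ∀ del, G2 del Qinf = Qinf.ord η2 + (p : ℤ) * n := by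
    intro del
    rw [hG2, h50_G_apply_inf E2 Qinf _ N2 _ hinfN2, hE2]
  have hG1oth : ∀ del (Q : Place k Fb), Q ∉ N1 → Q ≠ Qinf → G1 del Q = Q.ord η1 := by
    intro del Q hQ hQi
    rw [hG1, h50_G_apply_other E1 Qinf _ N1 _ hQ hQi, hE1]
  have hG2oth : ∀ del (Q : Place k Fb), Q ∉ N2 → Q ≠ Qinf → G2 del Q = Q.ord η2 := by
    intro del Q hQ hQi
    rw [hG2, h50_G_apply_other E2 Qinf _ N2 _ hQ hQi, hE2]
  -- the strict sets
  set TA : ℕ → Finset (Place k Fb) := fun del =>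
    (Finset.univ.filter fun ν => (p : ℤ) ∣ x ν - del).image Q1 with hTA
  set TB : ℕ → Finset (Place k Fb) := fun del =>
    (Finset.univ.filter fun ν => (p : ℤ) ∣ y ν + del ∧ ¬ (p : ℤ) ∣ x ν - del).image Q2 with hTB
  have hTAcard : ∀ del, ((TA del).card : ℤ) =
      ∑ ν, (if (p : ℤ) ∣ x ν - del then (1 : ℤ) else 0) := by
    intro del
    rw [hTA, Finset.card_image_of_injective _ hQ1, Finset.card_filter]
    push_cast
    rfl
  have hTBcard : ∀ del, ((TB del).card : ℤ) =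
      ∑ ν, (if (p : ℤ) ∣ y ν + del ∧ ¬ (p : ℤ) ∣ x ν - del then (1 : ℤ) else 0) := by
    intro del
    rw [hTB, Finset.card_image_of_injective _ hQ2, Finset.card_filter]
    push_cast
    rfl
  have hTAle : ∀ del, ((TA del).card : ℤ) ≤ Fintype.card Z := by
    intro del
    have h1 : (TA del).card ≤ (Finset.univ.filter fun ν => (p : ℤ) ∣ x ν - del).card :=
      Finset.card_image_le
    have h2 : (Finset.univ.filter fun ν => (p : ℤ) ∣ x ν - del).card ≤ Fintype.card Z :=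
      Finset.card_filter_le _ _
    exact_mod_cast h1.trans h2
  have hTBle : ∀ del, ((TB del).card : ℤ) ≤ Fintype.card Z := by
    intro del
    have h1 : (TB del).card ≤
        (Finset.univ.filter fun ν => (p : ℤ) ∣ y ν + del ∧ ¬ (p : ℤ) ∣ x ν - del).card :=
      Finset.card_image_le
    have h2 : (Finset.univ.filter fun ν =>
        (p : ℤ) ∣ y ν + del ∧ ¬ (p : ℤ) ∣ x ν - del).card ≤ Fintype.card Z :=
      Finset.card_filter_le _ _
    exact_mod_cast h1.trans h2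
  have hmemTA : ∀ del (z : Place k Fb), z ∈ TA del → ∃ ν, z = Q1 ν ∧ (p : ℤ) ∣ x ν - del := by
    intro del z hz
    obtain ⟨ν, hν, rfl⟩ := Finset.mem_image.mp hz
    exact ⟨ν, rfl, (Finset.mem_filter.mp hν).2⟩
  have hmemTB : ∀ del (z : Place k Fb), z ∈ TB del →
      ∃ ν, z = Q2 ν ∧ (p : ℤ) ∣ y ν + del ∧ ¬ (p : ℤ) ∣ x ν - del := by
    intro del z hz
    obtain ⟨ν, hν, rfl⟩ := Finset.mem_image.mp hz
    exact ⟨ν, rfl, (Finset.mem_filter.mp hν).2⟩
  -- the divisors of the count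
  set D1 : ℕ → Divisor k Fb := fun del => h50_fdiv (G1 del) p - h50_ind (TA del) with hD1
  set D2 : ℕ → Divisor k Fb := fun del => h50_fdiv (G2 del) p - h50_ind (TB del) with hD2
  -- degrees
  have hsumN1 : ∀ f : Place k Fb → ℤ, ∑ z ∈ N1, f z = ∑ ν, f (Q1 ν) := by
    intro f
    rw [hN1, Finset.sum_image fun a _ b _ h => hQ1 h]
  have hsumN2 : ∀ f : Place k Fb → ℤ, ∑ z ∈ N2, f z = ∑ ν, f (Q2 ν) := by
    intro f
    rw [hN2, Finset.sum_image fun a _ b _ h => hQ2 h]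
  have hdegD1 : ∀ del : ℕ, (p : ℤ) * Divisor.degree (D1 del) =
      (p : ℤ) * n - del * Fintype.card Z - S1 - ∑ ν, (x ν - del) % (p : ℤ)
        - (p : ℤ) * (TA del).card := by
    intro del
    have h := h50_G_fdiv_degree hdeg p E1 Qinf (n : ℤ) N1 (-(del : ℤ)) hinfN1
    rw [hsumN1, hE1deg, hN1card] at h
    have e : ∑ ν, (E1 (Q1 ν) + -(del : ℤ)) % (p : ℤ) = ∑ ν, (x ν - del) % (p : ℤ) :=
      Finset.sum_congr rfl fun ν _ => by rw [hE1, ← sub_eq_add_neg]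
    rw [e] at h
    rw [hD1]
    simp only
    rw [map_sub, h50_degree_ind hdeg, mul_sub, h]
    ring
  have hdegD2 : ∀ del : ℕ, (p : ℤ) * Divisor.degree (D2 del) =
      (p : ℤ) * n + del * Fintype.card Z - S2 - ∑ ν, (y ν + del) % (p : ℤ)
        - (p : ℤ) * (TB del).card := by
    intro del
    have h := h50_G_fdiv_degree hdeg p E2 Qinf (n : ℤ) N2 (del : ℤ) hinfN2
    rw [hsumN2, hE2deg, hN2card] at h
    have e : ∑ ν, (E2 (Q2 ν) + (del : ℤ)) % (p : ℤ) = ∑ ν, (y ν + del) % (p : ℤ) :=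
      Finset.sum_congr rfl fun ν _ => by rw [hE2]
    rw [e] at h
    rw [hD2]
    simp only
    rw [map_sub, h50_degree_ind hdeg, mul_sub, h]
    ring
  have hcardZnn : (0 : ℤ) ≤ (Fintype.card Z : ℤ) := Int.natCast_nonneg _
  have hsumxle : ∀ del : ℕ, ∑ ν, (x ν - del) % (p : ℤ) ≤ (p : ℤ) * Fintype.card Z := by
    intro del
    have h := h50_sum_emod_le (Finset.univ : Finset Z) (fun ν => x ν - del) p hp
    rwa [Finset.card_univ] at h
  have hsumyle : ∀ del : ℕ, ∑ ν, (y ν + del) % (p : ℤ) ≤ (p : ℤ) * Fintype.card Z := by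
    intro del
    have h := h50_sum_emod_le (Finset.univ : Finset Z) (fun ν => y ν + del) p hp
    rwa [Finset.card_univ] at h
  have hsumxnn : ∀ del : ℕ, 0 ≤ ∑ ν, (x ν - del) % (p : ℤ) := fun del =>
    h50_sum_emod_nonneg _ _ p hp
  have hsumynn : ∀ del : ℕ, 0 ≤ ∑ ν, (y ν + del) % (p : ℤ) := fun del =>
    h50_sum_emod_nonneg _ _ p hp
  have hs1nn : (0 : ℤ) ≤ (s1.card : ℤ) := Int.natCast_nonneg _
  have hs2nn : (0 : ℤ) ≤ (s2.card : ℤ) := Int.natCast_nonneg _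
  -- the thresholds
  have hthr1 : ∀ del < p, c1 ≤ Divisor.degree (D1 del) ∧ c2 ≤ Divisor.degree (D1 del) := by
    intro del hdel
    have hdelp : (del : ℤ) < p := by exact_mod_cast hdel
    have hdel0 : (0 : ℤ) ≤ del := Int.natCast_nonneg _
    have h := hdegD1 del
    have h1 : (p : ℤ) * (c1.natAbs + c2.natAbs) ≤ (p : ℤ) * Divisor.degree (D1 del) := by
      rw [h]
      have := hTAle del
      have := hsumxle del
      nlinarith
    have h2 : (c1.natAbs : ℤ) + c2.natAbs ≤ Divisor.degree (D1 del) :=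
      le_of_mul_le_mul_left h1 hp'
    constructor <;> linarith
  have hthr2 : ∀ del < p, c1 ≤ Divisor.degree (D2 del) ∧ c2 ≤ Divisor.degree (D2 del) := by
    intro del hdel
    have hdel0 : (0 : ℤ) ≤ del := Int.natCast_nonneg _
    have h := hdegD2 del
    have h1 : (p : ℤ) * (c1.natAbs + c2.natAbs) ≤ (p : ℤ) * Divisor.degree (D2 del) := by
      rw [h]
      have := hTBle del
      have := hsumyle del
      nlinarith
    have h2 : (c1.natAbs : ℤ) + c2.natAbs ≤ Divisor.degree (D2 del) :=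
      le_of_mul_le_mul_left h1 hp'
    constructor <;> linarith
  -- memberships
  have hmem2 : ∀ del < p, ∀ φ ∈ W del, φ.2 ∈ riemannRochSpace (D2 del) := by
    intro del hdel φ hφ
    refine h50_mem_rr hp (G2 del) (TB del) φ.2 (fun z => ?_) (fun z hz => ?_)
    · by_cases hφ2 : φ.2 = 0
      · exact Or.inl hφ2
      right
      by_cases hzi : z = Qinf
      · subst hzi
        rw [hG2inf]
        have := hB2i del hdel φ hφ hφ2
        linarith
      by_cases hzN : ∃ ν, z = Q2 ν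
      · obtain ⟨ν, rfl⟩ := hzN
        rw [hG2node]
        have := hB2' del hdel φ hφ hφ2 ν
        linarith
      · push Not at hzN
        rw [hG2oth del z (hnotN2 z hzN) hzi]
        exact hB2 del hdel φ hφ hφ2 z hzi hzN
    · by_cases hφ2 : φ.2 = 0
      · exact Or.inl hφ2
      right
      obtain ⟨ν, rfl, hyd, hxd⟩ := hmemTB del z hz
      rw [hG2node]
      have hb := hB2' del hdel φ hφ hφ2 ν
      have hne : (p : ℤ) * (Q2 ν).ord φ.2 + (Q2 ν).ord η2 ≠ -(del : ℤ) := by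
        intro heq
        obtain ⟨-, h1⟩ := (hNC del hdel φ hφ ν).mpr ⟨hφ2, heq⟩
        apply hxd
        have : x ν - del = (p : ℤ) * (-(Q1 ν).ord φ.1) := by
          simp only [hx]
          linarith
        rw [this]
        exact dvd_mul_right _ _
      have hpos : 0 < (p : ℤ) * (Q2 ν).ord φ.2 + (y ν + del) := by
        simp only [hy]
        rcases lt_or_eq_of_le hb with h | h
        · linarith
        · exact absurd h.symm hne
      have hdvd : (p : ℤ) ∣ (p : ℤ) * (Q2 ν).ord φ.2 + (y ν + del) :=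
        dvd_add (dvd_mul_right _ _) hyd
      exact Int.le_of_dvd hpos hdvd
  have hmem1 : ∀ del < p, ∀ φ ∈ W del, φ.2 = 0 → φ.1 ∈ riemannRochSpace (D1 del) := by
    intro del hdel φ hφ hφ2
    refine h50_mem_rr hp (G1 del) (TA del) φ.1 (fun z => ?_) (fun z hz => ?_)
    · by_cases hφ1 : φ.1 = 0
      · exact Or.inl hφ1
      right
      by_cases hzi : z = Qinf
      · subst hzi
        rw [hG1inf]
        have := hB1i del hdel φ hφ hφ1
        linarith
      by_cases hzN : ∃ ν, z = Q1 ν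
      · obtain ⟨ν, rfl⟩ := hzN
        rw [hG1node]
        have := hB1' del hdel φ hφ hφ1 ν
        linarith
      · push Not at hzN
        rw [hG1oth del z (hnotN1 z hzN) hzi]
        exact hB1 del hdel φ hφ hφ1 z hzi
    · by_cases hφ1 : φ.1 = 0
      · exact Or.inl hφ1
      right
      obtain ⟨ν, rfl, hxd⟩ := hmemTA del z hz
      rw [hG1node]
      have hb := hB1' del hdel φ hφ hφ1 ν
      have hne : (p : ℤ) * (Q1 ν).ord φ.1 + (Q1 ν).ord η1 ≠ (del : ℤ) := by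
        intro heq
        exact ((hNC del hdel φ hφ ν).mp ⟨hφ1, heq⟩).1 hφ2
      have hpos : 0 < (p : ℤ) * (Q1 ν).ord φ.1 + (x ν - del) := by
        simp only [hx]
        rcases lt_or_eq_of_le hb with h | h
        · linarith
        · exact absurd h.symm hne
      have hdvd : (p : ℤ) ∣ (p : ℤ) * (Q1 ν).ord φ.1 + (x ν - del) :=
        dvd_add (dvd_mul_right _ _) hxd
      exact Int.le_of_dvd hpos hdvd
  -- the rank inequality for every twist
  have hrank : ∀ del < p, (finrank k (W del) : ℤ) ≤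
        Divisor.degree (D1 del) + Divisor.degree (D2 del) + 2 - 2 * (h75_genus k xb : ℤ) ∧
      ((finrank k (W del) : ℤ) =
          Divisor.degree (D1 del) + Divisor.degree (D2 del) + 2 - 2 * (h75_genus k xb : ℤ) →
        (∀ φ2 ∈ riemannRochSpace (D2 del), ∃ φ1 : Fb, (φ1, φ2) ∈ W del) ∧
          (∀ φ1 ∈ riemannRochSpace (D1 del), (φ1, (0 : Fb)) ∈ W del)) := fun del hdel =>
    hc1 (D1 del) (D2 del) (hthr1 del hdel).1 (hthr2 del hdel).1 (W del) (hmem2 del hdel)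
      (hmem1 del hdel)
  -- the local terms
  have hlocal : ∀ del : ℕ, (p : ℤ) * (Divisor.degree (D1 del) + Divisor.degree (D2 del)) =
      2 * (p : ℤ) * n - (S1 + S2) - ∑ ν, ((x ν - del) % p + (y ν + del) % p
          + (if (p : ℤ) ∣ x ν - del then (p : ℤ) else 0)
          + (if (p : ℤ) ∣ y ν + del ∧ ¬ (p : ℤ) ∣ x ν - del then (p : ℤ) else 0)) := by
    intro del
    rw [mul_add, hdegD1, hdegD2, hTAcard, hTBcard, Finset.sum_add_distrib,
      Finset.sum_add_distrib, Finset.sum_add_distrib, Finset.mul_sum, Finset.mul_sum]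
    have e1 : ∑ ν, (p : ℤ) * (if (p : ℤ) ∣ x ν - del then (1 : ℤ) else 0) =
        ∑ ν, (if (p : ℤ) ∣ x ν - del then (p : ℤ) else 0) :=
      Finset.sum_congr rfl fun ν _ => by split_ifs <;> simp
    have e2 : ∑ ν, (p : ℤ) * (if (p : ℤ) ∣ y ν + del ∧ ¬ (p : ℤ) ∣ x ν - del then (1 : ℤ) else 0) =
        ∑ ν, (if (p : ℤ) ∣ y ν + del ∧ ¬ (p : ℤ) ∣ x ν - del then (p : ℤ) else 0) :=
      Finset.sum_congr rfl fun ν _ => by split_ifs <;> simp
    rw [e1, e2]
    ring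
  have harith := h50_twist_arith p hp x y (S1 + S2) (add_nonneg hS1nn hS2nn) (by
    intro del hdel
    have h1 := (hrank del hdel).1
    have h2 := hrk del hdel
    have h3 := hlocal del
    have h4 : (p : ℤ) * (2 * (n : ℤ) - Fintype.card Z) ≤
        (p : ℤ) * (Divisor.degree (D1 del) + Divisor.degree (D2 del)) :=
      mul_le_mul_of_nonneg_left (by linarith) hp'.le
    rw [h3] at h4
    linarith)
  obtain ⟨hS0, hdvd, heq⟩ := harith
  have hS10 : S1 = 0 := by linarith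
  have hS20 : S2 = 0 := by linarith
  -- (i)
  have hi1 : ∀ Q : Place k Fb, (∀ ν, Q ≠ Q1 ν) → (p : ℤ) ∣ Q.ord η1 := by
    intro Q hQ
    by_cases hQs : Q ∈ s1 \ N1
    · have h := (Finset.sum_eq_zero_iff_of_nonneg
        (fun z _ => Int.emod_nonneg (E1 z) hp0)).mp hS10 Q hQs
      rw [← hE1]
      exact Int.dvd_of_emod_eq_zero h
    · have hQs1 : Q ∉ s1 := fun h => hQs (Finset.mem_sdiff.mpr ⟨h, hnotN1 Q hQ⟩)
      have hQE : Q ∉ E1.support := fun h =>
        hQs1 (Finset.mem_union_left _ (Finset.mem_union_left _ h))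
      have : E1 Q = 0 := by simpa using hQE
      rw [← hE1, this]
      exact dvd_zero _
  have hi2 : ∀ Q : Place k Fb, (∀ ν, Q ≠ Q2 ν) → (p : ℤ) ∣ Q.ord η2 := by
    intro Q hQ
    by_cases hQs : Q ∈ s2 \ N2
    · have h := (Finset.sum_eq_zero_iff_of_nonneg
        (fun z _ => Int.emod_nonneg (E2 z) hp0)).mp hS20 Q hQs
      rw [← hE2]
      exact Int.dvd_of_emod_eq_zero h
    · have hQs2 : Q ∉ s2 := fun h => hQs (Finset.mem_sdiff.mpr ⟨h, hnotN2 Q hQ⟩)
      have hQE : Q ∉ E2.support := fun h =>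
        hQs2 (Finset.mem_union_left _ (Finset.mem_union_left _ h))
      have : E2 Q = 0 := by simpa using hQE
      rw [← hE2, this]
      exact dvd_zero _
  -- equality of ranks and the surjectivity statements
  have hsurj : ∀ del < p, (∀ φ2 ∈ riemannRochSpace (D2 del), ∃ φ1 : Fb, (φ1, φ2) ∈ W del) ∧
      (∀ φ1 ∈ riemannRochSpace (D1 del), (φ1, (0 : Fb)) ∈ W del) := by
    intro del hdel
    refine (hrank del hdel).2 (le_antisymm (hrank del hdel).1 ?_)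
    have h2 := hrk del hdel
    have h3 := hlocal del
    have h4 := heq del hdel
    have h5 : (p : ℤ) * (Divisor.degree (D1 del) + Divisor.degree (D2 del)) =
        (p : ℤ) * (2 * (n : ℤ) - Fintype.card Z) := by
      rw [h3]
      linarith
    have h6 : Divisor.degree (D1 del) + Divisor.degree (D2 del) = 2 * (n : ℤ) - Fintype.card Z :=
      mul_left_cancel₀ hp0 h5
    linarith
  refine ⟨⟨hi1, hi2⟩, hdvd, ?_, ?_, ?_⟩
  · -- (iv) tube units at the nodes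
    intro ν del hdel hxd
    have hyd : (p : ℤ) ∣ y ν + del := by
      have h1 : y ν + del = (x ν + y ν) - (x ν - del) := by ring
      rw [h1]
      exact dvd_sub (hdvd ν) hxd
    obtain ⟨φ2, hφ2mem, hφ20, hφ2ord⟩ := hc2 (D2 del) (hthr2 del hdel).2 (Q2 ν)
    obtain ⟨φ1, hφ⟩ := (hsurj del hdel).1 φ2 hφ2mem
    have hnotTB : Q2 ν ∉ TB del := by
      intro h
      obtain ⟨ν', hν', -, hx'⟩ := hmemTB del _ h
      rw [← hQ2 hν'] at hx'
      exact hx' hxd
    have hD2val : D2 del (Q2 ν) = (y ν + del) / (p : ℤ) := by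
      rw [hD2]
      simp only
      rw [Finsupp.sub_apply, h50_fdiv_apply, h50_ind_apply_not_mem hnotTB, hG2node, sub_zero]
    have hexact : (p : ℤ) * (Q2 ν).ord φ2 + (Q2 ν).ord η2 = -(del : ℤ) := by
      rw [hφ2ord, hD2val]
      have := Int.mul_ediv_cancel' hyd
      simp only [hy] at this ⊢
      linarith
    have h1 := (hNC del hdel (φ1, φ2) hφ ν).mpr ⟨hφ20, hexact⟩
    exact ⟨(φ1, φ2), hφ, h1.1, h1.2, hφ20, hexact⟩
  · -- (v) on the first component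
    intro Q hQ
    have hQN : Q ∉ N1 := hnotN1 Q hQ
    obtain ⟨φ1, hφ1mem, hφ10, hφ1ord⟩ := hc2 (D1 0) (hthr1 0 hp).2 Q
    have hφ := (hsurj 0 hp).2 φ1 hφ1mem
    have hnotTA : Q ∉ TA 0 := by
      intro h
      obtain ⟨ν', hν', -⟩ := hmemTA 0 _ h
      exact hQ ν' hν'
    have hD1val : D1 0 Q = G1 0 Q / (p : ℤ) := by
      rw [hD1]
      simp only
      rw [Finsupp.sub_apply, h50_fdiv_apply, h50_ind_apply_not_mem hnotTA, sub_zero]
    refine ⟨(φ1, 0), hφ, hφ10, fun hQi => ?_, fun hQi => ?_⟩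
    · show (p : ℤ) * Q.ord φ1 + Q.ord η1 = _
      rw [hφ1ord, hD1val, hG1oth 0 Q hQN hQi]
      have := Int.mul_ediv_cancel' (hi1 Q hQ)
      linarith
    · show (p : ℤ) * Q.ord φ1 + Q.ord η1 = _
      rw [hφ1ord, hD1val]
      subst hQi
      rw [hG1inf]
      have hd : (p : ℤ) ∣ Q.ord η1 + (p : ℤ) * n := dvd_add (hi1 Q hQ) (dvd_mul_right _ _)
      have := Int.mul_ediv_cancel' hd
      linarith
  · -- (v) on the second component
    intro Q hQ
    have hQN : Q ∉ N2 := hnotN2 Q hQ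
    obtain ⟨φ2, hφ2mem, hφ20, hφ2ord⟩ := hc2 (D2 0) (hthr2 0 hp).2 Q
    obtain ⟨φ1, hφ⟩ := (hsurj 0 hp).1 φ2 hφ2mem
    have hnotTB : Q ∉ TB 0 := by
      intro h
      obtain ⟨ν', hν', -⟩ := hmemTB 0 _ h
      exact hQ ν' hν'
    have hD2val : D2 0 Q = G2 0 Q / (p : ℤ) := by
      rw [hD2]
      simp only
      rw [Finsupp.sub_apply, h50_fdiv_apply, h50_ind_apply_not_mem hnotTB, sub_zero]
    refine ⟨(φ1, φ2), hφ, hφ20, fun hQi => ?_, fun hQi => ?_⟩
    · show (p : ℤ) * Q.ord φ2 + Q.ord η2 = _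
      rw [hφ2ord, hD2val, hG2oth 0 Q hQN hQi]
      have := Int.mul_ediv_cancel' (hi2 Q hQ)
      linarith
    · show (p : ℤ) * Q.ord φ2 + Q.ord η2 = _
      rw [hφ2ord, hD2val]
      subst hQi
      rw [hG2inf]
      have hd : (p : ℤ) ∣ Q.ord η2 + (p : ℤ) * n := dvd_add (hi2 Q hQ) (dvd_mul_right _ _)
      have := Int.mul_ediv_cancel' hd
      linarith

end count

end Fermat.Agent.S40
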