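import Mathlib
import Fermat.Agent.S40.h31_TwistIncl
import Fermat.Agent.S40.h50_TwistCount

/-!
# S40 / (TR) v2, row W6 (W-UB): generic glue (INCL) + (COUNT) (helper50)

`h50_twist_w6`: in the abstract language of S18/S34 (two reduction data `R₁, R₂` on `F / K`,
residue curve `Fb / k`, the node description `hnode`, direction `⟹`), the inclusion
`h31_twist_incl` (helper31) for every lattice witness and the count `h50_twist_count` give the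
output of row W6:

* (i) `p ∣ ord_Q η_i` at every non-node place of the `i`-th component (cusp included);
* (ii) `p ∣ ord_{Q1 ν} η₁ + ord_{Q2 ν} η₂` at every node;
* (iv) the tube unit at every node, with its lattice witness;
* (v1), (v2) the `del = 0` witnesses of exact order at every non-node place;

where `η₁ = red₁ u₁⁻¹`, `η₂ = red₂ u₂⁻¹`.  The lattice at twist `del` is a free predicate
`Lam del` on `F` (so that rationality conditions can be carried through).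
-/

set_option autoImplicit false

noncomputable section

open AlgebraicCurve Module

namespace Fermat.Agent.S40

open Fermat.Agent.S18 Fermat.Agent.S34

variable {K F k Fb : Type*} [Field K] [Field F] [Algebra K F] [Field k] [Field Fb] [Algebra k Fb]

/-- evaluation of the cusp divisor `m Q∞` away from the cusp -/
theorem h50_nsmul_single_apply_ne (Qinf : Place k Fb) (m : ℕ) {Q : Place k Fb} (hQ : Q ≠ Qinf) :
    ((m • Finsupp.single Qinf (1 : ℤ) : Divisor k Fb) Q) = 0 := by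
  rw [Finsupp.smul_apply, Finsupp.single_eq_of_ne hQ, smul_zero]

/-- evaluation of the cusp divisor `m Q∞` at the cusp -/
theorem h50_nsmul_single_apply_self (Qinf : Place k Fb) (m : ℕ) :
    ((m • Finsupp.single Qinf (1 : ℤ) : Divisor k Fb) Qinf) = m := by
  rw [Finsupp.smul_apply, Finsupp.single_eq_same, nsmul_eq_mul, mul_one]

/-- **W6, generic**: (INCL) + (COUNT). -/
theorem h50_twist_w6 [IsAlgClosed k] (R₁ R₂ : h39_RedDatum K F k Fb) (D0 : Divisor K F)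
    (Qinf : Place k Fb) {Z : Type*} [Fintype Z] (Q1 Q2 : Z → Place k Fb)
    (hQ1i : Function.Injective Q1) (hQ2i : Function.Injective Q2)
    (hQ1 : ∀ ν, Q1 ν ≠ Qinf) (hQ2 : ∀ ν, Q2 ν ≠ Qinf)
    {xb : Fb} (hxb : h75_IsChart k xb)
    (n0 : ℕ)
    (hnode : ∀ n, n0 ≤ n → ∀ G : F, G ∈ riemannRochSpace (n • D0) → G ∈ R₁.O → G ∈ R₂.O →
      (R₁.redF G ∈ h16_Linf Qinf n ∧ R₂.redF G ∈ h16_Linf Qinf n) ∧
        ∀ ν, ∃ c : k, h39_Val (Q1 ν) (R₁.redF G) c ∧ h39_Val (Q2 ν) (R₂.redF G) c)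
    (p : ℕ) (hp : 0 < p) (π : K) (hπ0 : π ≠ 0) (hπ₁ : π ∈ R₁.A) (hπ₂ : π ∈ R₂.A)
    (u₁ u₂ : F) (hu₁0 : u₁ ≠ 0) (hu₁' : u₁⁻¹ ∈ R₁.O) (hu₁ : u₁ ∈ R₁.O)
    (hu₂' : u₂⁻¹ ∈ R₂.O) (hu₂ : u₂ ∈ R₂.O)
    (κ : K) (hκ : u₁ = algebraMap K F κ * u₂)
    (a : Z → F) (na : ℕ) (ha : ∀ ν, a ν ∈ riemannRochSpace (na • D0))
    (ha₁ : ∀ ν, (algebraMap K F π)⁻¹ * a ν ∈ R₁.O) (ha₂ : ∀ ν, a ν ∈ R₂.O)
    (haρ : ∀ ν, R₁.redF ((algebraMap K F π)⁻¹ * a ν) ≠ 0 ∧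
      (Q1 ν).ord (R₁.redF ((algebraMap K F π)⁻¹ * a ν)) = -1)
    (haα : ∀ ν, R₂.redF (a ν) ≠ 0 ∧ (Q2 ν).ord (R₂.redF (a ν)) = 1)
    (hsep : ∀ z : Place k Fb, (∀ ν, Q2 ν ≠ z) → ∃ (s : F) (ns : ℕ),
      s ∈ riemannRochSpace (ns • D0) ∧ (algebraMap K F π)⁻¹ * s ∈ R₁.O ∧ s ∈ R₂.O ∧
        R₂.redF s ≠ 0 ∧
        z.ord (R₂.redF s) ≤ -((ns • Finsupp.single Qinf (1 : ℤ) : Divisor k Fb) z)) :
    ∃ n1 : ℕ, ∀ n : ℕ, n1 ≤ n → ∀ t θ : ℕ → K,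
      (∀ del < p, t del ^ p = θ del * κ * π ^ del ∧ θ del ∈ R₂.A ∧ (θ del)⁻¹ ∈ R₂.A ∧
        θ del ≠ 0) →
      ∀ Lam : ℕ → F → Prop,
      (∀ del < p, ∀ f : F, Lam del f → f ∈ R₁.O ∧ (algebraMap K F (t del))⁻¹ * f ∈ R₂.O ∧
        f ^ p * u₁⁻¹ ∈ riemannRochSpace ((p * n) • D0)) →
      ∀ W : ℕ → Submodule k (Fb × Fb),
      (∀ del < p, ∀ φ ∈ W del, ∃ f : F, Lam del f ∧
        (R₁.redF f, R₂.redF ((algebraMap K F (t del))⁻¹ * f)) = φ) →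
      (∀ del < p, (2 * (n : ℤ) + 2 - 2 * (h75_genus k xb : ℤ) - Fintype.card Z) ≤
        (finrank k (W del) : ℤ)) →
      ((∀ Q : Place k Fb, (∀ ν, Q ≠ Q1 ν) → (p : ℤ) ∣ Q.ord (R₁.redF u₁⁻¹)) ∧
        (∀ Q : Place k Fb, (∀ ν, Q ≠ Q2 ν) → (p : ℤ) ∣ Q.ord (R₂.redF u₂⁻¹))) ∧
      (∀ ν, (p : ℤ) ∣ (Q1 ν).ord (R₁.redF u₁⁻¹) + (Q2 ν).ord (R₂.redF u₂⁻¹)) ∧
      (∀ ν, ∀ del < p, (p : ℤ) ∣ (Q1 ν).ord (R₁.redF u₁⁻¹) - del →
        ∃ f : F, Lam del f ∧ R₁.redF f ≠ 0 ∧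
          (p : ℤ) * (Q1 ν).ord (R₁.redF f) + (Q1 ν).ord (R₁.redF u₁⁻¹) = del ∧
          R₂.redF ((algebraMap K F (t del))⁻¹ * f) ≠ 0 ∧
          (p : ℤ) * (Q2 ν).ord (R₂.redF ((algebraMap K F (t del))⁻¹ * f)) +
            (Q2 ν).ord (R₂.redF u₂⁻¹) = -(del : ℤ)) ∧
      (∀ Q : Place k Fb, (∀ ν, Q ≠ Q1 ν) → ∃ f : F, Lam 0 f ∧ R₁.redF f ≠ 0 ∧
        (Q ≠ Qinf → (p : ℤ) * Q.ord (R₁.redF f) + Q.ord (R₁.redF u₁⁻¹) = 0) ∧
        (Q = Qinf → (p : ℤ) * Q.ord (R₁.redF f) + Q.ord (R₁.redF u₁⁻¹) = -((p : ℤ) * n))) ∧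
      (∀ Q : Place k Fb, (∀ ν, Q ≠ Q2 ν) → ∃ f : F, Lam 0 f ∧
        R₂.redF ((algebraMap K F (t 0))⁻¹ * f) ≠ 0 ∧
        (Q ≠ Qinf → (p : ℤ) * Q.ord (R₂.redF ((algebraMap K F (t 0))⁻¹ * f)) +
          Q.ord (R₂.redF u₂⁻¹) = 0) ∧
        (Q = Qinf → (p : ℤ) * Q.ord (R₂.redF ((algebraMap K F (t 0))⁻¹ * f)) +
          Q.ord (R₂.redF u₂⁻¹) = -((p : ℤ) * n))) := by
  classical
  have hu₂0 : u₂ ≠ 0 := by
    rintro rfl
    apply hu₁0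
    rw [hκ, mul_zero]
  have hη1 : R₁.redF u₁⁻¹ ≠ 0 :=
    h31_redF_unit_ne_zero R₁ (inv_ne_zero hu₁0) hu₁' (by rwa [inv_inv])
  have hη2 : R₂.redF u₂⁻¹ ≠ 0 :=
    h31_redF_unit_ne_zero R₂ (inv_ne_zero hu₂0) hu₂' (by rwa [inv_inv])
  obtain ⟨n1, hn1⟩ := h50_twist_count hxb p hp Qinf Q1 Q2 hQ1i hQ2i hQ1 hQ2
    (R₁.redF u₁⁻¹) (R₂.redF u₂⁻¹) hη1 hη2
  refine ⟨max n1 n0, fun n hn t θ ht Lam hLam W hW hrk => ?_⟩
  have hn1n : n1 ≤ n := le_trans (le_max_left _ _) hn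
  have hn0n : n0 ≤ p * n :=
    le_trans (le_trans (le_max_right _ _) hn) (Nat.le_mul_of_pos_left n hp)
  -- (INCL) for every element of `W del`
  have incl : ∀ del, del < p → ∀ f : F, Lam del f →
      (R₁.redF f ≠ 0 → ∀ Q : Place k Fb,
        -(((p * n) • Finsupp.single Qinf (1 : ℤ) : Divisor k Fb) Q) ≤
          p * Q.ord (R₁.redF f) + Q.ord (R₁.redF u₁⁻¹)) ∧
      (R₁.redF f ≠ 0 → ∀ ν,
        (del : ℤ) ≤ p * (Q1 ν).ord (R₁.redF f) + (Q1 ν).ord (R₁.redF u₁⁻¹)) ∧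
      (R₂.redF ((algebraMap K F (t del))⁻¹ * f) ≠ 0 → ∀ z : Place k Fb, (∀ ν, Q2 ν ≠ z) →
        -(((p * n) • Finsupp.single Qinf (1 : ℤ) : Divisor k Fb) z) ≤
          p * z.ord (R₂.redF ((algebraMap K F (t del))⁻¹ * f)) + z.ord (R₂.redF u₂⁻¹)) ∧
      (R₂.redF ((algebraMap K F (t del))⁻¹ * f) ≠ 0 → ∀ ν,
        -(del : ℤ) ≤ p * (Q2 ν).ord (R₂.redF ((algebraMap K F (t del))⁻¹ * f)) +
          (Q2 ν).ord (R₂.redF u₂⁻¹)) ∧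
      (∀ ν, (R₁.redF f ≠ 0 ∧
          p * (Q1 ν).ord (R₁.redF f) + (Q1 ν).ord (R₁.redF u₁⁻¹) = del) ↔
        (R₂.redF ((algebraMap K F (t del))⁻¹ * f) ≠ 0 ∧
          p * (Q2 ν).ord (R₂.redF ((algebraMap K F (t del))⁻¹ * f)) +
            (Q2 ν).ord (R₂.redF u₂⁻¹) = -(del : ℤ))) := by
    intro del hdel f hf
    obtain ⟨hf₁, hf₂, hfu⟩ := hLam del hdel f hf
    obtain ⟨htp, hθ, hθ', hθ0⟩ := ht del hdel
    exact h31_twist_incl R₁ R₂ D0 Qinf Q1 Q2 hQ1 hQ2 n0 hnode p hp π hπ0 hπ₁ hπ₂ u₁ u₂ hu₁0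
      hu₁' hu₁ hu₂' hu₂ κ hκ del hdel (t del) (θ del) htp hθ hθ' hθ0 a na ha ha₁ ha₂ haρ haα
      hsep n hn0n f hf₁ hf₂ hfu
  have hcount := hn1 n hn1n W
    (by
      intro del hdel φ hφ hφ0 Q hQ
      obtain ⟨f, hf, rfl⟩ := hW del hdel φ hφ
      have h := (incl del hdel f hf).1 hφ0 Q
      rwa [h50_nsmul_single_apply_ne Qinf _ hQ, neg_zero] at h)
    (by
      intro del hdel φ hφ hφ0
      obtain ⟨f, hf, rfl⟩ := hW del hdel φ hφ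
      have h := (incl del hdel f hf).1 hφ0 Qinf
      rw [h50_nsmul_single_apply_self] at h
      push_cast at h
      exact h)
    (by
      intro del hdel φ hφ hφ0 ν
      obtain ⟨f, hf, rfl⟩ := hW del hdel φ hφ
      exact (incl del hdel f hf).2.1 hφ0 ν)
    (by
      intro del hdel φ hφ hφ0 Q hQ hQν
      obtain ⟨f, hf, rfl⟩ := hW del hdel φ hφ
      have h := (incl del hdel f hf).2.2.1 hφ0 Q (fun ν => Ne.symm (hQν ν))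
      rwa [h50_nsmul_single_apply_ne Qinf _ hQ, neg_zero] at h)
    (by
      intro del hdel φ hφ hφ0
      obtain ⟨f, hf, rfl⟩ := hW del hdel φ hφ
      have h := (incl del hdel f hf).2.2.1 hφ0 Qinf hQ2
      rw [h50_nsmul_single_apply_self] at h
      push_cast at h
      exact h)
    (by
      intro del hdel φ hφ hφ0 ν
      obtain ⟨f, hf, rfl⟩ := hW del hdel φ hφ
      exact (incl del hdel f hf).2.2.2.1 hφ0 ν)
    (by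
      intro del hdel φ hφ ν
      obtain ⟨f, hf, rfl⟩ := hW del hdel φ hφ
      exact (incl del hdel f hf).2.2.2.2 ν)
    hrk
  obtain ⟨hi, hii, hiv, hv1, hv2⟩ := hcount
  refine ⟨hi, hii, ?_, ?_, ?_⟩
  · intro ν del hdel hdvd
    obtain ⟨φ, hφ, h1, h2, h3, h4⟩ := hiv ν del hdel hdvd
    obtain ⟨f, hf, rfl⟩ := hW del hdel φ hφ
    exact ⟨f, hf, h1, h2, h3, h4⟩
  · intro Q hQ
    obtain ⟨φ, hφ, h1, h2, h3⟩ := hv1 Q hQ
    obtain ⟨f, hf, rfl⟩ := hW 0 hp φ hφ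
    exact ⟨f, hf, h1, h2, h3⟩
  · intro Q hQ
    obtain ⟨φ, hφ, h1, h2, h3⟩ := hv2 Q hQ
    obtain ⟨f, hf, rfl⟩ := hW 0 hp φ hφ
    exact ⟨f, hf, h1, h2, h3⟩

end Fermat.Agent.S40
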