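import Mathlib
import Fermat.Agent.S40.h38_JumpGen
import Fermat.Agent.S40.h50_TwistW6

/-!
# S40 / (TR) count route, row W7 (W-JUMP) on top of the generic W6 (helper38)

`h38_jump_of_w6` : the outputs (iv), (v1), (v2) of `h50_twist_w6` (helper50/helper31), taken
verbatim as hypotheses, together with the jets `J1`, `J2` (`h38_JumpGen`), give the W7 output:
`Ω₁(u₁) = Γ₁`, `Ω₂(u₂) = Γ₂` are constants and `Γ₂ - Γ₁ = (ord_{Q1 ν} (red₁ u₁) - κ) λ` at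
every node `ν`.

Dictionary with `h50_twist_w6`: its constant `κ : K` is `π ^ kap` here (`kap : ℤ`), its
twist constants are `t del = w ^ (kap + del)` (`w` the Kummer parameter, `η w^p = π`), and its
lattice predicate `Lam del` must consist of elements of `S1` whose twist lies in `S2`.

`h38_twist_w67` : the composition with `h50_twist_w6` itself (one call for the instance).
-/

set_option autoImplicit false

noncomputable section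

open AlgebraicCurve Module Fermat.Agent.S18 Fermat.Agent.S24 Fermat.Agent.S27 Fermat.Agent.S34

namespace Fermat.Agent.S40

section JumpW6

variable {K F k Fb : Type*} [Field K] [Field F] [Algebra K F] [Field k] [Field Fb] [Algebra k Fb]
  {R1 R2 : h39_RedDatum K F k Fb} {D0 : Divisor K F} {Qinf : Place k Fb}
  {Z : Type*} {Q1 Q2 : Z → Place k Fb} {n0 : ℕ}
  {S1 S2 : Subring F} {J1 : S1 →+* TrivSqZeroExt Fb Fb} {J2 : S2 →+* TrivSqZeroExt Fb Fb}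

/-- **W7 from the W6 outputs (iv), (v1), (v2)** (shapes of `h50_twist_w6`, verbatim). -/
theorem h38_jump_of_w6 [IsAlgClosed k] (p : ℕ) [CharP k p] (hp : 0 < p) {xb : Fb}
    (hxb : h75_IsChart k xb) (hnode : h38_HNode R1 R2 D0 Qinf Q1 Q2 n0)
    (hjet : h38_HJet R1 R2 D0 S1 S2 J1 J2)
    (hJ1 : ∀ f : S1, (J1 f).fst = R1.redF f) (hJ2 : ∀ f : S2, (J2 f).fst = R2.redF f)
    {u₁ u₂ : F} (hu1 : u₁ ∈ S1) (hu1i : u₁⁻¹ ∈ S1) (hu2 : u₂ ∈ S2) (hu2i : u₂⁻¹ ∈ S2)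
    (hu0 : u₁ ≠ 0) (π : K) (hπ0 : π ≠ 0) (kap : ℤ) (hκ : u₁ = algebraMap K F (π ^ kap) * u₂)
    {ω₁ ω₂ : Fb} (hω₁ : h38_IsOm J1 ⟨u₁, hu1⟩ ω₁) (hω₂ : h38_IsOm J2 ⟨u₂, hu2⟩ ω₂)
    (w η : K) (hw : w ≠ 0) (hη : η * w ^ p = π) (hηS : algebraMap K F η ∈ S2)
    (hηSi : (algebraMap K F η)⁻¹ ∈ S2) {lam ηb : k}
    (hηfst : (J2 ⟨_, hηS⟩).fst = algebraMap k Fb ηb)
    (hηJ : h38_IsOm J2 ⟨_, hηS⟩ (algebraMap k Fb lam))
    (a : Z → F) (na : ℕ) (ha : ∀ ν, a ν ∈ riemannRochSpace (na • D0))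
    (ha1 : ∀ ν, (algebraMap K F π)⁻¹ * a ν ∈ S1) (ha2 : ∀ ν, a ν ∈ S2)
    (haJ1 : ∀ ν, ∃ ρ : Fb, J1 ⟨_, ha1 ν⟩ = TrivSqZeroExt.inl ρ)
    (haJ2 : ∀ ν, ∃ ab : Fb, J2 ⟨_, ha2 ν⟩ = TrivSqZeroExt.inl ab)
    (haρ : ∀ ν, R1.redF ((algebraMap K F π)⁻¹ * a ν) ≠ 0 ∧
      (Q1 ν).ord (R1.redF ((algebraMap K F π)⁻¹ * a ν)) = -1)
    (n : ℕ) (hn : n0 ≤ p * n) (t : ℕ → K) (ht : ∀ del < p, t del = w ^ (kap + (del : ℤ)))
    (Lam : ℕ → F → Prop)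
    (hLamS : ∀ del < p, ∀ f : F, Lam del f → f ∈ S1 ∧ (algebraMap K F (t del))⁻¹ * f ∈ S2)
    (hLam : ∀ del < p, ∀ f : F, Lam del f →
      f ^ p * u₁⁻¹ ∈ riemannRochSpace ((p * n) • D0))
    (hiv : ∀ ν, ∀ del < p, (p : ℤ) ∣ (Q1 ν).ord (R1.redF u₁⁻¹) - del →
      ∃ f : F, Lam del f ∧ R1.redF f ≠ 0 ∧
        (p : ℤ) * (Q1 ν).ord (R1.redF f) + (Q1 ν).ord (R1.redF u₁⁻¹) = del ∧
        R2.redF ((algebraMap K F (t del))⁻¹ * f) ≠ 0 ∧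
        (p : ℤ) * (Q2 ν).ord (R2.redF ((algebraMap K F (t del))⁻¹ * f)) +
          (Q2 ν).ord (R2.redF u₂⁻¹) = -(del : ℤ))
    (hv1 : ∀ Q : Place k Fb, (∀ ν, Q ≠ Q1 ν) → ∃ f : F, Lam 0 f ∧ R1.redF f ≠ 0 ∧
      (Q ≠ Qinf → (p : ℤ) * Q.ord (R1.redF f) + Q.ord (R1.redF u₁⁻¹) = 0) ∧
      (Q = Qinf → (p : ℤ) * Q.ord (R1.redF f) + Q.ord (R1.redF u₁⁻¹) = -((p : ℤ) * n)))
    (hv2 : ∀ Q : Place k Fb, (∀ ν, Q ≠ Q2 ν) → ∃ f : F, Lam 0 f ∧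
      R2.redF ((algebraMap K F (t 0))⁻¹ * f) ≠ 0 ∧
      (Q ≠ Qinf → (p : ℤ) * Q.ord (R2.redF ((algebraMap K F (t 0))⁻¹ * f)) +
        Q.ord (R2.redF u₂⁻¹) = 0) ∧
      (Q = Qinf → (p : ℤ) * Q.ord (R2.redF ((algebraMap K F (t 0))⁻¹ * f)) +
        Q.ord (R2.redF u₂⁻¹) = -((p : ℤ) * n))) :
    (∃ Γ₁ Γ₂ : k, ω₁ = algebraMap k Fb Γ₁ ∧ ω₂ = algebraMap k Fb Γ₂ ∧
      ∀ ν, Γ₂ - Γ₁ = (((Q1 ν).ord (R1.redF u₁) - kap : ℤ) : k) * lam) ∧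
    (lam ≠ 0 → ∀ ν ν', (p : ℤ) ∣ (Q1 ν).ord (R1.redF u₁) - (Q1 ν').ord (R1.redF u₁)) := by
  have hπF : algebraMap K F π ≠ 0 := (map_ne_zero (algebraMap K F)).mpr hπ0
  have hwF : algebraMap K F w ≠ 0 := (map_ne_zero (algebraMap K F)).mpr hw
  have hu20 : u₂ ≠ 0 := by
    rintro rfl
    rw [mul_zero] at hκ
    exact hu0 hκ
  have hu12 : u₁ = algebraMap K F π ^ kap * u₂ := by rw [hκ, map_zpow₀]
  have hηF : algebraMap K F η * algebraMap K F w ^ p = algebraMap K F π := by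
    rw [← map_pow, ← map_mul, hη]
  -- reductions of the inverses
  have hinv1 : R1.redF u₁⁻¹ = (R1.redF u₁)⁻¹ := by
    have hst : (⟨u₁, hu1⟩ : S1) * ⟨u₁⁻¹, hu1i⟩ = 1 := Subtype.ext (mul_inv_cancel₀ hu0)
    have h := h38_fst_inv J1 hst
    rwa [hJ1, hJ1] at h
  have hinv2 : R2.redF u₂⁻¹ = (R2.redF u₂)⁻¹ := by
    have hst : (⟨u₂, hu2⟩ : S2) * ⟨u₂⁻¹, hu2i⟩ = 1 := Subtype.ext (mul_inv_cancel₀ hu20)
    have h := h38_fst_inv J2 hst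
    rwa [hJ2, hJ2] at h
  have hord1 : ∀ Q : Place k Fb, Q.ord (R1.redF u₁⁻¹) = -Q.ord (R1.redF u₁) := by
    intro Q
    rw [hinv1, Q.ord_inv]
  have hord2 : ∀ Q : Place k Fb, Q.ord (R2.redF u₂⁻¹) = -Q.ord (R2.redF u₂) := by
    intro Q
    rw [hinv2, Q.ord_inv]
  have htw : ∀ del < p, ∀ f : F, (algebraMap K F (t del))⁻¹ * f =
      f * (algebraMap K F w ^ (kap + (del : ℤ)))⁻¹ := by
    intro del hdel f
    rw [ht del hdel, map_zpow₀, mul_comm]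
  have htw0 : ∀ f : F, (algebraMap K F (t 0))⁻¹ * f = f * (algebraMap K F w ^ kap)⁻¹ := by
    intro f
    rw [htw 0 hp f, Nat.cast_zero, add_zero]
  refine h38_jump_of_fill p hxb hnode hjet hJ1 hJ2 hu1 hu1i hu2 hu2i hu0 hπF hu12 hω₁ hω₂ hwF
    hηF hηS hηSi hηfst hηJ ?_ ?_ ?_
  · -- node tube units
    intro ν
    obtain ⟨ρ, hρ⟩ := haJ1 ν
    obtain ⟨ab, hab⟩ := haJ2 ν
    set e : ℤ := (Q1 ν).ord (R1.redF u₁⁻¹) with he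
    have hpz : (0 : ℤ) < (p : ℤ) := by exact_mod_cast hp
    have hnn : 0 ≤ e % (p : ℤ) := Int.emod_nonneg _ hpz.ne'
    have hlt : e % (p : ℤ) < (p : ℤ) := Int.emod_lt_of_pos _ hpz
    obtain ⟨del, hdel⟩ := Int.eq_ofNat_of_zero_le hnn
    have hdelp : del < p := by
      have : (del : ℤ) < (p : ℤ) := by rw [← hdel]; exact hlt
      exact_mod_cast this
    have hdvd : (p : ℤ) ∣ e - del := by
      rw [← hdel]
      exact Int.dvd_self_sub_of_emod_eq rfl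
    obtain ⟨f, hLf, hφ, heq, -, -⟩ := hiv ν del hdelp hdvd
    obtain ⟨hf1, hf2⟩ := hLamS del hdelp f hLf
    have hH := hLam del hdelp f hLf
    rw [htw del hdelp f] at hf2
    have ha1' : a ν * (algebraMap K F π)⁻¹ ∈ S1 := by
      rw [mul_comm]
      exact ha1 ν
    have hρ' : J1 ⟨a ν * (algebraMap K F π)⁻¹, ha1'⟩ = TrivSqZeroExt.inl ρ := by
      rw [← hρ]
      exact congrArg J1 (Subtype.ext (mul_comm _ _))
    have hρval : ρ = R1.redF ((algebraMap K F π)⁻¹ * a ν) := by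
      have h := hJ1 ⟨_, ha1 ν⟩
      rw [hρ, TrivSqZeroExt.fst_inl] at h
      exact h
    refine ⟨del, p * n + del * na, f, a ν, hf1, hf2, ha1', ha2 ν, ρ, ab, ?_, ?_, hρ', hab,
      ?_, ?_, hφ, ?_⟩
    · exact le_trans hn (Nat.le_add_right _ _)
    · have h1 : a ν * (algebraMap K F π)⁻¹ ∈ riemannRochSpace (na • D0) := by
        rw [mul_comm, ← map_inv₀]
        exact h31_const_mul_mem_rr (ha ν) _
      have h2 := h31_pow_mem_rr h1 del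
      have h3 := h51_mul_mem_rr hH h2
      have e3 : (p * n) • D0 + del • na • D0 = (p * n + del * na) • D0 := by
        rw [add_smul, mul_smul del na]
      rw [e3] at h3
      exact h3
    · rw [hρval]
      exact (haρ ν).1
    · rw [hρval]
      exact (haρ ν).2
    · have h4 := hord1 (Q1 ν)
      rw [← he] at h4 heq
      omega
  · -- non-node places of the first component
    intro z hz
    obtain ⟨f, hLf, hφ, hz1, hz2⟩ := hv1 z (fun ν => (hz ν).symm)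
    obtain ⟨hf1, hf2⟩ := hLamS 0 hp f hLf
    have hH := hLam 0 hp f hLf
    rw [htw0 f] at hf2
    have h4 := hord1 z
    refine ⟨p * n, f, hf1, hf2, hn, hH, hφ, fun h => ?_, fun h => ?_⟩
    · have h5 := hz1 h
      omega
    · have h5 := hz2 h
      push_cast
      omega
  · -- non-node places of the second component
    intro z hz
    obtain ⟨f, hLf, hφ, hz1, hz2⟩ := hv2 z (fun ν => (hz ν).symm)
    obtain ⟨hf1, hf2⟩ := hLamS 0 hp f hLf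
    have hH := hLam 0 hp f hLf
    rw [htw0 f] at hf2 hφ hz1 hz2
    have h4 := hord2 z
    refine ⟨p * n, f, hf1, hf2, hn, hH, hφ, fun h => ?_, fun h => ?_⟩
    · have h5 := hz1 h
      omega
    · have h5 := hz2 h
      push_cast
      omega

/-- Integer powers of a unit of a valuation subring. -/
theorem h38_zpow_mem_valSub (A : ValuationSubring K) {x : K} (hx : x ∈ A) (hxi : x⁻¹ ∈ A)
    (m : ℤ) : x ^ m ∈ A := by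
  cases m with
  | ofNat n =>
    rw [Int.ofNat_eq_natCast, zpow_natCast]
    exact A.pow_mem hx n
  | negSucc n =>
    rw [zpow_negSucc, ← inv_pow]
    exact A.pow_mem hxi (n + 1)

/-- **W6 + W7 in one statement** (generic): the hypotheses of `h50_twist_w6` with
`κ = π ^ kap`, `t del = w ^ (kap + del)`, together with the jets, give TAIL-PT, `m₁ = m₂`
and the jump relation. -/
theorem h38_twist_w67 [IsAlgClosed k] (R₁ R₂ : h39_RedDatum K F k Fb) (D0 : Divisor K F)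
    (Qinf : Place k Fb) {Z : Type*} [Fintype Z] (Q1 Q2 : Z → Place k Fb)
    (hQ1i : Function.Injective Q1) (hQ2i : Function.Injective Q2)
    (hQ1 : ∀ ν, Q1 ν ≠ Qinf) (hQ2 : ∀ ν, Q2 ν ≠ Qinf)
    {xb : Fb} (hxb : h75_IsChart k xb) (n0 : ℕ)
    (hnode : h38_HNode R₁ R₂ D0 Qinf Q1 Q2 n0)
    (p : ℕ) [CharP k p] (hp : 0 < p) (π : K) (hπ0 : π ≠ 0) (hπ₁ : π ∈ R₁.A) (hπ₂ : π ∈ R₂.A)
    (S1 S2 : Subring F) (hS1 : ∀ f ∈ S1, f ∈ R₁.O) (hS2 : ∀ f ∈ S2, f ∈ R₂.O)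
    (J1 : S1 →+* TrivSqZeroExt Fb Fb) (J2 : S2 →+* TrivSqZeroExt Fb Fb)
    (hjet : h38_HJet R₁ R₂ D0 S1 S2 J1 J2)
    (hJ1 : ∀ f : S1, (J1 f).fst = R₁.redF f) (hJ2 : ∀ f : S2, (J2 f).fst = R₂.redF f)
    (u₁ u₂ : F) (hu₁0 : u₁ ≠ 0) (hu1 : u₁ ∈ S1) (hu1i : u₁⁻¹ ∈ S1) (hu2 : u₂ ∈ S2)
    (hu2i : u₂⁻¹ ∈ S2) (kap : ℤ) (hκ : u₁ = algebraMap K F (π ^ kap) * u₂)
    {ω₁ ω₂ : Fb} (hω₁ : h38_IsOm J1 ⟨u₁, hu1⟩ ω₁) (hω₂ : h38_IsOm J2 ⟨u₂, hu2⟩ ω₂)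
    (w η : K) (hw : w ≠ 0) (hη : η * w ^ p = π) (hηS : algebraMap K F η ∈ S2)
    (hηSi : (algebraMap K F η)⁻¹ ∈ S2) {lam ηb : k}
    (hηfst : (J2 ⟨_, hηS⟩).fst = algebraMap k Fb ηb)
    (hηJ : h38_IsOm J2 ⟨_, hηS⟩ (algebraMap k Fb lam))
    (a : Z → F) (na : ℕ) (ha : ∀ ν, a ν ∈ riemannRochSpace (na • D0))
    (ha1 : ∀ ν, (algebraMap K F π)⁻¹ * a ν ∈ S1) (ha2 : ∀ ν, a ν ∈ S2)
    (haJ1 : ∀ ν, ∃ ρ : Fb, J1 ⟨_, ha1 ν⟩ = TrivSqZeroExt.inl ρ)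
    (haJ2 : ∀ ν, ∃ ab : Fb, J2 ⟨_, ha2 ν⟩ = TrivSqZeroExt.inl ab)
    (haρ : ∀ ν, R₁.redF ((algebraMap K F π)⁻¹ * a ν) ≠ 0 ∧
      (Q1 ν).ord (R₁.redF ((algebraMap K F π)⁻¹ * a ν)) = -1)
    (haα : ∀ ν, R₂.redF (a ν) ≠ 0 ∧ (Q2 ν).ord (R₂.redF (a ν)) = 1)
    (hsep : ∀ z : Place k Fb, (∀ ν, Q2 ν ≠ z) → ∃ (s : F) (ns : ℕ),
      s ∈ riemannRochSpace (ns • D0) ∧ (algebraMap K F π)⁻¹ * s ∈ R₁.O ∧ s ∈ R₂.O ∧
        R₂.redF s ≠ 0 ∧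
        z.ord (R₂.redF s) ≤ -((ns • Finsupp.single Qinf (1 : ℤ) : Divisor k Fb) z)) :
    ∃ n1 : ℕ, ∀ n : ℕ, n1 ≤ n → ∀ Lam : ℕ → F → Prop,
      (∀ del < p, ∀ f : F, Lam del f → f ∈ S1 ∧
        (algebraMap K F (w ^ (kap + (del : ℤ))))⁻¹ * f ∈ S2 ∧
        f ^ p * u₁⁻¹ ∈ riemannRochSpace ((p * n) • D0)) →
      ∀ W : ℕ → Submodule k (Fb × Fb),
      (∀ del < p, ∀ φ ∈ W del, ∃ f : F, Lam del f ∧
        (R₁.redF f, R₂.redF ((algebraMap K F (w ^ (kap + (del : ℤ))))⁻¹ * f)) = φ) →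
      (∀ del < p, (2 * (n : ℤ) + 2 - 2 * (h75_genus k xb : ℤ) - Fintype.card Z) ≤
        (finrank k (W del) : ℤ)) →
      ((∀ Q : Place k Fb, (∀ ν, Q ≠ Q1 ν) → (p : ℤ) ∣ Q.ord (R₁.redF u₁)) ∧
        (∀ Q : Place k Fb, (∀ ν, Q ≠ Q2 ν) → (p : ℤ) ∣ Q.ord (R₂.redF u₂))) ∧
      (∀ ν, (p : ℤ) ∣ (Q1 ν).ord (R₁.redF u₁) + (Q2 ν).ord (R₂.redF u₂)) ∧
      (∃ Γ₁ Γ₂ : k, ω₁ = algebraMap k Fb Γ₁ ∧ ω₂ = algebraMap k Fb Γ₂ ∧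
        ∀ ν, Γ₂ - Γ₁ = (((Q1 ν).ord (R₁.redF u₁) - kap : ℤ) : k) * lam) ∧
      (lam ≠ 0 → ∀ ν ν', (p : ℤ) ∣ (Q1 ν).ord (R₁.redF u₁) - (Q1 ν').ord (R₁.redF u₁)) := by
  have hu₂0 : u₂ ≠ 0 := by
    rintro rfl
    rw [mul_zero] at hκ
    exact hu₁0 hκ
  have hη0 : η ≠ 0 := by
    rintro rfl
    rw [zero_mul] at hη
    exact hπ0 hη.symm
  have hηA : η ∈ R₂.A := (R₂.mem_iff η).mpr (hS2 _ hηS)
  have hηAi : η⁻¹ ∈ R₂.A := by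
    rw [R₂.mem_iff, map_inv₀]
    exact hS2 _ hηSi
  obtain ⟨n1, hn1⟩ := h50_twist_w6 R₁ R₂ D0 Qinf Q1 Q2 hQ1i hQ2i hQ1 hQ2 hxb n0 hnode p hp π
    hπ0 hπ₁ hπ₂ u₁ u₂ hu₁0 (hS1 _ hu1i) (hS1 _ hu1) (hS2 _ hu2i) (hS2 _ hu2) (π ^ kap) hκ a na
    ha (fun ν => hS1 _ (ha1 ν)) (fun ν => hS2 _ (ha2 ν)) haρ haα hsep
  refine ⟨max n1 n0, fun n hn Lam hLam W hW hrk => ?_⟩
  have hn1n : n1 ≤ n := le_trans (le_max_left _ _) hn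
  have hn0n : n0 ≤ p * n :=
    le_trans (le_trans (le_max_right _ _) hn) (Nat.le_mul_of_pos_left n hp)
  have ht : ∀ del < p, (w ^ (kap + (del : ℤ))) ^ p =
      η ^ (-(kap + (del : ℤ))) * π ^ kap * π ^ del ∧ η ^ (-(kap + (del : ℤ))) ∈ R₂.A ∧
      (η ^ (-(kap + (del : ℤ))))⁻¹ ∈ R₂.A ∧ η ^ (-(kap + (del : ℤ))) ≠ 0 := by
    intro del _
    refine ⟨?_, h38_zpow_mem_valSub R₂.A hηA hηAi _, ?_, zpow_ne_zero _ hη0⟩
    · have e1 : π ^ kap * π ^ del = π ^ (kap + (del : ℤ)) := by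
        rw [zpow_add₀ hπ0, zpow_natCast]
      rw [mul_assoc, e1, ← hη, mul_zpow, ← mul_assoc, zpow_neg, inv_mul_cancel₀
        (zpow_ne_zero _ hη0), one_mul, ← zpow_natCast (w ^ (kap + (del : ℤ))) p,
        ← zpow_mul, mul_comm (kap + (del : ℤ)) (p : ℤ), zpow_mul, zpow_natCast]
    · rw [← zpow_neg, neg_neg]
      exact h38_zpow_mem_valSub R₂.A hηA hηAi _
  obtain ⟨⟨hi1, hi2⟩, hii, hiv, hv1, hv2⟩ := hn1 n hn1n (fun del => w ^ (kap + (del : ℤ)))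
    (fun del => η ^ (-(kap + (del : ℤ)))) ht Lam
    (fun del hdel f hf => ⟨hS1 _ (hLam del hdel f hf).1, hS2 _ (hLam del hdel f hf).2.1,
      (hLam del hdel f hf).2.2⟩) W hW hrk
  have hinv1 : R₁.redF u₁⁻¹ = (R₁.redF u₁)⁻¹ := by
    have hst : (⟨u₁, hu1⟩ : S1) * ⟨u₁⁻¹, hu1i⟩ = 1 := Subtype.ext (mul_inv_cancel₀ hu₁0)
    have h := h38_fst_inv J1 hst
    rwa [hJ1, hJ1] at h
  have hinv2 : R₂.redF u₂⁻¹ = (R₂.redF u₂)⁻¹ := by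
    have hst : (⟨u₂, hu2⟩ : S2) * ⟨u₂⁻¹, hu2i⟩ = 1 := Subtype.ext (mul_inv_cancel₀ hu₂0)
    have h := h38_fst_inv J2 hst
    rwa [hJ2, hJ2] at h
  have hjump := h38_jump_of_w6 p hp hxb hnode hjet hJ1 hJ2 hu1 hu1i hu2 hu2i hu₁0 π hπ0 kap hκ
    hω₁ hω₂ w η hw hη hηS hηSi hηfst hηJ a na ha ha1 ha2 haJ1 haJ2 haρ n hn0n
    (fun del => w ^ (kap + (del : ℤ))) (fun _ _ => rfl) Lam
    (fun del hdel f hf => ⟨(hLam del hdel f hf).1, (hLam del hdel f hf).2.1⟩)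
    (fun del hdel f hf => (hLam del hdel f hf).2.2) hiv hv1 hv2
  refine ⟨⟨fun Q hQ => ?_, fun Q hQ => ?_⟩, fun ν => ?_, hjump.1, hjump.2⟩
  · have h := hi1 Q hQ
    rwa [hinv1, Q.ord_inv, dvd_neg] at h
  · have h := hi2 Q hQ
    rwa [hinv2, Q.ord_inv, dvd_neg] at h
  · have h := hii ν
    rw [hinv1, hinv2, (Q1 ν).ord_inv, (Q2 ν).ord_inv, ← neg_add, dvd_neg] at h
    exact h

end JumpW6

end Fermat.Agent.S40

end
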