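import Mathlib
import Fermat.Agent.S34.h87_NodeInst
import Fermat.Agent.S36.h64_NodeCount

/-!
# S40 / W6 adapters (M1) + (M2): the special-fibre package of `h87_D` for the twist count (helper43)

* `h43_node_card` (generic, `Z`-indexed): from the SHARP node theorem
  `a ∈ red (L(n D0) ∩ O) ↔ a ∈ L(n Qinf) × L(n Qinf) ∧ ∀ ν, a.1(Q1 ν) = a.2(Q2 ν)` (`n ≥ n0`),
  an ON lattice, charts and `deg D0 = 2`: `card Z = g_F - 2 g_Fb + 1`.
* `h43_finrank_twist` (generic): with that count, `dim L(n D0 - E) = 2 n + 2 - 2 g_Fb - card Z`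
  for every divisor `E` of degree `0` and `n ≥ g_F`.
* `h43_hnode_free` (generic): the `(⟹)` half of the node theorem in the `D`-free shape: for
  `G ∈ L(n D0)` integral for both reduction data, `red₁ G, red₂ G ∈ L(n Qinf)` and the node
  values agree.
* `h43_sf_pack` (modular, charted level `M q`): ONE export bundling the node set `Z, Q1, Q2` of
  `h87_sf_data` with (M2) `card Z = g(F(Mq)) - 2 g(Fb(M)) + 1`, (M1) the `D`-free `(⟹)` node
  statement for `R₁ = h60_R1`, `R₂ = h60_R2`, and the sharp iff.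
* `h43_sf_finrank` (modular): `dim L(n D0 - E) = 2 n + 2 - 2 g(Fb(M)) - card Z`.
-/

set_option autoImplicit false
set_option synthInstance.maxHeartbeats 400000
set_option linter.style.haveILetI false

noncomputable section

open AlgebraicCurve ModularCurve Module
open Fermat.Agent.S18 Fermat.Agent.S24 Fermat.Agent.S27 Fermat.Agent.S37 Fermat.Agent.S34
open Fermat.Agent.S36

namespace Fermat.Agent.S40

/-! ### Generic: the number of nodes from the sharp node theorem -/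

section Generic

variable {K F k Fb : Type} [Field K] [Field F] [Algebra K F] [Field k] [Field Fb] [Algebra k Fb]
  [IsAlgClosed K] [IsAlgClosed k]

/-- **The number of nodes** (generic, `Z`-indexed): the sharp node theorem forces
`card Z = g_F - 2 g_Fb + 1`. -/
theorem h43_node_card {xF : F} (hxF : h75_IsChart K xF) {xb : Fb} (hxb : h75_IsChart k xb)
    (D : h22_Lat K F k (Fb × Fb)) (hON : h22_ON D) (D0 : Divisor K F)
    (hdeg : Divisor.degree D0 = 2) (Qinf : Place k Fb) {Z : Type} [Fintype Z]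
    (Q1 Q2 : Z → Place k Fb) (h1 : ∀ ν, Q1 ν ≠ Qinf) (h2 : ∀ ν, Q2 ν ≠ Qinf)
    (hinj1 : Function.Injective Q1) (hinj2 : Function.Injective Q2) (n0 : ℕ)
    (hnode : ∀ n, n0 ≤ n → ∀ a : Fb × Fb, a ∈ h51_Rd D (n • D0) ↔
      (a ∈ h20_P Qinf n ∧ ∀ ν, ∃ c : k, h39_Val (Q1 ν) a.1 c ∧ h39_Val (Q2 ν) a.2 c)) :
    (Fintype.card Z : ℤ) = (h75_genus K xF : ℤ) - 2 * h75_genus k xb + 1 := by
  classical
  set n : ℕ := n0 + h75_genus K xF + 2 * h75_genus k xb + Fintype.card Z with hn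
  have hind := h20_chart_ind hxb Qinf Q1 Q2 h1 h2 hinj1 hinj2 n (by omega)
  haveI : FiniteDimensional k (h20_P Qinf n) := h20_P_finite hxb Qinf n
  let e1 := h20_e1 hxb Qinf Q1 h1
  let e2 := h20_e2 hxb Qinf Q2 h2
  let ι : h20_P Qinf n → h20_Bs Qinf := fun a => ⟨a.1, h20_P_le_Bs Qinf n a.1 a.2⟩
  have hιadd : ∀ a b, ι (a + b) = ι a + ι b := fun a b => Subtype.ext rfl
  have hιsmul : ∀ (c : k) a, ι (c • a) = c • ι a := fun c a => Subtype.ext rfl
  let δ : h20_P Qinf n →ₗ[k] (Z → k) :=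
    { toFun := fun a ν => e2 ν (ι a) - e1 ν (ι a)
      map_add' := by
        intro a b
        funext ν
        simp only [hιadd, map_add, Pi.add_apply]
        ring
      map_smul' := by
        intro c a
        funext ν
        simp only [hιsmul, map_smul, Pi.smul_apply, RingHom.id_apply, smul_eq_mul]
        ring }
  have hδ : ∀ a ν, δ a ν = e2 ν (ι a) - e1 ν (ι a) := fun a ν => rfl
  have hsurj : Function.Surjective δ := by
    intro t
    obtain ⟨a, h, ha1, ha2⟩ := hind (fun _ => 0) t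
    refine ⟨⟨a, h⟩, ?_⟩
    funext ν
    rw [hδ]
    have h1' : e1 ν (ι ⟨a, h⟩) = 0 := ha1 ν
    have h2' : e2 ν (ι ⟨a, h⟩) = t ν := ha2 ν
    rw [h1', h2', sub_zero]
  have hR : ∀ a : Fb × Fb, a ∈ h51_Rd D (n • D0) ↔ ∃ h : a ∈ h20_P Qinf n, δ ⟨a, h⟩ = 0 := by
    intro a
    rw [hnode n (by omega) a]
    constructor
    · rintro ⟨h, he⟩
      refine ⟨h, ?_⟩
      funext ν
      obtain ⟨c, hc1, hc2⟩ := he ν
      show e2 ν (ι ⟨a, h⟩) - e1 ν (ι ⟨a, h⟩) = 0
      have e1c : e1 ν (ι ⟨a, h⟩) = c := h20_e1_eq hxb Qinf Q1 h1 ν _ hc1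
      have e2c : e2 ν (ι ⟨a, h⟩) = c := h20_e2_eq hxb Qinf Q2 h2 ν _ hc2
      rw [e1c, e2c, sub_self]
    · rintro ⟨h, he⟩
      refine ⟨h, fun ν => ?_⟩
      have h3 := congrFun he ν
      rw [hδ] at h3
      have h4 : e2 ν (ι ⟨a, h⟩) = e1 ν (ι ⟨a, h⟩) := sub_eq_zero.mp h3
      have s1 := h20_e1_spec hxb Qinf Q1 h1 ν (ι ⟨a, h⟩)
      have s2 := h20_e2_spec hxb Qinf Q2 h2 ν (ι ⟨a, h⟩)
      refine ⟨e1 ν (ι ⟨a, h⟩), s1, ?_⟩
      have h5 : h20_e2 hxb Qinf Q2 h2 ν (ι ⟨a, h⟩) = e1 ν (ι ⟨a, h⟩) := h4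
      rw [← h5]
      exact s2
  have hcount := h64_finrank_node_kernel (h20_P Qinf n) (h51_Rd D (n • D0)) δ hsurj hR
  have hcodim := h16_codim_chart hxF hxb D hON D0 hdeg Qinf n (by omega) (by omega)
  have hPeq : finrank k (h20_P Qinf n) = finrank k (h16_pairFil (h16_Linf Qinf) n) := rfl
  rw [← hPeq, hcount] at hcodim
  push_cast at hcodim
  linarith

omit [IsAlgClosed k] in
/-- With the node count: `dim L(n D0 - E) = 2 n + 2 - 2 g_Fb - card Z` for `deg E = 0`,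
`n ≥ g_F`. -/
theorem h43_finrank_twist {xF : F} (hxF : h75_IsChart K xF) {xb : Fb}
    (D0 : Divisor K F) (hdeg : Divisor.degree D0 = 2) {Z : Type} [Fintype Z]
    (hcard : (Fintype.card Z : ℤ) = (h75_genus K xF : ℤ) - 2 * h75_genus k xb + 1)
    (E : Divisor K F) (hE : Divisor.degree E = 0) (n : ℕ) (hn : h75_genus K xF ≤ n) :
    (finrank K (riemannRochSpace (n • D0 - E)) : ℤ) =
      2 * (n : ℤ) + 2 - 2 * h75_genus k xb - Fintype.card Z := by
  have hd : Divisor.degree (n • D0 - E) = 2 * (n : ℤ) := by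
    rw [map_sub, map_nsmul, hdeg, hE, nsmul_eq_mul]
    ring
  have hg : (h75_genus K xF : ℤ) ≤ n := by exact_mod_cast hn
  have h1 := h15_finrank_rr_of_deg hxF (n • D0 - E) (by rw [hd]; linarith)
  rw [h1, hd, hcard]
  ring

omit [IsAlgClosed K] [IsAlgClosed k] in
/-- The `(⟹)` half of the node theorem in the `D`-free shape: `D` is the pair lattice of two
reduction data `R₁, R₂`. -/
theorem h43_hnode_free (R₁ R₂ : h39_RedDatum K F k Fb) (D : h22_Lat K F k (Fb × Fb))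
    (hmem : ∀ f : F, f ∈ D.O ↔ f ∈ R₁.O ∧ f ∈ R₂.O)
    (hred : ∀ f : F, f ∈ R₁.O → f ∈ R₂.O → D.redF f = (R₁.redF f, R₂.redF f))
    (D0 : Divisor K F) (Qinf : Place k Fb) {Z : Type} (Q1 Q2 : Z → Place k Fb) (n0 : ℕ)
    (hnode : ∀ n, n0 ≤ n → ∀ a : Fb × Fb, a ∈ h51_Rd D (n • D0) →
      (a ∈ h20_P Qinf n ∧ ∀ ν, ∃ c : k, h39_Val (Q1 ν) a.1 c ∧ h39_Val (Q2 ν) a.2 c))
    (n : ℕ) (hn : n0 ≤ n) (G : F) (hG : G ∈ riemannRochSpace (n • D0)) (hG1 : G ∈ R₁.O)
    (hG2 : G ∈ R₂.O) :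
    (R₁.redF G ∈ h16_Linf Qinf n ∧ R₂.redF G ∈ h16_Linf Qinf n) ∧
      ∀ ν, ∃ c : k, h39_Val (Q1 ν) (R₁.redF G) c ∧ h39_Val (Q2 ν) (R₂.redF G) c := by
  have hGO : G ∈ D.O := (hmem G).mpr ⟨hG1, hG2⟩
  have ha : (R₁.redF G, R₂.redF G) ∈ h51_Rd D (n • D0) := ⟨G, hG, hGO, hred G hG1 hG2⟩
  obtain ⟨hP, hv⟩ := hnode n hn _ ha
  exact ⟨h20_mem_P.mp hP, hv⟩

end Generic

/-! ### The modular package at a charted level -/

section Modular

local notation "Qb" => AlgebraicClosure ℚ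

variable (M q : ℕ) [NeZero M] [NeZero q] [Fact q.Prime] (hqM : ¬ q ∣ M)
  (A : ValuationSubring Qb) (hA : A.LiesOverPrime q)

/-- **The special-fibre package for the twist count** at a charted level `M q`: the node set of
`h87_sf_data` together with (M2) the node count, (M1) the `D`-free `(⟹)` node statement for
`R₁ = h60_R1`, `R₂ = h60_R2`, and the sharp node theorem. -/
theorem h43_sf_pack (hch : 5 ≤ q ∨ 2 ∣ M ∨ 3 ∣ M) :
    ∃ (Z : Type) (_ : Fintype Z)
      (Q1 Q2 : Z → Place (IsLocalRing.ResidueField A)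
        ↥(modularFunctionFieldFullC (IsLocalRing.ResidueField A) M)) (n0 : ℕ),
      (∀ ν, Q1 ν ≠ h11_placeInftyC (IsLocalRing.ResidueField A) M) ∧
      (∀ ν, Q2 ν ≠ h11_placeInftyC (IsLocalRing.ResidueField A) M) ∧
      Function.Injective Q1 ∧ Function.Injective Q2 ∧
      2 * h75_genus Qb (h59_jbar (M * q)) ≤ n0 ∧
      2 * h75_genus (IsLocalRing.ResidueField A) (h54_jk (IsLocalRing.ResidueField A) M) +
        Fintype.card Z ≤ n0 ∧
      -- (M2) the node count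
      ((Fintype.card Z : ℤ) = (h75_genus Qb (h59_jbar (M * q)) : ℤ) -
        2 * h75_genus (IsLocalRing.ResidueField A) (h54_jk (IsLocalRing.ResidueField A) M) + 1) ∧
      -- (M1) the node theorem, `(⟹)`, `D`-free
      (∀ n, n0 ≤ n → ∀ G : ↥(modularFunctionFieldBar (M * q)),
        G ∈ riemannRochSpace (n • h87_D0 M q hqM) → G ∈ (h60_R1 M q hqM A hA).O →
        G ∈ (h60_R2 M q hqM A hA).O →
        ((h60_R1 M q hqM A hA).redF G ∈
            h16_Linf (h11_placeInftyC (IsLocalRing.ResidueField A) M) n ∧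
          (h60_R2 M q hqM A hA).redF G ∈
            h16_Linf (h11_placeInftyC (IsLocalRing.ResidueField A) M) n) ∧
        ∀ ν, ∃ c : IsLocalRing.ResidueField A,
          h39_Val (Q1 ν) ((h60_R1 M q hqM A hA).redF G) c ∧
            h39_Val (Q2 ν) ((h60_R2 M q hqM A hA).redF G) c) ∧
      -- the sharp node theorem (verbatim `h87_sf_data`)
      (∀ n, n0 ≤ n → ∀ a : ↥(modularFunctionFieldFullC (IsLocalRing.ResidueField A) M) ×
          ↥(modularFunctionFieldFullC (IsLocalRing.ResidueField A) M),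
        a ∈ h51_Rd (h87_D M q hqM A hA) (n • h87_D0 M q hqM) ↔
          (a ∈ h20_P (h11_placeInftyC (IsLocalRing.ResidueField A) M) n ∧
            ∀ ν, ∃ c : IsLocalRing.ResidueField A,
              h39_Val (Q1 ν) a.1 c ∧ h39_Val (Q2 ν) a.2 c)) := by
  haveI : IsAlgClosed (IsLocalRing.ResidueField A) := h19_residueField_isAlgClosed A
  haveI : CharP (IsLocalRing.ResidueField A) q := h19_residueField_charP A q hA
  obtain ⟨Z, hZ, Q1, Q2, n0, h1, h2, hinj1, hinj2, hn0F, hn0b, hnode⟩ :=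
    h87_sf_data M q hqM A hA hch
  have hcard := h43_node_card (h54_isChart_jbar (M * q)) (h84_isChart_jk M q hqM A hA)
    (h87_D M q hqM A hA) (h87_D_on M q hqM A hA) (h87_D0 M q hqM) (h87_D0_degree M q hqM)
    (h11_placeInftyC (IsLocalRing.ResidueField A) M) Q1 Q2 h1 h2 hinj1 hinj2 n0 hnode
  refine ⟨Z, hZ, Q1, Q2, n0, h1, h2, hinj1, hinj2, hn0F, hn0b, hcard, ?_, hnode⟩
  intro n hn G hG hG1 hG2
  exact h43_hnode_free (h60_R1 M q hqM A hA) (h60_R2 M q hqM A hA) (h87_D M q hqM A hA)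
    (fun f => h87_D_mem M q hqM A hA) (fun f hf1 hf2 => h87_D_redF M q hqM A hA hf1 hf2)
    (h87_D0 M q hqM) (h11_placeInftyC (IsLocalRing.ResidueField A) M) Q1 Q2 n0
    (fun n hn a ha => (hnode n hn a).mp ha) n hn G hG hG1 hG2

/-- `dim L(n D0 - E) = 2 n + 2 - 2 g(Fb(M)) - card Z` at level `M q` for every divisor `E` of
degree `0`, `n ≥ g(F(Mq))`, and every finite type `Z` with the node count (M2). -/
theorem h43_sf_finrank {Z : Type} [Fintype Z]
    (hcard : (Fintype.card Z : ℤ) = (h75_genus Qb (h59_jbar (M * q)) : ℤ) -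
      2 * h75_genus (IsLocalRing.ResidueField A) (h54_jk (IsLocalRing.ResidueField A) M) + 1)
    (E : Divisor Qb ↥(modularFunctionFieldBar (M * q))) (hE : Divisor.degree E = 0) (n : ℕ)
    (hn : h75_genus Qb (h59_jbar (M * q)) ≤ n) :
    (finrank Qb (riemannRochSpace (n • h87_D0 M q hqM - E)) : ℤ) =
      2 * (n : ℤ) + 2 -
        2 * h75_genus (IsLocalRing.ResidueField A) (h54_jk (IsLocalRing.ResidueField A) M) -
        Fintype.card Z :=
  h43_finrank_twist (h54_isChart_jbar (M * q)) (h87_D0 M q hqM) (h87_D0_degree M q hqM) hcard E hE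
    n hn

end Modular

end Fermat.Agent.S40

end
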