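import Mathlib
import Fermat.Agent.S40.h11_LatStarW0
import Fermat.Agent.S40.h43_SfPack

/-!
# S40 / (TR) v2, rows W6/W7: the lattice DATA at the charted level (helper50)

Level `M p`, `p ∤ M` an odd prime, `A` over `p`, `R₁ = h60_R1`, `R₂ = h60_R2`, `D0 = h87_D0`,
a W0 pair `(z, w)` (`(1 + w)^p = 1 + p z`, `z` a unit fixed by the inertia group `I`),
`H = Stab_I(w)`; `E` an `H`-invariant divisor of `F(M p)`, `kap : ℤ`.

* `h50_LamMod .. w E kap n del f` : the twisted lattice at RR level `n` and twist `del`: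
  `f` is `H`-fixed, `f ∈ L(n D0 - E)`, `f ∈ O₁`, `f / w^(kap+del) ∈ O₂`;
* `h50_w6_data` : for every `n` there are `k`-spaces `W del` (`del : ℕ`) of twisted reductions
  `(red₁ f, red₂ (f / w^(kap+del)))` of elements of the lattice, each of dimension
  `dim L(n D0 - E)`, containing all twisted reductions;
* `h50_w6_data_rk` : the same with the rank clause of `h50_twist_w6` / `h38_twist_w67`
  (`2n + 2 - 2g'' - #Z ≤ dim W del`), given the node count (M2);
* `h50_lam_pow` : `f ^ p * u₁⁻¹ ∈ L(p n D0)` for `f` in the lattice, `p E = div u`, `u₁ = c u`.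

These are the clauses `Lam`, `W`, witness, rank of `h50_twist_w6` (and of `h38_twist_w67`) with
`t del := w ^ (kap + del)`.
-/

set_option autoImplicit false
set_option synthInstance.maxHeartbeats 400000

noncomputable section

open AlgebraicCurve ModularCurve Module

namespace Fermat.Agent.S40

open Fermat.Agent.S18 Fermat.Agent.S34 Fermat.Agent.S36 Fermat.Agent.S24

local notation "Qb" => AlgebraicClosure ℚ

section Generic

variable {K F : Type*} [Field K] [Field F] [Algebra K F]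

/-- `f ∈ L(n D0 - E)`, `p E = div u`, `u₁ = c u` ⟹ `f ^ p / u₁ ∈ L(p n D0)`. -/
theorem h50_pow_mul_inv_mem_rr (p n : ℕ) (hp : 0 < p) (D0 E : Divisor K F) {u u1 : F}
    (hu0 : u ≠ 0) (hdiv : ∀ v : Place K F, (p : ℤ) * E v = v.ord u) {c : K} (hc : c ≠ 0)
    (hu1 : u1 = algebraMap K F c * u) {f : F} (hf : f ∈ riemannRochSpace (n • D0 - E)) :
    f ^ p * u1⁻¹ ∈ riemannRochSpace ((p * n) • D0) := by
  rw [mem_riemannRochSpace_iff] at hf ⊢
  intro v
  by_cases hf0 : f = 0
  · left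
    rw [hf0, zero_pow hp.ne', zero_mul]
  · right
    have h1 := (hf v).resolve_left hf0
    have hc0 : algebraMap K F c ≠ 0 := (map_ne_zero _).mpr hc
    have hu10 : u1 ≠ 0 := by
      rw [hu1]
      exact mul_ne_zero hc0 hu0
    rw [v.ord_mul (pow_ne_zero p hf0) (inv_ne_zero hu10), h34_ord_pow, Place.ord_inv, hu1,
      v.ord_mul hc0 hu0, h35_ord_algebraMap, zero_add, ← hdiv v]
    have h2 : -((n : ℤ) * D0 v - E v) ≤ v.ord f := by
      have h3 : (n • D0 - E) v = (n : ℤ) * D0 v - E v := by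
        rw [Finsupp.sub_apply, Finsupp.smul_apply, nsmul_eq_mul]
      rw [← h3]
      exact h1
    have h4 : ((p * n) • D0) v = (p : ℤ) * ((n : ℤ) * D0 v) := by
      rw [Finsupp.smul_apply, nsmul_eq_mul]
      push_cast
      ring
    rw [h4]
    have hp' : (0 : ℤ) ≤ (p : ℤ) := Int.natCast_nonneg p
    nlinarith [mul_le_mul_of_nonneg_left h2 hp']

end Generic

section Modular

variable (M p : ℕ) [NeZero M] [NeZero p] [Fact p.Prime] (hp2 : p ≠ 2) (hpM : ¬ p ∣ M)
  (A : ValuationSubring Qb) (hA : A.LiesOverPrime p)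

/-- **The twisted lattice** at RR level `n` and twist `del`, for the Kummer parameter `w`, the
divisor `E` and the integer `kap`. -/
def h50_LamMod (w : Qb) (E : Divisor Qb ↥(modularFunctionFieldBar (M * p))) (kap : ℤ)
    (n del : ℕ) (f : ↥(modularFunctionFieldBar (M * p))) : Prop :=
  (∀ σ ∈ A.inertiaSubgroupIn ℚ, σ w = w →
    arithmeticGalois (modularFunctionFieldFull (M * p)) σ • f = f) ∧
  f ∈ riemannRochSpace (n • h87_D0 M p hpM - E) ∧ f ∈ (h60_R1 M p hpM A hA).O ∧
  (algebraMap Qb ↥(modularFunctionFieldBar (M * p)) (w ^ (kap + (del : ℤ))))⁻¹ * f ∈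
    (h60_R2 M p hpM A hA).O

/-- `f ^ p * u₁⁻¹ ∈ L(p n D0)` for `f` in the twisted lattice. -/
theorem h50_lam_pow (w : Qb) (E : Divisor Qb ↥(modularFunctionFieldBar (M * p))) (kap : ℤ)
    (n del : ℕ) {u u1 : ↥(modularFunctionFieldBar (M * p))} (hu0 : u ≠ 0)
    (hdiv : ∀ v : Place Qb ↥(modularFunctionFieldBar (M * p)), (p : ℤ) * E v = v.ord u)
    {c : Qb} (hc : c ≠ 0) (hu1 : u1 = algebraMap Qb ↥(modularFunctionFieldBar (M * p)) c * u)
    {f : ↥(modularFunctionFieldBar (M * p))} (hf : h50_LamMod M p hpM A hA w E kap n del f) :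
    f ^ p * u1⁻¹ ∈ riemannRochSpace ((p * n) • h87_D0 M p hpM) :=
  h50_pow_mul_inv_mem_rr p n (Fact.out : p.Prime).pos (h87_D0 M p hpM) E hu0 hdiv hc hu1 hf.2.1

include hp2 in
/-- **The lattice data of rows W6/W7 at the charted level**: the spaces of twisted reductions. -/
theorem h50_w6_data (ζ : Qb) (hζ : IsPrimitiveRoot ζ p) (z w : Qb)
    (hz : A.valuation z = 1) (hzI : ∀ g ∈ A.inertiaSubgroupIn ℚ, g z = z)
    (hw : (1 + w) ^ p = 1 + (p : Qb) * z)
    (E : Divisor Qb ↥(modularFunctionFieldBar (M * p)))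
    (hE : ∀ σ ∈ A.inertiaSubgroupIn ℚ, σ w = w →
      arithmeticGalois (modularFunctionFieldFull (M * p)) σ • E = E)
    (kap : ℤ) (n : ℕ) :
    ∃ W : ℕ → Submodule (IsLocalRing.ResidueField A)
        (↥(modularFunctionFieldFullC (IsLocalRing.ResidueField A) M) ×
          ↥(modularFunctionFieldFullC (IsLocalRing.ResidueField A) M)),
      (∀ del : ℕ, ∀ φ ∈ W del, ∃ f : ↥(modularFunctionFieldBar (M * p)),
        h50_LamMod M p hpM A hA w E kap n del f ∧
        ((h60_R1 M p hpM A hA).redF f,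
          (h60_R2 M p hpM A hA).redF
            ((algebraMap Qb ↥(modularFunctionFieldBar (M * p)) (w ^ (kap + (del : ℤ))))⁻¹ * f))
          = φ) ∧
      (∀ del : ℕ, finrank (IsLocalRing.ResidueField A) (W del) =
        finrank Qb ↥(riemannRochSpace (n • h87_D0 M p hpM - E))) ∧
      (∀ del : ℕ, ∀ f : ↥(modularFunctionFieldBar (M * p)),
        h50_LamMod M p hpM A hA w E kap n del f →
        ((h60_R1 M p hpM A hA).redF f,
          (h60_R2 M p hpM A hA).redF
            ((algebraMap Qb ↥(modularFunctionFieldBar (M * p)) (w ^ (kap + (del : ℤ))))⁻¹ * f))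
          ∈ W del) := by
  classical
  have hE' : ∀ σ ∈ A.inertiaSubgroupIn ℚ, σ w = w →
      arithmeticGalois (modularFunctionFieldFull (M * p)) σ • (n • h87_D0 M p hpM - E) =
        n • h87_D0 M p hpM - E := by
    intro σ hσ hσw
    rw [smul_sub, smul_comm, h87_D0_gal, hE σ hσ hσw]
  have : Module.Finite Qb ↥(riemannRochSpace (n • h87_D0 M p hpM - E)) :=
    (h75_riemann (h54_isChart_jbar (M * p)) _).1
  have key := fun del : ℕ => h11_latStar_W0_rr M p hp2 hpM A hA ζ hζ z w hz hzI hw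
    (kap + (del : ℤ)) (n • h87_D0 M p hpM - E) hE'
  choose W _ hW2 hW3 hW4 using key
  refine ⟨W, fun del φ hφ => ?_, fun del => hW2 del, fun del f hf => ?_⟩
  · obtain ⟨f, hfix, hfL, hf1, hf2, hfφ⟩ := hW3 del φ hφ
    rw [div_eq_inv_mul] at hf2 hfφ
    exact ⟨f, ⟨hfix, hfL, hf1, hf2⟩, hfφ⟩
  · obtain ⟨-, hfL, hf1, hf2⟩ := hf
    have h := hW4 del f hfL hf1 (by rw [div_eq_inv_mul]; exact hf2)
    rwa [div_eq_inv_mul] at h

include hp2 in
/-- **The lattice data with the rank clause of `h50_twist_w6`**, given the node count (M2). -/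
theorem h50_w6_data_rk (ζ : Qb) (hζ : IsPrimitiveRoot ζ p) (z w : Qb)
    (hz : A.valuation z = 1) (hzI : ∀ g ∈ A.inertiaSubgroupIn ℚ, g z = z)
    (hw : (1 + w) ^ p = 1 + (p : Qb) * z)
    {Z : Type} [Fintype Z]
    (hcard : (Fintype.card Z : ℤ) = (h75_genus Qb (h59_jbar (M * p)) : ℤ) -
      2 * h75_genus (IsLocalRing.ResidueField A) (h54_jk (IsLocalRing.ResidueField A) M) + 1)
    (E : Divisor Qb ↥(modularFunctionFieldBar (M * p))) (hEdeg : Divisor.degree E = 0)
    (hE : ∀ σ ∈ A.inertiaSubgroupIn ℚ, σ w = w →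
      arithmeticGalois (modularFunctionFieldFull (M * p)) σ • E = E)
    (kap : ℤ) (n : ℕ) (hn : h75_genus Qb (h59_jbar (M * p)) ≤ n) :
    ∃ W : ℕ → Submodule (IsLocalRing.ResidueField A)
        (↥(modularFunctionFieldFullC (IsLocalRing.ResidueField A) M) ×
          ↥(modularFunctionFieldFullC (IsLocalRing.ResidueField A) M)),
      (∀ del < p, ∀ φ ∈ W del, ∃ f : ↥(modularFunctionFieldBar (M * p)),
        h50_LamMod M p hpM A hA w E kap n del f ∧
        ((h60_R1 M p hpM A hA).redF f,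
          (h60_R2 M p hpM A hA).redF
            ((algebraMap Qb ↥(modularFunctionFieldBar (M * p)) (w ^ (kap + (del : ℤ))))⁻¹ * f))
          = φ) ∧
      (∀ del < p, (2 * (n : ℤ) + 2 -
          2 * (h75_genus (IsLocalRing.ResidueField A)
            (h54_jk (IsLocalRing.ResidueField A) M) : ℤ) - Fintype.card Z) ≤
        (finrank (IsLocalRing.ResidueField A) (W del) : ℤ)) := by
  obtain ⟨W, hW1, hW2, -⟩ := h50_w6_data M p hp2 hpM A hA ζ hζ z w hz hzI hw E hE kap n
  refine ⟨W, fun del _ => hW1 del, fun del _ => ?_⟩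
  rw [hW2 del, h43_sf_finrank M p hpM A hcard E hEdeg n hn]

end Modular

end Fermat.Agent.S40
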