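import Mathlib
import Fermat.Agent.S40.h25_JetMod
import Fermat.Agent.S40.h38_JumpW6
import Fermat.Agent.S40.h31_W6Block
import Fermat.Agent.S40.h50_W6Data
import Fermat.Agent.S40.h86_JetD
import Fermat.Agent.S40.h11_EtaUnit

/-!
# S40 / (TR) row W7 at the charted level: the modular call of `h38_twist_w67` (helper50)

Level `M p` (`p ∤ M` an odd prime), `A` a valuation ring of `ℚ̄` over `p`, `I` its inertia group,
`R₁ = h60_R1`, `R₂ = h60_R2`, a W0 pair `(z, w)` (`(1 + w) ^ p = 1 + p z`), the rings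
`S_i := h25_SH R_i (h25_rho (M p) I) w` of integral functions fixed by the stabiliser of `w`.

* `h50_mem_SH_of`, `h50_SH_fixed`, `h50_mem_SH_of_F0` : membership in `h25_SH` in terms of the
  Galois action;
* `h50_jump_mod_div` : the W9 binder block `(Sg, hSg, n0, hnode)` + node functions + jets
  `J1`, `J2` (binders in the output shape of `h25_jet_mod` and `h11_hjet_gen`) + a datum
  `(u1, u2, κ')` with a divisor `E`, `p E = div u1`, give TAIL-PT, `m₁ = m₂`, the jump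
  relation `Γ₂ - Γ₁ = (ord_{Φ ν} red₁ u1 - κ') λ` (`λ = (res z)⁻¹ ≠ 0`) and the congruence of
  the node orders, by one application of `h38_twist_w67` to the lattice data `h50_w6_data_rk`.
-/

set_option autoImplicit false
set_option synthInstance.maxHeartbeats 400000

noncomputable section

open AlgebraicCurve ModularCurve Module

namespace Fermat.Agent.S40

open Fermat.Agent.S18 Fermat.Agent.S34 Fermat.Agent.S24 Fermat.Agent.S27 Fermat.Agent.S37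
  Fermat.Agent.S36

local notation "Qb" => AlgebraicClosure ℚ

section SH

variable (N : ℕ) (I : Subgroup (Qb ≃ₐ[ℚ] Qb)) {k Fb : Type*} [Field k] [Field Fb] [Algebra k Fb]
  (R : h39_RedDatum Qb ↥(modularFunctionFieldBar N) k Fb) (w : Qb)

/-- membership in `h25_SH` from integrality and invariance under the stabiliser of `w`. -/
theorem h50_mem_SH_of {f : ↥(modularFunctionFieldBar N)} (hO : f ∈ R.O)
    (hfix : ∀ σ ∈ I, σ w = w → arithmeticGalois (modularFunctionFieldFull N) σ • f = f) :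
    f ∈ h25_SH R (h25_rho N I) (algebraMap Qb ↥(modularFunctionFieldBar N) w) := by
  refine ⟨hO, fun γ hγ => ?_⟩
  rw [h25_rho_algebraMap] at hγ
  exact hfix γ γ.2 ((algebraMap Qb ↥(modularFunctionFieldBar N)).injective hγ)

/-- elements of `h25_SH` are fixed by the stabiliser of `w`. -/
theorem h50_SH_fixed {f : ↥(modularFunctionFieldBar N)}
    (hf : f ∈ h25_SH R (h25_rho N I) (algebraMap Qb ↥(modularFunctionFieldBar N) w)) :
    ∀ σ ∈ I, σ w = w → arithmeticGalois (modularFunctionFieldFull N) σ • f = f := by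
  intro σ hσ hσw
  refine hf.2 ⟨σ, hσ⟩ ?_
  rw [h25_rho_algebraMap]
  exact congrArg _ hσw

/-- `I`-fixed integral functions lie in `h25_SH`. -/
theorem h50_mem_SH_of_F0 {f : ↥(modularFunctionFieldBar N)} (hO : f ∈ R.O)
    (hf : f ∈ h69_F0 N I) :
    f ∈ h25_SH R (h25_rho N I) (algebraMap Qb ↥(modularFunctionFieldBar N) w) :=
  h50_mem_SH_of N I R w hO fun σ hσ _ => (h69_mem_F0 N I f).mp hf σ hσ

end SH

section JumpMod

variable (M p : ℕ) [NeZero M] [NeZero p] [Fact p.Prime] (hp2 : p ≠ 2) (hpM : ¬ p ∣ M)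
  (A : ValuationSubring Qb) (hA : A.LiesOverPrime p)
  [CharP (IsLocalRing.ResidueField A) p] [IsAlgClosed (IsLocalRing.ResidueField A)]
  (Sg : Finset (Place (IsLocalRing.ResidueField A)
    ↥(modularFunctionFieldFullC (IsLocalRing.ResidueField A) M)))
  (hSg : ∀ Q ∈ Sg, Q ≠ h11_placeInftyC (IsLocalRing.ResidueField A) M ∧
    h96_frobPerm (h84_isFrobChart_jk M p hpM A hA) Q ≠
      h11_placeInftyC (IsLocalRing.ResidueField A) M ∧
    h96_frobPerm (h84_isFrobChart_jk M p hpM A hA)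
      (h96_frobPerm (h84_isFrobChart_jk M p hpM A hA) Q) = Q)
  (n0 : ℕ)
  (hnode : ∀ n, n0 ≤ n → ∀ a : ↥(modularFunctionFieldFullC (IsLocalRing.ResidueField A) M) ×
      ↥(modularFunctionFieldFullC (IsLocalRing.ResidueField A) M),
    a ∈ h51_Rd (h87_D M p hpM A hA) (n • h87_D0 M p hpM) ↔
      (a ∈ h20_P (h11_placeInftyC (IsLocalRing.ResidueField A) M) n ∧
        ∀ Q ∈ Sg, ∃ c : IsLocalRing.ResidueField A,
          h39_Val (h96_frobPerm (h84_isFrobChart_jk M p hpM A hA) Q) a.1 c ∧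
            h39_Val Q a.2 c))

include hp2 hSg hnode in
set_option maxHeartbeats 3200000 in
/-- **W7 at the charted level, for a datum with a divisor** (jets as binders). -/
theorem h50_jump_mod_div
    (a : {Q // Q ∈ Sg} → ↥(modularFunctionFieldBar (M * p))) (na : ℕ)
    (ha0 : ∀ ν, a ν ∈ h69_F0 (M * p) (A.inertiaSubgroupIn ℚ))
    (ha : ∀ ν, a ν ∈ riemannRochSpace (na • h87_D0 M p hpM))
    (ha₁ : ∀ ν, (algebraMap Qb ↥(modularFunctionFieldBar (M * p)) (p : Qb))⁻¹ * a ν ∈ (h60_R1 M p hpM A hA).O)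
    (ha₂ : ∀ ν, a ν ∈ (h60_R2 M p hpM A hA).O)
    (haρ : ∀ ν : {Q // Q ∈ Sg}, (h60_R1 M p hpM A hA).redF ((algebraMap Qb ↥(modularFunctionFieldBar (M * p)) (p : Qb))⁻¹ * a ν) ≠ 0 ∧
      (h96_frobPerm (h84_isFrobChart_jk M p hpM A hA) ν.1).ord ((h60_R1 M p hpM A hA).redF ((algebraMap Qb ↥(modularFunctionFieldBar (M * p)) (p : Qb))⁻¹ * a ν)) = -1)
    (haα : ∀ ν : {Q // Q ∈ Sg}, (h60_R2 M p hpM A hA).redF (a ν) ≠ 0 ∧ (ν.1).ord ((h60_R2 M p hpM A hA).redF (a ν)) = 1)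
    (ζ : Qb) (hζ : IsPrimitiveRoot ζ p) (z w : Qb) (hz : A.valuation z = 1)
    (hzI : ∀ g ∈ (A.inertiaSubgroupIn ℚ), g z = z) (hw : (1 + w) ^ p = 1 + (p : Qb) * z)
    (J1 : ↥(h25_SH (h60_R1 M p hpM A hA) (h25_rho (M * p) (A.inertiaSubgroupIn ℚ))
      (algebraMap Qb ↥(modularFunctionFieldBar (M * p)) w)) →+* TrivSqZeroExt ↥(modularFunctionFieldFullC (IsLocalRing.ResidueField A) M) ↥(modularFunctionFieldFullC (IsLocalRing.ResidueField A) M))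
    (J2 : ↥(h25_SH (h60_R2 M p hpM A hA) (h25_rho (M * p) (A.inertiaSubgroupIn ℚ))
      (algebraMap Qb ↥(modularFunctionFieldBar (M * p)) w)) →+* TrivSqZeroExt ↥(modularFunctionFieldFullC (IsLocalRing.ResidueField A) M) ↥(modularFunctionFieldFullC (IsLocalRing.ResidueField A) M))
    (hjet : h38_HJet (h60_R1 M p hpM A hA) (h60_R2 M p hpM A hA) (h87_D0 M p hpM) (h25_SH (h60_R1 M p hpM A hA) (h25_rho (M * p) (A.inertiaSubgroupIn ℚ))
      (algebraMap Qb ↥(modularFunctionFieldBar (M * p)) w)) (h25_SH (h60_R2 M p hpM A hA) (h25_rho (M * p) (A.inertiaSubgroupIn ℚ))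
      (algebraMap Qb ↥(modularFunctionFieldBar (M * p)) w)) J1 J2)
    (hJa1 : ∀ f : ↥(h25_SH (h60_R1 M p hpM A hA) (h25_rho (M * p) (A.inertiaSubgroupIn ℚ))
      (algebraMap Qb ↥(modularFunctionFieldBar (M * p)) w)), (f : ↥(modularFunctionFieldBar (M * p))) ∈ h69_F0 (M * p) (A.inertiaSubgroupIn ℚ) →
      J1 f = TrivSqZeroExt.inl ((h60_R1 M p hpM A hA).redF (f : ↥(modularFunctionFieldBar (M * p)))))
    (hJa2 : ∀ f : ↥(h25_SH (h60_R2 M p hpM A hA) (h25_rho (M * p) (A.inertiaSubgroupIn ℚ))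
      (algebraMap Qb ↥(modularFunctionFieldBar (M * p)) w)), (f : ↥(modularFunctionFieldBar (M * p))) ∈ h69_F0 (M * p) (A.inertiaSubgroupIn ℚ) →
      J2 f = TrivSqZeroExt.inl ((h60_R2 M p hpM A hA).redF (f : ↥(modularFunctionFieldBar (M * p)))))
    (hJb2 : ∀ hwS : algebraMap Qb ↥(modularFunctionFieldBar (M * p)) w ∈ (h25_SH (h60_R2 M p hpM A hA) (h25_rho (M * p) (A.inertiaSubgroupIn ℚ))
      (algebraMap Qb ↥(modularFunctionFieldBar (M * p)) w)), J2 ⟨algebraMap Qb ↥(modularFunctionFieldBar (M * p)) w, hwS⟩ = TrivSqZeroExt.inr 1)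
    (hJc1 : ∀ f : ↥(h25_SH (h60_R1 M p hpM A hA) (h25_rho (M * p) (A.inertiaSubgroupIn ℚ))
      (algebraMap Qb ↥(modularFunctionFieldBar (M * p)) w)), (J1 f).fst = (h60_R1 M p hpM A hA).redF (f : ↥(modularFunctionFieldBar (M * p))))
    (hJc2 : ∀ f : ↥(h25_SH (h60_R2 M p hpM A hA) (h25_rho (M * p) (A.inertiaSubgroupIn ℚ))
      (algebraMap Qb ↥(modularFunctionFieldBar (M * p)) w)), (J2 f).fst = (h60_R2 M p hpM A hA).redF (f : ↥(modularFunctionFieldBar (M * p))))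
    (u1 u2 : ↥(modularFunctionFieldBar (M * p))) (hu1 : u1 ∈ (h25_SH (h60_R1 M p hpM A hA) (h25_rho (M * p) (A.inertiaSubgroupIn ℚ))
      (algebraMap Qb ↥(modularFunctionFieldBar (M * p)) w))) (hu1i : u1⁻¹ ∈ (h25_SH (h60_R1 M p hpM A hA) (h25_rho (M * p) (A.inertiaSubgroupIn ℚ))
      (algebraMap Qb ↥(modularFunctionFieldBar (M * p)) w))) (hu2 : u2 ∈ (h25_SH (h60_R2 M p hpM A hA) (h25_rho (M * p) (A.inertiaSubgroupIn ℚ))
      (algebraMap Qb ↥(modularFunctionFieldBar (M * p)) w)))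
    (hu2i : u2⁻¹ ∈ (h25_SH (h60_R2 M p hpM A hA) (h25_rho (M * p) (A.inertiaSubgroupIn ℚ))
      (algebraMap Qb ↥(modularFunctionFieldBar (M * p)) w))) (κ' : ℤ) (hu10 : u1 ≠ 0)
    (hκ : u1 = algebraMap Qb ↥(modularFunctionFieldBar (M * p)) (p : Qb) ^ κ' * u2)
    (E : Divisor Qb ↥(modularFunctionFieldBar (M * p))) (hEdeg : Divisor.degree E = 0)
    (hE : ∀ σ ∈ (A.inertiaSubgroupIn ℚ), σ w = w →
      arithmeticGalois (modularFunctionFieldFull (M * p)) σ • E = E)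
    (hdiv : ∀ v : Place Qb ↥(modularFunctionFieldBar (M * p)), (p : ℤ) * E v = v.ord u1) :
    ((∀ Q : Place (IsLocalRing.ResidueField A) ↥(modularFunctionFieldFullC (IsLocalRing.ResidueField A) M), (∀ ν : {Q // Q ∈ Sg}, Q ≠ h96_frobPerm (h84_isFrobChart_jk M p hpM A hA) ν.1) →
        (p : ℤ) ∣ Q.ord ((h60_R1 M p hpM A hA).redF u1)) ∧
      (∀ Q : Place (IsLocalRing.ResidueField A) ↥(modularFunctionFieldFullC (IsLocalRing.ResidueField A) M), (∀ ν : {Q // Q ∈ Sg}, Q ≠ ν.1) →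
        (p : ℤ) ∣ Q.ord ((h60_R2 M p hpM A hA).redF u2))) ∧
    (∀ ν : {Q // Q ∈ Sg},
      (p : ℤ) ∣ (h96_frobPerm (h84_isFrobChart_jk M p hpM A hA) ν.1).ord ((h60_R1 M p hpM A hA).redF u1) + (ν.1).ord ((h60_R2 M p hpM A hA).redF u2)) ∧
    (∃ Γ₁ Γ₂ : (IsLocalRing.ResidueField A), h38_IsOm J1 ⟨u1, hu1⟩ (algebraMap (IsLocalRing.ResidueField A) ↥(modularFunctionFieldFullC (IsLocalRing.ResidueField A) M) Γ₁) ∧
      h38_IsOm J2 ⟨u2, hu2⟩ (algebraMap (IsLocalRing.ResidueField A) ↥(modularFunctionFieldFullC (IsLocalRing.ResidueField A) M) Γ₂) ∧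
      ∀ ν : {Q // Q ∈ Sg}, Γ₂ - Γ₁ =
        (((h96_frobPerm (h84_isFrobChart_jk M p hpM A hA) ν.1).ord ((h60_R1 M p hpM A hA).redF u1) - κ' : ℤ) : (IsLocalRing.ResidueField A)) * ((h60_R2 M p hpM A hA).resK z)⁻¹) ∧
    ((h60_R2 M p hpM A hA).resK z)⁻¹ ≠ 0 ∧
    (∀ ν ν' : {Q // Q ∈ Sg},
      (p : ℤ) ∣ (h96_frobPerm (h84_isFrobChart_jk M p hpM A hA) ν.1).ord ((h60_R1 M p hpM A hA).redF u1) - (h96_frobPerm (h84_isFrobChart_jk M p hpM A hA) ν'.1).ord ((h60_R1 M p hpM A hA).redF u1)) := by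
  have hpP : p.Prime := Fact.out
  obtain ⟨hηw, -, -, -, hη0, -, hw0, -, hp0, hpA, hzA⟩ :=
    h11_eta_spec p hp2 A hA ζ hζ z w hz hzI hw
  obtain ⟨⟨hη2, hη2i, hw2, hz2, -⟩, hfix2, hzfix2, hpfix2⟩ :=
    h11_eta_datum (M * p) p hp2 A hA ζ hζ z w hz hzI hw (h60_R2 M p hpM A hA) (h60_R2_A M p hpM A hA)
  have hpR1 : (p : Qb) ∈ (h60_R1 M p hpM A hA).A := by
    rw [h60_R1_A M p hpM A hA]
    exact hpA
  have hpR2 : (p : Qb) ∈ (h60_R2 M p hpM A hA).A := by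
    rw [h60_R2_A M p hpM A hA]
    exact hpA
  have hzR2 : z ∈ (h60_R2 M p hpM A hA).A := by
    rw [h60_R2_A M p hpM A hA]
    exact hzA
  have hpF0 : algebraMap Qb ↥(modularFunctionFieldBar (M * p)) (p : Qb) ∈ h69_F0 (M * p) (A.inertiaSubgroupIn ℚ) :=
    (h69_mem_F0 (M * p) _ _).mpr fun σ _ => hpfix2 σ
  have hzF0 : algebraMap Qb ↥(modularFunctionFieldBar (M * p)) z ∈ h69_F0 (M * p) (A.inertiaSubgroupIn ℚ) := (h69_mem_F0 (M * p) _ _).mpr hzfix2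
  -- the node functions in `S1`, `S2` with INL-jets
  have haF0 : ∀ ν, (algebraMap Qb ↥(modularFunctionFieldBar (M * p)) (p : Qb))⁻¹ * a ν ∈ h69_F0 (M * p) (A.inertiaSubgroupIn ℚ) := fun ν =>
    mul_mem (inv_mem hpF0) (ha0 ν)
  have ha1S : ∀ ν, (algebraMap Qb ↥(modularFunctionFieldBar (M * p)) (p : Qb))⁻¹ * a ν ∈ (h25_SH (h60_R1 M p hpM A hA) (h25_rho (M * p) (A.inertiaSubgroupIn ℚ))
      (algebraMap Qb ↥(modularFunctionFieldBar (M * p)) w)) := fun ν =>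
    h50_mem_SH_of_F0 (M * p) (A.inertiaSubgroupIn ℚ) (h60_R1 M p hpM A hA) w (ha₁ ν) (haF0 ν)
  have ha2S : ∀ ν, a ν ∈ (h25_SH (h60_R2 M p hpM A hA) (h25_rho (M * p) (A.inertiaSubgroupIn ℚ))
      (algebraMap Qb ↥(modularFunctionFieldBar (M * p)) w)) := fun ν =>
    h50_mem_SH_of_F0 (M * p) (A.inertiaSubgroupIn ℚ) (h60_R2 M p hpM A hA) w (ha₂ ν) (ha0 ν)
  have haJ1 : ∀ ν, ∃ ρ : ↥(modularFunctionFieldFullC (IsLocalRing.ResidueField A) M), J1 ⟨_, ha1S ν⟩ = TrivSqZeroExt.inl ρ := fun ν =>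
    ⟨_, hJa1 ⟨_, ha1S ν⟩ (haF0 ν)⟩
  have haJ2 : ∀ ν, ∃ ab : ↥(modularFunctionFieldFullC (IsLocalRing.ResidueField A) M), J2 ⟨_, ha2S ν⟩ = TrivSqZeroExt.inl ab := fun ν =>
    ⟨_, hJa2 ⟨_, ha2S ν⟩ (ha0 ν)⟩
  -- the constants `η`, `η⁻¹`, `w`, `z` in `S2` and (Jd)
  have hηS : algebraMap Qb ↥(modularFunctionFieldBar (M * p)) ((p : Qb) / w ^ p) ∈ (h25_SH (h60_R2 M p hpM A hA) (h25_rho (M * p) (A.inertiaSubgroupIn ℚ))
      (algebraMap Qb ↥(modularFunctionFieldBar (M * p)) w)) :=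
    h50_mem_SH_of (M * p) (A.inertiaSubgroupIn ℚ) (h60_R2 M p hpM A hA) w hη2 fun σ _ hσw => (hfix2 σ hσw).1
  have hηSi : (algebraMap Qb ↥(modularFunctionFieldBar (M * p)) ((p : Qb) / w ^ p))⁻¹ ∈ (h25_SH (h60_R2 M p hpM A hA) (h25_rho (M * p) (A.inertiaSubgroupIn ℚ))
      (algebraMap Qb ↥(modularFunctionFieldBar (M * p)) w)) :=
    h50_mem_SH_of (M * p) (A.inertiaSubgroupIn ℚ) (h60_R2 M p hpM A hA) w hη2i fun σ _ hσw => (hfix2 σ hσw).2.1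
  have hwS2 : algebraMap Qb ↥(modularFunctionFieldBar (M * p)) w ∈ (h25_SH (h60_R2 M p hpM A hA) (h25_rho (M * p) (A.inertiaSubgroupIn ℚ))
      (algebraMap Qb ↥(modularFunctionFieldBar (M * p)) w)) :=
    h50_mem_SH_of (M * p) (A.inertiaSubgroupIn ℚ) (h60_R2 M p hpM A hA) w hw2 fun σ _ hσw => (hfix2 σ hσw).2.2
  have hzS2 : algebraMap Qb ↥(modularFunctionFieldBar (M * p)) z ∈ (h25_SH (h60_R2 M p hpM A hA) (h25_rho (M * p) (A.inertiaSubgroupIn ℚ))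
      (algebraMap Qb ↥(modularFunctionFieldBar (M * p)) w)) := h50_mem_SH_of_F0 (M * p) (A.inertiaSubgroupIn ℚ) (h60_R2 M p hpM A hA) w hz2 hzF0
  have hJz : (J2 ⟨algebraMap Qb ↥(modularFunctionFieldBar (M * p)) z, hzS2⟩).snd = 0 := by
    rw [hJa2 ⟨_, hzS2⟩ hzF0, TrivSqZeroExt.snd_inl]
  obtain ⟨hηfst, hηJ⟩ := h86_jd_red (h60_R2 M p hpM A hA) (h25_SH (h60_R2 M p hpM A hA) (h25_rho (M * p) (A.inertiaSubgroupIn ℚ))
      (algebraMap Qb ↥(modularFunctionFieldBar (M * p)) w)) J2 hJc2 p hpP hp0 w z ((p : Qb) / w ^ p) hzR2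
    hwS2 hzS2 hηS (hJb2 hwS2) hJz hw hηw
  -- units have nonvanishing first jet
  have hunit : ∀ (S : Subring ↥(modularFunctionFieldBar (M * p))) (J : ↥S →+* TrivSqZeroExt ↥(modularFunctionFieldFullC (IsLocalRing.ResidueField A) M) ↥(modularFunctionFieldFullC (IsLocalRing.ResidueField A) M)) (x : ↥(modularFunctionFieldBar (M * p)))
      (hx : x ∈ S) (hxi : x⁻¹ ∈ S), x ≠ 0 → (J ⟨x, hx⟩).fst ≠ 0 := by
    intro S J x hx hxi hx0 h0
    have hst : (⟨x, hx⟩ : ↥S) * ⟨x⁻¹, hxi⟩ = 1 := Subtype.ext (mul_inv_cancel₀ hx0)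
    have h1 : (J (⟨x, hx⟩ * ⟨x⁻¹, hxi⟩)).fst = 1 := by
      rw [hst, map_one, TrivSqZeroExt.fst_one]
    rw [map_mul, TrivSqZeroExt.fst_mul, h0, zero_mul] at h1
    exact zero_ne_one h1
  have hu20 : u2 ≠ 0 := by
    rintro rfl
    rw [mul_zero] at hκ
    exact hu10 hκ
  have hfst1 := hunit _ J1 u1 hu1 hu1i hu10
  have hfst2 := hunit _ J2 u2 hu2 hu2i hu20
  have hηF0 : algebraMap Qb ↥(modularFunctionFieldBar (M * p)) ((p : Qb) / w ^ p) ≠ 0 := (map_ne_zero _).mpr hη0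
  have hfstη := hunit _ J2 _ hηS hηSi hηF0
  have hlam : ((h60_R2 M p hpM A hA).resK z)⁻¹ ≠ 0 := by
    intro h0
    rw [h0, map_zero] at hηfst
    exact hfstη hηfst
  have hκ' : u1 = algebraMap Qb ↥(modularFunctionFieldBar (M * p)) ((p : Qb) ^ κ') * u2 := by
    rw [map_zpow₀]
    exact hκ
  -- W6 ∘ W7
  obtain ⟨n1, hn1⟩ := h38_twist_w67 (h60_R1 M p hpM A hA) (h60_R2 M p hpM A hA) (h87_D0 M p hpM)
    (h11_placeInftyC (IsLocalRing.ResidueField A) M)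
    (fun ν : {Q // Q ∈ Sg} => h96_frobPerm (h84_isFrobChart_jk M p hpM A hA) ν.1) (fun ν : {Q // Q ∈ Sg} => ν.1)
    (h31_block_Q1_inj M p hpM A hA Sg) Subtype.val_injective
    (h31_block_Q1_ne M p hpM A hA Sg hSg) (h31_block_Q2_ne M p hpM A hA Sg hSg)
    (h84_isChart_jk M p hpM A hA) n0
    (h31_block_hnode M p hpM A hA Sg n0 hnode)
    p hpP.pos (p : Qb) hp0 hpR1 hpR2
    (h25_SH (h60_R1 M p hpM A hA) (h25_rho (M * p) (A.inertiaSubgroupIn ℚ))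
      (algebraMap Qb ↥(modularFunctionFieldBar (M * p)) w)) (h25_SH (h60_R2 M p hpM A hA) (h25_rho (M * p) (A.inertiaSubgroupIn ℚ))
      (algebraMap Qb ↥(modularFunctionFieldBar (M * p)) w)) (fun f hf => hf.1) (fun f hf => hf.1) J1 J2 hjet hJc1 hJc2
    u1 u2 hu10 hu1 hu1i hu2 hu2i κ' hκ'
    (h38_isOm_div J1 ⟨u1, hu1⟩ hfst1) (h38_isOm_div J2 ⟨u2, hu2⟩ hfst2)
    w ((p : Qb) / w ^ p) hw0 hηw hηS hηSi hηfst hηJ
    a na ha ha1S ha2S haJ1 haJ2 haρ haα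
    (h31_block_hsep M p hpM A hA Sg hSg n0 hnode)
  obtain ⟨W, hW1, hW2⟩ := h50_w6_data_rk M p hp2 hpM A hA ζ hζ z w hz hzI hw
    (Z := {Q // Q ∈ Sg}) (h31_block_card M p hpM A hA Sg hSg n0 hnode) E hEdeg hE κ'
    (max n1 (h75_genus Qb (h59_jbar (M * p)))) (le_max_right _ _)
  have hLam : ∀ del < p, ∀ f : ↥(modularFunctionFieldBar (M * p)),
      h50_LamMod M p hpM A hA w E κ' (max n1 (h75_genus Qb (h59_jbar (M * p)))) del f →
      f ∈ (h25_SH (h60_R1 M p hpM A hA) (h25_rho (M * p) (A.inertiaSubgroupIn ℚ))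
      (algebraMap Qb ↥(modularFunctionFieldBar (M * p)) w)) ∧ (algebraMap Qb ↥(modularFunctionFieldBar (M * p)) (w ^ (κ' + (del : ℤ))))⁻¹ * f ∈ (h25_SH (h60_R2 M p hpM A hA) (h25_rho (M * p) (A.inertiaSubgroupIn ℚ))
      (algebraMap Qb ↥(modularFunctionFieldBar (M * p)) w)) ∧
        f ^ p * u1⁻¹ ∈ riemannRochSpace
          ((p * max n1 (h75_genus Qb (h59_jbar (M * p)))) • h87_D0 M p hpM) := by
    intro del _ f hf
    refine ⟨h50_mem_SH_of (M * p) (A.inertiaSubgroupIn ℚ) (h60_R1 M p hpM A hA) w hf.2.2.1 hf.1,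
      h50_mem_SH_of (M * p) (A.inertiaSubgroupIn ℚ) (h60_R2 M p hpM A hA) w hf.2.2.2 (fun σ hσ hσw => ?_),
      h50_lam_pow M p hpM A hA w E κ' _ del hu10 hdiv one_ne_zero
        (by rw [map_one, one_mul]) hf⟩
    rw [smul_mul', hf.1 σ hσ hσw, h11_const_inv,
      h11_const_fixed (M * p) _ σ (by rw [map_inv₀, map_zpow₀, hσw])]
  obtain ⟨⟨hi1, hi2⟩, hii, ⟨Γ₁, Γ₂, hω1, hω2, hΓ⟩, hdiff⟩ := hn1 _ (le_max_left _ _)
    (h50_LamMod M p hpM A hA w E κ' (max n1 (h75_genus Qb (h59_jbar (M * p))))) hLam W hW1 hW2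
  refine ⟨⟨hi1, hi2⟩, hii, ⟨Γ₁, Γ₂, ?_, ?_, hΓ⟩, hlam, hdiff hlam⟩
  · rw [← hω1]
    exact h38_isOm_div J1 ⟨u1, hu1⟩ hfst1
  · rw [← hω2]
    exact h38_isOm_div J2 ⟨u2, hu2⟩ hfst2

end JumpMod

end Fermat.Agent.S40

end
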