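import Mathlib
import Fermat.Agent.S37.h88_HICore

/-!
# S40 / (TR) rows W7 / T8: the divisor of a datum (helper86)

The W7 instance (`h38_twist_w67` with the lattice data `h50_w6_data`, `h50_lam_pow`) needs, for
EVERY datum `(u₁, u₂, κ)` it is applied to (the datum of the class, the `T`-datum of END-JET, the
norm datum of W8), a divisor `E` with `p E = div u₁`, `deg E = 0`, invariant under the
automorphisms fixing `u₁`.  This file produces it from `p ∣ ord_v u₁` for all `v`.

* `h86_datum_div` : generic (`HasPrincipalDivisors K F`, `SemilinearAut K F`);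
* `h86_datum_div_mod` : at `F = F(N)` over `Qb`, for the arithmetic Galois action;
* `h86_datum_div_stab` : the same in the binder shape of `h50_w6_data` / `h50_w6_data_rk`
  (`hE`, `hEdeg`) and `h50_lam_pow` (`hdiv`): invariance under the `σ` of a subgroup-like
  predicate `P` fixing `u₁`.
-/

set_option autoImplicit false

noncomputable section

open AlgebraicCurve ModularCurve

namespace Fermat.Agent.S40

open Fermat.Agent.S37

local notation "Qb" => AlgebraicClosure ℚ

section Generic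

variable {K F : Type*} [Field K] [Field F] [Algebra K F]

/-- **The divisor of a datum**: if all orders of `u ≠ 0` are divisible by `p ≠ 0`, there is a
divisor `E` of degree `0` with `p E = div u`, invariant under every semilinear automorphism
fixing `u`. -/
theorem h86_datum_div [HasPrincipalDivisors K F] (p : ℕ) (hp : p ≠ 0) (u : F) (hu : u ≠ 0)
    (hdiv : ∀ v : Place K F, (p : ℤ) ∣ v.ord u) :
    ∃ E : Divisor K F, (∀ v : Place K F, (p : ℤ) * E v = v.ord u) ∧ Divisor.degree E = 0 ∧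
      ∀ σ : SemilinearAut K F, σ • u = u → σ • E = E := by
  classical
  obtain ⟨D, hD, hDdeg⟩ := HasPrincipalDivisors.exists_divisor (K := K) u hu
  have hp' : (p : ℤ) ≠ 0 := Nat.cast_ne_zero.mpr hp
  have hsupp : ∀ v : Place K F, v.ord u / (p : ℤ) ≠ 0 → v ∈ D.support := by
    intro v hv
    rw [Finsupp.mem_support_iff, hD v]
    intro h0
    exact hv (by rw [h0, Int.zero_ediv])
  obtain ⟨E, hE⟩ : ∃ E : Divisor K F, ∀ v, E v = v.ord u / (p : ℤ) :=
    ⟨Finsupp.onFinset D.support (fun v => v.ord u / (p : ℤ)) hsupp, fun v => rfl⟩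
  have hmul : ∀ v : Place K F, (p : ℤ) * E v = v.ord u := fun v => by
    rw [hE v]
    exact Int.mul_ediv_cancel' (hdiv v)
  have hDE : D = (p : ℤ) • E := by
    ext v
    rw [Finsupp.smul_apply, smul_eq_mul, hmul v, hD v]
  refine ⟨E, hmul, ?_, fun σ hσ => ?_⟩
  · have h1 : (p : ℤ) * Divisor.degree E = 0 := by
      rw [← smul_eq_mul, ← map_zsmul, ← hDE, hDdeg]
    exact (mul_eq_zero.mp h1).resolve_left hp'
  · ext v
    rw [SemilinearAut.divisor_smul_apply]
    have h1 : (σ⁻¹ • v).ord u = v.ord u := by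
      have h2 := SemilinearAut.ord_smul σ (σ⁻¹ • v) u
      rw [smul_inv_smul, hσ] at h2
      exact h2.symm
    have h3 := hmul (σ⁻¹ • v)
    rw [h1, ← hmul v] at h3
    exact mul_left_cancel₀ hp' h3

end Generic

section Modular

variable (N : ℕ) [NeZero N]

/-- The divisor of a datum at the modular level `N`, arithmetic Galois action. -/
theorem h86_datum_div_mod (p : ℕ) (hp : p ≠ 0) (u : ↥(modularFunctionFieldBar N)) (hu : u ≠ 0)
    (hdiv : ∀ v : Place Qb ↥(modularFunctionFieldBar N), (p : ℤ) ∣ v.ord u) :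
    ∃ E : Divisor Qb ↥(modularFunctionFieldBar N),
      (∀ v : Place Qb ↥(modularFunctionFieldBar N), (p : ℤ) * E v = v.ord u) ∧
      Divisor.degree E = 0 ∧
      ∀ σ : Qb ≃ₐ[ℚ] Qb, arithmeticGalois (modularFunctionFieldFull N) σ • u = u →
        arithmeticGalois (modularFunctionFieldFull N) σ • E = E := by
  haveI := h88_hasPrincipalDivisors N
  obtain ⟨E, h1, h2, h3⟩ := h86_datum_div (K := Qb) p hp u hu hdiv
  exact ⟨E, h1, h2, fun σ hσ => h3 _ hσ⟩

/-- The divisor of a datum in the binder shape of `h50_w6_data` (`hE`), `h50_w6_data_rk`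
(`hEdeg`) and `h50_lam_pow` (`hdiv`): `u` fixed by the `σ` satisfying `P` (e.g.
`P σ := σ ∈ A.inertiaSubgroupIn ℚ ∧ σ w = w`). -/
theorem h86_datum_div_stab (p : ℕ) (hp : p ≠ 0) (u : ↥(modularFunctionFieldBar N)) (hu : u ≠ 0)
    (hdiv : ∀ v : Place Qb ↥(modularFunctionFieldBar N), (p : ℤ) ∣ v.ord u)
    (P : (Qb ≃ₐ[ℚ] Qb) → Prop)
    (hfix : ∀ σ : Qb ≃ₐ[ℚ] Qb, P σ → arithmeticGalois (modularFunctionFieldFull N) σ • u = u) :
    ∃ E : Divisor Qb ↥(modularFunctionFieldBar N),
      (∀ v : Place Qb ↥(modularFunctionFieldBar N), (p : ℤ) * E v = v.ord u) ∧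
      Divisor.degree E = 0 ∧
      ∀ σ : Qb ≃ₐ[ℚ] Qb, P σ → arithmeticGalois (modularFunctionFieldFull N) σ • E = E := by
  obtain ⟨E, h1, h2, h3⟩ := h86_datum_div_mod N p hp u hu hdiv
  exact ⟨E, h1, h2, fun σ hσ => h3 σ (hfix σ hσ)⟩

/-- The same with the stabiliser of `w` in a subgroup `I` spelled out, VERBATIM the `hE` binder
of `h50_w6_data` (at `N = M * p`, `I = A.inertiaSubgroupIn ℚ`). -/
theorem h86_datum_div_pair (p : ℕ) (hp : p ≠ 0) (u : ↥(modularFunctionFieldBar N)) (hu : u ≠ 0)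
    (hdiv : ∀ v : Place Qb ↥(modularFunctionFieldBar N), (p : ℤ) ∣ v.ord u)
    (I : Subgroup (Qb ≃ₐ[ℚ] Qb)) (w : Qb)
    (hfix : ∀ σ ∈ I, σ w = w → arithmeticGalois (modularFunctionFieldFull N) σ • u = u) :
    ∃ E : Divisor Qb ↥(modularFunctionFieldBar N),
      (∀ v : Place Qb ↥(modularFunctionFieldBar N), (p : ℤ) * E v = v.ord u) ∧
      Divisor.degree E = 0 ∧
      ∀ σ ∈ I, σ w = w → arithmeticGalois (modularFunctionFieldFull N) σ • E = E := by
  obtain ⟨E, h1, h2, h3⟩ := h86_datum_div_mod N p hp u hu hdiv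
  exact ⟨E, h1, h2, fun σ hσ hσw => h3 σ (hfix σ hσ hσw)⟩

end Modular

end Fermat.Agent.S40
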