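import Mathlib
import Fermat.Agent.S40.h11_JetChart
import Fermat.Agent.S40.h50_JumpMod
import Fermat.Agent.S40.h86_DatumDiv

/-!
# S40 / (TR) row W7 CLOSED at a charted level (helper11)

Level `M p`, `p ∤ M` an odd prime, `A` over `p`, `I` its inertia group, `R₁ = h60_R1`,
`R₂ = h60_R2`, `Φ = h96_frobPerm (h84_isFrobChart_jk ..)`; the W9 block `(Sg, hSg, n0, hnode)`,
the node functions `a ν` of (S1) (inertia-fixed), ANY W0 pair `(z, w)`.

* `h11_mem_SH_iff` : `h25_SH R (h25_rho N I) (algebraMap w)` is the ring of elements of `R.O`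
  fixed by the stabiliser of `w` in `I`.
* `h11_w7_mod` : **W7 for every datum**, jets as binders on abstract rings `S₁`, `S₂` described
  by `hS1`, `hS2`: there is `lam ≠ 0` such that every datum `(u₁, u₂, κ')` (`u_i ∈ S_iˣ`,
  `u₁ = p ^ κ' u₂`, `p ∣ div u₁`) has logarithmic jets `Γ₁, Γ₂ ∈ k` with
  `Γ₂ - Γ₁ = (ord_{Φ ν} red₁ u₁ - κ') lam` at every node `ν`.  Proof: `h50_jump_mod_div`
  (helper50) applied to the divisor of the datum (`h86_datum_div_pair`, helper86);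
  `lam = (res z)⁻¹`.
* `h11_w7_chart` : the same at the jets of `h11_jet_chart`, with the jet package exported.
-/

set_option autoImplicit false
set_option synthInstance.maxHeartbeats 400000

noncomputable section

open AlgebraicCurve ModularCurve Module

namespace Fermat.Agent.S40

open Fermat.Agent.S18 Fermat.Agent.S34 Fermat.Agent.S24 Fermat.Agent.S27 Fermat.Agent.S37
  Fermat.Agent.S36

local notation "Qb" => AlgebraicClosure ℚ

/-- Dictionary: `h25_SH R (h25_rho N I) (algebraMap w)` is the ring of elements of `R.O` fixed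
by the stabiliser of `w` in `I`. -/
theorem h11_mem_SH_iff (N : ℕ) [NeZero N] (I : Subgroup (Qb ≃ₐ[ℚ] Qb)) (w : Qb)
    {k Fb : Type*} [Field k] [Field Fb] [Algebra k Fb]
    (R : h39_RedDatum Qb ↥(modularFunctionFieldBar N) k Fb) (f : ↥(modularFunctionFieldBar N)) :
    f ∈ h25_SH R (h25_rho N I) (algebraMap Qb ↥(modularFunctionFieldBar N) w) ↔
      f ∈ R.O ∧ ∀ σ ∈ I, σ w = w →
        arithmeticGalois (modularFunctionFieldFull N) σ • f = f := by
  have hinj : Function.Injective (algebraMap Qb ↥(modularFunctionFieldBar N)) :=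
    (algebraMap Qb ↥(modularFunctionFieldBar N)).injective
  rw [h25_mem_SH]
  constructor
  · rintro ⟨h1, h2⟩
    refine ⟨h1, fun σ hσ hσw => ?_⟩
    have h3 := h2 ⟨σ, hσ⟩ (by rw [h25_rho_algebraMap]; exact congrArg _ hσw)
    exact h3
  · rintro ⟨h1, h2⟩
    refine ⟨h1, fun γ hγ => ?_⟩
    rw [h25_rho_algebraMap] at hγ
    exact h2 γ γ.2 (hinj hγ)

set_option maxHeartbeats 1600000 in
/-- **W7 for every datum at a charted level** (jets as binders). -/
theorem h11_w7_mod (M p : ℕ) [NeZero M] [NeZero p] [Fact p.Prime] (hp2 : p ≠ 2) (hpM : ¬ p ∣ M)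
    (A : ValuationSubring Qb) (hA : A.LiesOverPrime p)
    [CharP (IsLocalRing.ResidueField A) p] [IsAlgClosed (IsLocalRing.ResidueField A)]
    (Sg : Finset (Place (IsLocalRing.ResidueField A)
      ↥(modularFunctionFieldFullC (IsLocalRing.ResidueField A) M)))
    (hSg : ∀ Q ∈ Sg, Q ≠ h11_placeInftyC (IsLocalRing.ResidueField A) M ∧
      h96_frobPerm (h84_isFrobChart_jk M p hpM A hA) Q ≠
        h11_placeInftyC (IsLocalRing.ResidueField A) M ∧
      h96_frobPerm (h84_isFrobChart_jk M p hpM A hA)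
        (h96_frobPerm (h84_isFrobChart_jk M p hpM A hA) Q) = Q)
    (n0 : ℕ)
    (hnode : ∀ n, n0 ≤ n → ∀ a : ↥(modularFunctionFieldFullC (IsLocalRing.ResidueField A) M) ×
        ↥(modularFunctionFieldFullC (IsLocalRing.ResidueField A) M),
      a ∈ h51_Rd (h87_D M p hpM A hA) (n • h87_D0 M p hpM) ↔
        (a ∈ h20_P (h11_placeInftyC (IsLocalRing.ResidueField A) M) n ∧
          ∀ Q ∈ Sg, ∃ c : IsLocalRing.ResidueField A,
            h39_Val (h96_frobPerm (h84_isFrobChart_jk M p hpM A hA) Q) a.1 c ∧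
              h39_Val Q a.2 c))
    (a : {Q // Q ∈ Sg} → ↥(modularFunctionFieldBar (M * p))) (na : ℕ)
    (ha : ∀ ν, a ν ∈ riemannRochSpace (na • h87_D0 M p hpM))
    (ha₁ : ∀ ν, (algebraMap Qb ↥(modularFunctionFieldBar (M * p)) (p : Qb))⁻¹ * a ν ∈
      (h60_R1 M p hpM A hA).O)
    (ha₂ : ∀ ν, a ν ∈ (h60_R2 M p hpM A hA).O)
    (haρ : ∀ ν : {Q // Q ∈ Sg},
      (h60_R1 M p hpM A hA).redF
          ((algebraMap Qb ↥(modularFunctionFieldBar (M * p)) (p : Qb))⁻¹ * a ν) ≠ 0 ∧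
        (h96_frobPerm (h84_isFrobChart_jk M p hpM A hA) ν.1).ord
          ((h60_R1 M p hpM A hA).redF
            ((algebraMap Qb ↥(modularFunctionFieldBar (M * p)) (p : Qb))⁻¹ * a ν)) = -1)
    (haα : ∀ ν : {Q // Q ∈ Sg}, (h60_R2 M p hpM A hA).redF (a ν) ≠ 0 ∧
      (ν.1).ord ((h60_R2 M p hpM A hA).redF (a ν)) = 1)
    (haI : ∀ ν, ∀ σ ∈ A.inertiaSubgroupIn ℚ,
      arithmeticGalois (modularFunctionFieldFull (M * p)) σ • a ν = a ν)
    (ζ : Qb) (hζ : IsPrimitiveRoot ζ p) (z w : Qb) (hz : A.valuation z = 1)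
    (hzI : ∀ g ∈ A.inertiaSubgroupIn ℚ, g z = z) (hw : (1 + w) ^ p = 1 + (p : Qb) * z)
    (S1 S2 : Subring ↥(modularFunctionFieldBar (M * p)))
    (hS1 : ∀ f, f ∈ S1 ↔ f ∈ (h60_R1 M p hpM A hA).O ∧ ∀ σ ∈ A.inertiaSubgroupIn ℚ, σ w = w →
      arithmeticGalois (modularFunctionFieldFull (M * p)) σ • f = f)
    (hS2 : ∀ f, f ∈ S2 ↔ f ∈ (h60_R2 M p hpM A hA).O ∧ ∀ σ ∈ A.inertiaSubgroupIn ℚ, σ w = w →
      arithmeticGalois (modularFunctionFieldFull (M * p)) σ • f = f)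
    (J1 : ↥S1 →+* TrivSqZeroExt ↥(modularFunctionFieldFullC (IsLocalRing.ResidueField A) M)
      ↥(modularFunctionFieldFullC (IsLocalRing.ResidueField A) M))
    (J2 : ↥S2 →+* TrivSqZeroExt ↥(modularFunctionFieldFullC (IsLocalRing.ResidueField A) M)
      ↥(modularFunctionFieldFullC (IsLocalRing.ResidueField A) M))
    (hjet : h38_HJet (h60_R1 M p hpM A hA) (h60_R2 M p hpM A hA) (h87_D0 M p hpM) S1 S2 J1 J2)
    (hJ1a : ∀ f : ↥S1, (∀ σ ∈ A.inertiaSubgroupIn ℚ,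
        arithmeticGalois (modularFunctionFieldFull (M * p)) σ •
          (f : ↥(modularFunctionFieldBar (M * p))) = f) →
      J1 f = TrivSqZeroExt.inl ((h60_R1 M p hpM A hA).redF f))
    (hJ2a : ∀ f : ↥S2, (∀ σ ∈ A.inertiaSubgroupIn ℚ,
        arithmeticGalois (modularFunctionFieldFull (M * p)) σ •
          (f : ↥(modularFunctionFieldBar (M * p))) = f) →
      J2 f = TrivSqZeroExt.inl ((h60_R2 M p hpM A hA).redF f))
    (hJ2b : ∀ hwS : algebraMap Qb ↥(modularFunctionFieldBar (M * p)) w ∈ S2,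
      J2 ⟨_, hwS⟩ = TrivSqZeroExt.inr 1)
    (hJ1c : ∀ f : ↥S1, (J1 f).fst = (h60_R1 M p hpM A hA).redF f)
    (hJ2c : ∀ f : ↥S2, (J2 f).fst = (h60_R2 M p hpM A hA).redF f) :
    ∃ lam : IsLocalRing.ResidueField A, lam ≠ 0 ∧
      ∀ (u1 u2 : ↥(modularFunctionFieldBar (M * p))) (hu1 : u1 ∈ S1) (_ : u1⁻¹ ∈ S1)
        (hu2 : u2 ∈ S2) (_ : u2⁻¹ ∈ S2) (κ' : ℤ), u1 ≠ 0 →
        u1 = algebraMap Qb ↥(modularFunctionFieldBar (M * p)) (p : Qb) ^ κ' * u2 →
        (∀ v : Place Qb ↥(modularFunctionFieldBar (M * p)), (p : ℤ) ∣ v.ord u1) →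
        ∃ Γ₁ Γ₂ : IsLocalRing.ResidueField A,
          h38_IsOm J1 ⟨u1, hu1⟩ (algebraMap (IsLocalRing.ResidueField A)
            ↥(modularFunctionFieldFullC (IsLocalRing.ResidueField A) M) Γ₁) ∧
          h38_IsOm J2 ⟨u2, hu2⟩ (algebraMap (IsLocalRing.ResidueField A)
            ↥(modularFunctionFieldFullC (IsLocalRing.ResidueField A) M) Γ₂) ∧
          ∀ ν : {Q // Q ∈ Sg}, Γ₂ - Γ₁ =
            (((h96_frobPerm (h84_isFrobChart_jk M p hpM A hA) ν.1).ord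
              ((h60_R1 M p hpM A hA).redF u1) - κ' : ℤ) : IsLocalRing.ResidueField A) * lam := by
  have hp : p.Prime := Fact.out
  obtain rfl : S1 = h25_SH (h60_R1 M p hpM A hA) (h25_rho (M * p) (A.inertiaSubgroupIn ℚ))
      (algebraMap Qb ↥(modularFunctionFieldBar (M * p)) w) :=
    Subring.ext fun f => (hS1 f).trans
      (h11_mem_SH_iff (M * p) (A.inertiaSubgroupIn ℚ) w (h60_R1 M p hpM A hA) f).symm
  obtain rfl : S2 = h25_SH (h60_R2 M p hpM A hA) (h25_rho (M * p) (A.inertiaSubgroupIn ℚ))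
      (algebraMap Qb ↥(modularFunctionFieldBar (M * p)) w) :=
    Subring.ext fun f => (hS2 f).trans
      (h11_mem_SH_iff (M * p) (A.inertiaSubgroupIn ℚ) w (h60_R2 M p hpM A hA) f).symm
  obtain ⟨-, -, -, -, -, -, -, -, -, -, hlam⟩ := h11_jet_chart M p hp2 hpM A hA ζ hζ z w hz hzI hw
  refine ⟨((h60_R2 M p hpM A hA).resK z)⁻¹, hlam, ?_⟩
  intro u1 u2 hu1 hu1i hu2 hu2i κ' hu10 hκ hdvd
  obtain ⟨E, hEdiv, hEdeg, hEfix⟩ := h86_datum_div_pair (M * p) p hp.ne_zero u1 hu10 hdvd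
    (A.inertiaSubgroupIn ℚ) w
    (h50_SH_fixed (M * p) (A.inertiaSubgroupIn ℚ) (h60_R1 M p hpM A hA) w hu1)
  exact (h50_jump_mod_div M p hp2 hpM A hA Sg hSg n0 hnode a na
    (fun ν => (h69_mem_F0 (M * p) (A.inertiaSubgroupIn ℚ) _).mpr (haI ν)) ha ha₁ ha₂ haρ haα
    ζ hζ z w hz hzI hw J1 J2 hjet
    (fun f hf => hJ1a f ((h69_mem_F0 (M * p) (A.inertiaSubgroupIn ℚ) _).mp hf))
    (fun f hf => hJ2a f ((h69_mem_F0 (M * p) (A.inertiaSubgroupIn ℚ) _).mp hf))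
    hJ2b hJ1c hJ2c u1 u2 hu1 hu1i hu2 hu2i κ' hu10 hκ E hEdeg hEfix hEdiv).2.2.1

set_option maxHeartbeats 1600000 in
/-- **W7 at the jets of the chart package.** -/
theorem h11_w7_chart (M p : ℕ) [NeZero M] [NeZero p] [Fact p.Prime] (hp2 : p ≠ 2) (hpM : ¬ p ∣ M)
    (A : ValuationSubring Qb) (hA : A.LiesOverPrime p)
    [CharP (IsLocalRing.ResidueField A) p] [IsAlgClosed (IsLocalRing.ResidueField A)]
    (Sg : Finset (Place (IsLocalRing.ResidueField A)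
      ↥(modularFunctionFieldFullC (IsLocalRing.ResidueField A) M)))
    (hSg : ∀ Q ∈ Sg, Q ≠ h11_placeInftyC (IsLocalRing.ResidueField A) M ∧
      h96_frobPerm (h84_isFrobChart_jk M p hpM A hA) Q ≠
        h11_placeInftyC (IsLocalRing.ResidueField A) M ∧
      h96_frobPerm (h84_isFrobChart_jk M p hpM A hA)
        (h96_frobPerm (h84_isFrobChart_jk M p hpM A hA) Q) = Q)
    (n0 : ℕ)
    (hnode : ∀ n, n0 ≤ n → ∀ a : ↥(modularFunctionFieldFullC (IsLocalRing.ResidueField A) M) ×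
        ↥(modularFunctionFieldFullC (IsLocalRing.ResidueField A) M),
      a ∈ h51_Rd (h87_D M p hpM A hA) (n • h87_D0 M p hpM) ↔
        (a ∈ h20_P (h11_placeInftyC (IsLocalRing.ResidueField A) M) n ∧
          ∀ Q ∈ Sg, ∃ c : IsLocalRing.ResidueField A,
            h39_Val (h96_frobPerm (h84_isFrobChart_jk M p hpM A hA) Q) a.1 c ∧
              h39_Val Q a.2 c))
    (a : {Q // Q ∈ Sg} → ↥(modularFunctionFieldBar (M * p))) (na : ℕ)
    (ha : ∀ ν, a ν ∈ riemannRochSpace (na • h87_D0 M p hpM))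
    (ha₁ : ∀ ν, (algebraMap Qb ↥(modularFunctionFieldBar (M * p)) (p : Qb))⁻¹ * a ν ∈
      (h60_R1 M p hpM A hA).O)
    (ha₂ : ∀ ν, a ν ∈ (h60_R2 M p hpM A hA).O)
    (haρ : ∀ ν : {Q // Q ∈ Sg},
      (h60_R1 M p hpM A hA).redF
          ((algebraMap Qb ↥(modularFunctionFieldBar (M * p)) (p : Qb))⁻¹ * a ν) ≠ 0 ∧
        (h96_frobPerm (h84_isFrobChart_jk M p hpM A hA) ν.1).ord
          ((h60_R1 M p hpM A hA).redF
            ((algebraMap Qb ↥(modularFunctionFieldBar (M * p)) (p : Qb))⁻¹ * a ν)) = -1)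
    (haα : ∀ ν : {Q // Q ∈ Sg}, (h60_R2 M p hpM A hA).redF (a ν) ≠ 0 ∧
      (ν.1).ord ((h60_R2 M p hpM A hA).redF (a ν)) = 1)
    (haI : ∀ ν, ∀ σ ∈ A.inertiaSubgroupIn ℚ,
      arithmeticGalois (modularFunctionFieldFull (M * p)) σ • a ν = a ν)
    (ζ : Qb) (hζ : IsPrimitiveRoot ζ p) (z w : Qb) (hz : A.valuation z = 1)
    (hzI : ∀ g ∈ A.inertiaSubgroupIn ℚ, g z = z) (hw : (1 + w) ^ p = 1 + (p : Qb) * z) :
    ∃ (g : Fin p → ↥(A.inertiaSubgroupIn ℚ))
      (J1 : ↥(h25_SH (h60_R1 M p hpM A hA) (h25_rho (M * p) (A.inertiaSubgroupIn ℚ))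
          (algebraMap Qb ↥(modularFunctionFieldBar (M * p)) w)) →+*
        TrivSqZeroExt ↥(modularFunctionFieldFullC (IsLocalRing.ResidueField A) M)
          ↥(modularFunctionFieldFullC (IsLocalRing.ResidueField A) M))
      (J2 : ↥(h25_SH (h60_R2 M p hpM A hA) (h25_rho (M * p) (A.inertiaSubgroupIn ℚ))
          (algebraMap Qb ↥(modularFunctionFieldBar (M * p)) w)) →+*
        TrivSqZeroExt ↥(modularFunctionFieldFullC (IsLocalRing.ResidueField A) M)
          ↥(modularFunctionFieldFullC (IsLocalRing.ResidueField A) M))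
      (lam : IsLocalRing.ResidueField A),
      -- orbit data
      ((Function.Injective fun i => h25_rho (M * p) (A.inertiaSubgroupIn ℚ) (g i)
          (algebraMap Qb ↥(modularFunctionFieldBar (M * p)) w)) ∧
        (∀ γ : ↥(A.inertiaSubgroupIn ℚ), ∃ i,
          h25_rho (M * p) (A.inertiaSubgroupIn ℚ) γ
              (algebraMap Qb ↥(modularFunctionFieldBar (M * p)) w) =
            h25_rho (M * p) (A.inertiaSubgroupIn ℚ) (g i)
              (algebraMap Qb ↥(modularFunctionFieldBar (M * p)) w)) ∧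
        ∀ i : Fin p, (g i : Qb ≃ₐ[ℚ] Qb) (1 + w) = ζ ^ (i : ℕ) * (1 + w)) ∧
      -- (Je)
      ((∀ f, J1 f = h25_jetFun (h60_R1 M p hpM A hA) (h25_rho (M * p) (A.inertiaSubgroupIn ℚ)) p
          (algebraMap Qb ↥(modularFunctionFieldBar (M * p)) w) g
          (f : ↥(modularFunctionFieldBar (M * p)))) ∧
        (∀ f, J2 f = h25_jetFun (h60_R2 M p hpM A hA) (h25_rho (M * p) (A.inertiaSubgroupIn ℚ)) p
          (algebraMap Qb ↥(modularFunctionFieldBar (M * p)) w) g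
          (f : ↥(modularFunctionFieldBar (M * p))))) ∧
      -- (Ja)
      ((∀ f : ↥(h25_SH (h60_R1 M p hpM A hA) (h25_rho (M * p) (A.inertiaSubgroupIn ℚ))
            (algebraMap Qb ↥(modularFunctionFieldBar (M * p)) w)),
          (f : ↥(modularFunctionFieldBar (M * p))) ∈ h69_F0 (M * p) (A.inertiaSubgroupIn ℚ) →
          J1 f = TrivSqZeroExt.inl
            ((h60_R1 M p hpM A hA).redF (f : ↥(modularFunctionFieldBar (M * p))))) ∧
        (∀ f : ↥(h25_SH (h60_R2 M p hpM A hA) (h25_rho (M * p) (A.inertiaSubgroupIn ℚ))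
            (algebraMap Qb ↥(modularFunctionFieldBar (M * p)) w)),
          (f : ↥(modularFunctionFieldBar (M * p))) ∈ h69_F0 (M * p) (A.inertiaSubgroupIn ℚ) →
          J2 f = TrivSqZeroExt.inl
            ((h60_R2 M p hpM A hA).redF (f : ↥(modularFunctionFieldBar (M * p)))))) ∧
      -- (Jb)
      ((∃ hwS, J1 ⟨algebraMap Qb ↥(modularFunctionFieldBar (M * p)) w, hwS⟩ =
          TrivSqZeroExt.inr 1) ∧
        (∃ hwS, J2 ⟨algebraMap Qb ↥(modularFunctionFieldBar (M * p)) w, hwS⟩ =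
          TrivSqZeroExt.inr 1)) ∧
      -- (Jc)
      ((∀ f, (J1 f).fst = (h60_R1 M p hpM A hA).redF (f : ↥(modularFunctionFieldBar (M * p)))) ∧
        (∀ f, (J2 f).fst = (h60_R2 M p hpM A hA).redF (f : ↥(modularFunctionFieldBar (M * p))))) ∧
      -- W7
      lam ≠ 0 ∧
      ∀ (u1 u2 : ↥(modularFunctionFieldBar (M * p)))
        (hu1 : u1 ∈ h25_SH (h60_R1 M p hpM A hA) (h25_rho (M * p) (A.inertiaSubgroupIn ℚ))
          (algebraMap Qb ↥(modularFunctionFieldBar (M * p)) w))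
        (_ : u1⁻¹ ∈ h25_SH (h60_R1 M p hpM A hA) (h25_rho (M * p) (A.inertiaSubgroupIn ℚ))
          (algebraMap Qb ↥(modularFunctionFieldBar (M * p)) w))
        (hu2 : u2 ∈ h25_SH (h60_R2 M p hpM A hA) (h25_rho (M * p) (A.inertiaSubgroupIn ℚ))
          (algebraMap Qb ↥(modularFunctionFieldBar (M * p)) w))
        (_ : u2⁻¹ ∈ h25_SH (h60_R2 M p hpM A hA) (h25_rho (M * p) (A.inertiaSubgroupIn ℚ))
          (algebraMap Qb ↥(modularFunctionFieldBar (M * p)) w)) (κ' : ℤ), u1 ≠ 0 →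
        u1 = algebraMap Qb ↥(modularFunctionFieldBar (M * p)) (p : Qb) ^ κ' * u2 →
        (∀ v : Place Qb ↥(modularFunctionFieldBar (M * p)), (p : ℤ) ∣ v.ord u1) →
        ∃ Γ₁ Γ₂ : IsLocalRing.ResidueField A,
          h38_IsOm J1 ⟨u1, hu1⟩ (algebraMap (IsLocalRing.ResidueField A)
            ↥(modularFunctionFieldFullC (IsLocalRing.ResidueField A) M) Γ₁) ∧
          h38_IsOm J2 ⟨u2, hu2⟩ (algebraMap (IsLocalRing.ResidueField A)
            ↥(modularFunctionFieldFullC (IsLocalRing.ResidueField A) M) Γ₂) ∧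
          ∀ ν : {Q // Q ∈ Sg}, Γ₂ - Γ₁ =
            (((h96_frobPerm (h84_isFrobChart_jk M p hpM A hA) ν.1).ord
              ((h60_R1 M p hpM A hA).redF u1) - κ' : ℤ) : IsLocalRing.ResidueField A) * lam := by
  obtain ⟨g, J1, J2, horb, hJe, hJa, hJb, hJc, hjet, -, -⟩ :=
    h11_jet_chart M p hp2 hpM A hA ζ hζ z w hz hzI hw
  obtain ⟨lam, hlam, hW7⟩ := h11_w7_mod M p hp2 hpM A hA Sg hSg n0 hnode a na ha ha₁ ha₂ haρ haα
    haI ζ hζ z w hz hzI hw _ _
    (h11_mem_SH_iff (M * p) (A.inertiaSubgroupIn ℚ) w (h60_R1 M p hpM A hA))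
    (h11_mem_SH_iff (M * p) (A.inertiaSubgroupIn ℚ) w (h60_R2 M p hpM A hA))
    J1 J2 hjet
    (fun f hf => hJa.1 f ((h69_mem_F0 (M * p) (A.inertiaSubgroupIn ℚ) _).mpr hf))
    (fun f hf => hJa.2 f ((h69_mem_F0 (M * p) (A.inertiaSubgroupIn ℚ) _).mpr hf))
    (fun hwS => by obtain ⟨hwS', h⟩ := hJb.2; exact h)
    hJc.1 hJc.2
  exact ⟨g, J1, J2, lam, horb, hJe, hJa, hJb, hJc, hlam, hW7⟩

end Fermat.Agent.S40
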