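/-
S40 (G40), row T8 (END-JET), generic assembly (helper12).  Mathlib only.

Logarithmic jets are written division-free: "`Ω(s) = ω`" is `(J s).snd = ω * (J s).fst` for a
ring homomorphism `J : S →+* B[ε]` (this is `h38_IsOm J s ω` of `S40/h38_JumpGen`, unfolded).

* `h12_ej_last` : the arithmetic at the end of (END-JET).  With `Γ₂ - Γ₁ = (e - κ) λ` (W7 for
  the datum of `y`), `n (Γ₂ - Γ₁) = (e' - n κ) λ` (W7 for the datum of `T_r y` + jets of norms),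
  `e' = a e + p m` (eigen-relation `U = c u ^ a w' ^ p`), `λ ≠ 0` and `p ∤ n - a`: `p ∣ e`.
* `h12_ej_isOm_of_dec` : `f = c₀ (1 + w (γ + w t))` with `J c₀ = inl b₀`, `J γ = inl g`,
  `J w = ε` has `Ω(f) = g`.
* `h12_ej_isOm_of_norm` : `U = N₀ (1 + n γ w + w² r)` with `J N₀ = inl b₀`, `J γ = inl g`,
  `J w = ε` has `Ω(U) = n g`.
* `h12_ej_core` : the assembly: W7 for `(u₁, u₂)` and for `(U₁, U₂)`, the norm-jet rule
  `Ω_i(u_i) = Γ ⟹ Ω_i(U_i) = n Γ` (`Γ` a constant), `e' = a e + p m`, `p ∤ n - a`, `λ ≠ 0`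
  give `p ∣ e`.
-/
import Mathlib

set_option autoImplicit false

namespace Fermat.Agent.S40

/-- An integer whose cast to a field of characteristic `p` vanishes is divisible by `p`. -/
theorem h12_ej_dvd_of_cast {k : Type*} [Field k] (p : ℕ) [CharP k p] (x : ℤ)
    (h : (x : k) = 0) : (p : ℤ) ∣ x :=
  (CharP.intCast_eq_zero_iff k p x).1 h

/-- **(END-JET), last step.** -/
theorem h12_ej_last {k : Type*} [Field k] (p : ℕ) [Fact p.Prime] [CharP k p] (lam : k)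
    (hlam : lam ≠ 0) (n a κ e e' m : ℤ) (hna : ¬ (p : ℤ) ∣ n - a) (Γ1 Γ2 : k)
    (he' : e' = a * e + p * m)
    (h1 : Γ2 - Γ1 = ((e - κ : ℤ) : k) * lam)
    (h2 : (n : k) * (Γ2 - Γ1) = ((e' - n * κ : ℤ) : k) * lam) : (p : ℤ) ∣ e := by
  have hp : p.Prime := Fact.out
  have h3 : (((n - a) * e : ℤ) : k) = 0 := by
    have h4 : (((n * e - e' : ℤ)) : k) * lam = 0 := by
      rw [h1] at h2
      have : (((n * e - e' : ℤ)) : k) * lam
          = (n : k) * (((e - κ : ℤ) : k) * lam) - ((e' - n * κ : ℤ) : k) * lam := by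
        push_cast
        ring
      rw [this, h2, sub_self]
    have h5 : (((n * e - e' : ℤ)) : k) = 0 := by
      rcases mul_eq_zero.1 h4 with h | h
      · exact h
      · exact absurd h hlam
    have h6 : ((n - a) * e : ℤ) = (n * e - e') + p * m := by
      rw [he']
      ring
    rw [h6]
    push_cast
    rw [show ((n : k) * (e : k) - (e' : k)) = (((n * e - e' : ℤ)) : k) by push_cast; ring, h5,
      CharP.cast_eq_zero k p]
    ring
  have h7 : (p : ℤ) ∣ (n - a) * e := h12_ej_dvd_of_cast p _ h3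
  have hpp : Prime (p : ℤ) := Nat.prime_iff_prime_int.1 hp
  rcases hpp.dvd_or_dvd h7 with h | h
  · exact absurd h hna
  · exact h

section Jet

variable {S B : Type*} [CommRing S] [CommRing B]

/-- The jet of `1 + w y` when `J w = ε`: `1 + ε (J y).fst`. -/
theorem h12_ej_jet_one_add (J : S →+* TrivSqZeroExt B B) {w : S}
    (hw : J w = TrivSqZeroExt.inr 1) (y : S) :
    (J (1 + w * y)).fst = 1 ∧ (J (1 + w * y)).snd = (J y).fst := by
  rw [map_add, map_one, map_mul, hw]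
  constructor
  · rw [TrivSqZeroExt.fst_add, TrivSqZeroExt.fst_one, TrivSqZeroExt.fst_mul,
      TrivSqZeroExt.fst_inr, zero_mul, add_zero]
  · rw [TrivSqZeroExt.snd_add, TrivSqZeroExt.snd_one, TrivSqZeroExt.snd_mul,
      TrivSqZeroExt.fst_inr, TrivSqZeroExt.snd_inr, zero_smul, zero_add, zero_add,
      op_smul_eq_mul, one_mul]

/-- **(DEC), converse direction.** `f = c₀ (1 + w (γ + w t))` with `J c₀ = inl b₀`,
`J γ = inl g`, `J w = ε` has logarithmic jet `g`. -/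
theorem h12_ej_isOm_of_dec (J : S →+* TrivSqZeroExt B B) {f c0 w γ t : S} {b0 g : B}
    (hc0 : J c0 = TrivSqZeroExt.inl b0) (hw : J w = TrivSqZeroExt.inr 1)
    (hγ : J γ = TrivSqZeroExt.inl g) (hf : f = c0 * (1 + w * (γ + w * t))) :
    (J f).fst = b0 ∧ (J f).snd = g * (J f).fst := by
  obtain ⟨h1, h2⟩ := h12_ej_jet_one_add J hw (γ + w * t)
  have h3 : (J (γ + w * t)).fst = g := by
    rw [map_add, map_mul, hγ, hw, TrivSqZeroExt.fst_add, TrivSqZeroExt.fst_inl,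
      TrivSqZeroExt.fst_mul, TrivSqZeroExt.fst_inr, zero_mul, add_zero]
  have h4 : (J f).fst = b0 := by
    rw [hf, map_mul, TrivSqZeroExt.fst_mul, h1, hc0, TrivSqZeroExt.fst_inl, mul_one]
  refine ⟨h4, ?_⟩
  rw [h4, hf, map_mul, TrivSqZeroExt.snd_mul, h1, h2, h3, hc0, TrivSqZeroExt.fst_inl,
    TrivSqZeroExt.snd_inl, smul_eq_mul, op_smul_eq_mul]
  ring

/-- **(NJ), jet of the norm.** `U = N₀ (1 + n γ w + w² r)` with `J N₀ = inl b₀`, `J γ = inl g`,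
`J w = ε` has logarithmic jet `n g`. -/
theorem h12_ej_isOm_of_norm (J : S →+* TrivSqZeroExt B B) {U N0 w γ r : S} {b0 g : B} (n : ℕ)
    (hN0 : J N0 = TrivSqZeroExt.inl b0) (hw : J w = TrivSqZeroExt.inr 1)
    (hγ : J γ = TrivSqZeroExt.inl g) (hU : U = N0 * (1 + (n : S) * γ * w + w ^ 2 * r)) :
    (J U).fst = b0 ∧ (J U).snd = ((n : B) * g) * (J U).fst := by
  have hU' : U = N0 * (1 + w * ((n : S) * γ + w * r)) := by
    rw [hU]
    ring
  have hγ' : J ((n : S) * γ) = TrivSqZeroExt.inl ((n : B) * g) := by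
    rw [map_mul, map_natCast, hγ]
    have : ((n : ℕ) : TrivSqZeroExt B B) = TrivSqZeroExt.inl (n : B) := by
      rw [← map_natCast (TrivSqZeroExt.inlHom B B) n]
      rfl
    rw [this, ← TrivSqZeroExt.inl_mul]
  exact h12_ej_isOm_of_dec J hN0 hw hγ' hU'

end Jet

/-- **(END-JET), generic assembly.**  `J₁ : S₁ →+* Fb[ε]`, `J₂ : S₂ →+* Fb[ε]` the two jets.
* `hW7u` : W7 for the datum of `y`: `Ω₁(u₁) = Γ₁`, `Ω₂(u₂) = Γ₂` constants with
  `Γ₂ - Γ₁ = (e - κ) λ`;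
* `hW7U` : W7 for the datum of `T_r y`: `Ω₁(U₁) = Γ₁'`, `Ω₂(U₂) = Γ₂'` constants with
  `Γ₂' - Γ₁' = (e' - n κ) λ`;
* `hNJ1`, `hNJ2` : jets of norms: `Ω_i(u_i) = Γ` constant implies `Ω_i(U_i) = n Γ`;
* `e' = a e + p m`, `p ∤ n - a`, `λ ≠ 0`.
Then `p ∣ e`. -/
theorem h12_ej_core {k Fb : Type*} [Field k] [Field Fb] [Algebra k Fb] {S1 S2 : Type*}
    [CommRing S1] [CommRing S2] (J1 : S1 →+* TrivSqZeroExt Fb Fb)
    (J2 : S2 →+* TrivSqZeroExt Fb Fb) (p : ℕ) [Fact p.Prime] [CharP k p] (lam : k)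
    (hlam : lam ≠ 0) (n a κ e e' m : ℤ) (hna : ¬ (p : ℤ) ∣ n - a) (he' : e' = a * e + p * m)
    (u1 U1 : S1) (u2 U2 : S2) (hU1 : (J1 U1).fst ≠ 0) (hU2 : (J2 U2).fst ≠ 0)
    (hW7u : ∃ Γ1 Γ2 : k, (J1 u1).snd = algebraMap k Fb Γ1 * (J1 u1).fst ∧
      (J2 u2).snd = algebraMap k Fb Γ2 * (J2 u2).fst ∧ Γ2 - Γ1 = ((e - κ : ℤ) : k) * lam)
    (hW7U : ∃ Γ1 Γ2 : k, (J1 U1).snd = algebraMap k Fb Γ1 * (J1 U1).fst ∧
      (J2 U2).snd = algebraMap k Fb Γ2 * (J2 U2).fst ∧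
      Γ2 - Γ1 = ((e' - n * κ : ℤ) : k) * lam)
    (hNJ1 : ∀ Γ : k, (J1 u1).snd = algebraMap k Fb Γ * (J1 u1).fst →
      (J1 U1).snd = algebraMap k Fb ((n : k) * Γ) * (J1 U1).fst)
    (hNJ2 : ∀ Γ : k, (J2 u2).snd = algebraMap k Fb Γ * (J2 u2).fst →
      (J2 U2).snd = algebraMap k Fb ((n : k) * Γ) * (J2 U2).fst) :
    (p : ℤ) ∣ e := by
  obtain ⟨Γ1, Γ2, h1, h2, h12⟩ := hW7u
  obtain ⟨Γ1', Γ2', h1', h2', h12'⟩ := hW7U
  have e1 : Γ1' = (n : k) * Γ1 := by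
    have h := hNJ1 Γ1 h1
    rw [h1'] at h
    exact (algebraMap k Fb).injective (mul_right_cancel₀ hU1 h)
  have e2 : Γ2' = (n : k) * Γ2 := by
    have h := hNJ2 Γ2 h2
    rw [h2'] at h
    exact (algebraMap k Fb).injective (mul_right_cancel₀ hU2 h)
  refine h12_ej_last p lam hlam n a κ e e' m hna Γ1 Γ2 he' h12 ?_
  rw [← h12', e1, e2]
  ring

end Fermat.Agent.S40
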