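/-
S40 (G40), row T8 (END-JET), generic assembly on reduction data (helper12).

Setting: `R1 R2 : h39_RedDatum K F k Fb` (the two components), `S1 S2 : Subring F` (in the
application the `H`-fixed elements of `R1.O`, `R2.O`), `J1 : S1 →+* Fb[ε]`, `J2 : S2 →+* Fb[ε]`
the first-order jets in the Kummer parameter (`(J_i f).fst = R_i.redF f`), `π : F` (= `p`),
`T : F →* F` the multiplicative map `u ↦ N_α (β u)` of a Hecke correspondence of degree `n`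
(`T π = π ^ n`), `Q1 ν` the branch points of the nodes on the first component.

* `h12_ej_gen` : if
  - `hW7` : the W7 conclusion holds for EVERY datum `(u₁, u₂, κ)` (`u₁ ∈ S1ˣ`, `u₂ ∈ S2ˣ`,
    `u₁ = π ^ κ u₂`, `p ∣ div u₁`): `Ω₁(u₁) = Γ₁`, `Ω₂(u₂) = Γ₂` are constants and
    `Γ₂ - Γ₁ = (ord_{Q1 ν} (red₁ u₁) - κ) λ` at every node `ν`;
  - `hT1`, `hT2` : `T` preserves the units of `S1`, `S2`;
  - `hNJ1`, `hNJ2` : jets of norms: `Ω_i(f) = Γ` (a constant) implies `Ω_i(T f) = n Γ`;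
  - `heig` : the eigen-relation `T u₁ = c u₁ ^ a h ^ p` with `p ∤ n - a`; `λ ≠ 0`;
  then `p ∣ ord_{Q1 ν} (red₁ u₁)` at every node `ν`.
-/
import Mathlib
import Fermat.Agent.S40.h12_EndJet
import Fermat.Agent.S40.h38_JumpGen
import Fermat.Agent.S40.h43_TailPt

set_option autoImplicit false

noncomputable section

open AlgebraicCurve Fermat.Agent.S18

namespace Fermat.Agent.S40

section

variable {K F k Fb : Type*} [Field K] [Field F] [Algebra K F] [Field k] [Field Fb] [Algebra k Fb]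

/-- A monoid endomorphism of a field sends nonzero elements to nonzero elements. -/
theorem h12_ej_map_ne_zero (T : F →* F) {x : F} (hx : x ≠ 0) : T x ≠ 0 := by
  intro h
  have h1 : T x * T x⁻¹ = 1 := by rw [← map_mul, mul_inv_cancel₀ hx, map_one]
  rw [h, zero_mul] at h1
  exact zero_ne_one h1

/-- A monoid endomorphism of a field commutes with inverses of nonzero elements. -/
theorem h12_ej_map_inv (T : F →* F) {x : F} (hx : x ≠ 0) : T x⁻¹ = (T x)⁻¹ := by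
  have h1 : T x * T x⁻¹ = 1 := by rw [← map_mul, mul_inv_cancel₀ hx, map_one]
  exact eq_inv_of_mul_eq_one_right h1

/-- A monoid endomorphism of a field commutes with integer powers of nonzero elements. -/
theorem h12_ej_map_zpow (T : F →* F) {x : F} (hx : x ≠ 0) (j : ℤ) : T (x ^ j) = T x ^ j := by
  cases j with
  | ofNat n => rw [Int.ofNat_eq_natCast, zpow_natCast, zpow_natCast, map_pow]
  | negSucc n =>
    rw [zpow_negSucc, zpow_negSucc, h12_ej_map_inv T (pow_ne_zero _ hx), map_pow]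

/-- **(END-JET), generic assembly on reduction data.** -/
theorem h12_ej_gen (R1 R2 : h39_RedDatum K F k Fb) (S1 S2 : Subring F)
    (hS1 : ∀ f : F, f ∈ S1 → f ∈ R1.O) (hS2 : ∀ f : F, f ∈ S2 → f ∈ R2.O)
    (J1 : S1 →+* TrivSqZeroExt Fb Fb) (J2 : S2 →+* TrivSqZeroExt Fb Fb)
    (hJ1 : ∀ f : S1, (J1 f).fst = R1.redF f) (hJ2 : ∀ f : S2, (J2 f).fst = R2.redF f)
    (p : ℕ) [Fact p.Prime] [CharP k p] (lam : k) (hlam : lam ≠ 0)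
    (π : F) (hπ : π ≠ 0) (T : F →* F) (n : ℕ) (hTπ : T π = π ^ n)
    (a : ℤ) (hna : ¬ (p : ℤ) ∣ (n : ℤ) - a) {Z : Type*} (Q1 : Z → Place k Fb)
    (hW7 : ∀ (u1 u2 : F) (hu1 : u1 ∈ S1) (_ : u1⁻¹ ∈ S1) (hu2 : u2 ∈ S2) (_ : u2⁻¹ ∈ S2)
      (κ' : ℤ), u1 ≠ 0 → u1 = π ^ κ' * u2 → (∀ v : Place K F, (p : ℤ) ∣ v.ord u1) →
      ∃ Γ₁ Γ₂ : k, h38_IsOm J1 ⟨u1, hu1⟩ (algebraMap k Fb Γ₁) ∧
        h38_IsOm J2 ⟨u2, hu2⟩ (algebraMap k Fb Γ₂) ∧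
        ∀ ν, Γ₂ - Γ₁ = (((Q1 ν).ord (R1.redF u1) - κ' : ℤ) : k) * lam)
    (hT1 : ∀ f : F, f ∈ S1 → f⁻¹ ∈ S1 → T f ∈ S1)
    (hT2 : ∀ f : F, f ∈ S2 → f⁻¹ ∈ S2 → T f ∈ S2)
    (hNJ1 : ∀ (f : F) (hf : f ∈ S1) (_ : f⁻¹ ∈ S1) (hTf : T f ∈ S1) (Γ : k),
      h38_IsOm J1 ⟨f, hf⟩ (algebraMap k Fb Γ) →
      h38_IsOm J1 ⟨T f, hTf⟩ (algebraMap k Fb ((n : k) * Γ)))
    (hNJ2 : ∀ (f : F) (hf : f ∈ S2) (_ : f⁻¹ ∈ S2) (hTf : T f ∈ S2) (Γ : k),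
      h38_IsOm J2 ⟨f, hf⟩ (algebraMap k Fb Γ) →
      h38_IsOm J2 ⟨T f, hTf⟩ (algebraMap k Fb ((n : k) * Γ)))
    (u1 u2 : F) (hu1 : u1 ∈ S1) (hu1i : u1⁻¹ ∈ S1) (hu2 : u2 ∈ S2) (hu2i : u2⁻¹ ∈ S2)
    (κ : ℤ) (hu0 : u1 ≠ 0) (hu12 : u1 = π ^ κ * u2)
    (hdiv : ∀ v : Place K F, (p : ℤ) ∣ v.ord u1)
    (heig : ∃ (c : K) (h : F), c ≠ 0 ∧ h ≠ 0 ∧ T u1 = algebraMap K F c * u1 ^ a * h ^ p) :
    ∀ ν, (p : ℤ) ∣ (Q1 ν).ord (R1.redF u1) := by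
  intro ν
  obtain ⟨c, h, hc0, hh0, hTu⟩ := heig
  have hu20 : u2 ≠ 0 := by
    rintro rfl
    rw [mul_zero] at hu12
    exact hu0 hu12
  -- the transformed datum
  have hU1 : T u1 ∈ S1 := hT1 u1 hu1 hu1i
  have hU1i : (T u1)⁻¹ ∈ S1 := by
    rw [← h12_ej_map_inv T hu0]
    exact hT1 u1⁻¹ hu1i (by rwa [inv_inv])
  have hU2 : T u2 ∈ S2 := hT2 u2 hu2 hu2i
  have hU2i : (T u2)⁻¹ ∈ S2 := by
    rw [← h12_ej_map_inv T hu20]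
    exact hT2 u2⁻¹ hu2i (by rwa [inv_inv])
  have hU0 : T u1 ≠ 0 := h12_ej_map_ne_zero T hu0
  have hU20 : T u2 ≠ 0 := h12_ej_map_ne_zero T hu20
  have hU12 : T u1 = π ^ ((n : ℤ) * κ) * T u2 := by
    rw [hu12, map_mul, h12_ej_map_zpow T hπ, hTπ, ← zpow_natCast π n, ← zpow_mul]
  have hc' : algebraMap K F c ≠ 0 := (map_ne_zero _).mpr hc0
  have hua : u1 ^ a ≠ 0 := zpow_ne_zero a hu0
  have hhp : h ^ p ≠ 0 := pow_ne_zero p hh0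
  have hdivU : ∀ v : Place K F, (p : ℤ) ∣ v.ord (T u1) := by
    intro v
    rw [hTu, v.ord_mul (mul_ne_zero hc' hua) hhp, v.ord_mul hc' hua, h43_ord_algebraMap,
      v.ord_zpow, ← zpow_natCast h p, v.ord_zpow, zero_add]
    exact dvd_add (Dvd.dvd.mul_left (hdiv v) a) (dvd_mul_right _ _)
  -- W7 twice
  obtain ⟨Γ1, Γ2, h1, h2, h12⟩ := hW7 u1 u2 hu1 hu1i hu2 hu2i κ hu0 hu12 hdiv
  obtain ⟨Γ1', Γ2', h1', h2', h12'⟩ :=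
    hW7 (T u1) (T u2) hU1 hU1i hU2 hU2i ((n : ℤ) * κ) hU0 hU12 hdivU
  -- units
  have hru1 : h43_IsRUnit R1 u1 := ⟨hu0, hS1 _ hu1, hS1 _ hu1i⟩
  have hrU1 : h43_IsRUnit R1 (T u1) := ⟨hU0, hS1 _ hU1, hS1 _ hU1i⟩
  have hrU2 : h43_IsRUnit R2 (T u2) := ⟨hU20, hS2 _ hU2, hS2 _ hU2i⟩
  -- the orders
  have he' : (Q1 ν).ord (R1.redF (T u1)) =
      a * (Q1 ν).ord (R1.redF u1) + (p : ℤ) * h43_rord R1 (Q1 ν) h := by
    rw [← h43_rord_of_unit R1 (Q1 ν) hrU1, ← h43_rord_of_unit R1 (Q1 ν) hru1, hTu,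
      h43_rord_mul R1 (Q1 ν) (mul_ne_zero hc' hua) hhp, h43_rord_mul R1 (Q1 ν) hc' hua,
      h43_rord_algebraMap, h43_rord_zpow R1 (Q1 ν) hu0, h43_rord_pow R1 (Q1 ν) hh0, zero_add]
  refine h12_ej_core J1 J2 p lam hlam (n : ℤ) a κ ((Q1 ν).ord (R1.redF u1))
    ((Q1 ν).ord (R1.redF (T u1))) (h43_rord R1 (Q1 ν) h) hna he' ⟨u1, hu1⟩ ⟨T u1, hU1⟩
    ⟨u2, hu2⟩ ⟨T u2, hU2⟩ ?_ ?_ ⟨Γ1, Γ2, h1, h2, h12 ν⟩ ⟨Γ1', Γ2', h1', h2', h12' ν⟩ ?_ ?_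
  · rw [hJ1]
    exact h43_redF_unit_ne_zero R1 hrU1
  · rw [hJ2]
    exact h43_redF_unit_ne_zero R2 hrU2
  · intro Γ hΓ
    have := hNJ1 u1 hu1 hu1i hU1 Γ hΓ
    rwa [← Int.cast_natCast (R := k) n] at this
  · intro Γ hΓ
    have := hNJ2 u2 hu2 hu2i hU2 Γ hΓ
    rwa [← Int.cast_natCast (R := k) n] at this

end

end Fermat.Agent.S40
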