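/-
S40 / G40, (TR) table v2, row T8 (END-JET), sub-row (DEC) (helper57).  Generic.

Variables of the jet instance (helper25 #3848): a reduction datum `R`, a group `G` acting on `F`
by ring automorphisms `ρ`, `w : F` with orbit `{ρ (g i) w : i < p}`, `H = Stab_G(w)`,
`v(w)^p = v(π) < 1`, and (INT-BASE) `hint`: the `ρ`-fixed elements have valuation in `v(π)^ℤ`.

* `h57_dec` (DEC): an `H`-fixed `f ∈ R.O` whose coefficients `c_j = h28_coef ρ p w g f j`
  satisfy `red c_0 ≠ 0` and `red c_1 = red γ * red c_0` with `γ` a `ρ`-fixed element of `R.O`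
  is `c_0 * (1 + w * (γ + w * t))` with `t ∈ R.O` (`H`-fixed), `c_0` a `ρ`-fixed unit of `R.O`.
* `h57_dec_const`: the same with `γ = algebraMap K F γ₀`, `γ₀ ∈ R.A` lifting a constant `Γ : k`.
* `h57_dec_conv` (converse, no jet needed): if `f = C * (1 + w * (γ + w * t))` is `H`-fixed with
  `C`, `γ` `ρ`-fixed in `R.O` and `t ∈ R.O`, then `red c_0(f) = red C` and
  `red c_1(f) = red γ * red C`.
* `h57_jet_of_dec`: the converse for an abstract jet `J : S →+* TrivSqZeroExt B B` with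
  `J c_0 = inl a`, `J γ = inl b`, `J w = inr 1`.
-/
import Mathlib
import Fermat.Agent.S18.GR_RedAPI
import Fermat.Agent.S40.h28_Interp

set_option autoImplicit false

namespace Fermat.Agent.S40

open Finset Fermat.Agent.S18

variable {K F k Fb : Type*} [Field K] [Field F] [Algebra K F] [Field k] [Field Fb] [Algebra k Fb]

/-- an element of valuation `< 1` reduces to `0`. -/
theorem h57_redF_of_val_lt (R : h39_RedDatum K F k Fb) {f : F} (hf : R.O.valuation f < 1) :
    R.redF f = 0 := by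
  have hfO : f ∈ R.O := (ValuationSubring.valuation_le_one_iff _ _).1 hf.le
  rw [h39_redF_eq_zero_iff R hfO]
  by_cases h0 : f = 0
  · exact Or.inl h0
  · right
    intro hinv
    have h1 : R.O.valuation f⁻¹ ≤ 1 := (ValuationSubring.valuation_le_one_iff _ _).2 hinv
    rw [map_inv₀] at h1
    have h2 : R.O.valuation f ≠ 0 := (Valuation.ne_zero_iff _).2 h0
    have h3 : (1 : R.O.ValueGroup) ≤ R.O.valuation f := by
      have := (inv_le_one₀ (zero_lt_iff.mpr h2)).1 h1
      exact this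
    exact absurd hf (not_lt.mpr h3)

/-- an element of `R.O` with reduction `0` has valuation `< 1`. -/
theorem h57_val_lt_of_redF (R : h39_RedDatum K F k Fb) {f : F} (hfO : f ∈ R.O)
    (h0 : R.redF f = 0) : R.O.valuation f < 1 := by
  rcases (h39_redF_eq_zero_iff R hfO).1 h0 with h | h
  · rw [h, map_zero]
    exact zero_lt_one
  · have h1 : R.O.valuation f ≤ 1 := (ValuationSubring.valuation_le_one_iff _ _).2 hfO
    refine lt_of_le_of_ne h1 ?_
    intro heq
    apply h
    rw [← ValuationSubring.valuation_le_one_iff, map_inv₀, heq, inv_one]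

section dec

variable (R : h39_RedDatum K F k Fb) {G : Type*} [Group G] (ρ : G →* (F ≃+* F))
  (p : ℕ) (hp2 : 2 ≤ p) (w : F) (g : Fin p → G)
  (hdist : Function.Injective fun i => ρ (g i) w)
  (horb : ∀ γ : G, ∃ i, ρ γ w = ρ (g i) w)
  (π : F) (hπ0 : π ≠ 0) (hπ : R.O.valuation π < 1)
  (hvw : R.O.valuation w ^ p = R.O.valuation π)
  (hint : ∀ f : F, (∀ γ : G, ρ γ f = f) → f ≠ 0 →
    ∃ m : ℤ, R.O.valuation f = R.O.valuation π ^ m)

include hp2 hπ0 hπ hvw hint in
/-- a `ρ`-fixed element of valuation `< 1` is divisible by `w ^ 2` in `R.O`. -/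
theorem h57_fixed_small (d : F) (hdfix : ∀ γ : G, ρ γ d = d) (hd : R.O.valuation d < 1) :
    R.O.valuation d ≤ R.O.valuation w ^ 2 := by
  by_cases hd0 : d = 0
  · rw [hd0, map_zero]
    exact zero_le
  obtain ⟨m, hm⟩ := hint d hdfix hd0
  have hw1 := h28_min_vw_lt_one R.O.valuation p π w hπ hvw
  have hπ0' : R.O.valuation π ≠ 0 := (Valuation.ne_zero_iff _).2 hπ0
  have hm1 : 1 ≤ m := by
    by_contra hneg
    rw [not_le] at hneg
    have hm0 : m ≤ 0 := by omega
    have h1 : (1 : R.O.ValueGroup) ≤ R.O.valuation π ^ m :=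
      one_le_zpow_of_nonpos₀ (zero_lt_iff.mpr hπ0') hπ.le hm0
    rw [← hm] at h1
    exact absurd hd (not_lt.mpr h1)
  have h2 : R.O.valuation π ^ m ≤ R.O.valuation π ^ (1 : ℤ) :=
    zpow_le_zpow_right_of_le_one₀ (zero_lt_iff.mpr hπ0') hπ.le hm1
  rw [zpow_one] at h2
  rw [hm]
  refine le_trans h2 ?_
  rw [← hvw]
  exact pow_le_pow_of_le_one zero_le hw1.le hp2

include hp2 hdist horb hπ0 hπ hvw hint in
/-- (DEC) the decomposition `f = c₀ * (1 + w * (γ + w * t))` of an `H`-fixed integral `f`. -/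
theorem h57_dec (f : F) (hfO : f ∈ R.O) (hf : ∀ γ : G, ρ γ w = w → ρ γ f = f)
    (hc0 : R.redF (h28_coef ρ p w g f 0) ≠ 0)
    (gam : F) (hgO : gam ∈ R.O) (hgfix : ∀ γ : G, ρ γ gam = gam)
    (hgam : R.redF (h28_coef ρ p w g f 1) = R.redF gam * R.redF (h28_coef ρ p w g f 0)) :
    h28_coef ρ p w g f 0 ∈ R.O ∧ (h28_coef ρ p w g f 0)⁻¹ ∈ R.O ∧
    (∀ γ : G, ρ γ (h28_coef ρ p w g f 0) = h28_coef ρ p w g f 0) ∧
    ∃ t : F, t ∈ R.O ∧ (∀ γ : G, ρ γ w = w → ρ γ t = t) ∧
      f = h28_coef ρ p w g f 0 * (1 + w * (gam + w * t)) := by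
  set c0 := h28_coef ρ p w g f 0 with hc0def
  set c1 := h28_coef ρ p w g f 1 with hc1def
  have hfv : R.O.valuation f ≤ 1 := (ValuationSubring.valuation_le_one_iff _ _).2 hfO
  obtain ⟨hmem, t0, ht0, hjet⟩ :=
    h28_interp_jet ρ p hp2 w g hdist horb f hf R.O.valuation π hπ0 hπ hvw hint hfv
  have hc0O : c0 ∈ R.O := h39_mem_of_redF_ne_zero R hc0
  have hc0inv : c0⁻¹ ∈ R.O := (h39_inv_of_redF_ne_zero R hc0).1
  have hc0ne : c0 ≠ 0 := by
    intro h
    rw [h] at hc0
    exact hc0 (h39_redF_zero R)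
  have hc0fix : ∀ γ : G, ρ γ c0 = c0 := fun γ => h28_coef_fixed ρ p w g hdist horb f hf 0 γ
  have hc1fix : ∀ γ : G, ρ γ c1 = c1 := fun γ => h28_coef_fixed ρ p w g hdist horb f hf 1 γ
  have hc1O : c1 ∈ R.O := (ValuationSubring.valuation_le_one_iff _ _).1 (hmem 1)
  have ht0O : t0 ∈ R.O := (ValuationSubring.valuation_le_one_iff _ _).1 ht0
  have hw0' := h28_min_vw_ne_zero R.O.valuation p π w hπ0 hπ hvw
  have hw1 := h28_min_vw_lt_one R.O.valuation p π w hπ hvw
  have hwne : w ≠ 0 := (Valuation.ne_zero_iff _).1 hw0'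
  have hwO : w ∈ R.O := (ValuationSubring.valuation_le_one_iff _ _).1 hw1.le
  -- d := c1 - gam * c0 is fixed with reduction 0
  set d := c1 - gam * c0 with hd
  have hdO : d ∈ R.O := R.O.sub_mem hc1O (R.O.mul_mem _ _ hgO hc0O)
  have hdfix : ∀ γ : G, ρ γ d = d := by
    intro γ
    rw [hd, map_sub, map_mul, hc1fix, hgfix, hc0fix]
  have hdred : R.redF d = 0 := by
    rw [hd, h39_redF_sub R hc1O (R.O.mul_mem _ _ hgO hc0O), h39_redF_mul R hgO hc0O, hgam,
      sub_self]
  have hdv : R.O.valuation d ≤ R.O.valuation w ^ 2 :=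
    h57_fixed_small R ρ p hp2 w π hπ0 hπ hvw hint d hdfix (h57_val_lt_of_redF R hdO hdred)
  -- s := d / w^2 ∈ O
  have hsO : d / w ^ 2 ∈ R.O := by
    rw [← ValuationSubring.valuation_le_one_iff, map_div₀, map_pow]
    exact (div_le_one₀ (zero_lt_iff.mpr (pow_ne_zero 2 hw0'))).2 hdv
  refine ⟨hc0O, hc0inv, hc0fix, c0⁻¹ * (w * (d / w ^ 2) + t0), ?_, ?_, ?_⟩
  · exact R.O.mul_mem _ _ hc0inv (R.O.add_mem _ _ (R.O.mul_mem _ _ hwO hsO) ht0O)
  · -- t is H-fixed: t = (f / c0 - 1 - w * gam) / w ^ 2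
    have ht : c0⁻¹ * (w * (d / w ^ 2) + t0) = (f / c0 - 1 - w * gam) / w ^ 2 := by
      rw [hjet, hd]
      field_simp
      ring
    intro γ hγ
    rw [ht, map_div₀, map_sub, map_sub, map_div₀, map_one, map_mul, map_pow, hγ, hf γ hγ,
      hc0fix, hgfix]
  · rw [hjet, hd]
    field_simp
    ring

include hp2 hdist horb hπ0 hπ hvw hint in
/-- (DEC), constant form: `γ = algebraMap K F γ₀` with `γ₀ ∈ R.A` lifting `Γ : k`. -/
theorem h57_dec_const (f : F) (hfO : f ∈ R.O) (hf : ∀ γ : G, ρ γ w = w → ρ γ f = f)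
    (hc0 : R.redF (h28_coef ρ p w g f 0) ≠ 0)
    (Γ : k) (γ₀ : K) (hγA : γ₀ ∈ R.A) (hγres : R.resK γ₀ = Γ)
    (hγfix : ∀ γ : G, ρ γ (algebraMap K F γ₀) = algebraMap K F γ₀)
    (hgam : R.redF (h28_coef ρ p w g f 1) = algebraMap k Fb Γ * R.redF (h28_coef ρ p w g f 0)) :
    h28_coef ρ p w g f 0 ∈ R.O ∧ (h28_coef ρ p w g f 0)⁻¹ ∈ R.O ∧
    (∀ γ : G, ρ γ (h28_coef ρ p w g f 0) = h28_coef ρ p w g f 0) ∧
    ∃ t : F, t ∈ R.O ∧ (∀ γ : G, ρ γ w = w → ρ γ t = t) ∧
      f = h28_coef ρ p w g f 0 * (1 + w * (algebraMap K F γ₀ + w * t)) := by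
  refine h57_dec R ρ p hp2 w g hdist horb π hπ0 hπ hvw hint f hfO hf hc0 (algebraMap K F γ₀)
    ((R.mem_iff γ₀).1 hγA) hγfix ?_
  rw [h39_redF_algebraMap R hγA, hγres]
  exact hgam

include hp2 hdist horb hπ0 hπ hvw hint in
/-- (DEC), converse: the first two coefficients of `C * (1 + w * (γ + w * t))`. -/
theorem h57_dec_conv (f : F) (hf : ∀ γ : G, ρ γ w = w → ρ γ f = f)
    (C gam t : F) (hCO : C ∈ R.O) (hCfix : ∀ γ : G, ρ γ C = C)
    (hgO : gam ∈ R.O) (hgfix : ∀ γ : G, ρ γ gam = gam) (ht : t ∈ R.O)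
    (hfeq : f = C * (1 + w * (gam + w * t))) :
    h28_coef ρ p w g f 0 ∈ R.O ∧ h28_coef ρ p w g f 1 ∈ R.O ∧
    R.redF (h28_coef ρ p w g f 0) = R.redF C ∧
    R.redF (h28_coef ρ p w g f 1) = R.redF gam * R.redF C := by
  have hw0' := h28_min_vw_ne_zero R.O.valuation p π w hπ0 hπ hvw
  have hw1 := h28_min_vw_lt_one R.O.valuation p π w hπ hvw
  have hwne : w ≠ 0 := (Valuation.ne_zero_iff _).1 hw0'
  have hwO : w ∈ R.O := (ValuationSubring.valuation_le_one_iff _ _).1 hw1.le
  -- f' := w^2 * (C * t) = f - C - C * gam * w is H-fixed of valuation ≤ v(w)^2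
  set f' := f - C - C * gam * w with hf'
  have hf'eq : f' = w ^ 2 * (C * t) := by
    rw [hf', hfeq]
    ring
  have hf'fix : ∀ γ : G, ρ γ w = w → ρ γ f' = f' := by
    intro γ hγ
    rw [hf', map_sub, map_sub, map_mul, map_mul, hf γ hγ, hCfix, hgfix, hγ]
  have hf'v : R.O.valuation f' ≤ R.O.valuation w ^ 2 := by
    rw [hf'eq, map_mul, map_pow]
    have h1 : R.O.valuation (C * t) ≤ 1 :=
      (ValuationSubring.valuation_le_one_iff _ _).2 (R.O.mul_mem _ _ hCO ht)
    calc R.O.valuation w ^ 2 * R.O.valuation (C * t) ≤ R.O.valuation w ^ 2 * 1 := by gcongr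
      _ = R.O.valuation w ^ 2 := mul_one _
  have hsum' := h28_coef_sum ρ p w g hdist horb f' hf'fix
  have hefix : ∀ j (γ : G), ρ γ (h28_coef ρ p w g f' j) = h28_coef ρ p w g f' j :=
    fun j γ => h28_coef_fixed ρ p w g hdist horb f' hf'fix j γ
  have hc : ∀ j < p, h28_coef ρ p w g f' j ≠ 0 →
      ∃ m : ℤ, R.O.valuation (h28_coef ρ p w g f' j) = R.O.valuation π ^ m :=
    fun j _ h0 => hint _ (hefix j) h0
  have hle := h28_min_le R.O.valuation p π w hπ0 hπ hvw (h28_coef ρ p w g f') hc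
  rw [← hsum'] at hle
  -- the coefficients e_0, e_1 of f' have valuation < 1
  have he0 : R.O.valuation (h28_coef ρ p w g f' 0) < 1 := by
    have h1 := le_trans (hle 0 (by omega)) hf'v
    rw [pow_zero, mul_one] at h1
    refine lt_of_le_of_lt h1 ?_
    exact pow_lt_one₀ zero_le hw1 (by norm_num)
  have he1 : R.O.valuation (h28_coef ρ p w g f' 1) < 1 := by
    have h1 := le_trans (hle 1 (by omega)) hf'v
    rw [pow_one, map_mul, pow_two] at h1
    have h2 : R.O.valuation (h28_coef ρ p w g f' 1) ≤ R.O.valuation w :=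
      le_of_mul_le_mul_right h1 (zero_lt_iff.mpr hw0')
    exact lt_of_le_of_lt h2 hw1
  -- uniqueness of the coefficients
  have hsum := h28_coef_sum ρ p w g hdist horb f hf
  have hcfix : ∀ j (γ : G), ρ γ (h28_coef ρ p w g f j) = h28_coef ρ p w g f j :=
    fun j γ => h28_coef_fixed ρ p w g hdist horb f hf j γ
  set c' : ℕ → F := fun j => h28_coef ρ p w g f j - (if j = 0 then C else 0)
    - (if j = 1 then C * gam else 0) - h28_coef ρ p w g f' j with hc'
  have hc'fix : ∀ j (γ : G), ρ γ (c' j) = c' j := by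
    intro j γ
    have ha : ρ γ (if j = 0 then C else 0) = (if j = 0 then C else 0) := by
      split_ifs
      · exact hCfix γ
      · exact map_zero _
    have hb : ρ γ (if j = 1 then C * gam else 0) = (if j = 1 then C * gam else 0) := by
      split_ifs
      · rw [map_mul, hCfix, hgfix]
      · exact map_zero _
    simp only [hc', map_sub, hcfix, hefix, ha, hb]
  have hc'sum : ∑ j ∈ range p, c' j * w ^ j = 0 := by
    simp only [hc', sub_mul, Finset.sum_sub_distrib]
    rw [← hsum, ← hsum']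
    have h1 : ∑ j ∈ range p, (if j = 0 then C else 0) * w ^ j = C := by
      rw [Finset.sum_eq_single 0]
      · simp
      · intro b _ hb
        rw [if_neg hb, zero_mul]
      · intro h
        exact absurd (Finset.mem_range.mpr (by omega)) h
    have h2 : ∑ j ∈ range p, (if j = 1 then C * gam else 0) * w ^ j = C * gam * w := by
      rw [Finset.sum_eq_single 1]
      · simp
      · intro b _ hb
        rw [if_neg hb, zero_mul]
      · intro h
        exact absurd (Finset.mem_range.mpr (by omega)) h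
    rw [h1, h2, hf']
    ring
  have huniq := h28_coef_unique ρ p w g hdist c' hc'fix hc'sum
  have h0 : h28_coef ρ p w g f 0 = C + h28_coef ρ p w g f' 0 := by
    have := huniq 0 (by omega)
    simp only [hc', if_true, if_neg (show (0 : ℕ) ≠ 1 by norm_num), sub_zero] at this
    linear_combination this
  have h1 : h28_coef ρ p w g f 1 = C * gam + h28_coef ρ p w g f' 1 := by
    have := huniq 1 (by omega)
    simp only [hc', if_true, if_neg (show (1 : ℕ) ≠ 0 by norm_num), sub_zero] at this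
    linear_combination this
  have he0O : h28_coef ρ p w g f' 0 ∈ R.O := (ValuationSubring.valuation_le_one_iff _ _).1 he0.le
  have he1O : h28_coef ρ p w g f' 1 ∈ R.O := (ValuationSubring.valuation_le_one_iff _ _).1 he1.le
  have hCg : C * gam ∈ R.O := R.O.mul_mem _ _ hCO hgO
  refine ⟨?_, ?_, ?_, ?_⟩
  · rw [h0]
    exact R.O.add_mem _ _ hCO he0O
  · rw [h1]
    exact R.O.add_mem _ _ hCg he1O
  · rw [h0, h39_redF_add R hCO he0O, h57_redF_of_val_lt R he0, add_zero]
  · rw [h1, h39_redF_add R hCg he1O, h57_redF_of_val_lt R he1, add_zero, h39_redF_mul R hCO hgO,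
      mul_comm]

end dec

/-- the converse jet computation for an abstract jet `J` with `(Ja)`, `(Jb)`. -/
theorem h57_jet_of_dec {S B : Type*} [CommRing S] [CommRing B] (J : S →+* TrivSqZeroExt B B)
    (c0 w gam t : S) (a b : B) (hc0 : J c0 = TrivSqZeroExt.inl a)
    (hgam : J gam = TrivSqZeroExt.inl b) (hw : J w = TrivSqZeroExt.inr 1) :
    J (c0 * (1 + w * (gam + w * t))) = TrivSqZeroExt.inl a * (1 + TrivSqZeroExt.inr b) := by
  rw [map_mul, map_add, map_one, map_mul, map_add, map_mul, hc0, hgam, hw]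
  congr 2
  apply TrivSqZeroExt.ext
  · simp
  · simp

end Fermat.Agent.S40
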