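/-
S40 (G40), row T8 (END-JET), assembly in COEFFICIENT form (helper12).  No jet ring
homomorphism: "`Ω_i(f) = Γ`" is `R_i.redF (c₁ f) = Γ * R_i.redF (c₀ f)` for the first two
Lagrange coefficients `c_j f = h28_coef ρ p w g f j` of `f` in the Kummer parameter `w`
(the shape of the modular W7 statement, board #3936/#4015).

* `h12_ej_coef` : the (END-JET) assembly on two reduction data `R1`, `R2`, for abstract
  coefficient maps `c0 c1 : F → F` and abstract predicates `P1`, `P2` ("`H`-fixed unit of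
  `R_i.O`"): W7 for every datum + the norm-jet rule + the eigen-relation give
  `p ∣ ord_{Q1 ν} (red₁ u₁)` at every node.
* `h12_ej_coef0_ne_zero` : for an `H`-fixed unit `f` of `R.O`, `red (c₀ f) = red f ≠ 0`.
* `h12_ej_nj_coef` : the norm-jet rule in coefficient form from (DEC) `h57_dec_const`, its
  converse `h57_dec_conv`, the (RES) lift of constants, and (NJ):
  `T (c₀ (1 + w (γ + w t))) = T c₀ (1 + n γ w + w² r')`.
-/
import Mathlib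
import Fermat.Agent.S40.h12_EndJetGen
import Fermat.Agent.S40.h57_Dec

set_option autoImplicit false

noncomputable section

open AlgebraicCurve Fermat.Agent.S18

namespace Fermat.Agent.S40

section

variable {K F k Fb : Type*} [Field K] [Field F] [Algebra K F] [Field k] [Field Fb] [Algebra k Fb]

/-- **(END-JET), assembly in coefficient form.** -/
theorem h12_ej_coef (R1 R2 : h39_RedDatum K F k Fb) (P1 P2 : F → Prop)
    (hP1 : ∀ f : F, P1 f → h43_IsRUnit R1 f)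
    (c0 c1 : F → F) (p : ℕ) [Fact p.Prime] [CharP k p] (lam : k) (hlam : lam ≠ 0)
    (π : F) (hπ : π ≠ 0) (T : F →* F) (n : ℕ) (hTπ : T π = π ^ n)
    (a : ℤ) (hna : ¬ (p : ℤ) ∣ (n : ℤ) - a) {Z : Type*} (Q1 : Z → Place k Fb)
    (hW7 : ∀ (u1 u2 : F) (κ' : ℤ), P1 u1 → P2 u2 → u1 = π ^ κ' * u2 →
      (∀ v : Place K F, (p : ℤ) ∣ v.ord u1) →
      ∃ Γ₁ Γ₂ : k, R1.redF (c1 u1) = algebraMap k Fb Γ₁ * R1.redF (c0 u1) ∧
        R2.redF (c1 u2) = algebraMap k Fb Γ₂ * R2.redF (c0 u2) ∧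
        ∀ ν, Γ₂ - Γ₁ = (((Q1 ν).ord (R1.redF u1) - κ' : ℤ) : k) * lam)
    (hT1 : ∀ f : F, P1 f → P1 (T f)) (hT2 : ∀ f : F, P2 f → P2 (T f))
    (hNJ1 : ∀ (f : F) (Γ : k), P1 f → R1.redF (c1 f) = algebraMap k Fb Γ * R1.redF (c0 f) →
      R1.redF (c0 (T f)) ≠ 0 ∧
        R1.redF (c1 (T f)) = algebraMap k Fb ((n : k) * Γ) * R1.redF (c0 (T f)))
    (hNJ2 : ∀ (f : F) (Γ : k), P2 f → R2.redF (c1 f) = algebraMap k Fb Γ * R2.redF (c0 f) →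
      R2.redF (c0 (T f)) ≠ 0 ∧
        R2.redF (c1 (T f)) = algebraMap k Fb ((n : k) * Γ) * R2.redF (c0 (T f)))
    (u1 u2 : F) (κ : ℤ) (hu1 : P1 u1) (hu2 : P2 u2) (hu12 : u1 = π ^ κ * u2)
    (hdiv : ∀ v : Place K F, (p : ℤ) ∣ v.ord u1)
    (heig : ∃ (c : K) (h : F), c ≠ 0 ∧ h ≠ 0 ∧ T u1 = algebraMap K F c * u1 ^ a * h ^ p) :
    ∀ ν, (p : ℤ) ∣ (Q1 ν).ord (R1.redF u1) := by
  intro ν
  obtain ⟨c, h, hc0, hh0, hTu⟩ := heig
  have hru1 : h43_IsRUnit R1 u1 := hP1 u1 hu1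
  have hu0 : u1 ≠ 0 := hru1.1
  have hrU1 : h43_IsRUnit R1 (T u1) := hP1 _ (hT1 u1 hu1)
  have hU12 : T u1 = π ^ ((n : ℤ) * κ) * T u2 := by
    rw [hu12, map_mul, h12_ej_map_zpow T hπ, hTπ, ← zpow_natCast π n, ← zpow_mul]
  have hc' : algebraMap K F c ≠ 0 := (map_ne_zero _).mpr hc0
  have hua : u1 ^ a ≠ 0 := zpow_ne_zero a hu0
  have hhp : h ^ p ≠ 0 := pow_ne_zero p hh0
  have hdivU : ∀ v : Place K F, (p : ℤ) ∣ v.ord (T u1) := by
    intro v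
    rw [hTu, v.ord_mul (mul_ne_zero hc' hua) hhp, v.ord_mul hc' hua, h43_ord_algebraMap,
      v.ord_zpow, ← zpow_natCast h p, v.ord_zpow, zero_add]
    exact dvd_add (Dvd.dvd.mul_left (hdiv v) a) (dvd_mul_right _ _)
  obtain ⟨Γ1, Γ2, h1, h2, h12⟩ := hW7 u1 u2 κ hu1 hu2 hu12 hdiv
  obtain ⟨Γ1', Γ2', h1', h2', h12'⟩ :=
    hW7 (T u1) (T u2) ((n : ℤ) * κ) (hT1 u1 hu1) (hT2 u2 hu2) hU12 hdivU
  have he' : (Q1 ν).ord (R1.redF (T u1)) =
      a * (Q1 ν).ord (R1.redF u1) + (p : ℤ) * h43_rord R1 (Q1 ν) h := by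
    rw [← h43_rord_of_unit R1 (Q1 ν) hrU1, ← h43_rord_of_unit R1 (Q1 ν) hru1, hTu,
      h43_rord_mul R1 (Q1 ν) (mul_ne_zero hc' hua) hhp, h43_rord_mul R1 (Q1 ν) hc' hua,
      h43_rord_algebraMap, h43_rord_zpow R1 (Q1 ν) hu0, h43_rord_pow R1 (Q1 ν) hh0, zero_add]
  obtain ⟨hne1, hnj1⟩ := hNJ1 u1 Γ1 hu1 h1
  obtain ⟨hne2, hnj2⟩ := hNJ2 u2 Γ2 hu2 h2
  have e1 : Γ1' = (n : k) * Γ1 := by
    rw [h1'] at hnj1
    exact (algebraMap k Fb).injective (mul_right_cancel₀ hne1 hnj1)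
  have e2 : Γ2' = (n : k) * Γ2 := by
    rw [h2'] at hnj2
    exact (algebraMap k Fb).injective (mul_right_cancel₀ hne2 hnj2)
  refine h12_ej_last p lam hlam (n : ℤ) a κ ((Q1 ν).ord (R1.redF u1))
    ((Q1 ν).ord (R1.redF (T u1))) (h43_rord R1 (Q1 ν) h) hna Γ1 Γ2 he' (h12 ν) ?_
  rw [← h12' ν, e1, e2, Int.cast_natCast]
  ring

end

section nj

variable {K F k Fb : Type*} [Field K] [Field F] [Algebra K F] [Field k] [Field Fb] [Algebra k Fb]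

variable (R : h39_RedDatum K F k Fb) {G : Type*} [Group G] (ρ : G →* (F ≃+* F))
  (p : ℕ) (hp2 : 2 ≤ p) (w : F) (g : Fin p → G)
  (hdist : Function.Injective fun i => ρ (g i) w)
  (horb : ∀ γ : G, ∃ i, ρ γ w = ρ (g i) w)
  (π : F) (hπ0 : π ≠ 0) (hπ : R.O.valuation π < 1)
  (hvw : R.O.valuation w ^ p = R.O.valuation π)
  (hint : ∀ f : F, (∀ γ : G, ρ γ f = f) → f ≠ 0 →
    ∃ m : ℤ, R.O.valuation f = R.O.valuation π ^ m)

include hp2 hdist horb hπ0 hπ hvw hint in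
/-- For an `H`-fixed element `f` of `R.O`: `c₀ f ∈ R.O` and `red (c₀ f) = red f`. -/
theorem h12_ej_coef0_red (f : F) (hfO : f ∈ R.O) (hf : ∀ γ : G, ρ γ w = w → ρ γ f = f) :
    h28_coef ρ p w g f 0 ∈ R.O ∧ R.redF (h28_coef ρ p w g f 0) = R.redF f := by
  have hfv : R.O.valuation f ≤ 1 := (ValuationSubring.valuation_le_one_iff _ _).2 hfO
  have hc0O : h28_coef ρ p w g f 0 ∈ R.O :=
    (ValuationSubring.valuation_le_one_iff _ _).1
      ((h28_interp_jet ρ p hp2 w g hdist horb f hf R.O.valuation π hπ0 hπ hvw hint hfv).1 0)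
  refine ⟨hc0O, ?_⟩
  have h1 := h57_redF_of_val_lt R
    (h28_interp_res ρ p hp2 w g hdist horb f hf R.O.valuation π hπ0 hπ hvw hint hfv)
  rw [h39_redF_sub R hfO hc0O] at h1
  exact (sub_eq_zero.1 h1).symm

include hp2 hdist horb hπ0 hπ hvw hint in
/-- For an `H`-fixed unit `f` of `R.O`, `red (c₀ f) ≠ 0`. -/
theorem h12_ej_coef0_ne_zero (f : F) (hfu : h43_IsRUnit R f)
    (hf : ∀ γ : G, ρ γ w = w → ρ γ f = f) : R.redF (h28_coef ρ p w g f 0) ≠ 0 := by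
  rw [(h12_ej_coef0_red R ρ p hp2 w g hdist horb π hπ0 hπ hvw hint f hfu.2.1 hf).2]
  exact h43_redF_unit_ne_zero R hfu

include hp2 hdist horb hπ0 hπ hvw hint in
/-- **The norm-jet rule, coefficient form**, from (DEC), its converse, (RES) and (NJ). -/
theorem h12_ej_nj_coef (T : F →* F) (n : ℕ)
    (hTρ : ∀ (γ : G) (f : F), ρ γ (T f) = T (ρ γ f))
    (hTO : ∀ f : F, f ∈ R.O → T f ∈ R.O)
    (hres : ∀ Γ : k, ∃ γ₀ : K, γ₀ ∈ R.A ∧ R.resK γ₀ = Γ ∧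
      ∀ γ : G, ρ γ (algebraMap K F γ₀) = algebraMap K F γ₀)
    (hnj : ∀ (c₀ : F) (γ₀ : K) (t : F), c₀ ≠ 0 → c₀ ∈ R.O → c₀⁻¹ ∈ R.O → γ₀ ∈ R.A → t ∈ R.O →
      ∃ r' : F, r' ∈ R.O ∧ T (c₀ * (1 + w * (algebraMap K F γ₀ + w * t))) =
        T c₀ * (1 + (n : F) * algebraMap K F γ₀ * w + w ^ 2 * r'))
    (f : F) (Γ : k) (hfu : h43_IsRUnit R f) (hf : ∀ γ : G, ρ γ w = w → ρ γ f = f)
    (hΓ : R.redF (h28_coef ρ p w g f 1) = algebraMap k Fb Γ * R.redF (h28_coef ρ p w g f 0)) :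
    R.redF (h28_coef ρ p w g (T f) 0) ≠ 0 ∧
      R.redF (h28_coef ρ p w g (T f) 1) =
        algebraMap k Fb ((n : k) * Γ) * R.redF (h28_coef ρ p w g (T f) 0) := by
  obtain ⟨γ₀, hγA, hγres, hγfix⟩ := hres Γ
  have hc0 := h12_ej_coef0_ne_zero R ρ p hp2 w g hdist horb π hπ0 hπ hvw hint f hfu hf
  obtain ⟨hc0O, hc0iO, hc0fix, t, htO, -, hfeq⟩ :=
    h57_dec_const R ρ p hp2 w g hdist horb π hπ0 hπ hvw hint f hfu.2.1 hf hc0 Γ γ₀ hγA hγres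
      hγfix hΓ
  set c₀ := h28_coef ρ p w g f 0 with hc₀
  have hc00 : c₀ ≠ 0 := by
    rintro h
    rw [h, h39_redF_zero] at hc0
    exact hc0 rfl
  obtain ⟨r', hr'O, hTeq⟩ := hnj c₀ γ₀ t hc00 hc0O hc0iO hγA htO
  rw [← hfeq] at hTeq
  -- `T c₀` is a `ρ`-fixed unit of `R.O`
  have hTc0O : T c₀ ∈ R.O := hTO c₀ hc0O
  have hTc0iO : (T c₀)⁻¹ ∈ R.O := by
    rw [← h12_ej_map_inv T hc00]
    exact hTO _ hc0iO
  have hTc00 : T c₀ ≠ 0 := h12_ej_map_ne_zero T hc00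
  have hTc0fix : ∀ γ : G, ρ γ (T c₀) = T c₀ := fun γ => by rw [hTρ, hc0fix]
  have hTfH : ∀ γ : G, ρ γ w = w → ρ γ (T f) = T f := fun γ hγ => by rw [hTρ, hf γ hγ]
  have hγO : algebraMap K F γ₀ ∈ R.O := (R.mem_iff γ₀).1 hγA
  have hnO : (n : F) ∈ R.O := by
    have : (n : F) = algebraMap K F (n : K) := by rw [map_natCast]
    rw [this]
    exact (R.mem_iff _).1 (natCast_mem R.A n)
  have hnfix : ∀ γ : G, ρ γ (n : F) = (n : F) := fun γ => map_natCast (ρ γ) n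
  have hTeq' : T f = T c₀ * (1 + w * ((n : F) * algebraMap K F γ₀ + w * r')) := by
    rw [hTeq]
    ring
  obtain ⟨-, -, hr0, hr1⟩ := h57_dec_conv R ρ p hp2 w g hdist horb π hπ0 hπ hvw hint (T f) hTfH
    (T c₀) ((n : F) * algebraMap K F γ₀) r' hTc0O hTc0fix (R.O.mul_mem _ _ hnO hγO)
    (fun γ => by rw [map_mul, hnfix, hγfix]) hr'O hTeq'
  have hTc0u : h43_IsRUnit R (T c₀) := ⟨hTc00, hTc0O, hTc0iO⟩
  refine ⟨?_, ?_⟩
  · rw [hr0]
    exact h43_redF_unit_ne_zero R hTc0u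
  · rw [hr1, hr0, h39_redF_mul R hnO hγO, h39_redF_algebraMap R hγA, hγres, map_mul]
    congr 2
    have : (n : F) = algebraMap K F (n : K) := by rw [map_natCast]
    rw [this, h39_redF_algebraMap R (natCast_mem R.A n)]
    have h2 : R.resK (n : K) = (n : k) := by
      rw [R.resK_of_mem (natCast_mem R.A n)]
      have : (⟨(n : K), natCast_mem R.A n⟩ : R.A) = ((n : ℕ) : R.A) := Subtype.ext (by simp)
      rw [this, map_natCast]
    rw [h2]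

end nj

end Fermat.Agent.S40
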