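import Mathlib
import Fermat.Prelude.Def_AlgebraicCurve_BaseChangeGalois
import Fermat.Agent.S18.GR_RedAPI
import Fermat.Agent.S18.h34_HoloCore
import Fermat.Agent.S18.h60_Red

/-!
# G40 / W8 (W-NORM): the norm step, generic core

`Γ` acts semilinearly on `F / K` through `ρ`, `H ≤ Γ` has finite index `p`.
For an `H`-fixed function `u` (with divisor `p · E`, `E` being `H`-fixed) the coset product
`h = ∏_{q ∈ Γ/H} ρ q • u` is `Γ`-fixed with divisor `p · ∑ ρ q • E`.  If the two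
reduction data `R₁`, `R₂` are `Γ`-stable with `Γ` acting trivially on the reductions, then
`h / ∏ σ c₁` is an `R₁`-unit with reduction `ubar₁ ^ p`.  Feeding `h` to the
base interpolation (`hint`) and to the base case of the count (`hTH0`) gives:
the `R₂`-scale of `u` is `c₁ · p ^ κ` with `κ` an INTEGER.
-/

set_option autoImplicit false

noncomputable section

open AlgebraicCurve Fermat.Agent.S18

namespace Fermat.Agent.S40

variable {K F k Fb : Type*} [Field K] [Field F] [Algebra K F] [Field k] [Field Fb] [Algebra k Fb]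

section Coset

variable {Γ : Type*} [Group Γ] (ρ : Γ →* SemilinearAut K F) (H : Subgroup Γ)

/-- on an `H`-fixed point, `ρ a` only depends on the coset `a H`. -/
theorem h85_smul_eq_of_coset {X : Type*} [MulAction (SemilinearAut K F) X] {x : X}
    (hx : ∀ η ∈ H, ρ η • x = x) {a b : Γ} (hab : (a : Γ ⧸ H) = (b : Γ ⧸ H)) :
    ρ a • x = ρ b • x := by
  have h1 : a⁻¹ * b ∈ H := QuotientGroup.eq.mp hab
  have h2 := hx _ h1
  have h3 : ρ b • x = ρ a • (ρ (a⁻¹ * b) • x) := by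
    rw [← mul_smul, ← map_mul, mul_inv_cancel_left]
  rw [h3, h2]

/-- `g • (ρ q.out • x) = ρ (g • q).out • x` on an `H`-fixed point. -/
theorem h85_smul_out {X : Type*} [MulAction (SemilinearAut K F) X] {x : X}
    (hx : ∀ η ∈ H, ρ η • x = x) (g : Γ) (q : Γ ⧸ H) :
    ρ g • (ρ (Quotient.out q) • x) = ρ (Quotient.out (g • q)) • x := by
  rw [← mul_smul, ← map_mul]
  apply h85_smul_eq_of_coset ρ H hx
  rw [QuotientGroup.out_eq']
  conv_rhs => rw [← QuotientGroup.out_eq' q]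
  rfl

variable [Fintype (Γ ⧸ H)]

/-- the coset product (the norm from `F^H` to `F^Γ` on `H`-fixed functions). -/
def h85_cosetProd (u : F) : F := ∏ q : Γ ⧸ H, ρ (Quotient.out q) • u

/-- the coset sum of a divisor. -/
def h85_cosetSum (E : Divisor K F) : Divisor K F := ∑ q : Γ ⧸ H, ρ (Quotient.out q) • E

theorem h85_cosetProd_fixed {u : F} (hu : ∀ η ∈ H, ρ η • u = u) (g : Γ) :
    ρ g • h85_cosetProd ρ H u = h85_cosetProd ρ H u := by
  unfold h85_cosetProd
  rw [Finset.smul_prod']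
  rw [Finset.prod_congr rfl (fun q _ => h85_smul_out ρ H hu g q)]
  exact Equiv.prod_comp (MulAction.toPerm g : Γ ⧸ H ≃ Γ ⧸ H)
    (fun q => ρ (Quotient.out q) • u)

theorem h85_cosetSum_fixed {E : Divisor K F} (hE : ∀ η ∈ H, ρ η • E = E) (g : Γ) :
    ρ g • h85_cosetSum ρ H E = h85_cosetSum ρ H E := by
  unfold h85_cosetSum
  rw [Finset.smul_sum]
  rw [Finset.sum_congr rfl (fun q _ => h85_smul_out ρ H hE g q)]
  exact Equiv.sum_comp (MulAction.toPerm g : Γ ⧸ H ≃ Γ ⧸ H)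
    (fun q => ρ (Quotient.out q) • E)

theorem h85_cosetProd_ne_zero {u : F} (hu0 : u ≠ 0) : h85_cosetProd ρ H u ≠ 0 := by
  unfold h85_cosetProd
  rw [Finset.prod_ne_zero_iff]
  intro q _
  exact (smul_ne_zero_iff_ne _).mpr hu0

/-- the divisor of the coset product. -/
theorem h85_cosetProd_ord {n : ℤ} {u : F} (hu0 : u ≠ 0) {E : Divisor K F}
    (hdiv : ∀ v : Place K F, n * E v = v.ord u) (v : Place K F) :
    n * h85_cosetSum ρ H E v = v.ord (h85_cosetProd ρ H u) := by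
  unfold h85_cosetProd h85_cosetSum
  rw [h34_ord_prod v _ _ (fun q _ => (smul_ne_zero_iff_ne _).mpr hu0), Finsupp.finsetSum_apply,
    Finset.mul_sum]
  refine Finset.sum_congr rfl (fun q _ => ?_)
  rw [SemilinearAut.divisor_smul_apply, hdiv]
  have h1 := SemilinearAut.ord_smul (ρ (Quotient.out q)) ((ρ (Quotient.out q))⁻¹ • v) u
  rw [smul_inv_smul] at h1
  exact h1.symm

/-- the coset product of `u / c`. -/
theorem h85_cosetProd_div (u : F) (c : K) :
    h85_cosetProd ρ H (u / algebraMap K F c) =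
      h85_cosetProd ρ H u /
        algebraMap K F (∏ q : Γ ⧸ H, SemilinearAut.baseAut (ρ (Quotient.out q)) c) := by
  unfold h85_cosetProd
  rw [map_prod, ← Finset.prod_div_distrib]
  refine Finset.prod_congr rfl (fun q _ => ?_)
  rw [smul_div₀', SemilinearAut.smul_algebraMap]

/-- a finite product of elements of `R.O` with the same reduction. -/
theorem h85_prod_red (R : h39_RedDatum K F k Fb) {ι : Type*} (s : Finset ι) (G : ι → F) (x : Fb)
    (hG : ∀ i ∈ s, G i ∈ R.O) (hx : ∀ i ∈ s, R.redF (G i) = x) :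
    ∏ i ∈ s, G i ∈ R.O ∧ R.redF (∏ i ∈ s, G i) = x ^ s.card := by
  classical
  induction s using Finset.induction_on with
  | empty => exact ⟨by simp, by simp [h39_redF_one]⟩
  | insert a s ha ih =>
    obtain ⟨h1, h2⟩ := ih (fun i hi => hG i (Finset.mem_insert_of_mem hi))
      (fun i hi => hx i (Finset.mem_insert_of_mem hi))
    have ha1 := hG a (Finset.mem_insert_self a s)
    rw [Finset.prod_insert ha, Finset.card_insert_of_notMem ha]
    refine ⟨R.O.mul_mem _ _ ha1 h1, ?_⟩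
    rw [h39_redF_mul R ha1 h1, h2, hx a (Finset.mem_insert_self a s), pow_succ, mul_comm]

/-- the coset product of an element of a `Γ`-stable `R.O` on whose reduction `Γ` acts trivially. -/
theorem h85_cosetProd_red (R : h39_RedDatum K F k Fb)
    (hO : ∀ (g : Γ) (f : F), f ∈ R.O → ρ g • f ∈ R.O)
    (hred : ∀ (g : Γ) (f : F), f ∈ R.O → R.redF (ρ g • f) = R.redF f)
    {f : F} (hf : f ∈ R.O) :
    h85_cosetProd ρ H f ∈ R.O ∧
      R.redF (h85_cosetProd ρ H f) = R.redF f ^ Fintype.card (Γ ⧸ H) := by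
  have h := h85_prod_red R (Finset.univ : Finset (Γ ⧸ H)) (fun q => ρ (Quotient.out q) • f)
    (R.redF f) (fun q _ => hO _ f hf) (fun q _ => hred _ f hf)
  rwa [Finset.card_univ] at h

end Coset

section Scale

/-- two unit scalings of the same function differ by a unit constant. -/
theorem h85_scale_unique (R : h39_RedDatum K F k Fb) {f : F} {a b : K} (ha : a ≠ 0) (hb : b ≠ 0)
    (h1 : R.redF (f / algebraMap K F a) ≠ 0) (h2 : R.redF (f / algebraMap K F b) ≠ 0) :
    a / b ∈ R.A := by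
  have hf1 : f / algebraMap K F a ≠ 0 := by
    intro h0
    exact h1 (by rw [h0]; exact h39_redF_zero R)
  have hf0 : f ≠ 0 := by
    rintro rfl
    exact hf1 (zero_div _)
  have haF : algebraMap K F a ≠ 0 := by simpa using ha
  have hbF : algebraMap K F b ≠ 0 := by simpa using hb
  have hm2 : f / algebraMap K F b ∈ R.O := h39_mem_of_redF_ne_zero R h2
  have hm1 : (f / algebraMap K F a)⁻¹ ∈ R.O := (h39_inv_of_redF_ne_zero R h1).1
  have hEq : algebraMap K F (a / b) = f / algebraMap K F b * (f / algebraMap K F a)⁻¹ := by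
    rw [map_div₀]
    field_simp
  rw [R.mem_iff, hEq]
  exact R.O.mul_mem _ _ hm2 hm1

omit [Field F] [Algebra K F] [Field k] [Field Fb] [Algebra k Fb] in
theorem h85_val_eq_of_div_mem (A : ValuationSubring K) {a b : K} (ha : a ≠ 0) (hb : b ≠ 0)
    (h1 : a / b ∈ A) (h2 : b / a ∈ A) : A.valuation a = A.valuation b := by
  have hva : 0 < A.valuation a := zero_lt_iff.mpr ((map_ne_zero _).mpr ha)
  have hvb : 0 < A.valuation b := zero_lt_iff.mpr ((map_ne_zero _).mpr hb)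
  have e1 : A.valuation (a / b) ≤ 1 := (A.valuation_le_one_iff _).mpr h1
  have e2 : A.valuation (b / a) ≤ 1 := (A.valuation_le_one_iff _).mpr h2
  rw [map_div₀, div_le_one₀ hvb] at e1
  rw [map_div₀, div_le_one₀ hva] at e2
  exact le_antisymm e1 e2

omit [Field F] [Algebra K F] [Field k] [Field Fb] [Algebra k Fb] in
theorem h85_mem_of_val_eq_one (A : ValuationSubring K) {x : K} (h : A.valuation x = 1) :
    x ∈ A ∧ x⁻¹ ∈ A := by
  refine ⟨(A.valuation_le_one_iff x).mp h.le, (A.valuation_le_one_iff x⁻¹).mp ?_⟩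
  rw [map_inv₀, h, inv_one]

/-- the valuations of two unit scalings agree. -/
theorem h85_scale_val (R : h39_RedDatum K F k Fb) {f : F} {a b : K} (ha : a ≠ 0) (hb : b ≠ 0)
    (h1 : R.redF (f / algebraMap K F a) ≠ 0) (h2 : R.redF (f / algebraMap K F b) ≠ 0) :
    R.A.valuation a = R.A.valuation b :=
  h85_val_eq_of_div_mem R.A ha hb (h85_scale_unique R ha hb h1 h2) (h85_scale_unique R hb ha h2 h1)

/-- rescaling a unit scaling by a unit constant. -/
theorem h85_rescale (R : h39_RedDatum K F k Fb) {f : F} {a b : K} (ha : a ≠ 0) (hb : b ≠ 0)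
    (h1 : R.redF (f / algebraMap K F a) ≠ 0) (hval : R.A.valuation a = R.A.valuation b) :
    f / algebraMap K F b ∈ R.O ∧ R.redF (f / algebraMap K F b) ≠ 0 := by
  have hx : R.A.valuation (a / b) = 1 := by
    rw [map_div₀, hval]
    exact div_self ((map_ne_zero _).mpr hb)
  obtain ⟨hx1, hx2⟩ := h85_mem_of_val_eq_one R.A hx
  have hf1 : f / algebraMap K F a ≠ 0 := by
    intro h0
    exact h1 (by rw [h0]; exact h39_redF_zero R)
  have hf0 : f ≠ 0 := by
    rintro rfl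
    exact hf1 (zero_div _)
  have haF : algebraMap K F a ≠ 0 := by simpa using ha
  have hbF : algebraMap K F b ≠ 0 := by simpa using hb
  have hm1 : f / algebraMap K F a ∈ R.O := h39_mem_of_redF_ne_zero R h1
  have hm1' : (f / algebraMap K F a)⁻¹ ∈ R.O := (h39_inv_of_redF_ne_zero R h1).1
  have hEq : f / algebraMap K F b = f / algebraMap K F a * algebraMap K F (a / b) := by
    rw [map_div₀]
    field_simp
  have hEq' : (f / algebraMap K F b)⁻¹ = (f / algebraMap K F a)⁻¹ * algebraMap K F (a / b)⁻¹ := by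
    rw [map_inv₀, map_div₀]
    field_simp
  have hmem : f / algebraMap K F b ∈ R.O := by
    rw [hEq]
    exact R.O.mul_mem _ _ hm1 ((R.mem_iff _).mp hx1)
  have hmem' : (f / algebraMap K F b)⁻¹ ∈ R.O := by
    rw [hEq']
    exact R.O.mul_mem _ _ hm1' ((R.mem_iff _).mp hx2)
  refine ⟨hmem, fun h0 => ?_⟩
  rcases (h39_redF_eq_zero_iff R hmem).mp h0 with h | h
  · exact (div_ne_zero hf0 hbF) h
  · exact h hmem'

/-- `h85_scale_val` with the valuation ring of the constants named. -/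
theorem h85_scale_val' (R : h39_RedDatum K F k Fb) (A : ValuationSubring K) (hA : R.A = A)
    {f : F} {a b : K} (ha : a ≠ 0) (hb : b ≠ 0)
    (h1 : R.redF (f / algebraMap K F a) ≠ 0) (h2 : R.redF (f / algebraMap K F b) ≠ 0) :
    A.valuation a = A.valuation b := by
  subst hA
  exact h85_scale_val R ha hb h1 h2

/-- `h85_rescale` with the valuation ring of the constants named. -/
theorem h85_rescale' (R : h39_RedDatum K F k Fb) (A : ValuationSubring K) (hA : R.A = A)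
    {f : F} {a b : K} (ha : a ≠ 0) (hb : b ≠ 0)
    (h1 : R.redF (f / algebraMap K F a) ≠ 0) (hval : A.valuation a = A.valuation b) :
    f / algebraMap K F b ∈ R.O ∧ R.redF (f / algebraMap K F b) ≠ 0 := by
  subst hA
  exact h85_rescale R ha hb h1 hval

end Scale

section Main

/-- **W8 (W-NORM), generic core.**  `u` is `H`-fixed with divisor `p · E` (`E` being `H`-fixed),
`[Γ : H] = p`, and `u / c₁` is an `R₁`-unit.  Given the base interpolation (`hint`: every
`Γ`-fixed function has an `R₁`-scale `C` and an `R₂`-scale `C · p ^ m`, `m : ℤ`) and the base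
case of the count at ONE point `Q₁` (`hTH0`: for `Γ`-fixed `p`-divisible data,
`ord_{Q₁} (red₁ (h / C)) ≡ m mod p`), the `R₂`-scale of `u` is `c₁ · p ^ κ` with `κ : ℤ`. -/
theorem h85_wnorm (R₁ R₂ : h39_RedDatum K F k Fb) (A : ValuationSubring K)
    (hA₁ : R₁.A = A) (hA₂ : R₂.A = A)
    {Γ : Type*} [Group Γ] (ρ : Γ →* SemilinearAut K F) (H : Subgroup Γ) [Fintype (Γ ⧸ H)]
    (p : ℕ) (hp : p ≠ 0) (hcard : Fintype.card (Γ ⧸ H) = p) (hpK : (p : K) ≠ 0)
    (hO₁ : ∀ (g : Γ) (f : F), f ∈ R₁.O → ρ g • f ∈ R₁.O)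
    (hred₁ : ∀ (g : Γ) (f : F), f ∈ R₁.O → R₁.redF (ρ g • f) = R₁.redF f)
    (hO₂ : ∀ (g : Γ) (f : F), f ∈ R₂.O → ρ g • f ∈ R₂.O)
    (hred₂ : ∀ (g : Γ) (f : F), f ∈ R₂.O → R₂.redF (ρ g • f) = R₂.redF f)
    (hval : ∀ (g : Γ) (y : K), A.valuation (SemilinearAut.baseAut (ρ g) y) = A.valuation y)
    (Q₁ : Place k Fb)
    (hint : ∀ h : F, h ≠ 0 → (∀ g, ρ g • h = h) →
      ∃ (C : K) (m : ℤ), C ≠ 0 ∧ (∀ g, SemilinearAut.baseAut (ρ g) C = C) ∧
        h / algebraMap K F C ∈ R₁.O ∧ R₁.redF (h / algebraMap K F C) ≠ 0 ∧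
        h / algebraMap K F (C * (p : K) ^ m) ∈ R₂.O ∧
        R₂.redF (h / algebraMap K F (C * (p : K) ^ m)) ≠ 0)
    (hTH0 : ∀ (h : F) (E : Divisor K F) (C : K) (m : ℤ), h ≠ 0 → (∀ g, ρ g • h = h) →
      (∀ g, ρ g • E = E) → (∀ v : Place K F, (p : ℤ) * E v = v.ord h) → C ≠ 0 →
      (∀ g, SemilinearAut.baseAut (ρ g) C = C) →
      h / algebraMap K F C ∈ R₁.O → R₁.redF (h / algebraMap K F C) ≠ 0 →
      h / algebraMap K F (C * (p : K) ^ m) ∈ R₂.O →
      R₂.redF (h / algebraMap K F (C * (p : K) ^ m)) ≠ 0 →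
      (p : ℤ) ∣ Q₁.ord (R₁.redF (h / algebraMap K F C)) - m)
    (u : F) (hu0 : u ≠ 0) (hu : ∀ η ∈ H, ρ η • u = u)
    (E : Divisor K F) (hE : ∀ η ∈ H, ρ η • E = E)
    (hdiv : ∀ v : Place K F, (p : ℤ) * E v = v.ord u)
    (c₁ : K) (hc₁ : c₁ ≠ 0) (hu₁ : u / algebraMap K F c₁ ∈ R₁.O)
    (hu₁red : R₁.redF (u / algebraMap K F c₁) ≠ 0) :
    ∃ κ : ℤ, u / algebraMap K F (c₁ * (p : K) ^ κ) ∈ R₂.O ∧
      R₂.redF (u / algebraMap K F (c₁ * (p : K) ^ κ)) ≠ 0 := by
  classical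
  -- the coset product and its divisor
  have hh0 : h85_cosetProd ρ H u ≠ 0 := h85_cosetProd_ne_zero ρ H hu0
  have hhfix : ∀ g, ρ g • h85_cosetProd ρ H u = h85_cosetProd ρ H u := h85_cosetProd_fixed ρ H hu
  have hEhfix : ∀ g, ρ g • h85_cosetSum ρ H E = h85_cosetSum ρ H E := h85_cosetSum_fixed ρ H hE
  have hEhdiv : ∀ v : Place K F,
      (p : ℤ) * h85_cosetSum ρ H E v = v.ord (h85_cosetProd ρ H u) :=
    h85_cosetProd_ord ρ H hu0 hdiv
  -- the `R₂`-scale of `u`
  obtain ⟨d, hd0, hd1, hd2⟩ := R₂.exists_scale u hu0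
  have hc₂ : d⁻¹ ≠ 0 := inv_ne_zero hd0
  have hdu : algebraMap K F d * u = u / algebraMap K F d⁻¹ := by
    rw [map_inv₀, div_inv_eq_mul, mul_comm]
  rw [hdu] at hd1 hd2
  have hu₂red : R₂.redF (u / algebraMap K F d⁻¹) ≠ 0 := by
    intro h0
    rcases (h39_redF_eq_zero_iff R₂ hd1).mp h0 with h' | h'
    · exact (div_ne_zero hu0 (by simpa using hd0)) h'
    · exact h' hd2
  -- the norms of the two scales
  have hC₁0 : (∏ q : Γ ⧸ H, SemilinearAut.baseAut (ρ (Quotient.out q)) c₁) ≠ 0 :=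
    Finset.prod_ne_zero_iff.mpr (fun q _ => (map_ne_zero _).mpr hc₁)
  have hC₂0 : (∏ q : Γ ⧸ H, SemilinearAut.baseAut (ρ (Quotient.out q)) d⁻¹) ≠ 0 :=
    Finset.prod_ne_zero_iff.mpr (fun q _ => (map_ne_zero _).mpr hc₂)
  have hN₁ := h85_cosetProd_red ρ H R₁ hO₁ hred₁ hu₁
  rw [h85_cosetProd_div, hcard] at hN₁
  have hN₂ := h85_cosetProd_red ρ H R₂ hO₂ hred₂ hd1
  rw [h85_cosetProd_div, hcard] at hN₂
  have hN₁ne := hN₁.2 ▸ pow_ne_zero p hu₁red
  have hN₂ne := hN₂.2 ▸ pow_ne_zero p hu₂red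
  -- interpolation and count
  obtain ⟨C, m, hC0, hCfix, hC1, hC1red, hC2, hC2red⟩ := hint _ hh0 hhfix
  have hdvd := hTH0 _ _ C m hh0 hhfix hEhfix hEhdiv hC0 hCfix hC1 hC1red hC2 hC2red
  -- `p ∣ m`
  have hCC := h85_scale_unique R₁ hC₁0 hC0 hN₁ne hC1red
  have hCF : algebraMap K F C ≠ 0 := by simpa using hC0
  have hC₁F : algebraMap K F (∏ q : Γ ⧸ H, SemilinearAut.baseAut (ρ (Quotient.out q)) c₁) ≠ 0 :=
    (map_ne_zero _).mpr hC₁0
  have hfac : h85_cosetProd ρ H u / algebraMap K F C =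
      h85_cosetProd ρ H u /
          algebraMap K F (∏ q : Γ ⧸ H, SemilinearAut.baseAut (ρ (Quotient.out q)) c₁) *
        algebraMap K F ((∏ q : Γ ⧸ H, SemilinearAut.baseAut (ρ (Quotient.out q)) c₁) / C) := by
    rw [map_div₀]
    field_simp
  have hredfac : R₁.redF (h85_cosetProd ρ H u / algebraMap K F C) =
      R₁.redF (u / algebraMap K F c₁) ^ p * algebraMap k Fb (R₁.resK
        ((∏ q : Γ ⧸ H, SemilinearAut.baseAut (ρ (Quotient.out q)) c₁) / C)) := by
    rw [hfac, h39_redF_mul R₁ hN₁.1 ((R₁.mem_iff _).mp hCC), hN₁.2, h39_redF_algebraMap R₁ hCC]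
  have hne2 : algebraMap k Fb (R₁.resK
      ((∏ q : Γ ⧸ H, SemilinearAut.baseAut (ρ (Quotient.out q)) c₁) / C)) ≠ 0 := by
    intro h0
    apply hC1red
    rw [hredfac, h0, mul_zero]
  have hord : Q₁.ord (R₁.redF (h85_cosetProd ρ H u / algebraMap K F C)) =
      (p : ℤ) * Q₁.ord (R₁.redF (u / algebraMap K F c₁)) := by
    rw [hredfac, Q₁.ord_mul (pow_ne_zero _ hu₁red) hne2, h34_ord_pow, h60_ord_algebraMap,
      add_zero]
  rw [hord] at hdvd
  have hpm : (p : ℤ) ∣ m := by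
    have h3 : (p : ℤ) ∣ (p : ℤ) * Q₁.ord (R₁.redF (u / algebraMap K F c₁)) := dvd_mul_right _ _
    have h4 := dvd_sub h3 hdvd
    rwa [sub_sub_cancel] at h4
  obtain ⟨κ, hκ⟩ := hpm
  refine ⟨κ, ?_⟩
  -- the valuation arithmetic
  have hpm0 : (p : K) ^ m ≠ 0 := zpow_ne_zero _ hpK
  have hpκ0 : (p : K) ^ κ ≠ 0 := zpow_ne_zero _ hpK
  have hv1 := h85_scale_val' R₁ A hA₁ hC₁0 hC0 hN₁ne hC1red
  have hv2 := h85_scale_val' R₂ A hA₂ hC₂0 (mul_ne_zero hC0 hpm0) hN₂ne hC2red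
  have hvN : ∀ c : K, A.valuation (∏ q : Γ ⧸ H, SemilinearAut.baseAut (ρ (Quotient.out q)) c) =
      A.valuation c ^ p := by
    intro c
    have hq : ∀ q ∈ (Finset.univ : Finset (Γ ⧸ H)),
        A.valuation (SemilinearAut.baseAut (ρ (Quotient.out q)) c) = A.valuation c :=
      fun q _ => hval _ c
    rw [map_prod, Finset.prod_congr rfl hq, Finset.prod_const, Finset.card_univ, hcard]
  rw [hvN] at hv1 hv2
  have hveq : A.valuation d⁻¹ = A.valuation (c₁ * (p : K) ^ κ) := by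
    rw [← pow_left_inj₀ zero_le zero_le hp, hv2, map_mul, ← hv1, map_mul, mul_pow, hκ,
      map_zpow₀, map_zpow₀, mul_comm (p : ℤ) κ, zpow_mul, zpow_natCast]
  exact h85_rescale' R₂ A hA₂ hc₂ (mul_ne_zero hc₁ hpκ0) hu₂red hveq

end Main

end Fermat.Agent.S40
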