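import Mathlib
import Fermat.Agent.S34.h87_TopMq
import Fermat.Agent.S36.h22_IntSer
import Fermat.Agent.S40.h8_Tame
import Fermat.Agent.S40.h85_WNorm

/-!
# S40 / row W8 (W-NORM), modular instance  (helper15)

The modular instance of helper85's generic `h85_wnorm` at a charted level `M p`:
`Γ := ↥(A.inertiaSubgroupIn ℚ)` acting through `arithmeticGalois`, `R₁ := h60_R1`,
`R₂ := h60_R2`, `H := ` the stabiliser of the Kummer element `w : ℚ̄` of row W0.

* `h15w_quot_bijective` : orbit representatives (the `(hdist, horb)` shape of `h28_Interp`) are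
  coset representatives of the stabiliser.
* `h15w_int1`, `h15w_int2` : (INT-BASE) for `R₁`, `R₂` in unit form, from `h22_int_ser`.
* `h15w_hint` : the hypothesis `hint` of `h85_wnorm`, proved.
* `h15w_kappa_mod` : **W8**: for `u ≠ 0` fixed by the stabiliser of `w` in inertia, with
  `p E = div u` and `u / c₁` an `R₁`-unit, there is `κ : ℤ` with `u / (c₁ p ^ κ)` an `R₂`-unit -
  given (TH0 by count) for inertia-fixed data at ONE point `Q₁` of the special fibre.
-/

set_option autoImplicit false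
set_option synthInstance.maxHeartbeats 400000

noncomputable section

open ModularCurve AlgebraicCurve

namespace Fermat.Agent.S40

open Fermat.Agent.S18 Fermat.Agent.S34 Fermat.Agent.S36

local notation "Qb" => AlgebraicClosure ℚ
local notation "Γℚ" => (AlgebraicClosure ℚ ≃ₐ[ℚ] AlgebraicClosure ℚ)

section Grp

variable {G X : Type*} [Group G] [MulAction G X]

/-- Orbit representatives are coset representatives of the stabiliser. -/
theorem h15w_quot_bijective (w : X) {p : ℕ} (g : Fin p → G)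
    (hdist : Function.Injective fun i => g i • w) (horb : ∀ γ : G, ∃ i, γ • w = g i • w) :
    Function.Bijective
      (fun i : Fin p => (QuotientGroup.mk (g i) : G ⧸ MulAction.stabilizer G w)) := by
  constructor
  · intro i j hij
    apply hdist
    have h := QuotientGroup.eq.mp hij
    rw [MulAction.mem_stabilizer_iff, mul_smul, inv_smul_eq_iff] at h
    exact h.symm
  · intro q
    induction q using QuotientGroup.induction_on with
    | H γ =>
      obtain ⟨i, hi⟩ := horb γ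
      refine ⟨i, QuotientGroup.eq.mpr ?_⟩
      rw [MulAction.mem_stabilizer_iff, mul_smul, inv_smul_eq_iff]
      exact hi

end Grp

section Mod

variable (M p : ℕ) [NeZero M] [NeZero p] [Fact p.Prime] (hpM : ¬ p ∣ M)
  (A : ValuationSubring Qb) (hA : A.LiesOverPrime p)

/-- The inertia group at `A` acting semilinearly on the function field of level `M p`. -/
def h15w_rho : ↥(A.inertiaSubgroupIn ℚ) →*
    SemilinearAut Qb ↥(modularFunctionFieldBar (M * p)) :=
  (arithmeticGalois (modularFunctionFieldFull (M * p))).comp (A.inertiaSubgroupIn ℚ).subtype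

omit [NeZero M] [NeZero p] [Fact p.Prime] in
theorem h15w_rho_apply (γ : ↥(A.inertiaSubgroupIn ℚ)) :
    h15w_rho M p A γ = arithmeticGalois (modularFunctionFieldFull (M * p)) (γ : Γℚ) := rfl

/-- **(INT-BASE) for `R₁`**, unit form: an inertia-fixed nonzero function is `p ^ n` times an
`R₁`-unit. -/
theorem h15w_int1 (f : ↥(modularFunctionFieldBar (M * p))) (hf0 : f ≠ 0)
    (hfix : ∀ σ ∈ A.inertiaSubgroupIn ℚ,
      arithmeticGalois (modularFunctionFieldFull (M * p)) σ • f = f) :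
    ∃ n : ℤ, f / algebraMap Qb ↥(modularFunctionFieldBar (M * p)) ((p : Qb) ^ n)
        ∈ (h60_R1 M p hpM A hA).O ∧
      (h60_R1 M p hpM A hA).redF
        (f / algebraMap Qb ↥(modularFunctionFieldBar (M * p)) ((p : Qb) ^ n)) ≠ 0 := by
  obtain ⟨n, y₁, y₂, hy₁, hy₂, h⟩ := h22_int_ser p A hA (M * p) f hf0
    ((h69_mem_F0 (M * p) _ f).mpr hfix)
  have hmem : (algebraMap Qb ↥(modularFunctionFieldBar (M * p)) ((p : Qb) ^ n))⁻¹ * f
      ∈ (h60_R1 M p hpM A hA).O :=
    (h60_R1_mem_iff M p hpM A hA _).mpr ⟨y₁, y₂, hy₂, h⟩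
  refine ⟨n, ?_, ?_⟩
  · rw [div_eq_inv_mul]
    exact hmem
  · rw [div_eq_inv_mul, (h60_R1 M p hpM A hA).redF_of_mem hmem]
    intro h0
    have e := h60_R1_red_eq M p hpM A hA _ hmem y₁ y₂ h
    rw [h0] at e
    apply hy₁
    rw [← e]
    simp

/-- **(INT-BASE) for `R₂`**, unit form. -/
theorem h15w_int2 (f : ↥(modularFunctionFieldBar (M * p))) (hf0 : f ≠ 0)
    (hfix : ∀ σ ∈ A.inertiaSubgroupIn ℚ,
      arithmeticGalois (modularFunctionFieldFull (M * p)) σ • f = f) :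
    ∃ n : ℤ, f / algebraMap Qb ↥(modularFunctionFieldBar (M * p)) ((p : Qb) ^ n)
        ∈ (h60_R2 M p hpM A hA).O ∧
      (h60_R2 M p hpM A hA).redF
        (f / algebraMap Qb ↥(modularFunctionFieldBar (M * p)) ((p : Qb) ^ n)) ≠ 0 := by
  have hw0 : h60_w M p hpM f ≠ 0 := (map_ne_zero (h60_w M p hpM)).mpr hf0
  have hwfix : ∀ σ ∈ A.inertiaSubgroupIn ℚ,
      arithmeticGalois (modularFunctionFieldFull (M * p)) σ • h60_w M p hpM f
        = h60_w M p hpM f := by
    intro σ hσ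
    have h1 := h60_w_galois M p hpM σ f
    have h2 : arithmeticRingAut (modularFunctionFieldFull (M * p)) σ f = f := hfix σ hσ
    rw [h2] at h1
    exact h1.symm
  obtain ⟨n, h1, h2⟩ := h15w_int1 M p hpM A hA (h60_w M p hpM f) hw0 hwfix
  have hw : h60_w M p hpM (f / algebraMap Qb ↥(modularFunctionFieldBar (M * p)) ((p : Qb) ^ n))
      = h60_w M p hpM f / algebraMap Qb ↥(modularFunctionFieldBar (M * p)) ((p : Qb) ^ n) := by
    rw [map_div₀, h60_w_algebraMap]
  refine ⟨n, ?_, ?_⟩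
  · rw [h60_R2_mem_iff, hw]
    exact h1
  · rw [h60_R2_redF, hw]
    exact h2

/-- **The hypothesis `hint` of `h85_wnorm` at a charted level**: an inertia-fixed nonzero function
is `p ^ n₁` times an `R₁`-unit and `p ^ n₂` times an `R₂`-unit (common constant `C = p ^ n₁`,
fixed by the whole Galois group). -/
theorem h15w_hint (h : ↥(modularFunctionFieldBar (M * p))) (h0 : h ≠ 0)
    (hfix : ∀ σ ∈ A.inertiaSubgroupIn ℚ,
      arithmeticGalois (modularFunctionFieldFull (M * p)) σ • h = h) :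
    ∃ (C : Qb) (m : ℤ), C ≠ 0 ∧ (∀ σ : Γℚ, σ C = C) ∧
      h / algebraMap Qb ↥(modularFunctionFieldBar (M * p)) C ∈ (h60_R1 M p hpM A hA).O ∧
      (h60_R1 M p hpM A hA).redF (h / algebraMap Qb ↥(modularFunctionFieldBar (M * p)) C) ≠ 0 ∧
      h / algebraMap Qb ↥(modularFunctionFieldBar (M * p)) (C * (p : Qb) ^ m)
        ∈ (h60_R2 M p hpM A hA).O ∧
      (h60_R2 M p hpM A hA).redF
        (h / algebraMap Qb ↥(modularFunctionFieldBar (M * p)) (C * (p : Qb) ^ m)) ≠ 0 := by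
  obtain ⟨n₁, h1, h1'⟩ := h15w_int1 M p hpM A hA h h0 hfix
  obtain ⟨n₂, h2, h2'⟩ := h15w_int2 M p hpM A hA h h0 hfix
  have hp0 : (p : Qb) ≠ 0 := Nat.cast_ne_zero.mpr (NeZero.ne p)
  have e : (p : Qb) ^ n₁ * (p : Qb) ^ (n₂ - n₁) = (p : Qb) ^ n₂ := by
    rw [← zpow_add₀ hp0]
    congr 1
    ring
  refine ⟨(p : Qb) ^ n₁, n₂ - n₁, zpow_ne_zero _ hp0, fun σ => ?_, h1, h1', ?_, ?_⟩
  · rw [map_zpow₀, map_natCast]
  · rw [e]
    exact h2
  · rw [e]
    exact h2'

/-- **W8 (W-NORM), modular instance.**  `w : ℚ̄` with inertia orbit `g 0 w, .., g (p-1) w`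
(the `(hdist, horb)` data of W0/W1).  If `u ≠ 0` is fixed by the stabiliser of `w` in inertia,
`p E = div u`, and `u / c₁` is an `R₁`-unit, then `u / (c₁ p ^ κ)` is an `R₂`-unit for some
`κ : ℤ` - provided (TH0 by count) holds for INERTIA-FIXED data at the point `Q₁`. -/
theorem h15w_kappa_mod (w : Qb) (g : Fin p → Γℚ) (hgI : ∀ i, g i ∈ A.inertiaSubgroupIn ℚ)
    (hdist : Function.Injective fun i => g i w)
    (horb : ∀ σ ∈ A.inertiaSubgroupIn ℚ, ∃ i, σ w = g i w)
    (Q₁ : Place (IsLocalRing.ResidueField A)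
      ↥(modularFunctionFieldFullC (IsLocalRing.ResidueField A) M))
    (hTH0 : ∀ (h : ↥(modularFunctionFieldBar (M * p)))
      (E' : Divisor Qb ↥(modularFunctionFieldBar (M * p))) (C : Qb) (m : ℤ), h ≠ 0 →
      (∀ σ ∈ A.inertiaSubgroupIn ℚ,
        arithmeticGalois (modularFunctionFieldFull (M * p)) σ • h = h) →
      (∀ σ ∈ A.inertiaSubgroupIn ℚ,
        arithmeticGalois (modularFunctionFieldFull (M * p)) σ • E' = E') →
      (∀ v : Place Qb ↥(modularFunctionFieldBar (M * p)), (p : ℤ) * E' v = v.ord h) → C ≠ 0 →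
      (∀ σ ∈ A.inertiaSubgroupIn ℚ, σ C = C) →
      h / algebraMap Qb ↥(modularFunctionFieldBar (M * p)) C ∈ (h60_R1 M p hpM A hA).O →
      (h60_R1 M p hpM A hA).redF (h / algebraMap Qb ↥(modularFunctionFieldBar (M * p)) C) ≠ 0 →
      h / algebraMap Qb ↥(modularFunctionFieldBar (M * p)) (C * (p : Qb) ^ m)
        ∈ (h60_R2 M p hpM A hA).O →
      (h60_R2 M p hpM A hA).redF
        (h / algebraMap Qb ↥(modularFunctionFieldBar (M * p)) (C * (p : Qb) ^ m)) ≠ 0 →
      (p : ℤ) ∣ Q₁.ord ((h60_R1 M p hpM A hA).redF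
        (h / algebraMap Qb ↥(modularFunctionFieldBar (M * p)) C)) - m)
    (u : ↥(modularFunctionFieldBar (M * p))) (hu0 : u ≠ 0)
    (hu : ∀ σ ∈ A.inertiaSubgroupIn ℚ, σ w = w →
      arithmeticGalois (modularFunctionFieldFull (M * p)) σ • u = u)
    (E : Divisor Qb ↥(modularFunctionFieldBar (M * p)))
    (hE : ∀ σ ∈ A.inertiaSubgroupIn ℚ, σ w = w →
      arithmeticGalois (modularFunctionFieldFull (M * p)) σ • E = E)
    (hdiv : ∀ v : Place Qb ↥(modularFunctionFieldBar (M * p)), (p : ℤ) * E v = v.ord u)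
    (c₁ : Qb) (hc₁ : c₁ ≠ 0)
    (hu₁ : u / algebraMap Qb ↥(modularFunctionFieldBar (M * p)) c₁ ∈ (h60_R1 M p hpM A hA).O)
    (hu₁red : (h60_R1 M p hpM A hA).redF
      (u / algebraMap Qb ↥(modularFunctionFieldBar (M * p)) c₁) ≠ 0) :
    ∃ κ : ℤ, u / algebraMap Qb ↥(modularFunctionFieldBar (M * p)) (c₁ * (p : Qb) ^ κ)
        ∈ (h60_R2 M p hpM A hA).O ∧
      (h60_R2 M p hpM A hA).redF
        (u / algebraMap Qb ↥(modularFunctionFieldBar (M * p)) (c₁ * (p : Qb) ^ κ)) ≠ 0 := by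
  classical
  have hbij := h15w_quot_bijective (G := ↥(A.inertiaSubgroupIn ℚ)) (X := Qb) w
    (fun i => (⟨g i, hgI i⟩ : ↥(A.inertiaSubgroupIn ℚ)))
    (fun i j hij => hdist hij) (fun γ => horb γ γ.2)
  letI : Fintype (↥(A.inertiaSubgroupIn ℚ) ⧸ MulAction.stabilizer ↥(A.inertiaSubgroupIn ℚ) w) :=
    Fintype.ofBijective _ hbij
  have hcard : Fintype.card
      (↥(A.inertiaSubgroupIn ℚ) ⧸ MulAction.stabilizer ↥(A.inertiaSubgroupIn ℚ) w) = p := by
    rw [← Fintype.card_of_bijective hbij, Fintype.card_fin]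
  refine h85_wnorm (h60_R1 M p hpM A hA) (h60_R2 M p hpM A hA) A (h60_R1_A M p hpM A hA)
    (h60_R2_A M p hpM A hA) (h15w_rho M p A)
    (MulAction.stabilizer ↥(A.inertiaSubgroupIn ℚ) w) p (NeZero.ne p) hcard
    (Nat.cast_ne_zero.mpr (NeZero.ne p))
    (fun γ f hf => (h60_R1_galois M p hpM A hA γ γ.2 f hf).1)
    (fun γ f hf => (h60_R1_galois M p hpM A hA γ γ.2 f hf).2)
    (fun γ f hf => (h60_R2_galois M p hpM A hA γ γ.2 f hf).1)
    (fun γ f hf => (h60_R2_galois M p hpM A hA γ γ.2 f hf).2)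
    (fun γ y => h8_val_smul A γ.2 y)
    Q₁ ?_ ?_ u hu0 ?_ E ?_ hdiv c₁ hc₁ hu₁ hu₁red
  · intro h h0 hfix
    obtain ⟨C, m, hC0, hCfix, h1, h2, h3, h4⟩ := h15w_hint M p hpM A hA h h0
      (fun σ hσ => hfix ⟨σ, hσ⟩)
    exact ⟨C, m, hC0, fun γ => hCfix γ, h1, h2, h3, h4⟩
  · intro h E' C m h0 hfix hEfix hdiv' hC0 hCfix h1 h2 h3 h4
    exact hTH0 h E' C m h0 (fun σ hσ => hfix ⟨σ, hσ⟩) (fun σ hσ => hEfix ⟨σ, hσ⟩) hdiv' hC0
      (fun σ hσ => hCfix ⟨σ, hσ⟩) h1 h2 h3 h4
  · intro η hη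
    exact hu η η.2 (MulAction.mem_stabilizer_iff.mp hη)
  · intro η hη
    exact hE η η.2 (MulAction.mem_stabilizer_iff.mp hη)

end Mod

end Fermat.Agent.S40
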