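import Mathlib
import Fermat.Agent.GAL.h67_CorrPrincipal
import Fermat.Agent.GAL.h67_GalHecke
import Fermat.Agent.S37.h87_RedData
import Fermat.Agent.S37.h19_DEG
import Fermat.Agent.S34.h60_R2
import Fermat.Agent.S40.h79_SwapHecke
import Fermat.Agent.S40.h10_NormRedMod

/-!
# S40 / T8 (END-JET): the equivariance glue (NJ-2) and (DATUM-T)  (helper2)

`U := N_α (β u)` for the degeneracy maps `α, β : F(N) → F(N ℓ)` (`h67_normAlong`).

* `h2_normAlong_smul` : generic — the norm along `ψ` is equivariant for any pair of semilinear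
  automorphisms intertwined by `ψ`.
* `h2_normBeta_galois`, `h2_normBeta_galois_fixed` : **(NJ-2)(i)** the arithmetic Galois action
  commutes with `N_α ∘ β`; a function fixed by `σ` has `N_α (β f)` fixed by `σ`.
* `h2_normBeta_swap` : the swap `w_p` of level `M p` commutes with `N_α ∘ β` (`p ∤ M ℓ`).
* `h2_normBeta_const`, `h2_normBeta_const_mul` : `N_α (β (c • f)) = c ^ d • N_α (β f)`,
  `d = [F(N ℓ) : F(N)]`.
* `h2_normBeta_unit_R1`, `h2_normBeta_unit_R2` : `N_α ∘ β` preserves the units of the two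
  reduction data `h60_R1`, `h60_R2` of level `M p`.
* `h2_datumT_div` : **(DATUM-T)**, divisor part: `(E_T, U)` from `(E, u)`.
* `h2_datumT` : **(DATUM-T)**: `(E_T, U, c₁ ^ d, d κ)` is again a datum.
-/

set_option autoImplicit false
set_option synthInstance.maxHeartbeats 400000

noncomputable section

open ModularCurve AlgebraicCurve

namespace Fermat.Agent.S40

open Fermat.Agent.GAL Fermat.Agent.S37 Fermat.Agent.S34 Fermat.Agent.S18 Fermat.Agent.S24

local notation "Qb" => AlgebraicClosure ℚ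

section Generic

variable {K F F' : Type*} [Field K] [Field F] [Field F'] [Algebra K F] [Algebra K F']

/-- **The norm along `ψ` is equivariant** for semilinear automorphisms intertwined by `ψ`. -/
theorem h2_normAlong_smul (ψ : F →ₐ[K] F') {g : SemilinearAut K F} {g' : SemilinearAut K F'}
    (h : SemilinearAut.IntertwinesAlong (ψ : F →+* F') g g') (G : F') :
    h67_normAlong ψ (g' • G) = g • h67_normAlong ψ G := by
  letI := algebraAlong ψ
  have he : RingHom.comp (algebraMap F F') (SemilinearAut.toRingAut g : F →+* F) =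
      RingHom.comp (SemilinearAut.toRingAut g' : F' →+* F') (algebraMap F F') := by
    refine RingHom.ext fun x => ?_
    exact (h x).symm
  have key := Algebra.norm_eq_of_equiv_equiv (SemilinearAut.toRingAut g)
    (SemilinearAut.toRingAut g') he G
  show Algebra.norm F (SemilinearAut.toRingAut g' G) =
    SemilinearAut.toRingAut g (Algebra.norm F G)
  rw [key, RingEquiv.apply_symm_apply]

/-- `N_ψ (φ (g • f)) = g • N_ψ (φ f)` when `g, g'` are intertwined by both `φ` and `ψ`. -/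
theorem h2_normAlong_comp_smul (φ ψ : F →ₐ[K] F') {g : SemilinearAut K F}
    {g' : SemilinearAut K F'}
    (hφ : SemilinearAut.IntertwinesAlong (φ : F →+* F') g g')
    (hψ : SemilinearAut.IntertwinesAlong (ψ : F →+* F') g g') (f : F) :
    h67_normAlong ψ (φ (g • f)) = g • h67_normAlong ψ (φ f) := by
  rw [← h2_normAlong_smul ψ hψ]
  congr 1
  exact (hφ f).symm

/-- The norm along `ψ` of a constant multiple. -/
theorem h2_normAlong_const_mul (ψ : F →ₐ[K] F') (c : K) (G : F') :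
    h67_normAlong ψ (algebraMap K F' c * G) =
      algebraMap K F (c ^ finrankAlong K ψ) * h67_normAlong ψ G := by
  rw [h67_normAlong_mul, map_pow, ← h67_normAlong_apply ψ (algebraMap K F c), AlgHom.commutes]

end Generic

section Galois

variable (N ℓ : ℕ) [NeZero N] [NeZero ℓ]

/-- **(NJ-2)(i), upstairs form**: the arithmetic Galois action commutes with the norm along
`α : F(N) → F(N ℓ)`. -/
theorem h2_normAlpha_galois (σ : Qb ≃ₐ[ℚ] Qb) (G : ↥(modularFunctionFieldBar (N * ℓ))) :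
    h67_normAlong (heckeAlphaBar Qb N ℓ)
        (arithmeticGalois (modularFunctionFieldFull (N * ℓ)) σ • G)
      = arithmeticGalois (modularFunctionFieldFull N) σ • h67_normAlong (heckeAlphaBar Qb N ℓ) G :=
  h2_normAlong_smul (heckeAlphaBar Qb N ℓ) (h67_intertwines_alpha N ℓ σ) G

/-- **(NJ-2)(i)**: the arithmetic Galois action commutes with `N_α ∘ β`. -/
theorem h2_normBeta_galois (σ : Qb ≃ₐ[ℚ] Qb) (f : ↥(modularFunctionFieldBar N)) :
    h67_normAlong (heckeAlphaBar Qb N ℓ)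
        (heckeBetaBar Qb N ℓ (arithmeticGalois (modularFunctionFieldFull N) σ • f))
      = arithmeticGalois (modularFunctionFieldFull N) σ •
          h67_normAlong (heckeAlphaBar Qb N ℓ) (heckeBetaBar Qb N ℓ f) :=
  h2_normAlong_comp_smul (heckeBetaBar Qb N ℓ) (heckeAlphaBar Qb N ℓ)
    (h67_intertwines_beta N ℓ σ) (h67_intertwines_alpha N ℓ σ) f

/-- **(NJ-2)(i), fixed form**: if `σ` fixes `f` then `σ` fixes `N_α (β f)`. -/
theorem h2_normBeta_galois_fixed (σ : Qb ≃ₐ[ℚ] Qb) (f : ↥(modularFunctionFieldBar N))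
    (hf : arithmeticGalois (modularFunctionFieldFull N) σ • f = f) :
    arithmeticGalois (modularFunctionFieldFull N) σ •
        h67_normAlong (heckeAlphaBar Qb N ℓ) (heckeBetaBar Qb N ℓ f)
      = h67_normAlong (heckeAlphaBar Qb N ℓ) (heckeBetaBar Qb N ℓ f) := by
  rw [← h2_normBeta_galois, hf]

/-- **(NJ-2)(i)** in the `arithmeticRingAut` form. -/
theorem h2_normBeta_ringAut (σ : Qb ≃ₐ[ℚ] Qb) (f : ↥(modularFunctionFieldBar N)) :
    arithmeticRingAut (modularFunctionFieldFull N) σ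
        (h67_normAlong (heckeAlphaBar Qb N ℓ) (heckeBetaBar Qb N ℓ f))
      = h67_normAlong (heckeAlphaBar Qb N ℓ)
          (heckeBetaBar Qb N ℓ (arithmeticRingAut (modularFunctionFieldFull N) σ f)) :=
  (h2_normBeta_galois N ℓ σ f).symm

/-- **(NJ-2)(i)**, `arithmeticRingAut`, fixed form. -/
theorem h2_normBeta_ringAut_fixed (σ : Qb ≃ₐ[ℚ] Qb) (f : ↥(modularFunctionFieldBar N))
    (hf : arithmeticRingAut (modularFunctionFieldFull N) σ f = f) :
    arithmeticRingAut (modularFunctionFieldFull N) σ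
        (h67_normAlong (heckeAlphaBar Qb N ℓ) (heckeBetaBar Qb N ℓ f))
      = h67_normAlong (heckeAlphaBar Qb N ℓ) (heckeBetaBar Qb N ℓ f) := by
  rw [h2_normBeta_ringAut, hf]

/-- `N_α (β (c • f)) = c ^ d • N_α (β f)`, `d = [F(N ℓ) : F(N)]`. -/
theorem h2_normBeta_const_mul (c : Qb) (f : ↥(modularFunctionFieldBar N)) :
    h67_normAlong (heckeAlphaBar Qb N ℓ)
        (heckeBetaBar Qb N ℓ (algebraMap Qb ↥(modularFunctionFieldBar N) c * f))
      = algebraMap Qb ↥(modularFunctionFieldBar N) (c ^ finrankAlong Qb (heckeAlphaBar Qb N ℓ)) *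
          h67_normAlong (heckeAlphaBar Qb N ℓ) (heckeBetaBar Qb N ℓ f) := by
  rw [map_mul, AlgHom.commutes, h2_normAlong_const_mul]

/-- `N_α (β c) = c ^ d` for a constant `c`. -/
theorem h2_normBeta_const (c : Qb) :
    h67_normAlong (heckeAlphaBar Qb N ℓ)
        (heckeBetaBar Qb N ℓ (algebraMap Qb ↥(modularFunctionFieldBar N) c))
      = algebraMap Qb ↥(modularFunctionFieldBar N) (c ^ finrankAlong Qb (heckeAlphaBar Qb N ℓ)) := by
  have h := h2_normBeta_const_mul N ℓ c 1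
  rw [mul_one, map_one, h67_normAlong_one, mul_one] at h
  exact h

/-- `N_α ∘ β` is multiplicative. -/
theorem h2_normBeta_mul (f g : ↥(modularFunctionFieldBar N)) :
    h67_normAlong (heckeAlphaBar Qb N ℓ) (heckeBetaBar Qb N ℓ (f * g))
      = h67_normAlong (heckeAlphaBar Qb N ℓ) (heckeBetaBar Qb N ℓ f) *
          h67_normAlong (heckeAlphaBar Qb N ℓ) (heckeBetaBar Qb N ℓ g) := by
  rw [map_mul, h67_normAlong_mul]

/-- `N_α (β 1) = 1`. -/
theorem h2_normBeta_one :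
    h67_normAlong (heckeAlphaBar Qb N ℓ) (heckeBetaBar Qb N ℓ (1 : ↥(modularFunctionFieldBar N)))
      = 1 := by
  rw [map_one, h67_normAlong_one]

/-- `N_α (β f) ≠ 0` for `f ≠ 0`. -/
theorem h2_normBeta_ne_zero {f : ↥(modularFunctionFieldBar N)} (hf : f ≠ 0) :
    h67_normAlong (heckeAlphaBar Qb N ℓ) (heckeBetaBar Qb N ℓ f) ≠ 0 := by
  intro h0
  have h1 := h2_normBeta_mul N ℓ f f⁻¹
  rw [mul_inv_cancel₀ hf, h2_normBeta_one, h0, zero_mul] at h1
  exact one_ne_zero h1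

/-- `N_α (β f⁻¹) = (N_α (β f))⁻¹`. -/
theorem h2_normBeta_inv (f : ↥(modularFunctionFieldBar N)) :
    h67_normAlong (heckeAlphaBar Qb N ℓ) (heckeBetaBar Qb N ℓ f⁻¹)
      = (h67_normAlong (heckeAlphaBar Qb N ℓ) (heckeBetaBar Qb N ℓ f))⁻¹ := by
  rcases eq_or_ne f 0 with rfl | hf
  · rw [inv_zero, map_zero]
    have h0 : h67_normAlong (heckeAlphaBar Qb N ℓ) (0 : ↥(modularFunctionFieldBar (N * ℓ))) = 0 := by
      letI := algebraAlong (heckeAlphaBar Qb N ℓ)
      haveI : Module.Finite ↥(modularFunctionFieldBar N) ↥(modularFunctionFieldBar (N * ℓ)) :=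
        h88_finiteAlong_alpha N ℓ
      exact Algebra.norm_zero
    rw [h0, inv_zero]
  · have h1 := h2_normBeta_mul N ℓ f f⁻¹
    rw [mul_inv_cancel₀ hf, h2_normBeta_one] at h1
    exact eq_inv_of_mul_eq_one_right h1.symm

end Galois

section Swap

variable (M p : ℕ) [NeZero M] [NeZero p] [Fact p.Prime] (hpM : ¬ p ∣ M)
  (ℓ : ℕ) [NeZero ℓ] (hpMℓ : ¬ p ∣ M * ℓ)

include hpMℓ in
/-- The swap `w_p` of level `M p` commutes with `N_α ∘ β` (`α, β : F(M p) → F(M p ℓ)`). -/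
theorem h2_normBeta_swap (f : ↥(modularFunctionFieldBar (M * p))) :
    h67_normAlong (heckeAlphaBar Qb (M * p) ℓ) (heckeBetaBar Qb (M * p) ℓ (h60_w M p hpM f))
      = h60_w M p hpM
          (h67_normAlong (heckeAlphaBar Qb (M * p) ℓ) (heckeBetaBar Qb (M * p) ℓ f)) := by
  have h := h2_normAlong_comp_smul (heckeBetaBar Qb (M * p) ℓ) (heckeAlphaBar Qb (M * p) ℓ)
    (h79_intertwines_beta M p hpM ℓ hpMℓ) (h79_intertwines_alpha M p hpM ℓ hpMℓ) f
  rw [h79_swapAut_smul, h79_swapAut_smul] at h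
  exact h

variable (A : ValuationSubring Qb) (hA : A.LiesOverPrime p)

include hpMℓ in
/-- `N_α ∘ β` preserves the first-component ring `R₁.O` of level `M p`. -/
theorem h2_normBeta_mem_R1 (f : ↥(modularFunctionFieldBar (M * p)))
    (hf : f ∈ (h60_R1 M p hpM A hA).O) :
    h67_normAlong (heckeAlphaBar Qb (M * p) ℓ) (heckeBetaBar Qb (M * p) ℓ f)
      ∈ (h60_R1 M p hpM A hA).O := by
  obtain ⟨h, -, -⟩ := h10_heckeNormRed_R1 M p ℓ hpMℓ A hA f
    ((h60_R1_mem_iff_Os M p hpM A hA f).mp hf)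
  exact (h60_R1_mem_iff_Os M p hpM A hA _).mpr h

include hpMℓ in
/-- `N_α ∘ β` preserves the units of `R₁.O`. -/
theorem h2_normBeta_unit_R1 (f : ↥(modularFunctionFieldBar (M * p)))
    (hne : (h60_R1 M p hpM A hA).redF f ≠ 0) :
    h67_normAlong (heckeAlphaBar Qb (M * p) ℓ) (heckeBetaBar Qb (M * p) ℓ f)
        ∈ (h60_R1 M p hpM A hA).O ∧
      (h60_R1 M p hpM A hA).redF
        (h67_normAlong (heckeAlphaBar Qb (M * p) ℓ) (heckeBetaBar Qb (M * p) ℓ f)) ≠ 0 := by
  have hf : f ∈ (h60_R1 M p hpM A hA).O := h39_mem_of_redF_ne_zero _ hne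
  have hf0 : f ≠ 0 := by
    rintro rfl
    exact hne (h39_redF_zero _)
  obtain ⟨hinv, -⟩ := h39_inv_of_redF_ne_zero (h60_R1 M p hpM A hA) hne
  have h1 := h2_normBeta_mem_R1 M p hpM ℓ hpMℓ A hA f hf
  have h2 := h2_normBeta_mem_R1 M p hpM ℓ hpMℓ A hA f⁻¹ hinv
  refine ⟨h1, fun h0 => ?_⟩
  have h3 := h2_normBeta_mul (M * p) ℓ f f⁻¹
  rw [mul_inv_cancel₀ hf0, h2_normBeta_one] at h3
  have h4 := congrArg (h60_R1 M p hpM A hA).redF h3
  rw [h39_redF_one, h39_redF_mul _ h1 h2, h0, zero_mul] at h4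
  exact one_ne_zero h4

include hpMℓ in
/-- `N_α ∘ β` preserves the second-component ring `R₂.O` of level `M p`. -/
theorem h2_normBeta_mem_R2 (f : ↥(modularFunctionFieldBar (M * p)))
    (hf : f ∈ (h60_R2 M p hpM A hA).O) :
    h67_normAlong (heckeAlphaBar Qb (M * p) ℓ) (heckeBetaBar Qb (M * p) ℓ f)
      ∈ (h60_R2 M p hpM A hA).O := by
  rw [h60_R2_mem_iff, ← h2_normBeta_swap M p hpM ℓ hpMℓ]
  exact h2_normBeta_mem_R1 M p hpM ℓ hpMℓ A hA _ ((h60_R2_mem_iff M p hpM A hA f).mp hf)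

include hpMℓ in
/-- `N_α ∘ β` preserves the units of `R₂.O`. -/
theorem h2_normBeta_unit_R2 (f : ↥(modularFunctionFieldBar (M * p)))
    (hne : (h60_R2 M p hpM A hA).redF f ≠ 0) :
    h67_normAlong (heckeAlphaBar Qb (M * p) ℓ) (heckeBetaBar Qb (M * p) ℓ f)
        ∈ (h60_R2 M p hpM A hA).O ∧
      (h60_R2 M p hpM A hA).redF
        (h67_normAlong (heckeAlphaBar Qb (M * p) ℓ) (heckeBetaBar Qb (M * p) ℓ f)) ≠ 0 := by
  rw [h60_R2_redF] at hne
  obtain ⟨h1, h2⟩ := h2_normBeta_unit_R1 M p hpM ℓ hpMℓ A hA (h60_w M p hpM f) hne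
  rw [h2_normBeta_swap M p hpM ℓ hpMℓ] at h1 h2
  exact ⟨(h60_R2_mem_iff M p hpM A hA _).mpr h1, by rw [h60_R2_redF]; exact h2⟩

end Swap

section Datum

variable (N ℓ : ℕ) [NeZero N] [NeZero ℓ]

/-- **(DATUM-T), divisor part.**  If `x = [E]` with `m • E = div u`, then `T_ℓ x = [E_T]` with
`m • E_T = div (N_α (β u))`, and `E_T` is fixed by every Galois automorphism fixing `E`
(`E_T = α_* β^* E`, the same divisor for all `σ`). -/
theorem h2_datumT_div (m : ℕ)
    (E : Divisor.degZero (K := Qb) (F := modularFunctionFieldBar N))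
    (u : ↥(modularFunctionFieldBar N)) (hu : u ≠ 0)
    (hdiv : ∀ v : Place Qb (modularFunctionFieldBar N),
      (m : ℤ) * (E : Divisor Qb (modularFunctionFieldBar N)) v = v.ord u) :
    ∃ ET : Divisor.degZero (K := Qb) (F := modularFunctionFieldBar N),
      heckeOperatorAlong Qb N ℓ (Pic0.mk E) = Pic0.mk ET ∧
      (∀ v : Place Qb (modularFunctionFieldBar N),
        (m : ℤ) * (ET : Divisor Qb (modularFunctionFieldBar N)) v
          = v.ord (h67_normAlong (heckeAlphaBar Qb N ℓ) (heckeBetaBar Qb N ℓ u))) ∧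
      ∀ σ : Qb ≃ₐ[ℚ] Qb,
        arithmeticGalois (modularFunctionFieldFull N) σ •
            (E : Divisor Qb (modularFunctionFieldBar N)) = E →
        arithmeticGalois (modularFunctionFieldFull N) σ •
            (ET : Divisor Qb (modularFunctionFieldBar N)) = ET := by
  obtain ⟨hα, hβ, hP, hfin, hFI, hN⟩ := h87_HI N ℓ
  haveI := hP
  refine ⟨Pic0.degZeroCorrespondence (heckeBetaBar Qb N ℓ) (heckeAlphaBar Qb N ℓ) hβ hα hFI E,
    ?_, ?_, ?_⟩
  · rw [heckeOperatorAlong_eq hα hβ hFI hfin hN]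
    exact Pic0.correspondence_mk _ _ hβ hα hFI hfin hN E
  · intro v
    have h := h67_correspondence_nsmul (heckeBetaBar Qb N ℓ) (heckeAlphaBar Qb N ℓ) hβ hα hfin hN
      (D := (E : Divisor Qb (modularFunctionFieldBar N))) m hu
      (fun v => by rw [Finsupp.smul_apply, nsmul_eq_mul]; exact hdiv v) v
    rw [Finsupp.smul_apply, nsmul_eq_mul] at h
    exact h
  · intro σ hσ
    have h := h67_heckeDivBar_galois N ℓ hα hβ σ (E : Divisor Qb (modularFunctionFieldBar N))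
    rw [hσ] at h
    exact h.symm

omit [NeZero ℓ] in
/-- **(DATUM-T), divisor part**, for `heckeOperatorBar N ⟨ℓ, hℓ⟩`. -/
theorem h2_datumT_div_bar (hℓ : ℓ.Prime) (m : ℕ)
    (E : Divisor.degZero (K := Qb) (F := modularFunctionFieldBar N))
    (u : ↥(modularFunctionFieldBar N)) (hu : u ≠ 0)
    (hdiv : ∀ v : Place Qb (modularFunctionFieldBar N),
      (m : ℤ) * (E : Divisor Qb (modularFunctionFieldBar N)) v = v.ord u) :
    haveI : NeZero ℓ := ⟨hℓ.ne_zero⟩
    ∃ ET : Divisor.degZero (K := Qb) (F := modularFunctionFieldBar N),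
      heckeOperatorBar N ⟨ℓ, hℓ⟩ (Pic0.mk E) = Pic0.mk ET ∧
      (∀ v : Place Qb (modularFunctionFieldBar N),
        (m : ℤ) * (ET : Divisor Qb (modularFunctionFieldBar N)) v
          = v.ord (h67_normAlong (heckeAlphaBar Qb N ℓ) (heckeBetaBar Qb N ℓ u))) ∧
      ∀ σ : Qb ≃ₐ[ℚ] Qb,
        arithmeticGalois (modularFunctionFieldFull N) σ •
            (E : Divisor Qb (modularFunctionFieldBar N)) = E →
        arithmeticGalois (modularFunctionFieldFull N) σ •
            (ET : Divisor Qb (modularFunctionFieldBar N)) = ET := by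
  haveI : NeZero ℓ := ⟨hℓ.ne_zero⟩
  exact h2_datumT_div N ℓ m E u hu hdiv

end Datum

section DatumT

variable (M p : ℕ) [NeZero M] [NeZero p] [Fact p.Prime] (hpM : ¬ p ∣ M)
  (ℓ : ℕ) [NeZero ℓ] (hpMℓ : ¬ p ∣ M * ℓ)
  (A : ValuationSubring Qb) (hA : A.LiesOverPrime p)

include hpMℓ in
/-- **(DATUM-T).**  Level `M p`, `T_ℓ = α_* β^*` through level `M p ℓ`, `p ∤ M ℓ`,
`d = [F(M p ℓ) : F(M p)]`.  Let `(E, u)` represent `x` (`m • E = div u`), `u = c₁ • u₁` with
`u₁` a unit of `R₁`, `u₁ = p ^ κ • u₂` with `u₂` a unit of `R₂`.  Then `(E_T, U)` with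
`U = N_α (β u)` represents `T_ℓ x`, and `U = c₁ ^ d • U₁`, `U₁ = p ^ (d κ) • U₂` with
`U₁ = N_α (β u₁)` a unit of `R₁` and `U₂ = N_α (β u₂)` a unit of `R₂`; Galois automorphisms
fixing `E` (resp. `u`, `u₁`, `u₂`) fix `E_T` (resp. `U`, `U₁`, `U₂`). -/
theorem h2_datumT (m : ℕ)
    (E : Divisor.degZero (K := Qb) (F := modularFunctionFieldBar (M * p)))
    (u : ↥(modularFunctionFieldBar (M * p))) (hu : u ≠ 0)
    (hdiv : ∀ v : Place Qb (modularFunctionFieldBar (M * p)),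
      (m : ℤ) * (E : Divisor Qb (modularFunctionFieldBar (M * p))) v = v.ord u)
    (c₁ : Qb) (κ : ℤ) (u₁ u₂ : ↥(modularFunctionFieldBar (M * p)))
    (hu₁ : u = algebraMap Qb ↥(modularFunctionFieldBar (M * p)) c₁ * u₁)
    (hu₂ : u₁ = algebraMap Qb ↥(modularFunctionFieldBar (M * p)) ((p : Qb) ^ κ) * u₂)
    (h₁ : (h60_R1 M p hpM A hA).redF u₁ ≠ 0) (h₂ : (h60_R2 M p hpM A hA).redF u₂ ≠ 0) :
    ∃ ET : Divisor.degZero (K := Qb) (F := modularFunctionFieldBar (M * p)),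
      heckeOperatorAlong Qb (M * p) ℓ (Pic0.mk E) = Pic0.mk ET ∧
      (∀ v : Place Qb (modularFunctionFieldBar (M * p)),
        (m : ℤ) * (ET : Divisor Qb (modularFunctionFieldBar (M * p))) v
          = v.ord (h67_normAlong (heckeAlphaBar Qb (M * p) ℓ) (heckeBetaBar Qb (M * p) ℓ u))) ∧
      (∀ σ : Qb ≃ₐ[ℚ] Qb,
        arithmeticGalois (modularFunctionFieldFull (M * p)) σ •
            (E : Divisor Qb (modularFunctionFieldBar (M * p))) = E →
        arithmeticGalois (modularFunctionFieldFull (M * p)) σ •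
            (ET : Divisor Qb (modularFunctionFieldBar (M * p))) = ET) ∧
      h67_normAlong (heckeAlphaBar Qb (M * p) ℓ) (heckeBetaBar Qb (M * p) ℓ u) ≠ 0 ∧
      h67_normAlong (heckeAlphaBar Qb (M * p) ℓ) (heckeBetaBar Qb (M * p) ℓ u)
        = algebraMap Qb ↥(modularFunctionFieldBar (M * p))
            (c₁ ^ finrankAlong Qb (heckeAlphaBar Qb (M * p) ℓ)) *
          h67_normAlong (heckeAlphaBar Qb (M * p) ℓ) (heckeBetaBar Qb (M * p) ℓ u₁) ∧
      h67_normAlong (heckeAlphaBar Qb (M * p) ℓ) (heckeBetaBar Qb (M * p) ℓ u₁)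
        = algebraMap Qb ↥(modularFunctionFieldBar (M * p))
            ((p : Qb) ^ ((finrankAlong Qb (heckeAlphaBar Qb (M * p) ℓ) : ℤ) * κ)) *
          h67_normAlong (heckeAlphaBar Qb (M * p) ℓ) (heckeBetaBar Qb (M * p) ℓ u₂) ∧
      (h67_normAlong (heckeAlphaBar Qb (M * p) ℓ) (heckeBetaBar Qb (M * p) ℓ u₁)
          ∈ (h60_R1 M p hpM A hA).O ∧
        (h60_R1 M p hpM A hA).redF
          (h67_normAlong (heckeAlphaBar Qb (M * p) ℓ) (heckeBetaBar Qb (M * p) ℓ u₁)) ≠ 0) ∧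
      (h67_normAlong (heckeAlphaBar Qb (M * p) ℓ) (heckeBetaBar Qb (M * p) ℓ u₂)
          ∈ (h60_R2 M p hpM A hA).O ∧
        (h60_R2 M p hpM A hA).redF
          (h67_normAlong (heckeAlphaBar Qb (M * p) ℓ) (heckeBetaBar Qb (M * p) ℓ u₂)) ≠ 0) := by
  obtain ⟨ET, hT, hET, hfix⟩ := h2_datumT_div (M * p) ℓ m E u hu hdiv
  refine ⟨ET, hT, hET, hfix, h2_normBeta_ne_zero (M * p) ℓ hu, ?_, ?_,
    h2_normBeta_unit_R1 M p hpM ℓ hpMℓ A hA u₁ h₁, h2_normBeta_unit_R2 M p hpM ℓ hpMℓ A hA u₂ h₂⟩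
  · rw [hu₁, h2_normBeta_const_mul]
  · rw [hu₂, h2_normBeta_const_mul, ← zpow_natCast, ← zpow_mul, mul_comm κ]

end DatumT

end Fermat.Agent.S40
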