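import Mathlib
import Fermat.Agent.GAL.h67_CorrPrincipal
import Fermat.Agent.S37.h87_RedData
import Fermat.Agent.S37.h70_LVL

/-!
# S40 (G40), row T10 / B5, leaf (E-q0): the eigen-relation at function level, characteristic 0
(helper67)

Level `N` (any), `ℓ` any positive integer (`T_ℓ = α_* β^*` through level `N ℓ`).
`x = [E] ∈ J₀(N)(ℚ̄)` with `m • E = div u₀`.  If `T_ℓ x = a • x` (`a : ℤ`), then

  `N_α (β u₀) = c • u₀ ^ a * w ^ m`

for a constant `c ≠ 0` and a function `w ≠ 0` of level `N`.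

Proof: `T_ℓ [E] = [E']` with `m • E' = div (N_α (β u₀))` (`h67_heckeOperatorAlong_torsion`);
`E' - a • E = div w` since the classes agree; so `N_α (β u₀)` and `u₀ ^ a * w ^ m` have the same
divisor, and a function without zeros and poles is constant (`h70_const_of_ord_zero`).

* `h67_eig_char0_generic` : the same for any correspondence `ψ_* φ^*` on function fields with
  the usual inputs (no modular input; the "constant" step is a hypothesis).
* `h67_eig_char0` : the modular statement for `heckeOperatorAlong ℚ̄ N ℓ`.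
* `h67_eig_char0_bar` : the same for `heckeOperatorBar N ⟨ℓ, hℓ⟩`.
-/

set_option autoImplicit false
set_option synthInstance.maxHeartbeats 400000

noncomputable section

open ModularCurve AlgebraicCurve

namespace Fermat.Agent.S40

open Fermat.Agent.GAL Fermat.Agent.S37 Fermat.Agent.S24

local notation "Qb" => AlgebraicClosure ℚ

section Generic

variable {K F F' : Type*} [Field K] [Field F] [Field F'] [Algebra K F] [Algebra K F']

/-- `Pic0.mk D' = a • Pic0.mk E` ⟹ `D' - a • E` is the divisor of a function. -/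
theorem h67_exists_fun_of_mk_eq_zsmul (E D' : Divisor.degZero (K := K) (F := F)) (a : ℤ)
    (h : Pic0.mk D' = a • Pic0.mk E) :
    ∃ w : F, w ≠ 0 ∧ ∀ v : Place K F,
      (D' : Divisor K F) v - a * (E : Divisor K F) v = v.ord w := by
  have he : a • Pic0.mk E = Pic0.mk (a • E) := rfl
  rw [he] at h
  have h1 := (QuotientAddGroup.eq).mp h
  rw [AddSubgroup.mem_addSubgroupOf] at h1
  have h2 := (Divisor.principal (K := K) (F := F)).neg_mem h1
  obtain ⟨w, hw, hw'⟩ := Divisor.mem_principal.mp h2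
  refine ⟨w, hw, fun v => ?_⟩
  rw [← hw' v]
  simp only [AddSubgroup.coe_add, NegMemClass.coe_neg, AddSubgroup.coe_zsmul, Finsupp.neg_apply,
    Finsupp.add_apply, Finsupp.smul_apply, smul_eq_mul]
  ring

/-- **(E-q0), generic.**  A correspondence `T = ψ_* φ^*` on `Pic0 K F`; `x = [E]` with
`m • E = div u₀` and `T x = a • x`.  Then `N_ψ (φ u₀) = c • u₀ ^ a * w ^ m` with `c` a nonzero
constant (`hconst`: functions without zeros and poles are constant). -/
theorem h67_eig_char0_generic [HasPrincipalDivisors K F'] (φ ψ : F →ₐ[K] F')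
    (hφ : φ.toRingHom.IsIntegral) (hψ : ψ.toRingHom.IsIntegral)
    (hFI : FundamentalIdentityAlong K φ hφ) (hfin : FiniteAlong K ψ)
    (hN : NormFormulaAlong K ψ hfin)
    (hconst : ∀ g : F, (∀ v : Place K F, v.ord g = 0) → g ∈ Set.range (algebraMap K F))
    (m : ℕ) (E : Divisor.degZero (K := K) (F := F)) (u0 : F) (hu0 : u0 ≠ 0)
    (hdiv : ∀ v : Place K F, (m : ℤ) * (E : Divisor K F) v = v.ord u0)
    (a : ℤ) (hT : Pic0.correspondence φ ψ hφ hψ hFI hfin hN (Pic0.mk E) = a • Pic0.mk E) :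
    ∃ (c : K) (w : F), c ≠ 0 ∧ w ≠ 0 ∧
      h67_normAlong ψ (φ u0) = algebraMap K F c * u0 ^ a * w ^ m := by
  obtain ⟨D', h1, -, h3⟩ := h67_pic0_correspondence_torsion φ ψ hφ hψ hFI hfin hN E m hu0
    (fun v => by
      rw [Finsupp.smul_apply, nsmul_eq_mul]
      exact hdiv v)
  rw [h1] at hT
  obtain ⟨w, hw, hw'⟩ := h67_exists_fun_of_mk_eq_zsmul E D' a hT
  have hn0 : h67_normAlong ψ (φ u0) ≠ 0 :=
    h67_normAlong_ne_zero ψ hfin ((map_ne_zero φ).mpr hu0)
  have hua : u0 ^ a ≠ 0 := zpow_ne_zero a hu0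
  have hwm : w ^ m ≠ 0 := pow_ne_zero m hw
  have hprod : u0 ^ a * w ^ m ≠ 0 := mul_ne_zero hua hwm
  -- the quotient has no zeros and no poles
  have hord : ∀ v : Place K F,
      v.ord (h67_normAlong ψ (φ u0) * (u0 ^ a * w ^ m)⁻¹) = 0 := by
    intro v
    rw [v.ord_mul hn0 (inv_ne_zero hprod), v.ord_inv, v.ord_mul hua hwm, v.ord_zpow,
      ← zpow_natCast w m, v.ord_zpow, ← h3 v, Finsupp.smul_apply, nsmul_eq_mul, ← hdiv v,
      ← hw' v]
    ring
  obtain ⟨c, hc⟩ := hconst _ hord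
  have hc0 : c ≠ 0 := by
    intro h0
    rw [h0, map_zero] at hc
    exact mul_ne_zero hn0 (inv_ne_zero hprod) hc.symm
  refine ⟨c, w, hc0, hw, ?_⟩
  rw [mul_assoc, hc, mul_assoc, inv_mul_cancel₀ hprod, mul_one]

end Generic

section Modular

variable (N ℓ : ℕ) [NeZero N] [NeZero ℓ]

/-- **(E-q0)**: the eigen-relation `T_ℓ x = a • x` at function level, in characteristic `0`.
`x = [E]`, `m • E = div u₀` ⟹ `N_α (β u₀) = c • u₀ ^ a * w ^ m`. -/
theorem h67_eig_char0 (m : ℕ)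
    (E : Divisor.degZero (K := Qb) (F := modularFunctionFieldBar N))
    (u0 : modularFunctionFieldBar N) (hu0 : u0 ≠ 0)
    (hdiv : ∀ v : Place Qb (modularFunctionFieldBar N),
      (m : ℤ) * (E : Divisor Qb (modularFunctionFieldBar N)) v = v.ord u0)
    (a : ℤ) (hT : heckeOperatorAlong Qb N ℓ (Pic0.mk E) = a • Pic0.mk E) :
    ∃ (c : Qb) (w : modularFunctionFieldBar N), c ≠ 0 ∧ w ≠ 0 ∧
      h67_normAlong (heckeAlphaBar Qb N ℓ) (heckeBetaBar Qb N ℓ u0)
        = algebraMap Qb (modularFunctionFieldBar N) c * u0 ^ a * w ^ m := by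
  obtain ⟨hα, hβ, hP, hfin, hFI, hN⟩ := h87_HI N ℓ
  have := hP
  rw [heckeOperatorAlong_eq hα hβ hFI hfin hN] at hT
  exact h67_eig_char0_generic (heckeBetaBar Qb N ℓ) (heckeAlphaBar Qb N ℓ) hβ hα hFI hfin hN
    (fun g hg => h70_const_of_ord_zero (h88_isFF N) g hg) m E u0 hu0 hdiv a hT

omit [NeZero ℓ] in
/-- **(E-q0)** for `heckeOperatorBar N ⟨ℓ, hℓ⟩`. -/
theorem h67_eig_char0_bar (hℓ : ℓ.Prime) (m : ℕ)
    (E : Divisor.degZero (K := Qb) (F := modularFunctionFieldBar N))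
    (u0 : modularFunctionFieldBar N) (hu0 : u0 ≠ 0)
    (hdiv : ∀ v : Place Qb (modularFunctionFieldBar N),
      (m : ℤ) * (E : Divisor Qb (modularFunctionFieldBar N)) v = v.ord u0)
    (a : ℤ) (hT : heckeOperatorBar N ⟨ℓ, hℓ⟩ (Pic0.mk E) = a • Pic0.mk E) :
    haveI : NeZero ℓ := ⟨hℓ.ne_zero⟩
    ∃ (c : Qb) (w : modularFunctionFieldBar N), c ≠ 0 ∧ w ≠ 0 ∧
      h67_normAlong (heckeAlphaBar Qb N ℓ) (heckeBetaBar Qb N ℓ u0)
        = algebraMap Qb (modularFunctionFieldBar N) c * u0 ^ a * w ^ m := by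
  have : NeZero ℓ := ⟨hℓ.ne_zero⟩
  exact h67_eig_char0 N ℓ m E u0 hu0 hdiv a hT

end Modular

end Fermat.Agent.S40
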