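/-
S40 (G40), row T8 (END-JET), MODULAR statement (helper12).

Level `M p` (`p ∤ M`), `A` over `p`, `I` the inertia group, `R1 = h60_R1`, `R2 = h60_R2`.
`(z, w)` a W0 pair (`(1 + w) ^ p = 1 + p z`, `z` a unit), `ρ` the action of `I` on the function
field (ANY spelling: the only hypothesis is `hρ : ρ γ f = arithmeticGalois γ • f`, which is `rfl`
for `h78_rho` and for `h25_rho`), `g : Fin p → I` orbit representatives of `w`,
`c_j f = h28_coef ρ p w g f j` the Lagrange coefficients.  `ℓ` a Hecke prime (`ℓ ∤ M p`),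
`T u = N_α (β u)` (`α, β : F(M p) → F(M p ℓ)`).

* `h12_ejT` : the multiplicative map `u ↦ N_α (β u)`.
* `h12_ej_nj_datum` : the norm-jet rule in coefficient form for a reduction datum `R` of
  `F(M p)` over `A` with INT-BASE, `T`-stability of `R.O` and (NJ).
* `h12_t8_jet` : **(T8-JET)**.  If the W7 conclusion (coefficient form, board #3936/#4015) holds
  for every datum `(u₁, u₂, κ')`, and the class of `E` (`p E = div u`) is an eigenvector of
  `T_ℓ` with eigenvalue `a`, `p ∤ ℓ + 1 - a`, then `p ∣ h43_rord R1 (Q1 ν) u` for every `ν`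
  (with `Z := {Q // Q ∈ Sg}`, `Q1 ν := Φ ν.1` this is `h92_T8Out M p hpM A hA Sg Φ u`).
-/
import Mathlib
import Fermat.Agent.S40.h12_EndJetCoef
import Fermat.Agent.S40.h10_NormJet
import Fermat.Agent.S40.h2_EndGlue
import Fermat.Agent.S40.h67_EigChar0
import Fermat.Agent.S40.h15_WNormMod
import Fermat.Agent.S40.h12_KummerEis
import Fermat.Agent.S36.h5_ResK0

set_option autoImplicit false
set_option synthInstance.maxHeartbeats 400000

noncomputable section

open ModularCurve AlgebraicCurve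

namespace Fermat.Agent.S40

open Fermat.Agent.GAL Fermat.Agent.S37 Fermat.Agent.S34 Fermat.Agent.S18 Fermat.Agent.S24
  Fermat.Agent.S36

local notation "Qb" => AlgebraicClosure ℚ
local notation "Γℚ" => (AlgebraicClosure ℚ ≃ₐ[ℚ] AlgebraicClosure ℚ)

/-- The multiplicative map `u ↦ N_α (β u)` of the Hecke correspondence `T_ℓ` at level `N`. -/
def h12_ejT (N ℓ : ℕ) [NeZero N] [NeZero ℓ] :
    ↥(modularFunctionFieldBar N) →* ↥(modularFunctionFieldBar N) where
  toFun u := h67_normAlong (heckeAlphaBar Qb N ℓ) (heckeBetaBar Qb N ℓ u)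
  map_one' := h2_normBeta_one N ℓ
  map_mul' := h2_normBeta_mul N ℓ

theorem h12_ejT_apply (N ℓ : ℕ) [NeZero N] [NeZero ℓ] (u : ↥(modularFunctionFieldBar N)) :
    h12_ejT N ℓ u = h67_normAlong (heckeAlphaBar Qb N ℓ) (heckeBetaBar Qb N ℓ u) := rfl

section datum

variable (M p : ℕ) [NeZero M] [NeZero p] [Fact p.Prime]
  (A : ValuationSubring Qb) (hA : A.LiesOverPrime p) (ℓ : ℕ) [NeZero ℓ]
  {k Fb : Type*} [Field k] [Field Fb] [Algebra k Fb]

include hA in
set_option maxHeartbeats 1600000 in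
/-- **The norm-jet rule (coefficient form) for a reduction datum of `F(M p)` over `A`.** -/
theorem h12_ej_nj_datum (R : h39_RedDatum Qb ↥(modularFunctionFieldBar (M * p)) k Fb)
    (hRA : R.A = A)
    (hintR : ∀ f : ↥(modularFunctionFieldBar (M * p)), f ≠ 0 →
      (∀ σ ∈ A.inertiaSubgroupIn ℚ,
        arithmeticGalois (modularFunctionFieldFull (M * p)) σ • f = f) →
      ∃ n : ℤ, f / algebraMap Qb ↥(modularFunctionFieldBar (M * p)) ((p : Qb) ^ n) ∈ R.O ∧
        R.redF (f / algebraMap Qb ↥(modularFunctionFieldBar (M * p)) ((p : Qb) ^ n)) ≠ 0)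
    (hTO : ∀ f : ↥(modularFunctionFieldBar (M * p)), f ∈ R.O → h12_ejT (M * p) ℓ f ∈ R.O)
    (hnjR : ∀ c0 t : ↥(modularFunctionFieldBar (M * p)), t ∈ R.O → ∀ wc gam : Qb, wc ∈ A →
      gam ∈ A → ∃ r' ∈ R.O,
        h12_ejT (M * p) ℓ (c0 * (1 + algebraMap Qb _ wc *
          (algebraMap Qb _ gam + algebraMap Qb _ wc * t))) =
        h12_ejT (M * p) ℓ c0 *
          (1 + (finrankAlong Qb (heckeAlphaBar Qb (M * p) ℓ) :
              ↥(modularFunctionFieldBar (M * p))) *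
            algebraMap Qb _ gam * algebraMap Qb _ wc + algebraMap Qb _ wc ^ 2 * r'))
    (ρ : ↥(A.inertiaSubgroupIn ℚ) →*
      (↥(modularFunctionFieldBar (M * p)) ≃+* ↥(modularFunctionFieldBar (M * p))))
    (hρ : ∀ (γ : ↥(A.inertiaSubgroupIn ℚ)) (f : ↥(modularFunctionFieldBar (M * p))),
      ρ γ f = arithmeticGalois (modularFunctionFieldFull (M * p)) (γ : Γℚ) • f)
    (z w : Qb) (hz : A.valuation z = 1) (hw : (1 + w) ^ p = 1 + (p : Qb) * z)
    (g : Fin p → ↥(A.inertiaSubgroupIn ℚ))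
    (hdist : Function.Injective fun i =>
      ρ (g i) (algebraMap Qb ↥(modularFunctionFieldBar (M * p)) w))
    (horb : ∀ γ : ↥(A.inertiaSubgroupIn ℚ), ∃ i,
      ρ γ (algebraMap Qb ↥(modularFunctionFieldBar (M * p)) w) =
        ρ (g i) (algebraMap Qb ↥(modularFunctionFieldBar (M * p)) w))
    (f : ↥(modularFunctionFieldBar (M * p))) (Γ : k) (hfu : h43_IsRUnit R f)
    (hf : ∀ γ : ↥(A.inertiaSubgroupIn ℚ),
      ρ γ (algebraMap Qb ↥(modularFunctionFieldBar (M * p)) w) =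
        algebraMap Qb ↥(modularFunctionFieldBar (M * p)) w → ρ γ f = f)
    (hΓ : R.redF (h28_coef ρ p (algebraMap Qb ↥(modularFunctionFieldBar (M * p)) w) g f 1) =
        algebraMap k Fb Γ *
          R.redF (h28_coef ρ p (algebraMap Qb ↥(modularFunctionFieldBar (M * p)) w) g f 0)) :
    R.redF (h28_coef ρ p (algebraMap Qb ↥(modularFunctionFieldBar (M * p)) w) g
        (h12_ejT (M * p) ℓ f) 0) ≠ 0 ∧
    R.redF (h28_coef ρ p (algebraMap Qb ↥(modularFunctionFieldBar (M * p)) w) g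
        (h12_ejT (M * p) ℓ f) 1) =
      algebraMap k Fb (((finrankAlong Qb (heckeAlphaBar Qb (M * p) ℓ) : ℕ) : k) * Γ) *
        R.redF (h28_coef ρ p (algebraMap Qb ↥(modularFunctionFieldBar (M * p)) w) g
          (h12_ejT (M * p) ℓ f) 0) := by
  have hp : p.Prime := Fact.out
  have hp0 : (p : Qb) ≠ 0 := Nat.cast_ne_zero.mpr hp.ne_zero
  obtain ⟨hwA, -, hwp, -⟩ := h12_eis_val p A hA z w hz hw
  have hπ0 : algebraMap Qb ↥(modularFunctionFieldBar (M * p)) (p : Qb) ≠ 0 :=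
    (map_ne_zero _).mpr hp0
  have hpnon : (p : Qb) ∈ R.A.nonunits := by
    rw [hRA]
    exact hA
  have hπv : R.O.valuation (algebraMap Qb ↥(modularFunctionFieldBar (M * p)) (p : Qb)) < 1 := by
    rw [← ValuationSubring.mem_nonunits_iff, ValuationSubring.mem_nonunits_iff_or]
    right
    rcases (ValuationSubring.mem_nonunits_iff_or R.A).mp hpnon with h | h
    · exact absurd h hp0
    · intro hmem
      rw [← map_inv₀] at hmem
      exact h ((R.mem_iff _).mpr hmem)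
  have hvw : R.O.valuation (algebraMap Qb ↥(modularFunctionFieldBar (M * p)) w) ^ p =
      R.O.valuation (algebraMap Qb ↥(modularFunctionFieldBar (M * p)) (p : Qb)) := by
    have h1 := h28_val_transport R.A R.O R.mem_iff (w ^ p) (p : Qb)
      (by rw [map_pow, hRA]; exact hwp)
    rw [map_pow, map_pow] at h1
    exact h1
  -- the action on constants
  have hρc : ∀ (γ : ↥(A.inertiaSubgroupIn ℚ)) (c : Qb),
      ρ γ (algebraMap Qb ↥(modularFunctionFieldBar (M * p)) c) =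
        algebraMap Qb ↥(modularFunctionFieldBar (M * p)) ((γ : Γℚ) c) := by
    intro γ c
    rw [hρ, SemilinearAut.smul_algebraMap]
    rfl
  have hint : ∀ c : ↥(modularFunctionFieldBar (M * p)),
      (∀ γ : ↥(A.inertiaSubgroupIn ℚ), ρ γ c = c) → c ≠ 0 →
      ∃ m : ℤ, R.O.valuation c =
        R.O.valuation (algebraMap Qb ↥(modularFunctionFieldBar (M * p)) (p : Qb)) ^ m := by
    intro c hc hc0
    obtain ⟨m, h1, h2⟩ := hintR c hc0 (fun σ hσ => by
      have h := hc ⟨σ, hσ⟩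
      rw [hρ] at h
      exact h)
    refine ⟨m, ?_⟩
    have h2' := (h39_inv_of_redF_ne_zero R h2).1
    have hX0 : algebraMap Qb ↥(modularFunctionFieldBar (M * p)) ((p : Qb) ^ m) ≠ 0 :=
      (map_ne_zero _).mpr (zpow_ne_zero _ hp0)
    have hne : c / algebraMap Qb ↥(modularFunctionFieldBar (M * p)) ((p : Qb) ^ m) ≠ 0 :=
      div_ne_zero hc0 hX0
    have h3 : R.O.valuation (c / algebraMap Qb ↥(modularFunctionFieldBar (M * p)) ((p : Qb) ^ m))
        = 1 := by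
      apply le_antisymm ((R.O.valuation_le_one_iff _).mpr h1)
      have h4 := (R.O.valuation_le_one_iff _).mpr h2'
      rw [map_inv₀] at h4
      have h5 : R.O.valuation
          (c / algebraMap Qb ↥(modularFunctionFieldBar (M * p)) ((p : Qb) ^ m)) ≠ 0 :=
        (Valuation.ne_zero_iff _).mpr hne
      exact (inv_le_one₀ (zero_lt_iff.mpr h5)).mp h4
    have e1 : algebraMap Qb ↥(modularFunctionFieldBar (M * p)) ((p : Qb) ^ m) =
        algebraMap Qb ↥(modularFunctionFieldBar (M * p)) (p : Qb) ^ m :=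
      map_zpow₀ (algebraMap Qb ↥(modularFunctionFieldBar (M * p))) (p : Qb) m
    have e2 : R.O.valuation (algebraMap Qb ↥(modularFunctionFieldBar (M * p)) (p : Qb) ^ m) =
        R.O.valuation (algebraMap Qb ↥(modularFunctionFieldBar (M * p)) (p : Qb)) ^ m :=
      map_zpow₀ R.O.valuation _ m
    have e3 : c = c / algebraMap Qb ↥(modularFunctionFieldBar (M * p)) ((p : Qb) ^ m) *
        algebraMap Qb ↥(modularFunctionFieldBar (M * p)) ((p : Qb) ^ m) :=
      (div_mul_cancel₀ c hX0).symm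
    have e4 := congrArg R.O.valuation e3
    rw [map_mul, h3, one_mul, e1, e2] at e4
    exact e4
  refine h12_ej_nj_coef R ρ p hp.two_le (algebraMap Qb ↥(modularFunctionFieldBar (M * p)) w) g
    hdist horb (algebraMap Qb ↥(modularFunctionFieldBar (M * p)) (p : Qb)) hπ0 hπv hvw hint
    (h12_ejT (M * p) ℓ) (finrankAlong Qb (heckeAlphaBar Qb (M * p) ℓ)) ?_ hTO ?_ ?_ f Γ hfu hf hΓ
  · intro γ f'
    rw [hρ, hρ]
    exact (h2_normBeta_galois (M * p) ℓ (γ : Γℚ) f').symm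
  · intro Γ'
    obtain ⟨a, haA, hares⟩ := h39_resK_surjective R Γ'
    have haA' : a ∈ A := by rw [← hRA]; exact haA
    obtain ⟨a0, ha0A, ha0fix, hdiff⟩ := h5_res_K0 p hp A hA a haA'
    have ha0A' : a0 ∈ R.A := by rw [hRA]; exact ha0A
    have hdA : a - a0 ∈ R.A := R.A.sub_mem haA ha0A'
    have hd0 : R.resK (a - a0) = 0 := by
      rw [h39_resK_eq_zero_iff R hdA, ← ValuationSubring.mem_nonunits_iff_or, hRA]
      exact hdiff
    refine ⟨a0, ha0A', ?_, ?_⟩
    · rw [← hares]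
      have h1 := h39_resK_add R ha0A' hdA
      rw [hd0, add_zero, add_sub_cancel] at h1
      exact h1.symm
    · intro γ
      rw [hρc, ha0fix (γ : Γℚ) γ.2]
  · intro c₀ γ₀ t _ _ _ hγA ht
    have hγA' : γ₀ ∈ A := by rw [← hRA]; exact hγA
    obtain ⟨r', hr', heq⟩ := hnjR c₀ t ht w γ₀ hwA hγA'
    exact ⟨r', hr', heq⟩

end datum

section main

variable (M p : ℕ) [NeZero M] [NeZero p] [Fact p.Prime] (hpM : ¬ p ∣ M)
  (A : ValuationSubring Qb) (hA : A.LiesOverPrime p) (ℓ : ℕ) [NeZero ℓ]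

include hA in
set_option maxHeartbeats 3200000 in
/-- **(T8-JET), modular statement.**  Level `M p`, a W0 pair `(z, w)`, orbit representatives
`g` of `w` under the inertia group, a Hecke prime `ℓ ∤ M p`, `a` with `p ∤ ℓ + 1 - a`.

`hW7` is the W7 conclusion for EVERY datum `(u₁, u₂, κ')` (`u_i` an `H`-fixed unit of `R_i.O`,
`u₁ = p ^ κ' u₂`, `p ∣ div u₁`): the first two Lagrange coefficients of `u_i` satisfy
`red_i c₁ = Γ_i red_i c₀` with constants `Γ_i`, and `Γ₂ - Γ₁ = (ord_{Q1 ν} red₁ u₁ - κ') λ` at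
every node `ν`.

Then for a class `[E]`, `p E = div u`, with `T_ℓ [E] = a [E]`, and a datum `(u₁, u₂, κ)` of `u`
(`u = c u₁`): `p ∣ h43_rord R1 (Q1 ν) u` for every `ν`. -/
theorem h12_t8_jet (hℓ : ℓ.Prime) (hℓMp : ¬ ℓ ∣ M * p) (hpMℓ : ¬ p ∣ M * ℓ)
    [CharP (IsLocalRing.ResidueField A) p]
    (a : ℤ) (ha : ¬ (p : ℤ) ∣ (ℓ : ℤ) + 1 - a)
    (ρ : ↥(A.inertiaSubgroupIn ℚ) →*
      (↥(modularFunctionFieldBar (M * p)) ≃+* ↥(modularFunctionFieldBar (M * p))))
    (hρ : ∀ (γ : ↥(A.inertiaSubgroupIn ℚ)) (f : ↥(modularFunctionFieldBar (M * p))),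
      ρ γ f = arithmeticGalois (modularFunctionFieldFull (M * p)) (γ : Γℚ) • f)
    (z w : Qb) (hz : A.valuation z = 1) (hw : (1 + w) ^ p = 1 + (p : Qb) * z)
    (g : Fin p → ↥(A.inertiaSubgroupIn ℚ))
    (hdist : Function.Injective fun i =>
      ρ (g i) (algebraMap Qb ↥(modularFunctionFieldBar (M * p)) w))
    (horb : ∀ γ : ↥(A.inertiaSubgroupIn ℚ), ∃ i,
      ρ γ (algebraMap Qb ↥(modularFunctionFieldBar (M * p)) w) =
        ρ (g i) (algebraMap Qb ↥(modularFunctionFieldBar (M * p)) w))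
    (lam : IsLocalRing.ResidueField A) (hlam : lam ≠ 0)
    {Z : Type*} (Q1 : Z → Place (IsLocalRing.ResidueField A)
      ↥(modularFunctionFieldFullC (IsLocalRing.ResidueField A) M))
    (hW7 : ∀ (u1 u2 : ↥(modularFunctionFieldBar (M * p))) (κ' : ℤ),
      h43_IsRUnit (h60_R1 M p hpM A hA) u1 →
      (∀ γ : ↥(A.inertiaSubgroupIn ℚ),
        ρ γ (algebraMap Qb ↥(modularFunctionFieldBar (M * p)) w) =
          algebraMap Qb ↥(modularFunctionFieldBar (M * p)) w → ρ γ u1 = u1) →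
      h43_IsRUnit (h60_R2 M p hpM A hA) u2 →
      (∀ γ : ↥(A.inertiaSubgroupIn ℚ),
        ρ γ (algebraMap Qb ↥(modularFunctionFieldBar (M * p)) w) =
          algebraMap Qb ↥(modularFunctionFieldBar (M * p)) w → ρ γ u2 = u2) →
      u1 = algebraMap Qb ↥(modularFunctionFieldBar (M * p)) (p : Qb) ^ κ' * u2 →
      (∀ v : Place Qb ↥(modularFunctionFieldBar (M * p)), (p : ℤ) ∣ v.ord u1) →
      ∃ Γ₁ Γ₂ : IsLocalRing.ResidueField A,
        (h60_R1 M p hpM A hA).redF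
            (h28_coef ρ p (algebraMap Qb ↥(modularFunctionFieldBar (M * p)) w) g u1 1) =
          algebraMap (IsLocalRing.ResidueField A)
              ↥(modularFunctionFieldFullC (IsLocalRing.ResidueField A) M) Γ₁ *
            (h60_R1 M p hpM A hA).redF
              (h28_coef ρ p (algebraMap Qb ↥(modularFunctionFieldBar (M * p)) w) g u1 0) ∧
        (h60_R2 M p hpM A hA).redF
            (h28_coef ρ p (algebraMap Qb ↥(modularFunctionFieldBar (M * p)) w) g u2 1) =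
          algebraMap (IsLocalRing.ResidueField A)
              ↥(modularFunctionFieldFullC (IsLocalRing.ResidueField A) M) Γ₂ *
            (h60_R2 M p hpM A hA).redF
              (h28_coef ρ p (algebraMap Qb ↥(modularFunctionFieldBar (M * p)) w) g u2 0) ∧
        ∀ ν, Γ₂ - Γ₁ =
          (((Q1 ν).ord ((h60_R1 M p hpM A hA).redF u1) - κ' : ℤ) : IsLocalRing.ResidueField A)
            * lam)
    (E : Divisor.degZero (K := Qb) (F := modularFunctionFieldBar (M * p)))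
    (u : ↥(modularFunctionFieldBar (M * p)))
    (hdiv : ∀ v : Place Qb ↥(modularFunctionFieldBar (M * p)),
      (p : ℤ) * (E : Divisor Qb ↥(modularFunctionFieldBar (M * p))) v = v.ord u)
    (hT : heckeOperatorBar (M * p) ⟨ℓ, hℓ⟩ (Pic0.mk E) = a • Pic0.mk E)
    (c : Qb) (hc : c ≠ 0) (u1 u2 : ↥(modularFunctionFieldBar (M * p))) (κ : ℤ)
    (huu1 : u = algebraMap Qb ↥(modularFunctionFieldBar (M * p)) c * u1)
    (hu1 : h43_IsRUnit (h60_R1 M p hpM A hA) u1)
    (hu1H : ∀ γ : ↥(A.inertiaSubgroupIn ℚ),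
      ρ γ (algebraMap Qb ↥(modularFunctionFieldBar (M * p)) w) =
        algebraMap Qb ↥(modularFunctionFieldBar (M * p)) w → ρ γ u1 = u1)
    (hu2 : h43_IsRUnit (h60_R2 M p hpM A hA) u2)
    (hu2H : ∀ γ : ↥(A.inertiaSubgroupIn ℚ),
      ρ γ (algebraMap Qb ↥(modularFunctionFieldBar (M * p)) w) =
        algebraMap Qb ↥(modularFunctionFieldBar (M * p)) w → ρ γ u2 = u2)
    (hu12 : u1 = algebraMap Qb ↥(modularFunctionFieldBar (M * p)) (p : Qb) ^ κ * u2) :
    ∀ ν, (p : ℤ) ∣ h43_rord (h60_R1 M p hpM A hA) (Q1 ν) u := by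
  have hp : p.Prime := Fact.out
  have hp0 : (p : Qb) ≠ 0 := Nat.cast_ne_zero.mpr hp.ne_zero
  have hπ0 : algebraMap Qb ↥(modularFunctionFieldBar (M * p)) (p : Qb) ≠ 0 :=
    (map_ne_zero _).mpr hp0
  have hc' : algebraMap Qb ↥(modularFunctionFieldBar (M * p)) c ≠ 0 := (map_ne_zero _).mpr hc
  have hfin : finrankAlong Qb (heckeAlphaBar Qb (M * p) ℓ) = ℓ + 1 :=
    h10_nj_finrank M p ℓ hℓ hℓMp
  -- the divisor of `u1`
  have hordu : ∀ v : Place Qb ↥(modularFunctionFieldBar (M * p)), v.ord u = v.ord u1 := by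
    intro v
    rw [huu1, v.ord_mul hc' hu1.1, h43_ord_algebraMap, zero_add]
  have hdiv1 : ∀ v : Place Qb ↥(modularFunctionFieldBar (M * p)),
      (p : ℤ) * (E : Divisor Qb ↥(modularFunctionFieldBar (M * p))) v = v.ord u1 := by
    intro v
    rw [hdiv v, hordu v]
  -- the eigen-relation
  obtain ⟨c', h', hc'0, hh'0, heig⟩ := h67_eig_char0_bar (M * p) ℓ hℓ p E u1 hu1.1 hdiv1 a hT
  -- the predicates
  have hTρ : ∀ (γ : ↥(A.inertiaSubgroupIn ℚ)) (f : ↥(modularFunctionFieldBar (M * p))),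
      ρ γ (h12_ejT (M * p) ℓ f) = h12_ejT (M * p) ℓ (ρ γ f) := by
    intro γ f
    rw [hρ, hρ]
    exact (h2_normBeta_galois (M * p) ℓ (γ : Γℚ) f).symm
  have hT1 : ∀ f : ↥(modularFunctionFieldBar (M * p)),
      (h43_IsRUnit (h60_R1 M p hpM A hA) f ∧ ∀ γ : ↥(A.inertiaSubgroupIn ℚ),
        ρ γ (algebraMap Qb ↥(modularFunctionFieldBar (M * p)) w) =
          algebraMap Qb ↥(modularFunctionFieldBar (M * p)) w → ρ γ f = f) →
      (h43_IsRUnit (h60_R1 M p hpM A hA) (h12_ejT (M * p) ℓ f) ∧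
        ∀ γ : ↥(A.inertiaSubgroupIn ℚ),
        ρ γ (algebraMap Qb ↥(modularFunctionFieldBar (M * p)) w) =
          algebraMap Qb ↥(modularFunctionFieldBar (M * p)) w →
        ρ γ (h12_ejT (M * p) ℓ f) = h12_ejT (M * p) ℓ f) := by
    intro f hf
    obtain ⟨h1, h2⟩ := h2_normBeta_unit_R1 M p hpM ℓ hpMℓ A hA f
      (h43_redF_unit_ne_zero _ hf.1)
    refine ⟨⟨?_, h1, (h39_inv_of_redF_ne_zero _ h2).1⟩, fun γ hγ => ?_⟩
    · intro h0
      apply h2
      have : h67_normAlong (heckeAlphaBar Qb (M * p) ℓ) (heckeBetaBar Qb (M * p) ℓ f) = 0 := h0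
      rw [this, h39_redF_zero]
    · rw [hTρ, hf.2 γ hγ]
  have hT2 : ∀ f : ↥(modularFunctionFieldBar (M * p)),
      (h43_IsRUnit (h60_R2 M p hpM A hA) f ∧ ∀ γ : ↥(A.inertiaSubgroupIn ℚ),
        ρ γ (algebraMap Qb ↥(modularFunctionFieldBar (M * p)) w) =
          algebraMap Qb ↥(modularFunctionFieldBar (M * p)) w → ρ γ f = f) →
      (h43_IsRUnit (h60_R2 M p hpM A hA) (h12_ejT (M * p) ℓ f) ∧
        ∀ γ : ↥(A.inertiaSubgroupIn ℚ),
        ρ γ (algebraMap Qb ↥(modularFunctionFieldBar (M * p)) w) =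
          algebraMap Qb ↥(modularFunctionFieldBar (M * p)) w →
        ρ γ (h12_ejT (M * p) ℓ f) = h12_ejT (M * p) ℓ f) := by
    intro f hf
    obtain ⟨h1, h2⟩ := h2_normBeta_unit_R2 M p hpM ℓ hpMℓ A hA f
      (h43_redF_unit_ne_zero _ hf.1)
    refine ⟨⟨?_, h1, (h39_inv_of_redF_ne_zero _ h2).1⟩, fun γ hγ => ?_⟩
    · intro h0
      apply h2
      have : h67_normAlong (heckeAlphaBar Qb (M * p) ℓ) (heckeBetaBar Qb (M * p) ℓ f) = 0 := h0
      rw [this, h39_redF_zero]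
    · rw [hTρ, hf.2 γ hγ]
  have hTπ : h12_ejT (M * p) ℓ (algebraMap Qb ↥(modularFunctionFieldBar (M * p)) (p : Qb)) =
      algebraMap Qb ↥(modularFunctionFieldBar (M * p)) (p : Qb) ^
        finrankAlong Qb (heckeAlphaBar Qb (M * p) ℓ) := by
    rw [h12_ejT_apply, h2_normBeta_const, map_pow]
  have hna : ¬ (p : ℤ) ∣ ((finrankAlong Qb (heckeAlphaBar Qb (M * p) ℓ) : ℕ) : ℤ) - a := by
    rw [hfin]
    push_cast
    exact ha
  have key := h12_ej_coef (h60_R1 M p hpM A hA) (h60_R2 M p hpM A hA)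
    (fun f : ↥(modularFunctionFieldBar (M * p)) =>
      h43_IsRUnit (h60_R1 M p hpM A hA) f ∧ ∀ γ : ↥(A.inertiaSubgroupIn ℚ),
        ρ γ (algebraMap Qb ↥(modularFunctionFieldBar (M * p)) w) =
          algebraMap Qb ↥(modularFunctionFieldBar (M * p)) w → ρ γ f = f)
    (fun f : ↥(modularFunctionFieldBar (M * p)) =>
      h43_IsRUnit (h60_R2 M p hpM A hA) f ∧ ∀ γ : ↥(A.inertiaSubgroupIn ℚ),
        ρ γ (algebraMap Qb ↥(modularFunctionFieldBar (M * p)) w) =
          algebraMap Qb ↥(modularFunctionFieldBar (M * p)) w → ρ γ f = f)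
    (fun f hf => hf.1)
    (fun f => h28_coef ρ p (algebraMap Qb ↥(modularFunctionFieldBar (M * p)) w) g f 0)
    (fun f => h28_coef ρ p (algebraMap Qb ↥(modularFunctionFieldBar (M * p)) w) g f 1)
    p lam hlam
    (algebraMap Qb ↥(modularFunctionFieldBar (M * p)) (p : Qb)) hπ0 (h12_ejT (M * p) ℓ)
    (finrankAlong Qb (heckeAlphaBar Qb (M * p) ℓ)) hTπ a hna
    Q1
    (fun u1' u2' κ' h1 h2 h12 hd => hW7 u1' u2' κ' h1.1 h1.2 h2.1 h2.2 h12 hd)
    hT1 hT2
    (fun f Γ hf hΓ => h12_ej_nj_datum M p A hA ℓ (h60_R1 M p hpM A hA) (h60_R1_A M p hpM A hA)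
      (fun f' hf0 hfix => h15w_int1 M p hpM A hA f' hf0 hfix)
      (fun f' hf' => h2_normBeta_mem_R1 M p hpM ℓ hpMℓ A hA f' hf')
      (fun c0 t ht wc gam hwc hgam => h10_nj_R1 M p ℓ hpMℓ hpM A hA c0 t ht wc gam hwc hgam)
      ρ hρ z w hz hw g hdist horb f Γ hf.1 hf.2 hΓ)
    (fun f Γ hf hΓ => h12_ej_nj_datum M p A hA ℓ (h60_R2 M p hpM A hA) (h60_R2_A M p hpM A hA)
      (fun f' hf0 hfix => h15w_int2 M p hpM A hA f' hf0 hfix)
      (fun f' hf' => h2_normBeta_mem_R2 M p hpM ℓ hpMℓ A hA f' hf')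
      (fun c0 t ht wc gam hwc hgam => h10_nj_R2 M p ℓ hpMℓ hpM A hA c0 t ht wc gam hwc hgam)
      ρ hρ z w hz hw g hdist horb f Γ hf.1 hf.2 hΓ)
    u1 u2 κ ⟨hu1, hu1H⟩ ⟨hu2, hu2H⟩ hu12
    (fun v => ⟨(E : Divisor Qb ↥(modularFunctionFieldBar (M * p))) v, (hdiv1 v).symm⟩)
    ⟨c', h', hc'0, hh'0, heig⟩
  intro ν
  have h1 := key ν
  rw [huu1, h43_rord_mul _ _ hc' hu1.1, h43_rord_algebraMap, zero_add, h43_rord_of_unit _ _ hu1]
  exact h1

end main

end Fermat.Agent.S40
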