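/-
S40 (G40), row T8 (END-JET): the jet wrapper of `h12_t8_jet` (helper12).

`h12_t8_of_jets` : (T8) at a charted level `M p` with

* the W7 statement for every datum in the JET shape of `h12_ej_gen` / `h15w_datum_of_w7`
  (`S_i := h25_SH R_i (h25_rho (M p) I) w`, `J_i` with (Je) `J_i f = h25_jetFun ..`,
  `h38_IsOm J_i ⟨u_i, _⟩ (algebraMap Γ_i)`),
* the datum `(c, κ, u₁, u₂)` in the output shape of `h15w_datum_of_w7` / `h11_hscale_pair`
  (`u₁ = u / c`, units, fixed by the stabiliser of `w` in the `arithmeticGalois` form).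
-/
import Mathlib
import Fermat.Agent.S40.h12_EndJetMod
import Fermat.Agent.S40.h25_JetMod

set_option autoImplicit false
set_option synthInstance.maxHeartbeats 400000

noncomputable section

open ModularCurve AlgebraicCurve

namespace Fermat.Agent.S40

open Fermat.Agent.GAL Fermat.Agent.S37 Fermat.Agent.S34 Fermat.Agent.S18 Fermat.Agent.S24
  Fermat.Agent.S36

local notation "Qb" => AlgebraicClosure ℚ
local notation "Γℚ" => (AlgebraicClosure ℚ ≃ₐ[ℚ] AlgebraicClosure ℚ)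

section

variable (M p : ℕ) [NeZero M] [NeZero p] [Fact p.Prime] (hpM : ¬ p ∣ M)
  (A : ValuationSubring Qb) (hA : A.LiesOverPrime p) (ℓ : ℕ) [NeZero ℓ]

include hA in
set_option maxHeartbeats 1600000 in
/-- **(T8-JET), jet form.**  W7 for every datum (jet shape) + the datum of the class + the
eigen-relation give `p ∣ h43_rord R1 (Q1 ν) u` at every node. -/
theorem h12_t8_of_jets (hℓ : ℓ.Prime) (hℓMp : ¬ ℓ ∣ M * p) (hpMℓ : ¬ p ∣ M * ℓ)
    [CharP (IsLocalRing.ResidueField A) p]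
    (a : ℤ) (ha : ¬ (p : ℤ) ∣ (ℓ : ℤ) + 1 - a)
    (z w : Qb) (hz : A.valuation z = 1) (hw : (1 + w) ^ p = 1 + (p : Qb) * z)
    (g : Fin p → ↥(A.inertiaSubgroupIn ℚ))
    (hdist : Function.Injective fun i => h25_rho (M * p) (A.inertiaSubgroupIn ℚ) (g i)
      (algebraMap Qb ↥(modularFunctionFieldBar (M * p)) w))
    (horb : ∀ γ : ↥(A.inertiaSubgroupIn ℚ), ∃ i,
      h25_rho (M * p) (A.inertiaSubgroupIn ℚ) γ
          (algebraMap Qb ↥(modularFunctionFieldBar (M * p)) w) =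
        h25_rho (M * p) (A.inertiaSubgroupIn ℚ) (g i)
          (algebraMap Qb ↥(modularFunctionFieldBar (M * p)) w))
    (J1 : ↥(h25_SH (h60_R1 M p hpM A hA) (h25_rho (M * p) (A.inertiaSubgroupIn ℚ))
        (algebraMap Qb ↥(modularFunctionFieldBar (M * p)) w)) →+*
      TrivSqZeroExt ↥(modularFunctionFieldFullC (IsLocalRing.ResidueField A) M)
        ↥(modularFunctionFieldFullC (IsLocalRing.ResidueField A) M))
    (hJe1 : ∀ f, J1 f = h25_jetFun (h60_R1 M p hpM A hA)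
      (h25_rho (M * p) (A.inertiaSubgroupIn ℚ)) p
      (algebraMap Qb ↥(modularFunctionFieldBar (M * p)) w) g
      (f : ↥(modularFunctionFieldBar (M * p))))
    (J2 : ↥(h25_SH (h60_R2 M p hpM A hA) (h25_rho (M * p) (A.inertiaSubgroupIn ℚ))
        (algebraMap Qb ↥(modularFunctionFieldBar (M * p)) w)) →+*
      TrivSqZeroExt ↥(modularFunctionFieldFullC (IsLocalRing.ResidueField A) M)
        ↥(modularFunctionFieldFullC (IsLocalRing.ResidueField A) M))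
    (hJe2 : ∀ f, J2 f = h25_jetFun (h60_R2 M p hpM A hA)
      (h25_rho (M * p) (A.inertiaSubgroupIn ℚ)) p
      (algebraMap Qb ↥(modularFunctionFieldBar (M * p)) w) g
      (f : ↥(modularFunctionFieldBar (M * p))))
    (lam : IsLocalRing.ResidueField A) (hlam : lam ≠ 0)
    {Z : Type*} (Q1 : Z → Place (IsLocalRing.ResidueField A)
      ↥(modularFunctionFieldFullC (IsLocalRing.ResidueField A) M))
    (hW7 : ∀ (u1 u2 : ↥(modularFunctionFieldBar (M * p)))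
      (hu1 : u1 ∈ h25_SH (h60_R1 M p hpM A hA) (h25_rho (M * p) (A.inertiaSubgroupIn ℚ))
        (algebraMap Qb ↥(modularFunctionFieldBar (M * p)) w))
      (_ : u1⁻¹ ∈ h25_SH (h60_R1 M p hpM A hA) (h25_rho (M * p) (A.inertiaSubgroupIn ℚ))
        (algebraMap Qb ↥(modularFunctionFieldBar (M * p)) w))
      (hu2 : u2 ∈ h25_SH (h60_R2 M p hpM A hA) (h25_rho (M * p) (A.inertiaSubgroupIn ℚ))
        (algebraMap Qb ↥(modularFunctionFieldBar (M * p)) w))
      (_ : u2⁻¹ ∈ h25_SH (h60_R2 M p hpM A hA) (h25_rho (M * p) (A.inertiaSubgroupIn ℚ))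
        (algebraMap Qb ↥(modularFunctionFieldBar (M * p)) w)) (κ' : ℤ), u1 ≠ 0 →
      u1 = algebraMap Qb ↥(modularFunctionFieldBar (M * p)) (p : Qb) ^ κ' * u2 →
      (∀ v : Place Qb ↥(modularFunctionFieldBar (M * p)), (p : ℤ) ∣ v.ord u1) →
      ∃ Γ₁ Γ₂ : IsLocalRing.ResidueField A,
        h38_IsOm J1 ⟨u1, hu1⟩ (algebraMap (IsLocalRing.ResidueField A)
          ↥(modularFunctionFieldFullC (IsLocalRing.ResidueField A) M) Γ₁) ∧
        h38_IsOm J2 ⟨u2, hu2⟩ (algebraMap (IsLocalRing.ResidueField A)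
          ↥(modularFunctionFieldFullC (IsLocalRing.ResidueField A) M) Γ₂) ∧
        ∀ ν, Γ₂ - Γ₁ = (((Q1 ν).ord ((h60_R1 M p hpM A hA).redF u1) - κ' : ℤ) :
          IsLocalRing.ResidueField A) * lam)
    (E : Divisor.degZero (K := Qb) (F := modularFunctionFieldBar (M * p)))
    (u : ↥(modularFunctionFieldBar (M * p)))
    (hdiv : ∀ v : Place Qb ↥(modularFunctionFieldBar (M * p)),
      (p : ℤ) * (E : Divisor Qb ↥(modularFunctionFieldBar (M * p))) v = v.ord u)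
    (hT : heckeOperatorBar (M * p) ⟨ℓ, hℓ⟩ (Pic0.mk E) = a • Pic0.mk E)
    (c : Qb) (hc : c ≠ 0) (κ : ℤ) (u₁ u₂ : ↥(modularFunctionFieldBar (M * p)))
    (hu₁ : u₁ = u / algebraMap Qb ↥(modularFunctionFieldBar (M * p)) c)
    (h12 : u₁ = algebraMap Qb ↥(modularFunctionFieldBar (M * p)) (p : Qb) ^ κ * u₂)
    (hR1 : u₁ ∈ (h60_R1 M p hpM A hA).O ∧ u₁⁻¹ ∈ (h60_R1 M p hpM A hA).O ∧
      (h60_R1 M p hpM A hA).redF u₁ ≠ 0)
    (hR2 : u₂ ∈ (h60_R2 M p hpM A hA).O ∧ u₂⁻¹ ∈ (h60_R2 M p hpM A hA).O ∧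
      (h60_R2 M p hpM A hA).redF u₂ ≠ 0)
    (hfix : ∀ σ ∈ A.inertiaSubgroupIn ℚ, σ w = w →
      arithmeticGalois (modularFunctionFieldFull (M * p)) σ • u₁ = u₁ ∧
      arithmeticGalois (modularFunctionFieldFull (M * p)) σ • u₁⁻¹ = u₁⁻¹ ∧
      arithmeticGalois (modularFunctionFieldFull (M * p)) σ • u₂ = u₂ ∧
      arithmeticGalois (modularFunctionFieldFull (M * p)) σ • u₂⁻¹ = u₂⁻¹) :
    ∀ ν, (p : ℤ) ∣ h43_rord (h60_R1 M p hpM A hA) (Q1 ν) u := by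
  have hinj : Function.Injective (algebraMap Qb ↥(modularFunctionFieldBar (M * p))) :=
    (algebraMap Qb ↥(modularFunctionFieldBar (M * p))).injective
  have hcF : algebraMap Qb ↥(modularFunctionFieldBar (M * p)) c ≠ 0 := (map_ne_zero _).mpr hc
  have hu10 : u₁ ≠ 0 := by
    rintro rfl
    exact hR1.2.2 (h39_redF_zero _)
  have hu20 : u₂ ≠ 0 := by
    rintro rfl
    exact hR2.2.2 (h39_redF_zero _)
  have hstab : ∀ γ : ↥(A.inertiaSubgroupIn ℚ),
      h25_rho (M * p) (A.inertiaSubgroupIn ℚ) γ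
          (algebraMap Qb ↥(modularFunctionFieldBar (M * p)) w) =
        algebraMap Qb ↥(modularFunctionFieldBar (M * p)) w → (γ : Γℚ) w = w := by
    intro γ hγ
    rw [h25_rho_algebraMap] at hγ
    exact hinj hγ
  refine h12_t8_jet M p hpM A hA ℓ hℓ hℓMp hpMℓ a ha (h25_rho (M * p) (A.inertiaSubgroupIn ℚ))
    (fun _ _ => rfl) z w hz hw g hdist horb lam hlam Q1 ?_ E u hdiv hT c hc u₁ u₂ κ ?_
    ⟨hu10, hR1.1, hR1.2.1⟩ (fun γ hγ => (hfix γ γ.2 (hstab γ hγ)).1)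
    ⟨hu20, hR2.1, hR2.2.1⟩ (fun γ hγ => (hfix γ γ.2 (hstab γ hγ)).2.2.1) h12
  · intro u1 u2 κ' h1 h1H h2 h2H h12' hd
    have hu1S : u1 ∈ h25_SH (h60_R1 M p hpM A hA) (h25_rho (M * p) (A.inertiaSubgroupIn ℚ))
        (algebraMap Qb ↥(modularFunctionFieldBar (M * p)) w) := ⟨h1.2.1, h1H⟩
    have hu1iS : u1⁻¹ ∈ h25_SH (h60_R1 M p hpM A hA) (h25_rho (M * p) (A.inertiaSubgroupIn ℚ))
        (algebraMap Qb ↥(modularFunctionFieldBar (M * p)) w) :=
      ⟨h1.2.2, fun γ hγ => by rw [map_inv₀, h1H γ hγ]⟩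
    have hu2S : u2 ∈ h25_SH (h60_R2 M p hpM A hA) (h25_rho (M * p) (A.inertiaSubgroupIn ℚ))
        (algebraMap Qb ↥(modularFunctionFieldBar (M * p)) w) := ⟨h2.2.1, h2H⟩
    have hu2iS : u2⁻¹ ∈ h25_SH (h60_R2 M p hpM A hA) (h25_rho (M * p) (A.inertiaSubgroupIn ℚ))
        (algebraMap Qb ↥(modularFunctionFieldBar (M * p)) w) :=
      ⟨h2.2.2, fun γ hγ => by rw [map_inv₀, h2H γ hγ]⟩
    obtain ⟨Γ₁, Γ₂, e1, e2, e3⟩ := hW7 u1 u2 hu1S hu1iS hu2S hu2iS κ' h1.1 h12' hd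
    refine ⟨Γ₁, Γ₂, ?_, ?_, e3⟩
    · unfold h38_IsOm at e1
      rw [hJe1, h25_jetFun_snd, h25_jetFun_fst] at e1
      exact e1
    · unfold h38_IsOm at e2
      rw [hJe2, h25_jetFun_snd, h25_jetFun_fst] at e2
      exact e2
  · rw [hu₁, mul_div_cancel₀ _ hcF]

end

end Fermat.Agent.S40
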