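/-
S40 (G40), row W0 -> W9 glue (helper12): the case split of W0 (b) in MODULE form.

Setting: `V` an abelian group with an action of `Γℚ = Gal(ℚ̄/ℚ)`, `I` the inertia group of a
place `A` over `p`, `x, l0 ∈ V` with `g x - x = c(g) l0`, `g l0 = a(g) l0`, `g ζ = ζ ^ a(g)` on
`I` (`l0 ≠ 0`, `p l0 = 0`, `ζ` a primitive `p`-th root of unity).

* `h12_fix_iff_of_kummer` : a Kummer element `e ≠ 0` of the cocycle (`g e = ζ ^ c(g) e` on `I`)
  satisfies `g e = e ↔ g x = x` on `I`.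
* `h12_front_cases` : for such an `e` with `v(e ^ p) = v(p) ^ (p m)` (peu ramifie, the output of
  `h67_front_peu`): EITHER `x - i l0` is `I`-fixed for some `i`, OR there are a unit `z` fixed by
  `I` and `w` with `(1 + w) ^ p = 1 + p z`, `g (1 + w) = ζ ^ c(g) (1 + w)` and
  `g w = w ↔ g x = x` on `I` (and `e = c0 (1 + w)` with `c0 ≠ 0` fixed by `I`).
* `h12_line_cases` : the same with the Kummer element produced by Hilbert 90
  (`h12_kummer_of_line`) from a finite extension through which the action on `x` factors.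
-/
import Mathlib
import Fermat.Agent.S40.h12_KummerEis

set_option autoImplicit false

namespace Fermat.Agent.S40

local notation "Qb" => AlgebraicClosure ℚ
local notation "Γℚ" => (AlgebraicClosure ℚ ≃ₐ[ℚ] AlgebraicClosure ℚ)

/-- A Kummer element of the cocycle `c` of `x` modulo the line `⟨l0⟩` is fixed by exactly the
elements of `S` that fix `x`. -/
theorem h12_fix_iff_of_kummer {V : Type*} [AddCommGroup V] [DistribMulAction Γℚ V] (p : ℕ)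
    [Fact p.Prime] (S : Subgroup Γℚ) (ζ : Qb) (hζ : IsPrimitiveRoot ζ p)
    (x l0 : V) (hl0 : l0 ≠ 0) (hpl0 : p • l0 = 0) (c : Γℚ → ℕ)
    (hx : ∀ g ∈ S, g • x - x = c g • l0)
    (e : Qb) (he0 : e ≠ 0) (he : ∀ g ∈ S, g e = ζ ^ c g * e) :
    ∀ g ∈ S, (g e = e ↔ g • x = x) := by
  intro g hg
  have hiff := h12_nsmul_eq_iff p ζ hζ l0 hl0 hpl0 (c g) 0
  rw [zero_smul, pow_zero] at hiff
  rw [he g hg, ← sub_eq_zero (a := g • x), hx g hg, hiff]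
  constructor
  · intro h
    exact mul_right_cancel₀ he0 (by rw [h, one_mul])
  · intro h
    rw [h, one_mul]

/-- **(W0 → W9), peu ramifie case split in module form.**  `e` a Kummer element of the cocycle
of `x` modulo `⟨l0⟩` on the inertia group with `v(e ^ p) = v(p) ^ (p m)`. -/
theorem h12_front_cases {V : Type*} [AddCommGroup V] [DistribMulAction Γℚ V] (p : ℕ)
    [Fact p.Prime] (hp2 : p ≠ 2) (A : ValuationSubring Qb) (hA : A.LiesOverPrime p)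
    (ζ : Qb) (hζ : IsPrimitiveRoot ζ p)
    (x l0 : V) (hl0 : l0 ≠ 0) (hpl0 : p • l0 = 0) (c a : Γℚ → ℕ)
    (hx : ∀ g ∈ A.inertiaSubgroupIn ℚ, g • x - x = c g • l0)
    (hl : ∀ g ∈ A.inertiaSubgroupIn ℚ, g • l0 = a g • l0)
    (hζa : ∀ g ∈ A.inertiaSubgroupIn ℚ, g ζ = ζ ^ a g)
    (e : Qb) (he0 : e ≠ 0) (he : ∀ g ∈ A.inertiaSubgroupIn ℚ, g e = ζ ^ c g * e)
    (m : ℤ) (hm : A.valuation (e ^ p) = A.valuation (p : Qb) ^ ((p : ℤ) * m)) :
    (∃ i : ℕ, ∀ g ∈ A.inertiaSubgroupIn ℚ, g • (x - i • l0) = x - i • l0) ∨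
    (∃ z w : Qb, A.valuation z = 1 ∧ (∀ g ∈ A.inertiaSubgroupIn ℚ, g z = z) ∧
      (1 + w) ^ p = 1 + (p : Qb) * z ∧
      (∀ g ∈ A.inertiaSubgroupIn ℚ, g (1 + w) = ζ ^ c g * (1 + w)) ∧
      (∀ g ∈ A.inertiaSubgroupIn ℚ, (g w = w ↔ g • x = x)) ∧
      ∃ c0 : Qb, c0 ≠ 0 ∧ (∀ g ∈ A.inertiaSubgroupIn ℚ, g c0 = c0) ∧ e = c0 * (1 + w)) := by
  have hp : p.Prime := Fact.out
  have hiff := h12_nsmul_eq_iff p ζ hζ l0 hl0 hpl0
  have hefix := h12_fix_iff_of_kummer p (A.inertiaSubgroupIn ℚ) ζ hζ x l0 hl0 hpl0 c hx e he0 he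
  have hφp : ∀ g ∈ A.inertiaSubgroupIn ℚ, (ζ ^ c g) ^ p = 1 := by
    intro g _
    rw [← pow_mul, mul_comm, pow_mul, hζ.pow_eq_one, one_pow]
  rcases h12_kummer_cases p hp2 A hA ζ hζ (fun g => ζ ^ c g) hφp e he0 he m hm with
    ⟨i, hi⟩ | ⟨z, w, hz, hzI, hw, hgw, c0, hc0, hc0I, hec0⟩
  · left
    refine ⟨i, fun g hg => ?_⟩
    have h1 := hi g hg
    rw [map_pow, hζa g hg, ← pow_mul, ← pow_add] at h1
    have h2 : (a g * i) • l0 = (c g + i) • l0 := (hiff _ _).2 h1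
    have h3 : g • (i • l0) = (c g + i) • l0 := by
      rw [smul_comm g i l0, hl g hg, ← mul_smul, mul_comm, h2]
    have h4 : g • x = x + c g • l0 := by
      rw [← hx g hg]
      abel
    rw [smul_sub, h3, h4, add_smul]
    abel
  · right
    refine ⟨z, w, hz, hzI, hw, hgw, ?_, c0, hc0, hc0I, hec0⟩
    intro g hg
    have ht0 := (h12_eis_ne_zero p A hA z w hz hw).1
    rw [h12_eis_fix_iff, ← hefix g hg, he g hg, hgw g hg]
    constructor
    · intro h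
      have h1 : ζ ^ c g = 1 := mul_right_cancel₀ ht0 (by rw [h, one_mul])
      rw [h1, one_mul]
    · intro h
      have h1 : ζ ^ c g = 1 := mul_right_cancel₀ he0 (by rw [h, one_mul])
      rw [h1, one_mul]

/-- **(W0 → W9).** Kummer element of the line (Hilbert 90) and the case split, in module
form. -/
theorem h12_line_cases {V : Type*} [AddCommGroup V] [DistribMulAction Γℚ V] (p : ℕ)
    [Fact p.Prime] (hp2 : p ≠ 2) (A : ValuationSubring Qb) (hA : A.LiesOverPrime p)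
    (ζ : Qb) (hζ : IsPrimitiveRoot ζ p)
    (x l0 : V) (hl0 : l0 ≠ 0) (hpl0 : p • l0 = 0) (c a : Γℚ → ℕ)
    (hx : ∀ g ∈ A.inertiaSubgroupIn ℚ, g • x - x = c g • l0)
    (hl : ∀ g ∈ A.inertiaSubgroupIn ℚ, g • l0 = a g • l0)
    (hζa : ∀ g ∈ A.inertiaSubgroupIn ℚ, g ζ = ζ ^ a g)
    (E : IntermediateField ℚ Qb) [FiniteDimensional ℚ E]
    (hEx : ∀ u : Γℚ, (∀ b ∈ E, u b = b) → u • x = x) :
    ∃ e : Qb, e ≠ 0 ∧ (∀ g ∈ A.inertiaSubgroupIn ℚ, g e = ζ ^ c g * e) ∧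
      (∀ g ∈ A.inertiaSubgroupIn ℚ, g (e ^ p) = e ^ p) ∧
      (∀ g ∈ A.inertiaSubgroupIn ℚ, (g e = e ↔ g • x = x)) ∧
      ((∃ m : ℤ, A.valuation (e ^ p) = A.valuation (p : Qb) ^ ((p : ℤ) * m)) →
        (∃ i : ℕ, ∀ g ∈ A.inertiaSubgroupIn ℚ, g • (x - i • l0) = x - i • l0) ∨
        (∃ z w : Qb, A.valuation z = 1 ∧ (∀ g ∈ A.inertiaSubgroupIn ℚ, g z = z) ∧
          (1 + w) ^ p = 1 + (p : Qb) * z ∧
          (∀ g ∈ A.inertiaSubgroupIn ℚ, g (1 + w) = ζ ^ c g * (1 + w)) ∧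
          (∀ g ∈ A.inertiaSubgroupIn ℚ, (g w = w ↔ g • x = x)) ∧
          ∃ c0 : Qb, c0 ≠ 0 ∧ (∀ g ∈ A.inertiaSubgroupIn ℚ, g c0 = c0) ∧ e = c0 * (1 + w))) := by
  obtain ⟨e, he0, he, heκ, hefix⟩ := h12_kummer_of_line p (A.inertiaSubgroupIn ℚ) ζ hζ x l0 hl0
    hpl0 c a hx hl hζa E hEx
  refine ⟨e, he0, he, heκ, hefix, ?_⟩
  rintro ⟨m, hm⟩
  exact h12_front_cases p hp2 A hA ζ hζ x l0 hl0 hpl0 c a hx hl hζa e he0 he m hm

end Fermat.Agent.S40
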