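import Mathlib
import Fermat.Agent.S40.h15_WNormMod
import Fermat.Agent.S40.h38_JumpGen

/-!
# S40 / row W8 (W-NORM): (TH0 by count) from the W7 output  (helper15)

* `h15w_th0_of_w7` (generic): the W7 statement "for every datum" (verbatim the hypothesis `hW7` of
  `h12_ej_gen`) applied to a datum `(u₁, u₂)` whose two members are FIXED (so their jets are
  constant, `(Ja)`): then `Γ₁ = Γ₂ = 0`, and `lam ≠ 0` gives `p ∣ ord_{Q1 ν} red₁ u₁ - m`.
* `h15w_kappa_of_w7` : **W8 at a charted level from W7 over the auxiliary field**: the modular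
  instance `h15w_kappa_mod` with its hypothesis `hTH0` discharged by `h15w_th0_of_w7`.
-/

set_option autoImplicit false
set_option synthInstance.maxHeartbeats 400000
set_option maxHeartbeats 1000000

noncomputable section

open ModularCurve AlgebraicCurve

namespace Fermat.Agent.S40

open Fermat.Agent.S18 Fermat.Agent.S34 Fermat.Agent.S36

local notation "Qb" => AlgebraicClosure ℚ
local notation "Γℚ" => (AlgebraicClosure ℚ ≃ₐ[ℚ] AlgebraicClosure ℚ)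

section Gen

variable {K F k Fb : Type*} [Field K] [Field F] [Algebra K F] [Field k] [Field Fb] [Algebra k Fb]

/-- **(TH0 by count) from W7.**  `hW7` is the W7 statement for every datum (the shape consumed by
`h12_ej_gen`); `Fix` is a predicate ("inertia-fixed") whose members have constant jets
(`hJa1`, `hJa2` = (Ja)).  For a FIXED datum `u₁ = π ^ m * u₂` of units the jump relation
degenerates to `p ∣ ord_{Q1 ν} (red₁ u₁) - m`. -/
theorem h15w_th0_of_w7 (R1 R2 : h39_RedDatum K F k Fb) (S1 S2 : Subring F)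
    (J1 : S1 →+* TrivSqZeroExt Fb Fb) (J2 : S2 →+* TrivSqZeroExt Fb Fb)
    (hJ1 : ∀ f : S1, (J1 f).fst = R1.redF f) (hJ2 : ∀ f : S2, (J2 f).fst = R2.redF f)
    (p : ℕ) [CharP k p] (lam : k) (hlam : lam ≠ 0)
    (π : F) {Z : Type*} (Q1 : Z → Place k Fb)
    (hW7 : ∀ (u1 u2 : F) (hu1 : u1 ∈ S1) (_ : u1⁻¹ ∈ S1) (hu2 : u2 ∈ S2) (_ : u2⁻¹ ∈ S2)
      (κ' : ℤ), u1 ≠ 0 → u1 = π ^ κ' * u2 → (∀ v : Place K F, (p : ℤ) ∣ v.ord u1) →
      ∃ Γ₁ Γ₂ : k, h38_IsOm J1 ⟨u1, hu1⟩ (algebraMap k Fb Γ₁) ∧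
        h38_IsOm J2 ⟨u2, hu2⟩ (algebraMap k Fb Γ₂) ∧
        ∀ ν, Γ₂ - Γ₁ = (((Q1 ν).ord (R1.redF u1) - κ' : ℤ) : k) * lam)
    (Fix : F → Prop) (hFixinv : ∀ f, Fix f → Fix f⁻¹)
    (hJa1 : ∀ f, Fix f → f ∈ R1.O → ∃ hf : f ∈ S1, (J1 ⟨f, hf⟩).snd = 0)
    (hJa2 : ∀ f, Fix f → f ∈ R2.O → ∃ hf : f ∈ S2, (J2 ⟨f, hf⟩).snd = 0)
    (u1 u2 : F) (hF1 : Fix u1) (hF2 : Fix u2) (h1 : R1.redF u1 ≠ 0) (h2 : R2.redF u2 ≠ 0)
    (m : ℤ) (hu12 : u1 = π ^ m * u2) (hdiv : ∀ v : Place K F, (p : ℤ) ∣ v.ord u1) (ν : Z) :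
    (p : ℤ) ∣ (Q1 ν).ord (R1.redF u1) - m := by
  have hu1O : u1 ∈ R1.O := h39_mem_of_redF_ne_zero R1 h1
  have hu2O : u2 ∈ R2.O := h39_mem_of_redF_ne_zero R2 h2
  obtain ⟨hS1, hs1⟩ := hJa1 u1 hF1 hu1O
  obtain ⟨hS1i, -⟩ := hJa1 u1⁻¹ (hFixinv u1 hF1) (h39_inv_of_redF_ne_zero R1 h1).1
  obtain ⟨hS2, hs2⟩ := hJa2 u2 hF2 hu2O
  obtain ⟨hS2i, -⟩ := hJa2 u2⁻¹ (hFixinv u2 hF2) (h39_inv_of_redF_ne_zero R2 h2).1
  have hu10 : u1 ≠ 0 := by
    rintro rfl
    exact h1 (h39_redF_zero R1)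
  obtain ⟨Γ₁, Γ₂, hΓ1, hΓ2, hν⟩ := hW7 u1 u2 hS1 hS1i hS2 hS2i m hu10 hu12 hdiv
  have hΓ1' : Γ₁ = 0 := by
    unfold h38_IsOm at hΓ1
    rw [hs1, hJ1] at hΓ1
    exact (map_eq_zero (algebraMap k Fb)).mp ((mul_eq_zero.mp hΓ1.symm).resolve_right h1)
  have hΓ2' : Γ₂ = 0 := by
    unfold h38_IsOm at hΓ2
    rw [hs2, hJ2] at hΓ2
    exact (map_eq_zero (algebraMap k Fb)).mp ((mul_eq_zero.mp hΓ2.symm).resolve_right h2)
  have h := hν ν
  rw [hΓ1', hΓ2', sub_zero] at h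
  exact (CharP.intCast_eq_zero_iff k p _).mp ((mul_eq_zero.mp h.symm).resolve_right hlam)

end Gen

section Mod

variable (M p : ℕ) [NeZero M] [NeZero p] [Fact p.Prime] (hpM : ¬ p ∣ M)
  (A : ValuationSubring Qb) (hA : A.LiesOverPrime p)
  [CharP (IsLocalRing.ResidueField A) p]

/-- **W8 (W-NORM) at a charted level, from W7 over an auxiliary field.**
`S1, S2, J1, J2, lam, Q1` : the jet data of ANY Kummer pair for which W7 holds for every datum
(`hW7`, verbatim the shape of `h12_ej_gen`, `π = p`) and whose jets are constant on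
inertia-fixed functions (`hJa1`, `hJa2` = (Ja)) - in the application the auxiliary pair
`(z, w#) = (1, (1 + p)^(1/p) - 1)` of `h12_exists_aux`; `ν₀` : one node.
`w, g` : the Kummer element of the class at hand with its inertia orbit; `u` fixed by the
stabiliser of `w`, `p E = div u`, `u / c₁` an `R₁`-unit.  Then `u / (c₁ p ^ κ)` is an `R₂`-unit
for some `κ : ℤ`. -/
theorem h15w_kappa_of_w7
    (S1 S2 : Subring ↥(modularFunctionFieldBar (M * p)))
    (J1 : S1 →+* TrivSqZeroExt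
      ↥(modularFunctionFieldFullC (IsLocalRing.ResidueField A) M)
      ↥(modularFunctionFieldFullC (IsLocalRing.ResidueField A) M))
    (J2 : S2 →+* TrivSqZeroExt
      ↥(modularFunctionFieldFullC (IsLocalRing.ResidueField A) M)
      ↥(modularFunctionFieldFullC (IsLocalRing.ResidueField A) M))
    (hJ1 : ∀ f : S1, (J1 f).fst = (h60_R1 M p hpM A hA).redF f)
    (hJ2 : ∀ f : S2, (J2 f).fst = (h60_R2 M p hpM A hA).redF f)
    (lam : IsLocalRing.ResidueField A) (hlam : lam ≠ 0)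
    {Z : Type*} (Q1 : Z → Place (IsLocalRing.ResidueField A)
      ↥(modularFunctionFieldFullC (IsLocalRing.ResidueField A) M)) (ν₀ : Z)
    (hW7 : ∀ (u1 u2 : ↥(modularFunctionFieldBar (M * p))) (hu1 : u1 ∈ S1) (_ : u1⁻¹ ∈ S1)
      (hu2 : u2 ∈ S2) (_ : u2⁻¹ ∈ S2) (κ' : ℤ), u1 ≠ 0 →
      u1 = algebraMap Qb ↥(modularFunctionFieldBar (M * p)) (p : Qb) ^ κ' * u2 →
      (∀ v : Place Qb ↥(modularFunctionFieldBar (M * p)), (p : ℤ) ∣ v.ord u1) →
      ∃ Γ₁ Γ₂ : IsLocalRing.ResidueField A,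
        h38_IsOm J1 ⟨u1, hu1⟩ (algebraMap (IsLocalRing.ResidueField A)
          ↥(modularFunctionFieldFullC (IsLocalRing.ResidueField A) M) Γ₁) ∧
        h38_IsOm J2 ⟨u2, hu2⟩ (algebraMap (IsLocalRing.ResidueField A)
          ↥(modularFunctionFieldFullC (IsLocalRing.ResidueField A) M) Γ₂) ∧
        ∀ ν, Γ₂ - Γ₁ = (((Q1 ν).ord ((h60_R1 M p hpM A hA).redF u1) - κ' : ℤ) :
          IsLocalRing.ResidueField A) * lam)
    (hJa1 : ∀ f : ↥(modularFunctionFieldBar (M * p)),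
      (∀ σ ∈ A.inertiaSubgroupIn ℚ,
        arithmeticGalois (modularFunctionFieldFull (M * p)) σ • f = f) →
      f ∈ (h60_R1 M p hpM A hA).O → ∃ hf : f ∈ S1, (J1 ⟨f, hf⟩).snd = 0)
    (hJa2 : ∀ f : ↥(modularFunctionFieldBar (M * p)),
      (∀ σ ∈ A.inertiaSubgroupIn ℚ,
        arithmeticGalois (modularFunctionFieldFull (M * p)) σ • f = f) →
      f ∈ (h60_R2 M p hpM A hA).O → ∃ hf : f ∈ S2, (J2 ⟨f, hf⟩).snd = 0)
    (w : Qb) (g : Fin p → Γℚ) (hgI : ∀ i, g i ∈ A.inertiaSubgroupIn ℚ)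
    (hdist : Function.Injective fun i => g i w)
    (horb : ∀ σ ∈ A.inertiaSubgroupIn ℚ, ∃ i, σ w = g i w)
    (u : ↥(modularFunctionFieldBar (M * p))) (hu0 : u ≠ 0)
    (hu : ∀ σ ∈ A.inertiaSubgroupIn ℚ, σ w = w →
      arithmeticGalois (modularFunctionFieldFull (M * p)) σ • u = u)
    (E : Divisor Qb ↥(modularFunctionFieldBar (M * p)))
    (hE : ∀ σ ∈ A.inertiaSubgroupIn ℚ, σ w = w →
      arithmeticGalois (modularFunctionFieldFull (M * p)) σ • E = E)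
    (hdiv : ∀ v : Place Qb ↥(modularFunctionFieldBar (M * p)), (p : ℤ) * E v = v.ord u)
    (c₁ : Qb) (hc₁ : c₁ ≠ 0)
    (hu₁ : u / algebraMap Qb ↥(modularFunctionFieldBar (M * p)) c₁ ∈ (h60_R1 M p hpM A hA).O)
    (hu₁red : (h60_R1 M p hpM A hA).redF
      (u / algebraMap Qb ↥(modularFunctionFieldBar (M * p)) c₁) ≠ 0) :
    ∃ κ : ℤ, u / algebraMap Qb ↥(modularFunctionFieldBar (M * p)) (c₁ * (p : Qb) ^ κ)
        ∈ (h60_R2 M p hpM A hA).O ∧
      (h60_R2 M p hpM A hA).redF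
        (u / algebraMap Qb ↥(modularFunctionFieldBar (M * p)) (c₁ * (p : Qb) ^ κ)) ≠ 0 := by
  have hp0 : (p : Qb) ≠ 0 := Nat.cast_ne_zero.mpr (NeZero.ne p)
  -- fixedness of quotients by fixed constants
  have hquot : ∀ (h : ↥(modularFunctionFieldBar (M * p))) (C : Qb),
      (∀ σ ∈ A.inertiaSubgroupIn ℚ,
        arithmeticGalois (modularFunctionFieldFull (M * p)) σ • h = h) →
      (∀ σ ∈ A.inertiaSubgroupIn ℚ, σ C = C) →
      ∀ σ ∈ A.inertiaSubgroupIn ℚ, arithmeticGalois (modularFunctionFieldFull (M * p)) σ •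
        (h / algebraMap Qb ↥(modularFunctionFieldBar (M * p)) C)
          = h / algebraMap Qb ↥(modularFunctionFieldBar (M * p)) C := by
    intro h C hfix hCfix σ hσ
    have e1 : arithmeticRingAut (modularFunctionFieldFull (M * p)) σ h = h := hfix σ hσ
    show arithmeticRingAut (modularFunctionFieldFull (M * p)) σ
      (h / algebraMap Qb ↥(modularFunctionFieldBar (M * p)) C) = _
    rw [map_div₀, arithmeticRingAut_algebraMap, hCfix σ hσ, e1]
  refine h15w_kappa_mod M p hpM A hA w g hgI hdist horb (Q1 ν₀) ?_ u hu0 hu E hE hdiv c₁ hc₁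
    hu₁ hu₁red
  intro h E' C m h0 hfix _ hdiv' hC0 hCfix _ h2 _ h4
  have hCm0 : C * (p : Qb) ^ m ≠ 0 := mul_ne_zero hC0 (zpow_ne_zero _ hp0)
  have haC : algebraMap Qb ↥(modularFunctionFieldBar (M * p)) C ≠ 0 :=
    (map_ne_zero _).mpr hC0
  have hap : algebraMap Qb ↥(modularFunctionFieldBar (M * p)) (p : Qb) ≠ 0 :=
    (map_ne_zero _).mpr hp0
  refine h15w_th0_of_w7 (h60_R1 M p hpM A hA) (h60_R2 M p hpM A hA) S1 S2 J1 J2 hJ1 hJ2 p lam
    hlam (algebraMap Qb ↥(modularFunctionFieldBar (M * p)) (p : Qb)) Q1 hW7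
    (fun f => ∀ σ ∈ A.inertiaSubgroupIn ℚ,
      arithmeticGalois (modularFunctionFieldFull (M * p)) σ • f = f)
    (fun f hf σ hσ => by rw [smul_inv'', hf σ hσ]) hJa1 hJa2
    (h / algebraMap Qb ↥(modularFunctionFieldBar (M * p)) C)
    (h / algebraMap Qb ↥(modularFunctionFieldBar (M * p)) (C * (p : Qb) ^ m))
    (hquot h C hfix hCfix) (hquot h _ hfix ?_) h2 h4 m ?_ ?_ ν₀
  · intro σ hσ
    rw [map_mul, map_zpow₀, map_natCast, hCfix σ hσ]
  · rw [map_mul, map_zpow₀]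
    field_simp
  · intro v
    rw [div_eq_mul_inv, Place.ord_mul v h0 (inv_ne_zero haC), Place.ord_inv, h60_ord_algebraMap,
      neg_zero, add_zero, ← hdiv' v]
    exact dvd_mul_right _ _

end Mod

end Fermat.Agent.S40
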