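import Mathlib
import Fermat.Agent.S40.h15_WNormTH0
import Fermat.Agent.S40.h11_HScale

/-!
# S40 / row W8 (W-NORM) in the `hrows` binder shape of W9  (helper15)

The Kummer pair `(z, w)` of a row is given by exactly three facts (`h92_tr_main_of_rows`):
`A.valuation z = 1`, `z` fixed by inertia, `(1 + w) ^ p = 1 + p z`.

* `h15w_orbit_of_pair` : the `p` inertia conjugates of `w` (orbit representatives
  `g : Fin p → Gal` in inertia, pairwise distinct on `w`, exhausting the inertia orbit of `w`),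
  from `h12_eis_trans` / `h12_eis_orbit` / `h12_eis_conj_inj`.
* `h15w_kappa_of_pair` : `h15w_kappa_of_w7` with the orbit data replaced by the pair `(z, w)`.
* `h15w_datum_of_w7` : the normalised datum `(a, κ, u₁, u₂)` of `h11_hscale_pair`
  (`u₁ = u / w ^ a`, `u₂ = u / (w ^ a p ^ κ)`, units of `R₁.O` / `R₂.O`, fixed by the stabiliser
  of `w`, `u₁ = p ^ κ u₂`) with its hypothesis `hW8` DISCHARGED - the remaining hypotheses are
  the jets of ONE auxiliary Kummer pair with W7 for every datum and (Ja).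
-/

set_option autoImplicit false
set_option synthInstance.maxHeartbeats 400000
set_option maxHeartbeats 1000000

noncomputable section

open ModularCurve AlgebraicCurve

namespace Fermat.Agent.S40

open Fermat.Agent.S18 Fermat.Agent.S34 Fermat.Agent.S36

local notation "Qb" => AlgebraicClosure ℚ
local notation "Γℚ" => (AlgebraicClosure ℚ ≃ₐ[ℚ] AlgebraicClosure ℚ)

/-- **The inertia orbit of the Kummer element `w`**: `p` representatives in inertia, distinct on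
`w`, exhausting the orbit. -/
theorem h15w_orbit_of_pair (p : ℕ) [Fact p.Prime] (hp2 : p ≠ 2) (A : ValuationSubring Qb)
    (hA : A.LiesOverPrime p) (ζ : Qb) (hζ : IsPrimitiveRoot ζ p) (z w : Qb)
    (hz : A.valuation z = 1) (hzI : ∀ g ∈ A.inertiaSubgroupIn ℚ, g z = z)
    (hw : (1 + w) ^ p = 1 + (p : Qb) * z) :
    ∃ g : Fin p → Γℚ, (∀ i, g i ∈ A.inertiaSubgroupIn ℚ) ∧
      (Function.Injective fun i => g i w) ∧
      ∀ σ ∈ A.inertiaSubgroupIn ℚ, ∃ i, σ w = g i w := by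
  have htr := h12_eis_trans p hp2 A hA ζ hζ z w hz hzI hw
  choose g hgI _ hg using htr
  have hgw : ∀ j : ℕ, g j w = ζ ^ j * (1 + w) - 1 := by
    intro j
    have h := hg j
    rw [map_add, map_one] at h
    rw [← h]
    ring
  refine ⟨fun i => g i, fun i => hgI i, ?_, ?_⟩
  · intro i j hij
    have hij' : g i w = g j w := hij
    rw [hgw, hgw] at hij'
    exact Fin.ext (h12_eis_conj_inj p A hA ζ hζ z w hz hw i j i.2 j.2 hij')
  · intro σ hσ
    obtain ⟨j, hj, hσj⟩ := h12_eis_orbit p A hA ζ hζ z w hz hw σ (hzI σ hσ)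
    refine ⟨⟨j, hj⟩, ?_⟩
    rw [hgw]
    rw [map_add, map_one] at hσj
    rw [← hσj]
    ring

section Mod

variable (M p : ℕ) [NeZero M] [NeZero p] [Fact p.Prime] (hp2 : p ≠ 2) (hpM : ¬ p ∣ M)
  (A : ValuationSubring Qb) (hA : A.LiesOverPrime p)
  [CharP (IsLocalRing.ResidueField A) p]

include hp2 in
/-- **W8 at a charted level for a Kummer pair `(z, w)`** (the `hrows` binders of W9), from W7
over an auxiliary pair. -/
theorem h15w_kappa_of_pair
    (S1 S2 : Subring ↥(modularFunctionFieldBar (M * p)))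
    (J1 : S1 →+* TrivSqZeroExt
      ↥(modularFunctionFieldFullC (IsLocalRing.ResidueField A) M)
      ↥(modularFunctionFieldFullC (IsLocalRing.ResidueField A) M))
    (J2 : S2 →+* TrivSqZeroExt
      ↥(modularFunctionFieldFullC (IsLocalRing.ResidueField A) M)
      ↥(modularFunctionFieldFullC (IsLocalRing.ResidueField A) M))
    (hJ1 : ∀ f : S1, (J1 f).fst = (h60_R1 M p hpM A hA).redF f)
    (hJ2 : ∀ f : S2, (J2 f).fst = (h60_R2 M p hpM A hA).redF f)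
    (lam : IsLocalRing.ResidueField A) (hlam : lam ≠ 0)
    {Z : Type*} (Q1 : Z → Place (IsLocalRing.ResidueField A)
      ↥(modularFunctionFieldFullC (IsLocalRing.ResidueField A) M)) (ν₀ : Z)
    (hW7 : ∀ (u1 u2 : ↥(modularFunctionFieldBar (M * p))) (hu1 : u1 ∈ S1) (_ : u1⁻¹ ∈ S1)
      (hu2 : u2 ∈ S2) (_ : u2⁻¹ ∈ S2) (κ' : ℤ), u1 ≠ 0 →
      u1 = algebraMap Qb ↥(modularFunctionFieldBar (M * p)) (p : Qb) ^ κ' * u2 →
      (∀ v : Place Qb ↥(modularFunctionFieldBar (M * p)), (p : ℤ) ∣ v.ord u1) →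
      ∃ Γ₁ Γ₂ : IsLocalRing.ResidueField A,
        h38_IsOm J1 ⟨u1, hu1⟩ (algebraMap (IsLocalRing.ResidueField A)
          ↥(modularFunctionFieldFullC (IsLocalRing.ResidueField A) M) Γ₁) ∧
        h38_IsOm J2 ⟨u2, hu2⟩ (algebraMap (IsLocalRing.ResidueField A)
          ↥(modularFunctionFieldFullC (IsLocalRing.ResidueField A) M) Γ₂) ∧
        ∀ ν, Γ₂ - Γ₁ = (((Q1 ν).ord ((h60_R1 M p hpM A hA).redF u1) - κ' : ℤ) :
          IsLocalRing.ResidueField A) * lam)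
    (hJa1 : ∀ f : ↥(modularFunctionFieldBar (M * p)),
      (∀ σ ∈ A.inertiaSubgroupIn ℚ,
        arithmeticGalois (modularFunctionFieldFull (M * p)) σ • f = f) →
      f ∈ (h60_R1 M p hpM A hA).O → ∃ hf : f ∈ S1, (J1 ⟨f, hf⟩).snd = 0)
    (hJa2 : ∀ f : ↥(modularFunctionFieldBar (M * p)),
      (∀ σ ∈ A.inertiaSubgroupIn ℚ,
        arithmeticGalois (modularFunctionFieldFull (M * p)) σ • f = f) →
      f ∈ (h60_R2 M p hpM A hA).O → ∃ hf : f ∈ S2, (J2 ⟨f, hf⟩).snd = 0)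
    (ζ : Qb) (hζ : IsPrimitiveRoot ζ p) (z w : Qb)
    (hz : A.valuation z = 1) (hzI : ∀ g ∈ A.inertiaSubgroupIn ℚ, g z = z)
    (hw : (1 + w) ^ p = 1 + (p : Qb) * z)
    (u : ↥(modularFunctionFieldBar (M * p))) (hu0 : u ≠ 0)
    (hu : ∀ σ ∈ A.inertiaSubgroupIn ℚ, σ w = w →
      arithmeticGalois (modularFunctionFieldFull (M * p)) σ • u = u)
    (E : Divisor Qb ↥(modularFunctionFieldBar (M * p)))
    (hE : ∀ σ ∈ A.inertiaSubgroupIn ℚ, σ w = w →
      arithmeticGalois (modularFunctionFieldFull (M * p)) σ • E = E)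
    (hdiv : ∀ v : Place Qb ↥(modularFunctionFieldBar (M * p)), (p : ℤ) * E v = v.ord u)
    (c₁ : Qb) (hc₁ : c₁ ≠ 0)
    (hu₁ : u / algebraMap Qb ↥(modularFunctionFieldBar (M * p)) c₁ ∈ (h60_R1 M p hpM A hA).O)
    (hu₁red : (h60_R1 M p hpM A hA).redF
      (u / algebraMap Qb ↥(modularFunctionFieldBar (M * p)) c₁) ≠ 0) :
    ∃ κ : ℤ, u / algebraMap Qb ↥(modularFunctionFieldBar (M * p)) (c₁ * (p : Qb) ^ κ)
        ∈ (h60_R2 M p hpM A hA).O ∧
      (h60_R2 M p hpM A hA).redF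
        (u / algebraMap Qb ↥(modularFunctionFieldBar (M * p)) (c₁ * (p : Qb) ^ κ)) ≠ 0 := by
  obtain ⟨g, hgI, hdist, horb⟩ := h15w_orbit_of_pair p hp2 A hA ζ hζ z w hz hzI hw
  exact h15w_kappa_of_w7 M p hpM A hA S1 S2 J1 J2 hJ1 hJ2 lam hlam Q1 ν₀ hW7 hJa1 hJa2 w g hgI
    hdist horb u hu0 hu E hE hdiv c₁ hc₁ hu₁ hu₁red

include hp2 in
/-- **The normalised datum of a class at a Kummer pair** (= conclusion of `h11_hscale_pair`, its
hypothesis `hW8` discharged by W8): `u₁ = u / w ^ a`, `u₂ = u / (w ^ a p ^ κ)`. -/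
theorem h15w_datum_of_w7
    (S1 S2 : Subring ↥(modularFunctionFieldBar (M * p)))
    (J1 : S1 →+* TrivSqZeroExt
      ↥(modularFunctionFieldFullC (IsLocalRing.ResidueField A) M)
      ↥(modularFunctionFieldFullC (IsLocalRing.ResidueField A) M))
    (J2 : S2 →+* TrivSqZeroExt
      ↥(modularFunctionFieldFullC (IsLocalRing.ResidueField A) M)
      ↥(modularFunctionFieldFullC (IsLocalRing.ResidueField A) M))
    (hJ1 : ∀ f : S1, (J1 f).fst = (h60_R1 M p hpM A hA).redF f)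
    (hJ2 : ∀ f : S2, (J2 f).fst = (h60_R2 M p hpM A hA).redF f)
    (lam : IsLocalRing.ResidueField A) (hlam : lam ≠ 0)
    {Z : Type*} (Q1 : Z → Place (IsLocalRing.ResidueField A)
      ↥(modularFunctionFieldFullC (IsLocalRing.ResidueField A) M)) (ν₀ : Z)
    (hW7 : ∀ (u1 u2 : ↥(modularFunctionFieldBar (M * p))) (hu1 : u1 ∈ S1) (_ : u1⁻¹ ∈ S1)
      (hu2 : u2 ∈ S2) (_ : u2⁻¹ ∈ S2) (κ' : ℤ), u1 ≠ 0 →
      u1 = algebraMap Qb ↥(modularFunctionFieldBar (M * p)) (p : Qb) ^ κ' * u2 →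
      (∀ v : Place Qb ↥(modularFunctionFieldBar (M * p)), (p : ℤ) ∣ v.ord u1) →
      ∃ Γ₁ Γ₂ : IsLocalRing.ResidueField A,
        h38_IsOm J1 ⟨u1, hu1⟩ (algebraMap (IsLocalRing.ResidueField A)
          ↥(modularFunctionFieldFullC (IsLocalRing.ResidueField A) M) Γ₁) ∧
        h38_IsOm J2 ⟨u2, hu2⟩ (algebraMap (IsLocalRing.ResidueField A)
          ↥(modularFunctionFieldFullC (IsLocalRing.ResidueField A) M) Γ₂) ∧
        ∀ ν, Γ₂ - Γ₁ = (((Q1 ν).ord ((h60_R1 M p hpM A hA).redF u1) - κ' : ℤ) :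
          IsLocalRing.ResidueField A) * lam)
    (hJa1 : ∀ f : ↥(modularFunctionFieldBar (M * p)),
      (∀ σ ∈ A.inertiaSubgroupIn ℚ,
        arithmeticGalois (modularFunctionFieldFull (M * p)) σ • f = f) →
      f ∈ (h60_R1 M p hpM A hA).O → ∃ hf : f ∈ S1, (J1 ⟨f, hf⟩).snd = 0)
    (hJa2 : ∀ f : ↥(modularFunctionFieldBar (M * p)),
      (∀ σ ∈ A.inertiaSubgroupIn ℚ,
        arithmeticGalois (modularFunctionFieldFull (M * p)) σ • f = f) →
      f ∈ (h60_R2 M p hpM A hA).O → ∃ hf : f ∈ S2, (J2 ⟨f, hf⟩).snd = 0)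
    (ζ : Qb) (hζ : IsPrimitiveRoot ζ p) (z w : Qb)
    (hz : A.valuation z = 1) (hzI : ∀ g ∈ A.inertiaSubgroupIn ℚ, g z = z)
    (hw : (1 + w) ^ p = 1 + (p : Qb) * z)
    (u : ↥(modularFunctionFieldBar (M * p))) (hu0 : u ≠ 0)
    (hu : ∀ σ ∈ A.inertiaSubgroupIn ℚ, σ w = w →
      arithmeticGalois (modularFunctionFieldFull (M * p)) σ • u = u)
    (E : Divisor Qb ↥(modularFunctionFieldBar (M * p)))
    (hE : ∀ σ ∈ A.inertiaSubgroupIn ℚ, σ w = w →
      arithmeticGalois (modularFunctionFieldFull (M * p)) σ • E = E)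
    (hdiv : ∀ v : Place Qb ↥(modularFunctionFieldBar (M * p)), (p : ℤ) * E v = v.ord u) :
    ∃ (a κ : ℤ) (u₁ u₂ : ↥(modularFunctionFieldBar (M * p))),
      u₁ = u / algebraMap Qb ↥(modularFunctionFieldBar (M * p)) (w ^ a) ∧
      u₂ = u / algebraMap Qb ↥(modularFunctionFieldBar (M * p)) (w ^ a * (p : Qb) ^ κ) ∧
      u₁ ≠ 0 ∧ u₂ ≠ 0 ∧
      u₁ = algebraMap Qb ↥(modularFunctionFieldBar (M * p)) (p : Qb) ^ κ * u₂ ∧
      u₁ = algebraMap Qb ↥(modularFunctionFieldBar (M * p)) ((p : Qb) ^ κ) * u₂ ∧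
      (u₁ ∈ (h60_R1 M p hpM A hA).O ∧ u₁⁻¹ ∈ (h60_R1 M p hpM A hA).O ∧
        (h60_R1 M p hpM A hA).redF u₁ ≠ 0) ∧
      (u₂ ∈ (h60_R2 M p hpM A hA).O ∧ u₂⁻¹ ∈ (h60_R2 M p hpM A hA).O ∧
        (h60_R2 M p hpM A hA).redF u₂ ≠ 0) ∧
      (∀ σ ∈ A.inertiaSubgroupIn ℚ, σ w = w →
        arithmeticGalois (modularFunctionFieldFull (M * p)) σ • u₁ = u₁ ∧
        arithmeticGalois (modularFunctionFieldFull (M * p)) σ • u₁⁻¹ = u₁⁻¹ ∧
        arithmeticGalois (modularFunctionFieldFull (M * p)) σ • u₂ = u₂ ∧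
        arithmeticGalois (modularFunctionFieldFull (M * p)) σ • u₂⁻¹ = u₂⁻¹) := by
  have hw0 : w ≠ 0 := (h12_eis_ne_zero p A hA z w hz hw).2
  exact h11_hscale_pair M p hp2 hpM A hA ζ hζ z w hz hzI hw u hu0 hu (fun a h1 h2 =>
    h15w_kappa_of_pair M p hp2 hpM A hA S1 S2 J1 J2 hJ1 hJ2 lam hlam Q1 ν₀ hW7 hJa1 hJa2 ζ hζ z w
      hz hzI hw u hu0 hu E hE hdiv (w ^ a) (zpow_ne_zero _ hw0) h1 h2)

end Mod

end Fermat.Agent.S40
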