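import Mathlib
import Fermat.Agent.S36.h81_CountW
import Fermat.Agent.S34.h51_Last

/-!
# G40 / W6 (M4b), W7 (3): the node functions `a_ν` (helper53)

Generic adapter on top of the (COUNT) package `h81_CountHyp` of S36 (helper81): at every node
`ν ∈ Sg` there is a `K₀`-rational function `a ∈ L(n D0)` with `a / π ∈ O₁`, `a ∈ O₂`,
`red₁ (a / π)` having a simple pole at the node point `Φ ν` of the first component and
`red₂ a` a simple zero at the node point `ν` of the second component.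

* `h53_node_fun_at` : the statement at one node;
* `h53_node_fun`    : the family `a : {Q // Q ∈ Sg} → F` with a common `na`, in the binder
  shape `(a, na, ha, ha₁, ha₂, haρ, haα)` of `h31_twist_incl` / `h50_twist_w6`
  (`Q1 ν := Φ ν`, `Q2 ν := ν`);
* `h53_node_fun_right` : the same with the spelling `a * π⁻¹` (`π : F`).
-/

set_option autoImplicit false

noncomputable section

open AlgebraicCurve

namespace Fermat.Agent.S40

open Fermat.Agent.S18 Fermat.Agent.S24 Fermat.Agent.S34 Fermat.Agent.S36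

variable {K F k Fb : Type*} [Field K] [Field F] [Algebra K F] [Field k] [Field Fb] [Algebra k Fb]

variable {R₁ R₂ : h39_RedDatum K F k Fb} {D : h22_Lat K F k (Fb × Fb)} {D0 : Divisor K F}
  {Qinf : Place k Fb} {Sg : Finset (Place k Fb)} {Φ : Place k Fb → Place k Fb} {B F0 : Subring F}
  {T : Finset (Place k Fb)} {π : K} {u : F} {C : ℤ}

/-- `L(n D0) ⊆ L(m D0)` for `n ≤ m` and `D0 ≥ 0`. -/
theorem h53_rr_nsmul_mono (hD0 : ∀ v, 0 ≤ D0 v) {n m : ℕ} (h : n ≤ m) {f : F}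
    (hf : f ∈ riemannRochSpace (n • D0)) : f ∈ riemannRochSpace (m • D0) := by
  refine h51_rr_mono (fun v => ?_) hf
  simp only [Finsupp.smul_apply, nsmul_eq_mul]
  have h1 : (n : ℤ) ≤ m := by exact_mod_cast h
  nlinarith [hD0 v]

/-- **The node function at one node.**  `a` is `K₀`-rational, lies in `L(n D0)`, `a / π ∈ O₁`,
`a ∈ O₁ ∩ O₂` with `red₁ a = 0`; `red₁ (a / π)` has a simple pole at `Φ S` and `red₂ a` a simple
zero at `S`. -/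
theorem h53_node_fun_at [HasPrincipalDivisors k Fb]
    (H : h81_CountHyp R₁ R₂ D D0 Qinf Sg Φ B F0 T π u C) {S : Place k Fb} (hS : S ∈ Sg) :
    ∃ (a : F) (n : ℕ), a ∈ F0 ∧ a ∈ riemannRochSpace (n • D0) ∧
      (algebraMap K F π)⁻¹ * a ∈ R₁.O ∧ a ∈ R₂.O ∧ (a ∈ R₁.O ∧ R₁.redF a = 0) ∧
      (R₁.redF ((algebraMap K F π)⁻¹ * a) ≠ 0 ∧
        (Φ S).ord (R₁.redF ((algebraMap K F π)⁻¹ * a)) = -1) ∧
      (R₂.redF a ≠ 0 ∧ S.ord (R₂.redF a) = 1) := by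
  obtain ⟨n, n', f, g, ⟨-, -, hf1, -, -, hft⟩, ⟨hg0, hgL, hg1, hg2, hgr, hgt⟩, h1, -, c, hc, hv1, -⟩ :=
    H.S1 hS
  have hπg : (algebraMap K F π)⁻¹ * g ∈ R₁.O := H.hdisc1 g hg0 hg1 hgr
  have hmul : (algebraMap K F π)⁻¹ * (f * g) = f * ((algebraMap K F π)⁻¹ * g) := by ring
  have hred : R₁.redF ((algebraMap K F π)⁻¹ * (f * g)) =
      R₁.redF f * R₁.redF ((algebraMap K F π)⁻¹ * g) := by
    rw [hmul, h39_redF_mul R₁ hf1 hπg]
  have hne : R₁.redF ((algebraMap K F π)⁻¹ * (f * g)) ≠ 0 := h81_ne_zero_of_val _ hv1 hc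
  have hord0 : (Φ S).ord (R₁.redF ((algebraMap K F π)⁻¹ * (f * g))) = 0 :=
    h39_ord_eq_zero_of_val _ hv1 hc
  rw [hred] at hne hord0
  have hf0 : R₁.redF f ≠ 0 := left_ne_zero_of_mul hne
  have hg0' : R₁.redF ((algebraMap K F π)⁻¹ * g) ≠ 0 := right_ne_zero_of_mul hne
  rw [Place.ord_mul _ hf0 hg0', hft] at hord0
  have hgne : R₂.redF g ≠ 0 := by
    intro h0
    rw [h0, Place.ord_zero] at hgt
    exact zero_ne_one hgt
  exact ⟨g, n', hg0, hgL, hπg, hg2, ⟨hg1, hgr⟩, ⟨hg0', by omega⟩, hgne, hgt⟩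

/-- **The node functions** in the binder shape `(a, na, ha, ha₁, ha₂, haρ, haα)` of
`h31_twist_incl` / `h50_twist_w6`, for `Z := {Q // Q ∈ Sg}`, `Q1 ν := Φ ν`, `Q2 ν := ν`. -/
theorem h53_node_fun [HasPrincipalDivisors k Fb]
    (H : h81_CountHyp R₁ R₂ D D0 Qinf Sg Φ B F0 T π u C) (hD0 : ∀ v, 0 ≤ D0 v) :
    ∃ (a : {Q // Q ∈ Sg} → F) (na : ℕ),
      (∀ ν, a ν ∈ F0) ∧ (∀ ν, a ν ∈ riemannRochSpace (na • D0)) ∧
      (∀ ν, (algebraMap K F π)⁻¹ * a ν ∈ R₁.O) ∧ (∀ ν, a ν ∈ R₂.O) ∧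
      (∀ ν, a ν ∈ R₁.O ∧ R₁.redF (a ν) = 0) ∧
      (∀ ν : {Q // Q ∈ Sg}, R₁.redF ((algebraMap K F π)⁻¹ * a ν) ≠ 0 ∧
        (Φ ν.1).ord (R₁.redF ((algebraMap K F π)⁻¹ * a ν)) = -1) ∧
      (∀ ν : {Q // Q ∈ Sg}, R₂.redF (a ν) ≠ 0 ∧ (ν.1).ord (R₂.redF (a ν)) = 1) := by
  classical
  choose a n ha0 haL ha1 ha2 ha1' haρ haα using
    fun ν : {Q // Q ∈ Sg} => h53_node_fun_at H ν.2
  refine ⟨a, Finset.univ.sup n, ha0, fun ν => ?_, ha1, ha2, ha1', haρ, haα⟩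
  exact h53_rr_nsmul_mono hD0 (Finset.le_sup (Finset.mem_univ ν)) (haL ν)

/-- The node functions with the spelling `a * π⁻¹`, `π : F` (the binders of `hT` in
`h38_jump_of_fill`). -/
theorem h53_node_fun_right [HasPrincipalDivisors k Fb]
    (H : h81_CountHyp R₁ R₂ D D0 Qinf Sg Φ B F0 T π u C) (hD0 : ∀ v, 0 ≤ D0 v) :
    ∃ (a : {Q // Q ∈ Sg} → F) (na : ℕ),
      (∀ ν, a ν ∈ F0) ∧ (∀ ν, a ν ∈ riemannRochSpace (na • D0)) ∧
      (∀ ν, a ν * (algebraMap K F π)⁻¹ ∈ R₁.O) ∧ (∀ ν, a ν ∈ R₂.O) ∧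
      (∀ ν, a ν ∈ R₁.O ∧ R₁.redF (a ν) = 0) ∧
      (∀ ν : {Q // Q ∈ Sg}, R₁.redF (a ν * (algebraMap K F π)⁻¹) ≠ 0 ∧
        (Φ ν.1).ord (R₁.redF (a ν * (algebraMap K F π)⁻¹)) = -1) ∧
      (∀ ν : {Q // Q ∈ Sg}, R₂.redF (a ν) ≠ 0 ∧ (ν.1).ord (R₂.redF (a ν)) = 1) := by
  obtain ⟨a, na, h0, hL, h1, h2, h1', hρ, hα⟩ := h53_node_fun H hD0
  have hc : ∀ ν, a ν * (algebraMap K F π)⁻¹ = (algebraMap K F π)⁻¹ * a ν := fun ν => mul_comm _ _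
  refine ⟨a, na, h0, hL, fun ν => ?_, h2, h1', fun ν => ?_, hα⟩
  · rw [hc]
    exact h1 ν
  · rw [hc]
    exact hρ ν

end Fermat.Agent.S40

end
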