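import Mathlib
import Fermat.Agent.S40.h50_JumpMod
import Fermat.Agent.S40.h11_JetChart
import Fermat.Agent.S40.h86_DatumDiv
import Fermat.Agent.S40.h53_NodeFun

/-!
# S40 / (TR) row W7 at the charted level: the final plug (helper50)

Level `M p` (`p ∤ M` an odd prime), `A` over `p`, `I` its inertia group, `R₁ = h60_R1`,
`R₂ = h60_R2`, a W0 pair `(z, w)`, `S_i := h25_SH R_i (h25_rho (M p) I) w`.

* `h50_w7_plug` : the W9 binder block `(Sg, hSg, n0, hnode)` + the node functions give jets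
  `g, J1, J2` with the whole package of `h11_jet_chart` (orbit, (Je), (Ja), (Jb), (Jc),
  `h38_HJet`, (Jd), `λ = (res z)⁻¹ ≠ 0`, all eight conjuncts verbatim) AND row W7 for EVERY datum
  `(u1, u2, κ')` in the binder shape `hW7` of `h12_ej_gen` / `h15w_datum_of_w7`:
  `Γ₂ - Γ₁ = (ord_{Φ ν} red₁ u1 - κ') λ` at every node `ν`.
  Proof: `h11_jet_chart` + `h86_datum_div_pair` + `h50_jump_mod_div`.
* `h50_w7_plug_of_count` : the same with the node functions taken from ANY instance of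
  `h81_CountHyp` whose rational subring `F0` consists of `I`-fixed functions (`h53_node_fun`).
-/

set_option autoImplicit false
set_option synthInstance.maxHeartbeats 400000

noncomputable section

open AlgebraicCurve ModularCurve Module

namespace Fermat.Agent.S40

open Fermat.Agent.S18 Fermat.Agent.S34 Fermat.Agent.S24 Fermat.Agent.S27 Fermat.Agent.S37
  Fermat.Agent.S36

local notation "Qb" => AlgebraicClosure ℚ

section W7Plug

variable (M p : ℕ) [NeZero M] [NeZero p] [Fact p.Prime] (hp2 : p ≠ 2) (hpM : ¬ p ∣ M)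
  (A : ValuationSubring Qb) (hA : A.LiesOverPrime p)
  [CharP (IsLocalRing.ResidueField A) p] [IsAlgClosed (IsLocalRing.ResidueField A)]
  (Sg : Finset (Place (IsLocalRing.ResidueField A)
    ↥(modularFunctionFieldFullC (IsLocalRing.ResidueField A) M)))
  (hSg : ∀ Q ∈ Sg, Q ≠ h11_placeInftyC (IsLocalRing.ResidueField A) M ∧
    h96_frobPerm (h84_isFrobChart_jk M p hpM A hA) Q ≠
      h11_placeInftyC (IsLocalRing.ResidueField A) M ∧
    h96_frobPerm (h84_isFrobChart_jk M p hpM A hA)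
      (h96_frobPerm (h84_isFrobChart_jk M p hpM A hA) Q) = Q)
  (n0 : ℕ)
  (hnode : ∀ n, n0 ≤ n → ∀ a : ↥(modularFunctionFieldFullC (IsLocalRing.ResidueField A) M) ×
      ↥(modularFunctionFieldFullC (IsLocalRing.ResidueField A) M),
    a ∈ h51_Rd (h87_D M p hpM A hA) (n • h87_D0 M p hpM) ↔
      (a ∈ h20_P (h11_placeInftyC (IsLocalRing.ResidueField A) M) n ∧
        ∀ Q ∈ Sg, ∃ c : IsLocalRing.ResidueField A,
          h39_Val (h96_frobPerm (h84_isFrobChart_jk M p hpM A hA) Q) a.1 c ∧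
            h39_Val Q a.2 c))

include hp2 hSg hnode in
set_option maxHeartbeats 3200000 in
/-- **Row W7 at the charted level, every datum** (the `hW7` binder of `h12_ej_gen`), with the
jet package of `h11_jet_chart`. -/
theorem h50_w7_plug
    (a : {Q // Q ∈ Sg} → ↥(modularFunctionFieldBar (M * p))) (na : ℕ)
    (ha0 : ∀ ν, a ν ∈ h69_F0 (M * p) (A.inertiaSubgroupIn ℚ))
    (ha : ∀ ν, a ν ∈ riemannRochSpace (na • h87_D0 M p hpM))
    (ha₁ : ∀ ν, (algebraMap Qb ↥(modularFunctionFieldBar (M * p)) (p : Qb))⁻¹ * a ν ∈ (h60_R1 M p hpM A hA).O)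
    (ha₂ : ∀ ν, a ν ∈ (h60_R2 M p hpM A hA).O)
    (haρ : ∀ ν : {Q // Q ∈ Sg}, (h60_R1 M p hpM A hA).redF ((algebraMap Qb ↥(modularFunctionFieldBar (M * p)) (p : Qb))⁻¹ * a ν) ≠ 0 ∧
      (h96_frobPerm (h84_isFrobChart_jk M p hpM A hA) ν.1).ord ((h60_R1 M p hpM A hA).redF ((algebraMap Qb ↥(modularFunctionFieldBar (M * p)) (p : Qb))⁻¹ * a ν)) = -1)
    (haα : ∀ ν : {Q // Q ∈ Sg}, (h60_R2 M p hpM A hA).redF (a ν) ≠ 0 ∧ (ν.1).ord ((h60_R2 M p hpM A hA).redF (a ν)) = 1)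
    (ζ : Qb) (hζ : IsPrimitiveRoot ζ p) (z w : Qb) (hz : A.valuation z = 1)
    (hzI : ∀ g ∈ (A.inertiaSubgroupIn ℚ), g z = z) (hw : (1 + w) ^ p = 1 + (p : Qb) * z) :
    ∃ (g : Fin p → ↥(A.inertiaSubgroupIn ℚ))
      (J1 : ↥(h25_SH (h60_R1 M p hpM A hA) (h25_rho (M * p) (A.inertiaSubgroupIn ℚ))
          (algebraMap Qb ↥(modularFunctionFieldBar (M * p)) w)) →+*
        TrivSqZeroExt ↥(modularFunctionFieldFullC (IsLocalRing.ResidueField A) M)
          ↥(modularFunctionFieldFullC (IsLocalRing.ResidueField A) M))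
      (J2 : ↥(h25_SH (h60_R2 M p hpM A hA) (h25_rho (M * p) (A.inertiaSubgroupIn ℚ))
          (algebraMap Qb ↥(modularFunctionFieldBar (M * p)) w)) →+*
        TrivSqZeroExt ↥(modularFunctionFieldFullC (IsLocalRing.ResidueField A) M)
          ↥(modularFunctionFieldFullC (IsLocalRing.ResidueField A) M)),
      (((Function.Injective fun i => h25_rho (M * p) (A.inertiaSubgroupIn ℚ) (g i)
          (algebraMap Qb ↥(modularFunctionFieldBar (M * p)) w)) ∧
        (∀ γ : ↥(A.inertiaSubgroupIn ℚ), ∃ i,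
          h25_rho (M * p) (A.inertiaSubgroupIn ℚ) γ
              (algebraMap Qb ↥(modularFunctionFieldBar (M * p)) w) =
            h25_rho (M * p) (A.inertiaSubgroupIn ℚ) (g i)
              (algebraMap Qb ↥(modularFunctionFieldBar (M * p)) w)) ∧
        ∀ i : Fin p, (g i : Qb ≃ₐ[ℚ] Qb) (1 + w) = ζ ^ (i : ℕ) * (1 + w)) ∧
      -- (Je)
      ((∀ f, J1 f = h25_jetFun (h60_R1 M p hpM A hA) (h25_rho (M * p) (A.inertiaSubgroupIn ℚ)) p
          (algebraMap Qb ↥(modularFunctionFieldBar (M * p)) w) g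
          (f : ↥(modularFunctionFieldBar (M * p)))) ∧
        (∀ f, J2 f = h25_jetFun (h60_R2 M p hpM A hA) (h25_rho (M * p) (A.inertiaSubgroupIn ℚ)) p
          (algebraMap Qb ↥(modularFunctionFieldBar (M * p)) w) g
          (f : ↥(modularFunctionFieldBar (M * p))))) ∧
      -- (Ja)
      ((∀ f : ↥(h25_SH (h60_R1 M p hpM A hA) (h25_rho (M * p) (A.inertiaSubgroupIn ℚ))
            (algebraMap Qb ↥(modularFunctionFieldBar (M * p)) w)),
          (f : ↥(modularFunctionFieldBar (M * p))) ∈ h69_F0 (M * p) (A.inertiaSubgroupIn ℚ) →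
          J1 f = TrivSqZeroExt.inl
            ((h60_R1 M p hpM A hA).redF (f : ↥(modularFunctionFieldBar (M * p))))) ∧
        (∀ f : ↥(h25_SH (h60_R2 M p hpM A hA) (h25_rho (M * p) (A.inertiaSubgroupIn ℚ))
            (algebraMap Qb ↥(modularFunctionFieldBar (M * p)) w)),
          (f : ↥(modularFunctionFieldBar (M * p))) ∈ h69_F0 (M * p) (A.inertiaSubgroupIn ℚ) →
          J2 f = TrivSqZeroExt.inl
            ((h60_R2 M p hpM A hA).redF (f : ↥(modularFunctionFieldBar (M * p)))))) ∧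
      -- (Jb)
      ((∃ hwS, J1 ⟨algebraMap Qb ↥(modularFunctionFieldBar (M * p)) w, hwS⟩ =
          TrivSqZeroExt.inr 1) ∧
        (∃ hwS, J2 ⟨algebraMap Qb ↥(modularFunctionFieldBar (M * p)) w, hwS⟩ =
          TrivSqZeroExt.inr 1)) ∧
      -- (Jc)
      ((∀ f, (J1 f).fst = (h60_R1 M p hpM A hA).redF (f : ↥(modularFunctionFieldBar (M * p)))) ∧
        (∀ f, (J2 f).fst = (h60_R2 M p hpM A hA).redF (f : ↥(modularFunctionFieldBar (M * p))))) ∧
      -- the expansion hypothesis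
      h38_HJet (h60_R1 M p hpM A hA) (h60_R2 M p hpM A hA) (h87_D0 M p hpM)
        (h25_SH (h60_R1 M p hpM A hA) (h25_rho (M * p) (A.inertiaSubgroupIn ℚ))
          (algebraMap Qb ↥(modularFunctionFieldBar (M * p)) w))
        (h25_SH (h60_R2 M p hpM A hA) (h25_rho (M * p) (A.inertiaSubgroupIn ℚ))
          (algebraMap Qb ↥(modularFunctionFieldBar (M * p)) w)) J1 J2 ∧
      -- (Jd)
      (∃ (hηS : algebraMap Qb ↥(modularFunctionFieldBar (M * p)) ((p : Qb) / w ^ p) ∈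
            h25_SH (h60_R2 M p hpM A hA) (h25_rho (M * p) (A.inertiaSubgroupIn ℚ))
              (algebraMap Qb ↥(modularFunctionFieldBar (M * p)) w))
          (_ : (algebraMap Qb ↥(modularFunctionFieldBar (M * p)) ((p : Qb) / w ^ p))⁻¹ ∈
            h25_SH (h60_R2 M p hpM A hA) (h25_rho (M * p) (A.inertiaSubgroupIn ℚ))
              (algebraMap Qb ↥(modularFunctionFieldBar (M * p)) w)),
          (J2 ⟨algebraMap Qb ↥(modularFunctionFieldBar (M * p)) ((p : Qb) / w ^ p), hηS⟩).fst =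
              algebraMap (IsLocalRing.ResidueField A)
                ↥(modularFunctionFieldFullC (IsLocalRing.ResidueField A) M)
                ((h60_R2 M p hpM A hA).resK z)⁻¹ ∧
            h38_IsOm J2 ⟨algebraMap Qb ↥(modularFunctionFieldBar (M * p)) ((p : Qb) / w ^ p), hηS⟩
              (algebraMap (IsLocalRing.ResidueField A)
                ↥(modularFunctionFieldFullC (IsLocalRing.ResidueField A) M)
                ((h60_R2 M p hpM A hA).resK z)⁻¹)) ∧
      ((h60_R2 M p hpM A hA).resK z)⁻¹ ≠ 0) ∧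
      ∀ (u1 u2 : ↥(modularFunctionFieldBar (M * p))) (hu1 : u1 ∈ (h25_SH (h60_R1 M p hpM A hA) (h25_rho (M * p) (A.inertiaSubgroupIn ℚ))
      (algebraMap Qb ↥(modularFunctionFieldBar (M * p)) w))) (_ : u1⁻¹ ∈ (h25_SH (h60_R1 M p hpM A hA) (h25_rho (M * p) (A.inertiaSubgroupIn ℚ))
      (algebraMap Qb ↥(modularFunctionFieldBar (M * p)) w))) (hu2 : u2 ∈ (h25_SH (h60_R2 M p hpM A hA) (h25_rho (M * p) (A.inertiaSubgroupIn ℚ))
      (algebraMap Qb ↥(modularFunctionFieldBar (M * p)) w)))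
        (_ : u2⁻¹ ∈ (h25_SH (h60_R2 M p hpM A hA) (h25_rho (M * p) (A.inertiaSubgroupIn ℚ))
      (algebraMap Qb ↥(modularFunctionFieldBar (M * p)) w))) (κ' : ℤ), u1 ≠ 0 → u1 = algebraMap Qb ↥(modularFunctionFieldBar (M * p)) (p : Qb) ^ κ' * u2 →
        (∀ v : Place Qb ↥(modularFunctionFieldBar (M * p)), (p : ℤ) ∣ v.ord u1) →
        ∃ Γ₁ Γ₂ : (IsLocalRing.ResidueField A),
          h38_IsOm J1 ⟨u1, hu1⟩ (algebraMap (IsLocalRing.ResidueField A) ↥(modularFunctionFieldFullC (IsLocalRing.ResidueField A) M) Γ₁) ∧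
          h38_IsOm J2 ⟨u2, hu2⟩ (algebraMap (IsLocalRing.ResidueField A) ↥(modularFunctionFieldFullC (IsLocalRing.ResidueField A) M) Γ₂) ∧
          ∀ ν : {Q // Q ∈ Sg}, Γ₂ - Γ₁ =
            (((h96_frobPerm (h84_isFrobChart_jk M p hpM A hA) ν.1).ord ((h60_R1 M p hpM A hA).redF u1) - κ' : ℤ) : (IsLocalRing.ResidueField A)) * ((h60_R2 M p hpM A hA).resK z)⁻¹ := by
  obtain ⟨g, J1, J2, horb, hJe, hJa, hJb, hJc, hjet, hJd, hlam⟩ :=
    h11_jet_chart M p hp2 hpM A hA ζ hζ z w hz hzI hw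
  refine ⟨g, J1, J2, ⟨horb, hJe, hJa, hJb, hJc, hjet, hJd, hlam⟩, ?_⟩
  intro u1 u2 hu1 hu1i hu2 hu2i κ' hu10 hκ hdvd
  obtain ⟨E, hdiv, hEdeg, hE⟩ := h86_datum_div_pair (M * p) p (Fact.out : p.Prime).ne_zero u1
    hu10 hdvd (A.inertiaSubgroupIn ℚ) w (h50_SH_fixed (M * p) (A.inertiaSubgroupIn ℚ) (h60_R1 M p hpM A hA) w hu1)
  obtain ⟨hwS, hJb2⟩ := hJb.2
  exact (h50_jump_mod_div M p hp2 hpM A hA Sg hSg n0 hnode a na ha0 ha ha₁ ha₂ haρ haα ζ hζ z w
    hz hzI hw J1 J2 hjet hJa.1 hJa.2 (fun _ => hJb2) hJc.1 hJc.2 u1 u2 hu1 hu1i hu2 hu2i κ'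
    hu10 hκ E hEdeg hE hdiv).2.2.1

include hp2 hSg hnode in
set_option maxHeartbeats 3200000 in
/-- **Row W7 at the charted level from a count instance** with `I`-fixed rational subring. -/
theorem h50_w7_plug_of_count
    {B F0 : Subring ↥(modularFunctionFieldBar (M * p))} {T : Finset (Place (IsLocalRing.ResidueField A) ↥(modularFunctionFieldFullC (IsLocalRing.ResidueField A) M))} {u0 : ↥(modularFunctionFieldBar (M * p))} {C : ℤ}
    (H : h81_CountHyp (h60_R1 M p hpM A hA) (h60_R2 M p hpM A hA) (h87_D M p hpM A hA) (h87_D0 M p hpM)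
      (h11_placeInftyC (IsLocalRing.ResidueField A) M) Sg (h96_frobPerm (h84_isFrobChart_jk M p hpM A hA)) B F0 T (p : Qb) u0 C)
    (hF0 : ∀ f ∈ F0, f ∈ h69_F0 (M * p) (A.inertiaSubgroupIn ℚ))
    (ζ : Qb) (hζ : IsPrimitiveRoot ζ p) (z w : Qb) (hz : A.valuation z = 1)
    (hzI : ∀ g ∈ (A.inertiaSubgroupIn ℚ), g z = z) (hw : (1 + w) ^ p = 1 + (p : Qb) * z) :
    ∃ (g : Fin p → ↥(A.inertiaSubgroupIn ℚ))
      (J1 : ↥(h25_SH (h60_R1 M p hpM A hA) (h25_rho (M * p) (A.inertiaSubgroupIn ℚ))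
          (algebraMap Qb ↥(modularFunctionFieldBar (M * p)) w)) →+*
        TrivSqZeroExt ↥(modularFunctionFieldFullC (IsLocalRing.ResidueField A) M)
          ↥(modularFunctionFieldFullC (IsLocalRing.ResidueField A) M))
      (J2 : ↥(h25_SH (h60_R2 M p hpM A hA) (h25_rho (M * p) (A.inertiaSubgroupIn ℚ))
          (algebraMap Qb ↥(modularFunctionFieldBar (M * p)) w)) →+*
        TrivSqZeroExt ↥(modularFunctionFieldFullC (IsLocalRing.ResidueField A) M)
          ↥(modularFunctionFieldFullC (IsLocalRing.ResidueField A) M)),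
      (((Function.Injective fun i => h25_rho (M * p) (A.inertiaSubgroupIn ℚ) (g i)
          (algebraMap Qb ↥(modularFunctionFieldBar (M * p)) w)) ∧
        (∀ γ : ↥(A.inertiaSubgroupIn ℚ), ∃ i,
          h25_rho (M * p) (A.inertiaSubgroupIn ℚ) γ
              (algebraMap Qb ↥(modularFunctionFieldBar (M * p)) w) =
            h25_rho (M * p) (A.inertiaSubgroupIn ℚ) (g i)
              (algebraMap Qb ↥(modularFunctionFieldBar (M * p)) w)) ∧
        ∀ i : Fin p, (g i : Qb ≃ₐ[ℚ] Qb) (1 + w) = ζ ^ (i : ℕ) * (1 + w)) ∧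
      -- (Je)
      ((∀ f, J1 f = h25_jetFun (h60_R1 M p hpM A hA) (h25_rho (M * p) (A.inertiaSubgroupIn ℚ)) p
          (algebraMap Qb ↥(modularFunctionFieldBar (M * p)) w) g
          (f : ↥(modularFunctionFieldBar (M * p)))) ∧
        (∀ f, J2 f = h25_jetFun (h60_R2 M p hpM A hA) (h25_rho (M * p) (A.inertiaSubgroupIn ℚ)) p
          (algebraMap Qb ↥(modularFunctionFieldBar (M * p)) w) g
          (f : ↥(modularFunctionFieldBar (M * p))))) ∧
      -- (Ja)
      ((∀ f : ↥(h25_SH (h60_R1 M p hpM A hA) (h25_rho (M * p) (A.inertiaSubgroupIn ℚ))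
            (algebraMap Qb ↥(modularFunctionFieldBar (M * p)) w)),
          (f : ↥(modularFunctionFieldBar (M * p))) ∈ h69_F0 (M * p) (A.inertiaSubgroupIn ℚ) →
          J1 f = TrivSqZeroExt.inl
            ((h60_R1 M p hpM A hA).redF (f : ↥(modularFunctionFieldBar (M * p))))) ∧
        (∀ f : ↥(h25_SH (h60_R2 M p hpM A hA) (h25_rho (M * p) (A.inertiaSubgroupIn ℚ))
            (algebraMap Qb ↥(modularFunctionFieldBar (M * p)) w)),
          (f : ↥(modularFunctionFieldBar (M * p))) ∈ h69_F0 (M * p) (A.inertiaSubgroupIn ℚ) →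
          J2 f = TrivSqZeroExt.inl
            ((h60_R2 M p hpM A hA).redF (f : ↥(modularFunctionFieldBar (M * p)))))) ∧
      -- (Jb)
      ((∃ hwS, J1 ⟨algebraMap Qb ↥(modularFunctionFieldBar (M * p)) w, hwS⟩ =
          TrivSqZeroExt.inr 1) ∧
        (∃ hwS, J2 ⟨algebraMap Qb ↥(modularFunctionFieldBar (M * p)) w, hwS⟩ =
          TrivSqZeroExt.inr 1)) ∧
      -- (Jc)
      ((∀ f, (J1 f).fst = (h60_R1 M p hpM A hA).redF (f : ↥(modularFunctionFieldBar (M * p)))) ∧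
        (∀ f, (J2 f).fst = (h60_R2 M p hpM A hA).redF (f : ↥(modularFunctionFieldBar (M * p))))) ∧
      -- the expansion hypothesis
      h38_HJet (h60_R1 M p hpM A hA) (h60_R2 M p hpM A hA) (h87_D0 M p hpM)
        (h25_SH (h60_R1 M p hpM A hA) (h25_rho (M * p) (A.inertiaSubgroupIn ℚ))
          (algebraMap Qb ↥(modularFunctionFieldBar (M * p)) w))
        (h25_SH (h60_R2 M p hpM A hA) (h25_rho (M * p) (A.inertiaSubgroupIn ℚ))
          (algebraMap Qb ↥(modularFunctionFieldBar (M * p)) w)) J1 J2 ∧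
      -- (Jd)
      (∃ (hηS : algebraMap Qb ↥(modularFunctionFieldBar (M * p)) ((p : Qb) / w ^ p) ∈
            h25_SH (h60_R2 M p hpM A hA) (h25_rho (M * p) (A.inertiaSubgroupIn ℚ))
              (algebraMap Qb ↥(modularFunctionFieldBar (M * p)) w))
          (_ : (algebraMap Qb ↥(modularFunctionFieldBar (M * p)) ((p : Qb) / w ^ p))⁻¹ ∈
            h25_SH (h60_R2 M p hpM A hA) (h25_rho (M * p) (A.inertiaSubgroupIn ℚ))
              (algebraMap Qb ↥(modularFunctionFieldBar (M * p)) w)),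
          (J2 ⟨algebraMap Qb ↥(modularFunctionFieldBar (M * p)) ((p : Qb) / w ^ p), hηS⟩).fst =
              algebraMap (IsLocalRing.ResidueField A)
                ↥(modularFunctionFieldFullC (IsLocalRing.ResidueField A) M)
                ((h60_R2 M p hpM A hA).resK z)⁻¹ ∧
            h38_IsOm J2 ⟨algebraMap Qb ↥(modularFunctionFieldBar (M * p)) ((p : Qb) / w ^ p), hηS⟩
              (algebraMap (IsLocalRing.ResidueField A)
                ↥(modularFunctionFieldFullC (IsLocalRing.ResidueField A) M)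
                ((h60_R2 M p hpM A hA).resK z)⁻¹)) ∧
      ((h60_R2 M p hpM A hA).resK z)⁻¹ ≠ 0) ∧
      ∀ (u1 u2 : ↥(modularFunctionFieldBar (M * p))) (hu1 : u1 ∈ (h25_SH (h60_R1 M p hpM A hA) (h25_rho (M * p) (A.inertiaSubgroupIn ℚ))
      (algebraMap Qb ↥(modularFunctionFieldBar (M * p)) w))) (_ : u1⁻¹ ∈ (h25_SH (h60_R1 M p hpM A hA) (h25_rho (M * p) (A.inertiaSubgroupIn ℚ))
      (algebraMap Qb ↥(modularFunctionFieldBar (M * p)) w))) (hu2 : u2 ∈ (h25_SH (h60_R2 M p hpM A hA) (h25_rho (M * p) (A.inertiaSubgroupIn ℚ))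
      (algebraMap Qb ↥(modularFunctionFieldBar (M * p)) w)))
        (_ : u2⁻¹ ∈ (h25_SH (h60_R2 M p hpM A hA) (h25_rho (M * p) (A.inertiaSubgroupIn ℚ))
      (algebraMap Qb ↥(modularFunctionFieldBar (M * p)) w))) (κ' : ℤ), u1 ≠ 0 → u1 = algebraMap Qb ↥(modularFunctionFieldBar (M * p)) (p : Qb) ^ κ' * u2 →
        (∀ v : Place Qb ↥(modularFunctionFieldBar (M * p)), (p : ℤ) ∣ v.ord u1) →
        ∃ Γ₁ Γ₂ : (IsLocalRing.ResidueField A),
          h38_IsOm J1 ⟨u1, hu1⟩ (algebraMap (IsLocalRing.ResidueField A) ↥(modularFunctionFieldFullC (IsLocalRing.ResidueField A) M) Γ₁) ∧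
          h38_IsOm J2 ⟨u2, hu2⟩ (algebraMap (IsLocalRing.ResidueField A) ↥(modularFunctionFieldFullC (IsLocalRing.ResidueField A) M) Γ₂) ∧
          ∀ ν : {Q // Q ∈ Sg}, Γ₂ - Γ₁ =
            (((h96_frobPerm (h84_isFrobChart_jk M p hpM A hA) ν.1).ord ((h60_R1 M p hpM A hA).redF u1) - κ' : ℤ) : (IsLocalRing.ResidueField A)) * ((h60_R2 M p hpM A hA).resK z)⁻¹ := by
  have := h75_hasPrincipalDivisors (h84_isChart_jk M p hpM A hA)
  obtain ⟨a, na, ha0, ha, ha₁, ha₂, -, haρ, haα⟩ :=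
    h53_node_fun H (fun v => h87_D0_nonneg M p hpM v)
  exact h50_w7_plug M p hp2 hpM A hA Sg hSg n0 hnode a na (fun ν => hF0 _ (ha0 ν)) ha ha₁ ha₂
    haρ haα ζ hζ z w hz hzI hw

end W7Plug

end Fermat.Agent.S40

end
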