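import Mathlib
import Fermat.Agent.S34.h87_NodeInst
import Fermat.Agent.S37.h88_HICore
import Fermat.Agent.S40.h31_TwistSg

/-!
# S40 / (TR) by lattice count, row W6 (W-UB): the modular instance (helper31)

`h31_w6_mod` = the shape **(W6-mod)** of the W9 integration rule, at every level `M p` with
`p ∤ M` prime, in the W9 binder block (`R1 = h60_R1`, `R2 = h60_R2`, `D = h87_D`, `D0 = h87_D0`,
`Qinf = h11_placeInftyC k M`, `Φ = h96_frobPerm (h84_isFrobChart_jk ..)`; the node set `Sg`, its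
properties `hSg`, the threshold `n0` and the sharp node theorem `hnode` are HYPOTHESES), with the
node functions `a ν` of (S1) as a hypothesis in the output shape of the (M4b) adapter.

For EVERY `u ≠ 0` of `F(M p)` over `Qbar` and every divisor `E` with `p E = div u` (no Galois
hypothesis):

* (a) `p ∣ h43_rord R1 Q u` for every place `Q` which is not a node `Φ S` (`S ∈ Sg`) of the
  first component (the cusp included);
* (b) `p ∣ h43_rord R2 Q u` for every place `Q ∉ Sg` of the second component;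
* (c) `p ∣ h43_rord R1 (Φ S) u + h43_rord R2 S u` for `S ∈ Sg`.
-/

set_option autoImplicit false
set_option synthInstance.maxHeartbeats 400000

noncomputable section

open AlgebraicCurve ModularCurve Module

namespace Fermat.Agent.S40

open Fermat.Agent.S18 Fermat.Agent.S34 Fermat.Agent.S24 Fermat.Agent.S27 Fermat.Agent.S37

local notation "Qb" => AlgebraicClosure ℚ

/-- `p E = div u` forces `deg E = 0` on a curve with principal divisors. -/
theorem h31_degree_eq_zero_of_mul {K F : Type*} [Field K] [Field F] [Algebra K F]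
    [HasPrincipalDivisors K F] (p : ℕ) (hp : 0 < p) (u : F) (hu : u ≠ 0) (E : Divisor K F)
    (hE : ∀ P : Place K F, (p : ℤ) * E P = P.ord u) : Divisor.degree E = 0 := by
  obtain ⟨D', hD', hdeg⟩ := HasPrincipalDivisors.exists_divisor (K := K) u hu
  have h1 : p • E = D' := by
    ext P
    rw [Finsupp.smul_apply, nsmul_eq_mul, hE P, hD' P]
  have h2 : (p : ℤ) * Divisor.degree E = 0 := by
    rw [← nsmul_eq_mul, ← map_nsmul, h1, hdeg]
  rcases mul_eq_zero.mp h2 with h | h
  · exact absurd (by exact_mod_cast h : p = 0) hp.ne'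
  · exact h

/-- **(W6-mod)**: see the file header. -/
theorem h31_w6_mod (M p : ℕ) [NeZero M] [NeZero p] [Fact p.Prime] (hpM : ¬ p ∣ M)
    (A : ValuationSubring Qb) (hA : A.LiesOverPrime p)
    [CharP (IsLocalRing.ResidueField A) p] [IsAlgClosed (IsLocalRing.ResidueField A)]
    (Sg : Finset (Place (IsLocalRing.ResidueField A)
      ↥(modularFunctionFieldFullC (IsLocalRing.ResidueField A) M)))
    (hSg : ∀ Q ∈ Sg, Q ≠ h11_placeInftyC (IsLocalRing.ResidueField A) M ∧
      h96_frobPerm (h84_isFrobChart_jk M p hpM A hA) Q ≠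
        h11_placeInftyC (IsLocalRing.ResidueField A) M ∧
      h96_frobPerm (h84_isFrobChart_jk M p hpM A hA)
        (h96_frobPerm (h84_isFrobChart_jk M p hpM A hA) Q) = Q)
    (n0 : ℕ)
    (hnode : ∀ n, n0 ≤ n → ∀ a : ↥(modularFunctionFieldFullC (IsLocalRing.ResidueField A) M) ×
        ↥(modularFunctionFieldFullC (IsLocalRing.ResidueField A) M),
      a ∈ h51_Rd (h87_D M p hpM A hA) (n • h87_D0 M p hpM) ↔
        (a ∈ h20_P (h11_placeInftyC (IsLocalRing.ResidueField A) M) n ∧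
          ∀ Q ∈ Sg, ∃ c : IsLocalRing.ResidueField A,
            h39_Val (h96_frobPerm (h84_isFrobChart_jk M p hpM A hA) Q) a.1 c ∧
              h39_Val Q a.2 c))
    (a : {Q // Q ∈ Sg} → ↥(modularFunctionFieldBar (M * p))) (na : ℕ)
    (ha : ∀ ν, a ν ∈ riemannRochSpace (na • h87_D0 M p hpM))
    (ha₁ : ∀ ν, (algebraMap Qb ↥(modularFunctionFieldBar (M * p)) (p : Qb))⁻¹ * a ν ∈
      (h60_R1 M p hpM A hA).O)
    (ha₂ : ∀ ν, a ν ∈ (h60_R2 M p hpM A hA).O)
    (haρ : ∀ ν : {Q // Q ∈ Sg},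
      (h60_R1 M p hpM A hA).redF
          ((algebraMap Qb ↥(modularFunctionFieldBar (M * p)) (p : Qb))⁻¹ * a ν) ≠ 0 ∧
        (h96_frobPerm (h84_isFrobChart_jk M p hpM A hA) ν.1).ord
          ((h60_R1 M p hpM A hA).redF
            ((algebraMap Qb ↥(modularFunctionFieldBar (M * p)) (p : Qb))⁻¹ * a ν)) = -1)
    (haα : ∀ ν : {Q // Q ∈ Sg}, (h60_R2 M p hpM A hA).redF (a ν) ≠ 0 ∧
      (ν.1).ord ((h60_R2 M p hpM A hA).redF (a ν)) = 1)
    (u : ↥(modularFunctionFieldBar (M * p))) (hu : u ≠ 0)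
    (E : Divisor Qb ↥(modularFunctionFieldBar (M * p)))
    (hE : ∀ P : Place Qb ↥(modularFunctionFieldBar (M * p)), (p : ℤ) * E P = P.ord u) :
    (∀ Q : Place (IsLocalRing.ResidueField A)
        ↥(modularFunctionFieldFullC (IsLocalRing.ResidueField A) M),
      (∀ S ∈ Sg, h96_frobPerm (h84_isFrobChart_jk M p hpM A hA) S ≠ Q) →
        (p : ℤ) ∣ h43_rord (h60_R1 M p hpM A hA) Q u) ∧
    (∀ Q : Place (IsLocalRing.ResidueField A)
        ↥(modularFunctionFieldFullC (IsLocalRing.ResidueField A) M),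
      Q ∉ Sg → (p : ℤ) ∣ h43_rord (h60_R2 M p hpM A hA) Q u) ∧
    (∀ S ∈ Sg, (p : ℤ) ∣
      h43_rord (h60_R1 M p hpM A hA) (h96_frobPerm (h84_isFrobChart_jk M p hpM A hA) S) u +
        h43_rord (h60_R2 M p hpM A hA) S u) := by
  have hp : p.Prime := Fact.out
  have hp0 : (p : Qb) ≠ 0 := Nat.cast_ne_zero.mpr hp.ne_zero
  have hpA : (p : Qb) ∈ A := ValuationSubring.nonunits_subset hA
  have hpinv : (p : Qb)⁻¹ ∉ A :=
    ((ValuationSubring.mem_nonunits_iff_or A).mp hA).resolve_left hp0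
  have hR1A : (h60_R1 M p hpM A hA).A = A := h60_R1_A M p hpM A hA
  have hR2A : (h60_R2 M p hpM A hA).A = A := h60_R2_A M p hpM A hA
  have hrk : h39_RankOne (h60_R1 M p hpM A hA).A := by
    rw [hR1A]
    exact h64_rankOne_h39 hp A hA
  have := h88_hasPrincipalDivisors (M * p)
  have hEdeg : Divisor.degree E = 0 := h31_degree_eq_zero_of_mul p hp.pos u hu E hE
  exact h31_twist_qbar_sg (h60_R1 M p hpM A hA) (h60_R2 M p hpM A hA) (hR1A.trans hR2A.symm) hrk
    (h60_exists_sep M p hpM A hA) (h87_D M p hpM A hA) (h87_D_on M p hpM A hA)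
    (fun f => h87_D_mem M p hpM A hA) (fun f h1 h2 => h87_D_redF M p hpM A hA h1 h2)
    (h54_isChart_jbar (M * p)) (h84_isChart_jk M p hpM A hA) (h87_D0 M p hpM)
    (h87_D0_degree M p hpM) (h11_placeInftyC (IsLocalRing.ResidueField A) M) Sg
    (h96_frobPerm (h84_isFrobChart_jk M p hpM A hA))
    (h96_frobPerm (h84_isFrobChart_jk M p hpM A hA)).injective
    (fun Q hQ => ⟨(hSg Q hQ).1, (hSg Q hQ).2.1⟩) n0 hnode p hp.pos (p : Qb) hp0
    (by rw [hR1A]; exact hpA) (by rw [hR1A]; exact hpinv) a na ha ha₁ ha₂ haρ haα u hu E hE hEdeg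

end Fermat.Agent.S40

end
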