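import Mathlib
import Fermat.Agent.S40.h43_TailPt
import Fermat.Agent.S18.GR_RedAPI

/-!
# S40 / (TR) row W9, glue (helper92): residue orders do not depend on the representative

`R` a reduction datum of the function field `F/K`, `Q` a place of the residue function field,
`h43_rord R Q` helper43's normalised residue order (a homomorphism `Fˣ → ℤ`, trivial on constants).

* `h92_rord_shift` : if `n E = div u`, `n E' = div u'`, `n E₀ = div u₀` and
  `E = E' + i E₀ + div g`, then
  `rord u = rord u' + i rord u₀ + n rord g`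
  (functions without zeros and poles are constants: `hconst`).
* `h92_rord_dvd_shift` : hence, if `n ∣ rord u₀` (e.g. `u₀` a toric witness: a unit of reduction
  `1`), `n ∣ rord u ↔ n ∣ rord u'`.
* `h92_rord_dvd_rep` : the case `i = 0`: independence of the representative `(E, u)` of a class.
* `h92_rord_unit_one` : a unit with reduction `1` has residue order `0` everywhere.
-/

set_option autoImplicit false

namespace Fermat.Agent.S40

open AlgebraicCurve Fermat.Agent.S18

variable {K F k Fb : Type*} [Field K] [Field F] [Algebra K F] [Field k] [Field Fb] [Algebra k Fb]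

/-- **Shift formula** for the normalised residue order. -/
theorem h92_rord_shift (R : h39_RedDatum K F k Fb) (Q : Place k Fb)
    (hconst : ∀ f : F, f ≠ 0 → (∀ v : Place K F, v.ord f = 0) → ∃ c : K, f = algebraMap K F c)
    (n : ℕ) (E E' E₀ : Divisor K F) {u u' u₀ g : F} (hu : u ≠ 0) (hu' : u' ≠ 0) (hu₀ : u₀ ≠ 0)
    (hg : g ≠ 0)
    (hE : ∀ v : Place K F, (n : ℤ) * E v = v.ord u)
    (hE' : ∀ v : Place K F, (n : ℤ) * E' v = v.ord u')
    (hE₀ : ∀ v : Place K F, (n : ℤ) * E₀ v = v.ord u₀)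
    (i : ℤ) (hrel : ∀ v : Place K F, E v = E' v + i * E₀ v + v.ord g) :
    h43_rord R Q u = h43_rord R Q u' + i * h43_rord R Q u₀ + n * h43_rord R Q g := by
  have hz : u₀ ^ i ≠ 0 := zpow_ne_zero i hu₀
  have hgn : g ^ n ≠ 0 := pow_ne_zero n hg
  have hden : u' * u₀ ^ i * g ^ n ≠ 0 := mul_ne_zero (mul_ne_zero hu' hz) hgn
  have hf0 : u * (u' * u₀ ^ i * g ^ n)⁻¹ ≠ 0 := mul_ne_zero hu (inv_ne_zero hden)
  obtain ⟨c, hc⟩ := hconst _ hf0 (fun v => by
    rw [v.ord_mul hu (inv_ne_zero hden), v.ord_inv, v.ord_mul (mul_ne_zero hu' hz) hgn,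
      v.ord_mul hu' hz, v.ord_zpow, ← zpow_natCast, v.ord_zpow, ← hE v, ← hE' v, ← hE₀ v,
      hrel v]
    ring)
  have hc0 : c ≠ 0 := by
    rintro rfl
    rw [map_zero] at hc
    exact hf0 hc
  have hueq : u = algebraMap K F c * (u' * u₀ ^ i * g ^ n) := by
    rw [← hc, mul_assoc, inv_mul_cancel₀ hden, mul_one]
  have hc' : algebraMap K F c ≠ 0 := (map_ne_zero _).mpr hc0
  rw [hueq, h43_rord_mul R Q hc' hden, h43_rord_algebraMap, zero_add,
    h43_rord_mul R Q (mul_ne_zero hu' hz) hgn, h43_rord_mul R Q hu' hz,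
    h43_rord_zpow R Q hu₀, h43_rord_pow R Q hg]

/-- If `n ∣ rord u₀`, divisibility of the residue order by `n` is insensitive to the shift
`E = E' + i E₀ + div g`. -/
theorem h92_rord_dvd_shift (R : h39_RedDatum K F k Fb) (Q : Place k Fb)
    (hconst : ∀ f : F, f ≠ 0 → (∀ v : Place K F, v.ord f = 0) → ∃ c : K, f = algebraMap K F c)
    (n : ℕ) (E E' E₀ : Divisor K F) {u u' u₀ g : F} (hu : u ≠ 0) (hu' : u' ≠ 0) (hu₀ : u₀ ≠ 0)
    (hg : g ≠ 0)
    (hE : ∀ v : Place K F, (n : ℤ) * E v = v.ord u)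
    (hE' : ∀ v : Place K F, (n : ℤ) * E' v = v.ord u')
    (hE₀ : ∀ v : Place K F, (n : ℤ) * E₀ v = v.ord u₀)
    (i : ℤ) (hrel : ∀ v : Place K F, E v = E' v + i * E₀ v + v.ord g)
    (h0 : (n : ℤ) ∣ h43_rord R Q u₀) :
    (n : ℤ) ∣ h43_rord R Q u ↔ (n : ℤ) ∣ h43_rord R Q u' := by
  rw [h92_rord_shift R Q hconst n E E' E₀ hu hu' hu₀ hg hE hE' hE₀ i hrel, add_assoc]
  exact Int.dvd_add_left (dvd_add (Dvd.dvd.mul_left h0 i) (dvd_mul_right _ _))

/-- **Independence of the representative**: if `n E = div u`, `n E' = div u'` and `E - E'` is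
principal, the residue orders of `u` and `u'` agree modulo `n`. -/
theorem h92_rord_dvd_rep (R : h39_RedDatum K F k Fb) (Q : Place k Fb)
    (hconst : ∀ f : F, f ≠ 0 → (∀ v : Place K F, v.ord f = 0) → ∃ c : K, f = algebraMap K F c)
    (n : ℕ) (E E' : Divisor K F) {u u' g : F} (hu : u ≠ 0) (hu' : u' ≠ 0) (hg : g ≠ 0)
    (hE : ∀ v : Place K F, (n : ℤ) * E v = v.ord u)
    (hE' : ∀ v : Place K F, (n : ℤ) * E' v = v.ord u')
    (hrel : ∀ v : Place K F, E v = E' v + v.ord g) :
    (n : ℤ) ∣ h43_rord R Q u ↔ (n : ℤ) ∣ h43_rord R Q u' := by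
  refine h92_rord_dvd_shift R Q hconst n E E' 0 hu hu' (one_ne_zero (α := F)) hg hE hE'
    (fun v => by simp [Place.ord_one]) 0 (fun v => by rw [hrel v]; simp) ?_
  rw [h43_rord_one]
  exact dvd_zero _

/-- A unit of `R.O` with reduction `1` has residue order `0` at every place. -/
theorem h92_rord_unit_one (R : h39_RedDatum K F k Fb) (Q : Place k Fb) {f : F}
    (hf : h43_IsRUnit R f) (h1 : R.redF f = 1) : h43_rord R Q f = 0 := by
  rw [h43_rord_of_unit R Q hf, h1, Place.ord_one]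

/-- An element with reduction `1` has residue order `0` at every place. -/
theorem h92_rord_of_redF_one (R : h39_RedDatum K F k Fb) (Q : Place k Fb) {f : F}
    (h1 : R.redF f = 1) : h43_rord R Q f = 0 := by
  have hne : R.redF f ≠ 0 := by rw [h1]; exact one_ne_zero
  have hf : f ∈ R.O := h39_mem_of_redF_ne_zero R hne
  have hf0 : f ≠ 0 := by
    rintro rfl
    exact hne (h39_redF_zero R)
  exact h92_rord_unit_one R Q ⟨hf0, hf, (h39_inv_of_redF_ne_zero R hne).1⟩ h1

end Fermat.Agent.S40
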