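import Mathlib
import Fermat.Agent.S40.h92_RepShift
import Fermat.Agent.S35.h60_ToricBridge
import Fermat.Agent.S36.h69_Desc

/-!
# S40 / (TR) row W9, modular glue (helper92): toric shift and independence of the representative

Level `M p`, `p ∤ M`, `A` over `p`; `R₁ = h60_R1`, `R₂ = h60_R2` the two reduction data of
`F(M p)`; `h43_rord R Q` helper43's normalised residue order.

* `h92_toric_rord` : a toric class `l₀` (exponent `m`) has a representative `(E₀, u₀)`,
  `m E₀ = div u₀`, with `rord R₁ Q u₀ = 0 = rord R₂ Q u₀` at every place `Q`.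
* `h92_tr_shift` : if `x = x' + i • l₀` with `l₀` toric of exponent `m`, and `(E, u)`, `(E', u')`
  represent `x`, `x'` with `m E = div u`, `m E' = div u'`, then for both reductions and every
  place `Q`: `m ∣ rord u ↔ m ∣ rord u'`.
* `h92_tr_rep` : the case `i = 0`: the property `∀ Q, m ∣ rord R_j Q u` only depends on the
  class of `E`.
-/

set_option autoImplicit false
set_option synthInstance.maxHeartbeats 400000

noncomputable section

open ModularCurve AlgebraicCurve

namespace Fermat.Agent.S40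

open Fermat.Agent.S34 Fermat.Agent.S18 Fermat.Agent.S35 Fermat.Agent.S36 Fermat.Agent.S37

local notation "Qb" => AlgebraicClosure ℚ

section Glue

variable (M p : ℕ) [NeZero M] [NeZero p] [hpF : Fact p.Prime] (hpM : ¬ p ∣ M)
  (A : ValuationSubring Qb) (hA : A.LiesOverPrime p)

/-- A toric class has a representative whose function has residue order `0` everywhere, at both
reductions. -/
theorem h92_toric_rord (m : ℕ) (l₀ : JZero (M * p)) (hl₀ : h29_Toric M p hpM A hA m l₀) :
    ∃ (E₀ : Divisor.degZero (K := Qb) (F := modularFunctionFieldBar (M * p)))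
      (u₀ : modularFunctionFieldBar (M * p)),
      u₀ ≠ 0 ∧ Pic0.mk E₀ = l₀ ∧
      (∀ v : Place Qb (modularFunctionFieldBar (M * p)),
        (m : ℤ) * (E₀ : Divisor Qb (modularFunctionFieldBar (M * p))) v = v.ord u₀) ∧
      (∀ Q, h43_rord (h60_R1 M p hpM A hA) Q u₀ = 0) ∧
      (∀ Q, h43_rord (h60_R2 M p hpM A hA) Q u₀ = 0) := by
  obtain ⟨E₀, u₀, hu₀, hE₀, hdiv, h⟩ := (h60_toric_iff M p hpM A hA m l₀).mp hl₀
  have h1 := (h60_red_one_iff (h60_R1 M p hpM A hA) u₀).mp (h 0)
  have h2 := (h60_red_one_iff (h60_R2 M p hpM A hA) u₀).mp (h 1)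
  exact ⟨E₀, u₀, hu₀, hE₀, hdiv, fun Q => h92_rord_of_redF_one _ Q h1.2,
    fun Q => h92_rord_of_redF_one _ Q h2.2⟩

/-- **Toric shift.**  `x = x' + i • l₀`, `l₀` toric of exponent `m`: divisibility by `m` of the
residue orders of the functions of `x` and `x'` is the same, at both reductions. -/
theorem h92_tr_shift (m : ℕ) (x x' l₀ : JZero (M * p)) (i : ℕ) (hx : x = x' + i • l₀)
    (hl₀ : h29_Toric M p hpM A hA m l₀)
    (E E' : Divisor.degZero (K := Qb) (F := modularFunctionFieldBar (M * p)))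
    (u u' : modularFunctionFieldBar (M * p)) (hu : u ≠ 0) (hu' : u' ≠ 0)
    (hE : Pic0.mk E = x) (hE' : Pic0.mk E' = x')
    (hdiv : ∀ v : Place Qb (modularFunctionFieldBar (M * p)),
      (m : ℤ) * (E : Divisor Qb (modularFunctionFieldBar (M * p))) v = v.ord u)
    (hdiv' : ∀ v : Place Qb (modularFunctionFieldBar (M * p)),
      (m : ℤ) * (E' : Divisor Qb (modularFunctionFieldBar (M * p))) v = v.ord u')
    (Q : Place (IsLocalRing.ResidueField A)
      (modularFunctionFieldFullC (IsLocalRing.ResidueField A) M)) :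
    ((m : ℤ) ∣ h43_rord (h60_R1 M p hpM A hA) Q u ↔
        (m : ℤ) ∣ h43_rord (h60_R1 M p hpM A hA) Q u') ∧
      ((m : ℤ) ∣ h43_rord (h60_R2 M p hpM A hA) Q u ↔
        (m : ℤ) ∣ h43_rord (h60_R2 M p hpM A hA) Q u') := by
  obtain ⟨E₀, u₀, hu₀, hE₀, hdiv₀, hr1, hr2⟩ := h92_toric_rord M p hpM A hA m l₀ hl₀
  -- `E - (E' + i E₀)` is principal
  have hmk : Pic0.mk E = Pic0.mk (E' + i • E₀) := by
    rw [hE, hx, Pic0.mk_add, hE', ← hE₀]
    congr 1
  obtain ⟨g, hg, hgv⟩ := h69_principal_of_mk_eq hmk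
  have hrel : ∀ v : Place Qb (modularFunctionFieldBar (M * p)),
      (E : Divisor Qb (modularFunctionFieldBar (M * p))) v =
        (E' : Divisor Qb (modularFunctionFieldBar (M * p))) v +
          (i : ℤ) * (E₀ : Divisor Qb (modularFunctionFieldBar (M * p))) v + v.ord g := by
    intro v
    have h1 := hgv v
    have h2 : ((E' + i • E₀ : Divisor.degZero (K := Qb) (F := modularFunctionFieldBar (M * p))) :
        Divisor Qb (modularFunctionFieldBar (M * p))) v =
        (E' : Divisor Qb (modularFunctionFieldBar (M * p))) v +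
          (i : ℤ) * (E₀ : Divisor Qb (modularFunctionFieldBar (M * p))) v := by
      simp
    rw [h2] at h1
    linarith
  exact ⟨h92_rord_dvd_shift _ Q (h69_const (M * p)) m _ _ _ hu hu' hu₀ hg hdiv hdiv' hdiv₀ i hrel
      (by rw [hr1 Q]; exact dvd_zero _),
    h92_rord_dvd_shift _ Q (h69_const (M * p)) m _ _ _ hu hu' hu₀ hg hdiv hdiv' hdiv₀ i hrel
      (by rw [hr2 Q]; exact dvd_zero _)⟩

/-- **Independence of the representative**, at any reduction datum of `F(N)`. -/
theorem h92_tr_rep {N : ℕ} [NeZero N] {k Fb : Type*} [Field k] [Field Fb] [Algebra k Fb]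
    (R : h39_RedDatum Qb (modularFunctionFieldBar N) k Fb) (m : ℕ)
    (E E' : Divisor.degZero (K := Qb) (F := modularFunctionFieldBar N))
    (u u' : modularFunctionFieldBar N) (hu : u ≠ 0) (hu' : u' ≠ 0)
    (hEE' : Pic0.mk E = Pic0.mk E')
    (hdiv : ∀ v : Place Qb (modularFunctionFieldBar N),
      (m : ℤ) * (E : Divisor Qb (modularFunctionFieldBar N)) v = v.ord u)
    (hdiv' : ∀ v : Place Qb (modularFunctionFieldBar N),
      (m : ℤ) * (E' : Divisor Qb (modularFunctionFieldBar N)) v = v.ord u')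
    (Q : Place k Fb) :
    (m : ℤ) ∣ h43_rord R Q u ↔ (m : ℤ) ∣ h43_rord R Q u' := by
  obtain ⟨g, hg, hgv⟩ := h69_principal_of_mk_eq hEE'
  exact h92_rord_dvd_rep R Q (h69_const N) m _ _ hu hu' hg hdiv hdiv'
    (fun v => by have := hgv v; linarith)

end Glue

end Fermat.Agent.S40
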