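import Mathlib
import Fermat.Agent.S40.h92_TRGlue
import Fermat.Agent.S40.h12_KummerMod

/-!
# S40 / (TR) row W9, the FRONT (helper92)

Level `M p`, `p ∤ M`, `A` over `p`, `I` the inertia group of `A`, `R₁ = h60_R1`, `R₂ = h60_R2`.

* `h92_TRProp y` : the conclusion of (TR-MAIN) for the class `y` : `y` has a representative
  `(E, u)`, `p E = div u`, with `p ∣ rord R_i Q u` for every place `Q` and `i = 1, 2`.
* `h92_TRProp_rep` : then EVERY representative has this property.
* `h92_TRProp_shift` : `h92_TRProp (x - i • l₀)` and `l₀` toric give `h92_TRProp x`.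
* `h92_tr_front` : the W0 case split.  `x`, `l₀` with `g x - x = c(g) l₀`, `g l₀ = a(g) l₀` on
  `I`, a Kummer element `e` of the cocycle with `v(e ^ p) ∈ v(p) ^ (p ℤ)`, and the CHAIN as a
  hypothesis: for every pair `(z, w)`, `z` a unit fixed by `I`, `(1 + w) ^ p = 1 + p z`, and
  every `p`-torsion class `y` fixed by the stabiliser of `w` in `I` (and satisfying the side
  condition `Pe`, e.g. a Hecke eigen-relation), `h92_TRProp y`.  Then `h92_TRProp x`.
  In the split case the chain is run for `x - i • l₀` over the auxiliary pair `z = 1`.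
-/

set_option autoImplicit false
set_option synthInstance.maxHeartbeats 400000

noncomputable section

open ModularCurve AlgebraicCurve

namespace Fermat.Agent.S40

open Fermat.Agent.S34 Fermat.Agent.S18 Fermat.Agent.S35 Fermat.Agent.S36 Fermat.Agent.S37

local notation "Qb" => AlgebraicClosure ℚ

section Front

variable (M p : ℕ) [NeZero M] [NeZero p] [hpF : Fact p.Prime] (hpM : ¬ p ∣ M)
  (A : ValuationSubring Qb) (hA : A.LiesOverPrime p)

/-- The conclusion of (TR-MAIN) for a class `y` of `JZero (M * p)`. -/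
def h92_TRProp (y : JZero (M * p)) : Prop :=
  ∃ (E : Divisor.degZero (K := Qb) (F := modularFunctionFieldBar (M * p)))
    (u : modularFunctionFieldBar (M * p)),
    u ≠ 0 ∧ Pic0.mk E = y ∧
    (∀ v : Place Qb (modularFunctionFieldBar (M * p)),
      (p : ℤ) * (E : Divisor Qb (modularFunctionFieldBar (M * p))) v = v.ord u) ∧
    ∀ Q : Place (IsLocalRing.ResidueField A)
        (modularFunctionFieldFullC (IsLocalRing.ResidueField A) M),
      (p : ℤ) ∣ h43_rord (h60_R1 M p hpM A hA) Q u ∧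
        (p : ℤ) ∣ h43_rord (h60_R2 M p hpM A hA) Q u

/-- Every `p`-torsion class has a representative `(E, u)` with `p E = div u`. -/
theorem h92_exists_rep (y : JZero (M * p)) (hy : p • y = 0) :
    ∃ (E : Divisor.degZero (K := Qb) (F := modularFunctionFieldBar (M * p)))
      (u : modularFunctionFieldBar (M * p)),
      u ≠ 0 ∧ Pic0.mk E = y ∧
      (∀ v : Place Qb (modularFunctionFieldBar (M * p)),
        (p : ℤ) * (E : Divisor Qb (modularFunctionFieldBar (M * p))) v = v.ord u) := by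
  obtain ⟨D, u, hD, -, hu, -, hdiv, -⟩ :=
    h69_desc_torsion (N := M * p) (⊥ : Subgroup (Qb ≃ₐ[ℚ] Qb)) y
      (fun σ hσ => by rw [Subgroup.mem_bot.mp hσ, one_smul]) p hy
  exact ⟨D, u, hu, hD, hdiv⟩

/-- (TR-MAIN) for one representative gives it for every representative. -/
theorem h92_TRProp_rep {y : JZero (M * p)} (h : h92_TRProp M p hpM A hA y)
    (E : Divisor.degZero (K := Qb) (F := modularFunctionFieldBar (M * p)))
    (u : modularFunctionFieldBar (M * p)) (hu : u ≠ 0) (hE : Pic0.mk E = y)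
    (hdiv : ∀ v : Place Qb (modularFunctionFieldBar (M * p)),
      (p : ℤ) * (E : Divisor Qb (modularFunctionFieldBar (M * p))) v = v.ord u)
    (Q : Place (IsLocalRing.ResidueField A)
      (modularFunctionFieldFullC (IsLocalRing.ResidueField A) M)) :
    (p : ℤ) ∣ h43_rord (h60_R1 M p hpM A hA) Q u ∧
      (p : ℤ) ∣ h43_rord (h60_R2 M p hpM A hA) Q u := by
  obtain ⟨E', u', hu', hE', hdiv', hQ⟩ := h
  have hEE' : Pic0.mk E = Pic0.mk E' := by rw [hE, hE']
  exact ⟨(h92_tr_rep (h60_R1 M p hpM A hA) p E E' u u' hu hu' hEE' hdiv hdiv' Q).mpr (hQ Q).1,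
    (h92_tr_rep (h60_R2 M p hpM A hA) p E E' u u' hu hu' hEE' hdiv hdiv' Q).mpr (hQ Q).2⟩

/-- (TR-MAIN) is insensitive to a shift by a toric class of exponent `p`. -/
theorem h92_TRProp_shift (x l₀ : JZero (M * p)) (i : ℕ) (hx : p • x = 0)
    (hl₀ : h29_Toric M p hpM A hA p l₀)
    (h : h92_TRProp M p hpM A hA (x - i • l₀)) : h92_TRProp M p hpM A hA x := by
  obtain ⟨E', u', hu', hE', hdiv', hQ⟩ := h
  obtain ⟨E, u, hu, hE, hdiv⟩ := h92_exists_rep M p x hx
  refine ⟨E, u, hu, hE, hdiv, fun Q => ?_⟩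
  have hsh := h92_tr_shift M p hpM A hA p x (x - i • l₀) l₀ i (by abel) hl₀ E E' u u' hu hu'
    hE hE' hdiv hdiv' Q
  exact ⟨hsh.1.mpr (hQ Q).1, hsh.2.mpr (hQ Q).2⟩

/-- **(TR) row W9, the front.**  The W0 case split: from the chain (a hypothesis, quantified over
all Kummer pairs `(z, w)` and all classes `y` fixed by the stabiliser of `w`) to (TR-MAIN) for
the class `x`. -/
theorem h92_tr_front (hp2 : p ≠ 2) (ζ : Qb) (hζ : IsPrimitiveRoot ζ p)
    (x l₀ : JZero (M * p)) (hl₀ : l₀ ≠ 0) (hpl₀ : p • l₀ = 0) (hpx : p • x = 0)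
    (htor : h29_Toric M p hpM A hA p l₀)
    (c a : (Qb ≃ₐ[ℚ] Qb) → ℕ)
    (hx : ∀ g ∈ A.inertiaSubgroupIn ℚ, g • x - x = c g • l₀)
    (hl : ∀ g ∈ A.inertiaSubgroupIn ℚ, g • l₀ = a g • l₀)
    (hζa : ∀ g ∈ A.inertiaSubgroupIn ℚ, g ζ = ζ ^ a g)
    (e : Qb) (he0 : e ≠ 0) (he : ∀ g ∈ A.inertiaSubgroupIn ℚ, g e = ζ ^ c g * e)
    (hpeu : ∃ m : ℤ, A.valuation (e ^ p) = A.valuation (p : Qb) ^ ((p : ℤ) * m))
    (Pe : JZero (M * p) → Prop) (hPe : ∀ i : ℕ, Pe (x - i • l₀))
    (hchain : ∀ z w : Qb, A.valuation z = 1 → (∀ g ∈ A.inertiaSubgroupIn ℚ, g z = z) →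
      (1 + w) ^ p = 1 + (p : Qb) * z →
      ∀ y : JZero (M * p), p • y = 0 →
        (∀ g ∈ A.inertiaSubgroupIn ℚ, g w = w → g • y = y) → Pe y →
        h92_TRProp M p hpM A hA y) :
    h92_TRProp M p hpM A hA x := by
  obtain ⟨m, hm⟩ := hpeu
  rcases h12_front_cases p hp2 A hA ζ hζ x l₀ hl₀ hpl₀ c a hx hl hζa e he0 he m hm with
    ⟨i, hi⟩ | ⟨z, w, hz, hzI, hw, -, hiff, -⟩
  · -- split case: the chain over the auxiliary pair `z = 1`, for `x - i • l₀`
    obtain ⟨w, hw⟩ := h12_exists_aux p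
    have hy : p • (x - i • l₀) = 0 := by
      rw [nsmul_sub, hpx, nsmul_left_comm, hpl₀, nsmul_zero, sub_zero]
    exact h92_TRProp_shift M p hpM A hA x l₀ i hpx htor
      (hchain 1 w (map_one _) (fun g _ => map_one g) hw (x - i • l₀) hy
        (fun g hg _ => hi g hg) (hPe i))
  · -- wild case: the chain over `(z, w)` for `x` itself
    have h0 := hPe 0
    rw [zero_nsmul, sub_zero] at h0
    exact hchain z w hz hzI hw x hpx (fun g hg hgw => (hiff g hg).mp hgw) h0

end Front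

end Fermat.Agent.S40
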