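import Mathlib
import Fermat.Agent.S40.h92_TRFront

/-!
# S40 / (TR) row W9 (helper92): (TR-MAIN) from the rows

`h92_tr_chain_of_rows` : for one Kummer pair `(z, w)` and one `p`-torsion class `y` fixed by the
stabiliser `H` of `w` in the inertia group: the descent (`h69_desc_torsion`) gives an `H`-fixed
representative `(D, u)` of `y`; then

* `hW6` (row W6): `p ∣ rord R₁ Q u` off the nodes of the first component, `p ∣ rord R₂ Q u` off
  the nodes of the second, and `p ∣ rord R₁ (Φ Q) u + rord R₂ Q u` at the nodes `Q ∈ Sg`;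
* `hT8` (rows W7 + W8 + T8): `p ∣ rord R₁ (Φ Q) u` at the nodes;

give `h92_TRProp y`.

`h92_tr_main_of_rows` : the same composed with the front `h92_tr_front` (the rows quantified
over all Kummer pairs and all classes).
-/

set_option autoImplicit false
set_option synthInstance.maxHeartbeats 400000

noncomputable section

open ModularCurve AlgebraicCurve

namespace Fermat.Agent.S40

open Fermat.Agent.S34 Fermat.Agent.S18 Fermat.Agent.S35 Fermat.Agent.S36 Fermat.Agent.S37

local notation "Qb" => AlgebraicClosure ℚ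

section Main

variable (M p : ℕ) [NeZero M] [NeZero p] [hpF : Fact p.Prime] (hpM : ¬ p ∣ M)
  (A : ValuationSubring Qb) (hA : A.LiesOverPrime p)

/-- The output of row W6 for a pair `(D, u)`, node set `Sg`, gluing permutation `Φ`. -/
def h92_W6Out (Sg : Finset (Place (IsLocalRing.ResidueField A)
      (modularFunctionFieldFullC (IsLocalRing.ResidueField A) M)))
    (Φ : Place (IsLocalRing.ResidueField A)
        (modularFunctionFieldFullC (IsLocalRing.ResidueField A) M) →
      Place (IsLocalRing.ResidueField A)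
        (modularFunctionFieldFullC (IsLocalRing.ResidueField A) M))
    (u : modularFunctionFieldBar (M * p)) : Prop :=
  (∀ Q, (∀ Q' ∈ Sg, Φ Q' ≠ Q) → (p : ℤ) ∣ h43_rord (h60_R1 M p hpM A hA) Q u) ∧
  (∀ Q, Q ∉ Sg → (p : ℤ) ∣ h43_rord (h60_R2 M p hpM A hA) Q u) ∧
  ∀ Q ∈ Sg, (p : ℤ) ∣ h43_rord (h60_R1 M p hpM A hA) (Φ Q) u +
    h43_rord (h60_R2 M p hpM A hA) Q u

/-- The output of rows W7 + W8 + T8 for a function `u`. -/
def h92_T8Out (Sg : Finset (Place (IsLocalRing.ResidueField A)
      (modularFunctionFieldFullC (IsLocalRing.ResidueField A) M)))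
    (Φ : Place (IsLocalRing.ResidueField A)
        (modularFunctionFieldFullC (IsLocalRing.ResidueField A) M) →
      Place (IsLocalRing.ResidueField A)
        (modularFunctionFieldFullC (IsLocalRing.ResidueField A) M))
    (u : modularFunctionFieldBar (M * p)) : Prop :=
  ∀ Q ∈ Sg, (p : ℤ) ∣ h43_rord (h60_R1 M p hpM A hA) (Φ Q) u

/-- W6 and T8 outputs give divisibility of all residue orders. -/
theorem h92_all_of_rows (Sg : Finset (Place (IsLocalRing.ResidueField A)
      (modularFunctionFieldFullC (IsLocalRing.ResidueField A) M)))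
    (Φ : Place (IsLocalRing.ResidueField A)
        (modularFunctionFieldFullC (IsLocalRing.ResidueField A) M) →
      Place (IsLocalRing.ResidueField A)
        (modularFunctionFieldFullC (IsLocalRing.ResidueField A) M))
    (u : modularFunctionFieldBar (M * p))
    (h6 : h92_W6Out M p hpM A hA Sg Φ u) (h8 : h92_T8Out M p hpM A hA Sg Φ u)
    (Q : Place (IsLocalRing.ResidueField A)
      (modularFunctionFieldFullC (IsLocalRing.ResidueField A) M)) :
    (p : ℤ) ∣ h43_rord (h60_R1 M p hpM A hA) Q u ∧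
      (p : ℤ) ∣ h43_rord (h60_R2 M p hpM A hA) Q u := by
  classical
  obtain ⟨ha, hb, hc⟩ := h6
  constructor
  · by_cases hQ : ∃ Q' ∈ Sg, Φ Q' = Q
    · obtain ⟨Q', hQ', rfl⟩ := hQ
      exact h8 Q' hQ'
    · exact ha Q (fun Q' hQ' h => hQ ⟨Q', hQ', h⟩)
  · by_cases hQ : Q ∈ Sg
    · exact (Int.dvd_add_right (h8 Q hQ)).mp (hc Q hQ)
    · exact hb Q hQ

/-- **The chain** for one Kummer pair `(z, w)` and one class `y` fixed by the stabiliser of `w`
in the inertia group, the rows W6 and T8 being hypotheses on the `H`-fixed representatives. -/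
theorem h92_tr_chain_of_rows (w : Qb) (y : JZero (M * p)) (hy : p • y = 0)
    (hfix : ∀ g ∈ A.inertiaSubgroupIn ℚ, g w = w → g • y = y)
    (Sg : Finset (Place (IsLocalRing.ResidueField A)
      (modularFunctionFieldFullC (IsLocalRing.ResidueField A) M)))
    (Φ : Place (IsLocalRing.ResidueField A)
        (modularFunctionFieldFullC (IsLocalRing.ResidueField A) M) →
      Place (IsLocalRing.ResidueField A)
        (modularFunctionFieldFullC (IsLocalRing.ResidueField A) M))
    (hrows : ∀ (D : Divisor.degZero (K := Qb) (F := modularFunctionFieldBar (M * p)))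
      (u : modularFunctionFieldBar (M * p)), Pic0.mk D = y → u ≠ 0 → h69_lc (M * p) u = 1 →
      (∀ v : Place Qb (modularFunctionFieldBar (M * p)),
        (p : ℤ) * (D : Divisor Qb (modularFunctionFieldBar (M * p))) v = v.ord u) →
      (∀ g ∈ A.inertiaSubgroupIn ℚ, g w = w →
        arithmeticGalois (modularFunctionFieldFull (M * p)) g •
          (D : Divisor Qb (modularFunctionFieldBar (M * p))) = D) →
      (∀ g ∈ A.inertiaSubgroupIn ℚ, g w = w →
        arithmeticGalois (modularFunctionFieldFull (M * p)) g • u = u) →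
      h92_W6Out M p hpM A hA Sg Φ u ∧ h92_T8Out M p hpM A hA Sg Φ u) :
    h92_TRProp M p hpM A hA y := by
  -- the stabiliser of `w` in the inertia group
  let H : Subgroup (Qb ≃ₐ[ℚ] Qb) :=
    { carrier := {g | g ∈ A.inertiaSubgroupIn ℚ ∧ g w = w}
      mul_mem' := by
        rintro a b ⟨ha, haw⟩ ⟨hb, hbw⟩
        refine ⟨mul_mem ha hb, ?_⟩
        show a (b w) = w
        rw [hbw, haw]
      one_mem' := ⟨one_mem _, rfl⟩
      inv_mem' := by
        rintro a ⟨ha, haw⟩
        refine ⟨inv_mem ha, ?_⟩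
        have h1 : a⁻¹ (a w) = w := by
          show (a⁻¹ * a) w = w
          rw [inv_mul_cancel]
          rfl
        rw [haw] at h1
        exact h1 }
  obtain ⟨D, u, hD, hDfix, hu, hlc, hdiv, hufix⟩ :=
    h69_desc_torsion (N := M * p) H y (fun σ hσ => hfix σ hσ.1 hσ.2) p hy
  obtain ⟨h6, h8⟩ := hrows D u hD hu hlc hdiv (fun g hg hgw => hDfix g ⟨hg, hgw⟩)
    (fun g hg hgw => hufix g ⟨hg, hgw⟩)
  exact ⟨D, u, hu, hD, hdiv, fun Q => h92_all_of_rows M p hpM A hA Sg Φ u h6 h8 Q⟩

/-- **(TR-MAIN) from the rows.**  Front (`h92_tr_front`) + chain (`h92_tr_chain_of_rows`): the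
rows W6 and W7 + W8 + T8 are hypotheses, quantified over all Kummer pairs `(z, w)` (`z` a unit
fixed by inertia, `(1 + w) ^ p = 1 + p z`) and all representatives `(D, u)` fixed by the
stabiliser of `w` of classes satisfying the side condition `Pe`. -/
theorem h92_tr_main_of_rows (hp2 : p ≠ 2) (ζ : Qb) (hζ : IsPrimitiveRoot ζ p)
    (x l₀ : JZero (M * p)) (hl₀ : l₀ ≠ 0) (hpl₀ : p • l₀ = 0) (hpx : p • x = 0)
    (htor : h29_Toric M p hpM A hA p l₀)
    (c a : (Qb ≃ₐ[ℚ] Qb) → ℕ)
    (hx : ∀ g ∈ A.inertiaSubgroupIn ℚ, g • x - x = c g • l₀)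
    (hl : ∀ g ∈ A.inertiaSubgroupIn ℚ, g • l₀ = a g • l₀)
    (hζa : ∀ g ∈ A.inertiaSubgroupIn ℚ, g ζ = ζ ^ a g)
    (e : Qb) (he0 : e ≠ 0) (he : ∀ g ∈ A.inertiaSubgroupIn ℚ, g e = ζ ^ c g * e)
    (hpeu : ∃ m : ℤ, A.valuation (e ^ p) = A.valuation (p : Qb) ^ ((p : ℤ) * m))
    (Pe : JZero (M * p) → Prop) (hPe : ∀ i : ℕ, Pe (x - i • l₀))
    (Sg : Finset (Place (IsLocalRing.ResidueField A)
      (modularFunctionFieldFullC (IsLocalRing.ResidueField A) M)))
    (Φ : Place (IsLocalRing.ResidueField A)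
        (modularFunctionFieldFullC (IsLocalRing.ResidueField A) M) →
      Place (IsLocalRing.ResidueField A)
        (modularFunctionFieldFullC (IsLocalRing.ResidueField A) M))
    (hrows : ∀ z w : Qb, A.valuation z = 1 → (∀ g ∈ A.inertiaSubgroupIn ℚ, g z = z) →
      (1 + w) ^ p = 1 + (p : Qb) * z →
      ∀ (D : Divisor.degZero (K := Qb) (F := modularFunctionFieldBar (M * p)))
        (u : modularFunctionFieldBar (M * p)), p • Pic0.mk D = 0 → Pe (Pic0.mk D) → u ≠ 0 →
        h69_lc (M * p) u = 1 →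
        (∀ v : Place Qb (modularFunctionFieldBar (M * p)),
          (p : ℤ) * (D : Divisor Qb (modularFunctionFieldBar (M * p))) v = v.ord u) →
        (∀ g ∈ A.inertiaSubgroupIn ℚ, g w = w →
          arithmeticGalois (modularFunctionFieldFull (M * p)) g •
            (D : Divisor Qb (modularFunctionFieldBar (M * p))) = D) →
        (∀ g ∈ A.inertiaSubgroupIn ℚ, g w = w →
          arithmeticGalois (modularFunctionFieldFull (M * p)) g • u = u) →
        h92_W6Out M p hpM A hA Sg Φ u ∧ h92_T8Out M p hpM A hA Sg Φ u) :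
    h92_TRProp M p hpM A hA x := by
  refine h92_tr_front M p hpM A hA hp2 ζ hζ x l₀ hl₀ hpl₀ hpx htor c a hx hl hζa e he0 he hpeu
    Pe hPe ?_
  intro z w hz hzI hw y hy hfix hPy
  refine h92_tr_chain_of_rows M p hpM A hA w y hy hfix Sg Φ ?_
  intro D u hD hu hlc hdiv hDfix hufix
  exact hrows z w hz hzI hw D u (by rw [hD]; exact hy) (by rw [hD]; exact hPy) hu hlc hdiv
    hDfix hufix

end Main

end Fermat.Agent.S40
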