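import Mathlib
import Fermat.Agent.S40.h31_TwistMod
import Fermat.Agent.S40.h53_NodeFun
import Fermat.Agent.S40.h92_TRMain

/-!
# S40 / (TR) row W6: the output `h92_W6Out` of the W9 assembly (helper31)

* `h31_w6_out` : `h31_w6_mod` restated with the conclusion `h92_W6Out M p hpM A hA Sg Φ u`
  (`Φ = h96_frobPerm (h84_isFrobChart_jk M p hpM A hA)`), the binder of `h92_tr_main_of_rows`;
  hypotheses: the W9 binder block `(Sg, hSg, n0, hnode)` and the node functions `a ν`;
* `h31_w6_out_of_count` : the same with the node functions produced from ANY instance of the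
  count hypotheses `h81_CountHyp` at the level (`h53_node_fun`): the only input left of row W6 is
  the thickness-one count instance (S1).

Both hold for EVERY `u ≠ 0` and every divisor `E` with `p E = div u`; no Galois hypothesis.
-/

set_option autoImplicit false
set_option synthInstance.maxHeartbeats 400000

noncomputable section

open AlgebraicCurve ModularCurve Module

namespace Fermat.Agent.S40

open Fermat.Agent.S18 Fermat.Agent.S34 Fermat.Agent.S24 Fermat.Agent.S27 Fermat.Agent.S37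
  Fermat.Agent.S36

local notation "Qb" => AlgebraicClosure ℚ

set_option maxHeartbeats 1600000 in
/-- **Row W6 in the W9 vocabulary.** -/
theorem h31_w6_out (M p : ℕ) [NeZero M] [NeZero p] [Fact p.Prime] (hpM : ¬ p ∣ M)
    (A : ValuationSubring Qb) (hA : A.LiesOverPrime p)
    [CharP (IsLocalRing.ResidueField A) p] [IsAlgClosed (IsLocalRing.ResidueField A)]
    (Sg : Finset (Place (IsLocalRing.ResidueField A)
      ↥(modularFunctionFieldFullC (IsLocalRing.ResidueField A) M)))
    (hSg : ∀ Q ∈ Sg, Q ≠ h11_placeInftyC (IsLocalRing.ResidueField A) M ∧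
      h96_frobPerm (h84_isFrobChart_jk M p hpM A hA) Q ≠
        h11_placeInftyC (IsLocalRing.ResidueField A) M ∧
      h96_frobPerm (h84_isFrobChart_jk M p hpM A hA)
        (h96_frobPerm (h84_isFrobChart_jk M p hpM A hA) Q) = Q)
    (n0 : ℕ)
    (hnode : ∀ n, n0 ≤ n → ∀ a : ↥(modularFunctionFieldFullC (IsLocalRing.ResidueField A) M) ×
        ↥(modularFunctionFieldFullC (IsLocalRing.ResidueField A) M),
      a ∈ h51_Rd (h87_D M p hpM A hA) (n • h87_D0 M p hpM) ↔
        (a ∈ h20_P (h11_placeInftyC (IsLocalRing.ResidueField A) M) n ∧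
          ∀ Q ∈ Sg, ∃ c : IsLocalRing.ResidueField A,
            h39_Val (h96_frobPerm (h84_isFrobChart_jk M p hpM A hA) Q) a.1 c ∧
              h39_Val Q a.2 c))
    (a : {Q // Q ∈ Sg} → ↥(modularFunctionFieldBar (M * p))) (na : ℕ)
    (ha : ∀ ν, a ν ∈ riemannRochSpace (na • h87_D0 M p hpM))
    (ha₁ : ∀ ν, (algebraMap Qb ↥(modularFunctionFieldBar (M * p)) (p : Qb))⁻¹ * a ν ∈
      (h60_R1 M p hpM A hA).O)
    (ha₂ : ∀ ν, a ν ∈ (h60_R2 M p hpM A hA).O)
    (haρ : ∀ ν : {Q // Q ∈ Sg},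
      (h60_R1 M p hpM A hA).redF
          ((algebraMap Qb ↥(modularFunctionFieldBar (M * p)) (p : Qb))⁻¹ * a ν) ≠ 0 ∧
        (h96_frobPerm (h84_isFrobChart_jk M p hpM A hA) ν.1).ord
          ((h60_R1 M p hpM A hA).redF
            ((algebraMap Qb ↥(modularFunctionFieldBar (M * p)) (p : Qb))⁻¹ * a ν)) = -1)
    (haα : ∀ ν : {Q // Q ∈ Sg}, (h60_R2 M p hpM A hA).redF (a ν) ≠ 0 ∧
      (ν.1).ord ((h60_R2 M p hpM A hA).redF (a ν)) = 1)
    (u : ↥(modularFunctionFieldBar (M * p))) (hu : u ≠ 0)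
    (E : Divisor Qb ↥(modularFunctionFieldBar (M * p)))
    (hE : ∀ P : Place Qb ↥(modularFunctionFieldBar (M * p)), (p : ℤ) * E P = P.ord u) :
    h92_W6Out M p hpM A hA Sg (h96_frobPerm (h84_isFrobChart_jk M p hpM A hA)) u :=
  h31_w6_mod M p hpM A hA Sg hSg n0 hnode a na ha ha₁ ha₂ haρ haα u hu E hE

set_option maxHeartbeats 1600000 in
/-- **Row W6 from the count instance**: the W9 binder block and ANY instance of
`h81_CountHyp` at the level (for the same `Sg`, `Φ`, `π = p`) give `h92_W6Out` for every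
`(E, u)` with `p E = div u`. -/
theorem h31_w6_out_of_count (M p : ℕ) [NeZero M] [NeZero p] [Fact p.Prime] (hpM : ¬ p ∣ M)
    (A : ValuationSubring Qb) (hA : A.LiesOverPrime p)
    [CharP (IsLocalRing.ResidueField A) p] [IsAlgClosed (IsLocalRing.ResidueField A)]
    (Sg : Finset (Place (IsLocalRing.ResidueField A)
      ↥(modularFunctionFieldFullC (IsLocalRing.ResidueField A) M)))
    (hSg : ∀ Q ∈ Sg, Q ≠ h11_placeInftyC (IsLocalRing.ResidueField A) M ∧
      h96_frobPerm (h84_isFrobChart_jk M p hpM A hA) Q ≠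
        h11_placeInftyC (IsLocalRing.ResidueField A) M ∧
      h96_frobPerm (h84_isFrobChart_jk M p hpM A hA)
        (h96_frobPerm (h84_isFrobChart_jk M p hpM A hA) Q) = Q)
    (n0 : ℕ)
    (hnode : ∀ n, n0 ≤ n → ∀ a : ↥(modularFunctionFieldFullC (IsLocalRing.ResidueField A) M) ×
        ↥(modularFunctionFieldFullC (IsLocalRing.ResidueField A) M),
      a ∈ h51_Rd (h87_D M p hpM A hA) (n • h87_D0 M p hpM) ↔
        (a ∈ h20_P (h11_placeInftyC (IsLocalRing.ResidueField A) M) n ∧
          ∀ Q ∈ Sg, ∃ c : IsLocalRing.ResidueField A,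
            h39_Val (h96_frobPerm (h84_isFrobChart_jk M p hpM A hA) Q) a.1 c ∧
              h39_Val Q a.2 c))
    {B F0 : Subring ↥(modularFunctionFieldBar (M * p))}
    {T : Finset (Place (IsLocalRing.ResidueField A)
      ↥(modularFunctionFieldFullC (IsLocalRing.ResidueField A) M))}
    {u0 : ↥(modularFunctionFieldBar (M * p))} {C : ℤ}
    (H : h81_CountHyp (h60_R1 M p hpM A hA) (h60_R2 M p hpM A hA) (h87_D M p hpM A hA)
      (h87_D0 M p hpM) (h11_placeInftyC (IsLocalRing.ResidueField A) M) Sg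
      (h96_frobPerm (h84_isFrobChart_jk M p hpM A hA)) B F0 T (p : Qb) u0 C)
    (u : ↥(modularFunctionFieldBar (M * p))) (hu : u ≠ 0)
    (E : Divisor Qb ↥(modularFunctionFieldBar (M * p)))
    (hE : ∀ P : Place Qb ↥(modularFunctionFieldBar (M * p)), (p : ℤ) * E P = P.ord u) :
    h92_W6Out M p hpM A hA Sg (h96_frobPerm (h84_isFrobChart_jk M p hpM A hA)) u := by
  have := h75_hasPrincipalDivisors (h84_isChart_jk M p hpM A hA)
  obtain ⟨a, na, -, ha, ha₁, ha₂, -, haρ, haα⟩ :=
    h53_node_fun H (fun v => h87_D0_nonneg M p hpM v)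
  exact h31_w6_out M p hpM A hA Sg hSg n0 hnode a na ha ha₁ ha₂ haρ haα u hu E hE

end Fermat.Agent.S40

end
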