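import Mathlib
import Fermat.Agent.S36.h67_CountMod
import Fermat.Agent.S40.h31_W6Out

/-!
# S40 / (TR) rows: the count instance and row W6 at the W9 block, closed (helper67)

Level `M p`, `p ∤ M`, `nuTwo M = nuThree M = 0`, `A` over `p`; the W9 binder block
`(Sg, hSg, n0, hnode)` of `h87_node_closed` (sharp node theorem).

* `h67_hunion_of_sharp` : the sharp node theorem gives the union form `hunion` of
  `h81_CountHyp` / `h64_node_count_mod`;
* `h67_cnt_block` : the instance of `h81_CountHyp` at the W9 block, with `D0 = h87_D0 M p hpM`,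
  `Φ = h96_frobPerm (h84_isFrobChart_jk M p hpM A hA)`, `T` the poles of `j̄` (explicit) and
  `u = h84_u M p hpM (h20_rho M p)` (explicit);
* `h67_cnt_block_ex` : the same in the existential shape (`∃ B F0 T u0 C`);
* `h67_w6_row` : row W6: `h92_W6Out` for every `(E, u)` with `p E = div u`;
* `h67_nuTwo_of_mod12`, `h67_nuThree_of_mod12` : no elliptic points at a level divisible by a
  prime `r ≡ 11 mod 12`; `h67_cnt_thin_ex`, `h67_w6_thin` : the two statements at the thin level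
  `M' r`.
-/

set_option autoImplicit false
set_option synthInstance.maxHeartbeats 400000
set_option linter.unusedSectionVars false

noncomputable section

open AlgebraicCurve ModularCurve Module

namespace Fermat.Agent.S40

open Fermat.Agent.S18 Fermat.Agent.S34 Fermat.Agent.S24 Fermat.Agent.S27 Fermat.Agent.S37
  Fermat.Agent.S36

local notation "Qb" => AlgebraicClosure ℚ

/-! ### No elliptic points -/

/-- A prime `r ≡ 11 mod 12` dividing `L` kills the elliptic points of order `2`. -/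
theorem h67_nuTwo_of_mod12 (r L : ℕ) (hr : r.Prime) (hr12 : r % 12 = 11) (hrL : r ∣ L) :
    nuTwo L = 0 := by
  have : Fact r.Prime := ⟨hr⟩
  have hr4 : r % 4 = 3 := by omega
  have hempty : IsEmpty {x : ZMod L // x ^ 2 + 1 = 0} := by
    refine ⟨fun x => ?_⟩
    have h1 : (ZMod.castHom hrL (ZMod r)) (x.1 ^ 2 + 1) = 0 := by rw [x.2, map_zero]
    rw [map_add, map_pow, map_one] at h1
    have h2 : IsSquare (-1 : ZMod r) :=
      ⟨ZMod.castHom hrL (ZMod r) x.1, by linear_combination -h1⟩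
    exact (ZMod.exists_sq_eq_neg_one_iff.1 h2) hr4
  rw [nuTwo]
  exact Nat.card_of_isEmpty

/-- A prime `r ≡ 11 mod 12` dividing `L` kills the elliptic points of order `3`. -/
theorem h67_nuThree_of_mod12 (r L : ℕ) (hr : r.Prime) (hr12 : r % 12 = 11) (hrL : r ∣ L) :
    nuThree L = 0 := by
  have : Fact r.Prime := ⟨hr⟩
  have hr3 : r % 3 = 2 := by omega
  have hempty : IsEmpty {x : ZMod L // x ^ 2 + x + 1 = 0} := by
    refine ⟨fun x => ?_⟩
    set y : ZMod r := ZMod.castHom hrL (ZMod r) x.1 with hy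
    have h1 : y ^ 2 + y + 1 = 0 := by
      have h := congrArg (ZMod.castHom hrL (ZMod r)) x.2
      rwa [map_add, map_add, map_pow, map_one, map_zero] at h
    have hy3 : y ^ 3 = 1 := by linear_combination (y - 1) * h1
    have hy1 : y ≠ 1 := by
      rintro h
      rw [h] at h1
      have h3 : ((3 : ℕ) : ZMod r) = 0 := by
        push_cast
        linear_combination h1
      rw [ZMod.natCast_eq_zero_iff] at h3
      have := (Nat.prime_dvd_prime_iff_eq hr Nat.prime_three).1 h3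
      omega
    have hy0 : y ≠ 0 := by
      rintro h
      rw [h] at hy3
      simp at hy3
    have hord : orderOf y = 3 := orderOf_eq_prime hy3 hy1
    have hdvd : orderOf y ∣ r - 1 := ZMod.orderOf_dvd_card_sub_one hy0
    rw [hord] at hdvd
    omega
  rw [nuThree]
  exact Nat.card_of_isEmpty

/-! ### From the sharp node theorem to the union form -/

section Generic

variable {K F k Fb : Type*} [Field K] [Field F] [Algebra K F] [Field k] [Field Fb] [Algebra k Fb]

/-- The sharp node theorem (for `n ≥ n0`) gives the union form. -/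
theorem h67_hunion_of_sharp (D : h22_Lat K F k (Fb × Fb)) (D0 : Divisor K F)
    (hD0 : ∀ v, 0 ≤ D0 v) (Qinf : Place k Fb) (Sg : Finset (Place k Fb))
    (Φ : Place k Fb → Place k Fb) (n0 : ℕ)
    (hnode : ∀ n, n0 ≤ n → ∀ a : Fb × Fb, a ∈ h51_Rd D (n • D0) ↔
      (a ∈ h20_P Qinf n ∧ ∀ Q ∈ Sg, ∃ c : k, h39_Val (Φ Q) a.1 c ∧ h39_Val Q a.2 c)) :
    ∀ a : Fb × Fb, (∃ n : ℕ, a ∈ h51_Rd D (n • D0)) ↔
      (∃ n : ℕ, a.1 ∈ h16_Linf Qinf n ∧ a.2 ∈ h16_Linf Qinf n) ∧
        ∀ Q ∈ Sg, ∃ c : k, h39_Val (Φ Q) a.1 c ∧ h39_Val Q a.2 c := by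
  intro a
  constructor
  · rintro ⟨n, f, hfL, hfO, hfa⟩
    have hm : a ∈ h51_Rd D (max n n0 • D0) :=
      ⟨f, h53_rr_nsmul_mono hD0 (le_max_left n n0) hfL, hfO, hfa⟩
    obtain ⟨hP, hN⟩ := (hnode (max n n0) (le_max_right n n0) a).mp hm
    exact ⟨⟨max n n0, (h20_mem_P.mp hP).1, (h20_mem_P.mp hP).2⟩, hN⟩
  · rintro ⟨⟨n, h1, h2⟩, hN⟩
    refine ⟨max n n0, (hnode (max n n0) (le_max_right n n0) a).mpr ⟨h20_mem_P.mpr ⟨?_, ?_⟩, hN⟩⟩
    · exact h16_Linf_mono Qinf (le_max_left n n0) h1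
    · exact h16_Linf_mono Qinf (le_max_left n n0) h2

end Generic

/-! ### The W9 block -/

section Block

variable (M p : ℕ) [NeZero M] [NeZero p] [Fact p.Prime] (hpM : ¬ p ∣ M)
  (A : ValuationSubring Qb) (hA : A.LiesOverPrime p)
  [CharP (IsLocalRing.ResidueField A) p] [IsAlgClosed (IsLocalRing.ResidueField A)]

set_option maxHeartbeats 1600000 in
/-- **The count instance at the W9 block** (`T` and `u` explicit). -/
theorem h67_cnt_block (hch : 5 ≤ p ∨ 2 ∣ M ∨ 3 ∣ M) (h2 : nuTwo M = 0) (h3 : nuThree M = 0)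
    (Sg : Finset (Place (IsLocalRing.ResidueField A)
      ↥(modularFunctionFieldFullC (IsLocalRing.ResidueField A) M)))
    (hSg : ∀ Q ∈ Sg, Q ≠ h11_placeInftyC (IsLocalRing.ResidueField A) M ∧
      h96_frobPerm (h84_isFrobChart_jk M p hpM A hA) Q ≠
        h11_placeInftyC (IsLocalRing.ResidueField A) M ∧
      h96_frobPerm (h84_isFrobChart_jk M p hpM A hA)
        (h96_frobPerm (h84_isFrobChart_jk M p hpM A hA) Q) = Q)
    (n0 : ℕ)
    (hnode : ∀ n, n0 ≤ n → ∀ a : ↥(modularFunctionFieldFullC (IsLocalRing.ResidueField A) M) ×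
        ↥(modularFunctionFieldFullC (IsLocalRing.ResidueField A) M),
      a ∈ h51_Rd (h87_D M p hpM A hA) (n • h87_D0 M p hpM) ↔
        (a ∈ h20_P (h11_placeInftyC (IsLocalRing.ResidueField A) M) n ∧
          ∀ Q ∈ Sg, ∃ c : IsLocalRing.ResidueField A,
            h39_Val (h96_frobPerm (h84_isFrobChart_jk M p hpM A hA) Q) a.1 c ∧
              h39_Val Q a.2 c))
    (T : Finset (Place (IsLocalRing.ResidueField A)
      ↥(modularFunctionFieldFullC (IsLocalRing.ResidueField A) M)))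
    (hT : ∀ P, P ∈ T ↔ P.ord (h54_jk (IsLocalRing.ResidueField A) M) < 0) :
    h81_CountHyp (h60_R1 M p hpM A hA) (h60_R2 M p hpM A hA) (h87_D M p hpM A hA)
      (h87_D0 M p hpM) (h11_placeInftyC (IsLocalRing.ResidueField A) M) Sg
      (h96_frobPerm (h84_isFrobChart_jk M p hpM A hA))
      (h67_cnt_B (K := Qb) (h59_jbar (M * p)))
      (h69_F0 (M * p) (A.inertiaSubgroupIn ℚ)).toSubring T (p : Qb)
      (h84_u M p hpM (h20_rho M p)) (((p - 1 : ℕ) : ℤ) * (dedekindPsi M : ℤ)) := by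
  have hunion := h67_hunion_of_sharp (h87_D M p hpM A hA) (h87_D0 M p hpM)
    (fun v => h87_D0_nonneg M p hpM v) (h11_placeInftyC (IsLocalRing.ResidueField A) M) Sg
    (h96_frobPerm (h84_isFrobChart_jk M p hpM A hA)) n0 hnode
  exact h67_cnt_mod M p hpM A hA hch h2 h3 (h87_Pinf_spec (M * p)) (h87_P0_spec M p hpM) Sg
    (h96_frobPerm (h84_isFrobChart_jk M p hpM A hA))
    (h96_frobPerm (h84_isFrobChart_jk M p hpM A hA)).injective
    (fun Q hQ => ⟨(hSg Q hQ).1, (hSg Q hQ).2.1⟩) hunion T hT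

set_option maxHeartbeats 1600000 in
/-- **The count instance at the W9 block**, existential shape. -/
theorem h67_cnt_block_ex (hch : 5 ≤ p ∨ 2 ∣ M ∨ 3 ∣ M) (h2 : nuTwo M = 0) (h3 : nuThree M = 0)
    (Sg : Finset (Place (IsLocalRing.ResidueField A)
      ↥(modularFunctionFieldFullC (IsLocalRing.ResidueField A) M)))
    (hSg : ∀ Q ∈ Sg, Q ≠ h11_placeInftyC (IsLocalRing.ResidueField A) M ∧
      h96_frobPerm (h84_isFrobChart_jk M p hpM A hA) Q ≠
        h11_placeInftyC (IsLocalRing.ResidueField A) M ∧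
      h96_frobPerm (h84_isFrobChart_jk M p hpM A hA)
        (h96_frobPerm (h84_isFrobChart_jk M p hpM A hA) Q) = Q)
    (n0 : ℕ)
    (hnode : ∀ n, n0 ≤ n → ∀ a : ↥(modularFunctionFieldFullC (IsLocalRing.ResidueField A) M) ×
        ↥(modularFunctionFieldFullC (IsLocalRing.ResidueField A) M),
      a ∈ h51_Rd (h87_D M p hpM A hA) (n • h87_D0 M p hpM) ↔
        (a ∈ h20_P (h11_placeInftyC (IsLocalRing.ResidueField A) M) n ∧
          ∀ Q ∈ Sg, ∃ c : IsLocalRing.ResidueField A,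
            h39_Val (h96_frobPerm (h84_isFrobChart_jk M p hpM A hA) Q) a.1 c ∧
              h39_Val Q a.2 c)) :
    ∃ (B F0 : Subring ↥(modularFunctionFieldBar (M * p)))
      (T : Finset (Place (IsLocalRing.ResidueField A)
        ↥(modularFunctionFieldFullC (IsLocalRing.ResidueField A) M)))
      (u0 : ↥(modularFunctionFieldBar (M * p))) (C : ℤ),
      h81_CountHyp (h60_R1 M p hpM A hA) (h60_R2 M p hpM A hA) (h87_D M p hpM A hA)
        (h87_D0 M p hpM) (h11_placeInftyC (IsLocalRing.ResidueField A) M) Sg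
        (h96_frobPerm (h84_isFrobChart_jk M p hpM A hA)) B F0 T (p : Qb) u0 C := by
  obtain ⟨T, hT⟩ := h67_cnt_exists_T M p hpM A hA hch
  exact ⟨_, _, T, _, _, h67_cnt_block M p hpM A hA hch h2 h3 Sg hSg n0 hnode T hT⟩

set_option maxHeartbeats 1600000 in
/-- **Row W6 at the W9 block, closed.** -/
theorem h67_w6_row
    (hch : 5 ≤ p ∨ 2 ∣ M ∨ 3 ∣ M) (h2 : nuTwo M = 0) (h3 : nuThree M = 0)
    (Sg : Finset (Place (IsLocalRing.ResidueField A)
      ↥(modularFunctionFieldFullC (IsLocalRing.ResidueField A) M)))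
    (hSg : ∀ Q ∈ Sg, Q ≠ h11_placeInftyC (IsLocalRing.ResidueField A) M ∧
      h96_frobPerm (h84_isFrobChart_jk M p hpM A hA) Q ≠
        h11_placeInftyC (IsLocalRing.ResidueField A) M ∧
      h96_frobPerm (h84_isFrobChart_jk M p hpM A hA)
        (h96_frobPerm (h84_isFrobChart_jk M p hpM A hA) Q) = Q)
    (n0 : ℕ)
    (hnode : ∀ n, n0 ≤ n → ∀ a : ↥(modularFunctionFieldFullC (IsLocalRing.ResidueField A) M) ×
        ↥(modularFunctionFieldFullC (IsLocalRing.ResidueField A) M),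
      a ∈ h51_Rd (h87_D M p hpM A hA) (n • h87_D0 M p hpM) ↔
        (a ∈ h20_P (h11_placeInftyC (IsLocalRing.ResidueField A) M) n ∧
          ∀ Q ∈ Sg, ∃ c : IsLocalRing.ResidueField A,
            h39_Val (h96_frobPerm (h84_isFrobChart_jk M p hpM A hA) Q) a.1 c ∧
              h39_Val Q a.2 c))
    (u : ↥(modularFunctionFieldBar (M * p))) (hu : u ≠ 0)
    (E : Divisor Qb ↥(modularFunctionFieldBar (M * p)))
    (hE : ∀ P : Place Qb ↥(modularFunctionFieldBar (M * p)), (p : ℤ) * E P = P.ord u) :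
    h92_W6Out M p hpM A hA Sg (h96_frobPerm (h84_isFrobChart_jk M p hpM A hA)) u := by
  obtain ⟨T, hT⟩ := h67_cnt_exists_T M p hpM A hA hch
  exact h31_w6_out_of_count M p hpM A hA Sg hSg n0 hnode
    (h67_cnt_block M p hpM A hA hch h2 h3 Sg hSg n0 hnode T hT) u hu E hE

end Block

/-! ### The thin level `M' r`, `r ≡ 11 mod 12` -/

section Thin

variable (M' p r : ℕ) [NeZero M'] [NeZero p] [NeZero r] [Fact p.Prime] (hpMr : ¬ p ∣ M' * r)
  (A : ValuationSubring Qb) (hA : A.LiesOverPrime p)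
  [CharP (IsLocalRing.ResidueField A) p] [IsAlgClosed (IsLocalRing.ResidueField A)]

set_option maxHeartbeats 1600000 in
/-- **The count instance at the thin level**, existential shape (`hcount` of the rows top). -/
theorem h67_cnt_thin_ex (hp5 : 5 ≤ p) (hr : r.Prime) (hr12 : r % 12 = 11)
    (Sg : Finset (Place (IsLocalRing.ResidueField A)
      ↥(modularFunctionFieldFullC (IsLocalRing.ResidueField A) (M' * r))))
    (hSg : ∀ Q ∈ Sg, Q ≠ h11_placeInftyC (IsLocalRing.ResidueField A) (M' * r) ∧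
      h96_frobPerm (h84_isFrobChart_jk (M' * r) p hpMr A hA) Q ≠
        h11_placeInftyC (IsLocalRing.ResidueField A) (M' * r) ∧
      h96_frobPerm (h84_isFrobChart_jk (M' * r) p hpMr A hA)
        (h96_frobPerm (h84_isFrobChart_jk (M' * r) p hpMr A hA) Q) = Q)
    (n0 : ℕ)
    (hnode : ∀ n, n0 ≤ n →
      ∀ a : ↥(modularFunctionFieldFullC (IsLocalRing.ResidueField A) (M' * r)) ×
        ↥(modularFunctionFieldFullC (IsLocalRing.ResidueField A) (M' * r)),
      a ∈ h51_Rd (h87_D (M' * r) p hpMr A hA) (n • h87_D0 (M' * r) p hpMr) ↔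
        (a ∈ h20_P (h11_placeInftyC (IsLocalRing.ResidueField A) (M' * r)) n ∧
          ∀ Q ∈ Sg, ∃ c : IsLocalRing.ResidueField A,
            h39_Val (h96_frobPerm (h84_isFrobChart_jk (M' * r) p hpMr A hA) Q) a.1 c ∧
              h39_Val Q a.2 c)) :
    ∃ (B F0 : Subring ↥(modularFunctionFieldBar (M' * r * p)))
      (T : Finset (Place (IsLocalRing.ResidueField A)
        ↥(modularFunctionFieldFullC (IsLocalRing.ResidueField A) (M' * r))))
      (u0 : ↥(modularFunctionFieldBar (M' * r * p))) (C : ℤ),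
      h81_CountHyp (h60_R1 (M' * r) p hpMr A hA) (h60_R2 (M' * r) p hpMr A hA)
        (h87_D (M' * r) p hpMr A hA) (h87_D0 (M' * r) p hpMr)
        (h11_placeInftyC (IsLocalRing.ResidueField A) (M' * r)) Sg
        (h96_frobPerm (h84_isFrobChart_jk (M' * r) p hpMr A hA)) B F0 T (p : Qb) u0 C :=
  h67_cnt_block_ex (M' * r) p hpMr A hA (Or.inl hp5)
    (h67_nuTwo_of_mod12 r (M' * r) hr hr12 (dvd_mul_left r M'))
    (h67_nuThree_of_mod12 r (M' * r) hr hr12 (dvd_mul_left r M')) Sg hSg n0 hnode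

set_option maxHeartbeats 1600000 in
/-- **Row W6 at the thin level, closed.** -/
theorem h67_w6_thin (hp5 : 5 ≤ p) (hr : r.Prime) (hr12 : r % 12 = 11)
    (Sg : Finset (Place (IsLocalRing.ResidueField A)
      ↥(modularFunctionFieldFullC (IsLocalRing.ResidueField A) (M' * r))))
    (hSg : ∀ Q ∈ Sg, Q ≠ h11_placeInftyC (IsLocalRing.ResidueField A) (M' * r) ∧
      h96_frobPerm (h84_isFrobChart_jk (M' * r) p hpMr A hA) Q ≠
        h11_placeInftyC (IsLocalRing.ResidueField A) (M' * r) ∧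
      h96_frobPerm (h84_isFrobChart_jk (M' * r) p hpMr A hA)
        (h96_frobPerm (h84_isFrobChart_jk (M' * r) p hpMr A hA) Q) = Q)
    (n0 : ℕ)
    (hnode : ∀ n, n0 ≤ n →
      ∀ a : ↥(modularFunctionFieldFullC (IsLocalRing.ResidueField A) (M' * r)) ×
        ↥(modularFunctionFieldFullC (IsLocalRing.ResidueField A) (M' * r)),
      a ∈ h51_Rd (h87_D (M' * r) p hpMr A hA) (n • h87_D0 (M' * r) p hpMr) ↔
        (a ∈ h20_P (h11_placeInftyC (IsLocalRing.ResidueField A) (M' * r)) n ∧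
          ∀ Q ∈ Sg, ∃ c : IsLocalRing.ResidueField A,
            h39_Val (h96_frobPerm (h84_isFrobChart_jk (M' * r) p hpMr A hA) Q) a.1 c ∧
              h39_Val Q a.2 c))
    (u : ↥(modularFunctionFieldBar (M' * r * p))) (hu : u ≠ 0)
    (E : Divisor Qb ↥(modularFunctionFieldBar (M' * r * p)))
    (hE : ∀ P : Place Qb ↥(modularFunctionFieldBar (M' * r * p)), (p : ℤ) * E P = P.ord u) :
    h92_W6Out (M' * r) p hpMr A hA Sg (h96_frobPerm (h84_isFrobChart_jk (M' * r) p hpMr A hA)) u :=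
  h67_w6_row (M' * r) p hpMr A hA (Or.inl hp5)
    (h67_nuTwo_of_mod12 r (M' * r) hr hr12 (dvd_mul_left r M'))
    (h67_nuThree_of_mod12 r (M' * r) hr hr12 (dvd_mul_left r M')) Sg hSg n0 hnode u hu E hE

end Thin

end Fermat.Agent.S40

end
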