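/-
S40 (G40), row T8 (END-JET): the FINAL PLUG (helper12).

`h12_t8_out` : at a charted level `M p` with the W9 binder block `(Sg, hSg, n0, hnode)`, one
Hecke prime `ℓ ∤ M p` with `p ∤ ℓ + 1 - a`, a W0 pair `(z, w)` and a class `[D]`, `p D = div u`,
`T_ℓ [D] = a [D]`, `D` and `u` fixed by the stabiliser of `w` in the inertia group:
`h92_T8Out M p hpM A hA Sg Φ u`, i.e. `p ∣ h43_rord R1 (Φ Q) u` for every `Q ∈ Sg`.

Assembly: count instance `h67_cnt_block` + node functions `h53_node_fun`; jets and W7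
(`h50_w7_plug`) at the pair `(z, w)` and at the auxiliary pair `(1, w')`; W8 datum
`h15w_datum_of_w7`; (T8-JET) `h12_t8_of_jets`.
-/
import Mathlib
import Fermat.Agent.S40.h12_EndJetPlug
import Fermat.Agent.S40.h50_W7Plug
import Fermat.Agent.S40.h15_WNormPair
import Fermat.Agent.S40.h67_W6Row
import Fermat.Agent.S40.h53_NodeFun
import Fermat.Agent.S40.h92_TRMain

set_option autoImplicit false
set_option synthInstance.maxHeartbeats 400000

noncomputable section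

open ModularCurve AlgebraicCurve Module

namespace Fermat.Agent.S40

open Fermat.Agent.GAL Fermat.Agent.S37 Fermat.Agent.S34 Fermat.Agent.S18 Fermat.Agent.S24
  Fermat.Agent.S36 Fermat.Agent.S27

local notation "Qb" => AlgebraicClosure ℚ
local notation "Γℚ" => (AlgebraicClosure ℚ ≃ₐ[ℚ] AlgebraicClosure ℚ)

set_option maxHeartbeats 3200000 in
/-- **Row T8 at a charted level (END-JET route), final form.** -/
theorem h12_t8_out (M p : ℕ) [NeZero M] [NeZero p] [Fact p.Prime] (hp2 : p ≠ 2) (hpM : ¬ p ∣ M)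
    (A : ValuationSubring Qb) (hA : A.LiesOverPrime p)
    [CharP (IsLocalRing.ResidueField A) p] [IsAlgClosed (IsLocalRing.ResidueField A)]
    (hch : 5 ≤ p ∨ 2 ∣ M ∨ 3 ∣ M) (h2 : nuTwo M = 0) (h3 : nuThree M = 0)
    (Sg : Finset (Place (IsLocalRing.ResidueField A)
      ↥(modularFunctionFieldFullC (IsLocalRing.ResidueField A) M)))
    (hSg : ∀ Q ∈ Sg, Q ≠ h11_placeInftyC (IsLocalRing.ResidueField A) M ∧
      h96_frobPerm (h84_isFrobChart_jk M p hpM A hA) Q ≠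
        h11_placeInftyC (IsLocalRing.ResidueField A) M ∧
      h96_frobPerm (h84_isFrobChart_jk M p hpM A hA)
        (h96_frobPerm (h84_isFrobChart_jk M p hpM A hA) Q) = Q)
    (n0 : ℕ)
    (hnode : ∀ n, n0 ≤ n → ∀ a : ↥(modularFunctionFieldFullC (IsLocalRing.ResidueField A) M) ×
        ↥(modularFunctionFieldFullC (IsLocalRing.ResidueField A) M),
      a ∈ h51_Rd (h87_D M p hpM A hA) (n • h87_D0 M p hpM) ↔
        (a ∈ h20_P (h11_placeInftyC (IsLocalRing.ResidueField A) M) n ∧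
          ∀ Q ∈ Sg, ∃ c : IsLocalRing.ResidueField A,
            h39_Val (h96_frobPerm (h84_isFrobChart_jk M p hpM A hA) Q) a.1 c ∧
              h39_Val Q a.2 c))
    (ℓ : ℕ) [NeZero ℓ] (hℓ : ℓ.Prime) (hℓMp : ¬ ℓ ∣ M * p)
    (aℓ : ℤ) (hna : ¬ (p : ℤ) ∣ (ℓ : ℤ) + 1 - aℓ)
    (z w : Qb) (hz : A.valuation z = 1) (hzI : ∀ g ∈ A.inertiaSubgroupIn ℚ, g z = z)
    (hw : (1 + w) ^ p = 1 + (p : Qb) * z)
    (D : Divisor.degZero (K := Qb) (F := modularFunctionFieldBar (M * p)))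
    (u : ↥(modularFunctionFieldBar (M * p))) (hu : u ≠ 0)
    (hdiv : ∀ v : Place Qb ↥(modularFunctionFieldBar (M * p)),
      (p : ℤ) * (D : Divisor Qb ↥(modularFunctionFieldBar (M * p))) v = v.ord u)
    (hT : heckeOperatorBar (M * p) ⟨ℓ, hℓ⟩ (Pic0.mk D) = aℓ • Pic0.mk D)
    (hDfix : ∀ g ∈ A.inertiaSubgroupIn ℚ, g w = w →
      arithmeticGalois (modularFunctionFieldFull (M * p)) g •
        (D : Divisor Qb ↥(modularFunctionFieldBar (M * p))) = D)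
    (hufix : ∀ g ∈ A.inertiaSubgroupIn ℚ, g w = w →
      arithmeticGalois (modularFunctionFieldFull (M * p)) g • u = u) :
    h92_T8Out M p hpM A hA Sg (h96_frobPerm (h84_isFrobChart_jk M p hpM A hA)) u := by
  intro Q hQ
  have hp : p.Prime := Fact.out
  obtain ⟨ζ, hζ⟩ := HasEnoughRootsOfUnity.exists_primitiveRoot Qb p
  -- the count instance and the node functions
  obtain ⟨T, hT'⟩ := h67_cnt_exists_T M p hpM A hA hch
  have H := h67_cnt_block M p hpM A hA hch h2 h3 Sg hSg n0 hnode T hT'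
  have := h75_hasPrincipalDivisors (h84_isChart_jk M p hpM A hA)
  obtain ⟨a, na, haF0, ha, ha₁, ha₂, -, haρ, haα⟩ :=
    h53_node_fun H (fun v => h87_D0_nonneg M p hpM v)
  have ha0 : ∀ ν, a ν ∈ h69_F0 (M * p) (A.inertiaSubgroupIn ℚ) := fun ν => haF0 ν
  -- jets and W7 at the pair of the class
  obtain ⟨g, J1, J2, ⟨⟨hdist, horb, -⟩, ⟨hJe1, hJe2⟩, -, -, -, -, -, hlam⟩, hW7⟩ :=
    h50_w7_plug M p hp2 hpM A hA Sg hSg n0 hnode a na ha0 ha ha₁ ha₂ haρ haα ζ hζ z w hz hzI hw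
  -- jets and W7 at the auxiliary pair `(1, w')`
  obtain ⟨w', hw'⟩ := h12_exists_aux p
  have hz1 : A.valuation (1 : Qb) = 1 := map_one _
  have hzI1 : ∀ g ∈ A.inertiaSubgroupIn ℚ, g (1 : Qb) = 1 := fun g _ => map_one g
  obtain ⟨g', J1', J2', ⟨-, -, hJa', -, hJc', -, -, hlam'⟩, hW7'⟩ :=
    h50_w7_plug M p hp2 hpM A hA Sg hSg n0 hnode a na ha0 ha ha₁ ha₂ haρ haα ζ hζ 1 w' hz1 hzI1
      hw'
  -- the W8 datum of the class
  obtain ⟨a', κ, u₁, u₂, hu₁, -, -, -, h12, -, hR1, hR2, hfix⟩ :=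
    h15w_datum_of_w7 M p hp2 hpM A hA _ _ J1' J2' hJc'.1 hJc'.2 _ hlam'
      (fun ν : {Q // Q ∈ Sg} => h96_frobPerm (h84_isFrobChart_jk M p hpM A hA) ν.1) ⟨Q, hQ⟩ hW7'
      (fun f hfix hfO => by
        have hfS : f ∈ h25_SH (h60_R1 M p hpM A hA) (h25_rho (M * p) (A.inertiaSubgroupIn ℚ))
            (algebraMap Qb ↥(modularFunctionFieldBar (M * p)) w') :=
          ⟨hfO, fun γ _ => hfix (γ : Γℚ) γ.2⟩
        refine ⟨hfS, ?_⟩
        rw [hJa'.1 ⟨f, hfS⟩ ((h69_mem_F0 (M * p) (A.inertiaSubgroupIn ℚ) _).mpr hfix)]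
        rfl)
      (fun f hfix hfO => by
        have hfS : f ∈ h25_SH (h60_R2 M p hpM A hA) (h25_rho (M * p) (A.inertiaSubgroupIn ℚ))
            (algebraMap Qb ↥(modularFunctionFieldBar (M * p)) w') :=
          ⟨hfO, fun γ _ => hfix (γ : Γℚ) γ.2⟩
        refine ⟨hfS, ?_⟩
        rw [hJa'.2 ⟨f, hfS⟩ ((h69_mem_F0 (M * p) (A.inertiaSubgroupIn ℚ) _).mpr hfix)]
        rfl)
      ζ hζ z w hz hzI hw u hu hufix
      (D : Divisor Qb ↥(modularFunctionFieldBar (M * p))) hDfix hdiv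
  -- (T8-JET)
  have hpMℓ : ¬ p ∣ M * ℓ := by
    intro h
    rcases (Nat.Prime.dvd_mul hp).mp h with h | h
    · exact hpM h
    · have hpl : p = ℓ := (Nat.prime_dvd_prime_iff_eq hp hℓ).mp h
      exact hℓMp (by rw [← hpl]; exact dvd_mul_left p M)
  have hw0 : w ≠ 0 := (h12_eis_ne_zero p A hA z w hz hw).2
  exact h12_t8_of_jets M p hpM A hA ℓ hℓ hℓMp hpMℓ aℓ hna z w hz hw g hdist horb J1 hJe1 J2 hJe2
    _ hlam (fun ν : {Q // Q ∈ Sg} => h96_frobPerm (h84_isFrobChart_jk M p hpM A hA) ν.1) hW7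
    D u hdiv hT (w ^ a') (zpow_ne_zero _ hw0) κ u₁ u₂ hu₁ h12 hR1 hR2 hfix ⟨Q, hQ⟩

end Fermat.Agent.S40
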