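/-
G40 / S40, E-side layer (PEU-E), part (A) (helper13): the sharp bound for `p`-torsion in the
kernel of reduction,  `v(p) ≤ v(t(z))^(p-1)`,  without formal groups: the `p`-division polynomial
of S13 (`h3_divPoly`) + the Newton/Gauss bound (`h42_newton_bound_family`) + a change of
variables to `Y² = X³ + aX² + bX`.
-/
import Mathlib
import Fermat.Agent.S05.h86_Formal
import Fermat.Agent.S05.h15_VarChange
import Fermat.Agent.S05.InertiaVal
import Fermat.Agent.S13.h3_Ladder
import Fermat.Agent.S13.h42_Newton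
import Fermat.Agent.S13.h42_NewtonGal

set_option autoImplicit false

namespace Fermat.Agent.S40

open WeierstrassCurve Polynomial Fermat.Agent.S05 Fermat.Agent.S13

section Generic

variable {K : Type*} [Field K] [DecidableEq K] (A : ValuationSubring K) (W : WeierstrassCurve K)

/-- The `X`-coordinate of a point (`0` at the origin). -/
def h13_X : W.toAffine.Point → K
  | .zero => 0
  | .some x _ _ => x

omit [DecidableEq K] in
lemma h13_X_some {x y : K} (h : W.toAffine.Nonsingular x y) :
    h13_X W (Affine.Point.some x y h) = x := rfl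

omit [DecidableEq K] in
/-- For a point with non-integral `x`: `v(x) * v(x/y)^2 = 1`. -/
lemma h13_val_x_mul_t_sq (hW : h86_Integral A W) {x y : K} (h : W.toAffine.Nonsingular x y)
    (hx : 1 < A.valuation x) :
    A.valuation x * A.valuation (x / y) ^ 2 = 1 := by
  have hv : ∀ a : K, a ∈ A → A.valuation a ≤ 1 := fun a ha => (A.valuation_le_one_iff a).mpr ha
  obtain ⟨h1, h2, h3, h4, h6⟩ := hW
  obtain ⟨hy0, hx0, hzlt, hw, -⟩ := h86_chart A.valuation (hv _ h1) (hv _ h2) (hv _ h3) (hv _ h4)
    (hv _ h6) ((Affine.equation_iff ..).mp h.1) hx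
  have hvx : A.valuation x ≠ 0 := (A.valuation.ne_zero_iff).mpr hx0
  have hvy : A.valuation y ≠ 0 := (A.valuation.ne_zero_iff).mpr hy0
  rw [map_div₀, map_div₀, map_one] at hw
  rw [map_div₀]
  -- hw : 1 / v y = (v x / v y)^3
  have e : A.valuation x ^ 3 = A.valuation y ^ 2 := by
    have h5 : (1 / A.valuation y) * A.valuation y ^ 3 =
        (A.valuation x / A.valuation y) ^ 3 * A.valuation y ^ 3 := by rw [hw]
    rw [div_pow, div_mul_cancel₀ _ (pow_ne_zero 3 hvy)] at h5
    rw [← h5, one_div, pow_succ (A.valuation y) 2, ← mul_assoc, mul_comm, ← mul_assoc,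
      mul_inv_cancel₀ hvy, one_mul]
  rw [div_pow, ← mul_div_assoc, ← pow_succ', div_eq_one_iff_eq (pow_ne_zero 2 hvy)]
  exact e

/-- Multiples by valuation units of a point of the kernel of reduction: the multiple is an
affine point whose `x` has the same valuation. -/
lemma h13_nsmul_val (hW : h86_Integral A W) {x y : K} (h : W.toAffine.Nonsingular x y)
    (hx : 1 < A.valuation x) (k : ℕ) (hk : A.valuation (k : K) = 1) :
    ∃ (xk yk : K) (hk' : W.toAffine.Nonsingular xk yk),
      k • (Affine.Point.some x y h : W.toAffine.Point) = Affine.Point.some xk yk hk' ∧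
        A.valuation xk = A.valuation x := by
  have hv : ∀ a : K, a ∈ A → A.valuation a ≤ 1 := fun a ha => (A.valuation_le_one_iff a).mpr ha
  have hW' := hW
  obtain ⟨h1, h2, h3, h4, h6⟩ := hW
  have hP : h86_inE1 A.valuation W (Affine.Point.some x y h) := hx
  obtain ⟨hin, hb⟩ := h86_nsmul_aux A.valuation W (hv _ h1) (hv _ h2) (hv _ h3) (hv _ h4)
    (hv _ h6) hP k
  obtain ⟨hy0, hx0, hzlt, -, -⟩ := h86_chart A.valuation (hv _ h1) (hv _ h2) (hv _ h3) (hv _ h4)
    (hv _ h6) ((Affine.equation_iff ..).mp h.1) hx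
  rw [h86_t_some] at hb
  have ht0 : A.valuation (x / y) ≠ 0 := (A.valuation.ne_zero_iff).mpr (div_ne_zero hx0 hy0)
  have hpos : 0 < A.valuation (x / y) := zero_lt_iff.mpr ht0
  have hsq : A.valuation (x / y) ^ 2 < A.valuation (x / y) :=
    pow_lt_self_of_lt_one₀ hpos hzlt (by norm_num)
  have hkt : A.valuation ((k : K) * (x / y)) = A.valuation (x / y) := by
    rw [map_mul, hk, one_mul]
  have htk : A.valuation (h86_t W (k • (Affine.Point.some x y h : W.toAffine.Point))) =
      A.valuation (x / y) := by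
    have e : h86_t W (k • (Affine.Point.some x y h : W.toAffine.Point)) =
        (h86_t W (k • (Affine.Point.some x y h : W.toAffine.Point)) - (k : K) * (x / y)) +
          (k : K) * (x / y) := by ring
    rw [e, A.valuation.map_add_eq_of_lt_right (by rw [hkt]; exact lt_of_le_of_lt hb hsq), hkt]
  rcases hkP : k • (Affine.Point.some x y h : W.toAffine.Point) with _ | ⟨xk, yk, hk'⟩
  · rw [hkP] at htk
    change A.valuation (0 : K) = _ at htk
    rw [map_zero] at htk
    exact absurd htk.symm ht0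
  · refine ⟨xk, yk, hk', rfl, ?_⟩
    rw [hkP] at hin htk
    have hxk : 1 < A.valuation xk := hin
    rw [h86_t_some] at htk
    have e1 := h13_val_x_mul_t_sq A W hW' hk' hxk
    have e2 := h13_val_x_mul_t_sq A W hW' h hx
    rw [htk] at e1
    have hne : A.valuation (x / y) ^ 2 ≠ 0 := pow_ne_zero 2 ht0
    exact mul_right_cancel₀ hne (e1.trans e2.symm)

omit [DecidableEq K] in
/-- Two affine points with the same `X` are equal or opposite. -/
lemma h13_same_X {x y y' : K} (h : W.toAffine.Nonsingular x y)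
    (h' : W.toAffine.Nonsingular x y') :
    Affine.Point.some x y' h' = Affine.Point.some x y h ∨
      Affine.Point.some x y' h' = -Affine.Point.some x y h := by
  rcases Affine.Y_eq_of_X_eq h'.1 h.1 rfl with e | e
  · left
    subst e
    rfl
  · right
    rw [Affine.Point.neg_some, Affine.Point.some.injEq]
    exact ⟨rfl, e⟩

/-- **Sharp bound, polynomial form.**  If an integral polynomial `f` vanishes at the
`x`-coordinates of the affine `p`-torsion points, a `p`-torsion point `z` of the kernel of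
reduction satisfies `v(lc f) * v(x(z))^((p-1)/2) ≤ 1`. -/
theorem h13_sharp_of_poly (hW : h86_Integral A W) {p : ℕ} (hp : p.Prime) (hp2 : p ≠ 2)
    (hB : A.LiesOverPrime p) (f : K[X]) (hf : ∀ i, A.valuation (f.coeff i) ≤ 1)
    (hroot : ∀ (x y : K) (h : W.toAffine.Nonsingular x y),
      p • (Affine.Point.some x y h : W.toAffine.Point) = 0 → f.IsRoot x)
    {x y : K} (h : W.toAffine.Nonsingular x y) (hx : 1 < A.valuation x)
    (hz : p • (Affine.Point.some x y h : W.toAffine.Point) = 0) :
    A.valuation f.leadingCoeff * A.valuation x ^ ((p - 1) / 2) ≤ 1 := by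
  classical
  have hodd : p % 2 = 1 := by
    rcases hp.eq_two_or_odd with h2 | h2
    · exact absurd h2 hp2
    · exact h2
  have hp3 : 3 ≤ p := by
    have := hp.two_le
    omega
  set z : W.toAffine.Point := Affine.Point.some x y h with hzdef
  -- multiples `k • z`, `0 < k < p`
  have hmul : ∀ k : ℕ, 0 < k → k < p → ∃ (xk yk : K) (hk' : W.toAffine.Nonsingular xk yk),
      k • z = Affine.Point.some xk yk hk' ∧ A.valuation xk = A.valuation x := by
    intro k hk0 hkp
    refine h13_nsmul_val A W hW h hx k ?_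
    exact valuation_natCast_eq_one A p hp hB k (fun hdvd => by
      have := Nat.le_of_dvd hk0 hdvd
      omega)
  have hne : ∀ k : ℕ, 0 < k → k < p → k • z ≠ 0 := by
    intro k hk0 hkp h0
    obtain ⟨xk, yk, hk', e, -⟩ := hmul k hk0 hkp
    rw [e] at h0
    exact Affine.Point.some_ne_zero hk' h0
  -- the family of roots
  let ξ : Fin ((p - 1) / 2) → K := fun i => h13_X W (((i : ℕ) + 1) • z)
  have hξval : ∀ i, A.valuation (ξ i) = A.valuation x := by
    intro i
    obtain ⟨xk, yk, hk', e, hv⟩ := hmul ((i : ℕ) + 1) (by omega) (by have := i.2; omega)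
    change A.valuation (h13_X W (((i : ℕ) + 1) • z)) = _
    rw [e, h13_X_some, hv]
  have hξroot : ∀ i, f.IsRoot (ξ i) := by
    intro i
    obtain ⟨xk, yk, hk', e, hv⟩ := hmul ((i : ℕ) + 1) (by omega) (by have := i.2; omega)
    change f.IsRoot (h13_X W (((i : ℕ) + 1) • z))
    rw [e, h13_X_some]
    apply hroot xk yk hk'
    rw [← e, smul_comm, hz, smul_zero]
  have hξinj : Function.Injective ξ := by
    intro i j hij
    by_contra hne'
    have hij' : (i : ℕ) ≠ (j : ℕ) := fun e => hne' (Fin.ext e)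
    obtain ⟨xi, yi, hi', ei, -⟩ := hmul ((i : ℕ) + 1) (by omega) (by have := i.2; omega)
    obtain ⟨xj, yj, hj', ej, -⟩ := hmul ((j : ℕ) + 1) (by omega) (by have := j.2; omega)
    have hX : xi = xj := by
      have : h13_X W (((i : ℕ) + 1) • z) = h13_X W (((j : ℕ) + 1) • z) := hij
      rwa [ei, ej, h13_X_some, h13_X_some] at this
    subst hX
    rcases h13_same_X W hj' hi' with e | e
    · -- `(i+1) • z = (j+1) • z`
      have e' : ((i : ℕ) + 1) • z = ((j : ℕ) + 1) • z := by rw [ei, ej, e]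
      rcases Nat.lt_or_gt_of_ne hij' with hlt | hlt
      · apply hne ((j : ℕ) - (i : ℕ)) (by omega) (by have := j.2; omega)
        have e3 : ((j : ℕ) + 1) • z = ((j : ℕ) - (i : ℕ)) • z + ((i : ℕ) + 1) • z := by
          rw [← add_nsmul]; congr 1; omega
        rw [e3] at e'
        exact (add_eq_right.mp e'.symm)
      · apply hne ((i : ℕ) - (j : ℕ)) (by omega) (by have := i.2; omega)
        have e3 : ((i : ℕ) + 1) • z = ((i : ℕ) - (j : ℕ)) • z + ((j : ℕ) + 1) • z := by
          rw [← add_nsmul]; congr 1; omega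
        rw [e3] at e'
        exact (add_eq_right.mp e')
    · -- `(i+1) • z = -(j+1) • z`
      have e' : ((i : ℕ) + 1) • z = -(((j : ℕ) + 1) • z) := by rw [ei, ej, e]
      apply hne ((i : ℕ) + 1 + ((j : ℕ) + 1)) (by omega) (by have := i.2; have := j.2; omega)
      rw [add_nsmul, e', neg_add_cancel]
  have hbig : ∀ i, 1 < A.valuation (ξ i) := fun i => by rw [hξval i]; exact hx
  have key := h42_newton_bound_family A.valuation f hf ξ hξinj hξroot hbig
  rw [Finset.prod_congr rfl (fun i _ => hξval i), Finset.prod_const, Finset.card_univ,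
    Fintype.card_fin] at key
  exact key

end Generic

section Div

variable {K : Type*} [Field K] [DecidableEq K] (A : ValuationSubring K) (W : WeierstrassCurve K)

omit [DecidableEq K] in
/-- A root of a monic integral cubic is integral. -/
lemma h13_cubic_root_mem {c₂ c₁ c₀ r : K} (h2 : c₂ ∈ A) (h1 : c₁ ∈ A) (h0 : c₀ ∈ A)
    (hr : r ^ 3 + c₂ * r ^ 2 + c₁ * r + c₀ = 0) : r ∈ A := by
  by_contra hr'
  have hr0 : r ≠ 0 := fun h => hr' (h ▸ A.zero_mem)
  have hinv : r⁻¹ ∈ A := (A.mem_or_inv_mem r).resolve_left hr'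
  have key : r = -(c₂ + c₁ * r⁻¹ + c₀ * r⁻¹ ^ 2) := by
    field_simp
    linear_combination hr
  apply hr'
  rw [key]
  exact A.neg_mem _ (A.add_mem _ _ (A.add_mem _ _ h2 (A.mul_mem _ _ h1 hinv))
    (A.mul_mem _ _ h0 (pow_mem hinv 2)))

/-- **Existence of an integral `p`-division polynomial** for an integral Weierstrass curve with
`Δ ≠ 0` over an algebraically closed field in which `2` is a unit of `A`: a polynomial with
coefficients in `A`, leading coefficient `p`, vanishing at the `x`-coordinates of all affine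
`p`-torsion points. -/
theorem h13_exists_divpoly [IsAlgClosed K] (hW : h86_Integral A W) (hΔ : W.Δ ≠ 0)
    (h2 : (2 : K) ∉ A.nonunits) {p : ℕ} (hodd : p % 2 = 1) (hpK : (p : K) ≠ 0) :
    ∃ f : K[X], (∀ i, A.valuation (f.coeff i) ≤ 1) ∧ f.leadingCoeff = (p : K) ∧
      ∀ (x y : K) (h : W.toAffine.Nonsingular x y),
        p • (Affine.Point.some x y h : W.toAffine.Point) = 0 → f.IsRoot x := by
  obtain ⟨h1, h2', h3, h4, h6⟩ := hW
  have hhalf : (2 : K)⁻¹ ∈ A := h26_inv_mem_of_not_mem_nonunits A h2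
  have h20 : (2 : K) ≠ 0 := fun h => h2 (by
    rw [h, ValuationSubring.mem_nonunits_iff, map_zero]; exact zero_lt_one)
  -- the 2-division cubic
  set c₂ : K := W.a₂ + W.a₁ ^ 2 * (2 : K)⁻¹ ^ 2 with hc₂
  set c₁ : K := W.a₄ + W.a₁ * W.a₃ * (2 : K)⁻¹ with hc₁
  set c₀ : K := W.a₆ + W.a₃ ^ 2 * (2 : K)⁻¹ ^ 2 with hc₀
  have hc₂m : c₂ ∈ A := A.add_mem _ _ h2' (A.mul_mem _ _ (pow_mem h1 2) (pow_mem hhalf 2))
  have hc₁m : c₁ ∈ A := A.add_mem _ _ h4 (A.mul_mem _ _ (A.mul_mem _ _ h1 h3) hhalf)
  have hc₀m : c₀ ∈ A := A.add_mem _ _ h6 (A.mul_mem _ _ (pow_mem h3 2) (pow_mem hhalf 2))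
  obtain ⟨r, hr⟩ : ∃ r : K, r ^ 3 + c₂ * r ^ 2 + c₁ * r + c₀ = 0 := by
    have hdeg : (X ^ 3 + C c₂ * X ^ 2 + C c₁ * X + C c₀ : K[X]).degree ≠ 0 := by
      have : (X ^ 3 + C c₂ * X ^ 2 + C c₁ * X + C c₀ : K[X]).degree = 3 := by
        compute_degree!
      rw [this]; norm_num
    obtain ⟨r, hr⟩ := IsAlgClosed.exists_root _ hdeg
    refine ⟨r, ?_⟩
    simpa using hr
  have hrm : r ∈ A := h13_cubic_root_mem A hc₂m hc₁m hc₀m hr
  -- the change of variables
  set Cv : VariableChange K := ⟨1, r, -(W.a₁ * (2 : K)⁻¹), -((W.a₃ + r * W.a₁) * (2 : K)⁻¹)⟩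
    with hCv
  set a : K := (Cv • W).a₂ with ha
  set b : K := (Cv • W).a₄ with hb
  have e1 : (Cv • W).a₁ = 0 := by
    rw [variableChange_a₁]
    simp only [hCv, inv_one, Units.val_one]
    field_simp
    ring
  have e3 : (Cv • W).a₃ = 0 := by
    rw [variableChange_a₃]
    simp only [hCv, inv_one, Units.val_one]
    field_simp
    ring
  have e6 : (Cv • W).a₆ = 0 := by
    rw [variableChange_a₆]
    simp only [hCv, inv_one, Units.val_one]
    rw [hc₂, hc₁, hc₀] at hr
    field_simp at hr ⊢
    linear_combination hr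
  have he : shortW a b = Cv • W := by
    ext
    · exact e1.symm
    · rfl
    · exact e3.symm
    · rfl
    · exact e6.symm
  have ham : a ∈ A := by
    rw [ha, variableChange_a₂]
    simp only [hCv, inv_one, Units.val_one, one_pow, one_mul]
    have h3m : (3 : K) ∈ A := ofNat_mem A 3
    have hs : -(W.a₁ * (2 : K)⁻¹) ∈ A := A.neg_mem _ (A.mul_mem _ _ h1 hhalf)
    exact A.sub_mem (A.add_mem _ _ (A.sub_mem h2' (A.mul_mem _ _ hs h1)) (A.mul_mem _ _ h3m hrm))
      (pow_mem hs 2)
  have hbm : b ∈ A := by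
    rw [hb, variableChange_a₄]
    simp only [hCv, inv_one, Units.val_one, one_pow, one_mul]
    have h2m : (2 : K) ∈ A := ofNat_mem A 2
    have h3m : (3 : K) ∈ A := ofNat_mem A 3
    have hs : -(W.a₁ * (2 : K)⁻¹) ∈ A := A.neg_mem _ (A.mul_mem _ _ h1 hhalf)
    have ht : -((W.a₃ + r * W.a₁) * (2 : K)⁻¹) ∈ A :=
      A.neg_mem _ (A.mul_mem _ _ (A.add_mem _ _ h3 (A.mul_mem _ _ hrm h1)) hhalf)
    refine A.sub_mem (A.add_mem _ _ (A.sub_mem (A.add_mem _ _ (A.sub_mem h4 (A.mul_mem _ _ hs h3))
      (A.mul_mem _ _ (A.mul_mem _ _ h2m hrm) h2')) (A.mul_mem _ _ (A.add_mem _ _ ht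
      (A.mul_mem _ _ hrm hs)) h1)) (A.mul_mem _ _ h3m (pow_mem hrm 2)))
      (A.mul_mem _ _ (A.mul_mem _ _ h2m hs) ht)
  -- nondegeneracy
  have hΔ' : (shortW a b).Δ ≠ 0 := by
    rw [he, variableChange_Δ]
    simp only [hCv, inv_one, Units.val_one, one_pow, one_mul]
    exact hΔ
  rw [shortW_Δ] at hΔ'
  have hb0 : b ≠ 0 := by
    rintro h0
    apply hΔ'
    rw [h0]; ring
  have hd0 : a ^ 2 - 4 * b ≠ 0 := by
    intro h0
    apply hΔ'
    rw [h0]; ring
  -- the polynomial
  set DA : Polynomial A := h3_divPoly (⟨a, ham⟩ : A) (⟨b, hbm⟩ : A) (p / 2) with hDA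
  have hD : h3_divPoly a b (p / 2) = DA.map A.subtype := by
    rw [hDA, ← h3_divPoly_map]
    rfl
  set fA : Polynomial A := DA.comp (X - C (⟨r, hrm⟩ : A)) with hfA
  refine ⟨fA.map A.subtype, fun i => h42_coeff_map_subtype_le_one A fA i, ?_, ?_⟩
  · -- leading coefficient
    have hcomp : fA.map A.subtype = (h3_divPoly a b (p / 2)).comp (X - C r) := by
      rw [hfA, Polynomial.map_comp, ← hD]
      simp
    rw [hcomp, Polynomial.leadingCoeff_comp (by rw [natDegree_X_sub_C]; norm_num),
      leadingCoeff_X_sub_C, one_pow, mul_one]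
    have htop := h3_divPoly_top_odd a b (p := p) hodd
    have hdeg : (h3_divPoly a b (p / 2)).natDegree = (p ^ 2 - 1) / 2 := by
      refine le_antisymm htop.1 ?_
      apply le_natDegree_of_ne_zero
      rw [htop.2]
      exact hpK
    rw [Polynomial.leadingCoeff, hdeg, htop.2]
  · intro x y h hz
    have hcomp : fA.map A.subtype = (h3_divPoly a b (p / 2)).comp (X - C r) := by
      rw [hfA, Polynomial.map_comp, ← hD]
      simp
    rw [hcomp, Polynomial.IsRoot, Polynomial.eval_comp]
    simp only [eval_sub, eval_X, eval_C]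
    -- transport the point
    set φ := h15_vcEquiv W Cv (shortW a b) he with hφ
    obtain ⟨T', hT'⟩ := φ.surjective (Affine.Point.some x y h)
    have hpT' : p • T' = 0 := by
      apply φ.injective
      rw [map_nsmul, hT', hz, map_zero]
    rcases T' with _ | ⟨x', y', h'⟩
    · have : φ 0 = 0 := map_zero φ
      rw [show (Affine.Point.zero : (shortW a b).toAffine.Point) = 0 from rfl, this] at hT'
      exact absurd hT'.symm (Affine.Point.some_ne_zero h)
    · rw [hφ, h15_vcEquiv_some, Affine.Point.some.injEq] at hT'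
      have hx' : x' = x - r := by
        have := hT'.1
        simp only [h15_X, hCv, Units.val_one, one_pow, one_mul] at this
        rw [← this]; ring
      rw [← hx']
      exact (h3_nsmul_eq_zero_iff_odd h20 hb0 hd0 h' hodd).mp hpT'

/-- **Sharp bound** (part (A) of (PEU-E)): for an integral Weierstrass curve with `Δ ≠ 0` over an
algebraically closed field and an odd prime `p` in the maximal ideal, a point `z = (x, y)` of the
kernel of reduction with `p • z = 0` satisfies `v(p) * v(x)^((p-1)/2) ≤ 1`. -/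
theorem h13_sharp_x [IsAlgClosed K] (hW : h86_Integral A W) (hΔ : W.Δ ≠ 0)
    {p : ℕ} (hp : p.Prime) (hp2 : p ≠ 2) (hB : A.LiesOverPrime p)
    {x y : K} (h : W.toAffine.Nonsingular x y) (hx : 1 < A.valuation x)
    (hz : p • (Affine.Point.some x y h : W.toAffine.Point) = 0) :
    A.valuation (p : K) * A.valuation x ^ ((p - 1) / 2) ≤ 1 := by
  have hodd : p % 2 = 1 := by
    rcases hp.eq_two_or_odd with h2 | h2
    · exact absurd h2 hp2
    · exact h2
  by_cases hpK : (p : K) = 0
  · rw [hpK, map_zero, zero_mul]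
    exact zero_le_one
  have h2 : (2 : K) ∉ A.nonunits := by
    have h2u : A.valuation ((2 : ℕ) : K) = 1 :=
      valuation_natCast_eq_one A p hp hB 2 (fun hd => hp2 ((Nat.prime_dvd_prime_iff_eq hp
        Nat.prime_two).mp hd))
    rw [ValuationSubring.mem_nonunits_iff]
    have : A.valuation (2 : K) = 1 := by exact_mod_cast h2u
    rw [this]
    exact lt_irrefl _
  obtain ⟨f, hf, hlc, hroot⟩ := h13_exists_divpoly A W hW hΔ h2 hodd hpK
  have key := h13_sharp_of_poly A W hW hp hp2 hB f hf hroot h hx hz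
  rwa [hlc] at key

/-- **Sharp bound** in terms of the parameter `t = x / y`: `v(p) ≤ v(t(z))^(p-1)` for a
`p`-torsion point `z` of the kernel of reduction. -/
theorem h13_sharp_t [IsAlgClosed K] (hW : h86_Integral A W) (hΔ : W.Δ ≠ 0)
    {p : ℕ} (hp : p.Prime) (hp2 : p ≠ 2) (hB : A.LiesOverPrime p)
    {x y : K} (h : W.toAffine.Nonsingular x y) (hx : 1 < A.valuation x)
    (hz : p • (Affine.Point.some x y h : W.toAffine.Point) = 0) :
    A.valuation (p : K) ≤ A.valuation (x / y) ^ (p - 1) := by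
  have hodd : p % 2 = 1 := by
    rcases hp.eq_two_or_odd with h2 | h2
    · exact absurd h2 hp2
    · exact h2
  have key := h13_sharp_x A W hW hΔ hp hp2 hB h hx hz
  have e := h13_val_x_mul_t_sq A W hW h hx
  have hm : 2 * ((p - 1) / 2) = p - 1 := by omega
  have e2 : A.valuation x ^ ((p - 1) / 2) * A.valuation (x / y) ^ (p - 1) = 1 := by
    have e3 : A.valuation (x / y) ^ (p - 1) = (A.valuation (x / y) ^ 2) ^ ((p - 1) / 2) := by
      rw [← pow_mul, hm]
    rw [e3, ← mul_pow, e, one_pow]
  calc A.valuation (p : K)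
      = A.valuation (p : K) * (A.valuation x ^ ((p - 1) / 2) * A.valuation (x / y) ^ (p - 1)) := by
        rw [e2, mul_one]
    _ = (A.valuation (p : K) * A.valuation x ^ ((p - 1) / 2)) * A.valuation (x / y) ^ (p - 1) := by
        rw [mul_assoc]
    _ ≤ 1 * A.valuation (x / y) ^ (p - 1) := by gcongr
    _ = A.valuation (x / y) ^ (p - 1) := one_mul _

end Div

end Fermat.Agent.S40
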