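import Mathlib
import Fermat.Agent.S05.h86_Formal

/-!
# G40 / S40, E-side, row (E-b): the sharp depth of the `ω`-line (helper76)

Generic statement (valued field `K`, Weierstrass curve with integral coefficients, `p` a prime
of positive valuation, `ζ` a primitive `p`-th root of unity, `I` a set of ring automorphisms
acting trivially on the residue field, with the "inertia field is unramified" property `hUnr`
as a hypothesis).  If `R ≠ 0` is a `p`-torsion point of the kernel of reduction on which every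
`σ ∈ I` acts through the cyclotomic character (`σ(t(jR)) = t(njR)` whenever `σ ζ = ζ ^ n`), and
some `σ₀ ∈ I` has a cyclotomic character generating `(ℤ/p)ˣ`, then

  `v (t R) = v (ζ - 1)`.

No formal-group theory beyond `h86_nsmul_aux` (additivity of `t = x / y` up to second order):
the mod-`p` structure of the `[p]`-series is replaced by the tame character.

* `h76_natCast_unit`        : `v (j : K) = 1` for `p ∤ j`;
* `h76_val_p_eq`            : `v p = v (ζ - 1) ^ (p - 1)`;
* `h76_depth_eq`            : the statement above.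
-/

set_option autoImplicit false

namespace Fermat.Agent.S40

open WeierstrassCurve WeierstrassCurve.Affine Polynomial Finset
open Fermat.Agent.S05

section val

variable {K : Type*} [Field K] {Γ₀ : Type*} [LinearOrderedCommGroupWithZero Γ₀]
  (v : Valuation K Γ₀)

/-- A natural number prime to `p` is a unit when `p` has positive valuation. -/
theorem h76_natCast_unit {p : ℕ} (hp : p.Prime) (hpv : v (p : K) < 1) {j : ℕ} (hj : ¬ p ∣ j) :
    v (j : K) = 1 := by
  refine le_antisymm (h86_natCast_le_one v j) ?_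
  by_contra hlt
  rw [not_le] at hlt
  have hcop : Nat.Coprime j p := (Nat.Coprime.symm ((Nat.Prime.coprime_iff_not_dvd hp).2 hj))
  obtain ⟨m, -, hm⟩ := Nat.exists_mul_mod_eq_one_of_coprime hcop hp.one_lt
  have e : (1 : K) = (j : K) * (m : K) - (p : K) * ((j * m / p : ℕ) : K) := by
    have h1 : j * m = p * (j * m / p) + 1 := by
      have := Nat.div_add_mod (j * m) p
      omega
    have h2 : ((j * m : ℕ) : K) = ((p * (j * m / p) + 1 : ℕ) : K) := by rw [← h1]
    push_cast at h2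
    linear_combination -h2
  have h3 : v (1 : K) < 1 := by
    rw [e]
    refine v.map_sub_lt ?_ ?_
    · rw [map_mul]
      exact lt_of_le_of_lt (mul_le_of_le_one_right' (h86_natCast_le_one v m)) hlt
    · rw [map_mul]
      exact lt_of_le_of_lt (mul_le_of_le_one_right' (h86_natCast_le_one v _)) hpv
  rw [map_one] at h3
  exact lt_irrefl _ h3

/-- A root of unity has valuation one. -/
theorem h76_val_root {n : ℕ} (hn : n ≠ 0) {ζ : K} (hζ : ζ ^ n = 1) : v ζ = 1 := by
  have h : v ζ ^ n = 1 := by rw [← map_pow, hζ, map_one]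
  exact (pow_eq_one_iff_of_nonneg zero_le hn).mp h

/-- Geometric sums of an element of valuation `≤ 1` are integral. -/
theorem h76_geom_le {x : K} (hx : v x ≤ 1) (n : ℕ) : v (∑ i ∈ range n, x ^ i) ≤ 1 := by
  refine v.map_sum_le fun i _ => ?_
  rw [map_pow]
  exact pow_le_one' hx i

/-- `ζ ^ i - 1` and `ζ - 1` have the same valuation for `p ∤ i` (`ζ ^ p = 1`, `p` prime). -/
theorem h76_val_pow_sub_one {p : ℕ} (hp : p.Prime) {ζ : K} (hζp : ζ ^ p = 1) {i : ℕ}
    (hi : ¬ p ∣ i) : v (ζ ^ i - 1) = v (ζ - 1) := by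
  have hvζ : v ζ = 1 := h76_val_root v hp.ne_zero hζp
  refine le_antisymm ?_ ?_
  · rw [← mul_geom_sum, map_mul]
    exact mul_le_of_le_one_right' (h76_geom_le v hvζ.le i)
  · have hcop : Nat.Coprime i p := (Nat.Coprime.symm ((Nat.Prime.coprime_iff_not_dvd hp).2 hi))
    obtain ⟨m, -, hm⟩ := Nat.exists_mul_mod_eq_one_of_coprime hcop hp.one_lt
    have h1 : i * m = p * (i * m / p) + 1 := by
      have := Nat.div_add_mod (i * m) p
      omega
    have h2 : (ζ ^ i) ^ m = ζ := by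
      rw [← pow_mul, h1, pow_add, pow_mul, hζp, one_pow, one_mul, pow_one]
    have h3 : ζ - 1 = (ζ ^ i - 1) * ∑ l ∈ range m, (ζ ^ i) ^ l := by
      rw [mul_geom_sum, h2]
    rw [h3, map_mul]
    refine mul_le_of_le_one_right' (h76_geom_le v ?_ m)
    rw [map_pow, hvζ, one_pow]

/-- `v p = v (ζ - 1) ^ (p - 1)` for a primitive `p`-th root of unity `ζ`. -/
theorem h76_val_p_eq {p : ℕ} (hp : p.Prime) {ζ : K} (hζ1 : ζ ≠ 1) (hζp : ζ ^ p = 1) :
    v (p : K) = v (ζ - 1) ^ (p - 1) := by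
  have : Fact p.Prime := ⟨hp⟩
  have hprim : IsPrimitiveRoot ζ p := by
    have h := orderOf_eq_prime hζp hζ1
    rw [← h]
    exact IsPrimitiveRoot.orderOf ζ
  have e1 : cyclotomic p K = ∏ μ ∈ primitiveRoots p K, (X - C μ) :=
    cyclotomic_eq_prod_X_sub_primitiveRoots hprim
  have e2 : eval 1 (cyclotomic p K) = (p : K) := eval_one_cyclotomic_prime
  rw [e1, eval_prod] at e2
  rw [← e2, map_prod]
  have h3 : ∀ μ ∈ primitiveRoots p K, v (eval 1 (X - C μ)) = v (ζ - 1) := by
    intro μ hμ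
    rw [mem_primitiveRoots hp.pos] at hμ
    obtain ⟨i, -, rfl⟩ := hprim.eq_pow_of_pow_eq_one hμ.pow_eq_one
    have hi : ¬ p ∣ i := by
      intro hd
      obtain ⟨c, rfl⟩ := hd
      have h1 : ζ ^ (p * c) = 1 := by rw [pow_mul, hζp, one_pow]
      rw [h1] at hμ
      exact hp.one_lt.ne' (hμ.unique IsPrimitiveRoot.one)
    rw [eval_sub, eval_X, eval_C, ← Valuation.map_neg, neg_sub]
    exact h76_val_pow_sub_one v hp hζp hi
  rw [Finset.prod_congr rfl h3, Finset.prod_const, hprim.card_primitiveRoots,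
    Nat.totient_prime hp]

end val

section main

variable {K : Type*} [Field K] [DecidableEq K] {Γ₀ : Type*} [LinearOrderedCommGroupWithZero Γ₀]
  (v : Valuation K Γ₀) (W : WeierstrassCurve K)

/-- Multiples of a `p`-torsion point depend only on the multiplier modulo `p`. -/
theorem h76_smul_mod {p : ℕ} {R : W.toAffine.Point} (hRp : p • R = 0) (a : ℕ) :
    a • R = (a % p) • R := by
  conv_lhs => rw [← Nat.div_add_mod a p]
  rw [add_smul, mul_comm, mul_smul, hRp, smul_zero, zero_add]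

/-- The parameter of a prime-to-`p` multiple has the same valuation. -/
theorem h76_val_t_smul (h1 : v W.a₁ ≤ 1) (h2 : v W.a₂ ≤ 1) (h3 : v W.a₃ ≤ 1) (h4 : v W.a₄ ≤ 1)
    (h6 : v W.a₆ ≤ 1) {p : ℕ} (hp : p.Prime) (hpv : v (p : K) < 1)
    {R : W.toAffine.Point} (hR1 : h86_inE1 v W R) {j : ℕ} (hj : ¬ p ∣ j) :
    v (h86_t W (j • R)) = v (h86_t W R) := by
  have h := (h86_nsmul_aux v W h1 h2 h3 h4 h6 hR1 j).2
  have hlt := h86_t_lt_one v W h1 h2 h3 h4 h6 hR1
  have hu : v ((j : K) * h86_t W R) = v (h86_t W R) := by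
    rw [map_mul, h76_natCast_unit v hp hpv hj, one_mul]
  by_cases ht : h86_t W R = 0
  · rw [ht, mul_zero, sub_zero, map_zero, zero_pow (by norm_num)] at h
    rw [ht, map_zero]
    exact le_antisymm h zero_le
  · have hpos : 0 < v (h86_t W R) := zero_lt_iff.mpr (v.ne_zero_iff.mpr ht)
    have e : h86_t W (j • R) = (h86_t W (j • R) - j * h86_t W R) + j * h86_t W R := by ring
    rw [e, v.map_add_eq_of_lt_right, hu]
    rw [hu]
    exact lt_of_le_of_lt h (pow_lt_self_of_lt_one₀ hpos hlt (by norm_num))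

/-- **(E-b), generic form.** Sharp depth of a `p`-torsion point of the kernel of reduction on
which `I` acts through the cyclotomic character. -/
theorem h76_depth_eq (h1 : v W.a₁ ≤ 1) (h2 : v W.a₂ ≤ 1) (h3 : v W.a₃ ≤ 1) (h4 : v W.a₄ ≤ 1)
    (h6 : v W.a₆ ≤ 1) {p : ℕ} (hp : p.Prime) (hpv : v (p : K) < 1)
    {ζ : K} (hζ1 : ζ ≠ 1) (hζp : ζ ^ p = 1)
    (I : Set (K ≃+* K))
    (hIm : ∀ σ ∈ I, ∀ x : K, v x ≤ 1 → v (σ x - x) < 1)
    (hUnr : ∀ a : K, v a < 1 → (∀ σ ∈ I, σ a = a) → v a ≤ v (p : K))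
    {R : W.toAffine.Point} (hR1 : h86_inE1 v W R) (hR0 : R ≠ 0) (hRp : p • R = 0)
    (hω : ∀ σ ∈ I, ∃ n : ℕ, σ ζ = ζ ^ n ∧
      ∀ j : ℕ, σ (h86_t W (j • R)) = h86_t W ((n * j) • R))
    (hgen : ∃ σ ∈ I, ∀ n : ℕ, σ ζ = ζ ^ n → orderOf (n : ZMod p) = p - 1) :
    v (h86_t W R) = v (ζ - 1) := by
  have hF : Fact p.Prime := ⟨hp⟩
  have hzlt : v (h86_t W R) < 1 := h86_t_lt_one v W h1 h2 h3 h4 h6 hR1
  have ht0 : h86_t W R ≠ 0 := by
    rcases R with _ | ⟨x, y, h⟩
    · exact absurd rfl hR0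
    · obtain ⟨hy0, hx0, -, -, -⟩ :=
        h86_chart v h1 h2 h3 h4 h6 ((Affine.equation_iff ..).mp h.1) hR1
      exact div_ne_zero hx0 hy0
  have htpos : 0 < v (h86_t W R) := zero_lt_iff.mpr (v.ne_zero_iff.mpr ht0)
  have hns : ∀ k : ℕ, v (h86_t W (k • R) - k * h86_t W R) ≤ v (h86_t W R) ^ 2 :=
    fun k => (h86_nsmul_aux v W h1 h2 h3 h4 h6 hR1 k).2
  -- `t` is not deeper than `p`
  have hpt : v (p : K) ≤ v (h86_t W R) := by
    have h := hns p
    rw [hRp, h86_t_zero, zero_sub, Valuation.map_neg, map_mul, pow_two] at h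
    exact le_of_mul_le_mul_right h htpos
  -- the uniformiser `ζ - 1`
  have hπ0 : ζ - 1 ≠ 0 := sub_ne_zero.mpr hζ1
  have hvp : v (p : K) = v (ζ - 1) ^ (p - 1) := h76_val_p_eq v hp hζ1 hζp
  have hvπpos : 0 < v (ζ - 1) := zero_lt_iff.mpr (v.ne_zero_iff.mpr hπ0)
  have hvp0 : 0 < v (p : K) := by rw [hvp]; exact pow_pos hvπpos _
  have hvπlt : v (ζ - 1) < 1 := by
    by_contra h
    rw [not_lt] at h
    have h' : 1 ≤ v (ζ - 1) ^ (p - 1) := one_le_pow₀ h
    rw [← hvp] at h'
    exact absurd hpv (not_lt.mpr h')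
  have hvζ : v ζ = 1 := h76_val_root v hp.ne_zero hζp
  -- the norm of `t` over `I`: the product over the nonzero multiples of `R`
  obtain ⟨N, hN⟩ : ∃ N : K, N = ∏ u : (ZMod p)ˣ, h86_t W ((u : ZMod p).val • R) := ⟨_, rfl⟩
  have hvN : v N = v (h86_t W R) ^ (p - 1) := by
    rw [hN, map_prod]
    have hu : ∀ u : (ZMod p)ˣ, v (h86_t W ((u : ZMod p).val • R)) = v (h86_t W R) := fun u => by
      apply h76_val_t_smul v W h1 h2 h3 h4 h6 hp hpv hR1
      intro hd
      have h0 : (((u : ZMod p).val : ℕ) : ZMod p) = 0 := (ZMod.natCast_eq_zero_iff _ _).mpr hd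
      rw [ZMod.natCast_zmod_val] at h0
      exact u.ne_zero h0
    rw [Finset.prod_congr rfl (fun u _ => hu u), Finset.prod_const, Finset.card_univ,
      ZMod.card_units_eq_totient, Nat.totient_prime hp]
  have hNfix : ∀ σ ∈ I, σ N = N := by
    intro σ hσ
    obtain ⟨n, hn, hj⟩ := hω σ hσ
    have hnp : ¬ p ∣ n := by
      rintro ⟨c, rfl⟩
      rw [pow_mul, hζp, one_pow] at hn
      exact hζ1 (σ.injective (by rw [hn, map_one]))
    have hcop : Nat.Coprime n p := ((Nat.Prime.coprime_iff_not_dvd hp).2 hnp).symm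
    rw [hN, map_prod,
      ← Equiv.prod_comp (Equiv.mulLeft (ZMod.unitOfCoprime n hcop))
        (fun u : (ZMod p)ˣ => h86_t W ((u : ZMod p).val • R))]
    refine Finset.prod_congr rfl fun u _ => ?_
    rw [hj, h76_smul_mod W hRp (n * _),
      h76_smul_mod W hRp ((((Equiv.mulLeft (ZMod.unitOfCoprime n hcop)) u : (ZMod p)ˣ) :
        ZMod p).val)]
    congr 2
    simp [ZMod.val_mul, ZMod.val_natCast, Nat.mul_mod]
  have hp1 : p - 1 ≠ 0 := by have := hp.two_le; omega
  have hNlt : v N < 1 := by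
    rw [hvN]
    exact pow_lt_one₀ zero_le hzlt hp1
  -- `v N` is a power of `v p` (the inertia field is unramified)
  have key : ∀ m : ℕ, (∃ k < m, v N = v (p : K) ^ k) ∨ v N ≤ v (p : K) ^ m := by
    intro m
    induction m with
    | zero => right; simpa using hNlt.le
    | succ m ih =>
      rcases ih with ⟨k, hk, e⟩ | hle
      · exact Or.inl ⟨k, Nat.lt_succ_of_lt hk, e⟩
      · rcases hle.eq_or_lt with e | hlt
        · exact Or.inl ⟨m, Nat.lt_succ_self m, e⟩
        · right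
          have hfix : ∀ σ ∈ I, σ (N / (p : K) ^ m) = N / (p : K) ^ m := fun σ hσ => by
            rw [map_div₀, map_pow, map_natCast, hNfix σ hσ]
          have hv : v (N / (p : K) ^ m) < 1 := by
            rw [map_div₀, map_pow]
            exact (div_lt_one₀ (pow_pos hvp0 m)).mpr hlt
          have h := hUnr _ hv hfix
          rw [map_div₀, map_pow, div_le_iff₀ (pow_pos hvp0 m)] at h
          rw [pow_succ']
          exact h
  obtain ⟨k, hk1, hkp, hkN⟩ : ∃ k : ℕ, 1 ≤ k ∧ k < p ∧ v N = v (p : K) ^ k := by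
    rcases key p with ⟨k, hk, e⟩ | hle
    · refine ⟨k, ?_, hk, e⟩
      by_contra h0
      have hk0 : k = 0 := by omega
      subst hk0
      rw [pow_zero] at e
      exact hNlt.ne e
    · exfalso
      have ha : v (p : K) ^ (p - 1) ≤ v (h86_t W R) ^ (p - 1) := pow_le_pow_left₀ zero_le hpt _
      have hb : v (p : K) ^ p < v (p : K) ^ (p - 1) := by
        have e : v (p : K) ^ p = v (p : K) ^ (p - 1) * v (p : K) := by
          rw [← pow_succ]
          congr 1
          omega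
        rw [e]
        exact mul_lt_of_lt_one_right (pow_pos hvp0 _) hpv
      rw [hvN] at hle
      exact absurd (ha.trans hle) (not_le.mpr hb)
  have hvt : v (h86_t W R) = v (ζ - 1) ^ k := by
    have h : v (h86_t W R) ^ (p - 1) = (v (ζ - 1) ^ k) ^ (p - 1) := by
      rw [← hvN, hkN, hvp, ← pow_mul, ← pow_mul, mul_comm]
    exact (pow_left_inj₀ zero_le zero_le hp1).mp h
  -- the tame character pins `k = 1`
  obtain ⟨σ, hσ, hσgen⟩ := hgen
  obtain ⟨n, hn, hj⟩ := hω σ hσ
  have hord := hσgen n hn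
  have hnp : ¬ p ∣ n := by
    rintro ⟨c, rfl⟩
    rw [pow_mul, hζp, one_pow] at hn
    exact hζ1 (σ.injective (by rw [hn, map_one]))
  have hσt : σ (h86_t W R) = h86_t W (n • R) := by
    have h := hj 1
    rwa [one_smul, mul_one] at h
  have hd : v (σ (h86_t W R) - n * h86_t W R) ≤ v (h86_t W R) ^ 2 := by
    rw [hσt]
    exact hns n
  obtain ⟨g, hg⟩ : ∃ g : K, g = ∑ i ∈ range n, ζ ^ i := ⟨_, rfl⟩
  have hσπ : σ (ζ - 1) = (ζ - 1) * g := by
    rw [map_sub, map_one, hn, hg, mul_geom_sum]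
  have hg1 : v g ≤ 1 := by
    rw [hg]
    exact h76_geom_le v hvζ.le n
  have hgn : v (g - n) < 1 := by
    have e : g - (n : K) = ∑ i ∈ range n, (ζ ^ i - 1) := by
      rw [hg, Finset.sum_sub_distrib, Finset.sum_const, Finset.card_range, nsmul_eq_mul, mul_one]
    rw [e]
    refine v.map_sum_lt one_ne_zero fun i _ => ?_
    rw [← mul_geom_sum, map_mul]
    exact lt_of_le_of_lt (mul_le_of_le_one_right' (h76_geom_le v hvζ.le i)) hvπlt
  have hvn1 : v (n : K) ≤ 1 := h86_natCast_le_one v n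
  have hgk : ∀ m : ℕ, v (g ^ m - (n : K) ^ m) < 1 := by
    intro m
    induction m with
    | zero => simp
    | succ m ih =>
      have e : g ^ (m + 1) - (n : K) ^ (m + 1) =
          g * (g ^ m - (n : K) ^ m) + (g - n) * (n : K) ^ m := by ring
      rw [e]
      refine v.map_add_lt ?_ ?_
      · rw [map_mul]
        exact lt_of_le_of_lt (mul_le_of_le_one_left' hg1) ih
      · rw [map_mul, map_pow]
        exact lt_of_le_of_lt (mul_le_of_le_one_right' (pow_le_one' hvn1 m)) hgn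
  obtain ⟨w, hw⟩ : ∃ w : K, w = h86_t W R / (ζ - 1) ^ k := ⟨_, rfl⟩
  have hvw : v w = 1 := by
    rw [hw, map_div₀, map_pow, hvt]
    exact div_self (pow_ne_zero _ hvπpos.ne')
  have htw : h86_t W R = w * (ζ - 1) ^ k := by
    rw [hw]
    field_simp
  have hσw : v (σ w - w) < 1 := hIm σ hσ w hvw.le
  have e : σ (h86_t W R) - n * h86_t W R =
      (ζ - 1) ^ k * ((σ w - w) * g ^ k + w * (g ^ k - (n : K) ^ k) + w * ((n : K) ^ k - n)) := by
    rw [htw, map_mul, map_pow, hσπ, mul_pow]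
    ring
  have hX : v ((σ w - w) * g ^ k + w * (g ^ k - (n : K) ^ k) + w * ((n : K) ^ k - n)) < 1 := by
    rw [e, map_mul, map_pow, hvt, pow_two] at hd
    have h := le_of_mul_le_mul_left hd (pow_pos hvπpos k)
    exact lt_of_le_of_lt h (pow_lt_one₀ zero_le hvπlt (by omega))
  have hnk : v ((n : K) ^ k - n) < 1 := by
    have e2 : w * ((n : K) ^ k - n) =
        ((σ w - w) * g ^ k + w * (g ^ k - (n : K) ^ k) + w * ((n : K) ^ k - n)) -
          ((σ w - w) * g ^ k + w * (g ^ k - (n : K) ^ k)) := by ring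
    have h : v (w * ((n : K) ^ k - n)) < 1 := by
      rw [e2]
      refine v.map_sub_lt hX (v.map_add_lt ?_ ?_)
      · rw [map_mul, map_pow]
        exact lt_of_le_of_lt (mul_le_of_le_one_right' (pow_le_one' hg1 k)) hσw
      · rw [map_mul, hvw, one_mul]
        exact hgk k
    rwa [map_mul, hvw, one_mul] at h
  have hle : n ≤ n ^ k := Nat.le_self_pow (by omega) n
  have hdvd : p ∣ n ^ k - n := by
    by_contra hnd
    have h := h76_natCast_unit v hp hpv hnd
    rw [Nat.cast_sub hle, Nat.cast_pow] at h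
    exact hnk.ne h
  have hz : (n : ZMod p) ^ k = n := by
    have h0 : ((n ^ k - n : ℕ) : ZMod p) = 0 := (ZMod.natCast_eq_zero_iff _ _).mpr hdvd
    rw [Nat.cast_sub hle, Nat.cast_pow, sub_eq_zero] at h0
    exact h0
  have hn0 : (n : ZMod p) ≠ 0 := fun h0 => hnp ((ZMod.natCast_eq_zero_iff _ _).mp h0)
  have hz1 : (n : ZMod p) ^ (k - 1) = 1 := by
    have e3 : (n : ZMod p) ^ (k - 1) * n = 1 * n := by
      rw [← pow_succ, one_mul]
      have : k - 1 + 1 = k := by omega
      rw [this, hz]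
    exact mul_right_cancel₀ hn0 e3
  have hk : k = 1 := by
    have h := orderOf_dvd_of_pow_eq_one hz1
    rw [hord] at h
    have h0 := Nat.eq_zero_of_dvd_of_lt h (by omega)
    omega
  rw [hvt, hk, pow_one]

end main

section subring

variable {K : Type*} [Field K] [DecidableEq K] (A : ValuationSubring K) (W : WeierstrassCurve K)

/-- **(E-b), valuation subring form.** `hUnr` is the statement "the inertia field is
unramified" (`h14_unr` at the instance `K = ℚ̄`). -/
theorem h76_depth_eq_subring (hW : h86_Integral A W) {p : ℕ} (hp : p.Prime)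
    (hpA : (p : K) ∈ A.nonunits) {ζ : K} (hζ1 : ζ ≠ 1) (hζp : ζ ^ p = 1)
    (I : Set (K ≃+* K))
    (hIm : ∀ σ ∈ I, ∀ x ∈ A, σ x - x ∈ A.nonunits)
    (hUnr : ∀ a ∈ A.nonunits, (∀ σ ∈ I, σ a = a) → a / (p : K) ∈ A)
    {R : W.toAffine.Point} (hR1 : R ∈ h86_E1 A W hW) (hR0 : R ≠ 0) (hRp : p • R = 0)
    (hω : ∀ σ ∈ I, ∃ n : ℕ, σ ζ = ζ ^ n ∧
      ∀ j : ℕ, σ (h86_t W (j • R)) = h86_t W ((n * j) • R))
    (hgen : ∃ σ ∈ I, ∀ n : ℕ, σ ζ = ζ ^ n → orderOf (n : ZMod p) = p - 1) :
    A.valuation (h86_t W R) = A.valuation (ζ - 1) := by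
  have hv : ∀ a : K, a ∈ A → A.valuation a ≤ 1 := fun a ha => (A.valuation_le_one_iff a).mpr ha
  have hpv : A.valuation (p : K) < 1 := (A.mem_nonunits_iff).mp hpA
  have hvp0 : 0 < A.valuation (p : K) := by
    rw [h76_val_p_eq A.valuation hp hζ1 hζp]
    exact pow_pos (zero_lt_iff.mpr (A.valuation.ne_zero_iff.mpr (sub_ne_zero.mpr hζ1))) _
  obtain ⟨h1, h2, h3, h4, h6⟩ := hW
  refine h76_depth_eq A.valuation W (hv _ h1) (hv _ h2) (hv _ h3) (hv _ h4) (hv _ h6) hp hpv
    hζ1 hζp I ?_ ?_ hR1 hR0 hRp hω hgen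
  · intro σ hσ x hx
    exact (A.mem_nonunits_iff).mp (hIm σ hσ x ((A.valuation_le_one_iff x).mp hx))
  · intro a ha hfix
    have h := hv _ (hUnr a ((A.mem_nonunits_iff).mpr ha) hfix)
    rwa [map_div₀, div_le_one₀ hvp0] at h

end subring

end Fermat.Agent.S40
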