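import Fermat.Agent.S05.h86_Formal

/-
helper95, project S40 (E-side core, generic valued field, on top of `S05/h86_Formal`).

Fine structure of the kernel of reduction `E₁` of a Weierstrass curve with integral
coefficients, in the parameter `t = x / y` (`h86_t`):

* `h95_add_prod`  : `v (t (P + Q) - t P - t Q) ≤ v (t P) * v (t Q)` for `P, Q ∈ E₁`
  (the "product form" of the formal group law: `F(X, Y) = X + Y + X Y G`).
* `h95_t_sub`     : `v (t (P' - P)) = v (t P' - t P)` for `P, P' ∈ E₁`.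

Method: chart `(z, w) = (x / y, 1 / y)`; the line through `P, Q` is compared with the line
through `P` and the origin (a Lipschitz estimate for the Vieta sum), and negation is
`1`-Lipschitz up to a factor `r`.
-/

set_option autoImplicit false
set_option linter.unusedSectionVars false

namespace Fermat.Agent.S40

open WeierstrassCurve WeierstrassCurve.Affine Polynomial
open Fermat.Agent.S05

section pure

variable {K : Type*} [Field K]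

/-- Exact form of the sum of the three chart parameters on a line (the identity inside
`h86_third`), written without division by the unit `A`. -/
lemma h95_chart_sum {a₁ a₂ a₃ a₄ a₆ x₁ x₂ x₃ ℓ c m n : K}
    (E1 : x₁ + x₂ + x₃ = ℓ ^ 2 + a₁ * ℓ - a₂)
    (E2 : x₁ * x₂ + x₁ * x₃ + x₂ * x₃ = a₄ - 2 * ℓ * c - a₁ * c - a₃ * ℓ)
    (E3 : x₁ * x₂ * x₃ = c ^ 2 + a₃ * c - a₆)
    (hc : c ≠ 0) (hmc : ℓ = m * c) (hnc : n * c = 1)
    (hY₁ : ℓ * x₁ + c ≠ 0) (hY₂ : ℓ * x₂ + c ≠ 0) (hY₃ : ℓ * x₃ + c ≠ 0) :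
    (x₃ / (ℓ * x₃ + c) + x₁ / (ℓ * x₁ + c) + x₂ / (ℓ * x₂ + c)) *
        (1 + (-(a₂ * m) + a₄ * m ^ 2 - a₆ * m ^ 3)) =
      a₃ * m ^ 2 - 3 * a₆ * m ^ 2 * n + 2 * a₄ * m * n - a₁ * m - a₂ * n := by
  have hP := h86_prod_Y E1 E2 E3
  have hS := h86_sum_xYY E1 E2 E3
  have hP' : (ℓ * x₁ + c) * (ℓ * x₂ + c) * (ℓ * x₃ + c) =
      c ^ 3 * (1 + (-(a₂ * m) + a₄ * m ^ 2 - a₆ * m ^ 3)) := by
    rw [hP]
    linear_combination (-a₂ * c ^ 2 + a₄ * c * (ℓ + m * c) - a₆ * (ℓ ^ 2 + ℓ * (m * c) + (m * c) ^ 2))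
      * hmc
  have hS' : x₁ * (ℓ * x₂ + c) * (ℓ * x₃ + c) + x₂ * (ℓ * x₁ + c) * (ℓ * x₃ + c) +
      x₃ * (ℓ * x₁ + c) * (ℓ * x₂ + c) =
      c ^ 3 * (a₃ * m ^ 2 - 3 * a₆ * m ^ 2 * n + 2 * a₄ * m * n - a₁ * m - a₂ * n) := by
    rw [hS]
    linear_combination (a₃ * c * (ℓ + m * c) - 3 * a₆ * (ℓ + m * c) + 2 * a₄ * c - a₁ * c ^ 2) * hmc
      + (3 * a₆ * m ^ 2 * c ^ 2 - 2 * a₄ * m * c ^ 2 + a₂ * c ^ 2) * hnc
  have e : ∀ Y₁ Y₂ Y₃ : K, Y₁ ≠ 0 → Y₂ ≠ 0 → Y₃ ≠ 0 → x₃ / Y₃ + x₁ / Y₁ + x₂ / Y₂ =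
      (x₁ * Y₂ * Y₃ + x₂ * Y₁ * Y₃ + x₃ * Y₁ * Y₂) / (Y₁ * Y₂ * Y₃) := by
    intro Y₁ Y₂ Y₃ k1 k2 k3
    field_simp
    ring
  have hc3 : c ^ 3 ≠ 0 := pow_ne_zero 3 hc
  have hA0 : (1 + (-(a₂ * m) + a₄ * m ^ 2 - a₆ * m ^ 3)) ≠ 0 := by
    intro h
    rw [h, mul_zero] at hP'
    exact mul_ne_zero (mul_ne_zero hY₁ hY₂) hY₃ hP'
  rw [e _ _ _ hY₁ hY₂ hY₃, hS', hP', mul_div_mul_left _ _ hc3, div_mul_cancel₀ _ hA0]

/-- The Vieta sum for the line through a chart point and the origin: the third point is the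
negative.  (`zn` is the parameter of the negative, `m0` the chart slope.) -/
lemma h95_neg_sum {a₁ a₂ a₃ a₄ a₆ z w zn m0 : K}
    (ch : w + a₁ * z * w + a₃ * w ^ 2 = z ^ 3 + a₂ * z ^ 2 * w + a₄ * z * w ^ 2 + a₆ * w ^ 3)
    (hz : z ≠ 0) (hu : -1 - a₁ * z - a₃ * w ≠ 0)
    (hzn : zn * (-1 - a₁ * z - a₃ * w) = z) (hm0 : m0 * z = -w) :
    (z + zn) * (1 + (-(a₂ * m0) + a₄ * m0 ^ 2 - a₆ * m0 ^ 3)) = a₃ * m0 ^ 2 - a₁ * m0 := by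
  have hne : z ^ 3 * (-1 - a₁ * z - a₃ * w) ≠ 0 := mul_ne_zero (pow_ne_zero 3 hz) hu
  apply mul_left_cancel₀ hne
  linear_combination (z * (a₁ * z + a₃ * w)) * ch
    + ((z ^ 3 + a₂ * z ^ 2 * w + a₄ * z * w ^ 2 + a₆ * w ^ 3)
        + (m0 * z + w) * (-a₂ * z ^ 2 + a₄ * z * (m0 * z - w)
          - a₆ * ((m0 * z) ^ 2 - (m0 * z) * w + w ^ 2))) * hzn
    + (-(-a₂ * z ^ 2 + a₄ * z * (m0 * z - w) - a₆ * ((m0 * z) ^ 2 - (m0 * z) * w + w ^ 2))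
          * z * (a₁ * z + a₃ * w)
        - (-1 - a₁ * z - a₃ * w) * z * (a₃ * (m0 * z - w) - a₁ * z)) * hm0

end pure

section valuation

variable {K : Type*} [Field K] {Γ₀ : Type*} [LinearOrderedCommGroupWithZero Γ₀]
  (v : Valuation K Γ₀)

/-- Negation in the chart, `ι (ζ, ω) = ζ / (-1 - a₁ ζ - a₃ ω)`, is minus an isometry up to a
factor `r`. -/
lemma h95_iota_lip {a₁ a₃ ζ ω ζ' ω' : K} {r : Γ₀} (h1 : v a₁ ≤ 1) (h3 : v a₃ ≤ 1) (hr : r < 1)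
    (hζ : v ζ ≤ r) (hω : v ω ≤ r) (hζ' : v ζ' ≤ r) (hω' : v ω' ≤ r)
    (hωω : v (ω - ω') ≤ v (ζ - ζ')) :
    v (ζ / (-1 - a₁ * ζ - a₃ * ω) - ζ' / (-1 - a₁ * ζ' - a₃ * ω') + (ζ - ζ')) ≤
      r * v (ζ - ζ') := by
  have hε : v (a₁ * ζ + a₃ * ω) ≤ r :=
    v.map_add_le (by rw [map_mul]; exact mul_le_of_le_one_of_le h1 hζ)
      (by rw [map_mul]; exact mul_le_of_le_one_of_le h3 hω)
  have hε' : v (a₁ * ζ' + a₃ * ω') ≤ r :=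
    v.map_add_le (by rw [map_mul]; exact mul_le_of_le_one_of_le h1 hζ')
      (by rw [map_mul]; exact mul_le_of_le_one_of_le h3 hω')
  have hU : v (1 + (a₁ * ζ + a₃ * ω)) = 1 := v.map_one_add_of_lt (lt_of_le_of_lt hε hr)
  have hU' : v (1 + (a₁ * ζ' + a₃ * ω')) = 1 := v.map_one_add_of_lt (lt_of_le_of_lt hε' hr)
  have hU0 : 1 + (a₁ * ζ + a₃ * ω) ≠ 0 := by
    intro h
    rw [h, map_zero] at hU
    exact zero_ne_one hU
  have hU0' : 1 + (a₁ * ζ' + a₃ * ω') ≠ 0 := by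
    intro h
    rw [h, map_zero] at hU'
    exact zero_ne_one hU'
  have gen : ∀ ε ε' : K, 1 + ε ≠ 0 → 1 + ε' ≠ 0 →
      ζ / (-(1 + ε)) - ζ' / (-(1 + ε')) + (ζ - ζ') =
        ((ζ - ζ') * ε + ζ' * (ε - ε') + (ζ - ζ') * ε * ε') / ((1 + ε) * (1 + ε')) := by
    intro ε ε' k k'
    field_simp
    ring
  have e1 : -1 - a₁ * ζ - a₃ * ω = -(1 + (a₁ * ζ + a₃ * ω)) := by ring
  have e2 : -1 - a₁ * ζ' - a₃ * ω' = -(1 + (a₁ * ζ' + a₃ * ω')) := by ring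
  have e3 : a₁ * ζ + a₃ * ω - (a₁ * ζ' + a₃ * ω') = a₁ * (ζ - ζ') + a₃ * (ω - ω') := by ring
  rw [e1, e2, gen _ _ hU0 hU0', map_div₀, map_mul, hU, hU', mul_one, div_one, e3]
  have hd : v (a₁ * (ζ - ζ') + a₃ * (ω - ω')) ≤ v (ζ - ζ') :=
    v.map_add_le (by rw [map_mul]; exact mul_le_of_le_one_of_le h1 le_rfl)
      (by rw [map_mul]; exact mul_le_of_le_one_of_le h3 hωω)
  refine v.map_add_le (v.map_add_le ?_ ?_) ?_
  · rw [map_mul, mul_comm]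
    exact mul_le_mul' hε le_rfl
  · rw [map_mul]
    exact mul_le_mul' hζ' hd
  · rw [map_mul, map_mul, mul_comm (v (ζ - ζ')), mul_assoc]
    refine mul_le_mul' hε ?_
    rw [mul_comm]
    exact mul_le_of_le_one_of_le (hε'.trans hr.le) le_rfl

/-- Lipschitz dependence of the Vieta sum on the line. -/
lemma h95_BA_lip {a₁ a₂ a₃ a₄ a₆ m m0 n S S0 : K} {s δ : Γ₀} (h1 : v a₁ ≤ 1) (h2 : v a₂ ≤ 1)
    (h3 : v a₃ ≤ 1) (h4 : v a₄ ≤ 1) (h6 : v a₆ ≤ 1) (hs : s < 1) (hm : v m ≤ s)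
    (hm0 : v m0 ≤ s) (hd : v (m - m0) ≤ δ) (hn : v n ≤ δ)
    (hS : S * (1 + (-(a₂ * m) + a₄ * m ^ 2 - a₆ * m ^ 3)) =
      a₃ * m ^ 2 - 3 * a₆ * m ^ 2 * n + 2 * a₄ * m * n - a₁ * m - a₂ * n)
    (hS0 : S0 * (1 + (-(a₂ * m0) + a₄ * m0 ^ 2 - a₆ * m0 ^ 3)) = a₃ * m0 ^ 2 - a₁ * m0) :
    v (S - S0) ≤ δ := by
  have i1 : a₁ ∈ v.integer := (Valuation.mem_integer_iff _ _).2 h1
  have i2 : a₂ ∈ v.integer := (Valuation.mem_integer_iff _ _).2 h2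
  have i3 : a₃ ∈ v.integer := (Valuation.mem_integer_iff _ _).2 h3
  have i4 : a₄ ∈ v.integer := (Valuation.mem_integer_iff _ _).2 h4
  have i6 : a₆ ∈ v.integer := (Valuation.mem_integer_iff _ _).2 h6
  have im : m ∈ v.integer := (Valuation.mem_integer_iff _ _).2 (hm.trans hs.le)
  have im0 : m0 ∈ v.integer := (Valuation.mem_integer_iff _ _).2 (hm0.trans hs.le)
  have i2' : (2 : K) ∈ v.integer := by
    have := h86_natCast_le_one v 2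
    exact (Valuation.mem_integer_iff _ _).2 (by simpa using this)
  have i3' : (3 : K) ∈ v.integer := by
    have := h86_natCast_le_one v 3
    exact (Valuation.mem_integer_iff _ _).2 (by simpa using this)
  have small : ∀ t : K, v t ≤ s → v (-(a₂ * t) + a₄ * t ^ 2 - a₆ * t ^ 3) < 1 := by
    intro t ht
    have it : t ∈ v.integer := (Valuation.mem_integer_iff _ _).2 (ht.trans hs.le)
    have e : -(a₂ * t) + a₄ * t ^ 2 - a₆ * t ^ 3 = t * (-a₂ + a₄ * t - a₆ * t ^ 2) := by ring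
    have hX : -a₂ + a₄ * t - a₆ * t ^ 2 ∈ v.integer :=
      Subring.sub_mem _ (Subring.add_mem _ (Subring.neg_mem _ i2) (Subring.mul_mem _ i4 it))
        (Subring.mul_mem _ i6 (Subring.pow_mem _ it 2))
    rw [e, map_mul]
    exact lt_of_le_of_lt (mul_le_of_le_of_le_one ht ((Valuation.mem_integer_iff _ _).1 hX)) hs
  have hA : v (1 + (-(a₂ * m) + a₄ * m ^ 2 - a₆ * m ^ 3)) = 1 :=
    v.map_one_add_of_lt (small m hm)
  have hA0 : v (1 + (-(a₂ * m0) + a₄ * m0 ^ 2 - a₆ * m0 ^ 3)) = 1 :=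
    v.map_one_add_of_lt (small m0 hm0)
  have hS0v : v S0 ≤ 1 := by
    have := congrArg v hS0
    rw [map_mul, hA0, mul_one] at this
    rw [this]
    exact (Valuation.mem_integer_iff _ _).1
      (Subring.sub_mem _ (Subring.mul_mem _ i3 (Subring.pow_mem _ im0 2)) (Subring.mul_mem _ i1 im0))
  have key : (S - S0) * (1 + (-(a₂ * m) + a₄ * m ^ 2 - a₆ * m ^ 3)) =
      (m - m0) * (a₃ * (m + m0) - a₁) + n * (-(3 * a₆ * m ^ 2) + 2 * a₄ * m - a₂)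
        + S0 * ((m - m0) * (a₂ - a₄ * (m + m0) + a₆ * (m ^ 2 + m * m0 + m0 ^ 2))) := by
    linear_combination hS - hS0
  have hX1 : a₃ * (m + m0) - a₁ ∈ v.integer :=
    Subring.sub_mem _ (Subring.mul_mem _ i3 (Subring.add_mem _ im im0)) i1
  have hX2 : -(3 * a₆ * m ^ 2) + 2 * a₄ * m - a₂ ∈ v.integer :=
    Subring.sub_mem _ (Subring.add_mem _
      (Subring.neg_mem _ (Subring.mul_mem _ (Subring.mul_mem _ i3' i6) (Subring.pow_mem _ im 2)))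
      (Subring.mul_mem _ (Subring.mul_mem _ i2' i4) im)) i2
  have hX3 : a₂ - a₄ * (m + m0) + a₆ * (m ^ 2 + m * m0 + m0 ^ 2) ∈ v.integer :=
    Subring.add_mem _ (Subring.sub_mem _ i2 (Subring.mul_mem _ i4 (Subring.add_mem _ im im0)))
      (Subring.mul_mem _ i6 (Subring.add_mem _ (Subring.add_mem _ (Subring.pow_mem _ im 2)
        (Subring.mul_mem _ im im0)) (Subring.pow_mem _ im0 2)))
  have := congrArg v key
  rw [map_mul, hA, mul_one] at this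
  rw [this]
  refine v.map_add_le (v.map_add_le ?_ ?_) ?_
  · rw [map_mul]
    exact mul_le_of_le_of_le_one hd ((Valuation.mem_integer_iff _ _).1 hX1)
  · rw [map_mul]
    exact mul_le_of_le_of_le_one hn ((Valuation.mem_integer_iff _ _).1 hX2)
  · rw [map_mul, map_mul]
    exact mul_le_of_le_one_of_le hS0v
      (mul_le_of_le_of_le_one hd ((Valuation.mem_integer_iff _ _).1 hX3))

/-- The line through two chart points of different size is close to the line through the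
larger one and the origin. -/
lemma h95_line_lip {z₁ w₁ z₂ w₂ m n m0 : K} (hl1 : w₁ = n - m * z₁) (hl2 : w₂ = n - m * z₂)
    (hz₁ : z₁ ≠ 0) (hm0 : m0 * z₁ = -w₁) (hlt : v z₂ < v z₁) (hz₁1 : v z₁ ≤ 1)
    (hw₁ : v w₁ ≤ v z₁ ^ 3) (hw₂ : v w₂ ≤ v z₂ ^ 3) :
    v (m - m0) ≤ v z₁ * v z₂ ∧ v n ≤ v z₁ * v z₂ := by
  have key : (m - m0) * (z₁ * (z₁ - z₂)) = z₁ * w₂ - w₁ * z₂ := by
    linear_combination z₁ * hl1 - z₁ * hl2 + (z₂ - z₁) * hm0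
  have hsub : v (z₁ - z₂) = v z₁ := v.map_sub_eq_of_lt_left hlt
  have hpos : 0 < v z₁ := zero_lt_iff.mpr (v.ne_zero_iff.mpr hz₁)
  have hnum : v (z₁ * w₂ - w₁ * z₂) ≤ v z₁ * v z₂ * (v z₁ * v z₁) := by
    refine v.map_sub_le ?_ ?_
    · rw [map_mul]
      calc v z₁ * v w₂ ≤ v z₁ * v z₂ ^ 3 := mul_le_mul' le_rfl hw₂
        _ = v z₁ * v z₂ * (v z₂ * v z₂) := by rw [pow_succ, pow_two]; ac_rfl
        _ ≤ v z₁ * v z₂ * (v z₁ * v z₁) := mul_le_mul' le_rfl (mul_le_mul' hlt.le hlt.le)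
    · rw [map_mul]
      calc v w₁ * v z₂ ≤ v z₁ ^ 3 * v z₂ := mul_le_mul' hw₁ le_rfl
        _ = v z₁ * v z₂ * (v z₁ * v z₁) := by rw [pow_succ, pow_two]; ac_rfl
  have h1 : v (m - m0) ≤ v z₁ * v z₂ := by
    have := congrArg v key
    rw [map_mul, map_mul, hsub] at this
    rw [← this] at hnum
    exact le_of_mul_le_mul_right hnum (mul_pos hpos hpos)
  refine ⟨h1, ?_⟩
  have hn : n = (m - m0) * z₁ := by linear_combination -hl1 + hm0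
  rw [hn, map_mul]
  calc v (m - m0) * v z₁ ≤ v z₁ * v z₂ * v z₁ := mul_le_mul' h1 le_rfl
    _ ≤ v z₁ * v z₂ := mul_le_of_le_of_le_one le_rfl hz₁1

end valuation

section main

variable {K : Type*} [Field K] [DecidableEq K] {Γ₀ : Type*} [LinearOrderedCommGroupWithZero Γ₀]
  (v : Valuation K Γ₀) (W : WeierstrassCurve K)

/-- Product form of the addition law on `E₁`, affine chord case with `v (t Q) < v (t P)`. -/
theorem h95_add_aux (h1 : v W.a₁ ≤ 1) (h2 : v W.a₂ ≤ 1) (h3 : v W.a₃ ≤ 1) (h4 : v W.a₄ ≤ 1)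
    (h6 : v W.a₆ ≤ 1) {x₁ y₁ x₂ y₂ : K} (e₁ : W.toAffine.Equation x₁ y₁)
    (e₂ : W.toAffine.Equation x₂ y₂) (hx₁ : 1 < v x₁) (hx₂ : 1 < v x₂)
    (hlt : v (x₂ / y₂) < v (x₁ / y₁))
    (hxy : ¬(x₁ = x₂ ∧ y₁ = W.toAffine.negY x₂ y₂)) :
    v (W.toAffine.addX x₁ x₂ (W.toAffine.slope x₁ x₂ y₁ y₂) /
          W.toAffine.addY x₁ x₂ y₁ (W.toAffine.slope x₁ x₂ y₁ y₂) - x₁ / y₁ - x₂ / y₂) ≤
      v (x₁ / y₁) * v (x₂ / y₂) := by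
  obtain ⟨ℓ, hℓ⟩ : ∃ ℓ, ℓ = W.toAffine.slope x₁ x₂ y₁ y₂ := ⟨_, rfl⟩
  obtain ⟨x₃, hx₃⟩ : ∃ x₃, x₃ = W.toAffine.addX x₁ x₂ ℓ := ⟨_, rfl⟩
  obtain ⟨c, hc⟩ : ∃ c, c = y₁ - ℓ * x₁ := ⟨_, rfl⟩
  rw [← hℓ, ← hx₃]
  obtain ⟨E1, E2, E3⟩ := h86_vieta W e₁ e₂ hxy ℓ x₃ c hℓ hx₃ hc
  have hline := h86_line W e₁ e₂ hxy
  rw [← hℓ] at hline
  have hY₁ : ℓ * x₁ + c = y₁ := by rw [hc]; ring
  have hY₂ : ℓ * x₂ + c = y₂ := by rw [hc]; linear_combination -hline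
  have e₁' := (Affine.equation_iff ..).mp e₁
  have e₂' := (Affine.equation_iff ..).mp e₂
  obtain ⟨hy₁0, hx₁0, hz₁lt, hw₁, ch₁⟩ := h86_chart v h1 h2 h3 h4 h6 e₁' hx₁
  obtain ⟨hy₂0, hx₂0, hz₂lt, hw₂, ch₂⟩ := h86_chart v h1 h2 h3 h4 h6 e₂' hx₂
  obtain ⟨r, hrdef⟩ : ∃ r, r = v (x₁ / y₁) := ⟨_, rfl⟩
  have hr : r < 1 := by rw [hrdef]; exact hz₁lt
  have hr' := hr.le
  have hz₁ : v (x₁ / y₁) ≤ r := hrdef.ge
  have hz₂ : v (x₂ / y₂) ≤ r := by rw [hrdef]; exact hlt.le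
  have hw₁' : v (1 / y₁) ≤ r ^ 3 := by rw [hw₁]; exact pow_le_pow_left' hz₁ 3
  have hw₂' : v (1 / y₂) ≤ r ^ 3 := by rw [hw₂]; exact pow_le_pow_left' hz₂ 3
  have hx : x₁ ≠ x₂ := by
    intro h
    rcases Affine.Y_eq_of_X_eq e₁ e₂ h with hy | hy
    · rw [h, hy] at hlt
      exact lt_irrefl _ hlt
    · exact hxy ⟨h, hy⟩
  have hℓ' : ℓ * (x₁ - x₂) = y₁ - y₂ := by
    rw [hℓ, Affine.slope_of_X_ne hx, div_mul_cancel₀ _ (sub_ne_zero.mpr hx)]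
  have hsl : c ≠ 0 ∧ v (ℓ / c) ≤ r ^ 2 := by
    rw [hc]
    exact h86_chord_slope v h1 h2 h3 h4 h6 hr hy₁0 hy₂0 ch₁ ch₂ hz₁ hw₁' hz₂ hw₂' hx hℓ'
  obtain ⟨hc0, hl⟩ := hsl
  have hn : v (1 / c) ≤ r ^ 3 := by
    have e : ∀ c' : K, c' ≠ 0 → c' = y₁ - ℓ * x₁ → 1 / c' = 1 / y₁ + ℓ / c' * (x₁ / y₁) := by
      intro c' k1 k2
      field_simp
      linear_combination -k2
    rw [e c hc0 hc]
    have hz₁' : v (x₁ / y₁) ≤ r ^ 1 := by simpa using hz₁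
    exact v.map_add_le hw₁' (h86_B_mul v hl hz₁')
  have hY₁0 : ℓ * x₁ + c ≠ 0 := by rw [hY₁]; exact hy₁0
  have hY₂0 : ℓ * x₂ + c ≠ 0 := by rw [hY₂]; exact hy₂0
  obtain ⟨hY₃, -, hz₃, hw₃⟩ := h86_third v h1 h2 h3 h4 h6 hr E1 E2 E3 hc0 hl hn hY₁0 hY₂0
    (by rw [hY₁]; exact hz₁) (by rw [hY₂]; exact hz₂)
  have hneg : W.toAffine.negAddY x₁ x₂ y₁ ℓ = ℓ * x₃ + c := by
    rw [Affine.negAddY, ← hx₃, hc]
    ring
  have e₃ : W.toAffine.Equation x₃ (ℓ * x₃ + c) := by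
    have := Affine.equation_negAdd e₁ e₂ hxy
    rw [← hℓ, ← hx₃, hneg] at this
    exact this
  have e₃' := (Affine.equation_iff ..).mp e₃
  have hx₃' : 1 < v x₃ := by
    by_contra hle
    rw [not_lt] at hle
    have hY : v (ℓ * x₃ + c) ≤ 1 := h86_integral_y v h1 h2 h3 h4 h6 e₃' hle
    have hlt' : v (1 / (ℓ * x₃ + c)) < 1 :=
      lt_of_le_of_lt hw₃ (pow_lt_one₀ zero_le hr (by norm_num))
    rw [one_div, map_inv₀] at hlt'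
    have hvY : v (ℓ * x₃ + c) ≠ 0 := v.ne_zero_iff.mpr hY₃
    exact absurd hlt' (not_lt.mpr ((one_le_inv₀ (zero_lt_iff.mpr hvY)).mpr hY))
  obtain ⟨-, hx₃0, -, -, ch₃⟩ := h86_chart v h1 h2 h3 h4 h6 e₃' hx₃'
  have haddY : W.toAffine.addY x₁ x₂ y₁ ℓ = -(ℓ * x₃ + c) - W.a₁ * x₃ - W.a₃ := by
    rw [Affine.addY, hneg, ← hx₃, Affine.negY]
  rw [haddY]
  -- the negative of the first point
  have e₁n : (-y₁ - W.a₁ * x₁ - W.a₃) ^ 2 + W.a₁ * x₁ * (-y₁ - W.a₁ * x₁ - W.a₃)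
      + W.a₃ * (-y₁ - W.a₁ * x₁ - W.a₃) = x₁ ^ 3 + W.a₂ * x₁ ^ 2 + W.a₄ * x₁ + W.a₆ := by
    linear_combination e₁'
  obtain ⟨hyn0, -, -, hwn, chn⟩ := h86_chart v h1 h2 h3 h4 h6 e₁n hx₁
  obtain ⟨hnv, -⟩ := h86_neg_bound v h1 h2 h3 h4 h6 e₁' hx₁
  have hzn : v (x₁ / (-y₁ - W.a₁ * x₁ - W.a₃)) ≤ r := by rw [hnv]; exact hz₁
  have hwn' : v (1 / (-y₁ - W.a₁ * x₁ - W.a₃)) ≤ r ^ 3 := by
    rw [hwn]; exact pow_le_pow_left' hzn 3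
  have hz₁0 : x₁ / y₁ ≠ 0 := div_ne_zero hx₁0 hy₁0
  -- the two Vieta sums
  have hmc : ℓ = (ℓ / c) * c := (div_mul_cancel₀ ℓ hc0).symm
  have hnc : (1 / c) * c = 1 := one_div_mul_cancel hc0
  have hS := h95_chart_sum E1 E2 E3 hc0 hmc hnc hY₁0 hY₂0 hY₃
  rw [hY₁, hY₂] at hS
  have hue : -1 - W.a₁ * (x₁ / y₁) - W.a₃ * (1 / y₁) = (-y₁ - W.a₁ * x₁ - W.a₃) / y₁ := by
    field_simp
  have hu : -1 - W.a₁ * (x₁ / y₁) - W.a₃ * (1 / y₁) ≠ 0 := by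
    rw [hue]
    exact div_ne_zero hyn0 hy₁0
  have hznq : x₁ / (-y₁ - W.a₁ * x₁ - W.a₃) * (-1 - W.a₁ * (x₁ / y₁) - W.a₃ * (1 / y₁))
      = x₁ / y₁ := by
    have e : ∀ yn : K, yn ≠ 0 → x₁ / yn * (yn / y₁) = x₁ / y₁ := by
      intro yn k1
      field_simp
    rw [hue]
    exact e _ hyn0
  have hm0 : (-(1 / y₁) / (x₁ / y₁)) * (x₁ / y₁) = -(1 / y₁) := div_mul_cancel₀ _ hz₁0
  have hS0 := h95_neg_sum ch₁ hz₁0 hu hznq hm0
  -- the line in the chart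
  have hl1 : 1 / y₁ = 1 / c - ℓ / c * (x₁ / y₁) := by
    have e : ∀ y : K, y ≠ 0 → ℓ * x₁ + c = y → 1 / y = 1 / c - ℓ / c * (x₁ / y) := by
      intro y k1 k2
      field_simp
      linear_combination k2
    exact e _ hy₁0 hY₁
  have hl2 : 1 / y₂ = 1 / c - ℓ / c * (x₂ / y₂) := by
    have e : ∀ y : K, y ≠ 0 → ℓ * x₂ + c = y → 1 / y = 1 / c - ℓ / c * (x₂ / y) := by
      intro y k1 k2
      field_simp
      linear_combination k2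
    exact e _ hy₂0 hY₂
  obtain ⟨hmm0, hnn⟩ := h95_line_lip v hl1 hl2 hz₁0 hm0 hlt hz₁lt.le hw₁.le hw₂.le
  have hm0v : v (-(1 / y₁) / (x₁ / y₁)) ≤ r ^ 2 := by
    have hpos : 0 < v (x₁ / y₁) := zero_lt_iff.mpr (v.ne_zero_iff.mpr hz₁0)
    rw [map_div₀, Valuation.map_neg, hw₁, ← hrdef, div_le_iff₀ (by rw [hrdef]; exact hpos)]
    exact (pow_succ r 2).le
  have hs : r ^ 2 < 1 := pow_lt_one₀ zero_le hr (by norm_num)
  have hSS := h95_BA_lip v h1 h2 h3 h4 h6 hs hl hm0v hmm0 hnn hS hS0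
  -- negation is Lipschitz
  have hr1 : r ^ 3 ≤ r := by
    simpa using pow_le_pow_right_of_le_one' hr' (show 1 ≤ 3 by norm_num)
  have hch := h86_chord v h1 h2 h3 h4 h6 hr ch₃ chn hz₃ hw₃ hzn hwn'
  have hωω : v (1 / (ℓ * x₃ + c) - 1 / (-y₁ - W.a₁ * x₁ - W.a₃)) ≤
      v (x₃ / (ℓ * x₃ + c) - x₁ / (-y₁ - W.a₁ * x₁ - W.a₃)) :=
    hch.trans (mul_le_of_le_one_left' (pow_le_one' hr' 2))
  have hI := h95_iota_lip v h1 h3 hr hz₃ (hw₃.trans hr1) hzn (hwn'.trans hr1) hωω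
  -- identify the two negations
  have hι₃ : x₃ / (ℓ * x₃ + c) / (-1 - W.a₁ * (x₃ / (ℓ * x₃ + c)) - W.a₃ * (1 / (ℓ * x₃ + c)))
      = x₃ / (-(ℓ * x₃ + c) - W.a₁ * x₃ - W.a₃) := by
    have e : ∀ Y : K, Y ≠ 0 → x₃ / Y / (-1 - W.a₁ * (x₃ / Y) - W.a₃ * (1 / Y)) =
        x₃ / (-Y - W.a₁ * x₃ - W.a₃) := by
      intro Y k
      have e' : -1 - W.a₁ * (x₃ / Y) - W.a₃ * (1 / Y) = (-Y - W.a₁ * x₃ - W.a₃) / Y := by
        field_simp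
      rw [e', div_div_div_cancel_right₀ k]
    exact e _ hY₃
  have hιn : x₁ / (-y₁ - W.a₁ * x₁ - W.a₃) /
      (-1 - W.a₁ * (x₁ / (-y₁ - W.a₁ * x₁ - W.a₃)) - W.a₃ * (1 / (-y₁ - W.a₁ * x₁ - W.a₃)))
      = x₁ / y₁ := by
    have e : ∀ Y : K, Y ≠ 0 → Y = -y₁ - W.a₁ * x₁ - W.a₃ →
        x₁ / Y / (-1 - W.a₁ * (x₁ / Y) - W.a₃ * (1 / Y)) = x₁ / y₁ := by
      intro Y k k2
      have e' : -1 - W.a₁ * (x₁ / Y) - W.a₃ * (1 / Y) = y₁ / Y := by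
        field_simp
        linear_combination -k2
      rw [e', div_div_div_cancel_right₀ k]
    exact e _ hyn0 rfl
  rw [hι₃, hιn] at hI
  -- size of `z₃ - zn`
  have hd0 : v (x₁ / y₁) * v (x₂ / y₂) ≤ v (x₂ / y₂) := mul_le_of_le_one_left' hz₁lt.le
  have hdiff : v (x₃ / (ℓ * x₃ + c) - x₁ / (-y₁ - W.a₁ * x₁ - W.a₃)) ≤ v (x₂ / y₂) := by
    have e : x₃ / (ℓ * x₃ + c) - x₁ / (-y₁ - W.a₁ * x₁ - W.a₃) =
        (x₃ / (ℓ * x₃ + c) + x₁ / y₁ + x₂ / y₂ - (x₁ / y₁ + x₁ / (-y₁ - W.a₁ * x₁ - W.a₃)))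
          - x₂ / y₂ := by ring
    rw [e]
    exact v.map_sub_le (hSS.trans hd0) le_rfl
  have hI' : v (x₃ / (-(ℓ * x₃ + c) - W.a₁ * x₃ - W.a₃) - x₁ / y₁ +
      (x₃ / (ℓ * x₃ + c) - x₁ / (-y₁ - W.a₁ * x₁ - W.a₃))) ≤ v (x₁ / y₁) * v (x₂ / y₂) := by
    refine hI.trans ?_
    rw [hrdef]
    exact mul_le_mul' le_rfl hdiff
  have e : x₃ / (-(ℓ * x₃ + c) - W.a₁ * x₃ - W.a₃) - x₁ / y₁ - x₂ / y₂ =
      (x₃ / (-(ℓ * x₃ + c) - W.a₁ * x₃ - W.a₃) - x₁ / y₁ +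
        (x₃ / (ℓ * x₃ + c) - x₁ / (-y₁ - W.a₁ * x₁ - W.a₃)))
      - (x₃ / (ℓ * x₃ + c) + x₁ / y₁ + x₂ / y₂ - (x₁ / y₁ + x₁ / (-y₁ - W.a₁ * x₁ - W.a₃))) := by
    ring
  rw [e]
  exact v.map_sub_le hI' hSS

/-- The parameter of a nonzero point of `E₁` is nonzero. -/
lemma h95_t_ne_zero (h1 : v W.a₁ ≤ 1) (h2 : v W.a₂ ≤ 1) (h3 : v W.a₃ ≤ 1) (h4 : v W.a₄ ≤ 1)
    (h6 : v W.a₆ ≤ 1) {P : W.toAffine.Point} (hP : h86_inE1 v W P) (hP0 : P ≠ 0) :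
    h86_t W P ≠ 0 := by
  rcases P with _ | ⟨x, y, h⟩
  · exact absurd rfl hP0
  · obtain ⟨hy0, hx0, -, -, -⟩ :=
      h86_chart v h1 h2 h3 h4 h6 ((Affine.equation_iff ..).mp h.1) hP
    exact div_ne_zero hx0 hy0

/-- `E₁` is stable under negation. -/
lemma h95_neg_mem {P : W.toAffine.Point} (hP : h86_inE1 v W P) : h86_inE1 v W (-P) := by
  rcases P with _ | ⟨x, y, h⟩
  · exact trivial
  · rw [Affine.Point.neg_some]
    exact hP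

/-- Product form, one-sided case `v (t Q) < v (t P)`. -/
theorem h95_add_prod_of_lt (h1 : v W.a₁ ≤ 1) (h2 : v W.a₂ ≤ 1) (h3 : v W.a₃ ≤ 1)
    (h4 : v W.a₄ ≤ 1) (h6 : v W.a₆ ≤ 1) {P Q : W.toAffine.Point} (hP : h86_inE1 v W P)
    (hQ : h86_inE1 v W Q) (hlt : v (h86_t W Q) < v (h86_t W P)) :
    v (h86_t W (P + Q) - h86_t W P - h86_t W Q) ≤ v (h86_t W P) * v (h86_t W Q) := by
  rcases P with _ | ⟨x₁, y₁, h₁⟩
  · change v (h86_t W Q) < v (0 : K) at hlt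
    rw [map_zero] at hlt
    exact absurd hlt (not_lt.mpr zero_le)
  rcases Q with _ | ⟨x₂, y₂, h₂⟩
  · have e : Affine.Point.some x₁ y₁ h₁ + (Affine.Point.zero : W.toAffine.Point) =
        Affine.Point.some x₁ y₁ h₁ := add_zero _
    rw [e]
    have e2 : h86_t W (Affine.Point.some x₁ y₁ h₁) - h86_t W (Affine.Point.some x₁ y₁ h₁) -
        h86_t W (Affine.Point.zero : W.toAffine.Point) = 0 := by
      change x₁ / y₁ - x₁ / y₁ - 0 = 0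
      ring
    rw [e2, map_zero]
    exact zero_le
  have hlt' : v (x₂ / y₂) < v (x₁ / y₁) := hlt
  have hxy : ¬(x₁ = x₂ ∧ y₁ = W.toAffine.negY x₂ y₂) := by
    rintro ⟨rfl, rfl⟩
    have e₂' := (Affine.equation_iff ..).mp h₂.1
    obtain ⟨hnv, -⟩ := h86_neg_bound v h1 h2 h3 h4 h6 e₂' hQ
    have : v (x₁ / W.toAffine.negY x₁ y₂) = v (x₁ / y₂) := hnv
    rw [this] at hlt'
    exact lt_irrefl _ hlt'
  rw [Affine.Point.add_some hxy]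
  exact h95_add_aux v W h1 h2 h3 h4 h6 h₁.1 h₂.1 hP hQ hlt' hxy

/-- **Product form of the addition law on `E₁`**: `t (P + Q) = t P + t Q` up to an error of
size `|t P| |t Q|`. -/
theorem h95_add_prod (h1 : v W.a₁ ≤ 1) (h2 : v W.a₂ ≤ 1) (h3 : v W.a₃ ≤ 1) (h4 : v W.a₄ ≤ 1)
    (h6 : v W.a₆ ≤ 1) {P Q : W.toAffine.Point} (hP : h86_inE1 v W P) (hQ : h86_inE1 v W Q) :
    v (h86_t W (P + Q) - h86_t W P - h86_t W Q) ≤ v (h86_t W P) * v (h86_t W Q) := by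
  rcases lt_trichotomy (v (h86_t W Q)) (v (h86_t W P)) with hlt | heq | hlt
  · exact h95_add_prod_of_lt v W h1 h2 h3 h4 h6 hP hQ hlt
  · have hr := h86_t_lt_one v W h1 h2 h3 h4 h6 hP
    have := (h86_add_mem v W h1 h2 h3 h4 h6 hP hQ hr le_rfl heq.le).2
    rw [pow_two] at this
    rw [heq]
    exact this
  · have := h95_add_prod_of_lt v W h1 h2 h3 h4 h6 hQ hP hlt
    rw [add_comm Q P, mul_comm] at this
    have e : h86_t W (P + Q) - h86_t W P - h86_t W Q =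
        h86_t W (P + Q) - h86_t W Q - h86_t W P := by ring
    rw [e]
    exact this

/-- Sums of points of `E₁` are in `E₁`. -/
lemma h95_add_mem (h1 : v W.a₁ ≤ 1) (h2 : v W.a₂ ≤ 1) (h3 : v W.a₃ ≤ 1) (h4 : v W.a₄ ≤ 1)
    (h6 : v W.a₆ ≤ 1) {P Q : W.toAffine.Point} (hP : h86_inE1 v W P) (hQ : h86_inE1 v W Q) :
    h86_inE1 v W (P + Q) := by
  have hPr := h86_t_lt_one v W h1 h2 h3 h4 h6 hP
  have hQr := h86_t_lt_one v W h1 h2 h3 h4 h6 hQ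
  exact (h86_add_mem v W h1 h2 h3 h4 h6 hP hQ (max_lt hPr hQr) (le_max_left _ _)
    (le_max_right _ _)).1

/-- **Exact difference law on `E₁`**: `|t (P' - P)| = |t P' - t P|`. -/
theorem h95_t_sub (h1 : v W.a₁ ≤ 1) (h2 : v W.a₂ ≤ 1) (h3 : v W.a₃ ≤ 1) (h4 : v W.a₄ ≤ 1)
    (h6 : v W.a₆ ≤ 1) {P P' : W.toAffine.Point} (hP : h86_inE1 v W P) (hP' : h86_inE1 v W P') :
    v (h86_t W (P' - P)) = v (h86_t W P' - h86_t W P) := by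
  have hD : h86_inE1 v W (P' - P) := by
    rw [sub_eq_add_neg]
    exact h95_add_mem v W h1 h2 h3 h4 h6 hP' (h95_neg_mem v W hP)
  by_cases hD0 : P' - P = 0
  · have : P' = P := sub_eq_zero.mp hD0
    rw [hD0, this, sub_self, h86_t_zero]
  · have hprod := h95_add_prod v W h1 h2 h3 h4 h6 hP hD
    rw [add_sub_cancel] at hprod
    have htD : h86_t W (P' - P) ≠ 0 := h95_t_ne_zero v W h1 h2 h3 h4 h6 hD hD0
    have hpos : 0 < v (h86_t W (P' - P)) := zero_lt_iff.mpr (v.ne_zero_iff.mpr htD)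
    have hPr := h86_t_lt_one v W h1 h2 h3 h4 h6 hP
    have hlt : v (h86_t W P' - h86_t W P - h86_t W (P' - P)) < v (h86_t W (P' - P)) := by
      refine lt_of_le_of_lt hprod ?_
      calc v (h86_t W P) * v (h86_t W (P' - P)) < 1 * v (h86_t W (P' - P)) :=
            mul_lt_mul_of_pos_right hPr hpos
        _ = v (h86_t W (P' - P)) := one_mul _
    have e : h86_t W P' - h86_t W P =
        h86_t W (P' - P) + (h86_t W P' - h86_t W P - h86_t W (P' - P)) := by ring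
    rw [e, v.map_add_eq_of_lt_left hlt]

/-- Consequence: two points of `E₁` with close parameters differ by a deep point. -/
theorem h95_sub_deep (h1 : v W.a₁ ≤ 1) (h2 : v W.a₂ ≤ 1) (h3 : v W.a₃ ≤ 1) (h4 : v W.a₄ ≤ 1)
    (h6 : v W.a₆ ≤ 1) {P P' : W.toAffine.Point} (hP : h86_inE1 v W P) (hP' : h86_inE1 v W P')
    {ρ : Γ₀} (hρ : v (h86_t W P' - h86_t W P) ≤ ρ) :
    h86_inE1 v W (P' - P) ∧ v (h86_t W (P' - P)) ≤ ρ := by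
  refine ⟨?_, ?_⟩
  · rw [sub_eq_add_neg]
    exact h95_add_mem v W h1 h2 h3 h4 h6 hP' (h95_neg_mem v W hP)
  · rw [h95_t_sub v W h1 h2 h3 h4 h6 hP hP']
    exact hρ

end main

end Fermat.Agent.S40
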