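/-
G40 / S40, E-side (helper13): the generic E-side core of helper57 (`h57_E_core`) with the depth
hypothesis DISCHARGED by the sharp bound `h13_sharp_t` (division polynomial + Newton), the exact
difference law discharged by `h95_t_sub`, and `2 P ∉ E₁` discharged by `p • P = 0`.

No unramifiedness hypothesis (`hUnr`), no tame-character hypothesis (`hω`, `hgen`), no
"ordinary shape": the only inputs about the point are `p • P = 0`, `g P = P + R`,
`R ∈ E₁`, `R ≠ 0`, `p • R = 0`.
-/
import Fermat.Agent.S40.h57_ECore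
import Fermat.Agent.S40.h76_EDepth
import Fermat.Agent.S40.h95_E1Fine
import Fermat.Agent.S40.h13_Sharp

set_option autoImplicit false

namespace Fermat.Agent.S40

open WeierstrassCurve WeierstrassCurve.Affine Fermat.Agent.S05

section core

variable {K : Type*} [Field K] [DecidableEq K] (A : ValuationSubring K) (W : WeierstrassCurve K)
  {Γ : Type*} [Group Γ] [MulSemiringAction Γ K] (G : Subgroup Γ)

/-- `h57_E_core` with the depth hypothesis weakened to an inequality
`v (ζ - 1) ≤ v (t R)` (i.e. additively `v(t R) ≤ v(ζ - 1)`). -/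
theorem h13_E_core_le (hW : h86_Integral A W) (hΔ : W.Δ ∉ A.nonunits)
    {p : ℕ} (hp : p.Prime) (hpK : (p : K) ≠ 0)
    {ζ θ : K} (hζ : ζ ^ p = 1) (hζ1 : ζ ≠ 1) (hζG : ∀ h ∈ G, h • ζ = ζ)
    (hθ0 : θ ≠ 0) (hθG : ∀ h ∈ G, ∃ j : ℕ, h • θ = ζ ^ j * θ)
    {g : Γ} (hg : g ∈ G) (hgθ : g • θ = ζ * θ)
    (hval : ∀ c : K, (∀ h ∈ G, h • c = c) → c ≠ 0 → ∀ l : ℕ, 0 < l → l < p →
      A.valuation c ≠ A.valuation θ ^ l)
    {x y : K} (hP : W.toAffine.Nonsingular x y)
    (hP' : W.toAffine.Nonsingular (g • x) (g • y))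
    (hfix : ∀ h ∈ G, h • θ = θ → h • x = x ∧ h • y = y)
    {R : W.toAffine.Point}
    (hR : Affine.Point.some (g • x) (g • y) hP' = Affine.Point.some x y hP + R)
    (hRE1 : R ∈ h86_E1 A W hW)
    (hdepth : A.valuation (ζ - 1) ≤ A.valuation (h86_t W R))
    (h2P : Affine.Point.some x y hP ∉ h86_E1 A W hW →
      2 • Affine.Point.some x y hP ∉ h86_E1 A W hW)
    (hdiff : ∀ Q Q' : W.toAffine.Point, Q ∈ h86_E1 A W hW → Q' ∈ h86_E1 A W hW →
      A.valuation (h86_t W (Q' - Q)) = A.valuation (h86_t W Q' - h86_t W Q)) :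
    False := by
  have hv : ∀ a : K, a ∈ A → A.valuation a ≤ 1 := fun a ha => (A.valuation_le_one_iff a).mpr ha
  have hW' := hW
  obtain ⟨h1, h2, h3, h4, h6⟩ := hW'
  have hpos : 0 < A.valuation (ζ - 1) :=
    zero_lt_iff.mpr (A.valuation.ne_zero_iff.mpr (sub_ne_zero.mpr hζ1))
  by_cases hx : x ∈ A
  · -- `P` integral: use the `x`-coordinate
    have hPE1 : Affine.Point.some x y hP ∉ h86_E1 A W hW := by
      rw [h86_some_mem_E1_iff]
      exact not_not.mpr hx
    have hDu := h57_D_unit A W hW hΔ hP hx (h2P hPE1)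
    rcases R with _ | ⟨x₂, y₂, hR₂⟩
    · have h0 : h86_t W (Affine.Point.zero : W.toAffine.Point) = 0 := rfl
      rw [h0, map_zero] at hdepth
      exact absurd hdepth (not_le.mpr hpos)
    · have hx₂ : 1 < A.valuation x₂ := hRE1
      obtain ⟨x₃, y₃, h₃, hadd, -, hEq⟩ := h57_add_x A.valuation W (hv _ h1) (hv _ h2)
        (hv _ h3) (hv _ h4) (hv _ h6) hP hR₂ (hv _ hx) hx₂
      rw [hadd] at hR
      have hx₃ : g • x = x₃ := by
        rw [Affine.Point.some.injEq] at hR
        exact hR.1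
      have hval1 : A.valuation (g • x - x) = A.valuation (h86_t W (Affine.Point.some x₂ y₂ hR₂)) := by
        rw [hx₃, hEq hDu]
        rfl
      have hlt := h57_kummer_eisenstein A.valuation G hp hpK hζ hζ1 hζG hθ0 hθG hg hgθ hval
        (a := x) (fun h hh hhθ => (hfix h hh hhθ).1) (hv _ hx)
      rw [hval1] at hlt
      exact absurd hdepth (not_le.mpr hlt)
  · -- `P` in the kernel of reduction: use `t = x / y`
    have hPE1 : Affine.Point.some x y hP ∈ h86_E1 A W hW :=
      (h86_some_mem_E1_iff A W hW hP).mpr hx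
    have hP'E1 : Affine.Point.some (g • x) (g • y) hP' ∈ h86_E1 A W hW := by
      rw [hR]
      exact add_mem hPE1 hRE1
    have hd := hdiff _ _ hPE1 hP'E1
    have e : Affine.Point.some (g • x) (g • y) hP' - Affine.Point.some x y hP = R := by
      rw [hR, add_sub_cancel_left]
    rw [e] at hd
    have hta : A.valuation (x / y) ≤ 1 :=
      (h86_t_lt_one A.valuation W (hv _ h1) (hv _ h2) (hv _ h3) (hv _ h4) (hv _ h6)
        (P := Affine.Point.some x y hP) hPE1).le
    have hlt := h57_kummer_eisenstein A.valuation G hp hpK hζ hζ1 hζG hθ0 hθG hg hgθ hval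
      (a := x / y)
      (fun h hh hhθ => by rw [h57_smul_div, (hfix h hh hhθ).1, (hfix h hh hhθ).2]) hta
    rw [h57_smul_div] at hlt
    have hd' : A.valuation (h86_t W R) = A.valuation (g • x / g • y - x / y) := hd
    rw [← hd'] at hlt
    exact absurd hdepth (not_le.mpr hlt)

/-- **E-side core, all depth inputs discharged.**  `K` algebraically closed with a valuation
subring `A` over the odd prime `p`, `W` integral with unit discriminant; `G` a group of
automorphisms of `K`, `ζ` a `G`-fixed primitive `p`-th root of unity, `θ` a Kummer generator in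
the "très ramifié" position, `g ∈ G` with `g θ = ζ θ`.  A `p`-torsion point `P = (x, y)` whose
coordinates are fixed by the stabiliser of `θ` cannot satisfy `g P = P + R` with `R ≠ 0` a
`p`-torsion point of the kernel of reduction. -/
theorem h13_E_core_sharp [IsAlgClosed K] (hW : h86_Integral A W) (hΔ : W.Δ ∉ A.nonunits)
    {p : ℕ} (hp : p.Prime) (hp2 : p ≠ 2) (hB : A.LiesOverPrime p) (hpK : (p : K) ≠ 0)
    {ζ θ : K} (hζ : ζ ^ p = 1) (hζ1 : ζ ≠ 1) (hζG : ∀ h ∈ G, h • ζ = ζ)
    (hθ0 : θ ≠ 0) (hθG : ∀ h ∈ G, ∃ j : ℕ, h • θ = ζ ^ j * θ)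
    {g : Γ} (hg : g ∈ G) (hgθ : g • θ = ζ * θ)
    (hval : ∀ c : K, (∀ h ∈ G, h • c = c) → c ≠ 0 → ∀ l : ℕ, 0 < l → l < p →
      A.valuation c ≠ A.valuation θ ^ l)
    {x y : K} (hP : W.toAffine.Nonsingular x y)
    (hP' : W.toAffine.Nonsingular (g • x) (g • y))
    (hfix : ∀ h ∈ G, h • θ = θ → h • x = x ∧ h • y = y)
    (hPp : p • (Affine.Point.some x y hP : W.toAffine.Point) = 0)
    {R : W.toAffine.Point}
    (hR : Affine.Point.some (g • x) (g • y) hP' = Affine.Point.some x y hP + R)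
    (hRE1 : R ∈ h86_E1 A W hW) (hR0 : R ≠ 0) (hRp : p • R = 0) :
    False := by
  have hv : ∀ a : K, a ∈ A → A.valuation a ≤ 1 := fun a ha => (A.valuation_le_one_iff a).mpr ha
  have hW' := hW
  obtain ⟨h1, h2, h3, h4, h6⟩ := hW'
  have hodd : p % 2 = 1 := by
    rcases hp.eq_two_or_odd with h | h
    · exact absurd h hp2
    · exact h
  have hΔ0 : W.Δ ≠ 0 := by
    intro h0
    apply hΔ
    rw [h0, ValuationSubring.mem_nonunits_iff, map_zero]
    exact zero_lt_one
  -- the depth
  have hdepth : A.valuation (ζ - 1) ≤ A.valuation (h86_t W R) := by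
    rcases R with _ | ⟨x₂, y₂, hR₂⟩
    · exact absurd rfl hR0
    · have hx₂ : 1 < A.valuation x₂ := hRE1
      have hs := h13_sharp_t A W hW hΔ0 hp hp2 hB hR₂ hx₂ hRp
      rw [h76_val_p_eq A.valuation hp hζ1 hζ] at hs
      rw [h86_t_some]
      by_contra hlt
      rw [not_le] at hlt
      have hp1 : p - 1 ≠ 0 := by have := hp.two_le; omega
      exact absurd hs (not_le.mpr (pow_lt_pow_left₀ hlt zero_le hp1))
  -- `2 P ∉ E₁`
  have h2P : Affine.Point.some x y hP ∉ h86_E1 A W hW →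
      2 • Affine.Point.some x y hP ∉ h86_E1 A W hW := by
    intro hPn h2
    apply hPn
    have e : Affine.Point.some x y hP = ((p + 1) / 2) • (2 • Affine.Point.some x y hP) := by
      rw [← mul_nsmul, show 2 * ((p + 1) / 2) = p + 1 by omega, add_nsmul, hPp, zero_add,
        one_nsmul]
    rw [e]
    exact nsmul_mem h2 _
  refine h13_E_core_le A W G hW hΔ hp hpK hζ hζ1 hζG hθ0 hθG hg hgθ hval hP hP' hfix hR hRE1
    hdepth h2P (fun Q Q' hQ hQ' => ?_)
  exact h95_t_sub A.valuation W (hv _ h1) (hv _ h2) (hv _ h3) (hv _ h4) (hv _ h6) hQ hQ'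

end core

end Fermat.Agent.S40
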