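/-
G40 / S44, E-side (E-MULT), generic part (helper13).

* `h13_add_y`      : (QC), `y`-version: translation of an integral point `D = (x₁, y₁)` with
                     `∂F/∂x (D)` a unit by a point `R` of the kernel of reduction moves the
                     `y`-coordinate by exactly `v (t R)`.
* `h13_E_core_ns`  : the E-side core for a point `D` with NONSINGULAR REDUCTION (no good
                     reduction of the curve, no torsion hypothesis on `D`): `g D = D + R` with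
                     `R ≠ 0` a `p`-torsion point of the kernel of reduction is impossible when the
                     coordinates of `D` are fixed by the stabiliser of a "très ramifié" Kummer
                     generator.
-/
import Fermat.Agent.S40.h13_ECoreSharp

set_option autoImplicit false

namespace Fermat.Agent.S40

open WeierstrassCurve WeierstrassCurve.Affine Fermat.Agent.S05

section qc

variable {K : Type*} [Field K] [DecidableEq K] {Γ₀ : Type*} [LinearOrderedCommGroupWithZero Γ₀]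
  (v : Valuation K Γ₀) (W : WeierstrassCurve K)

omit [DecidableEq K] in
/-- If `x₂ = ℓ² + a₁ ℓ - a₂ - x₁ - x₃` with `x₁, x₃, a₁, a₂` integral and `x₂` non-integral,
then `v ℓ ^ 2 = v x₂`. -/
lemma h13_slope_val {a₁ a₂ x₁ x₂ x₃ ℓ : K} (h1 : v a₁ ≤ 1) (h2 : v a₂ ≤ 1) (hx₁ : v x₁ ≤ 1)
    (hx₃ : v x₃ ≤ 1) (hx₂ : 1 < v x₂) (e : x₂ = ℓ ^ 2 + a₁ * ℓ - a₂ - x₁ - x₃) :
    v ℓ ^ 2 = v x₂ := by
  have e' : ℓ ^ 2 + a₁ * ℓ = x₂ + (a₂ + x₁ + x₃) := by rw [e]; ring
  have hs : v (a₂ + x₁ + x₃) ≤ 1 := v.map_add_le (v.map_add_le h2 hx₁) hx₃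
  have hval : v (ℓ ^ 2 + a₁ * ℓ) = v x₂ := by
    rw [e', v.map_add_eq_of_lt_left (lt_of_le_of_lt hs hx₂)]
  have hℓ : 1 < v ℓ := by
    by_contra hle
    rw [not_lt] at hle
    have : v (ℓ ^ 2 + a₁ * ℓ) ≤ 1 := by
      refine v.map_add_le ?_ ?_
      · rw [map_pow]; exact pow_le_one₀ zero_le hle
      · rw [map_mul]; exact mul_le_one' h1 hle
    rw [hval] at this
    exact absurd this (not_le.mpr hx₂)
  have hlt : v (a₁ * ℓ) < v (ℓ ^ 2) := by
    rw [map_mul, map_pow]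
    calc v a₁ * v ℓ ≤ v ℓ := mul_le_of_le_one_left' h1
      _ < v ℓ ^ 2 := lt_self_pow₀ hℓ (by norm_num)
  rw [v.map_add_eq_of_lt_left hlt, map_pow] at hval
  exact hval

/-- **(QC), `y`-version.**  `D = (x₁, y₁)` integral with `a₁ y₁ - (3 x₁² + 2 a₂ x₁ + a₄)` a unit,
`R = (x₂, y₂)` in the kernel of reduction, `D + R = (x₃, y₃)`.  Then
`v (y₃ - y₁) = v (x₂ / y₂)`. -/
theorem h13_add_y (h1 : v W.a₁ ≤ 1) (h2 : v W.a₂ ≤ 1) (h3 : v W.a₃ ≤ 1) (h4 : v W.a₄ ≤ 1)
    (h6 : v W.a₆ ≤ 1) {x₁ y₁ x₂ y₂ x₃ y₃ : K} (hP : W.toAffine.Nonsingular x₁ y₁)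
    (hR : W.toAffine.Nonsingular x₂ y₂) (h₃ : W.toAffine.Nonsingular x₃ y₃)
    (hadd : Affine.Point.some x₁ y₁ hP + Affine.Point.some x₂ y₂ hR = Affine.Point.some x₃ y₃ h₃)
    (hx₁ : v x₁ ≤ 1) (hx₂ : 1 < v x₂)
    (hFX : v (W.a₁ * y₁ - (3 * x₁ ^ 2 + 2 * W.a₂ * x₁ + W.a₄)) = 1) :
    v (y₃ - y₁) = v (x₂ / y₂) := by
  have e₁ := (Affine.equation_iff ..).mp hP.1
  have e₂ := (Affine.equation_iff ..).mp hR.1
  have e₃ := (Affine.equation_iff ..).mp h₃.1
  have hy₁ : v y₁ ≤ 1 := h86_integral_y v h1 h2 h3 h4 h6 e₁ hx₁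
  obtain ⟨hy₂0, hx₂0, ht1, -, -⟩ := h86_chart v h1 h2 h3 h4 h6 e₂ hx₂
  have ht0 : v (x₂ / y₂) ≠ 0 := v.ne_zero_iff.mpr (div_ne_zero hx₂0 hy₂0)
  have htsq : v (x₂ / y₂) ^ 2 = (v x₂)⁻¹ := h57_t_sq v h1 h2 h3 h4 h6 e₂ hx₂
  have hvx₂0 : v x₂ ≠ 0 := v.ne_zero_iff.mpr hx₂0
  -- `x₃` is close to `x₁`
  have hδ : v (x₃ - x₁) < 1 := by
    obtain ⟨x₃', y₃', h₃', hadd', hb, -⟩ := h57_add_x v W h1 h2 h3 h4 h6 hP hR hx₁ hx₂
    rw [hadd, Affine.Point.some.injEq] at hadd'
    obtain ⟨rfl, rfl⟩ := hadd'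
    have hFY : v (2 * y₁ + W.a₁ * x₁ + W.a₃) ≤ 1 := by
      refine v.map_add_le (v.map_add_le ?_ ?_) h3
      · rw [map_mul]; exact mul_le_one' (by simpa using h86_natCast_le_one v 2) hy₁
      · rw [map_mul]; exact mul_le_one' h1 hx₁
    have e : x₃ - x₁ = (x₃ - x₁ + (2 * y₁ + W.a₁ * x₁ + W.a₃) * (x₂ / y₂)) -
        (2 * y₁ + W.a₁ * x₁ + W.a₃) * (x₂ / y₂) := by ring
    rw [e]
    refine lt_of_le_of_lt (v.map_sub _ _) (max_lt (lt_of_le_of_lt hb ?_) ?_)
    · exact inv_lt_one_of_one_lt₀ hx₂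
    · rw [map_mul]
      exact lt_of_le_of_lt (mul_le_of_le_one_left' hFY) ht1
  have hx₃ : v x₃ ≤ 1 := by
    have e : x₃ = (x₃ - x₁) + x₁ := by ring
    rw [e]
    exact v.map_add_le hδ.le hx₁
  -- the unit `N`
  have hN : v (x₃ ^ 2 + x₃ * x₁ + x₁ ^ 2 + W.a₂ * (x₃ + x₁) + W.a₄ - W.a₁ * y₁) = 1 := by
    have e : x₃ ^ 2 + x₃ * x₁ + x₁ ^ 2 + W.a₂ * (x₃ + x₁) + W.a₄ - W.a₁ * y₁ =
        -(W.a₁ * y₁ - (3 * x₁ ^ 2 + 2 * W.a₂ * x₁ + W.a₄)) +
          (x₃ - x₁) * (x₃ + 2 * x₁ + W.a₂) := by ring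
    have hsmall : v ((x₃ - x₁) * (x₃ + 2 * x₁ + W.a₂)) < 1 := by
      rw [map_mul]
      refine mul_lt_one_of_lt_of_le hδ ?_
      refine v.map_add_le (v.map_add_le hx₃ ?_) h2
      rw [map_mul]; exact mul_le_one' (by simpa using h86_natCast_le_one v 2) hx₁
    rw [e, v.map_add_eq_of_lt_left (by rw [Valuation.map_neg, hFX]; exact hsmall),
      Valuation.map_neg, hFX]
  have hid : (y₃ - y₁) * (y₃ + y₁ + W.a₁ * x₃ + W.a₃) =
      (x₃ - x₁) * (x₃ ^ 2 + x₃ * x₁ + x₁ ^ 2 + W.a₂ * (x₃ + x₁) + W.a₄ - W.a₁ * y₁) := by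
    linear_combination e₃ - e₁
  -- `D + (-(D + R)) = -R`
  have hneg : Affine.Point.some x₁ y₁ hP + -Affine.Point.some x₃ y₃ h₃ =
      -Affine.Point.some x₂ y₂ hR := by
    rw [← hadd]; abel
  rw [Affine.Point.neg_some, Affine.Point.neg_some] at hneg
  -- in both cases: a slope `ℓ` with `v (y₃ - y₁) * v ℓ = 1` and `v ℓ ^ 2 = v x₂`
  obtain ⟨ℓ, hℓ1, hℓ2⟩ : ∃ ℓ : K, v (y₃ - y₁) * v ℓ = 1 ∧ v ℓ ^ 2 = v x₂ := by
    by_cases hx : x₁ = x₃
    · subst hx
      rcases Affine.Y_eq_of_X_eq h₃.1 hP.1 rfl with hy | hy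
      · exfalso
        subst hy
        have : Affine.Point.some x₂ y₂ hR = 0 := by
          have h5 : Affine.Point.some x₁ y₃ hP + Affine.Point.some x₂ y₂ hR =
              Affine.Point.some x₁ y₃ hP + 0 := by rw [add_zero]; exact hadd
          exact add_left_cancel h5
        exact Affine.Point.some_ne_zero hR this
      · have hyy : y₁ ≠ W.toAffine.negY x₁ y₁ := by
          intro h'
          apply Affine.Point.some_ne_zero hR
          have h5 : Affine.Point.some x₁ y₁ hP + Affine.Point.some x₂ y₂ hR =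
              Affine.Point.some x₁ y₁ hP + 0 := by
            rw [add_zero, hadd, Affine.Point.some.injEq]
            exact ⟨rfl, hy.trans h'.symm⟩
          exact add_left_cancel h5
        have hnn : W.toAffine.negY x₁ y₃ = y₁ := by rw [hy, Affine.negY_negY]
        have hxy : ¬(x₁ = x₁ ∧ y₁ = W.toAffine.negY x₁ (W.toAffine.negY x₁ y₃)) := by
          rintro ⟨-, h'⟩
          rw [hnn] at h'
          exact hyy h'
        rw [Affine.Point.add_some hxy, Affine.Point.some.injEq] at hneg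
        refine ⟨W.toAffine.slope x₁ x₁ y₁ (W.toAffine.negY x₁ y₃), ?_, ?_⟩
        · have hs : W.toAffine.slope x₁ x₁ y₁ (W.toAffine.negY x₁ y₃) *
              (y₁ - W.toAffine.negY x₁ y₁) =
              3 * x₁ ^ 2 + 2 * W.a₂ * x₁ + W.a₄ - W.a₁ * y₁ := by
            have hyn : y₁ ≠ W.toAffine.negY x₁ (W.toAffine.negY x₁ y₃) := fun h' => hxy ⟨rfl, h'⟩
            rw [Affine.slope_of_Y_ne rfl hyn]
            exact div_mul_cancel₀ _ (sub_ne_zero.mpr hyy)
          have e5 : y₃ - y₁ = -(y₁ - W.toAffine.negY x₁ y₁) := by rw [hy]; ring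
          have e6 : 3 * x₁ ^ 2 + 2 * W.a₂ * x₁ + W.a₄ - W.a₁ * y₁ =
              -(W.a₁ * y₁ - (3 * x₁ ^ 2 + 2 * W.a₂ * x₁ + W.a₄)) := by ring
          rw [e5, Valuation.map_neg, mul_comm, ← map_mul, hs, e6, Valuation.map_neg, hFX]
        · exact h13_slope_val v h1 h2 hx₁ hx₁ hx₂ (by
            have := hneg.1
            rw [Affine.addX] at this
            exact this.symm)
    · have hxy : ¬(x₁ = x₃ ∧ y₁ = W.toAffine.negY x₃ (W.toAffine.negY x₃ y₃)) := fun h' => hx h'.1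
      rw [Affine.Point.add_some hxy, Affine.Point.some.injEq] at hneg
      refine ⟨W.toAffine.slope x₁ x₃ y₁ (W.toAffine.negY x₃ y₃), ?_, ?_⟩
      · have hd : x₁ - x₃ ≠ 0 := sub_ne_zero.mpr hx
        have hs : W.toAffine.slope x₁ x₃ y₁ (W.toAffine.negY x₃ y₃) * (x₁ - x₃) =
            y₃ + y₁ + W.a₁ * x₃ + W.a₃ := by
          rw [Affine.slope_of_X_ne hx, div_mul_cancel₀ _ hd]
          simp only [Affine.negY]
          ring
        have hprod : (y₃ - y₁) * W.toAffine.slope x₁ x₃ y₁ (W.toAffine.negY x₃ y₃) =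
            -(x₃ ^ 2 + x₃ * x₁ + x₁ ^ 2 + W.a₂ * (x₃ + x₁) + W.a₄ - W.a₁ * y₁) := by
          apply mul_right_cancel₀ hd
          rw [mul_assoc, hs, hid]
          ring
        rw [← map_mul, hprod, Valuation.map_neg, hN]
      · exact h13_slope_val v h1 h2 hx₁ hx₃ hx₂ (by
          have := hneg.1
          rw [Affine.addX] at this
          exact this.symm)
  -- conclusion
  have hℓt : v ℓ * v (x₂ / y₂) = 1 := by
    have h5 : (v ℓ * v (x₂ / y₂)) ^ 2 = 1 ^ 2 := by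
      rw [mul_pow, hℓ2, htsq, one_pow, mul_inv_cancel₀ hvx₂0]
    exact (pow_left_inj₀ zero_le zero_le two_ne_zero).mp h5
  calc v (y₃ - y₁) = v (y₃ - y₁) * (v ℓ * v (x₂ / y₂)) := by rw [hℓt, mul_one]
    _ = (v (y₃ - y₁) * v ℓ) * v (x₂ / y₂) := by rw [mul_assoc]
    _ = v (x₂ / y₂) := by rw [hℓ1, one_mul]

end qc

section core

variable {K : Type*} [Field K] [DecidableEq K] (A : ValuationSubring K) (W : WeierstrassCurve K)
  {Γ : Type*} [Group Γ] [MulSemiringAction Γ K] (G : Subgroup Γ)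

/-- **E-side core for a point with nonsingular reduction** (no good reduction of the curve, no
torsion hypothesis on the point).  `K` algebraically closed with a valuation subring `A` over the
odd prime `p`, `W` integral with `Δ ≠ 0`; `G` a group of automorphisms of `K`, `ζ` a `G`-fixed
primitive `p`-th root of unity, `θ` a Kummer generator in the "très ramifié" position, `g ∈ G`
with `g θ = ζ θ`.  A point `D = (x, y)` whose coordinates are fixed by the stabiliser of `θ` and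
which, when integral, has nonsingular reduction (`F_Y (D)` or `F_X (D)` is a unit) cannot satisfy
`g D = D + R` with `R ≠ 0` a `p`-torsion point of the kernel of reduction. -/
theorem h13_E_core_ns [IsAlgClosed K] (hW : h86_Integral A W) (hΔ0 : W.Δ ≠ 0)
    {p : ℕ} (hp : p.Prime) (hp2 : p ≠ 2) (hB : A.LiesOverPrime p) (hpK : (p : K) ≠ 0)
    {ζ θ : K} (hζ : ζ ^ p = 1) (hζ1 : ζ ≠ 1) (hζG : ∀ h ∈ G, h • ζ = ζ)
    (hθ0 : θ ≠ 0) (hθG : ∀ h ∈ G, ∃ j : ℕ, h • θ = ζ ^ j * θ)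
    {g : Γ} (hg : g ∈ G) (hgθ : g • θ = ζ * θ)
    (hval : ∀ c : K, (∀ h ∈ G, h • c = c) → c ≠ 0 → ∀ l : ℕ, 0 < l → l < p →
      A.valuation c ≠ A.valuation θ ^ l)
    {x y : K} (hP : W.toAffine.Nonsingular x y)
    (hP' : W.toAffine.Nonsingular (g • x) (g • y))
    (hfix : ∀ h ∈ G, h • θ = θ → h • x = x ∧ h • y = y)
    (hns : x ∈ A → A.valuation (2 * y + W.a₁ * x + W.a₃) = 1 ∨
      A.valuation (W.a₁ * y - (3 * x ^ 2 + 2 * W.a₂ * x + W.a₄)) = 1)
    {R : W.toAffine.Point}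
    (hR : Affine.Point.some (g • x) (g • y) hP' = Affine.Point.some x y hP + R)
    (hRE1 : R ∈ h86_E1 A W hW) (hR0 : R ≠ 0) (hRp : p • R = 0) :
    False := by
  have hv : ∀ a : K, a ∈ A → A.valuation a ≤ 1 := fun a ha => (A.valuation_le_one_iff a).mpr ha
  have hW' := hW
  obtain ⟨h1, h2, h3, h4, h6⟩ := hW'
  -- the depth
  have hdepth : A.valuation (ζ - 1) ≤ A.valuation (h86_t W R) := by
    rcases R with _ | ⟨x₂, y₂, hR₂⟩
    · exact absurd rfl hR0
    · have hx₂ : 1 < A.valuation x₂ := hRE1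
      have hs := h13_sharp_t A W hW hΔ0 hp hp2 hB hR₂ hx₂ hRp
      rw [h76_val_p_eq A.valuation hp hζ1 hζ] at hs
      rw [h86_t_some]
      by_contra hlt
      rw [not_le] at hlt
      have hp1 : p - 1 ≠ 0 := by have := hp.two_le; omega
      exact absurd hs (not_le.mpr (pow_lt_pow_left₀ hlt zero_le hp1))
  by_cases hx : x ∈ A
  · -- `D` integral
    rcases R with _ | ⟨x₂, y₂, hR₂⟩
    · exact absurd rfl hR0
    · have hx₂ : 1 < A.valuation x₂ := hRE1
      obtain ⟨x₃, y₃, h₃, hadd, -, hEq⟩ := h57_add_x A.valuation W (hv _ h1) (hv _ h2)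
        (hv _ h3) (hv _ h4) (hv _ h6) hP hR₂ (hv _ hx) hx₂
      have hR' := hR
      rw [hadd, Affine.Point.some.injEq] at hR'
      obtain ⟨hx₃, hy₃⟩ := hR'
      rcases hns hx with hFY | hFX
      · have hval1 : A.valuation (g • x - x) =
            A.valuation (h86_t W (Affine.Point.some x₂ y₂ hR₂)) := by
          rw [hx₃, hEq hFY]
          rfl
        have hlt := h57_kummer_eisenstein A.valuation G hp hpK hζ hζ1 hζG hθ0 hθG hg hgθ hval
          (a := x) (fun h hh hhθ => (hfix h hh hhθ).1) (hv _ hx)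
        rw [hval1] at hlt
        exact absurd hdepth (not_le.mpr hlt)
      · have hval1 : A.valuation (g • y - y) =
            A.valuation (h86_t W (Affine.Point.some x₂ y₂ hR₂)) := by
          rw [hy₃, h13_add_y A.valuation W (hv _ h1) (hv _ h2) (hv _ h3) (hv _ h4) (hv _ h6)
            hP hR₂ h₃ hadd (hv _ hx) hx₂ hFX]
          rfl
        have hy : A.valuation y ≤ 1 :=
          h86_integral_y A.valuation (hv _ h1) (hv _ h2) (hv _ h3) (hv _ h4) (hv _ h6)
            ((Affine.equation_iff ..).mp hP.1) (hv _ hx)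
        have hlt := h57_kummer_eisenstein A.valuation G hp hpK hζ hζ1 hζG hθ0 hθG hg hgθ hval
          (a := y) (fun h hh hhθ => (hfix h hh hhθ).2) hy
        rw [hval1] at hlt
        exact absurd hdepth (not_le.mpr hlt)
  · -- `D` in the kernel of reduction: use `t = x / y`
    have hPE1 : Affine.Point.some x y hP ∈ h86_E1 A W hW :=
      (h86_some_mem_E1_iff A W hW hP).mpr hx
    have hP'E1 : Affine.Point.some (g • x) (g • y) hP' ∈ h86_E1 A W hW := by
      rw [hR]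
      exact add_mem hPE1 hRE1
    have hd := h95_t_sub A.valuation W (hv _ h1) (hv _ h2) (hv _ h3) (hv _ h4) (hv _ h6)
      (P := Affine.Point.some x y hP) (P' := Affine.Point.some (g • x) (g • y) hP') hPE1 hP'E1
    have e : Affine.Point.some (g • x) (g • y) hP' - Affine.Point.some x y hP = R := by
      rw [hR, add_sub_cancel_left]
    rw [e] at hd
    have hta : A.valuation (x / y) ≤ 1 :=
      (h86_t_lt_one A.valuation W (hv _ h1) (hv _ h2) (hv _ h3) (hv _ h4) (hv _ h6)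
        (P := Affine.Point.some x y hP) hPE1).le
    have hlt := h57_kummer_eisenstein A.valuation G hp hpK hζ hζ1 hζG hθ0 hθG hg hgθ hval
      (a := x / y)
      (fun h hh hhθ => by rw [h57_smul_div, (hfix h hh hhθ).1, (hfix h hh hhθ).2]) hta
    rw [h57_smul_div] at hlt
    have hd' : A.valuation (h86_t W R) = A.valuation (g • x / g • y - x / y) := hd
    rw [← hd'] at hlt
    exact absurd hdepth (not_le.mpr hlt)

end core

end Fermat.Agent.S40
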