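/-
G40 / S44, E-side (E-MULT), the multiplicative model (helper13).

Model `Y² = X³ + a X² + b X` over an algebraically closed valued field, `v a = 1`,
`v b = v g₀ ^ p` (`g₀` in the maximal ideal): multiplicative reduction with discriminant a
`p`-th power up to a unit.

* `h13_mult_decomp` : for a `p`-torsion point `T` there are a point `P0`, fixed by EVERY
  inertia-like automorphism fixing `a, b, g₀`, and `D = ± T - P0` which does NOT reduce to the
  node.  (Re-assembly of the proof of `S13.h75_mult_isE1` / `S05.core_mult`.)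
* `h13_E_mult_model` : the E-side for this model: if the coordinates of `T` are fixed by the
  stabiliser of a "très ramifié" Kummer generator `θ`, then `g T = T` for `g θ = ζ θ`.
-/
import Fermat.Agent.S13.h75_P1
import Fermat.Agent.S05.InertiaVal
import Fermat.Agent.S40.h13_EMultCore

set_option autoImplicit false

namespace Fermat.Agent.S40

open WeierstrassCurve Fermat.Agent.S05

section decomp

variable {K : Type*} [Field K] [DecidableEq K] (A : ValuationSubring K) (a b : K)

/-- **Decomposition of `p`-torsion points on the multiplicative model.**  For `p • T = 0` there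
are `P0` and `D ∈ {T - P0, -T - P0}` such that `D` does not reduce to the node and `P0` is fixed
by every `σ` acting trivially on the residue field and fixing `a`, `b`, `g₀`. -/
theorem h13_mult_decomp [IsAlgClosed K] (g₀ : K) (p : ℕ) (hp : p.Prime) (hp2 : p ≠ 2)
    (h2 : A.valuation (2 : K) = 1)
    (ha : A.valuation a = 1) (hg : A.valuation g₀ < 1) (hg0 : g₀ ≠ 0)
    (hb : A.valuation b = A.valuation g₀ ^ p)
    (T : (shortW a b).toAffine.Point) (hT : p • T = 0) :
    ∃ P0 D : (shortW a b).toAffine.Point, (D = T - P0 ∨ D = -T - P0) ∧ ¬ IsN a b A D ∧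
      ∀ (σ : K ≃+* K), (∀ x, A.valuation x ≤ 1 → A.valuation (σ x - x) < 1) →
        ∀ (hσa : σ a = a) (hσb : σ b = b), σ g₀ = g₀ → Sigma_hom a b σ hσa hσb P0 = P0 := by
  classical
  have hp0 : p ≠ 0 := hp.ne_zero
  have hvg0 : A.valuation g₀ ≠ 0 := (Valuation.ne_zero_iff _).mpr hg0
  have hb1 : A.valuation b < 1 := by rw [hb]; exact pow_lt_one₀ zero_le hg hp0
  have hvb0 : A.valuation b ≠ 0 := by rw [hb]; exact pow_ne_zero _ hvg0
  have hvbpos : 0 < A.valuation b := lt_of_le_of_ne zero_le (Ne.symm hvb0)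
  have hb0 : b ≠ 0 := (Valuation.ne_zero_iff _).mp hvb0
  obtain ⟨r, hr⟩ := IsAlgClosed.exists_pow_nat_eq a (n := 2) two_pos
  have hsq : ∀ x : K, ∃ y, y ^ 2 = x := fun x => IsAlgClosed.exists_pow_nat_eq x two_pos
  -- the subgroup `E0` and the quotient map
  let mk : (shortW a b).toAffine.Point →+
      (shortW a b).toAffine.Point ⧸ (E0 A a b ha hb1 h2) :=
    QuotientAddGroup.mk' (E0 A a b ha hb1 h2)
  have hmk0 : ∀ P, mk P = 0 ↔ ¬ IsN a b A P := fun P =>
    (QuotientAddGroup.eq_zero_iff P).trans (mem_E0_iff A a b ha hb1 h2)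
  have hmkC : ∀ (g : A.ValueGroup) (P P' : (shortW a b).toAffine.Point),
      InC a b A r g P → InC a b A r g P' → mk P = mk P' := by
    intro g P P' hP hP'
    refine sub_eq_zero.mp ?_
    rw [← map_sub]
    exact (hmk0 _).mpr (inC_sub_not_isN A a b r hr ha hb1 h2 hP hP')
  let c : A.ValueGroup → (shortW a b).toAffine.Point ⧸ (E0 A a b ha hb1 h2) := fun g =>
    if hex : ∃ P, InC a b A r g P then mk hex.choose else 0
  have hc_eq : ∀ (g : A.ValueGroup) (P : (shortW a b).toAffine.Point),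
      InC a b A r g P → c g = mk P := by
    intro g P hP
    have hex : ∃ P, InC a b A r g P := ⟨P, hP⟩
    simp only [c, dif_pos hex]
    exact hmkC g _ _ hex.choose_spec hP
  have exC : ∀ g : A.ValueGroup, A.valuation b < g → g < 1 → ∃ P, InC a b A r g P := by
    intro g hg1 hg2
    obtain ⟨x, rfl⟩ := A.valuation_surjective g
    obtain ⟨Y, hY, hC⟩ := exists_inC A a b r hr ha hb1 hb0 h2 hsq x hg2 hg1
    exact ⟨_, hC⟩
  obtain ⟨T0, hT0⟩ := exists_inM A a b ha hb1 hb0 h2
  -- an auxiliary value `g3` with `g3 ^ 3 = v b`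
  obtain ⟨x3, hx3⟩ := IsAlgClosed.exists_pow_nat_eq b (n := 3) (by norm_num)
  have hg3 : A.valuation x3 ^ 3 = A.valuation b := by rw [← map_pow, hx3]
  have hg3pos : 0 < A.valuation x3 := by
    refine lt_of_le_of_ne zero_le (Ne.symm ?_)
    intro h0
    rw [h0] at hg3
    exact hvb0 (by rw [← hg3]; simp)
  have hg3lt : A.valuation x3 < 1 := by
    by_contra hge
    have : 1 ≤ A.valuation x3 ^ 3 := one_le_pow₀ (not_lt.mp hge)
    rw [hg3] at this
    exact absurd hb1 (not_lt.mpr this)
  have hg3sq : A.valuation b < A.valuation x3 ^ 2 := by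
    rw [← hg3, pow_succ]
    exact mul_lt_of_lt_one_right (pow_pos hg3pos 2) hg3lt
  have hg3b : A.valuation b < A.valuation x3 :=
    lt_of_lt_of_le hg3sq (pow_le_of_le_one zero_le hg3lt.le two_ne_zero)
  obtain ⟨Q3, hQ3⟩ := exC _ hg3b hg3lt
  have hmkM : ∀ T : (shortW a b).toAffine.Point, InM a b A T → mk T = mk T0 := by
    intro T hTM
    have h1 := inC_neg_add_of_inM A a b r hr ha hb1 hb0 h2 hTM hQ3 hg3sq
    have h2' := inC_neg_add_of_inM A a b r hr ha hb1 hb0 h2 hT0 hQ3 hg3sq
    have h3 := hmkC _ _ _ h1 h2'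
    rw [map_neg, map_neg, map_add, map_add, neg_inj] at h3
    exact add_right_cancel h3
  -- the abstract component lemma
  obtain ⟨hpμ, htors⟩ := torsion_component (A.valuation b) hvbpos hb1 c (mk T0)
    (fun g => by
      obtain ⟨x, rfl⟩ := A.valuation_surjective g
      obtain ⟨y, hy⟩ := IsAlgClosed.exists_pow_nat_eq x (n := 3) (by norm_num)
      exact ⟨A.valuation y, by rw [← map_pow, hy]⟩)
    (fun g₁ g₂ h21 h11 hh => by
      have hg2lt1 : g₂ < 1 := h21.trans h11
      have hbg1 : A.valuation b < g₁ := lt_of_lt_of_le hh (mul_le_of_le_one_right' hg2lt1.le)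
      have hbg2 : A.valuation b < g₂ := lt_of_lt_of_le hh (mul_le_of_le_one_left' h11.le)
      obtain ⟨P1, hP1⟩ := exC g₁ hbg1 h11
      obtain ⟨P2, hP2⟩ := exC g₂ hbg2 hg2lt1
      rw [hc_eq g₁ P1 hP1, hc_eq g₂ P2 hP2,
        hc_eq _ _ (inC_add A a b r hr ha hb1 h2 hP1 hP2 h21 hh), map_add])
    (fun g₁ g₂ h21 h11 hh => by
      have hg2lt1 : g₂ < 1 := h21.trans h11
      have hg1pos : 0 < g₁ := by
        refine lt_of_le_of_ne zero_le (Ne.symm ?_)
        intro h0
        rw [h0, zero_mul] at hh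
        exact hvb0 hh.symm
      have hg2pos : 0 < g₂ := by
        refine lt_of_le_of_ne zero_le (Ne.symm ?_)
        intro h0
        rw [h0, mul_zero] at hh
        exact hvb0 hh.symm
      have hbg1 : A.valuation b < g₁ := by
        rw [← hh]; exact mul_lt_of_lt_one_right hg1pos hg2lt1
      have hbg2 : A.valuation b < g₂ := by
        rw [← hh]; exact mul_lt_of_lt_one_left hg2pos h11
      obtain ⟨P1, hP1⟩ := exC g₁ hbg1 h11
      obtain ⟨P2, hP2⟩ := exC g₂ hbg2 hg2lt1
      rw [hc_eq g₁ P1 hP1, hc_eq g₂ P2 hP2, ← map_add]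
      exact hmkM _ (inM_add A a b r hr ha hb1 h2 hP1 hP2 h21 hh))
    (fun g hg1 hgsq => by
      have hbg : A.valuation b < g :=
        lt_of_lt_of_le hgsq (pow_le_of_le_one zero_le hg1.le two_ne_zero)
      obtain ⟨Q, hQ⟩ := exC g hbg hg1
      have h3 := inC_neg_add_of_inM A a b r hr ha hb1 hb0 h2 hT0 hQ hgsq
      rw [hc_eq g Q hQ, hc_eq _ _ h3, map_neg, map_add, neg_neg])
    (fun g hbg hg1 => by
      obtain ⟨P, hP⟩ := exC g hbg hg1
      rw [hc_eq g P hP]
      intro h0
      exact ((hmk0 P).mp h0) (core_isN_of_inC A a b hP))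
    (fun h0 => ((hmk0 T0).mp h0) (core_isN_of_inM A a b hb1 hT0))
    p hp hp2
  -- `p`-torsion points in a component `C_g`
  have key : ∀ (T : (shortW a b).toAffine.Point) (g : A.ValueGroup),
      InC a b A r g T → p • T = 0 →
      ∃ P0 : (shortW a b).toAffine.Point, ¬ IsN a b A (T - P0) ∧
        ∀ (σ : K ≃+* K), (∀ x, A.valuation x ≤ 1 → A.valuation (σ x - x) < 1) →
          ∀ (hσa : σ a = a) (hσb : σ b = b), σ g₀ = g₀ →
            Sigma_hom a b σ hσa hσb P0 = P0 := by
    intro T g hC hpT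
    have hbg : A.valuation b < g := by obtain ⟨_, _, _, -, -, hbg, -, -⟩ := hC; exact hbg
    have hg1 : g < 1 := by obtain ⟨_, _, _, -, -, -, hg1, -⟩ := hC; exact hg1
    have hpc : p • c g = 0 := by rw [hc_eq g _ hC, ← map_nsmul, hpT, map_zero]
    obtain ⟨k, hk⟩ := htors g hbg hg1 hpc
    have hgk : g = A.valuation (g₀ ^ (2 * k)) := by
      have h3 : g ^ p = (A.valuation g₀ ^ (2 * k)) ^ p := by
        rw [hk, hb, ← pow_mul, ← pow_mul, mul_comm]
      rw [map_pow]
      exact (pow_left_inj₀ zero_le zero_le hp0).mp h3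
    subst hgk
    obtain ⟨Y0, h0, hC0⟩ := exists_inC A a b r hr ha hb1 hb0 h2 hsq (g₀ ^ (2 * k)) hg1 hbg
    have hx00 : g₀ ^ (2 * k) ≠ 0 := pow_ne_zero _ hg0
    have hs0 : A.valuation (Y0 - r * g₀ ^ (2 * k)) < A.valuation (g₀ ^ (2 * k)) := by
      obtain ⟨X', Y', h', heq, -, -, -, hs'⟩ := hC0
      rw [Affine.Point.some.injEq] at heq
      obtain ⟨rfl, rfl⟩ := heq
      exact hs'
    refine ⟨Affine.Point.some _ Y0 h0, inC_sub_not_isN A a b r hr ha hb1 h2 hC hC0, ?_⟩
    intro σ hσm hσa hσb hσg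
    have hx0 : σ (g₀ ^ (2 * k)) = g₀ ^ (2 * k) := by rw [map_pow, hσg]
    have hσY0 : σ Y0 = Y0 :=
      core_fixed_of_inC A a b r hr ha h2 σ hσm hσa hσb h0 hx0 hx00 hs0
    rw [Sigma_hom_some, Affine.Point.some.injEq]
    exact ⟨hx0, hσY0⟩
  -- conclusion
  by_cases hN : IsN a b A T
  · rcases node_trichotomy A a b r hr ha hb1 h2 hN with ⟨g, hC⟩ | ⟨g, hC⟩ | hM
    · obtain ⟨P0, h1, h3⟩ := key _ g hC hT
      exact ⟨P0, T - P0, Or.inl rfl, h1, h3⟩
    · obtain ⟨P0, h1, h3⟩ := key _ g hC (by rw [smul_neg, hT, neg_zero])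
      exact ⟨P0, -T - P0, Or.inr rfl, h1, h3⟩
    · exfalso
      apply hpμ
      rw [← hmkM _ hM, ← map_nsmul, hT, map_zero]
  · refine ⟨0, T - 0, Or.inl rfl, ?_, ?_⟩
    · rw [sub_zero]; exact hN
    · intro σ _ hσa hσb _
      exact map_zero _

end decomp

section model

variable {K : Type*} [Field K] [DecidableEq K] (A : ValuationSubring K) (a b : K)
  {Γ : Type*} [Group Γ] [MulSemiringAction Γ K] (G : Subgroup Γ)

/-- **E-side for the multiplicative model.**  `K` algebraically closed, `A` a valuation subring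
over the odd prime `p`; model `Y² = X³ + a X² + b X` with `v a = 1`, `v b = v g₀ ^ p < 1`; `G` a
group of automorphisms of `K` fixing `a, b, g₀`, preserving `A` and acting trivially on the
residue field; `ζ` a `G`-fixed primitive `p`-th root of unity, `θ` a Kummer generator in the
"très ramifié" position, `g ∈ G` with `g θ = ζ θ`.  A `p`-torsion point `T = (x, y)` whose
coordinates are fixed by the stabiliser of `θ` is fixed by `g`. -/
theorem h13_E_mult_model [IsAlgClosed K] (g₀ : K) {p : ℕ} (hp : p.Prime) (hp2 : p ≠ 2)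
    (hB : A.LiesOverPrime p) (hpK : (p : K) ≠ 0)
    (ha : A.valuation a = 1) (hg₀ : A.valuation g₀ < 1) (hg₀0 : g₀ ≠ 0)
    (hb : A.valuation b = A.valuation g₀ ^ p)
    (hGA : ∀ h ∈ G, ∀ x : K, A.valuation (h • x) ≤ 1 ↔ A.valuation x ≤ 1)
    (hGm : ∀ h ∈ G, ∀ x : K, A.valuation x ≤ 1 → A.valuation (h • x - x) < 1)
    (hGa : ∀ h ∈ G, h • a = a) (hGb : ∀ h ∈ G, h • b = b) (hGg : ∀ h ∈ G, h • g₀ = g₀)
    {ζ θ : K} (hζ : ζ ^ p = 1) (hζ1 : ζ ≠ 1) (hζG : ∀ h ∈ G, h • ζ = ζ)
    (hθ0 : θ ≠ 0) (hθG : ∀ h ∈ G, ∃ j : ℕ, h • θ = ζ ^ j * θ)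
    {g : Γ} (hg : g ∈ G) (hgθ : g • θ = ζ * θ)
    (hval : ∀ c : K, (∀ h ∈ G, h • c = c) → c ≠ 0 → ∀ l : ℕ, 0 < l → l < p →
      A.valuation c ≠ A.valuation θ ^ l)
    {x y : K} (hT : (shortW a b).toAffine.Nonsingular x y)
    (hTp : p • (Affine.Point.some x y hT : (shortW a b).toAffine.Point) = 0)
    (hfix : ∀ h ∈ G, h • θ = θ → h • x = x ∧ h • y = y) :
    g • x = x ∧ g • y = y := by
  classical
  have hp0 : p ≠ 0 := hp.ne_zero
  have h2 : A.valuation (2 : K) = 1 := by
    have h := valuation_natCast_eq_one A p hp hB 2 (fun hd => by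
      have := (Nat.prime_dvd_prime_iff_eq hp Nat.prime_two).mp hd
      exact hp2 this)
    exact_mod_cast h
  have hvg0 : A.valuation g₀ ≠ 0 := (Valuation.ne_zero_iff _).mpr hg₀0
  have hb1 : A.valuation b < 1 := by rw [hb]; exact pow_lt_one₀ zero_le hg₀ hp0
  have hvb0 : A.valuation b ≠ 0 := by rw [hb]; exact pow_ne_zero _ hvg0
  have hb0 : b ≠ 0 := (Valuation.ne_zero_iff _).mp hvb0
  have hv : ∀ c : K, A.valuation c ≤ 1 → c ∈ A := fun c hc => (A.valuation_le_one_iff c).mp hc
  have hW : h86_Integral A (shortW a b) :=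
    ⟨A.zero_mem, hv _ ha.le, A.zero_mem, hv _ hb1.le, A.zero_mem⟩
  have hΔ0 : (shortW a b).Δ ≠ 0 := by
    rw [shortW_Δ]
    have h20 : (2 : K) ≠ 0 := by
      intro h0
      rw [h0, map_zero] at h2
      exact zero_ne_one h2
    have h16 : (16 : K) ≠ 0 := by
      have : (16 : K) = 2 ^ 4 := by norm_num
      rw [this]; exact pow_ne_zero _ h20
    have hd : a ^ 2 - 4 * b ≠ 0 := by
      intro h0
      have h4 : A.valuation (4 * b) < 1 := by
        have e4 : (4 : K) = 2 * 2 := by norm_num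
        rw [map_mul, e4, map_mul, h2, one_mul, one_mul]
        exact hb1
      have h5 : A.valuation (a ^ 2) = 1 := by rw [map_pow, ha, one_pow]
      have h6 : a ^ 2 = 4 * b := sub_eq_zero.mp h0
      rw [h6] at h5
      exact absurd h5 (ne_of_lt h4)
    exact mul_ne_zero (mul_ne_zero h16 (pow_ne_zero _ hb0)) hd
  -- the action on points
  obtain ⟨P0, D, hD, hDN, hP0⟩ := h13_mult_decomp A a b g₀ p hp hp2 h2 ha hg₀ hg₀0 hb
    (Affine.Point.some x y hT) hTp
  obtain ⟨φ, hφsome, hφP0⟩ : ∃ φ : ∀ h ∈ G,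
      (shortW a b).toAffine.Point →+ (shortW a b).toAffine.Point,
      (∀ h hh X Y (hXY : (shortW a b).toAffine.Nonsingular X Y), ∃ hXY',
        φ h hh (Affine.Point.some X Y hXY) = Affine.Point.some (h • X) (h • Y) hXY') ∧
      (∀ h hh, φ h hh P0 = P0) :=
    ⟨fun h hh => Sigma_hom a b (MulSemiringAction.toRingEquiv Γ K h) (hGa h hh) (hGb h hh),
     fun h hh X Y hXY => ⟨Sigma_nonsingular a b (MulSemiringAction.toRingEquiv Γ K h)
       (hGa h hh) (hGb h hh) hXY, rfl⟩,
     fun h hh => hP0 _ (hGm h hh) (hGa h hh) (hGb h hh) (hGg h hh)⟩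
  by_contra hne
  -- `R := g D - D`
  have hφgT : φ g hg (Affine.Point.some x y hT) ≠ Affine.Point.some x y hT := by
    obtain ⟨h', e⟩ := hφsome g hg x y hT
    rw [e]
    intro h''
    rw [Affine.Point.some.injEq] at h''
    exact hne h''
  have hRE1 : IsE1 a b A (φ g hg D - D) :=
    core_sub_isE1 A a b h2 ha.le hb1.le (MulSemiringAction.toRingEquiv Γ K g) (hGA g hg)
      (hGm g hg) (φ g hg) (fun X Y h => hφsome g hg X Y h)
      (fun hE hX => ns_of_mult A a b ha hb1 hE hX) D hDN
  have hRT : φ g hg D - D = φ g hg (Affine.Point.some x y hT) - Affine.Point.some x y hT ∨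
      φ g hg D - D = -(φ g hg (Affine.Point.some x y hT) - Affine.Point.some x y hT) := by
    rcases hD with rfl | rfl
    · left
      rw [map_sub, hφP0 g hg]; abel
    · right
      rw [map_sub, map_neg, hφP0 g hg]; abel
  have hR0 : φ g hg D - D ≠ 0 := by
    intro h0
    apply hφgT
    rcases hRT with e | e
    · rw [e] at h0
      exact sub_eq_zero.mp h0
    · rw [e, neg_eq_zero] at h0
      exact sub_eq_zero.mp h0
  have hRp : p • (φ g hg D - D) = 0 := by
    have h5 : p • (φ g hg (Affine.Point.some x y hT) - Affine.Point.some x y hT) = 0 := by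
      rw [smul_sub, ← map_nsmul, hTp, map_zero, sub_zero]
    rcases hRT with e | e
    · rw [e, h5]
    · rw [e, smul_neg, h5, neg_zero]
  -- `D` is fixed by the stabiliser of `θ`
  have hDfix : ∀ h (hh : h ∈ G), h • θ = θ → φ h hh D = D := by
    intro h hh hhθ
    have hTfix : φ h hh (Affine.Point.some x y hT) = Affine.Point.some x y hT := by
      obtain ⟨h', e⟩ := hφsome h hh x y hT
      rw [e, Affine.Point.some.injEq]
      exact hfix h hh hhθ
    rcases hD with rfl | rfl
    · rw [map_sub, hφP0 h hh, hTfix]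
    · rw [map_sub, map_neg, hφP0 h hh, hTfix]
  rcases D with _ | ⟨xD, yD, hDns⟩
  · apply hR0
    change φ g hg 0 - 0 = 0
    rw [map_zero, sub_zero]
  · obtain ⟨hDns', eD⟩ := hφsome g hg xD yD hDns
    have hRdef : Affine.Point.some (g • xD) (g • yD) hDns' = Affine.Point.some xD yD hDns +
        (φ g hg (Affine.Point.some xD yD hDns) - Affine.Point.some xD yD hDns) := by
      rw [add_sub_cancel, eD]
    have hfixD : ∀ h ∈ G, h • θ = θ → h • xD = xD ∧ h • yD = yD := by
      intro h hh hhθ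
      have h5 := hDfix h hh hhθ
      obtain ⟨h', e⟩ := hφsome h hh xD yD hDns
      rw [e, Affine.Point.some.injEq] at h5
      exact h5
    have hns : xD ∈ A → A.valuation (2 * yD + (shortW a b).a₁ * xD + (shortW a b).a₃) = 1 ∨
        A.valuation ((shortW a b).a₁ * yD -
          (3 * xD ^ 2 + 2 * (shortW a b).a₂ * xD + (shortW a b).a₄)) = 1 := by
      intro hxA
      have hxle : A.valuation xD ≤ 1 := (A.valuation_le_one_iff xD).mpr hxA
      have hx1 : A.valuation xD = 1 := by
        refine le_antisymm hxle ?_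
        by_contra hlt
        exact hDN ⟨xD, yD, hDns, rfl, not_le.mp hlt⟩
      have hyle : A.valuation yD ≤ 1 := core_val_Y_le A a b ha.le hb1.le hDns.1 hxle
      have hnsm := ns_of_mult A a b ha hb1 hDns.1 hx1
      simp only [shortW_a₁, shortW_a₂, shortW_a₃, shortW_a₄, zero_mul, add_zero, zero_sub,
        Valuation.map_neg, map_mul, h2, one_mul]
      by_cases hy1 : A.valuation yD < 1
      · right
        have h3le : A.valuation (3 * xD ^ 2 + 2 * a * xD + b) ≤ 1 := by
          refine A.valuation.map_add_le (A.valuation.map_add_le ?_ ?_) hb1.le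
          · rw [map_mul, map_pow]
            exact mul_le_one' (by
              have := h86_natCast_le_one A.valuation 3
              exact_mod_cast this) (pow_le_one₀ zero_le hxle)
          · rw [map_mul, map_mul, h2, one_mul]
            exact mul_le_one' ha.le hxle
        refine le_antisymm h3le ?_
        by_contra hlt
        exact hnsm ⟨hy1, not_le.mp hlt⟩
      · left
        exact le_antisymm hyle (not_lt.mp hy1)
    have hRmem : (φ g hg (Affine.Point.some xD yD hDns) - Affine.Point.some xD yD hDns) ∈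
        h86_E1 A (shortW a b) hW := by
      rcases hRE1 with h0 | ⟨X, Y, h, hEq, hX⟩
      · rw [h0]; exact zero_mem _
      · rw [hEq]
        exact hX
    exact h13_E_core_ns A (shortW a b) G hW hΔ0 hp hp2 hB hpK hζ hζ1 hζG hθ0 hθG hg hgθ hval
      hDns hDns' hfixD hns hRdef hRmem hR0 hRp

end model

end Fermat.Agent.S40
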