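import Fermat.Agent.S40.h57_EFinal
import Fermat.Agent.S40.h8_Tame

/-
helper57, project S40 (G40): the E-SIDE in the shape of the (TR) output.

`W₀` an integral Weierstrass model with `p ∤ Δ` (`p` odd), `A` a place of `ℚ̄` over `p`,
`I = A.inertiaSubgroupIn ℚ`, `I' = {σ ∈ I | σ ζ = ζ}`, `γ = v (ζ - 1)` (the value group of the
fixed field of `I'` is `γ ^ ℤ`, `h8_val_tame`).

* `h57_tres_of_val` : a Kummer generator `e` with `v (e ^ p) = γ ^ n`, `p ∤ n`, is in the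
  "tres ramifie position" `htres` required by `h57_E_top`;
* `h57_E_top_kappa` : such an `e` (with `e ^ p` fixed by `I'`) cannot have the same
  `I'`-stabiliser as a `p`-torsion point of the curve;
* `h57_E_top_kappa0` : the same with `e ^ p` fixed by all of `I` and the hypothesis
  `∀ m : ℤ, v (e ^ p) ≠ v p ^ (p * m)` (`p ∤ v(κ)` in the value group `v p ^ ℤ` of the inertia
  field).
-/

set_option autoImplicit false

namespace Fermat.Agent.S40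

open WeierstrassCurve WeierstrassCurve.Affine Fermat.Agent.S05 Fermat.Agent.S33

local notation "Qb" => AlgebraicClosure ℚ

section inst

variable (W₀ : WeierstrassCurve ℤ)

/-- `v (e ^ p) = v (ζ - 1) ^ n` with `p ∤ n` puts `e` in the tres ramifie position. -/
theorem h57_tres_of_val (p : ℕ) [Fact p.Prime] (hp2 : p ≠ 2)
    (A : ValuationSubring Qb) (hA : A.LiesOverPrime p) (ζ : Qb) (hζ : IsPrimitiveRoot ζ p)
    (e : Qb) (n : ℤ) (hn : A.valuation (e ^ p) = A.valuation (ζ - 1) ^ n)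
    (hpn : ¬ (p : ℤ) ∣ n) :
    ∀ c : Qb, (∀ σ ∈ A.inertiaSubgroupIn ℚ, σ ζ = ζ → σ c = c) → c ≠ 0 →
      ∀ l : ℕ, 0 < l → l < p → A.valuation c ≠ A.valuation e ^ l := by
  have hp : p.Prime := Fact.out
  obtain ⟨hγ0, hγ1⟩ := h8_val_zeta_lt p hp2 A hA ζ hζ
  have hinj := zpow_right_injective₀ hγ0 hγ1.ne
  intro c hc hc0 l hl0 hlp heq
  obtain ⟨n', hn'⟩ := h8_val_tame p hp2 A hA ζ hζ c hc0 hc
  have h1 : A.valuation (ζ - 1) ^ (n' * (p : ℤ)) = A.valuation (ζ - 1) ^ (n * (l : ℤ)) := by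
    rw [zpow_mul, zpow_mul, ← hn', ← hn, zpow_natCast, zpow_natCast, heq, map_pow, ← pow_mul,
      ← pow_mul, mul_comm]
  have h2 : n' * (p : ℤ) = n * (l : ℤ) := hinj h1
  have h3 : (p : ℤ) ∣ n * (l : ℤ) := ⟨n', by rw [← h2, mul_comm]⟩
  have hpp : Prime (p : ℤ) := Nat.prime_iff_prime_int.mp hp
  rcases hpp.dvd_or_dvd h3 with h | h
  · exact hpn h
  · have h4 : p ∣ l := Int.natCast_dvd_natCast.mp h
    exact absurd (Nat.le_of_dvd hl0 h4) (not_le.mpr hlp)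

/-- **E-SIDE of S40 against the (TR) output, `K'`-form.**  A Kummer generator `e` over the fixed
field of `I'` with `v (e ^ p) = v (ζ - 1) ^ n`, `p ∤ n`, cannot have the same `I'`-stabiliser as
a `p`-torsion point of a curve with good reduction at `p`. -/
theorem h57_E_top_kappa (p : ℕ) [Fact p.Prime] (hp2 : p ≠ 2) (hgood : ¬ (p : ℤ) ∣ W₀.Δ)
    (A : ValuationSubring Qb) (hA : A.LiesOverPrime p) (ζ : Qb) (hζ : IsPrimitiveRoot ζ p)
    (e : Qb) (he0 : e ≠ 0)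
    (hκ : ∀ σ ∈ A.inertiaSubgroupIn ℚ, σ ζ = ζ → σ (e ^ p) = e ^ p)
    (n : ℤ) (hn : A.valuation (e ^ p) = A.valuation (ζ - 1) ^ n) (hpn : ¬ (p : ℤ) ∣ n)
    (P : (h57_EQb W₀).toAffine.Point) (hP : p • P = 0)
    (hiff : ∀ σ ∈ A.inertiaSubgroupIn ℚ, σ ζ = ζ → (σ e = e ↔ σ • P = P)) : False := by
  have hp : p.Prime := Fact.out
  obtain ⟨hγ0, hγ1⟩ := h8_val_zeta_lt p hp2 A hA ζ hζ
  have hinj := zpow_right_injective₀ hγ0 hγ1.ne
  have htres := h57_tres_of_val p hp2 A hA ζ hζ e n hn hpn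
  have hfixP : ∀ σ ∈ A.inertiaSubgroupIn ℚ, σ ζ = ζ → σ • P = P := fun σ hσ hσζ =>
    h57_E_top W₀ p hp2 hgood A hA ζ hζ e he0 hκ htres P hP
      (fun τ hτ hτζ hτe => (hiff τ hτ hτζ).mp hτe) σ hσ hσζ
  have hfixe : ∀ σ ∈ A.inertiaSubgroupIn ℚ, σ ζ = ζ → σ e = e := fun σ hσ hσζ =>
    (hiff σ hσ hσζ).mpr (hfixP σ hσ hσζ)
  obtain ⟨n', hn'⟩ := h8_val_tame p hp2 A hA ζ hζ e he0 hfixe
  have h1 : A.valuation (ζ - 1) ^ (n' * (p : ℤ)) = A.valuation (ζ - 1) ^ n := by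
    rw [zpow_mul, ← hn', ← hn, zpow_natCast, map_pow]
  have h2 : n' * (p : ℤ) = n := hinj h1
  exact hpn ⟨n', by rw [← h2, mul_comm]⟩

/-- **E-SIDE of S40 against the (TR) output, `K₀`-form.**  `κ = e ^ p` fixed by the whole
inertia group, `v κ` not a `p`-th power in the value group `v p ^ ℤ` of the inertia field. -/
theorem h57_E_top_kappa0 (p : ℕ) [Fact p.Prime] (hp2 : p ≠ 2) (hgood : ¬ (p : ℤ) ∣ W₀.Δ)
    (A : ValuationSubring Qb) (hA : A.LiesOverPrime p) (ζ : Qb) (hζ : IsPrimitiveRoot ζ p)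
    (e : Qb) (he0 : e ≠ 0)
    (hκI : ∀ σ ∈ A.inertiaSubgroupIn ℚ, σ (e ^ p) = e ^ p)
    (hκv : ∀ m : ℤ, A.valuation (e ^ p) ≠ A.valuation (p : Qb) ^ ((p : ℤ) * m))
    (P : (h57_EQb W₀).toAffine.Point) (hP : p • P = 0)
    (hiff : ∀ σ ∈ A.inertiaSubgroupIn ℚ, σ ζ = ζ → (σ e = e ↔ σ • P = P)) : False := by
  have hp : p.Prime := Fact.out
  obtain ⟨k, hk⟩ := h8_val_unr p A hA (e ^ p) (pow_ne_zero p he0) hκI
  have hpk : ¬ (p : ℤ) ∣ k := by
    rintro ⟨m, rfl⟩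
    exact hκv m hk
  have hn : A.valuation (e ^ p) = A.valuation (ζ - 1) ^ (((p - 1 : ℕ) : ℤ) * k) := by
    rw [hk, h8_val_p p A ζ hζ, zpow_mul, zpow_natCast]
  have hpp : Prime (p : ℤ) := Nat.prime_iff_prime_int.mp hp
  have hpn : ¬ (p : ℤ) ∣ ((p - 1 : ℕ) : ℤ) * k := by
    intro h
    rcases hpp.dvd_or_dvd h with h | h
    · have h4 : p ∣ p - 1 := Int.natCast_dvd_natCast.mp h
      have h5 := Nat.le_of_dvd (by have := hp.two_le; omega) h4
      have := hp.two_le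
      omega
    · exact hpk h
  exact h57_E_top_kappa W₀ p hp2 hgood A hA ζ hζ e he0 (fun σ hσ _ => hκI σ hσ) _ hn hpn P hP hiff

end inst

end Fermat.Agent.S40
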