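/-
G40 / S44, E-side (E-MULT), instance at `ℚ̄` for the Frey curve (helper13).

* `h13_E_good_model`  : the E-side for the model `Y² = X³ + a X² + b X` with GOOD reduction
                        (`v b = v (a² - 4 b) = 1`), from `h13_E_core_ns`;
* `h13_kummer_top`    : the group-theoretic reduction "the stabiliser of `θ` fixes the point and
                        every `g` with `g θ = ζ θ` fixes the point ⟹ the whole group does";
* `h13_E_model_top`   : both cases of the model of the Frey curve at `p`, over `ℚ̄`;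
* `h13_E_frey_top`, `h13_E_frey_kappa`, `h13_E_frey_kappa0` : the E-side for ANY integral model
                        `W₀` of the Frey curve, in the three shapes of helper57's
                        `h57_E_top`, `h57_E_top_kappa`, `h57_E_top_kappa0` — with NO hypothesis
                        on the reduction type of `W₀` at `p`.
-/
import Fermat.Agent.S40.h13_EMultModel
import Fermat.Agent.S40.h57_EKappa
import Fermat.Agent.S13.h26_FreyP

set_option autoImplicit false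

namespace Fermat.Agent.S40

open WeierstrassCurve Fermat.Agent.S05 Fermat.Agent.S13

section model

variable {K : Type*} [Field K] [DecidableEq K] (A : ValuationSubring K) (a b : K)
  {Γ : Type*} [Group Γ] [MulSemiringAction Γ K] (G : Subgroup Γ)

/-- **E-side for the model with good reduction.**  Same statement as `h13_E_mult_model`, for
`Y² = X³ + a X² + b X` with `v a ≤ 1`, `v b = 1`, `v (a² - 4 b) = 1`. -/
theorem h13_E_good_model [IsAlgClosed K] {p : ℕ} (hp : p.Prime) (hp2 : p ≠ 2)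
    (hB : A.LiesOverPrime p) (hpK : (p : K) ≠ 0)
    (ha : A.valuation a ≤ 1) (hb : A.valuation b = 1) (hd : A.valuation (a ^ 2 - 4 * b) = 1)
    (hGA : ∀ h ∈ G, ∀ x : K, A.valuation (h • x) ≤ 1 ↔ A.valuation x ≤ 1)
    (hGm : ∀ h ∈ G, ∀ x : K, A.valuation x ≤ 1 → A.valuation (h • x - x) < 1)
    (hGa : ∀ h ∈ G, h • a = a) (hGb : ∀ h ∈ G, h • b = b)
    {ζ θ : K} (hζ : ζ ^ p = 1) (hζ1 : ζ ≠ 1) (hζG : ∀ h ∈ G, h • ζ = ζ)
    (hθ0 : θ ≠ 0) (hθG : ∀ h ∈ G, ∃ j : ℕ, h • θ = ζ ^ j * θ)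
    {g : Γ} (hg : g ∈ G) (hgθ : g • θ = ζ * θ)
    (hval : ∀ c : K, (∀ h ∈ G, h • c = c) → c ≠ 0 → ∀ l : ℕ, 0 < l → l < p →
      A.valuation c ≠ A.valuation θ ^ l)
    {x y : K} (hT : (shortW a b).toAffine.Nonsingular x y)
    (hTp : p • (Affine.Point.some x y hT : (shortW a b).toAffine.Point) = 0)
    (hfix : ∀ h ∈ G, h • θ = θ → h • x = x ∧ h • y = y) :
    g • x = x ∧ g • y = y := by
  classical
  have h2 : A.valuation (2 : K) = 1 := by
    have h := valuation_natCast_eq_one A p hp hB 2 (fun hd => by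
      have := (Nat.prime_dvd_prime_iff_eq hp Nat.prime_two).mp hd
      exact hp2 this)
    exact_mod_cast h
  have hb0 : b ≠ 0 := by
    intro h0
    rw [h0, map_zero] at hb
    exact zero_ne_one hb
  have hv : ∀ c : K, A.valuation c ≤ 1 → c ∈ A := fun c hc => (A.valuation_le_one_iff c).mp hc
  have hW : h86_Integral A (shortW a b) :=
    ⟨A.zero_mem, hv _ ha, A.zero_mem, hv _ hb.le, A.zero_mem⟩
  have hΔ0 : (shortW a b).Δ ≠ 0 := by
    rw [shortW_Δ]
    have h20 : (2 : K) ≠ 0 := by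
      intro h0
      rw [h0, map_zero] at h2
      exact zero_ne_one h2
    have h16 : (16 : K) ≠ 0 := by
      have : (16 : K) = 2 ^ 4 := by norm_num
      rw [this]; exact pow_ne_zero _ h20
    have hd0 : a ^ 2 - 4 * b ≠ 0 := by
      intro h0
      rw [h0, map_zero] at hd
      exact zero_ne_one hd
    exact mul_ne_zero (mul_ne_zero h16 (pow_ne_zero _ hb0)) hd0
  by_contra hne
  obtain ⟨φ, hφsome, hφE1⟩ : ∃ φ :
      (shortW a b).toAffine.Point →+ (shortW a b).toAffine.Point,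
      (∀ X Y (hXY : (shortW a b).toAffine.Nonsingular X Y), ∃ hXY',
        φ (Affine.Point.some X Y hXY) = Affine.Point.some (g • X) (g • Y) hXY') ∧
      (∀ T, IsE1 a b A (φ T - T)) :=
    ⟨Sigma_hom a b (MulSemiringAction.toRingEquiv Γ K g) (hGa g hg) (hGb g hg),
     fun X Y hXY => ⟨Sigma_nonsingular a b (MulSemiringAction.toRingEquiv Γ K g)
       (hGa g hg) (hGb g hg) hXY, rfl⟩,
     fun T => h75_good_isE1 A a b h2 ha hb hd (MulSemiringAction.toRingEquiv Γ K g)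
       (hGA g hg) (hGm g hg) (hGa g hg) (hGb g hg) T⟩
  obtain ⟨hT', eT⟩ := hφsome x y hT
  have hR0 : φ (Affine.Point.some x y hT) - Affine.Point.some x y hT ≠ 0 := by
    intro h0
    have h1 := sub_eq_zero.mp h0
    rw [eT, Affine.Point.some.injEq] at h1
    exact hne h1
  have hRp : p • (φ (Affine.Point.some x y hT) - Affine.Point.some x y hT) = 0 := by
    rw [smul_sub, ← map_nsmul, hTp, map_zero, sub_zero]
  have hRdef : Affine.Point.some (g • x) (g • y) hT' = Affine.Point.some x y hT +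
      (φ (Affine.Point.some x y hT) - Affine.Point.some x y hT) := by
    rw [add_sub_cancel, eT]
  have hns : x ∈ A → A.valuation (2 * y + (shortW a b).a₁ * x + (shortW a b).a₃) = 1 ∨
      A.valuation ((shortW a b).a₁ * y -
        (3 * x ^ 2 + 2 * (shortW a b).a₂ * x + (shortW a b).a₄)) = 1 := by
    intro hxA
    have hxle : A.valuation x ≤ 1 := (A.valuation_le_one_iff x).mpr hxA
    have hyle : A.valuation y ≤ 1 := core_val_Y_le A a b ha hb.le hT.1 hxle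
    have hnsm := ns_of_good A a b ha hb hd hT.1 hxle
    simp only [shortW_a₁, shortW_a₂, shortW_a₃, shortW_a₄, zero_mul, add_zero, zero_sub,
      Valuation.map_neg, map_mul, h2, one_mul]
    by_cases hy1 : A.valuation y < 1
    · right
      have h3le : A.valuation (3 * x ^ 2 + 2 * a * x + b) ≤ 1 := by
        refine A.valuation.map_add_le (A.valuation.map_add_le ?_ ?_) hb.le
        · rw [map_mul, map_pow]
          exact mul_le_one' (by
            have := h86_natCast_le_one A.valuation 3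
            exact_mod_cast this) (pow_le_one₀ zero_le hxle)
        · rw [map_mul, map_mul, h2, one_mul]
          exact mul_le_one' ha hxle
      refine le_antisymm h3le ?_
      by_contra hlt
      exact hnsm ⟨hy1, not_le.mp hlt⟩
    · left
      exact le_antisymm hyle (not_lt.mp hy1)
  have hRmem : (φ (Affine.Point.some x y hT) - Affine.Point.some x y hT) ∈
      h86_E1 A (shortW a b) hW := by
    rcases hφE1 (Affine.Point.some x y hT) with h0 | ⟨X, Y, h, hEq, hX⟩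
    · rw [h0]; exact zero_mem _
    · rw [hEq]
      exact hX
  exact h13_E_core_ns A (shortW a b) G hW hΔ0 hp hp2 hB hpK hζ hζ1 hζG hθ0 hθG hg hgθ hval
    hT hT' hfix hns hRdef hRmem hR0 hRp

end model

section kummer

variable {K : Type*} [Field K] {Γ : Type*} [Group Γ] [MulSemiringAction Γ K] (G : Subgroup Γ)

/-- Group-theoretic reduction: if the stabiliser of `θ` in `G` fixes `x, y` and every `g ∈ G`
with `g θ = ζ θ` fixes `x, y`, then all of `G` fixes `x, y`. -/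
theorem h13_kummer_top {p : ℕ} (hp : p.Prime) {ζ θ : K} (hζp : ζ ^ p = 1)
    (hζG : ∀ h ∈ G, h • ζ = ζ) (hθG : ∀ h ∈ G, ∃ j : ℕ, h • θ = ζ ^ j * θ) {x y : K}
    (hfac : ∀ h ∈ G, h • θ = θ → h • x = x ∧ h • y = y)
    (hcore : ∀ g ∈ G, g • θ = ζ * θ → g • x = x ∧ g • y = y)
    {σ : Γ} (hσ : σ ∈ G) : σ • x = x ∧ σ • y = y := by
  obtain ⟨j, hj⟩ := hθG σ hσ
  have hσζ : σ • ζ = ζ := hζG σ hσ
  by_cases hpj : p ∣ j
  · obtain ⟨q, rfl⟩ := hpj
    rw [pow_mul, hζp, one_pow, one_mul] at hj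
    exact hfac σ hσ hj
  · have hcop : Nat.Coprime j p := (Nat.Coprime.symm ((Nat.Prime.coprime_iff_not_dvd hp).2 hpj))
    obtain ⟨m, -, hm⟩ := Nat.exists_mul_mod_eq_one_of_coprime hcop hp.one_lt
    have hjm : j * m = p * (j * m / p) + 1 := by
      have := Nat.div_add_mod (j * m) p
      omega
    have hpm : ¬ p ∣ m := by
      rintro ⟨q, rfl⟩
      rw [← mul_assoc, mul_comm j p, mul_assoc, Nat.mul_mod_right] at hm
      exact zero_ne_one hm
    have hσk : ∀ k : ℕ, (σ ^ k) • θ = ζ ^ (j * k) * θ := by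
      intro k
      induction k with
      | zero => simp
      | succ k ih =>
        rw [pow_succ', mul_smul, ih, smul_mul', smul_pow', hσζ, hj, ← mul_assoc, ← pow_add,
          Nat.mul_succ]
    have hgG : σ ^ m ∈ G := G.pow_mem hσ m
    have hgθ : (σ ^ m) • θ = ζ * θ := by
      rw [hσk m, hjm, pow_add, pow_mul, hζp, one_pow, one_mul, pow_one]
    have hfixm := hcore _ hgG hgθ
    have hσpθ : (σ ^ p) • θ = θ := by
      rw [hσk p, mul_comm j p, pow_mul, hζp, one_pow, one_mul]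
    have hfixp := hfac _ (G.pow_mem hσ p) hσpθ
    have hpowfix : ∀ τ : Γ, (τ • x = x ∧ τ • y = y) → ∀ k : ℕ,
        (τ ^ k) • x = x ∧ (τ ^ k) • y = y := by
      intro τ hτ k
      induction k with
      | zero => simp
      | succ k ih =>
        rw [pow_succ, mul_smul, mul_smul, hτ.1, hτ.2]
        exact ih
    have hcop' : Nat.Coprime m p :=
      (Nat.Coprime.symm ((Nat.Prime.coprime_iff_not_dvd hp).2 hpm))
    obtain ⟨m', -, hm'⟩ := Nat.exists_mul_mod_eq_one_of_coprime hcop' hp.one_lt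
    have hmm : m * m' = p * (m * m' / p) + 1 := by
      have := Nat.div_add_mod (m * m') p
      omega
    have h1 : (σ ^ (m * m')) • x = x ∧ (σ ^ (m * m')) • y = y := by
      rw [pow_mul]
      exact hpowfix _ hfixm m'
    have h2 : (σ ^ (p * (m * m' / p))) • x = x ∧ (σ ^ (p * (m * m' / p))) • y = y := by
      rw [pow_mul]
      exact hpowfix _ hfixp _
    rw [hmm, pow_succ', mul_smul, mul_smul, h2.1, h2.2] at h1
    exact h1

end kummer

local notation "Qb" => AlgebraicClosure ℚ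

section inst

/-- **E-side on the model of the Frey curve at `p`, over `ℚ̄`** (both cases: good reduction, or
multiplicative reduction with `b` a `p`-th power).  `θ` a Kummer generator over the fixed field
of `I' = {σ ∈ I | σ ζ = ζ}` in the très ramifié position; if the stabiliser of `θ` in `I'` fixes
the `p`-torsion point `T`, then all of `I'` fixes `T`. -/
theorem h13_E_model_top (p : ℕ) (hp : p.Prime) (hp2 : p ≠ 2) (a b : ℤ)
    (hcase : (¬ (p : ℤ) ∣ b ∧ ¬ (p : ℤ) ∣ (a ^ 2 - 4 * b)) ∨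
      (¬ (p : ℤ) ∣ a ∧ ∃ g : ℤ, g ≠ 0 ∧ (p : ℤ) ∣ g ∧ b = g ^ p))
    (A : ValuationSubring Qb) (hA : A.LiesOverPrime p) (ζ : Qb) (hζ : IsPrimitiveRoot ζ p)
    (θ : Qb) (hθ0 : θ ≠ 0)
    (hκ : ∀ σ ∈ A.inertiaSubgroupIn ℚ, σ ζ = ζ → σ (θ ^ p) = θ ^ p)
    (htres : ∀ c : Qb, (∀ σ ∈ A.inertiaSubgroupIn ℚ, σ ζ = ζ → σ c = c) → c ≠ 0 →
      ∀ l : ℕ, 0 < l → l < p → A.valuation c ≠ A.valuation θ ^ l)
    (T : (shortW ((a : ℤ) : Qb) ((b : ℤ) : Qb)).toAffine.Point) (hT : p • T = 0)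
    (hfac : ∀ σ ∈ A.inertiaSubgroupIn ℚ, σ ζ = ζ → σ θ = θ → h26_sig a b σ T = T)
    (σ : Qb ≃ₐ[ℚ] Qb) (hσ : σ ∈ A.inertiaSubgroupIn ℚ) (hσζ : σ ζ = ζ) :
    h26_sig a b σ T = T := by
  classical
  have : NeZero p := ⟨hp.ne_zero⟩
  have hpQ : (p : Qb) ≠ 0 := by exact_mod_cast hp.ne_zero
  have hζp : ζ ^ p = 1 := hζ.pow_eq_one
  have hζ1 : ζ ≠ 1 := hζ.ne_one hp.one_lt
  rcases T with _ | ⟨x, y, hxy⟩
  · exact h26_sig_zero a b σ
  -- the group `I'`
  let G : Subgroup (Qb ≃ₐ[ℚ] Qb) :=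
    A.inertiaSubgroupIn ℚ ⊓ MulAction.stabilizer (Qb ≃ₐ[ℚ] Qb) ζ
  have hG : ∀ h : Qb ≃ₐ[ℚ] Qb, h ∈ G ↔ h ∈ A.inertiaSubgroupIn ℚ ∧ h ζ = ζ :=
    fun h => Subgroup.mem_inf
  have hζG : ∀ h ∈ G, h • ζ = ζ := fun h hh => ((hG h).mp hh).2
  have hθG : ∀ h ∈ G, ∃ j : ℕ, h • θ = ζ ^ j * θ := by
    intro h hh
    obtain ⟨hI, hζh⟩ := (hG h).mp hh
    have h1 : (h θ / θ) ^ p = 1 := by
      rw [div_pow, ← map_pow, hκ h hI hζh, div_self (pow_ne_zero _ hθ0)]
    obtain ⟨j, -, hj⟩ := hζ.eq_pow_of_pow_eq_one h1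
    refine ⟨j, ?_⟩
    change h θ = ζ ^ j * θ
    rw [hj, div_mul_cancel₀ _ hθ0]
  have hGA : ∀ h ∈ G, ∀ c : Qb, A.valuation (h • c) ≤ 1 ↔ A.valuation c ≤ 1 :=
    fun h hh => (inertia_valuation A h ((hG h).mp hh).1).1
  have hGm : ∀ h ∈ G, ∀ c : Qb, A.valuation c ≤ 1 → A.valuation (h • c - c) < 1 :=
    fun h hh => (inertia_valuation A h ((hG h).mp hh).1).2
  have hGint : ∀ (n : ℤ), ∀ h ∈ G, h • ((n : ℤ) : Qb) = ((n : ℤ) : Qb) :=
    fun n h _ => map_intCast h n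
  have hval : ∀ c : Qb, (∀ h ∈ G, h • c = c) → c ≠ 0 → ∀ l : ℕ, 0 < l → l < p →
      A.valuation c ≠ A.valuation θ ^ l := by
    intro c hc hc0 l hl0 hlp
    exact htres c (fun s hs hsζ => hc s ((hG s).mpr ⟨hs, hsζ⟩)) hc0 l hl0 hlp
  have hfix : ∀ h ∈ G, h • θ = θ → h • x = x ∧ h • y = y := by
    intro h hh hhθ
    obtain ⟨hI, hζh⟩ := (hG h).mp hh
    have hfx := hfac h hI hζh hhθ
    obtain ⟨h', hs'⟩ := h26_sig_some a b h hxy
    rw [hs', Affine.Point.some.injEq] at hfx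
    exact hfx
  have hσG : σ ∈ G := (hG σ).mpr ⟨hσ, hσζ⟩
  have hcore : ∀ g ∈ G, g • θ = ζ * θ → g • x = x ∧ g • y = y := by
    intro g hg hgθ
    obtain ⟨-, hcaseV⟩ := h26_model_val (p := p) hp hp2 A hA a b hcase
    rcases hcaseV with ⟨ha, hb, hd⟩ | ⟨ha, g₀, hg₀, hg₀0, hb⟩
    · exact h13_E_good_model A _ _ G hp hp2 hA hpQ ha hb hd hGA hGm (hGint a) (hGint b)
        hζp hζ1 hζG hθ0 hθG hg hgθ hval hxy hT hfix
    · exact h13_E_mult_model A _ _ G ((g₀ : ℤ) : Qb) hp hp2 hA hpQ ha hg₀ hg₀0 hb hGA hGm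
        (hGint a) (hGint b) (hGint g₀) hζp hζ1 hζG hθ0 hθG hg hgθ hval hxy hT hfix
  have key := h13_kummer_top G hp hζp hζG hθG hfix hcore hσG
  obtain ⟨h', hs'⟩ := h26_sig_some a b σ hxy
  rw [hs', Affine.Point.some.injEq]
  exact key

variable (P : FreyPackage) (W₀ : WeierstrassCurve ℤ)

/-- An integral model of the Frey curve is, over `ℚ̄`, Galois-equivariantly isomorphic to the
model `Y² = X³ + a X² + b X` at `p`. -/
theorem h13_frey_model_equiv (hW₀ : W₀.IsIntegralModelOf P.freyCurve) {q : ℕ} (hq : q.Prime) :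
    ∃ (a b : ℤ) (ε : (h57_EQb W₀).toAffine.Point ≃+
        (shortW ((a : ℤ) : Qb) ((b : ℤ) : Qb)).toAffine.Point),
      (∀ (σ : Qb ≃ₐ[ℚ] Qb) (T : (h57_EQb W₀).toAffine.Point),
        ε (σ • T) = h26_sig a b σ (ε T)) ∧
      ((¬ (q : ℤ) ∣ b ∧ ¬ (q : ℤ) ∣ (a ^ 2 - 4 * b)) ∨
        (¬ (q : ℤ) ∣ a ∧ ∃ g : ℤ, g ≠ 0 ∧ (q : ℤ) ∣ g ∧ b = g ^ P.p)) := by
  obtain ⟨C, hC⟩ := hW₀
  obtain ⟨a, b, C', hC', hcase⟩ := h26_frey_model_ne P hq
  have hCC : (C * C') • shortW (a : ℚ) (b : ℚ) = W₀.map (Int.castRingHom ℚ) := by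
    rw [mul_smul, hC', hC]
  obtain ⟨ε, hε⟩ := h26_model_equiv_aux (W₀.map (Int.castRingHom ℚ)) a b (C * C') hCC
  exact ⟨a, b, ε, hε, hcase⟩

/-- **E-side for an integral model of the Frey curve, "top" form** (the twin of `h57_E_top`,
with no hypothesis on the reduction type at `p`). -/
theorem h13_E_frey_top (hW₀ : W₀.IsIntegralModelOf P.freyCurve)
    (A : ValuationSubring Qb) (hA : A.LiesOverPrime P.p) (ζ : Qb) (hζ : IsPrimitiveRoot ζ P.p)
    (θ : Qb) (hθ0 : θ ≠ 0)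
    (hκ : ∀ σ ∈ A.inertiaSubgroupIn ℚ, σ ζ = ζ → σ (θ ^ P.p) = θ ^ P.p)
    (htres : ∀ c : Qb, (∀ σ ∈ A.inertiaSubgroupIn ℚ, σ ζ = ζ → σ c = c) → c ≠ 0 →
      ∀ l : ℕ, 0 < l → l < P.p → A.valuation c ≠ A.valuation θ ^ l)
    (T : (h57_EQb W₀).toAffine.Point) (hT : P.p • T = 0)
    (hfac : ∀ σ ∈ A.inertiaSubgroupIn ℚ, σ ζ = ζ → σ θ = θ → σ • T = T)
    (σ : Qb ≃ₐ[ℚ] Qb) (hσ : σ ∈ A.inertiaSubgroupIn ℚ) (hσζ : σ ζ = ζ) : σ • T = T := by
  have hp2 : P.p ≠ 2 := by have := P.hp5; omega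
  obtain ⟨a, b, ε, hε, hcase⟩ := h13_frey_model_equiv P W₀ hW₀ P.pp
  apply ε.injective
  rw [hε]
  refine h13_E_model_top P.p P.pp hp2 a b hcase A hA ζ hζ θ hθ0 hκ htres (ε T) ?_ ?_ σ hσ hσζ
  · rw [← map_nsmul, hT, map_zero]
  · intro τ hτ hτζ hτθ
    rw [← hε, hfac τ hτ hτζ hτθ]

/-- **E-side for an integral model of the Frey curve, `K'`-form** (twin of
`h57_E_top_kappa`). -/
theorem h13_E_frey_kappa (hW₀ : W₀.IsIntegralModelOf P.freyCurve)
    (A : ValuationSubring Qb) (hA : A.LiesOverPrime P.p) (ζ : Qb) (hζ : IsPrimitiveRoot ζ P.p)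
    (e : Qb) (he0 : e ≠ 0)
    (hκ : ∀ σ ∈ A.inertiaSubgroupIn ℚ, σ ζ = ζ → σ (e ^ P.p) = e ^ P.p)
    (n : ℤ) (hn : A.valuation (e ^ P.p) = A.valuation (ζ - 1) ^ n) (hpn : ¬ (P.p : ℤ) ∣ n)
    (T : (h57_EQb W₀).toAffine.Point) (hT : P.p • T = 0)
    (hiff : ∀ σ ∈ A.inertiaSubgroupIn ℚ, σ ζ = ζ → (σ e = e ↔ σ • T = T)) : False := by
  have : Fact P.p.Prime := ⟨P.pp⟩
  have hp2 : P.p ≠ 2 := by have := P.hp5; omega
  obtain ⟨hγ0, hγ1⟩ := h8_val_zeta_lt P.p hp2 A hA ζ hζ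
  have hinj := zpow_right_injective₀ hγ0 hγ1.ne
  have htres := h57_tres_of_val P.p hp2 A hA ζ hζ e n hn hpn
  have hfixP : ∀ σ ∈ A.inertiaSubgroupIn ℚ, σ ζ = ζ → σ • T = T := fun σ hσ hσζ =>
    h13_E_frey_top P W₀ hW₀ A hA ζ hζ e he0 hκ htres T hT
      (fun τ hτ hτζ hτe => (hiff τ hτ hτζ).mp hτe) σ hσ hσζ
  have hfixe : ∀ σ ∈ A.inertiaSubgroupIn ℚ, σ ζ = ζ → σ e = e := fun σ hσ hσζ =>
    (hiff σ hσ hσζ).mpr (hfixP σ hσ hσζ)
  obtain ⟨n', hn'⟩ := h8_val_tame P.p hp2 A hA ζ hζ e he0 hfixe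
  have h1 : A.valuation (ζ - 1) ^ (n' * (P.p : ℤ)) = A.valuation (ζ - 1) ^ n := by
    rw [zpow_mul, ← hn', ← hn, zpow_natCast, map_pow]
  have h2 : n' * (P.p : ℤ) = n := hinj h1
  exact hpn ⟨n', by rw [← h2, mul_comm]⟩

/-- **E-side for an integral model of the Frey curve, `K₀`-form** (twin of
`h57_E_top_kappa0`): `κ = e ^ p` fixed by the whole inertia group at `A`, `v κ` not a `p`-th
power in the value group `v p ^ ℤ` of the inertia field; then `e` cannot have the same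
`I'`-stabiliser as a `p`-torsion point of the curve. -/
theorem h13_E_frey_kappa0 (hW₀ : W₀.IsIntegralModelOf P.freyCurve)
    (A : ValuationSubring Qb) (hA : A.LiesOverPrime P.p) (ζ : Qb) (hζ : IsPrimitiveRoot ζ P.p)
    (e : Qb) (he0 : e ≠ 0)
    (hκI : ∀ σ ∈ A.inertiaSubgroupIn ℚ, σ (e ^ P.p) = e ^ P.p)
    (hκv : ∀ m : ℤ, A.valuation (e ^ P.p) ≠ A.valuation (P.p : Qb) ^ ((P.p : ℤ) * m))
    (T : (h57_EQb W₀).toAffine.Point) (hT : P.p • T = 0)
    (hiff : ∀ σ ∈ A.inertiaSubgroupIn ℚ, σ ζ = ζ → (σ e = e ↔ σ • T = T)) : False := by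
  have : Fact P.p.Prime := ⟨P.pp⟩
  have hp : P.p.Prime := P.pp
  obtain ⟨k, hk⟩ := h8_val_unr P.p A hA (e ^ P.p) (pow_ne_zero P.p he0) hκI
  have hpk : ¬ (P.p : ℤ) ∣ k := by
    rintro ⟨m, rfl⟩
    exact hκv m hk
  have hn : A.valuation (e ^ P.p) = A.valuation (ζ - 1) ^ (((P.p - 1 : ℕ) : ℤ) * k) := by
    rw [hk, h8_val_p P.p A ζ hζ, zpow_mul, zpow_natCast]
  have hpp : Prime (P.p : ℤ) := Nat.prime_iff_prime_int.mp hp
  have hpn : ¬ (P.p : ℤ) ∣ ((P.p - 1 : ℕ) : ℤ) * k := by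
    intro h
    rcases hpp.dvd_or_dvd h with h | h
    · have h4 : P.p ∣ P.p - 1 := Int.natCast_dvd_natCast.mp h
      have h5 := Nat.le_of_dvd (by have := hp.two_le; omega) h4
      have := hp.two_le
      omega
    · exact hpk h
  exact h13_E_frey_kappa P W₀ hW₀ A hA ζ hζ e he0 (fun σ hσ _ => hκI σ hσ) _ hn hpn T hT hiff

end inst

end Fermat.Agent.S40
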