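/-
G40 / S44, (BRIDGE) row B5, leaf (E-g) (helper13): the Hecke norm at a GOOD level.

`M` prime to `p`, `R := h39_modRed M hpM A hA` the reduction datum of level `M` at a place `A`
of `ℚ̄` over `p`, `ℓ ∤ M` a prime, `α, β : F(M) → F(M ℓ)` the two degeneracy maps.  For `g ∈ R.O`:

* `N_α(β g) ∈ R.O`;
* `red (N_α(β g)) (q^ℓ) = ḡ(q^(ℓ²)) ∏_{b<ℓ} ḡ(ζ̄^b q)`, `ḡ = red g`

(the characteristic-`p` shadow of row K1, `S37.h49_K1`).  No hypothesis `ℓ ≠ p`, no hypothesis
`red g ≠ 0`.
-/
import Fermat.Agent.S40.h13_EigGoodCore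
import Fermat.Agent.S18.h39_Mod
import Fermat.Agent.S37.h49_K1Final
import Fermat.Agent.GAL.h67_CorrPrincipal

set_option autoImplicit false
set_option synthInstance.maxHeartbeats 400000

noncomputable section

open ModularCurve AlgebraicCurve IntermediateField HahnSeries

namespace Fermat.Agent.S40

open Fermat.Agent.S18 Fermat.Agent.S24 Fermat.Agent.S37 Fermat.Agent.GAL

local notation "Qb" => AlgebraicClosure ℚ

section

variable (M : ℕ) [NeZero M] {p : ℕ} [Fact p.Prime] (hpM : ¬ p ∣ M)
  (A : ValuationSubring Qb) (hA : A.LiesOverPrime p)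

/-- **(E-g).**  The norm along `α` of `β g`, `g` a unit-free element of the reduction ring of the
good level `M`, is again in the reduction ring, and its reduction is given by the `q`-product
formula of row K1 applied to `red g`. -/
theorem h13_eig_good (ℓ : ℕ) [NeZero ℓ] (hℓ : ℓ.Prime) (hℓM : ¬ ℓ ∣ M)
    (ζ : Aˣ) (hζ : IsPrimitiveRoot (Units.map ((A.subtype : A →+* Qb) : A →* Qb) ζ) ℓ)
    (g : modularFunctionFieldBar M) (hg : g ∈ (h39_modRed M hpM A hA).O) :
    letI := algebraAlong (heckeAlphaBar Qb M ℓ)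
    (Algebra.norm (modularFunctionFieldBar M) (heckeBetaBar Qb M ℓ g) :
        modularFunctionFieldBar M) ∈ (h39_modRed M hpM A hA).O ∧
    qExpand (IsLocalRing.ResidueField A) ℓ
        (((h39_modRed M hpM A hA).redF
          (Algebra.norm (modularFunctionFieldBar M) (heckeBetaBar Qb M ℓ g) :
            modularFunctionFieldBar M) :
            ↥(modularFunctionFieldFullC (IsLocalRing.ResidueField A) M)) :
          LaurentSeries (IsLocalRing.ResidueField A))
      = qExpand (IsLocalRing.ResidueField A) ℓ (qExpand (IsLocalRing.ResidueField A) ℓ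
          (((h39_modRed M hpM A hA).redF g :
            ↥(modularFunctionFieldFullC (IsLocalRing.ResidueField A) M)) :
            LaurentSeries (IsLocalRing.ResidueField A))) *
        ∏ b ∈ Finset.range ℓ,
          h87_twist ((Units.map ((IsLocalRing.residue A : A →+* IsLocalRing.ResidueField A) :
              A →* IsLocalRing.ResidueField A) ζ) ^ b)
            (((h39_modRed M hpM A hA).redF g :
              ↥(modularFunctionFieldFullC (IsLocalRing.ResidueField A) M)) :
              LaurentSeries (IsLocalRing.ResidueField A)) := by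
  let _ := algebraAlong (heckeAlphaBar Qb M ℓ)
  have hspec := h39_modRed_spec M hpM A hA
  obtain ⟨y₁, y₂, hy₂, hgy⟩ := (hspec.mem_iff g).mp hg
  have hK1 := h49_K1 M ℓ hℓ hℓM (Units.map ((A.subtype : A →+* Qb) : A →* Qb) ζ) hζ g
  have hζℓ : ζ ^ ℓ = 1 := by
    have h1 := hζ.pow_eq_one
    rw [← map_pow] at h1
    apply Units.ext
    apply Subtype.ext
    have h2 := congrArg (fun u : Qbˣ => (u : Qb)) h1
    simpa using h2
  have hc : ∀ n : ℤ, ¬ (ℓ : ℤ) ∣ n → ∀ r : A, (((ζ ^ n : Aˣ) : A) - 1) * r = 0 → r = 0 := by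
    intro n hn r hr
    rcases mul_eq_zero.mp hr with h | h
    · exfalso
      apply hn
      rw [← hζ.zpow_eq_one_iff_dvd, ← map_zpow]
      have h1 : ζ ^ n = 1 := Units.ext (sub_eq_zero.mp h)
      rw [h1, map_one]
    · exact h
  obtain ⟨w₁, w₂, hw₂, hzw, hred⟩ := h13_K1_ratio (A.subtype : A →+* Qb) (IsLocalRing.residue A)
    ℓ ζ hζℓ hc y₁ y₂ hy₂ (g : LaurentSeries Qb)
    ((Algebra.norm (modularFunctionFieldBar M) (heckeBetaBar Qb M ℓ g) :
      modularFunctionFieldBar M) : LaurentSeries Qb) hgy hK1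
  have hN : (Algebra.norm (modularFunctionFieldBar M) (heckeBetaBar Qb M ℓ g) :
      modularFunctionFieldBar M) ∈ (h39_modRed M hpM A hA).O :=
    (hspec.mem_iff _).mpr ⟨w₁, w₂, hw₂, hzw⟩
  refine ⟨hN, ?_⟩
  rw [(h39_modRed M hpM A hA).redF_of_mem hN, (h39_modRed M hpM A hA).redF_of_mem hg]
  exact hred _ _ (hspec.red_eq g hg y₁ y₂ hgy) (hspec.red_eq _ hN w₁ w₂ hzw)

/-- **(E-g)** in the `h67_normAlong` packaging (the shape of `heigf` in `h77_eig_mod`). -/
theorem h13_eig_good_normAlong (ℓ : ℕ) [NeZero ℓ] (hℓ : ℓ.Prime) (hℓM : ¬ ℓ ∣ M)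
    (ζ : Aˣ) (hζ : IsPrimitiveRoot (Units.map ((A.subtype : A →+* Qb) : A →* Qb) ζ) ℓ)
    (g : modularFunctionFieldBar M) (hg : g ∈ (h39_modRed M hpM A hA).O) :
    h67_normAlong (heckeAlphaBar Qb M ℓ) (heckeBetaBar Qb M ℓ g) ∈ (h39_modRed M hpM A hA).O ∧
    qExpand (IsLocalRing.ResidueField A) ℓ
        (((h39_modRed M hpM A hA).redF
          (h67_normAlong (heckeAlphaBar Qb M ℓ) (heckeBetaBar Qb M ℓ g)) :
            ↥(modularFunctionFieldFullC (IsLocalRing.ResidueField A) M)) :
          LaurentSeries (IsLocalRing.ResidueField A))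
      = qExpand (IsLocalRing.ResidueField A) ℓ (qExpand (IsLocalRing.ResidueField A) ℓ
          (((h39_modRed M hpM A hA).redF g :
            ↥(modularFunctionFieldFullC (IsLocalRing.ResidueField A) M)) :
            LaurentSeries (IsLocalRing.ResidueField A))) *
        ∏ b ∈ Finset.range ℓ,
          h87_twist ((Units.map ((IsLocalRing.residue A : A →+* IsLocalRing.ResidueField A) :
              A →* IsLocalRing.ResidueField A) ζ) ^ b)
            (((h39_modRed M hpM A hA).redF g :
              ↥(modularFunctionFieldFullC (IsLocalRing.ResidueField A) M)) :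
              LaurentSeries (IsLocalRing.ResidueField A)) :=
  h13_eig_good M hpM A hA ℓ hℓ hℓM ζ hζ g hg

end

end Fermat.Agent.S40
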