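/-
G40 / S44, (BRIDGE) row B5, leaf (E-g), generic part (helper13).

Formal Laurent-series core of "the norm `N_α(β g)` of a RATIO of integral `q`-series is again a
ratio of integral `q`-series, and its reduction is given by the same `q`-product formula":

if `z(q^ℓ) = g(q^(ℓ²)) ∏_{b<ℓ} g(ζ^b q)` over `B`, `g · ι y₂ = ι y₁` with `y₁, y₂` over `A ⊆ B`
and `π y₂ ≠ 0`, then `z · ι w₂ = ι w₁` for suitable `w₁, w₂` over `A` with `π w₂ ≠ 0`, and every
pair `(u, z̄)` of series over the residue field with `u · π y₂ = π y₁`, `z̄ · π w₂ = π w₁`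
satisfies `z̄(q^ℓ) = u(q^(ℓ²)) ∏_{b<ℓ} u(ζ̄^b q)`.
-/
import Mathlib
import Fermat.Agent.S37.h87_Twist
import Fermat.Prelude.Thm_ModularCurve_coeffMap_qExpand

set_option autoImplicit false

noncomputable section

open ModularCurve HahnSeries

namespace Fermat.Agent.S40

open Fermat.Agent.S37

section generic

/-- A cyclic product is invariant under the shift of the index. -/
theorem h13_prod_range_shift {M : Type*} [CommMonoid M] (F : ℕ → M) {ℓ : ℕ} (hℓ : 0 < ℓ)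
    (h : F ℓ = F 0) : ∏ b ∈ Finset.range ℓ, F (b + 1) = ∏ b ∈ Finset.range ℓ, F b := by
  rw [Finset.range_eq_Ico, Finset.prod_Ico_add' F 0 ℓ 1, zero_add,
    Finset.prod_Ico_succ_top (Nat.succ_le_of_lt hℓ), Finset.prod_eq_prod_Ico_succ_bot hℓ, h,
    mul_comm]

variable {S : Type*} [CommRing S]

/-- The twist by an `ℓ`-th root of unity fixes series in `q^ℓ`. -/
theorem h13_twist_qExpand (ℓ : ℕ) [NeZero ℓ] (c : Sˣ) (hc : c ^ ℓ = 1) (f : LaurentSeries S) :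
    h87_twist c (qExpand S ℓ f) = qExpand S ℓ f := by
  ext n
  rw [h87_twist_coeff]
  by_cases hn : (ℓ : ℤ) ∣ n
  · obtain ⟨m, rfl⟩ := hn
    have : c ^ ((ℓ : ℤ) * m) = 1 := by
      rw [zpow_mul, zpow_natCast, hc, one_zpow]
    rw [this, Units.val_one, one_mul]
  · rw [qExpand_coeff_of_not_dvd ℓ f hn, mul_zero]

/-- The `q`-product `f(q^(ℓ²)) ∏_{b<ℓ} f(c^b q)`. -/
def h13_K (ℓ : ℕ) [NeZero ℓ] (c : Sˣ) (f : LaurentSeries S) : LaurentSeries S :=
  qExpand S ℓ (qExpand S ℓ f) * ∏ b ∈ Finset.range ℓ, h87_twist (c ^ b) f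

theorem h13_K_mul (ℓ : ℕ) [NeZero ℓ] (c : Sˣ) (f f' : LaurentSeries S) :
    h13_K ℓ c (f * f') = h13_K ℓ c f * h13_K ℓ c f' := by
  unfold h13_K
  rw [map_mul, map_mul]
  have : ∏ b ∈ Finset.range ℓ, h87_twist (c ^ b) (f * f') =
      (∏ b ∈ Finset.range ℓ, h87_twist (c ^ b) f) * ∏ b ∈ Finset.range ℓ, h87_twist (c ^ b) f' := by
    rw [← Finset.prod_mul_distrib]
    exact Finset.prod_congr rfl fun b _ => map_mul _ _ _
  rw [this]
  ring

theorem h13_coeffMap_K {S' : Type*} [CommRing S'] (φ : S →+* S') (ℓ : ℕ) [NeZero ℓ] (c : Sˣ)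
    (f : LaurentSeries S) :
    coeffMap φ (h13_K ℓ c f) = h13_K ℓ (Units.map (φ : S →* S') c) (coeffMap φ f) := by
  unfold h13_K
  rw [map_mul, coeffMap_qExpand, coeffMap_qExpand, map_prod]
  congr 1
  refine Finset.prod_congr rfl fun b _ => ?_
  rw [h87_coeffMap_twist, map_pow]

theorem h13_twist_K (ℓ : ℕ) [NeZero ℓ] (c : Sˣ) (hc : c ^ ℓ = 1) (f : LaurentSeries S) :
    h87_twist c (h13_K ℓ c f) = h13_K ℓ c f := by
  unfold h13_K
  rw [map_mul, h13_twist_qExpand ℓ c hc, map_prod]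
  congr 1
  have h1 : ∀ b ∈ Finset.range ℓ, h87_twist c (h87_twist (c ^ b) f) = h87_twist (c ^ (b + 1)) f :=
    fun b _ => by rw [← h87_twist_mul, pow_succ']
  rw [Finset.prod_congr rfl h1]
  exact h13_prod_range_shift (fun b => h87_twist (c ^ b) f)
    (Nat.pos_of_ne_zero (NeZero.ne ℓ)) (by simp only [hc, pow_zero])

theorem h13_K_ne_zero {k : Type*} [Field k] (ℓ : ℕ) [NeZero ℓ] (c : kˣ) {f : LaurentSeries k}
    (hf : f ≠ 0) : h13_K ℓ c f ≠ 0 := by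
  unfold h13_K
  refine mul_ne_zero ?_ (Finset.prod_ne_zero_iff.mpr fun b _ => ?_)
  · intro h0
    apply hf
    apply qExpand_injective (R := k) ℓ
    apply qExpand_injective (R := k) ℓ
    rw [h0, map_zero, map_zero]
  · intro h0
    apply hf
    have h1 : h87_twist ((c ^ b)⁻¹) (h87_twist (c ^ b) f) = f := by
      rw [← h87_twist_mul, inv_mul_cancel, h87_twist_one]
    rw [← h1, h0, map_zero]

/-- **K1 for ratios of integral series, with reduction.**  See the file header. -/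
theorem h13_K1_ratio {A B k : Type*} [CommRing A] [CommRing B] [Field k]
    (ι : A →+* B) (π : A →+* k) (ℓ : ℕ) [NeZero ℓ] (ζ : Aˣ) (hζ : ζ ^ ℓ = 1)
    (hc : ∀ n : ℤ, ¬ (ℓ : ℤ) ∣ n → ∀ r : A, (((ζ ^ n : Aˣ) : A) - 1) * r = 0 → r = 0)
    (y₁ y₂ : LaurentSeries A) (hy₂ : coeffMap π y₂ ≠ 0)
    (g z : LaurentSeries B) (hg : g * coeffMap ι y₂ = coeffMap ι y₁)
    (hz : qExpand B ℓ z = qExpand B ℓ (qExpand B ℓ g) *
      ∏ b ∈ Finset.range ℓ, h87_twist ((Units.map (ι : A →* B) ζ) ^ b) g) :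
    ∃ w₁ w₂ : LaurentSeries A, coeffMap π w₂ ≠ 0 ∧ z * coeffMap ι w₂ = coeffMap ι w₁ ∧
      ∀ u zb : LaurentSeries k, u * coeffMap π y₂ = coeffMap π y₁ →
        zb * coeffMap π w₂ = coeffMap π w₁ →
        qExpand k ℓ zb = qExpand k ℓ (qExpand k ℓ u) *
          ∏ b ∈ Finset.range ℓ, h87_twist ((Units.map (π : A →* k) ζ) ^ b) u := by
  obtain ⟨w₁, hw₁⟩ := h87_exists_qExpand_of_twist_eq ℓ ζ hc (h13_K ℓ ζ y₁) (h13_twist_K ℓ ζ hζ y₁)
  obtain ⟨w₂, hw₂⟩ := h87_exists_qExpand_of_twist_eq ℓ ζ hc (h13_K ℓ ζ y₂) (h13_twist_K ℓ ζ hζ y₂)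
  have hzK : qExpand B ℓ z = h13_K ℓ (Units.map (ι : A →* B) ζ) g := hz
  have hπW₂ : coeffMap π (h13_K ℓ ζ y₂) ≠ 0 := by
    rw [h13_coeffMap_K]
    exact h13_K_ne_zero ℓ _ hy₂
  refine ⟨w₁, w₂, ?_, ?_, ?_⟩
  · intro h0
    apply hπW₂
    rw [← hw₂, coeffMap_qExpand, h0, map_zero]
  · apply qExpand_injective (R := B) ℓ
    rw [map_mul, ← coeffMap_qExpand, ← coeffMap_qExpand, hw₁, hw₂, hzK, h13_coeffMap_K,
      h13_coeffMap_K, ← h13_K_mul, hg]
  · intro u zb hu hzb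
    have h1 : qExpand k ℓ zb * coeffMap π (h13_K ℓ ζ y₂) = coeffMap π (h13_K ℓ ζ y₁) := by
      rw [← hw₁, ← hw₂, coeffMap_qExpand, coeffMap_qExpand, ← map_mul, hzb]
    have h2 : coeffMap π (h13_K ℓ ζ y₁) =
        h13_K ℓ (Units.map (π : A →* k) ζ) u * coeffMap π (h13_K ℓ ζ y₂) := by
      rw [h13_coeffMap_K, h13_coeffMap_K, ← h13_K_mul, hu]
    rw [h2] at h1
    exact mul_right_cancel₀ hπW₂ h1

end generic

end Fermat.Agent.S40
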