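import Mathlib

/-!
# S40 (G40), row TOP-A (2): the Boston–Lenstra–Ribet embedding lemma (helper14)

`k` is a field with `2 ≠ 0`, `G` a group, `rho : G →* End V` a representation on a plane `V` whose
image spans `End V` (absolute irreducibility), and `act : G →* End Y` an arbitrary representation
such that every `act g` is killed by the characteristic polynomial of `rho g`:

    act g * act g - tr (rho g) • act g + det (rho g) • 1 = 0.

If `Y ≠ 0`, there is an injective `G`-equivariant linear map `V → Y` (`h14_blr`).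

Proof.  Let `A ⊆ M₂(k) × End Y` be the span of the pairs `(rho g, act g)`; it is a subalgebra.
* `h14_polar` / `h14_bil`: for `x, y ∈ A`
    `x₂ y₂ + y₂ x₂ = tr(x₁) y₂ + tr(y₁) x₂ + (tr(x₁ y₁) - tr(x₁) tr(y₁))`
  (on generators: multiply `g + d(g) g⁻¹ = t(g)` for `g`, `h`, `g h`; then bilinearity).
* if `x ∈ A` and `x₁ = 0`, then `x₂ y₂ + y₂ x₂ = tr(y₁) x₂` for all `y ∈ A`, hence
  `x₂ (y₂ y'₂ - y'₂ y₂) = 0`; for `y₁ = E₁₂`, `y'₁ = E₂₁` the commutator `z` has `z₁ = diag(1, -1)`
  and `z₂ z₂ = 1`, so `x₂ = 0`.
* so `A → M₂(k)` is bijective, `Y` is a module over `M₂(k)` and a column of a matrix unit acting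
  non-trivially gives the embedding.

Also: `h14_cayley` (Cayley–Hamilton on a plane), `h14_ch_pow` (the relation above passes from
`(A, B)` to `(A ^ n, B ^ n)`) and `h14_span_of_irr` (an irreducible plane with an element `c`,
`rho c ^ 2 = 1`, `det (rho c) = -1`, has `span (rho G) = End V`).
-/

set_option autoImplicit false

namespace Fermat.Agent.S40

open Module Matrix

/-- The polarised quadratic relation on generators. -/
theorem h14_polar {k R : Type*} [Field k] [Ring R] [Algebra k R] (a b a' b' : R)
    (ha : a' * a = 1) (hb : b' * b = 1) (ta tb tab da db : k)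
    (h1 : a * a - ta • a + da • (1 : R) = 0) (h2 : b * b - tb • b + db • (1 : R) = 0)
    (h3 : (a * b) * (a * b) - tab • (a * b) + (da * db) • (1 : R) = 0) :
    a * b + b * a = ta • b + tb • a + (tab - ta * tb) • (1 : R) := by
  have e1 : da • a' = ta • (1 : R) - a := by
    have := congrArg (fun z => a' * z) h1
    simp only [mul_add, mul_sub, mul_smul_comm, mul_zero, mul_one, ← mul_assoc, ha, one_mul]
      at this
    linear_combination (norm := module) this
  have e2 : db • b' = tb • (1 : R) - b := by
    have := congrArg (fun z => b' * z) h2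
    simp only [mul_add, mul_sub, mul_smul_comm, mul_zero, mul_one, ← mul_assoc, hb, one_mul]
      at this
    linear_combination (norm := module) this
  have e3 : (da * db) • (b' * a') = tab • (1 : R) - a * b := by
    have hinv : b' * a' * (a * b) = 1 := by
      rw [mul_assoc, ← mul_assoc a', ha, one_mul, hb]
    have := congrArg (fun z => b' * a' * z) h3
    simp only [mul_add, mul_sub, mul_smul_comm, mul_zero, mul_one] at this
    rw [← mul_assoc (b' * a'), hinv, one_mul] at this
    linear_combination (norm := module) this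
  have e4 : (da * db) • (b' * a') = (db • b') * (da • a') := by
    rw [smul_mul_smul_comm, mul_comm]
  rw [e1, e2] at e4
  rw [e4] at e3
  simp only [sub_mul, mul_sub, smul_mul_assoc, mul_smul_comm, one_mul, mul_one, smul_sub,
    smul_smul] at e3
  linear_combination (norm := module) e3

section core

variable {k : Type*} [Field k] {G : Type*} [Group G] {Y : Type*} [AddCommGroup Y] [Module k Y]

/-- The polarised relation on the span of the pairs `(rho g, act g)`. -/
theorem h14_bil (rho : G →* Matrix (Fin 2) (Fin 2) k) (act : G →* Module.End k Y)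
    (hCH : ∀ g, act g * act g - (rho g).trace • act g + (rho g).det • (1 : Module.End k Y) = 0) :
    ∀ x ∈ Submodule.span k (Set.range (rho.prod act)),
      ∀ y ∈ Submodule.span k (Set.range (rho.prod act)),
        x.2 * y.2 + y.2 * x.2 = x.1.trace • y.2 + y.1.trace • x.2 +
          ((x.1 * y.1).trace - x.1.trace * y.1.trace) • (1 : Module.End k Y) := by
  intro x hx
  induction hx using Submodule.span_induction with
  | mem x hx =>
    obtain ⟨g, rfl⟩ := hx
    intro y hy
    induction hy using Submodule.span_induction with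
    | mem y hy =>
      obtain ⟨h, rfl⟩ := hy
      have h3 := hCH (g * h)
      rw [map_mul, map_mul, Matrix.det_mul] at h3
      exact h14_polar (act g) (act h) (act g⁻¹) (act h⁻¹)
        (by rw [← map_mul, inv_mul_cancel, map_one]) (by rw [← map_mul, inv_mul_cancel, map_one])
        _ _ _ _ _ (hCH g) (hCH h) h3
    | zero => simp
    | add y z _ _ hy hz =>
      simp only [Prod.snd_add, Prod.fst_add, mul_add, add_mul, Matrix.trace_add]
      linear_combination (norm := module) hy + hz
    | smul c y _ hy =>
      simp only [Prod.smul_snd, Prod.smul_fst, Matrix.trace_smul, smul_eq_mul, mul_smul_comm,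
        smul_mul_assoc]
      linear_combination (norm := module) c • hy
  | zero =>
    intro y _
    simp
  | add x z _ _ hx hz =>
    intro y hy
    have e1 := hx y hy
    have e2 := hz y hy
    simp only [Prod.snd_add, Prod.fst_add, mul_add, add_mul, Matrix.trace_add]
    linear_combination (norm := module) e1 + e2
  | smul c x _ hx =>
    intro y hy
    have e1 := hx y hy
    simp only [Prod.smul_snd, Prod.smul_fst, Matrix.trace_smul, smul_eq_mul, mul_smul_comm,
      smul_mul_assoc]
    linear_combination (norm := module) c • e1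

/-- **BLR embedding, matrix form.** -/
theorem h14_blr_mat (h2 : (2 : k) ≠ 0) (rho : G →* Matrix (Fin 2) (Fin 2) k)
    (hspan : Submodule.span k (Set.range rho) = ⊤) [Nontrivial Y] (act : G →* Module.End k Y)
    (hCH : ∀ g, act g * act g - (rho g).trace • act g + (rho g).det • (1 : Module.End k Y) = 0) :
    ∃ iota : (Fin 2 → k) →ₗ[k] Y, Function.Injective iota ∧
      ∀ g v, iota (rho g *ᵥ v) = act g (iota v) := by
  classical
  set γ : G →* Matrix (Fin 2) (Fin 2) k × Module.End k Y := rho.prod act with hγ
  set A : Subalgebra k (Matrix (Fin 2) (Fin 2) k × Module.End k Y) :=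
    Algebra.adjoin k (Set.range γ) with hA
  have hAspan : ∀ x, x ∈ A → x ∈ Submodule.span k (Set.range γ) := by
    intro x hx
    have h := Algebra.adjoin_eq_span k (Set.range γ)
    have h' : (Submonoid.closure (Set.range γ) : Set (Matrix (Fin 2) (Fin 2) k × Module.End k Y)) =
        Set.range γ := by
      rw [← MonoidHom.coe_mrange, Submonoid.closure_eq]
    rw [h'] at h
    rw [← Subalgebra.mem_toSubmodule, hA, h] at hx
    exact hx
  have hγA : ∀ g, γ g ∈ A := fun g => Algebra.subset_adjoin ⟨g, rfl⟩
  have hB : ∀ x ∈ A, ∀ y ∈ A, x.2 * y.2 + y.2 * x.2 = x.1.trace • y.2 + y.1.trace • x.2 +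
      ((x.1 * y.1).trace - x.1.trace * y.1.trace) • (1 : Module.End k Y) :=
    fun x hx y hy => h14_bil rho act hCH x (hAspan x hx) y (hAspan y hy)
  -- the first projection is onto
  have hsurj : ∀ m : Matrix (Fin 2) (Fin 2) k, ∃ x ∈ A, x.1 = m := by
    intro m
    have hm : m ∈ Submodule.span k (Set.range rho) := by rw [hspan]; trivial
    induction hm using Submodule.span_induction with
    | mem m hm =>
      obtain ⟨g, rfl⟩ := hm
      exact ⟨γ g, hγA g, rfl⟩
    | zero => exact ⟨0, A.zero_mem, rfl⟩
    | add m n _ _ hm hn =>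
      obtain ⟨x, hx, rfl⟩ := hm
      obtain ⟨y, hy, rfl⟩ := hn
      exact ⟨x + y, A.add_mem hx hy, rfl⟩
    | smul c m _ hm =>
      obtain ⟨x, hx, rfl⟩ := hm
      exact ⟨c • x, A.smul_mem hx c, rfl⟩
  -- an invertible commutator
  obtain ⟨y, hyA, hy1⟩ := hsurj !![0, 1; 0, 0]
  obtain ⟨y', hy'A, hy'1⟩ := hsurj !![0, 0; 1, 0]
  have hzA : y * y' - y' * y ∈ A := A.sub_mem (A.mul_mem hyA hy'A) (A.mul_mem hy'A hyA)
  have hz1 : (y * y' - y' * y).1 = !![1, 0; 0, -1] := by
    show y.1 * y'.1 - y'.1 * y.1 = _
    rw [hy1, hy'1]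
    ext i j
    fin_cases i <;> fin_cases j <;> simp
  have hz2 : (y * y' - y' * y).2 = y.2 * y'.2 - y'.2 * y.2 := rfl
  have hzz : (y.2 * y'.2 - y'.2 * y.2) * (y.2 * y'.2 - y'.2 * y.2) = 1 := by
    have h := hB _ hzA _ hzA
    rw [hz1, hz2] at h
    have ht : (!![1, 0; 0, -1] : Matrix (Fin 2) (Fin 2) k).trace = 0 := by
      simp [Matrix.trace_fin_two]
    have ht2 : ((!![1, 0; 0, -1] : Matrix (Fin 2) (Fin 2) k) * !![1, 0; 0, -1]).trace = 2 := by
      simp [Matrix.trace_fin_two]
      norm_num
    rw [ht, ht2] at h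
    have h' : (2 : k) • ((y.2 * y'.2 - y'.2 * y.2) * (y.2 * y'.2 - y'.2 * y.2)) =
        (2 : k) • (1 : Module.End k Y) := by
      linear_combination (norm := module) h
    exact smul_right_injective _ h2 h'
  have ty' : y'.1.trace = 0 := by rw [hy'1]; simp [Matrix.trace_fin_two]
  -- the first projection is injective on `A`
  have hinj : ∀ x ∈ A, x.1 = 0 → x.2 = 0 := by
    intro x hxA hx1
    have hstar : ∀ u ∈ A, u.1 = 0 → u.2 * y'.2 + y'.2 * u.2 = 0 := by
      intro u hu hu1
      have h := hB u hu y' hy'A
      rw [hu1, ty'] at h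
      simpa using h
    have e1 := hstar x hxA hx1
    have hxy1 : (x * y).1 = 0 := by
      show x.1 * y.1 = 0
      rw [hx1, zero_mul]
    have e2 : x.2 * y.2 * y'.2 + y'.2 * (x.2 * y.2) = 0 := hstar (x * y) (A.mul_mem hxA hyA) hxy1
    have e1' : y'.2 * x.2 = -(x.2 * y'.2) := by
      rw [eq_neg_iff_add_eq_zero, add_comm]
      exact e1
    have e3 : x.2 * (y.2 * y'.2 - y'.2 * y.2) = 0 := by
      rw [← mul_assoc, e1'] at e2
      rw [mul_sub, ← mul_assoc, ← mul_assoc, sub_eq_add_neg, ← neg_mul]
      exact e2
    calc x.2 = x.2 * ((y.2 * y'.2 - y'.2 * y.2) * (y.2 * y'.2 - y'.2 * y.2)) := by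
          rw [hzz, mul_one]
      _ = x.2 * (y.2 * y'.2 - y'.2 * y.2) * (y.2 * y'.2 - y'.2 * y.2) := by rw [mul_assoc]
      _ = 0 := by rw [e3, zero_mul]
  -- the induced algebra map `M₂(k) → End Y`
  let f : A →ₗ[k] Matrix (Fin 2) (Fin 2) k :=
    (LinearMap.fst k (Matrix (Fin 2) (Fin 2) k) (Module.End k Y)).comp A.val.toLinearMap
  have hfbij : Function.Bijective f := by
    constructor
    · rw [injective_iff_map_eq_zero]
      intro x hx
      exact Subtype.ext (Prod.ext hx (hinj x.1 x.2 hx))
    · intro m
      obtain ⟨x, hx, rfl⟩ := hsurj m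
      exact ⟨⟨x, hx⟩, rfl⟩
  let e : A ≃ₗ[k] Matrix (Fin 2) (Fin 2) k := LinearEquiv.ofBijective f hfbij
  let φ : Matrix (Fin 2) (Fin 2) k →ₗ[k] Module.End k Y :=
    (LinearMap.snd k (Matrix (Fin 2) (Fin 2) k) (Module.End k Y)).comp
      (A.val.toLinearMap.comp e.symm.toLinearMap)
  have hφ : ∀ x (hx : x ∈ A), φ x.1 = x.2 := by
    intro x hx
    have h1 : e.symm x.1 = ⟨x, hx⟩ := by
      rw [LinearEquiv.symm_apply_eq]
      rfl
    show ((e.symm x.1 : A) : Matrix (Fin 2) (Fin 2) k × Module.End k Y).2 = x.2
    rw [h1]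
  have hφmul : ∀ m n, φ (m * n) = φ m * φ n := by
    intro m n
    obtain ⟨x, hx, rfl⟩ := hsurj m
    obtain ⟨w, hw, rfl⟩ := hsurj n
    rw [hφ x hx, hφ w hw]
    exact hφ (x * w) (A.mul_mem hx hw)
  have hφone : φ 1 = 1 := hφ 1 A.one_mem
  have hφg : ∀ g, φ (rho g) = act g := fun g => hφ (γ g) (hγA g)
  -- a matrix unit acting non-trivially
  have hj : ∃ j : Fin 2, φ (Matrix.single j j 1) ≠ 0 := by
    by_contra hcon
    push Not at hcon
    have h1 : (1 : Matrix (Fin 2) (Fin 2) k) = Matrix.single 0 0 1 + Matrix.single 1 1 1 := by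
      ext i j
      fin_cases i <;> fin_cases j <;> simp [Matrix.single]
    have h0 : φ 1 = 0 := by rw [h1, map_add, hcon 0, hcon 1, add_zero]
    rw [hφone] at h0
    exact one_ne_zero h0
  obtain ⟨j, hj⟩ := hj
  obtain ⟨y₀, hy₀⟩ : ∃ y₀, φ (Matrix.single j j 1) y₀ ≠ 0 := by
    by_contra hcon
    push Not at hcon
    exact hj (LinearMap.ext fun y => by simpa using hcon y)
  let col : (Fin 2 → k) →ₗ[k] Matrix (Fin 2) (Fin 2) k :=
    { toFun := fun v => Matrix.vecMulVec v (Pi.single j 1)
      map_add' := fun v w => Matrix.add_vecMulVec v w _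
      map_smul' := fun c v => Matrix.smul_vecMulVec c v _ }
  let iota : (Fin 2 → k) →ₗ[k] Y := (LinearMap.applyₗ y₀).comp (φ.comp col)
  have hiota : ∀ v, iota v = φ (Matrix.vecMulVec v (Pi.single j 1)) y₀ := fun v => rfl
  have hequiv : ∀ (m : Matrix (Fin 2) (Fin 2) k) (v : Fin 2 → k),
      iota (m *ᵥ v) = φ m (iota v) := by
    intro m v
    rw [hiota, hiota, ← Matrix.mul_vecMulVec, hφmul]
    rfl
  refine ⟨iota, ?_, fun g v => by rw [hequiv, hφg]⟩
  rw [injective_iff_map_eq_zero]
  intro v hv
  by_contra hv0
  obtain ⟨i, hi⟩ : ∃ i, v i ≠ 0 := by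
    by_contra h
    push Not at h
    exact hv0 (funext h)
  have h1 : Matrix.single j i (v i)⁻¹ *ᵥ v = Pi.single j 1 := by
    rw [Matrix.single_mulVec, inv_mul_cancel₀ hi]
    rfl
  have h3 := hequiv (Matrix.single j i (v i)⁻¹) v
  rw [h1, hv, map_zero, hiota, ← Matrix.single_eq_single_vecMulVec_single] at h3
  exact hy₀ h3

end core

section plane

variable {k : Type*} [Field k] {G : Type*} [Group G] {Y : Type*} [AddCommGroup Y] [Module k Y]
  {V : Type*} [AddCommGroup V] [Module k V]

/-- **BLR embedding.**  If the image of `rho` spans `End V` (`V` a plane, `2 ≠ 0` in `k`) and every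
`act g` is killed by the characteristic polynomial of `rho g`, then `V` embeds `G`-equivariantly
into the non-zero module `Y`. -/
theorem h14_blr (h2 : (2 : k) ≠ 0) (hV : Module.finrank k V = 2)
    (rho : G →* Module.End k V) (hspan : Submodule.span k (Set.range rho) = ⊤)
    [Nontrivial Y] (act : G →* Module.End k Y)
    (hCH : ∀ g, act g * act g - LinearMap.trace k V (rho g) • act g +
      LinearMap.det (rho g) • (1 : Module.End k Y) = 0) :
    ∃ iota : V →ₗ[k] Y, Function.Injective iota ∧ ∀ g v, iota (rho g v) = act g (iota v) := by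
  classical
  have hfin : Module.Finite k V := Module.finite_of_finrank_pos (by rw [hV]; norm_num)
  let b : Basis (Fin 2) k V := Module.finBasisOfFinrankEq k V hV
  let rho' : G →* Matrix (Fin 2) (Fin 2) k :=
    (MonoidHomClass.toMonoidHom (LinearMap.toMatrixAlgEquiv b)).comp rho
  have hrho' : ∀ g, rho' g = LinearMap.toMatrix b b (rho g) := fun g => rfl
  have hspan' : Submodule.span k (Set.range rho') = ⊤ := by
    rw [eq_top_iff]
    intro N _
    have h1 : Matrix.toLin b b N ∈ Submodule.span k (Set.range rho) := by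
      rw [hspan]
      exact Submodule.mem_top
    have h3 : LinearMap.toMatrix b b (Matrix.toLin b b N) ∈
        (Submodule.span k (Set.range rho)).map (LinearMap.toMatrix b b).toLinearMap :=
      Submodule.mem_map_of_mem h1
    rw [LinearMap.toMatrix_toLin, Submodule.map_span, ← Set.range_comp] at h3
    exact h3
  have hCH' : ∀ g, act g * act g - (rho' g).trace • act g +
      (rho' g).det • (1 : Module.End k Y) = 0 := by
    intro g
    rw [hrho', ← LinearMap.trace_eq_matrix_trace k b (rho g), LinearMap.det_toMatrix]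
    exact hCH g
  obtain ⟨iota, hinj, hequiv⟩ := h14_blr_mat h2 rho' hspan' act hCH'
  refine ⟨iota.comp b.equivFun.toLinearMap, hinj.comp b.equivFun.injective, fun g v => ?_⟩
  have h1 : b.equivFun (rho g v) = rho' g *ᵥ b.equivFun v := by
    rw [hrho']
    exact (LinearMap.toMatrix_mulVec_repr b b (rho g) v).symm
  show iota (b.equivFun (rho g v)) = act g (iota (b.equivFun v))
  rw [h1, hequiv]

/-- Cayley–Hamilton on a plane. -/
theorem h14_cayley (hV : Module.finrank k V = 2) (f : Module.End k V) :
    f * f - LinearMap.trace k V f • f + LinearMap.det f • (1 : Module.End k V) = 0 := by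
  have hfin : Module.Finite k V := Module.finite_of_finrank_pos (by rw [hV]; norm_num)
  let b : Basis (Fin 2) k V := Module.finBasisOfFinrankEq k V hV
  have h1 := LinearMap.aeval_self_charpoly f
  rw [← LinearMap.charpoly_toMatrix f b, Matrix.charpoly_fin_two, LinearMap.det_toMatrix,
    ← LinearMap.trace_eq_matrix_trace k b f] at h1
  simp only [map_add, map_sub, map_mul, map_pow, Polynomial.aeval_X, Polynomial.aeval_C] at h1
  rw [← h1, pow_two, Algebra.smul_def, Algebra.smul_def, mul_one]

/-- The relation `B² - tr(A) B + det(A) = 0` passes to powers. -/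
theorem h14_ch_pow (hV : Module.finrank k V = 2) (A : Module.End k V) (B : Module.End k Y)
    (h : B * B - LinearMap.trace k V A • B + LinearMap.det A • (1 : Module.End k Y) = 0) (n : ℕ) :
    B ^ n * B ^ n - LinearMap.trace k V (A ^ n) • B ^ n +
      LinearMap.det (A ^ n) • (1 : Module.End k Y) = 0 := by
  have hfin : Module.Finite k V := Module.finite_of_finrank_pos (by rw [hV]; norm_num)
  set t := LinearMap.trace k V A with ht
  set d := LinearMap.det A with hd
  have hA : A * A = t • A - d • (1 : Module.End k V) := by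
    have := h14_cayley hV A
    linear_combination (norm := module) this
  -- the trace recurrence
  have htr : ∀ m, LinearMap.trace k V (A ^ (m + 2)) =
      t * LinearMap.trace k V (A ^ (m + 1)) - d * LinearMap.trace k V (A ^ m) := by
    intro m
    have e : A ^ (m + 2) = t • A ^ (m + 1) - d • A ^ m := by
      rw [add_comm m 2, pow_add, pow_two, hA, sub_mul, smul_mul_assoc, smul_mul_assoc, one_mul,
        add_comm m 1, pow_add, pow_one]
    rw [e, map_sub, map_smul, map_smul, smul_eq_mul, smul_eq_mul]
  let x' : Polynomial k := Polynomial.C t - Polynomial.X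
  have hsum : Polynomial.aeval B (Polynomial.X + x') = t • (1 : Module.End k Y) := by
    simp [x', Algebra.algebraMap_eq_smul_one]
  have hprod : Polynomial.aeval B (Polynomial.X * x') = d • (1 : Module.End k Y) := by
    simp only [x', map_mul, map_sub, Polynomial.aeval_X, Polynomial.aeval_C,
      Algebra.algebraMap_eq_smul_one, mul_sub, mul_smul_comm, mul_one]
    linear_combination (norm := module) (-1 : k) • h
  have key : ∀ m, Polynomial.aeval B (Polynomial.X ^ m + x' ^ m) =
      LinearMap.trace k V (A ^ m) • (1 : Module.End k Y) := by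
    intro m
    induction m using Nat.twoStepInduction with
    | zero =>
      rw [pow_zero, pow_zero, pow_zero, LinearMap.trace_one, hV, map_add, map_one]
      norm_num [two_smul]
    | one =>
      rw [pow_one, pow_one, pow_one]
      exact hsum
    | more m ih0 ih1 =>
      have gen : ∀ a c : Polynomial k, a ^ (m + 2) + c ^ (m + 2) =
          (a + c) * (a ^ (m + 1) + c ^ (m + 1)) - (a * c) * (a ^ m + c ^ m) := fun a c => by ring
      have e := gen Polynomial.X x'
      rw [e, map_sub, map_mul, map_mul, hsum, hprod, ih0, ih1, htr, smul_mul_smul_comm,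
        smul_mul_smul_comm, mul_one, ← sub_smul]
  have gen : ∀ a c : Polynomial k, a ^ n * a ^ n - (a ^ n + c ^ n) * a ^ n + (a * c) ^ n = 0 :=
    fun a c => by ring
  have e := gen Polynomial.X x'
  have e' := congrArg (Polynomial.aeval B) e
  rw [map_add, map_sub, map_mul, map_mul, key, Polynomial.aeval_X_pow,
    map_pow (Polynomial.aeval B) (Polynomial.X * x') n, hprod, map_zero, smul_pow, one_pow,
    smul_mul_assoc, one_mul] at e'
  rw [map_pow (LinearMap.det : Module.End k V →* k) A n, ← hd]
  exact e'

end plane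

/-- A subalgebra of `M₂(k)` containing `diag(1, -1)` and matrices with non-zero lower-left resp.
upper-right entry is everything. -/
theorem h14_mat_top {k : Type*} [Field k] (h2 : (2 : k) ≠ 0)
    (S : Subalgebra k (Matrix (Fin 2) (Fin 2) k)) (hD : (!![1, 0; 0, -1] : Matrix (Fin 2) (Fin 2) k) ∈ S)
    (m₁ m₂ : Matrix (Fin 2) (Fin 2) k) (hm₁ : m₁ ∈ S) (hm₂ : m₂ ∈ S) (h10 : m₁ 1 0 ≠ 0)
    (h01 : m₂ 0 1 ≠ 0) : ∀ m : Matrix (Fin 2) (Fin 2) k, m ∈ S := by
  have e00 : Matrix.single (0 : Fin 2) (0 : Fin 2) (1 : k) ∈ S := by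
    have h : Matrix.single (0 : Fin 2) (0 : Fin 2) (1 : k) =
        (2 : k)⁻¹ • ((1 : Matrix (Fin 2) (Fin 2) k) + !![1, 0; 0, -1]) := by
      ext i j
      fin_cases i <;> fin_cases j <;> simp [Matrix.single]
      field_simp
      norm_num
    rw [h]
    exact S.smul_mem (S.add_mem S.one_mem hD) _
  have e11 : Matrix.single (1 : Fin 2) (1 : Fin 2) (1 : k) ∈ S := by
    have h : Matrix.single (1 : Fin 2) (1 : Fin 2) (1 : k) =
        (2 : k)⁻¹ • ((1 : Matrix (Fin 2) (Fin 2) k) - !![1, 0; 0, -1]) := by
      ext i j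
      fin_cases i <;> fin_cases j <;> simp [Matrix.single]
      field_simp
      norm_num
    rw [h]
    exact S.smul_mem (S.sub_mem S.one_mem hD) _
  have e10 : Matrix.single (1 : Fin 2) (0 : Fin 2) (1 : k) ∈ S := by
    have h : Matrix.single (1 : Fin 2) (0 : Fin 2) (1 : k) =
        (m₁ 1 0)⁻¹ • (Matrix.single (1 : Fin 2) (1 : Fin 2) (1 : k) * m₁ *
          Matrix.single (0 : Fin 2) (0 : Fin 2) (1 : k)) := by
      rw [Matrix.single_mul_mul_single, Matrix.smul_single, one_mul, mul_one, smul_eq_mul,
        inv_mul_cancel₀ h10]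
    rw [h]
    exact S.smul_mem (S.mul_mem (S.mul_mem e11 hm₁) e00) _
  have e01 : Matrix.single (0 : Fin 2) (1 : Fin 2) (1 : k) ∈ S := by
    have h : Matrix.single (0 : Fin 2) (1 : Fin 2) (1 : k) =
        (m₂ 0 1)⁻¹ • (Matrix.single (0 : Fin 2) (0 : Fin 2) (1 : k) * m₂ *
          Matrix.single (1 : Fin 2) (1 : Fin 2) (1 : k)) := by
      rw [Matrix.single_mul_mul_single, Matrix.smul_single, one_mul, mul_one, smul_eq_mul,
        inv_mul_cancel₀ h01]
    rw [h]
    exact S.smul_mem (S.mul_mem (S.mul_mem e00 hm₂) e11) _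
  have hall : ∀ i j : Fin 2, Matrix.single i j (1 : k) ∈ S := by
    intro i j
    fin_cases i <;> fin_cases j
    · exact e00
    · exact e01
    · exact e10
    · exact e11
  intro m
  rw [Matrix.matrix_eq_sum_single m]
  refine S.sum_mem fun i _ => S.sum_mem fun j _ => ?_
  have h : Matrix.single i j (m i j) = m i j • Matrix.single i j (1 : k) := by
    rw [Matrix.smul_single, smul_eq_mul, mul_one]
  rw [h]
  exact S.smul_mem (hall i j) _

section irr

variable {k : Type*} [Field k] {G : Type*} [Group G] {V : Type*} [AddCommGroup V] [Module k V]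

/-- **Burnside by hand**: an irreducible representation on a plane containing an element `c` with
`rho c ^ 2 = 1` and `det (rho c) = -1` (`2 ≠ 0`) spans the whole endomorphism algebra. -/
theorem h14_span_of_irr (h2 : (2 : k) ≠ 0) (hV : Module.finrank k V = 2)
    (rho : G →* Module.End k V)
    (hirr : ∀ N : Submodule k V, (∀ g, ∀ x ∈ N, rho g x ∈ N) → N = ⊥ ∨ N = ⊤)
    (c : G) (hc : rho c * rho c = 1) (hdet : LinearMap.det (rho c) = -1) :
    Submodule.span k (Set.range rho) = ⊤ := by
  classical
  have hfin : Module.Finite k V := Module.finite_of_finrank_pos (by rw [hV]; norm_num)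
  have hne1 : (1 : k) ≠ -1 := by
    intro h
    apply h2
    linear_combination h
  set C := rho c with hC
  have hC1 : C ≠ 1 := by
    intro h
    rw [h, map_one] at hdet
    exact hne1 hdet
  have hCm1 : C ≠ -1 := by
    intro h
    have h' : C = (-1 : k) • (1 : Module.End k V) := by rw [h, neg_one_smul]
    rw [h', LinearMap.det_smul, hV, map_one] at hdet
    apply hne1
    rw [← hdet]
    norm_num
  have hCC : ∀ u, C (C u) = u := fun u => by
    have := congrArg (fun f : Module.End k V => f u) hc
    simpa using this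
  obtain ⟨v, hv⟩ : ∃ v, C v - v ≠ 0 := by
    by_contra hcon
    push Not at hcon
    exact hC1 (LinearMap.ext fun v => by simpa [sub_eq_zero] using hcon v)
  obtain ⟨w, hw⟩ : ∃ w, C w + w ≠ 0 := by
    by_contra hcon
    push Not at hcon
    exact hCm1 (LinearMap.ext fun w => by simpa [add_eq_zero_iff_eq_neg] using hcon w)
  have hCe₁ : C (C w + w) = C w + w := by rw [map_add, hCC, add_comm]
  have hCe₂ : C (C v - v) = -(C v - v) := by rw [map_sub, hCC, neg_sub]
  have hli : LinearIndependent k ![C w + w, C v - v] := by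
    rw [LinearIndependent.pair_iff]
    intro s t hst
    have h' := congrArg C hst
    rw [map_add, map_smul, map_smul, hCe₁, hCe₂, map_zero, smul_neg] at h'
    have hs : (2 * s) • (C w + w) = 0 := by linear_combination (norm := module) hst + h'
    have ht : (2 * t) • (C v - v) = 0 := by linear_combination (norm := module) hst - h'
    refine ⟨?_, ?_⟩
    · rcases smul_eq_zero.mp hs with h | h
      · exact (mul_eq_zero.mp h).resolve_left h2
      · exact absurd h hw
    · rcases smul_eq_zero.mp ht with h | h
      · exact (mul_eq_zero.mp h).resolve_left h2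
      · exact absurd h hv
  let b : Basis (Fin 2) k V := basisOfLinearIndependentOfCardEqFinrank hli (by rw [hV]; rfl)
  have hb0 : b 0 = C w + w := by
    simp [b]
  have hb1 : b 1 = C v - v := by
    simp [b]
  have hCb0 : C (b 0) = b 0 := by rw [hb0]; exact hCe₁
  have hCb1 : C (b 1) = -b 1 := by rw [hb1]; exact hCe₂
  -- the subalgebra of matrices
  let M : G →* Matrix (Fin 2) (Fin 2) k :=
    (MonoidHomClass.toMonoidHom (LinearMap.toMatrixAlgEquiv b)).comp rho
  have hM : ∀ g, M g = LinearMap.toMatrix b b (rho g) := fun g => rfl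
  let S : Subalgebra k (Matrix (Fin 2) (Fin 2) k) := Algebra.adjoin k (Set.range M)
  have hMS : ∀ g, M g ∈ S := fun g => Algebra.subset_adjoin ⟨g, rfl⟩
  have hD : (!![1, 0; 0, -1] : Matrix (Fin 2) (Fin 2) k) ∈ S := by
    have h : M c = !![1, 0; 0, -1] := by
      rw [hM]
      ext i j
      fin_cases i <;> fin_cases j <;>
        simp [LinearMap.toMatrix_apply, ← hC, hCb0, hCb1]
    rw [← h]
    exact hMS c
  -- off-diagonal entries from irreducibility
  have hoff : ∀ i j : Fin 2, i ≠ j → ∃ g, M g i j ≠ 0 := by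
    intro i j hij
    by_contra hcon
    push Not at hcon
    have hstab : ∀ g, ∀ x ∈ Submodule.span k {b j}, rho g x ∈ Submodule.span k {b j} := by
      intro g x hx
      obtain ⟨a, rfl⟩ := Submodule.mem_span_singleton.mp hx
      rw [map_smul]
      refine Submodule.smul_mem _ _ ?_
      have h0 : b.repr (rho g (b j)) i = 0 := by
        have := hcon g
        rwa [hM, LinearMap.toMatrix_apply] at this
      have key : ∀ i j l : Fin 2, i ≠ j → l ≠ j → l = i := by decide
      have hl : ∀ l : Fin 2, l ≠ j → b.repr (rho g (b j)) l • b l = 0 := by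
        intro l hl
        rw [key i j l hij hl, h0, zero_smul]
      have hsum := b.sum_repr (rho g (b j))
      rw [Finset.sum_eq_single j (fun l _ hl' => hl l hl')
        (fun h => absurd (Finset.mem_univ j) h)] at hsum
      rw [← hsum]
      exact Submodule.smul_mem _ _ (Submodule.mem_span_singleton_self _)
    rcases hirr _ hstab with h | h
    · have := Submodule.mem_span_singleton_self (R := k) (b j)
      rw [h, Submodule.mem_bot] at this
      exact b.ne_zero j this
    · have hi : b i ∈ Submodule.span k {b j} := by rw [h]; trivial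
      obtain ⟨a, ha⟩ := Submodule.mem_span_singleton.mp hi
      have := congrArg (fun x => b.repr x i) ha
      simp [hij.symm] at this
  obtain ⟨g₁, hg₁⟩ := hoff 1 0 (by decide)
  obtain ⟨g₂, hg₂⟩ := hoff 0 1 (by decide)
  have htop := h14_mat_top h2 S hD (M g₁) (M g₂) (hMS g₁) (hMS g₂) hg₁ hg₂
  -- back to endomorphisms
  have hSspan : ∀ m ∈ S, m ∈ Submodule.span k (Set.range M) := by
    intro m hm
    have h := Algebra.adjoin_eq_span k (Set.range M)
    have h' : (Submonoid.closure (Set.range M) : Set (Matrix (Fin 2) (Fin 2) k)) =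
        Set.range M := by
      rw [← MonoidHom.coe_mrange, Submonoid.closure_eq]
    rw [h'] at h
    rw [← Subalgebra.mem_toSubmodule, h] at hm
    exact hm
  have hback : ∀ m ∈ Submodule.span k (Set.range M),
      Matrix.toLin b b m ∈ Submodule.span k (Set.range rho) := by
    intro m hm
    induction hm using Submodule.span_induction with
    | mem m hm =>
      obtain ⟨g, rfl⟩ := hm
      rw [hM, Matrix.toLin_toMatrix]
      exact Submodule.subset_span ⟨g, rfl⟩
    | zero =>
      rw [map_zero]
      exact Submodule.zero_mem _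
    | add m n _ _ hm hn =>
      rw [map_add]
      exact Submodule.add_mem _ hm hn
    | smul a m _ hm =>
      rw [map_smul]
      exact Submodule.smul_mem _ _ hm
  rw [eq_top_iff]
  intro f _
  have h1 := hback _ (hSspan _ (htop (LinearMap.toMatrix b b f)))
  rwa [Matrix.toLin_toMatrix] at h1

end irr

end Fermat.Agent.S40
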