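import Mathlib
import Fermat.Agent.S41.h45_GaloisCore

/-!
# S40 (G40), row GT: the group-theory split on `V_f := V ∩ toric` (helper37)

`V` is a plane over `𝔽_p` with an action of a group `G` (in the application: the copy of `W[p]`
inside the `p`-new part of `J₀(M)[p]`), `I ≤ G` a subgroup (inertia at `p`), `ω : G →* 𝔽_pˣ` a
character with `det = ω` on `I` and `ω ≠ 1` on `I`.  `Vf` is an `I`-stable subspace (the toric
classes) with

* (F)  `(g - 1) V ⊆ Vf` for `g ∈ I`;
* (N-min_c)  a nonzero `z ∈ Vf` with `g z = c z` (`g ∈ I`) forces `c = ω g`.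

Then `Vf` is a LINE, `I` acts on it through `ω` and trivially on `V / Vf`, and every `g ∈ I` with
`ω g ≠ 1` fixes a vector outside `Vf`.  (So the cases `Vf = 0` and `Vf = V` die on the modular
side, with no input from the elliptic curve.)

The only non-formal ingredient is the dichotomy `h37_eig_or_pow`: an endomorphism `f` of a plane
over `𝔽_p` either has an eigenvector with eigenvalue in `𝔽_p`, or `f ^ (p + 1) = det f`.
-/

set_option autoImplicit false

open Polynomial Module

namespace Fermat.Agent.S40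

open Fermat.Agent.S41

section poly

variable (p : ℕ) [Fact p.Prime]

/-- `∏_{a ∈ 𝔽_p} (X - a) = X^p - X`. -/
theorem h37_prod_X_sub_C :
    (∏ a : ZMod p, (X - C a) : (ZMod p)[X]) = X ^ p - X := by
  have hp : p.Prime := Fact.out
  have hmonic : (X ^ p - X : (ZMod p)[X]).Monic :=
    monic_X_pow_sub (by rw [degree_X]; exact_mod_cast hp.one_lt)
  have hroots : (X ^ p - X : (ZMod p)[X]).roots = Finset.univ.val := by
    have h := FiniteField.roots_X_pow_card_sub_X (ZMod p)
    rwa [ZMod.card] at h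
  have hcard : Multiset.card (X ^ p - X : (ZMod p)[X]).roots =
      (X ^ p - X : (ZMod p)[X]).natDegree := by
    rw [hroots, FiniteField.X_pow_card_sub_X_natDegree_eq (ZMod p) hp.one_lt]
    change Finset.card Finset.univ = p
    rw [Finset.card_univ, ZMod.card]
  have h := prod_multiset_X_sub_C_of_monic_of_roots_card_eq hmonic hcard
  rw [hroots] at h
  rw [← h]
  rfl

/-- the polynomial identity behind `f^p ∈ {f, t - f}`. -/
theorem h37_poly_id (t d : ZMod p) :
    ((X ^ p - X) * (X ^ p + X - C t) : (ZMod p)[X]) =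
      (X ^ 2 - C t * X + C d) ^ p - (X ^ 2 - C t * X + C d) := by
  rw [← ZMod.expand_card (X ^ 2 - C t * X + C d)]
  simp only [map_add, map_sub, map_mul, map_pow, expand_X, expand_C]
  ring

end poly

section lin

variable {p : ℕ} [Fact p.Prime] {V : Type*} [AddCommGroup V] [Module (ZMod p) V]

/-- Cayley–Hamilton on a plane. -/
theorem h37_cayley (hV : finrank (ZMod p) V = 2) (f : V →ₗ[ZMod p] V) :
    ∃ t : ZMod p, f * f - t • f + LinearMap.det f • (1 : V →ₗ[ZMod p] V) = 0 := by
  have : Module.Finite (ZMod p) V := Module.finite_of_finrank_pos (by rw [hV]; norm_num)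
  let b : Basis (Fin 2) (ZMod p) V := Module.finBasisOfFinrankEq (ZMod p) V hV
  refine ⟨(LinearMap.toMatrix b b f).trace, ?_⟩
  have h1 := LinearMap.aeval_self_charpoly f
  rw [← LinearMap.charpoly_toMatrix f b, Matrix.charpoly_fin_two, LinearMap.det_toMatrix] at h1
  simp only [map_add, map_sub, map_mul, map_pow, aeval_X, aeval_C] at h1
  rw [← h1, pow_two, Algebra.smul_def, Algebra.smul_def, mul_one]

/-- if a product of `f - a` kills a nonzero vector, `f` has an eigenvector. -/
theorem h37_eig_of_prod (f : V →ₗ[ZMod p] V) (s : Finset (ZMod p)) :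
    ∀ w : V, w ≠ 0 → aeval f (∏ a ∈ s, (X - C a) : (ZMod p)[X]) w = 0 →
      ∃ (c : ZMod p) (z : V), z ≠ 0 ∧ f z = c • z := by
  classical
  induction s using Finset.induction_on with
  | empty =>
    intro w hw h
    rw [Finset.prod_empty, map_one] at h
    exact absurd h hw
  | insert a s ha ih =>
    intro w hw h
    rw [Finset.prod_insert ha, map_mul] at h
    by_cases h0 : aeval f (∏ a ∈ s, (X - C a) : (ZMod p)[X]) w = 0
    · exact ih w hw h0
    · refine ⟨a, _, h0, ?_⟩
      rw [Module.End.mul_apply] at h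
      simp only [map_sub, aeval_X, aeval_C, LinearMap.sub_apply] at h
      rw [sub_eq_zero] at h
      rw [h]
      simp [Algebra.algebraMap_eq_smul_one]

/-- **Dichotomy**: an endomorphism of a plane over `𝔽_p` has an eigenvector with eigenvalue in
`𝔽_p`, or its `(p+1)`-st power is the scalar `det f`. -/
theorem h37_eig_or_pow (hV : finrank (ZMod p) V = 2) (f : V →ₗ[ZMod p] V) :
    (∃ (c : ZMod p) (z : V), z ≠ 0 ∧ f z = c • z) ∨
      f ^ (p + 1) = LinearMap.det f • (1 : V →ₗ[ZMod p] V) := by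
  have hp : p.Prime := Fact.out
  obtain ⟨t, ht⟩ := h37_cayley hV f
  set d := LinearMap.det f with hd
  have hq : aeval f (X ^ 2 - C t * X + C d : (ZMod p)[X]) = 0 := by
    simp only [map_add, map_sub, map_mul, map_pow, aeval_X, aeval_C]
    rw [← ht, pow_two, Algebra.smul_def, Algebra.smul_def, mul_one]
  have hprod : aeval f ((X ^ p - X) * (X ^ p + X - C t) : (ZMod p)[X]) = 0 := by
    rw [h37_poly_id p t d, map_sub, map_pow, hq, zero_pow hp.ne_zero, sub_zero]
  by_cases h2 : aeval f (X ^ p + X - C t : (ZMod p)[X]) = 0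
  · right
    simp only [map_add, map_sub, map_pow, aeval_X, aeval_C] at h2
    have h3 : f ^ p = algebraMap (ZMod p) (V →ₗ[ZMod p] V) t - f := by
      rw [eq_sub_iff_add_eq, ← sub_eq_zero]
      exact h2
    rw [pow_succ, h3, sub_mul, Algebra.algebraMap_eq_smul_one, smul_mul_assoc, one_mul]
    calc t • f - f * f = t • f - f * f + (f * f - t • f + d • (1 : V →ₗ[ZMod p] V)) := by
          rw [ht, add_zero]
      _ = d • (1 : V →ₗ[ZMod p] V) := by abel
  · left
    have h3 : ∃ v : V, aeval f (X ^ p + X - C t : (ZMod p)[X]) v ≠ 0 := by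
      by_contra hcon
      push Not at hcon
      exact h2 (LinearMap.ext hcon)
    obtain ⟨v, hv⟩ := h3
    refine h37_eig_of_prod f Finset.univ _ hv ?_
    rw [h37_prod_X_sub_C, ← Module.End.mul_apply, ← map_mul, hprod, LinearMap.zero_apply]

end lin

section split

variable {p : ℕ} [Fact p.Prime] {G : Type*} [Group G] {V : Type*} [AddCommGroup V]
  [Module (ZMod p) V] [DistribMulAction G V]

/-- the scalar `d` raised to the power `p + 1` is `d ^ 2` in `𝔽_p`. -/
theorem h37_pow_succ_card (d : ZMod p) : d ^ (p + 1) = d * d := by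
  rw [pow_succ, ZMod.pow_card]

/-- Case `Vf = V`: with (N-min_c) on the whole plane and `det = ω`, the character `ω` is trivial
at `g`. -/
theorem h37_top_case (hV : finrank (ZMod p) V = 2) (I : Subgroup G) (ω : G →* (ZMod p)ˣ)
    (hdet : ∀ g ∈ I, LinearMap.det (h45_rho p g : V →ₗ[ZMod p] V) = ((ω g : (ZMod p)ˣ) : ZMod p))
    (hN : ∀ g ∈ I, ∀ z : V, z ≠ 0 → ∀ c : ZMod p, g • z = c • z →
      c = ((ω g : (ZMod p)ˣ) : ZMod p))
    (g : G) (hg : g ∈ I) : ω g = 1 := by
  have hp : p.Prime := Fact.out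
  have : Module.Finite (ZMod p) V := Module.finite_of_finrank_pos (by rw [hV]; norm_num)
  have hnt : Nontrivial V := Module.nontrivial_of_finrank_pos (R := ZMod p) (by rw [hV]; norm_num)
  set d : ZMod p := ((ω g : (ZMod p)ˣ) : ZMod p) with hd
  have hd0 : d ≠ 0 := (ω g).ne_zero
  suffices h : d = 1 by
    apply Units.ext
    rw [← hd, h, Units.val_one]
  set f : V →ₗ[ZMod p] V := h45_rho p g with hf
  have hdf : LinearMap.det f = d := hdet g hg
  rcases h37_eig_or_pow hV f with ⟨c, z, hz, hfz⟩ | hpow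
  · -- an eigenvector: its eigenvalue is `d`, and then `1` is an eigenvalue too (or `f = d`)
    have hc : c = d := hN g hg z hz c (by rw [← hfz]; rfl)
    obtain ⟨t, ht⟩ := h37_cayley hV f
    rw [hdf] at ht
    have h1 := congrArg (fun φ : V →ₗ[ZMod p] V => φ z) ht
    simp only [LinearMap.add_apply, LinearMap.sub_apply, Module.End.mul_apply, LinearMap.smul_apply,
      Module.End.one_apply, LinearMap.zero_apply] at h1
    rw [hfz, map_smul, hfz, hc, smul_smul, smul_smul, ← sub_smul, ← add_smul] at h1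
    have h2 : d * d - t * d + d = 0 := by
      rcases smul_eq_zero.mp h1 with h | h
      · exact h
      · exact absurd h hz
    have ht' : t = d + 1 := by
      have : d * (d - t + 1) = 0 := by linear_combination h2
      rcases mul_eq_zero.mp this with h | h
      · exact absurd h hd0
      · linear_combination -h
    -- `(f - 1) (f - d) = 0`
    have h3 : ∀ v : V, f (f v - d • v) = f v - d • v := by
      intro v
      have h4 := congrArg (fun φ : V →ₗ[ZMod p] V => φ v) ht
      simp only [LinearMap.add_apply, LinearMap.sub_apply, Module.End.mul_apply,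
        LinearMap.smul_apply, Module.End.one_apply, LinearMap.zero_apply] at h4
      rw [ht', add_smul, one_smul] at h4
      rw [map_sub, map_smul]
      rw [← sub_eq_zero]
      rw [← h4]
      abel
    by_cases h5 : ∀ v : V, f v - d • v = 0
    · -- `f` is the scalar `d`, so `det f = d ^ 2`
      have h6 : f = d • (1 : V →ₗ[ZMod p] V) := by
        ext v
        simpa [sub_eq_zero] using h5 v
      have h7 := hdf
      rw [h6, LinearMap.det_smul, hV, map_one, mul_one] at h7
      have : d * (d - 1) = 0 := by linear_combination h7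
      rcases mul_eq_zero.mp this with h | h
      · exact absurd h hd0
      · linear_combination h
    · push Not at h5
      obtain ⟨v, hv⟩ := h5
      have h8 := hN g hg _ hv 1 (by rw [one_smul]; exact h3 v)
      exact h8.symm
  · -- `g ^ (p + 1)` is the scalar `d`
    obtain ⟨z, hz⟩ := exists_ne (0 : V)
    have h1 : (g ^ (p + 1)) • z = d • z := by
      have h2 := congrArg (fun φ : V →ₗ[ZMod p] V => φ z) hpow
      rw [hdf] at h2
      have h3 : (h45_rho p (g ^ (p + 1)) : V →ₗ[ZMod p] V) = f ^ (p + 1) := h45_rho_pow p g (p + 1)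
      have h4 : (g ^ (p + 1)) • z = (f ^ (p + 1)) z := by
        rw [← h3]
        rfl
      rw [h4]
      simpa using h2
    have h5 := hN _ (I.pow_mem hg (p + 1)) z hz d h1
    rw [map_pow, Units.val_pow_eq_pow_val, ← hd, h37_pow_succ_card] at h5
    have : d * (d - 1) = 0 := by linear_combination -h5
    rcases mul_eq_zero.mp this with h | h
    · exact absurd h hd0
    · linear_combination h

/-- **GT split.**  `Vf` is a line, inertia acts on it through `ω`, and every `g ∈ I` with
`ω g ≠ 1` fixes a vector outside `Vf`. -/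
theorem h37_gt_split (hV : finrank (ZMod p) V = 2) (I : Subgroup G) (ω : G →* (ZMod p)ˣ)
    (hdet : ∀ g ∈ I, LinearMap.det (h45_rho p g : V →ₗ[ZMod p] V) = ((ω g : (ZMod p)ˣ) : ZMod p))
    (hω : ∃ g ∈ I, ω g ≠ 1)
    (Vf : Submodule (ZMod p) V)
    (hstab : ∀ g ∈ I, ∀ z ∈ Vf, g • z ∈ Vf)
    (hF : ∀ g ∈ I, ∀ v : V, g • v - v ∈ Vf)
    (hN : ∀ g ∈ I, ∀ z ∈ Vf, z ≠ 0 → ∀ c : ZMod p, g • z = c • z →
      c = ((ω g : (ZMod p)ˣ) : ZMod p)) :
    finrank (ZMod p) Vf = 1 ∧
      (∀ g ∈ I, ∀ z ∈ Vf, g • z = ((ω g : (ZMod p)ˣ) : ZMod p) • z) ∧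
      (∀ g ∈ I, ω g ≠ 1 → ∃ x : V, x ∉ Vf ∧ g • x = x) := by
  have hp : p.Prime := Fact.out
  have : Module.Finite (ZMod p) V := Module.finite_of_finrank_pos (by rw [hV]; norm_num)
  obtain ⟨g₀, hg₀, hωg₀⟩ := hω
  -- `Vf ≠ ⊥`
  have hbot : Vf ≠ ⊥ := by
    intro h
    apply hωg₀
    have h1 : (h45_rho p g₀ : V →ₗ[ZMod p] V) = 1 := by
      ext v
      have h2 := hF g₀ hg₀ v
      rw [h, Submodule.mem_bot, sub_eq_zero] at h2
      simpa using h2
    have h3 := hdet g₀ hg₀
    rw [h1, map_one] at h3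
    apply Units.ext
    rw [← h3, Units.val_one]
  -- `Vf ≠ ⊤`
  have htop : Vf ≠ ⊤ := by
    intro h
    apply hωg₀
    refine h37_top_case hV I ω hdet (fun g hg z hz c hc => hN g hg z ?_ hz c hc) g₀ hg₀
    rw [h]
    trivial
  -- `Vf` is a line
  have hfr : finrank (ZMod p) Vf = 1 := by
    have hle : finrank (ZMod p) Vf ≤ 2 := hV ▸ Submodule.finrank_le Vf
    have h0 : finrank (ZMod p) Vf ≠ 0 := by
      intro h
      exact hbot (Submodule.finrank_eq_zero.mp h)
    have h2 : finrank (ZMod p) Vf ≠ 2 := by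
      intro h
      exact htop (Submodule.eq_top_of_finrank_eq (h.trans hV.symm))
    omega
  -- the action on `Vf`
  have hact : ∀ g ∈ I, ∀ z ∈ Vf, g • z = ((ω g : (ZMod p)ˣ) : ZMod p) • z := by
    intro g hg z hz
    by_cases hz0 : z = 0
    · rw [hz0, smul_zero, smul_zero]
    · have hz' : (⟨z, hz⟩ : Vf) ≠ 0 := fun h => hz0 (congrArg Subtype.val h)
      obtain ⟨c, hc⟩ := (finrank_eq_one_iff_of_nonzero' (⟨z, hz⟩ : Vf) hz').mp hfr
        ⟨g • z, hstab g hg z hz⟩
      have hc' : g • z = c • z := (congrArg Subtype.val hc).symm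
      rw [hc', hN g hg z hz hz0 c hc']
  refine ⟨hfr, hact, ?_⟩
  -- the fixed vector
  intro g hg hωg
  obtain ⟨y, hy⟩ : ∃ y : V, y ∉ Vf := by
    by_contra hcon
    push Not at hcon
    exact htop (Submodule.eq_top_iff'.mpr hcon)
  set d : ZMod p := ((ω g : (ZMod p)ˣ) : ZMod p) with hd
  have hd1 : (1 : ZMod p) - d ≠ 0 := by
    intro h
    apply hωg
    apply Units.ext
    rw [Units.val_one, ← hd]
    linear_combination -h
  set u : V := g • y - y with hu
  have huf : u ∈ Vf := hF g hg y
  have hgu : g • u = d • u := hact g hg u huf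
  refine ⟨y + (1 - d)⁻¹ • u, ?_, ?_⟩
  · intro h
    apply hy
    have h1 : y = (y + (1 - d)⁻¹ • u) - (1 - d)⁻¹ • u := by abel
    rw [h1]
    exact Vf.sub_mem h (Vf.smul_mem _ huf)
  · have hgy : g • y = y + u := by rw [hu]; abel
    rw [smul_add, h45_smul_zmod, hgu, hgy, smul_smul, add_assoc]
    congr 1
    have h2 : u + ((1 - d)⁻¹ * d) • u = ((1 - d)⁻¹ * (1 - d) + (1 - d)⁻¹ * d) • u := by
      rw [add_smul, inv_mul_cancel₀ hd1, one_smul]
    rw [h2]
    congr 1
    ring

/-- **GT split, natural-number form of (N-min_c)**: the hypothesis is literally the shape of the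
modular wrapper (`σ₀ • z = e • z` with `p ∤ e` forces `e ≡ ω(σ₀)`). -/
theorem h37_gt_split_nat (hV : finrank (ZMod p) V = 2) (I : Subgroup G) (ω : G →* (ZMod p)ˣ)
    (hdet : ∀ g ∈ I, LinearMap.det (h45_rho p g : V →ₗ[ZMod p] V) = ((ω g : (ZMod p)ˣ) : ZMod p))
    (hω : ∃ g ∈ I, ω g ≠ 1)
    (Vf : Submodule (ZMod p) V)
    (hstab : ∀ g ∈ I, ∀ z ∈ Vf, g • z ∈ Vf)
    (hF : ∀ g ∈ I, ∀ v : V, g • v - v ∈ Vf)
    (hN : ∀ g ∈ I, ∀ z ∈ Vf, z ≠ 0 → ∀ e : ℕ, ¬ p ∣ e → g • z = e • z →
      (e : ZMod p) = ((ω g : (ZMod p)ˣ) : ZMod p)) :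
    finrank (ZMod p) Vf = 1 ∧
      (∀ g ∈ I, ∀ z ∈ Vf, g • z = ((ω g : (ZMod p)ˣ) : ZMod p) • z) ∧
      (∀ g ∈ I, ω g ≠ 1 → ∃ x : V, x ∉ Vf ∧ g • x = x) := by
  refine h37_gt_split hV I ω hdet hω Vf hstab hF ?_
  intro g hg z hz hz0 c hc
  have hc0 : c ≠ 0 := by
    intro h
    rw [h, zero_smul] at hc
    apply hz0
    have := congrArg (fun w => g⁻¹ • w) hc
    simpa using this
  have hce : ((c.val : ℕ) : ZMod p) = c := ZMod.natCast_zmod_val c
  have hdvd : ¬ p ∣ c.val := by
    intro h
    apply hc0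
    rw [← hce]
    exact (ZMod.natCast_eq_zero_iff _ _).mpr h
  have h1 : g • z = c.val • z := by
    rw [hc, ← Nat.cast_smul_eq_nsmul (ZMod p), hce]
  rw [← hN g hg z hz hz0 c.val hdvd h1, hce]

/-- **`det = χ` from Frobenius relations** (the hypotheses are those of S41's
`h45_galois_core`): if `G` acts irreducibly on the plane `V` and every element acts on `V` as a
power of some `σ` killed by `X² - t X + χ(σ)`, then `det (g | V) = χ g` for EVERY `g`. -/
theorem h37_det_eq_chi (hcard : Nat.card V = p ^ 2)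
    (hirr : ∀ N : Submodule (ZMod p) V, (∀ (g : G), ∀ x ∈ N, g • x ∈ N) → N = ⊥ ∨ N = ⊤)
    (χ : G →* (ZMod p)ˣ)
    (hF : ∀ g : G, ∃ (σ : G) (b : ℕ) (t : ZMod p), (∀ v : V, σ ^ b • v = g • v) ∧
      χ σ ^ b = χ g ∧
      ∀ v : V, σ • σ • v - t • σ • v + ((χ σ : (ZMod p)ˣ) : ZMod p) • v = 0) :
    ∀ g : G, LinearMap.det (h45_rho p g : V →ₗ[ZMod p] V) = ((χ g : (ZMod p)ˣ) : ZMod p) := by
  have hp : p.Prime := Fact.out
  have hfr := h45_finrank hcard
  have hfin : Finite V :=
    Nat.finite_of_card_ne_zero (by rw [hcard]; exact pow_ne_zero _ hp.ne_zero)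
  -- a non-scalar element exists
  have hns : ∃ g₀ : G, ¬ ∃ lam : ZMod p, ∀ v : V, g₀ • v = lam • v := by
    by_contra hcon
    push Not at hcon
    have hnt : Nontrivial V := by
      rw [← Finite.one_lt_card_iff_nontrivial, hcard]
      exact Nat.one_lt_pow (by norm_num) hp.one_lt
    obtain ⟨v₀, hv₀⟩ := exists_ne (0 : V)
    have hstab : ∀ (g : G), ∀ x ∈ Submodule.span (ZMod p) {v₀},
        g • x ∈ Submodule.span (ZMod p) {v₀} := by
      intro g x hx
      obtain ⟨lam, hl⟩ := hcon g
      rw [hl]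
      exact Submodule.smul_mem _ _ hx
    rcases hirr _ hstab with h | h
    · have := Submodule.mem_span_singleton_self (R := ZMod p) v₀
      rw [h, Submodule.mem_bot] at this
      exact hv₀ this
    · have hsurj : Function.Surjective (fun a : ZMod p => a • v₀) := by
        intro w
        have hw : w ∈ Submodule.span (ZMod p) {v₀} := by rw [h]; trivial
        exact Submodule.mem_span_singleton.mp hw
      have hle := Nat.card_le_card_of_surjective _ hsurj
      rw [hcard, Nat.card_zmod] at hle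
      have := hp.two_le
      nlinarith
  obtain ⟨g₀, hg₀⟩ := hns
  -- the determinant of a non-scalar element is `χ`
  have hdet : ∀ g : G, (¬ ∃ lam : ZMod p, ∀ v : V, g • v = lam • v) →
      LinearMap.det (h45_rho p g : V →ₗ[ZMod p] V) = ((χ g : (ZMod p)ˣ) : ZMod p) := by
    intro g hg
    obtain ⟨σ, b, t, hσb, hχ, hq⟩ := hF g
    have hpow : (h45_rho p g : V →ₗ[ZMod p] V) = h45_rho p σ ^ b := by
      rw [← h45_rho_pow]
      ext v
      simp [hσb v]
    have hσns : ¬ ∃ lam : ZMod p, ∀ v : V, σ • v = lam • v := by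
      rintro ⟨lam, hl⟩
      apply hg
      refine ⟨lam ^ b, fun v => ?_⟩
      have hσ1 : (h45_rho p σ : V →ₗ[ZMod p] V) = lam • (1 : V →ₗ[ZMod p] V) := by
        ext w
        simp [hl w]
      have := congrArg (fun f : V →ₗ[ZMod p] V => f v) hpow
      simp only [h45_rho_apply] at this
      rw [this, hσ1, _root_.smul_pow, one_pow]
      simp
    have hdσ := h45_det_of_quad hcard σ t _ hσns hq
    rw [hpow, map_pow, hdσ, ← hχ]
    simp
  intro g
  by_cases hg : ∃ lam : ZMod p, ∀ v : V, g • v = lam • v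
  · -- `g` scalar: `g * g₀` is not
    obtain ⟨lam, hl⟩ := hg
    have hgg₀ : ¬ ∃ mu : ZMod p, ∀ v : V, (g * g₀) • v = mu • v := by
      rintro ⟨mu, hmu⟩
      apply hg₀
      have hnt : Nontrivial V := by
        rw [← Finite.one_lt_card_iff_nontrivial, hcard]
        exact Nat.one_lt_pow (by norm_num) hp.one_lt
      have hlam : lam ≠ 0 := by
        intro h0
        obtain ⟨v₀, hv₀⟩ := exists_ne (0 : V)
        apply hv₀
        have h1 := hl v₀
        rw [h0, zero_smul] at h1
        have := congrArg (fun w => g⁻¹ • w) h1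
        simpa using this
      refine ⟨lam⁻¹ * mu, fun v => ?_⟩
      have h1 := hmu v
      rw [mul_smul, hl] at h1
      rw [mul_smul, ← h1, smul_smul, inv_mul_cancel₀ hlam, one_smul]
    have h1 := hdet (g * g₀) hgg₀
    have h2 := hdet g₀ hg₀
    rw [h45_rho_mul, map_mul, h2, map_mul, Units.val_mul] at h1
    exact mul_right_cancel₀ (χ g₀).ne_zero h1
  · exact hdet g hg

end split

end Fermat.Agent.S40
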