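import Mathlib
import Fermat.Agent.S40.h14_BLR
import Fermat.Agent.S40.h37_GTSplit

/-!
# S40 (G40), row TOP-A (2): the embedding `V ↪ Y` in the vocabulary of the Galois core (helper14)

`G` acts on a plane `V` over `𝔽_p` (`p` odd) irreducibly and on a non-zero `𝔽_p`-space `Y`;
`χ : G →* 𝔽_pˣ` is a character, `c ∈ G` satisfies `c² = 1` on `V` and `χ c = -1`.  If every `g`
acts on `V` and on `Y` as a power `σ ^ b` (with `χ σ ^ b = χ g`) of some `σ` killed on BOTH `V`
and `Y` by the same quadratic `X² - t X + χ σ` (weak Chebotarev + Frobenius relations), then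
there is an injective `G`-equivariant `𝔽_p`-linear map `V → Y`.

No trace/determinant input is needed: `det = χ` on `V` is `h37_det_eq_chi`, then `t` is forced to
be the trace (`σ` is invertible), `h14_ch_pow` moves Cayley–Hamilton on `Y` from `σ` to
`σ ^ b = g`, `h14_span_of_irr` gives absolute irreducibility and `h14_blr` the embedding.
-/

set_option autoImplicit false

namespace Fermat.Agent.S40

open Module Fermat.Agent.S41

section embed

variable (p : ℕ) [Fact p.Prime] (G : Type*) [Group G] (V : Type*) [AddCommGroup V]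
  [Module (ZMod p) V] [DistribMulAction G V]

/-- The action of `G` on an `𝔽_p`-space as a monoid homomorphism to the endomorphism ring
(`h45_rho`, bundled). -/
noncomputable def h14_rhoHom : G →* Module.End (ZMod p) V where
  toFun g := h45_rho p g
  map_one' := h45_rho_one p
  map_mul' := h45_rho_mul p

variable {p G V}

@[simp] theorem h14_rhoHom_apply (g : G) (v : V) : h14_rhoHom p G V g v = g • v := rfl

variable {Y : Type*} [AddCommGroup Y] [Module (ZMod p) Y] [DistribMulAction G Y]

/-- **TOP-A (EMBED), abstract form.** -/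
theorem h14_embed (hp2 : p ≠ 2) [Nontrivial Y] (hcard : Nat.card V = p ^ 2)
    (hirr : ∀ N : Submodule (ZMod p) V, (∀ (g : G), ∀ x ∈ N, g • x ∈ N) → N = ⊥ ∨ N = ⊤)
    (χ : G →* (ZMod p)ˣ) (c : G) (hc : ∀ v : V, c • c • v = v) (hχc : χ c = -1)
    (hF : ∀ g : G, ∃ (σ : G) (b : ℕ) (t : ZMod p),
      (∀ v : V, σ ^ b • v = g • v) ∧ (∀ y : Y, σ ^ b • y = g • y) ∧ χ σ ^ b = χ g ∧
      (∀ v : V, σ • σ • v - t • σ • v + ((χ σ : (ZMod p)ˣ) : ZMod p) • v = 0) ∧
      (∀ y : Y, σ • σ • y - t • σ • y + ((χ σ : (ZMod p)ˣ) : ZMod p) • y = 0)) :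
    ∃ iota : V →ₗ[ZMod p] Y, Function.Injective iota ∧
      ∀ (g : G) (v : V), iota (g • v) = g • iota v := by
  have hp : p.Prime := Fact.out
  have hfr : finrank (ZMod p) V = 2 := h45_finrank hcard
  have hfin : Module.Finite (ZMod p) V := Module.finite_of_finrank_pos (by rw [hfr]; norm_num)
  have hnt : Nontrivial V := Module.nontrivial_of_finrank_pos (R := ZMod p) (by rw [hfr]; norm_num)
  have h2 : (2 : ZMod p) ≠ 0 := by
    intro h
    have h' : ((2 : ℕ) : ZMod p) = 0 := by exact_mod_cast h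
    rw [ZMod.natCast_eq_zero_iff] at h'
    exact hp2 ((Nat.prime_dvd_prime_iff_eq hp Nat.prime_two).mp h')
  -- `det = χ` on `V`
  have hdet : ∀ g : G, LinearMap.det (h14_rhoHom p G V g) = ((χ g : (ZMod p)ˣ) : ZMod p) :=
    h37_det_eq_chi hcard hirr χ (fun g => by
      obtain ⟨σ, b, t, h1, -, h3, h4, -⟩ := hF g
      exact ⟨σ, b, t, h1, h3, h4⟩)
  -- absolute irreducibility
  have hspan : Submodule.span (ZMod p) (Set.range (h14_rhoHom p G V)) = ⊤ := by
    refine h14_span_of_irr h2 hfr (h14_rhoHom p G V) (fun N hN => hirr N hN) c ?_ ?_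
    · ext v
      exact hc v
    · rw [hdet c, hχc]
      simp
  -- Cayley–Hamilton on `Y` for every `g`
  have hCH : ∀ g, h14_rhoHom p G Y g * h14_rhoHom p G Y g -
      LinearMap.trace (ZMod p) V (h14_rhoHom p G V g) • h14_rhoHom p G Y g +
        LinearMap.det (h14_rhoHom p G V g) • (1 : Module.End (ZMod p) Y) = 0 := by
    intro g
    obtain ⟨σ, b, t, hσV, hσY, -, hrelV, hrelY⟩ := hF g
    have hA := h14_cayley hfr (h14_rhoHom p G V σ)
    have hrelV' : h14_rhoHom p G V σ * h14_rhoHom p G V σ - t • h14_rhoHom p G V σ +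
        ((χ σ : (ZMod p)ˣ) : ZMod p) • (1 : Module.End (ZMod p) V) = 0 :=
      h45_quad_end σ t _ hrelV
    have hrelY' : h14_rhoHom p G Y σ * h14_rhoHom p G Y σ - t • h14_rhoHom p G Y σ +
        ((χ σ : (ZMod p)ˣ) : ZMod p) • (1 : Module.End (ZMod p) Y) = 0 :=
      h45_quad_end σ t _ hrelY
    have ht : t = LinearMap.trace (ZMod p) V (h14_rhoHom p G V σ) := by
      have h0 : (LinearMap.trace (ZMod p) V (h14_rhoHom p G V σ) - t) • h14_rhoHom p G V σ = 0 := by
        rw [← hdet σ] at hrelV'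
        linear_combination (norm := module) hrelV' - hA
      rcases smul_eq_zero.mp h0 with h | h
      · exact (sub_eq_zero.mp h).symm
      · exfalso
        have h1 : (1 : Module.End (ZMod p) V) = 0 := by
          have e : h14_rhoHom p G V σ⁻¹ * h14_rhoHom p G V σ = 1 := by
            rw [← map_mul, inv_mul_cancel, map_one]
          rw [← e, h, mul_zero]
        exact one_ne_zero h1
    rw [ht, ← hdet σ] at hrelY'
    have hpow := h14_ch_pow hfr (h14_rhoHom p G V σ) (h14_rhoHom p G Y σ) hrelY' b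
    have e1 : h14_rhoHom p G V σ ^ b = h14_rhoHom p G V g := by
      rw [← map_pow]
      ext v
      exact hσV v
    have e2 : h14_rhoHom p G Y σ ^ b = h14_rhoHom p G Y g := by
      rw [← map_pow]
      ext y
      exact hσY y
    rw [e1, e2] at hpow
    exact hpow
  obtain ⟨iota, hinj, hequiv⟩ := h14_blr h2 hfr (h14_rhoHom p G V) hspan (h14_rhoHom p G Y) hCH
  exact ⟨iota, hinj, fun g v => hequiv g v⟩

end embed

end Fermat.Agent.S40
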