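import Mathlib
import Fermat.Agent.S40.h15_WNormPair
import Fermat.Agent.S40.h50_W7Plug

/-!
# S40 / row W8 (W-NORM), closed at a charted level  (helper15)

`h15w_datum` : for EVERY Kummer pair `(z, w)` (the three `hrows` facts) and every
representative `(E, u)` fixed by the stabiliser of `w` in inertia, the normalised datum
`(a, κ, u₁, u₂)` of `h11_hscale_pair` exists:
`u₁ = u / w ^ a` is an `R₁`-unit, `u₂ = u / (w ^ a p ^ κ)` is an `R₂`-unit, both fixed by the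
stabiliser of `w`, `u₁ = p ^ κ u₂`.

Inputs: the W9 node block `(Sg, hSg, n0, hnode)`, the node functions `(a, na, ..)` of (S1)
(`h53_node_fun`) with `a ν` inertia-fixed, and ONE node `ν₀`.  The proof runs W7 for every datum
(`h50_w7_plug`: jets of `h11_jet_chart` + `h50_jump_mod_div`) over the AUXILIARY pair `(1, w#)`,
`(1 + w#) ^ p = 1 + p` (`h12_exists_aux`), on the inertia-fixed coset norm (`h85_wnorm`).
-/

set_option autoImplicit false
set_option synthInstance.maxHeartbeats 400000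
set_option maxHeartbeats 1000000

noncomputable section

open ModularCurve AlgebraicCurve

namespace Fermat.Agent.S40

open Fermat.Agent.S18 Fermat.Agent.S34 Fermat.Agent.S36 Fermat.Agent.S24 Fermat.Agent.S27
  Fermat.Agent.S37

local notation "Qb" => AlgebraicClosure ℚ
local notation "Γℚ" => (AlgebraicClosure ℚ ≃ₐ[ℚ] AlgebraicClosure ℚ)

section Mod

variable (M p : ℕ) [NeZero M] [NeZero p] [Fact p.Prime] (hp2 : p ≠ 2) (hpM : ¬ p ∣ M)
  (A : ValuationSubring Qb) (hA : A.LiesOverPrime p)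

omit [NeZero M] [NeZero p] [Fact p.Prime] in
/-- Membership in helper25's ring `h25_SH` at the modular level, in the `hrows` spelling of
"fixed by the stabiliser of `w`". -/
theorem h15w_mem_SH {k Fb : Type*} [Field k] [Field Fb] [Algebra k Fb]
    (R : h39_RedDatum Qb ↥(modularFunctionFieldBar (M * p)) k Fb) (w : Qb)
    (f : ↥(modularFunctionFieldBar (M * p))) :
    f ∈ h25_SH R (h25_rho (M * p) (A.inertiaSubgroupIn ℚ))
        (algebraMap Qb ↥(modularFunctionFieldBar (M * p)) w) ↔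
      f ∈ R.O ∧ ∀ σ ∈ A.inertiaSubgroupIn ℚ, σ w = w →
        arithmeticGalois (modularFunctionFieldFull (M * p)) σ • f = f := by
  rw [h25_mem_SH]
  refine and_congr_right fun _ => ⟨fun h σ hσ hσw => ?_, fun h γ hγ => ?_⟩
  · have := h ⟨σ, hσ⟩ (by rw [h25_rho_algebraMap]; exact congrArg _ hσw)
    rwa [h25_rho_apply] at this
  · rw [h25_rho_apply]
    refine h γ γ.2 ?_
    rw [h25_rho_algebraMap] at hγ
    exact (algebraMap Qb ↥(modularFunctionFieldBar (M * p))).injective hγ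

variable [CharP (IsLocalRing.ResidueField A) p] [IsAlgClosed (IsLocalRing.ResidueField A)]

include hp2 in
/-- **W8 closed at a charted level**: the normalised datum of a class at a Kummer pair. -/
theorem h15w_datum
    (Sg : Finset (Place (IsLocalRing.ResidueField A)
      ↥(modularFunctionFieldFullC (IsLocalRing.ResidueField A) M)))
    (hSg : ∀ Q ∈ Sg, Q ≠ h11_placeInftyC (IsLocalRing.ResidueField A) M ∧
      h96_frobPerm (h84_isFrobChart_jk M p hpM A hA) Q ≠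
        h11_placeInftyC (IsLocalRing.ResidueField A) M ∧
      h96_frobPerm (h84_isFrobChart_jk M p hpM A hA)
        (h96_frobPerm (h84_isFrobChart_jk M p hpM A hA) Q) = Q)
    (n0 : ℕ)
    (hnode : ∀ n, n0 ≤ n → ∀ a : ↥(modularFunctionFieldFullC (IsLocalRing.ResidueField A) M) ×
        ↥(modularFunctionFieldFullC (IsLocalRing.ResidueField A) M),
      a ∈ h51_Rd (h87_D M p hpM A hA) (n • h87_D0 M p hpM) ↔
        (a ∈ h20_P (h11_placeInftyC (IsLocalRing.ResidueField A) M) n ∧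
          ∀ Q ∈ Sg, ∃ c : IsLocalRing.ResidueField A,
            h39_Val (h96_frobPerm (h84_isFrobChart_jk M p hpM A hA) Q) a.1 c ∧
              h39_Val Q a.2 c))
    (a : {Q // Q ∈ Sg} → ↥(modularFunctionFieldBar (M * p))) (na : ℕ)
    (ha0 : ∀ ν, a ν ∈ h69_F0 (M * p) (A.inertiaSubgroupIn ℚ))
    (ha : ∀ ν, a ν ∈ riemannRochSpace (na • h87_D0 M p hpM))
    (ha₁ : ∀ ν, (algebraMap Qb ↥(modularFunctionFieldBar (M * p)) (p : Qb))⁻¹ * a ν ∈
      (h60_R1 M p hpM A hA).O)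
    (ha₂ : ∀ ν, a ν ∈ (h60_R2 M p hpM A hA).O)
    (haρ : ∀ ν : {Q // Q ∈ Sg},
      (h60_R1 M p hpM A hA).redF
          ((algebraMap Qb ↥(modularFunctionFieldBar (M * p)) (p : Qb))⁻¹ * a ν) ≠ 0 ∧
        (h96_frobPerm (h84_isFrobChart_jk M p hpM A hA) ν.1).ord
          ((h60_R1 M p hpM A hA).redF
            ((algebraMap Qb ↥(modularFunctionFieldBar (M * p)) (p : Qb))⁻¹ * a ν)) = -1)
    (haα : ∀ ν : {Q // Q ∈ Sg}, (h60_R2 M p hpM A hA).redF (a ν) ≠ 0 ∧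
      (ν.1).ord ((h60_R2 M p hpM A hA).redF (a ν)) = 1)
    (ν₀ : {Q // Q ∈ Sg})
    (ζ : Qb) (hζ : IsPrimitiveRoot ζ p) (z w : Qb)
    (hz : A.valuation z = 1) (hzI : ∀ g ∈ A.inertiaSubgroupIn ℚ, g z = z)
    (hw : (1 + w) ^ p = 1 + (p : Qb) * z)
    (u : ↥(modularFunctionFieldBar (M * p))) (hu0 : u ≠ 0)
    (hu : ∀ σ ∈ A.inertiaSubgroupIn ℚ, σ w = w →
      arithmeticGalois (modularFunctionFieldFull (M * p)) σ • u = u)
    (E : Divisor Qb ↥(modularFunctionFieldBar (M * p)))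
    (hE : ∀ σ ∈ A.inertiaSubgroupIn ℚ, σ w = w →
      arithmeticGalois (modularFunctionFieldFull (M * p)) σ • E = E)
    (hdiv : ∀ v : Place Qb ↥(modularFunctionFieldBar (M * p)), (p : ℤ) * E v = v.ord u) :
    ∃ (a κ : ℤ) (u₁ u₂ : ↥(modularFunctionFieldBar (M * p))),
      u₁ = u / algebraMap Qb ↥(modularFunctionFieldBar (M * p)) (w ^ a) ∧
      u₂ = u / algebraMap Qb ↥(modularFunctionFieldBar (M * p)) (w ^ a * (p : Qb) ^ κ) ∧
      u₁ ≠ 0 ∧ u₂ ≠ 0 ∧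
      u₁ = algebraMap Qb ↥(modularFunctionFieldBar (M * p)) (p : Qb) ^ κ * u₂ ∧
      u₁ = algebraMap Qb ↥(modularFunctionFieldBar (M * p)) ((p : Qb) ^ κ) * u₂ ∧
      (u₁ ∈ (h60_R1 M p hpM A hA).O ∧ u₁⁻¹ ∈ (h60_R1 M p hpM A hA).O ∧
        (h60_R1 M p hpM A hA).redF u₁ ≠ 0) ∧
      (u₂ ∈ (h60_R2 M p hpM A hA).O ∧ u₂⁻¹ ∈ (h60_R2 M p hpM A hA).O ∧
        (h60_R2 M p hpM A hA).redF u₂ ≠ 0) ∧
      (∀ σ ∈ A.inertiaSubgroupIn ℚ, σ w = w →
        arithmeticGalois (modularFunctionFieldFull (M * p)) σ • u₁ = u₁ ∧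
        arithmeticGalois (modularFunctionFieldFull (M * p)) σ • u₁⁻¹ = u₁⁻¹ ∧
        arithmeticGalois (modularFunctionFieldFull (M * p)) σ • u₂ = u₂ ∧
        arithmeticGalois (modularFunctionFieldFull (M * p)) σ • u₂⁻¹ = u₂⁻¹) := by
  -- the auxiliary Kummer pair `(1, w#)`
  obtain ⟨w', hw'⟩ := h12_exists_aux p
  have hz1 : A.valuation (1 : Qb) = 1 := map_one _
  have hz1I : ∀ g ∈ A.inertiaSubgroupIn ℚ, g (1 : Qb) = 1 := fun g _ => map_one g
  -- its jets, and W7 for every datum over the auxiliary pair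
  obtain ⟨g, J1, J2, ⟨-, -, ⟨hJa1, hJa2⟩, -, ⟨hJc1, hJc2⟩, -, -, hlam⟩, hW7⟩ :=
    h50_w7_plug M p hp2 hpM A hA Sg hSg n0 hnode a na ha0 ha ha₁ ha₂ haρ haα ζ hζ 1 w' hz1 hz1I
      hw'
  refine h15w_datum_of_w7 M p hp2 hpM A hA _ _ J1 J2 hJc1 hJc2 _ hlam
    (fun ν : {Q // Q ∈ Sg} => h96_frobPerm (h84_isFrobChart_jk M p hpM A hA) ν.1) ν₀ hW7
    (fun f hfix hfO => ?_) (fun f hfix hfO => ?_) ζ hζ z w hz hzI hw u hu0 hu E hE hdiv
  · have hf : f ∈ h25_SH (h60_R1 M p hpM A hA) (h25_rho (M * p) (A.inertiaSubgroupIn ℚ))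
        (algebraMap Qb ↥(modularFunctionFieldBar (M * p)) w') :=
      (h15w_mem_SH M p A _ w' f).mpr ⟨hfO, fun σ hσ _ => hfix σ hσ⟩
    refine ⟨hf, ?_⟩
    rw [hJa1 ⟨f, hf⟩ ((h69_mem_F0 (M * p) _ _).mpr hfix), TrivSqZeroExt.snd_inl]
  · have hf : f ∈ h25_SH (h60_R2 M p hpM A hA) (h25_rho (M * p) (A.inertiaSubgroupIn ℚ))
        (algebraMap Qb ↥(modularFunctionFieldBar (M * p)) w') :=
      (h15w_mem_SH M p A _ w' f).mpr ⟨hfO, fun σ hσ _ => hfix σ hσ⟩
    refine ⟨hf, ?_⟩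
    rw [hJa2 ⟨f, hf⟩ ((h69_mem_F0 (M * p) _ _).mpr hfix), TrivSqZeroExt.snd_inl]

end Mod

end Fermat.Agent.S40
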