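/-
S40 / (BRIDGE), abstract core (helper21).  Mathlib only.

`J` a module over a commutative ring `R` (the Hecke polynomial ring acting on `J₀(M')(ℚ̄)`), with an
action of a group `G` (Galois) commuting with `R`; `K` a subgroup (the kernel of reduction).

* `h21_bridge_zero` (ZERO): if `e ∈ R` kills the torsion of `J`, `J` is divisible, `e • y - y ∈ K`
  and some `h ≥ 1` multiplies every class fixed by the stabiliser of `y` into `K`
  (finiteness of the rational points of the special fibre), then `y ∈ K`.
  No torsion lifting: `y` is an arbitrary (non-torsion) class.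
* `h21_bridge_stable`, `h21_bridge_eig`: the polynomial induction
  `P(T) y ≡ P(a) y mod K` for a class `y` which is an eigenclass modulo `K`.
* `h21_bridge`: the assembled statement used by the tail of S40:
  an eigenclass `y` modulo `K` with `p y ∈ K`, for an eigensystem `a` such that some polynomial
  `P0` with `P0(a) ≡ 1 mod p` kills the torsion of `J`, lies in `K`.
-/
import Mathlib

set_option autoImplicit false

namespace Fermat.Agent.S40

section Zero

variable {R J G : Type*} [CommRing R] [AddCommGroup J] [Module R J]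
  [Group G] [DistribMulAction G J] [SMulCommClass G R J]

/-- **(ZERO)**, the abstract Galois trick. -/
theorem h21_bridge_zero (K : AddSubgroup J) (e : R)
    (he : ∀ (n : ℕ) (x : J), 0 < n → n • x = 0 → e • x = 0)
    (hdiv : ∀ (n : ℕ) (x : J), 0 < n → ∃ z : J, n • z = x)
    (y : J) (hy : e • y - y ∈ K)
    (hfin : ∃ h : ℕ, 0 < h ∧ ∀ w : J, (∀ σ : G, σ • y = y → σ • w = w) → h • w ∈ K) :
    y ∈ K := by
  obtain ⟨h, hh, hfix⟩ := hfin
  obtain ⟨z, hz⟩ := hdiv h y hh
  have hw : ∀ σ : G, σ • y = y → σ • (e • z) = e • z := by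
    intro σ hσ
    have h1 : h • (σ • z - z) = 0 := by
      rw [smul_sub, ← smul_comm σ h z, hz, hσ, sub_self]
    have h2 : e • (σ • z - z) = 0 := he h _ hh h1
    rw [smul_sub, sub_eq_zero] at h2
    rw [smul_comm σ e z, h2]
  have h3 : h • (e • z) ∈ K := hfix _ hw
  have h4 : h • (e • z) = e • y := by
    rw [← hz, smul_comm h e z]
  rw [h4] at h3
  have h5 : y = e • y - (e • y - y) := by abel
  rw [h5]
  exact K.sub_mem h3 hy

end Zero

section Eig

open MvPolynomial

variable {ι κ J : Type*} [AddCommGroup J] [Module (MvPolynomial κ ℤ) J]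

/-- A subgroup stable under the generators `X (f i)` is stable under every polynomial in them. -/
theorem h21_bridge_stable (f : ι → κ) (K : AddSubgroup J)
    (hK : ∀ i, ∀ x ∈ K, (X (f i) : MvPolynomial κ ℤ) • x ∈ K)
    (P : MvPolynomial ι ℤ) : ∀ x ∈ K, (rename f P) • x ∈ K := by
  induction P using MvPolynomial.induction_on with
  | C n =>
    intro x hx
    rw [rename_C, show (C n : MvPolynomial κ ℤ) = ((n : ℤ) : MvPolynomial κ ℤ) from
      (eq_intCast (C : ℤ →+* MvPolynomial κ ℤ) n), Int.cast_smul_eq_zsmul]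
    exact K.zsmul_mem hx n
  | add P Q hP hQ =>
    intro x hx
    rw [map_add, add_smul]
    exact K.add_mem (hP x hx) (hQ x hx)
  | mul_X P i hP =>
    intro x hx
    rw [map_mul, rename_X, mul_smul]
    exact hP _ (hK i x hx)

/-- **Eigenclass modulo `K`**: `P(T) y ≡ P(a) y` modulo `K`. -/
theorem h21_bridge_eig (f : ι → κ) (K : AddSubgroup J)
    (hK : ∀ i, ∀ x ∈ K, (X (f i) : MvPolynomial κ ℤ) • x ∈ K)
    (a : ι → ℤ) (y : J)
    (hy : ∀ i, (X (f i) : MvPolynomial κ ℤ) • y - a i • y ∈ K)
    (P : MvPolynomial ι ℤ) : (rename f P) • y - (eval a P) • y ∈ K := by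
  induction P using MvPolynomial.induction_on with
  | C n =>
    rw [rename_C, show (C n : MvPolynomial κ ℤ) = ((n : ℤ) : MvPolynomial κ ℤ) from
      (eq_intCast (C : ℤ →+* MvPolynomial κ ℤ) n), Int.cast_smul_eq_zsmul, eval_C, sub_self]
    exact K.zero_mem
  | add P Q hP hQ =>
    rw [map_add, add_smul, map_add, add_smul]
    have : rename f P • y + rename f Q • y - (eval a P • y + eval a Q • y)
        = (rename f P • y - eval a P • y) + (rename f Q • y - eval a Q • y) := by abel
    rw [this]
    exact K.add_mem hP hQ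
  | mul_X P i hP =>
    rw [map_mul, rename_X, mul_smul, map_mul, eval_X, mul_smul]
    have h1 : rename f P • ((X (f i) : MvPolynomial κ ℤ) • y - a i • y) ∈ K :=
      h21_bridge_stable f K hK P _ (hy i)
    have h2 : a i • (rename f P • y - eval a P • y) ∈ K := K.zsmul_mem hP (a i)
    have h3 : rename f P • (X (f i) : MvPolynomial κ ℤ) • y - eval a P • a i • y
        = rename f P • ((X (f i) : MvPolynomial κ ℤ) • y - a i • y)
          + a i • (rename f P • y - eval a P • y) := by
      rw [smul_sub, smul_sub, smul_comm (rename f P) (a i) y, smul_comm (eval a P) (a i) y]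
      abel
    rw [h3]
    exact K.add_mem h1 h2

end Eig

section Bridge

open MvPolynomial

variable {ι κ J G : Type*} [AddCommGroup J] [Module (MvPolynomial κ ℤ) J]
  [Group G] [DistribMulAction G J] [SMulCommClass G (MvPolynomial κ ℤ) J]

/-- **(BRIDGE), abstract form.**  `K` a subgroup of `J` stable under the operators `X (f i)`;
`y` an eigenclass modulo `K` for the eigensystem `a`, with `p y ∈ K`; `P0` a polynomial with
`P0(a) ≡ 1 mod p` whose action kills the torsion of `J`; `J` divisible; finiteness `hfin`.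
Then `y ∈ K`. -/
theorem h21_bridge (f : ι → κ) (K : AddSubgroup J)
    (hK : ∀ i, ∀ x ∈ K, (X (f i) : MvPolynomial κ ℤ) • x ∈ K)
    (p : ℕ) (a : ι → ℤ) (P0 : MvPolynomial ι ℤ)
    (hP0 : (p : ℤ) ∣ eval a P0 - 1)
    (he : ∀ (n : ℕ) (x : J), 0 < n → n • x = 0 → (rename f P0) • x = 0)
    (hdiv : ∀ (n : ℕ) (x : J), 0 < n → ∃ z : J, n • z = x)
    (y : J) (hpy : p • y ∈ K)
    (hy : ∀ i, (X (f i) : MvPolynomial κ ℤ) • y - a i • y ∈ K)
    (hfin : ∃ h : ℕ, 0 < h ∧ ∀ w : J, (∀ σ : G, σ • y = y → σ • w = w) → h • w ∈ K) :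
    y ∈ K := by
  refine h21_bridge_zero (G := G) K (rename f P0) he hdiv y ?_ hfin
  have h1 := h21_bridge_eig f K hK a y hy P0
  obtain ⟨c, hc⟩ := hP0
  have h2 : eval a P0 • y - y = c • (p • y) := by
    have : eval a P0 = (p : ℤ) * c + 1 := by linarith
    rw [this, add_smul, one_smul, add_sub_cancel_right, mul_comm, mul_smul, natCast_zsmul]
  have h3 : rename f P0 • y - y = (rename f P0 • y - eval a P0 • y) + (eval a P0 • y - y) := by
    abel
  rw [h3, h2]
  exact K.add_mem h1 (K.zsmul_mem hpy c)

end Bridge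

end Fermat.Agent.S40
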