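/-
helper23: S40 row T8 (END), generic input - the norm formula
`ord_v (N_{F'/F} f) = Σ_{w | v} ord_w f` for a finite SEPARABLE extension `F'/F` of function
fields in one variable over an algebraically closed field of ANY characteristic:

* `h23_ord_norm_eq_sum` : the explicit fibre-sum shape;
* `h23_NF_sep`          : the prelude shape `Divisor.PushforwardNormFormula K F F'`.

Same skeleton as helper85's `h85_NF` (S37, characteristic zero); the characteristic-zero input
`Ideal.relNorm_eq_pow_of_isMaximal` (which needs a perfect fraction field) is replaced by a
counting argument: `relNorm P = 𝔪 ^ s_P` with `s_P ≥ 1`, `Σ_P s_P e_P = n` (norm of a uniformiser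
of `v`) and `Σ_P e_P = n` (fundamental identity, `h94_sum_ramificationIndex_sep`) force `s_P = 1`.
-/
import Mathlib
import Fermat.Prelude.Def_AlgebraicCurve_DivisorPushPull
import Fermat.Agent.S24.h73_Diff
import Fermat.Agent.S24.h73_Wrap
import Fermat.Agent.S24.h24_Fibre
import Fermat.Agent.S37.h85_NormFormula
import Fermat.Agent.S27.h94_FISep

set_option autoImplicit false
set_option synthInstance.maxHeartbeats 400000
set_option linter.style.haveILetI false

noncomputable section

open AlgebraicCurve IntermediateField IsDedekindDomain WithZero

namespace Fermat.Agent.S40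

open Fermat.Agent.S24 Fermat.Agent.S37 Fermat.Agent.S27

section Main

variable {K F F' : Type*} [Field K] [Field F] [Field F'] [Algebra K F] [Algebra K F']
  [IsAlgClosed K] [Algebra F F'] [IsScalarTower K F F'] [FiniteDimensional F F']
  [Algebra.IsSeparable F F']

/-- all inertia degrees are one (algebraically closed constants). -/
theorem h23_inertiaDeg_eq_one (hF : h73_IsFF K F) (w : Place K F') : w.inertiaDeg F = 1 := by
  have hF' : h73_IsFF K F' := h85_isFF_of_finite hF
  have h1 := w.deg_restrict_mul_inertiaDeg (F := F)
  rw [h73_deg_eq_one hF (w.restrict F), h73_deg_eq_one hF' w, one_mul] at h1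
  exact h1

/-- **The norm formula as a fibre sum**: `ord_v (N_{F'/F} f) = Σ_{w | v} ord_w f`
(separable, algebraically closed constants, any characteristic). -/
theorem h23_ord_norm_eq_sum (hF : h73_IsFF K F) [HasPrincipalDivisors K F'] {f : F'} (hf : f ≠ 0)
    (v : Place K F) : v.ord (Algebra.norm F f) = ∑ w ∈ v.fiber F', w.ord f := by
  classical
  have hF' : h73_IsFF K F' := h85_isFF_of_finite hF
  letI algAF' : Algebra v.toValuationSubring F' :=
    ((algebraMap F F').comp (algebraMap v.toValuationSubring F)).toAlgebra
  haveI : IsScalarTower v.toValuationSubring F F' :=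
    IsScalarTower.of_algebraMap_eq (fun _ => rfl)
  haveI : Module.IsTorsionFree v.toValuationSubring F' :=
    Module.isTorsionFree_iff_algebraMap_injective.mpr
      ((algebraMap F F').injective.comp (IsFractionRing.injective v.toValuationSubring F))
  haveI : IsDedekindDomain (integralClosure v.toValuationSubring F') :=
    integralClosure.isDedekindDomain v.toValuationSubring F F'
  haveI : Module.Finite v.toValuationSubring (integralClosure v.toValuationSubring F') :=
    IsIntegralClosure.finite v.toValuationSubring F F' (integralClosure v.toValuationSubring F')
  haveI : IsFractionRing (integralClosure v.toValuationSubring F') F' :=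
    integralClosure.isFractionRing_of_finite_extension F F'
  letI algKB : Algebra K (integralClosure v.toValuationSubring F') :=
    ((algebraMap v.toValuationSubring (integralClosure v.toValuationSubring F')).comp
      (algebraMap K v.toValuationSubring)).toAlgebra
  haveI : IsScalarTower K v.toValuationSubring (integralClosure v.toValuationSubring F') :=
    IsScalarTower.of_algebraMap_eq (fun _ => rfl)
  haveI : IsScalarTower K (integralClosure v.toValuationSubring F') F' :=
    IsScalarTower.of_algebraMap_eq (fun a => IsScalarTower.algebraMap_apply K F F' a)
  haveI : Finite (HeightOneSpectrum (integralClosure v.toValuationSubring F')) :=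
    h85_finite_spectrum (A := v.toValuationSubring)
  letI : Fintype (HeightOneSpectrum (integralClosure v.toValuationSubring F')) :=
    Fintype.ofFinite _
  -- (A) the places over `v` are exactly the places of the primes of the integral closure
  have hA1 : ∀ P : HeightOneSpectrum (integralClosure v.toValuationSubring F'),
      (Place.ofHeightOneSpectrum (K := K) (F := F') P).restrict F = v := by
    intro P
    apply h85_place_eq_of_le
    intro a ha
    rw [Place.mem_restrict_iff, Place.ofHeightOneSpectrum_toValuationSubring,
      Valuation.mem_valuationSubring_iff]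
    have h1 : algebraMap F F' a = algebraMap (integralClosure v.toValuationSubring F') F'
        (algebraMap v.toValuationSubring (integralClosure v.toValuationSubring F') ⟨a, ha⟩) := by
      rw [← IsScalarTower.algebraMap_apply v.toValuationSubring
        (integralClosure v.toValuationSubring F') F']
      rfl
    rw [h1]
    exact P.valuation_le_one _
  have hA2 : ∀ w : Place K F', w.restrict F = v →
      ∃ P : HeightOneSpectrum (integralClosure v.toValuationSubring F'),
        w = Place.ofHeightOneSpectrum (K := K) (F := F') P := by
    intro w hw
    apply h24_exists_heightOneSpectrum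
    intro r
    have hAw : ∀ a : v.toValuationSubring,
        algebraMap v.toValuationSubring F' a ∈ w.toValuationSubring.toSubring := by
      intro a
      have h1 : (a : F) ∈ (w.restrict F).toValuationSubring := by
        rw [hw]
        exact a.2
      exact (Place.mem_restrict_iff (w := w)).mp h1
    let φ : v.toValuationSubring →+* w.toValuationSubring :=
      (algebraMap v.toValuationSubring F').codRestrict w.toValuationSubring.toSubring hAw
    letI : Algebra v.toValuationSubring w.toValuationSubring := φ.toAlgebra
    haveI : IsScalarTower v.toValuationSubring w.toValuationSubring F' :=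
      IsScalarTower.of_algebraMap_eq (fun _ => rfl)
    have hint : IsIntegral w.toValuationSubring
        (algebraMap (integralClosure v.toValuationSubring F') F' r) :=
      (r.2 : IsIntegral v.toValuationSubring (r : F')).tower_top
    obtain ⟨y, hy⟩ := IsIntegrallyClosed.isIntegral_iff.mp hint
    exact hy ▸ y.2
  have hinj : Function.Injective
      (fun P : HeightOneSpectrum (integralClosure v.toValuationSubring F') =>
        Place.ofHeightOneSpectrum (K := K) (F := F') P) :=
    h24_ofHeightOneSpectrum_injective
  -- (B) sums over the fibre are sums over the primes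
  have hfib : ∀ g : Place K F' → ℤ, ∑ w ∈ v.fiber F', g w =
      ∑ P : HeightOneSpectrum (integralClosure v.toValuationSubring F'),
        g (Place.ofHeightOneSpectrum (K := K) (F := F') P) := by
    intro g
    have hEq : v.fiber F' = Finset.univ.image
        (fun P : HeightOneSpectrum (integralClosure v.toValuationSubring F') =>
          Place.ofHeightOneSpectrum (K := K) (F := F') P) := by
      ext w
      rw [Place.mem_fiber, Finset.mem_image]
      constructor
      · intro h
        obtain ⟨P, rfl⟩ := hA2 w h
        exact ⟨P, Finset.mem_univ P, rfl⟩
      · rintro ⟨P, -, rfl⟩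
        exact hA1 P
    rw [hEq, Finset.sum_image (fun _ _ _ _ h => hinj h)]
  -- (C) the relative norm of a prime is a positive power of the maximal ideal
  have hs : ∀ P : HeightOneSpectrum (integralClosure v.toValuationSubring F'),
      ∃ s : ℕ, 1 ≤ s ∧ Ideal.relNorm v.toValuationSubring P.asIdeal =
        IsLocalRing.maximalIdeal v.toValuationSubring ^ s := by
    intro P
    haveI hlo := h85_liesOver (A := v.toValuationSubring) P
    obtain ⟨s, hs⟩ := Ideal.exists_relNorm_eq_pow_of_isPrime P.asIdeal
      (IsLocalRing.maximalIdeal v.toValuationSubring)
    refine ⟨s, ?_, hs⟩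
    by_contra h0
    have hs0 : s = 0 := by omega
    rw [hs0, pow_zero, Ideal.one_eq_top] at hs
    have hle := Ideal.relNorm_le_comap v.toValuationSubring P.asIdeal
    rw [hs, top_le_iff] at hle
    have hne : P.asIdeal.comap (algebraMap v.toValuationSubring
        (integralClosure v.toValuationSubring F')) ≠ ⊤ :=
      (Ideal.comap_isPrime _ _).ne_top
    exact hne hle
  choose s hs1 hs using hs
  -- (D) the order of the norm of an integral element, with the multiplicities `s`
  have hD0 : ∀ b : integralClosure v.toValuationSubring F', b ≠ 0 →
      v.ord (Algebra.norm F (algebraMap (integralClosure v.toValuationSubring F') F' b)) =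
      ∑ P : HeightOneSpectrum (integralClosure v.toValuationSubring F'),
        (s P : ℤ) * (Place.ofHeightOneSpectrum (K := K) (F := F') P).ord
          (algebraMap (integralClosure v.toValuationSubring F') F' b) := by
    intro b hb
    have hI : (Ideal.span {b} : Ideal (integralClosure v.toValuationSubring F')) ≠ 0 := by
      rw [Ne, Ideal.zero_eq_bot, Ideal.span_singleton_eq_bot]
      exact hb
    have hspan : Ideal.span {Algebra.intNorm v.toValuationSubring
        (integralClosure v.toValuationSubring F') b} =
        IsLocalRing.maximalIdeal v.toValuationSubring ^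
          (∑ P : HeightOneSpectrum (integralClosure v.toValuationSubring F'),
            s P * (Associates.mk P.asIdeal).count (Associates.mk (Ideal.span {b} :
              Ideal (integralClosure v.toValuationSubring F'))).factors) := by
      rw [← Ideal.relNorm_singleton]
      conv_lhs => rw [← Ideal.finprod_heightOneSpectrum_factorization hI,
        finprod_eq_prod_of_fintype, map_prod]
      rw [← Finset.prod_pow_eq_pow_sum]
      refine Finset.prod_congr rfl fun P _ => ?_
      rw [HeightOneSpectrum.maxPowDividing, map_pow, hs P, ← pow_mul]
    have hord := h85_ord_of_span_eq v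
      (Algebra.intNorm v.toValuationSubring (integralClosure v.toValuationSubring F') b) _ hspan
    have hnorm : ((Algebra.intNorm v.toValuationSubring
        (integralClosure v.toValuationSubring F') b : v.toValuationSubring) : F) =
        Algebra.norm F (algebraMap (integralClosure v.toValuationSubring F') F' b) :=
      Algebra.algebraMap_intNorm (A := v.toValuationSubring) (K := F) (L := F')
        (B := integralClosure v.toValuationSubring F') b
    rw [← hnorm, hord]
    push_cast
    refine Finset.sum_congr rfl fun P _ => ?_
    rw [h24_ofHeightOneSpectrum_ord, HeightOneSpectrum.valuation_of_algebraMap,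
      P.intValuation_if_neg hb, log_exp, neg_neg]
  -- (E) the multiplicities are all one: count with a uniformiser of `v`
  have hs_one : ∀ P : HeightOneSpectrum (integralClosure v.toValuationSubring F'), s P = 1 := by
    obtain ⟨π, hπ⟩ := IsDiscreteValuationRing.exists_irreducible v.toValuationSubring
    have hπord : v.ord (π : F) = 1 := v.ord_coe_irreducible hπ
    have hπ0 : (π : F) ≠ 0 := by
      intro h0
      rw [h0] at hπord
      simp at hπord
    set b : integralClosure v.toValuationSubring F' :=
      algebraMap v.toValuationSubring (integralClosure v.toValuationSubring F') π with hb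
    have hbmap : algebraMap (integralClosure v.toValuationSubring F') F' b =
        algebraMap F F' (π : F) := by
      rw [hb, ← IsScalarTower.algebraMap_apply v.toValuationSubring
        (integralClosure v.toValuationSubring F') F']
      rfl
    have hb0 : b ≠ 0 := by
      intro h0
      have h1 : algebraMap F F' (π : F) = 0 := by rw [← hbmap, h0, map_zero]
      exact hπ0 ((map_eq_zero _).mp h1)
    have h1 := hD0 b hb0
    rw [hbmap, Algebra.norm_algebraMap, ← zpow_natCast, v.ord_zpow, hπord, mul_one] at h1
    have he : ∀ P : HeightOneSpectrum (integralClosure v.toValuationSubring F'),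
        (Place.ofHeightOneSpectrum (K := K) (F := F') P).ord (algebraMap F F' (π : F)) =
        ((Place.ofHeightOneSpectrum (K := K) (F := F') P).ramificationIndex F : ℤ) := by
      intro P
      rw [Place.ord_restrict, hA1 P, hπord, mul_one]
    have h2 := h94_sum_ramificationIndex_sep (F' := F') hF v
    rw [hfib (fun w => (w.ramificationIndex F : ℤ))] at h2
    simp_rw [he] at h1
    have h3 : ∑ P : HeightOneSpectrum (integralClosure v.toValuationSubring F'),
        ((s P : ℤ) - 1) * ((Place.ofHeightOneSpectrum (K := K) (F := F') P).ramificationIndex F
          : ℤ) = 0 := by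
      simp_rw [sub_mul, one_mul]
      rw [Finset.sum_sub_distrib, ← h1, h2]
      ring
    have hnn : ∀ P ∈ (Finset.univ : Finset (HeightOneSpectrum
        (integralClosure v.toValuationSubring F'))),
        0 ≤ ((s P : ℤ) - 1) * ((Place.ofHeightOneSpectrum (K := K) (F := F') P).ramificationIndex F
          : ℤ) := by
      intro P _
      have hsP : (1 : ℤ) ≤ (s P : ℤ) := by exact_mod_cast hs1 P
      exact mul_nonneg (by omega) (Int.natCast_nonneg _)
    intro P
    have h4 := (Finset.sum_eq_zero_iff_of_nonneg hnn).mp h3 P (Finset.mem_univ P)
    have hepos : 0 < (Place.ofHeightOneSpectrum (K := K) (F := F') P).ramificationIndex F :=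
      Place.ramificationIndex_pos _
    have hsP : (1 : ℤ) ≤ (s P : ℤ) := by exact_mod_cast hs1 P
    rcases mul_eq_zero.mp h4 with h5 | h5
    · omega
    · omega
  -- (F) the formula for integral elements
  have hD' : ∀ b : integralClosure v.toValuationSubring F', b ≠ 0 →
      v.ord (Algebra.norm F (algebraMap (integralClosure v.toValuationSubring F') F' b)) =
      ∑ P : HeightOneSpectrum (integralClosure v.toValuationSubring F'),
        (Place.ofHeightOneSpectrum (K := K) (F := F') P).ord
          (algebraMap (integralClosure v.toValuationSubring F') F' b) := by
    intro b hb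
    rw [hD0 b hb]
    refine Finset.sum_congr rfl fun P _ => ?_
    rw [hs_one P]
    simp
  -- (G) the general case: `f` is a quotient of integral elements
  rw [hfib (fun w => w.ord f)]
  obtain ⟨b₁, b₂, hb₂, rfl⟩ :=
    IsFractionRing.div_surjective (A := integralClosure v.toValuationSubring F') f
  have hb₂0 : b₂ ≠ 0 := nonZeroDivisors.ne_zero hb₂
  have hinjB : Function.Injective (algebraMap (integralClosure v.toValuationSubring F') F') :=
    IsFractionRing.injective _ _
  have h2 : algebraMap (integralClosure v.toValuationSubring F') F' b₂ ≠ 0 :=
    (map_ne_zero_iff _ hinjB).mpr hb₂0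
  have h1 : algebraMap (integralClosure v.toValuationSubring F') F' b₁ ≠ 0 := by
    intro h0
    rw [h0, zero_div] at hf
    exact hf rfl
  have hb₁0 : b₁ ≠ 0 := by
    rintro rfl
    exact h1 (map_zero _)
  have hquot : ∀ w : Place K F',
      w.ord (algebraMap (integralClosure v.toValuationSubring F') F' b₁ /
        algebraMap (integralClosure v.toValuationSubring F') F' b₂) =
      w.ord (algebraMap (integralClosure v.toValuationSubring F') F' b₁) -
        w.ord (algebraMap (integralClosure v.toValuationSubring F') F' b₂) := by
    intro w
    rw [div_eq_mul_inv, w.ord_mul h1 (inv_ne_zero h2), w.ord_inv]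
    ring
  have hN : Algebra.norm F (algebraMap (integralClosure v.toValuationSubring F') F' b₁) =
      Algebra.norm F (algebraMap (integralClosure v.toValuationSubring F') F' b₁ /
        algebraMap (integralClosure v.toValuationSubring F') F' b₂) *
      Algebra.norm F (algebraMap (integralClosure v.toValuationSubring F') F' b₂) := by
    rw [← map_mul, div_mul_cancel₀ _ h2]
  have hNq : Algebra.norm F (algebraMap (integralClosure v.toValuationSubring F') F' b₁ /
        algebraMap (integralClosure v.toValuationSubring F') F' b₂) ≠ 0 :=
    Algebra.norm_ne_zero_iff.mpr (div_ne_zero h1 h2)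
  have hN2 : Algebra.norm F (algebraMap (integralClosure v.toValuationSubring F') F' b₂) ≠ 0 :=
    Algebra.norm_ne_zero_iff.mpr h2
  have hordN := v.ord_mul hNq hN2
  rw [← hN] at hordN
  simp_rw [hquot]
  rw [Finset.sum_sub_distrib, ← hD' b₁ hb₁0, ← hD' b₂ hb₂0, hordN]
  ring

/-- **The norm formula, separable case, any characteristic**, in the prelude shape
`ord_v (N f) = Σ_{w | v} f(w|v) ord_w f`. -/
theorem h23_NF_sep (hF : h73_IsFF K F) [HasPrincipalDivisors K F'] :
    Divisor.PushforwardNormFormula K F F' := by
  classical
  intro f hf D hD v
  rw [h23_ord_norm_eq_sum hF hf v, Divisor.pushforward_apply, ← Finset.sum_filter]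
  have hsummand : ∀ w ∈ D.support.filter (fun w => w.restrict F = v),
      D w * (w.inertiaDeg F : ℤ) = w.ord f := by
    intro w _
    rw [hD w, h23_inertiaDeg_eq_one hF w, Nat.cast_one, mul_one]
  rw [Finset.sum_congr rfl hsummand]
  refine Finset.sum_subset ?_ ?_
  · intro w hw
    rw [Finset.mem_filter] at hw
    exact Place.mem_fiber.mpr hw.2
  · intro w hw hw'
    rw [Finset.mem_filter, not_and_or] at hw'
    rcases hw' with hw' | hw'
    · rw [Finsupp.mem_support_iff, not_not] at hw'
      rw [← hD, hw']
    · exact absurd (Place.mem_fiber.mp hw) hw'

end Main

end Fermat.Agent.S40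

end
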