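/-
helper23: S40 row T8 (END), generic core - "a constant residue vector on the supersingular
places is Eisenstein".

Setting: `F'/F` a finite separable extension of function fields in one variable over an
algebraically closed field `K` of any characteristic (the first degeneracy map `ᾱ`, as the
algebra structure), `b : F →+* F'` a second embedding (the second degeneracy map `β̄`),
`S` a set of places of `F` (the supersingular places), `t`, `t'` integer weights on the places of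
`F`, `F'` (the thicknesses of the nodes; `t = t' = 1` when there are no elliptic points) with

* `(hα)` for `w` over `ν ∈ S` along `ᾱ`:  `e_ᾱ(w) * t' w = t ν`;
* `(hβ)` for `w` over `S` along `ᾱ`: there are `ν₂ ∈ S` and `e₂` with `e₂ * t' w = t ν₂` and
  `ord_w (b g) = e₂ * ord_ν₂ g` for all `g` (i.e. `w` lies over `ν₂ ∈ S` along `β̄`, with
  ramification index `e₂`).

* `h23_end_core` : if `t ν * ord_ν g ≡ C (mod p)` on `S`, then
  `t ν * ord_ν (N_{F'/F} (b g)) ≡ [F' : F] * C (mod p)` on `S`;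
* `h23_end` : if moreover `ord_ν (N (b u)) ≡ a * ord_ν u (mod p)` on `S` (the Hecke eigen-relation
  `N_ᾱ (β̄ u) = c * u ^ a * w ^ p`) and `p ∤ [F' : F] - a` (non-Eisenstein), then
  `t ν * ord_ν u ≡ 0 (mod p)` on `S`;
* `h23_end_of_eq`, `h23_end_unram` : the same with the eigen-relation as an identity of
  functions, resp. in the unramified case `t = t' = 1`.
-/
import Mathlib
import Fermat.Agent.S40.h23_NFSep

set_option autoImplicit false
set_option synthInstance.maxHeartbeats 400000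

noncomputable section

open AlgebraicCurve

namespace Fermat.Agent.S40

open Fermat.Agent.S24 Fermat.Agent.S27

variable {K F F' : Type*} [Field K] [Field F] [Field F'] [Algebra K F] [Algebra K F']
  [IsAlgClosed K] [Algebra F F'] [IsScalarTower K F F'] [FiniteDimensional F F']
  [Algebra.IsSeparable F F']

/-- **(END), core.**  A function whose weighted orders on `S` are congruent to a constant `C`
modulo `p` has a Hecke transform `N_ᾱ (β̄ g)` whose weighted orders on `S` are congruent to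
`[F' : F] * C`. -/
theorem h23_end_core (hF : h73_IsFF K F) [HasPrincipalDivisors K F']
    (b : F →+* F') (S : Set (Place K F)) (t : Place K F → ℤ) (t' : Place K F' → ℤ)
    (hα : ∀ w : Place K F', w.restrict F ∈ S →
      (w.ramificationIndex F : ℤ) * t' w = t (w.restrict F))
    (hβ : ∀ w : Place K F', w.restrict F ∈ S → ∃ ν₂ ∈ S, ∃ e₂ : ℤ,
      e₂ * t' w = t ν₂ ∧ ∀ g : F, w.ord (b g) = e₂ * ν₂.ord g)
    (p C : ℤ) {g : F} (hg : g ≠ 0)
    (hgS : ∀ ν ∈ S, p ∣ t ν * ν.ord g - C) :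
    ∀ ν ∈ S, p ∣ t ν * ν.ord (Algebra.norm F (b g)) - (Module.finrank F F' : ℤ) * C := by
  intro ν hν
  have hbg : b g ≠ 0 := (map_ne_zero b).mpr hg
  have hFI := h94_sum_ramificationIndex_sep (F' := F') hF ν
  rw [h23_ord_norm_eq_sum hF hbg ν, Finset.mul_sum, ← hFI, Finset.sum_mul,
    ← Finset.sum_sub_distrib]
  refine Finset.dvd_sum fun w hw => ?_
  have hwν : w.restrict F = ν := Place.mem_fiber.mp hw
  have hwS : w.restrict F ∈ S := hwν ▸ hν
  obtain ⟨ν₂, hν₂, e₂, he₂, hord⟩ := hβ w hwS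
  have h1 := hα w hwS
  rw [hwν] at h1
  have h2 : t ν * w.ord (b g) - (w.ramificationIndex F : ℤ) * C =
      (w.ramificationIndex F : ℤ) * (t ν₂ * ν₂.ord g - C) := by
    rw [hord g, ← h1, ← he₂]
    ring
  rw [h2]
  exact Dvd.dvd.mul_left (hgS ν₂ hν₂) _

/-- **(END).**  A Hecke eigenfunction modulo `p`-th powers with non-Eisenstein eigenvalue whose
weighted orders on the supersingular places are congruent to a constant has all these weighted
orders divisible by `p`. -/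
theorem h23_end (hF : h73_IsFF K F) [HasPrincipalDivisors K F']
    (b : F →+* F') (S : Set (Place K F)) (t : Place K F → ℤ) (t' : Place K F' → ℤ)
    (hα : ∀ w : Place K F', w.restrict F ∈ S →
      (w.ramificationIndex F : ℤ) * t' w = t (w.restrict F))
    (hβ : ∀ w : Place K F', w.restrict F ∈ S → ∃ ν₂ ∈ S, ∃ e₂ : ℤ,
      e₂ * t' w = t ν₂ ∧ ∀ g : F, w.ord (b g) = e₂ * ν₂.ord g)
    {p : ℕ} (hp : p.Prime) (a : ℤ)
    (ha : ¬ (p : ℤ) ∣ (Module.finrank F F' : ℤ) - a)
    {u : F} (hu : u ≠ 0) (C : ℤ)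
    (hC : ∀ ν ∈ S, (p : ℤ) ∣ t ν * ν.ord u - C)
    (hnorm : ∀ ν ∈ S, (p : ℤ) ∣ ν.ord (Algebra.norm F (b u)) - a * ν.ord u) :
    ∀ ν ∈ S, (p : ℤ) ∣ t ν * ν.ord u := by
  intro ν hν
  have h1 := h23_end_core hF b S t t' hα hβ (p : ℤ) C hu hC ν hν
  have h2 : (p : ℤ) ∣ t ν * (ν.ord (Algebra.norm F (b u)) - a * ν.ord u) :=
    Dvd.dvd.mul_left (hnorm ν hν) _
  have h3 : (p : ℤ) ∣ a * (t ν * ν.ord u - C) := Dvd.dvd.mul_left (hC ν hν) _
  have h4 : (p : ℤ) ∣ ((Module.finrank F F' : ℤ) - a) * C := by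
    have h5 : ((Module.finrank F F' : ℤ) - a) * C =
        t ν * (ν.ord (Algebra.norm F (b u)) - a * ν.ord u) + a * (t ν * ν.ord u - C)
          - (t ν * ν.ord (Algebra.norm F (b u)) - (Module.finrank F F' : ℤ) * C) := by ring
    rw [h5]
    exact dvd_sub (dvd_add h2 h3) h1
  have hpZ : Prime (p : ℤ) := Nat.prime_iff_prime_int.mp hp
  have hCp : (p : ℤ) ∣ C := (hpZ.dvd_or_dvd h4).resolve_left ha
  have h6 : t ν * ν.ord u = (t ν * ν.ord u - C) + C := by ring
  rw [h6]
  exact dvd_add (hC ν hν) hCp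

omit [Algebra K F'] [IsAlgClosed K] [IsScalarTower K F F'] [FiniteDimensional F F']
  [Algebra.IsSeparable F F'] in
/-- the eigen-relation as an identity of functions gives the congruence of orders. -/
theorem h23_ord_of_eigen (b : F →+* F') (p : ℕ) (a : ℤ) {u : F} (hu : u ≠ 0)
    {c : K} (hc : c ≠ 0) {w : F} (hw : w ≠ 0)
    (hnorm : Algebra.norm F (b u) = algebraMap K F c * u ^ a * w ^ p) (ν : Place K F) :
    (p : ℤ) ∣ ν.ord (Algebra.norm F (b u)) - a * ν.ord u := by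
  have hc' : algebraMap K F c ≠ 0 := (map_ne_zero _).mpr hc
  have hua : u ^ a ≠ 0 := zpow_ne_zero _ hu
  have hwp : w ^ p ≠ 0 := pow_ne_zero _ hw
  rw [hnorm, ν.ord_mul (mul_ne_zero hc' hua) hwp, ν.ord_mul hc' hua, h73_ord_algebraMap,
    ν.ord_zpow, ← zpow_natCast w p, ν.ord_zpow]
  exact ⟨ν.ord w, by ring⟩

/-- **(END)**, with the eigen-relation `N_ᾱ (β̄ u) = c * u ^ a * w ^ p` as an identity of
functions. -/
theorem h23_end_of_eq (hF : h73_IsFF K F) [HasPrincipalDivisors K F']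
    (b : F →+* F') (S : Set (Place K F)) (t : Place K F → ℤ) (t' : Place K F' → ℤ)
    (hα : ∀ w : Place K F', w.restrict F ∈ S →
      (w.ramificationIndex F : ℤ) * t' w = t (w.restrict F))
    (hβ : ∀ w : Place K F', w.restrict F ∈ S → ∃ ν₂ ∈ S, ∃ e₂ : ℤ,
      e₂ * t' w = t ν₂ ∧ ∀ g : F, w.ord (b g) = e₂ * ν₂.ord g)
    {p : ℕ} (hp : p.Prime) (a : ℤ)
    (ha : ¬ (p : ℤ) ∣ (Module.finrank F F' : ℤ) - a)
    {u : F} (hu : u ≠ 0) (C : ℤ)
    (hC : ∀ ν ∈ S, (p : ℤ) ∣ t ν * ν.ord u - C)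
    {c : K} (hc : c ≠ 0) {w : F} (hw : w ≠ 0)
    (hnorm : Algebra.norm F (b u) = algebraMap K F c * u ^ a * w ^ p) :
    ∀ ν ∈ S, (p : ℤ) ∣ t ν * ν.ord u :=
  h23_end hF b S t t' hα hβ hp a ha hu C hC
    (fun ν _ => h23_ord_of_eigen b p a hu hc hw hnorm ν)

/-- **(END), unramified case** (`t = t' = 1`: no elliptic points): `ᾱ` is unramified over `S`,
and every place over `S` along `ᾱ` lies over `S` along `β̄`, unramified. -/
theorem h23_end_unram (hF : h73_IsFF K F) [HasPrincipalDivisors K F']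
    (b : F →+* F') (S : Set (Place K F))
    (hα : ∀ w : Place K F', w.restrict F ∈ S → w.ramificationIndex F = 1)
    (hβ : ∀ w : Place K F', w.restrict F ∈ S → ∃ ν₂ ∈ S, ∀ g : F, w.ord (b g) = ν₂.ord g)
    {p : ℕ} (hp : p.Prime) (a : ℤ)
    (ha : ¬ (p : ℤ) ∣ (Module.finrank F F' : ℤ) - a)
    {u : F} (hu : u ≠ 0) (C : ℤ)
    (hC : ∀ ν ∈ S, (p : ℤ) ∣ ν.ord u - C)
    (hnorm : ∀ ν ∈ S, (p : ℤ) ∣ ν.ord (Algebra.norm F (b u)) - a * ν.ord u) :
    ∀ ν ∈ S, (p : ℤ) ∣ ν.ord u := by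
  have h := h23_end hF b S (fun _ => 1) (fun _ => 1)
    (fun w hw => by rw [hα w hw]; simp)
    (fun w hw => by
      obtain ⟨ν₂, hν₂, h⟩ := hβ w hw
      exact ⟨ν₂, hν₂, 1, by simp, fun g => by rw [h g, one_mul]⟩)
    hp a ha hu C (fun ν hν => by simpa using hC ν hν) hnorm
  intro ν hν
  simpa using h ν hν

end Fermat.Agent.S40

end
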