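/-
helper23: S40 row T8 (END), modular instance, part 1 - the residue extension
`Fb(N ℓ) / Fb(N)` (`Fb(L) = modularFunctionFieldFullC k L`, `k` the residue field of a valuation
ring `A` of `Qb` over `p ∤ N ℓ`, algebra structure along `h10_alphaC`) satisfies the hypotheses
of the generic (END) core `h23_end_unram`:

* `h23_isChart_jk`, `h23_isFF_fb`, `h23_hpd_fb` : `j̄` is a chart; function field; principal
  divisors;
* `h23_finite_alphaC`, `h23_separable_alphaC` : the extension is finite and separable;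
* `h23_finrank_alphaC` : its degree is `ℓ + 1` for a prime `ℓ ∤ N`.
-/
import Mathlib
import Fermat.Agent.S40.h23_EndCore
import Fermat.Agent.S40.h10_NormRedMod
import Fermat.Agent.S18.RR_Riemann
import Fermat.Agent.S18.GR_RedAPI
import Fermat.Agent.S18.h54_Mod

set_option autoImplicit false
set_option synthInstance.maxHeartbeats 400000
set_option linter.style.haveILetI false

noncomputable section

open ModularCurve AlgebraicCurve IntermediateField CongruenceSubgroup
open scoped MatrixGroups

namespace Fermat.Agent.S40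

open Fermat.Agent.S18 Fermat.Agent.S24 Fermat.Agent.S27

local notation "Qb" => AlgebraicClosure ℚ

section Inst

variable (N : ℕ) [NeZero N] {p : ℕ} [Fact p.Prime] (A : ValuationSubring Qb)
  (hA : A.LiesOverPrime p)

include hA

/-- `j̄` is a chart of `Fb(N)` (`p ∤ N`). -/
theorem h23_isChart_jk (hpN : ¬ p ∣ N) :
    h75_IsChart (IsLocalRing.ResidueField A) (h54_jk (IsLocalRing.ResidueField A) N) := by
  have h := h39_weakChart_isChart_red _ (h54_weakChart_j N hpN A hA)
  rwa [h54_redF_jbar (h54_isModRed N hpN A hA)] at h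

/-- `Fb(N)` is a function field in one variable. -/
theorem h23_isFF_fb (hpN : ¬ p ∣ N) :
    h73_IsFF (IsLocalRing.ResidueField A)
      ↥(modularFunctionFieldFullC (IsLocalRing.ResidueField A) N) :=
  ⟨h54_jk (IsLocalRing.ResidueField A) N, (h23_isChart_jk N A hA hpN).fin⟩

/-- `Fb(N)` has principal divisors. -/
theorem h23_hpd_fb (hpN : ¬ p ∣ N) :
    HasPrincipalDivisors (IsLocalRing.ResidueField A)
      ↥(modularFunctionFieldFullC (IsLocalRing.ResidueField A) N) := by
  haveI : IsAlgClosed (IsLocalRing.ResidueField A) := h19_residueField_isAlgClosed A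
  exact h75_hasPrincipalDivisors (h23_isChart_jk N A hA hpN)

variable (ℓ : ℕ) [NeZero ℓ]

/-- `Fb(N ℓ) / Fb(N)` is finite. -/
theorem h23_finite_alphaC (hp : ¬ p ∣ N * ℓ) :
    letI := algebraAlong (h10_alphaC (IsLocalRing.ResidueField A) N ℓ)
    FiniteDimensional ↥(modularFunctionFieldFullC (IsLocalRing.ResidueField A) N)
      ↥(modularFunctionFieldFullC (IsLocalRing.ResidueField A) (N * ℓ)) := by
  letI := algebraAlong (h10_alphaC (IsLocalRing.ResidueField A) N ℓ)
  have h := h10_degC N ℓ p hp A hA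
  have h2 := h10_card_pos (N * ℓ)
  rw [← h] at h2
  exact Module.finite_of_finrank_pos (Nat.pos_of_mul_pos_left h2)

/-- the degree of `Fb(N ℓ) / Fb(N)` is `ℓ + 1` for a prime `ℓ ∤ N`. -/
theorem h23_finrank_alphaC (hp : ¬ p ∣ N * ℓ) (hℓ : ℓ.Prime) (hℓN : ¬ ℓ ∣ N) :
    finrankAlong (IsLocalRing.ResidueField A) (h10_alphaC (IsLocalRing.ResidueField A) N ℓ)
      = ℓ + 1 := by
  have h := h10_degC N ℓ p hp A hA
  rw [h10_card_mul_prime N ℓ hℓ hℓN, mul_comm] at h
  exact Nat.eq_of_mul_eq_mul_right (h10_card_pos N) h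

set_option maxHeartbeats 1600000 in
/-- `Fb(N ℓ) / Fb(N)` is separable. -/
theorem h23_separable_alphaC (hp : ¬ p ∣ N * ℓ) :
    letI := algebraAlong (h10_alphaC (IsLocalRing.ResidueField A) N ℓ)
    Algebra.IsSeparable ↥(modularFunctionFieldFullC (IsLocalRing.ResidueField A) N)
      ↥(modularFunctionFieldFullC (IsLocalRing.ResidueField A) (N * ℓ)) := by
  let _ := algebraAlong (h10_alphaC (IsLocalRing.ResidueField A) N ℓ)
  have := isScalarTower_along (h10_alphaC (IsLocalRing.ResidueField A) N ℓ)
  have hmap : (IsLocalRing.ResidueField A)⟮h54_jk (IsLocalRing.ResidueField A) N⟯.map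
      (h10_alphaC (IsLocalRing.ResidueField A) N ℓ) =
      (IsLocalRing.ResidueField A)⟮h54_jk (IsLocalRing.ResidueField A) (N * ℓ)⟯ := by
    rw [IntermediateField.adjoin_map, Set.image_singleton, h10_alphaC_jk]
  let i : (IsLocalRing.ResidueField A)⟮h54_jk (IsLocalRing.ResidueField A) N⟯ ≃+*
      (IsLocalRing.ResidueField A)⟮h54_jk (IsLocalRing.ResidueField A) (N * ℓ)⟯ :=
    ((IntermediateField.equivMap (IsLocalRing.ResidueField A)⟮h54_jk
        (IsLocalRing.ResidueField A) N⟯ (h10_alphaC (IsLocalRing.ResidueField A) N ℓ)).trans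
      (IntermediateField.equivOfEq hmap)).toRingEquiv
  have hsep' : Algebra.IsSeparable
      (IsLocalRing.ResidueField A)⟮h54_jk (IsLocalRing.ResidueField A) (N * ℓ)⟯
      ↥(modularFunctionFieldFullC (IsLocalRing.ResidueField A) (N * ℓ)) :=
    h54_separable_fb (N * ℓ) hp A hA
  have hsep : Algebra.IsSeparable
      (IsLocalRing.ResidueField A)⟮h54_jk (IsLocalRing.ResidueField A) N⟯
      ↥(modularFunctionFieldFullC (IsLocalRing.ResidueField A) (N * ℓ)) := by
    refine Algebra.IsSeparable.of_equiv_equiv i.symm (RingEquiv.refl _) ?_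
    refine RingHom.ext fun x => ?_
    obtain ⟨y, rfl⟩ := i.surjective x
    show algebraMap _ _ (i.symm (i y)) = _
    rw [RingEquiv.symm_apply_apply]
    rfl
  exact Algebra.isSeparable_tower_top_of_isSeparable
    (IsLocalRing.ResidueField A)⟮h54_jk (IsLocalRing.ResidueField A) N⟯
    ↥(modularFunctionFieldFullC (IsLocalRing.ResidueField A) N)
    ↥(modularFunctionFieldFullC (IsLocalRing.ResidueField A) (N * ℓ))

end Inst

end Fermat.Agent.S40

end
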