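import Mathlib
import Fermat.Agent.S40.h43_TailPt
import Fermat.Agent.S18.RR_Riemann
import Fermat.Agent.S18.h60_Top

/-!
# S40 / tail glue: residue classes `c_i(x)` and their triviality (helper43)

The joint between (TR-MAIN) ("`p ∣ ord_Q red_i(u / c_i)` for every place `Q`"), the (BRIDGE)
(T10: the class `c_i(x) ∈ Pic⁰(Fb)[p]` vanishes) and T9b (`red_i(c_i u) = w_i ^ p` ⟹ toric).
Generic: `R : h39_RedDatum K F k Fb`, `k` algebraically closed, `Fb` with a chart.

* `h43_exists_root_fun` : if `n • D = div (red f)` (normalised) and the class of `D` in `Pic0` is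
  zero, then `red (c f) = w ^ n` for a constant `c` and some `w ≠ 0`.
* `h43_root_class_dichotomy` : from "all normalised residue orders of `f` divisible by `n`":
  a class `c ∈ Pic0 k Fb` with `n • c = 0` such that `c = 0` implies `red (c' f) = w ^ n`.
* `h43_root_fun_of_chart`, `h43_root_class_dichotomy_of_chart` : the same with the hypothesis
  "functions without zeros and poles are constant" discharged from a chart of `Fb`.
* `h43_rord_dvd_of_root_fun` : conversely `red (c f) = w ^ n` gives `n ∣ h43_rord R Q f`.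
-/

set_option autoImplicit false

noncomputable section

namespace Fermat.Agent.S40

open Fermat.Agent.S18 AlgebraicCurve

variable {K F k Fb : Type*} [Field K] [Field F] [Algebra K F] [Field k] [Field Fb] [Algebra k Fb]

/-- **Trivial class ⟹ `n`-th power.**  If `n D = div (red f)` (normalised reduction) and `D` is
principal, then `red (c f) = w ^ n` for a unit scaling `c` of `f` and some `w ≠ 0`. -/
theorem h43_exists_root_fun [IsAlgClosed k] (R : h39_RedDatum K F k Fb)
    (hconst : ∀ g : Fb, (∀ Q : Place k Fb, Q.ord g = 0) → ∃ a : k, g = algebraMap k Fb a)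
    {n : ℕ} (hn : n ≠ 0) {f : F} (hf : f ≠ 0) (D : Divisor.degZero (K := k) (F := Fb))
    (hD : ∀ Q, (n : ℤ) * (D : Divisor k Fb) Q = h43_rord R Q f) (hcls : Pic0.mk D = 0) :
    ∃ (c : K) (w : Fb), c ≠ 0 ∧ w ≠ 0 ∧ h43_IsRUnit R (algebraMap K F c * f) ∧
      R.redF (algebraMap K F c * f) = w ^ n := by
  have hprin : (D : Divisor k Fb) ∈ Divisor.principal (K := k) (F := Fb) :=
    AddSubgroup.mem_addSubgroupOf.mp ((QuotientAddGroup.eq_zero_iff _).mp hcls)
  obtain ⟨w, hw0, hw⟩ := hprin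
  obtain ⟨c, hc0, hu, he⟩ := h43_rred_spec R hf
  have hr0 : R.redF (algebraMap K F c * f) ≠ 0 := h43_redF_unit_ne_zero R hu
  have hwn : w ^ n ≠ 0 := pow_ne_zero _ hw0
  have hord : ∀ Q : Place k Fb, Q.ord (R.redF (algebraMap K F c * f) / w ^ n) = 0 := by
    intro Q
    have h1 : Q.ord (R.redF (algebraMap K F c * f)) = h43_rord R Q f := by
      unfold h43_rord
      rw [he]
    have h2 : Q.ord (w ^ n) = (n : ℤ) * Q.ord w := by
      rw [← zpow_natCast, Q.ord_zpow]
    rw [div_eq_mul_inv, Q.ord_mul hr0 (inv_ne_zero hwn), Q.ord_inv, h1, h2, ← hD Q, hw Q]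
    ring
  obtain ⟨a, ha⟩ := hconst _ hord
  have ha0 : a ≠ 0 := by
    rintro rfl
    rw [map_zero] at ha
    exact div_ne_zero hr0 hwn ha
  obtain ⟨b, hb⟩ := IsAlgClosed.exists_pow_nat_eq a (Nat.pos_of_ne_zero hn)
  have hb0 : b ≠ 0 := by
    rintro rfl
    rw [zero_pow hn] at hb
    exact ha0 hb.symm
  refine ⟨c, algebraMap k Fb b * w, hc0, mul_ne_zero ((map_ne_zero _).mpr hb0) hw0, hu, ?_⟩
  rw [mul_pow, ← map_pow, hb, ← ha, div_mul_cancel₀ _ hwn]

/-- **The dichotomy of the tail, generic.**  If all normalised residue orders of `f` are divisible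
by `n ≠ 0`, there is a class `c ∈ Pic0 k Fb` with `n • c = 0`, represented by `(1/n) div (red f)`,
such that `c = 0` forces `red (c' f)` to be an `n`-th power. -/
theorem h43_root_class_dichotomy [IsAlgClosed k] [HasPrincipalDivisors k Fb]
    (R : h39_RedDatum K F k Fb)
    (hconst : ∀ g : Fb, (∀ Q : Place k Fb, Q.ord g = 0) → ∃ a : k, g = algebraMap k Fb a)
    {n : ℕ} (hn : n ≠ 0) {f : F} (hf : f ≠ 0) (h : ∀ Q, (n : ℤ) ∣ h43_rord R Q f) :
    ∃ D : Divisor.degZero (K := k) (F := Fb),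
      (∀ Q, (n : ℤ) * (D : Divisor k Fb) Q = h43_rord R Q f) ∧ n • Pic0.mk D = 0 ∧
      (Pic0.mk D = 0 → ∃ (c : K) (w : Fb), c ≠ 0 ∧ w ≠ 0 ∧
        h43_IsRUnit R (algebraMap K F c * f) ∧ R.redF (algebraMap K F c * f) = w ^ n) := by
  obtain ⟨D, hD, hnD⟩ := h43_exists_root_class R hn hf h
  exact ⟨D, hD, hnD, fun h0 => h43_exists_root_fun R hconst hn hf D hD h0⟩

/-- Functions without zeros and poles are constants, from a chart. -/
theorem h43_const_of_chart [IsAlgClosed k] {xb : Fb} (hxb : h75_IsChart k xb) (g : Fb)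
    (hord : ∀ Q : Place k Fb, Q.ord g = 0) : ∃ a : k, g = algebraMap k Fb a :=
  h60_const_of_finrank_rr_zero (h75_finrank_rr_zero hxb) g hord

theorem h43_root_fun_of_chart [IsAlgClosed k] (R : h39_RedDatum K F k Fb) {xb : Fb}
    (hxb : h75_IsChart k xb) {n : ℕ} (hn : n ≠ 0) {f : F} (hf : f ≠ 0)
    (D : Divisor.degZero (K := k) (F := Fb))
    (hD : ∀ Q, (n : ℤ) * (D : Divisor k Fb) Q = h43_rord R Q f) (hcls : Pic0.mk D = 0) :
    ∃ (c : K) (w : Fb), c ≠ 0 ∧ w ≠ 0 ∧ h43_IsRUnit R (algebraMap K F c * f) ∧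
      R.redF (algebraMap K F c * f) = w ^ n :=
  h43_exists_root_fun R (h43_const_of_chart hxb) hn hf D hD hcls

/-- **The dichotomy of the tail**, with a chart of the residue function field. -/
theorem h43_root_class_dichotomy_of_chart [IsAlgClosed k] (R : h39_RedDatum K F k Fb) {xb : Fb}
    (hxb : h75_IsChart k xb) {n : ℕ} (hn : n ≠ 0) {f : F} (hf : f ≠ 0)
    (h : ∀ Q, (n : ℤ) ∣ h43_rord R Q f) :
    ∃ D : Divisor.degZero (K := k) (F := Fb),
      (∀ Q, (n : ℤ) * (D : Divisor k Fb) Q = h43_rord R Q f) ∧ n • Pic0.mk D = 0 ∧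
      (Pic0.mk D = 0 → ∃ (c : K) (w : Fb), c ≠ 0 ∧ w ≠ 0 ∧
        h43_IsRUnit R (algebraMap K F c * f) ∧ R.redF (algebraMap K F c * f) = w ^ n) :=
  haveI := h75_hasPrincipalDivisors hxb
  h43_root_class_dichotomy R (h43_const_of_chart hxb) hn hf h

/-- Conversely: `red (c f) = w ^ n` for a unit scaling `c` gives `n ∣ h43_rord R Q f`. -/
theorem h43_rord_dvd_of_root_fun (R : h39_RedDatum K F k Fb) (Q : Place k Fb) {n : ℕ} {f : F}
    {c : K} {w : Fb} (hu : h43_IsRUnit R (algebraMap K F c * f))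
    (he : R.redF (algebraMap K F c * f) = w ^ n) : (n : ℤ) ∣ h43_rord R Q f := by
  rw [h43_rord_eq R Q hu, he, ← zpow_natCast, Q.ord_zpow]
  exact dvd_mul_right _ _

/-- If `red (c f) ≠ 0` with `c f ∈ R.O`, then `c f` is a unit of `R.O` (adapter for consumers
which only know the reduction is nonzero). -/
theorem h43_isRUnit_of_redF_ne_zero (R : h39_RedDatum K F k Fb) {g : F} (hg : g ∈ R.O)
    (hne : R.redF g ≠ 0) : h43_IsRUnit R g := by
  have hg0 : g ≠ 0 := by
    rintro rfl
    apply hne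
    rw [R.redF_of_mem hg]
    exact map_zero R.red
  refine ⟨hg0, hg, ?_⟩
  by_contra hinv
  -- `g` is a non-unit of the valuation ring `R.O`, so `red g = 0`
  have hmem : (⟨g, hg⟩ : R.O) ∈ IsLocalRing.maximalIdeal R.O := by
    rw [IsLocalRing.mem_maximalIdeal, mem_nonunits_iff]
    intro hunit
    obtain ⟨v, hv⟩ := hunit
    apply hinv
    have h1 : ((v⁻¹ : R.Oˣ) : R.O) * ⟨g, hg⟩ = 1 := by
      rw [← hv]
      exact v.inv_mul
    have h2 : ((v⁻¹ : R.Oˣ) : F) * g = 1 := by
      have := congrArg Subtype.val h1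
      simpa using this
    have h3 : g⁻¹ = ((v⁻¹ : R.Oˣ) : F) := by
      rw [eq_comm, ← mul_eq_one_iff_eq_inv₀ hg0]
      exact h2
    rw [h3]
    exact (v⁻¹ : R.Oˣ).1.2
  apply hne
  rw [R.redF_of_mem hg]
  have hker : RingHom.ker R.red = IsLocalRing.maximalIdeal R.O :=
    IsLocalRing.eq_maximalIdeal (RingHom.ker_isMaximal_of_surjective R.red R.red_surjective)
  rw [← hker] at hmem
  exact hmem

end Fermat.Agent.S40

end
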