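/-
helper23: S40 row T8 (END), modular instance, part 2 - the wrapper.

Setting: `M` the (charted) level, `p ∤ M` the prime, `ℓ ∤ M p` the Hecke prime, `A` a valuation
ring of `Qb` over `p`, `k` its residue field, `R1 := h60_R1 M p hpM A hA` the first reduction
datum of `F(M p)` (residue field `Fb(M)`), `ᾱ := h10_alphaC k M ℓ` (inclusion) and
`β̄ := h2_betaC k M ℓ` (`q ↦ q ^ ℓ`) the degeneracy maps `Fb(M) → Fb(M ℓ)`.

* `h23_R1_coe_redF`  : `R1.redF f`, as a series, is `h19_redFun f`;
* `h23_norm_red`     : for an `R1`-unit `u₁`, `N_α (β u₁)` is an `R1`-unit and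
                       `red₁ (N_α (β u₁)) = N_ᾱ (β̄ (red₁ u₁))`                         (E1);
* `h23_hnorm_mod`    : from the eigen-relation `N_α (β u) = c * u ^ a * w ^ p` in characteristic
                       zero: `ord_ν (N_ᾱ (β̄ ū)) = a * ord_ν ū + p * (..)` for `ū = h43_rred R1 u`;
* `h23_end_mod`      : (END): if the normalised residue orders `h43_rord R1 ν u` are congruent
                       to a constant modulo `p` on a set `S` of places of `Fb(M)` which is
                       "closed under the correspondence" (`hα`, `hβ` = (E2)), then they are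
                       all divisible by `p`;
* `h23_end_mod_diff` : the same with the hypothesis in the difference form
                       `p ∣ ord_ν - ord_ν'` (`ν, ν' ∈ S`);
* `h23_end_mod_pic`  : the same with the eigen-relation as `T_ℓ [E] = a • [E]`, `p • E = div u`.
-/
import Mathlib
import Fermat.Agent.S40.h23_EndInst
import Fermat.Agent.S40.h2_RedHeckeCore
import Fermat.Agent.S40.h43_TailCls
import Fermat.Agent.S40.h67_EigChar0
import Fermat.Agent.S34.h60_R1

set_option autoImplicit false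
set_option synthInstance.maxHeartbeats 400000
set_option linter.style.haveILetI false

noncomputable section

open ModularCurve AlgebraicCurve IntermediateField CongruenceSubgroup
open scoped MatrixGroups

namespace Fermat.Agent.S40

open Fermat.Agent.S18 Fermat.Agent.S24 Fermat.Agent.S27 Fermat.Agent.S34 Fermat.Agent.GAL

local notation "Qb" => AlgebraicClosure ℚ

section Mod

variable (M p : ℕ) [NeZero M] [NeZero p] [Fact p.Prime] (hpM : ¬ p ∣ M)
  (A : ValuationSubring Qb) (hA : A.LiesOverPrime p)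

/-- `red₁ f`, as a series, is the coefficientwise reduction `h19_redFun`. -/
theorem h23_R1_coe_redF (f : ↥(modularFunctionFieldBar (M * p)))
    (hf : f ∈ (h60_R1 M p hpM A hA).O) (h : h19_InO A (f : LaurentSeries Qb)) :
    (((h60_R1 M p hpM A hA).redF f :
        ↥(modularFunctionFieldFullC (IsLocalRing.ResidueField A) M)) :
      LaurentSeries (IsLocalRing.ResidueField A)) = h19_redFun (f : LaurentSeries Qb) h := by
  obtain ⟨y₁, y₂, hy₂, hy⟩ := h
  rw [(h60_R1 M p hpM A hA).redF_of_mem hf]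
  exact (h19_redFun_eq _ _ y₁ y₂ hy₂ hy _ (h60_R1_red_eq M p hpM A hA f hf y₁ y₂ hy)).symm

variable (ℓ : ℕ) [NeZero ℓ]

set_option maxHeartbeats 1600000 in
/-- **(E1)** in unit form: for an `R1`-unit `u₁`, the norm `N_α (β u₁)` is an `R1`-unit and its
reduction is the residue norm `N_ᾱ (β̄ (red₁ u₁))`. -/
theorem h23_norm_red (hpMℓ : ¬ p ∣ M * ℓ) (u₁ : ↥(modularFunctionFieldBar (M * p)))
    (hu₁ : h43_IsRUnit (h60_R1 M p hpM A hA) u₁) :
    letI := algebraAlong (heckeAlphaBar Qb (M * p) ℓ)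
    letI := algebraAlong (h10_alphaC (IsLocalRing.ResidueField A) M ℓ)
    h43_IsRUnit (h60_R1 M p hpM A hA)
        (Algebra.norm ↥(modularFunctionFieldBar (M * p)) (heckeBetaBar Qb (M * p) ℓ u₁)) ∧
      (h60_R1 M p hpM A hA).redF
          (Algebra.norm ↥(modularFunctionFieldBar (M * p)) (heckeBetaBar Qb (M * p) ℓ u₁)) =
        Algebra.norm ↥(modularFunctionFieldFullC (IsLocalRing.ResidueField A) M)
          (h2_betaC (IsLocalRing.ResidueField A) M ℓ ((h60_R1 M p hpM A hA).redF u₁)) := by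
  letI := algebraAlong (heckeAlphaBar Qb (M * p) ℓ)
  letI := algebraAlong (h10_alphaC (IsLocalRing.ResidueField A) M ℓ)
  haveI := h23_finite_alphaC M A hA ℓ hpMℓ
  have hInO : h19_InO A (u₁ : LaurentSeries Qb) :=
    (h60_R1_mem_iff M p hpM A hA u₁).mp hu₁.2.1
  obtain ⟨hN, hm, hh⟩ := h10_heckeNormRed_R1 M p ℓ hpMℓ A hA u₁ hInO
  have hNO : Algebra.norm ↥(modularFunctionFieldBar (M * p)) (heckeBetaBar Qb (M * p) ℓ u₁) ∈
      (h60_R1 M p hpM A hA).O := (h60_R1_mem_iff M p hpM A hA _).mpr hN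
  have hub : ((h60_R1 M p hpM A hA).redF u₁ :
      LaurentSeries (IsLocalRing.ResidueField A)) = h19_redFun (u₁ : LaurentSeries Qb) hInO :=
    h23_R1_coe_redF M p hpM A hA u₁ hu₁.2.1 hInO
  have hbeta : (⟨qExpand (IsLocalRing.ResidueField A) ℓ (h19_redFun _ hInO), hm⟩ :
      ↥(modularFunctionFieldFullC (IsLocalRing.ResidueField A) (M * ℓ))) =
      h2_betaC (IsLocalRing.ResidueField A) M ℓ ((h60_R1 M p hpM A hA).redF u₁) := by
    refine Subtype.ext ?_
    rw [h2_coe_betaC, hub]
  have hred : (h60_R1 M p hpM A hA).redF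
      (Algebra.norm ↥(modularFunctionFieldBar (M * p)) (heckeBetaBar Qb (M * p) ℓ u₁)) =
      Algebra.norm ↥(modularFunctionFieldFullC (IsLocalRing.ResidueField A) M)
        (h2_betaC (IsLocalRing.ResidueField A) M ℓ ((h60_R1 M p hpM A hA).redF u₁)) := by
    refine Subtype.ext ?_
    rw [h23_R1_coe_redF M p hpM A hA _ hNO hN, hh, hbeta]
  refine ⟨h43_isRUnit_of_redF_ne_zero _ hNO ?_, hred⟩
  rw [hred]
  refine Algebra.norm_ne_zero_iff.mpr ?_
  exact (map_ne_zero _).mpr (h43_redF_unit_ne_zero _ hu₁)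

set_option maxHeartbeats 1600000 in
/-- **(T8-d)**: the eigen-relation `N_α (β u) = c * u ^ a * w ^ p` in characteristic zero gives
the order relation for the residue norm of the normalised reduction `ū = h43_rred R1 u`. -/
theorem h23_hnorm_mod (hpMℓ : ¬ p ∣ M * ℓ) (a : ℤ)
    (u : ↥(modularFunctionFieldBar (M * p))) (hu : u ≠ 0) (c : Qb) (hc : c ≠ 0)
    (w : ↥(modularFunctionFieldBar (M * p))) (hw : w ≠ 0)
    (heig : h67_normAlong (heckeAlphaBar Qb (M * p) ℓ) (heckeBetaBar Qb (M * p) ℓ u) =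
      algebraMap Qb ↥(modularFunctionFieldBar (M * p)) c * u ^ a * w ^ p)
    (ν : Place (IsLocalRing.ResidueField A)
      ↥(modularFunctionFieldFullC (IsLocalRing.ResidueField A) M)) :
    letI := algebraAlong (h10_alphaC (IsLocalRing.ResidueField A) M ℓ)
    ν.ord (Algebra.norm ↥(modularFunctionFieldFullC (IsLocalRing.ResidueField A) M)
        (h2_betaC (IsLocalRing.ResidueField A) M ℓ (h43_rred (h60_R1 M p hpM A hA) u))) =
      a * h43_rord (h60_R1 M p hpM A hA) ν u + p * h43_rord (h60_R1 M p hpM A hA) ν w := by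
  letI algα := algebraAlong (heckeAlphaBar Qb (M * p) ℓ)
  haveI := isScalarTower_along (heckeAlphaBar Qb (M * p) ℓ)
  letI := algebraAlong (h10_alphaC (IsLocalRing.ResidueField A) M ℓ)
  obtain ⟨c₁, hc₁, hunit, hred⟩ := h43_rred_spec (h60_R1 M p hpM A hA) hu
  obtain ⟨hNu, hNred⟩ := h23_norm_red M p hpM A hA ℓ hpMℓ _ hunit
  have heig' : Algebra.norm ↥(modularFunctionFieldBar (M * p)) (heckeBetaBar Qb (M * p) ℓ u) =
      algebraMap Qb ↥(modularFunctionFieldBar (M * p)) c * u ^ a * w ^ p := heig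
  have hc₁' : algebraMap Qb ↥(modularFunctionFieldBar (M * p)) c₁ ≠ 0 :=
    (map_ne_zero _).mpr hc₁
  have hsplit : Algebra.norm ↥(modularFunctionFieldBar (M * p))
      (heckeBetaBar Qb (M * p) ℓ (algebraMap Qb ↥(modularFunctionFieldBar (M * p)) c₁ * u)) =
      algebraMap Qb ↥(modularFunctionFieldBar (M * p)) c₁ ^
          Module.finrank ↥(modularFunctionFieldBar (M * p))
            ↥(modularFunctionFieldBar (M * p * ℓ)) *
        (algebraMap Qb ↥(modularFunctionFieldBar (M * p)) c * u ^ a * w ^ p) := by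
    rw [map_mul, map_mul, AlgHom.commutes,
      IsScalarTower.algebraMap_apply Qb ↥(modularFunctionFieldBar (M * p))
        ↥(modularFunctionFieldBar (M * p * ℓ)) c₁, Algebra.norm_algebraMap, heig']
  rw [hred, ← hNred, ← h43_rord_of_unit _ ν hNu, hsplit,
    h43_rord_mul _ ν (pow_ne_zero _ hc₁')
      (mul_ne_zero (mul_ne_zero ((map_ne_zero _).mpr hc) (zpow_ne_zero a hu))
        (pow_ne_zero p hw)),
    h43_rord_pow _ ν hc₁', h43_rord_algebraMap, mul_zero, zero_add,
    h43_rord_transfer _ ν p hc (zpow_ne_zero a hu) hw rfl, h43_rord_zpow _ ν hu]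

set_option maxHeartbeats 1600000 in
/-- **(END), modular form (T8).**  `S` a set of places of `Fb(M)` such that `ᾱ` is unramified
over `S` (`hα`) and every place of `Fb(M ℓ)` over `S` along `ᾱ` lies over `S` along `β̄`,
unramified (`hβ`); `u` a function of level `M p` with the eigen-relation
`N_α (β u) = c * u ^ a * w ^ p`, `p ∤ ℓ + 1 - a`.  If the normalised residue orders of `u` on `S`
are congruent to a constant modulo `p`, they are all divisible by `p`. -/
theorem h23_end_mod (hpMℓ : ¬ p ∣ M * ℓ) (hℓ : ℓ.Prime) (hℓM : ¬ ℓ ∣ M)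
    (S : Set (Place (IsLocalRing.ResidueField A)
      ↥(modularFunctionFieldFullC (IsLocalRing.ResidueField A) M)))
    (hα : letI := algebraAlong (h10_alphaC (IsLocalRing.ResidueField A) M ℓ)
      haveI := isScalarTower_along (h10_alphaC (IsLocalRing.ResidueField A) M ℓ)
      haveI := h23_finite_alphaC M A hA ℓ hpMℓ
      ∀ w : Place (IsLocalRing.ResidueField A)
          ↥(modularFunctionFieldFullC (IsLocalRing.ResidueField A) (M * ℓ)),
        w.restrict ↥(modularFunctionFieldFullC (IsLocalRing.ResidueField A) M) ∈ S →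
          w.ramificationIndex ↥(modularFunctionFieldFullC (IsLocalRing.ResidueField A) M) = 1)
    (hβ : letI := algebraAlong (h10_alphaC (IsLocalRing.ResidueField A) M ℓ)
      haveI := isScalarTower_along (h10_alphaC (IsLocalRing.ResidueField A) M ℓ)
      haveI := h23_finite_alphaC M A hA ℓ hpMℓ
      ∀ w : Place (IsLocalRing.ResidueField A)
          ↥(modularFunctionFieldFullC (IsLocalRing.ResidueField A) (M * ℓ)),
        w.restrict ↥(modularFunctionFieldFullC (IsLocalRing.ResidueField A) M) ∈ S →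
          ∃ ν₂ ∈ S, ∀ g : ↥(modularFunctionFieldFullC (IsLocalRing.ResidueField A) M),
            w.ord (h2_betaC (IsLocalRing.ResidueField A) M ℓ g) = ν₂.ord g)
    (a : ℤ) (ha : ¬ (p : ℤ) ∣ (ℓ : ℤ) + 1 - a)
    (u : ↥(modularFunctionFieldBar (M * p))) (hu : u ≠ 0) (c : Qb) (hc : c ≠ 0)
    (w : ↥(modularFunctionFieldBar (M * p))) (hw : w ≠ 0)
    (heig : h67_normAlong (heckeAlphaBar Qb (M * p) ℓ) (heckeBetaBar Qb (M * p) ℓ u) =
      algebraMap Qb ↥(modularFunctionFieldBar (M * p)) c * u ^ a * w ^ p)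
    (C : ℤ) (hC : ∀ ν ∈ S, (p : ℤ) ∣ h43_rord (h60_R1 M p hpM A hA) ν u - C) :
    ∀ ν ∈ S, (p : ℤ) ∣ h43_rord (h60_R1 M p hpM A hA) ν u := by
  letI := algebraAlong (h10_alphaC (IsLocalRing.ResidueField A) M ℓ)
  haveI := isScalarTower_along (h10_alphaC (IsLocalRing.ResidueField A) M ℓ)
  haveI := h23_finite_alphaC M A hA ℓ hpMℓ
  haveI := h23_separable_alphaC M A hA ℓ hpMℓ
  haveI : IsAlgClosed (IsLocalRing.ResidueField A) := h19_residueField_isAlgClosed A
  haveI := h23_hpd_fb (M * ℓ) A hA hpMℓ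
  have hfr : Module.finrank ↥(modularFunctionFieldFullC (IsLocalRing.ResidueField A) M)
      ↥(modularFunctionFieldFullC (IsLocalRing.ResidueField A) (M * ℓ)) = ℓ + 1 :=
    h23_finrank_alphaC M A hA ℓ hpMℓ hℓ hℓM
  have hub : h43_rred (h60_R1 M p hpM A hA) u ≠ 0 := h43_rred_ne_zero _ hu
  refine h23_end_unram (h23_isFF_fb M A hA hpM)
    (h2_betaC (IsLocalRing.ResidueField A) M ℓ :
      ↥(modularFunctionFieldFullC (IsLocalRing.ResidueField A) M) →+*
        ↥(modularFunctionFieldFullC (IsLocalRing.ResidueField A) (M * ℓ)))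
    S hα hβ (Fact.out : p.Prime) a ?_ hub C hC ?_
  · rw [hfr]
    push_cast
    exact ha
  · intro ν _
    have h := h23_hnorm_mod M p hpM A hA ℓ hpMℓ a u hu c hc w hw heig ν
    refine ⟨h43_rord (h60_R1 M p hpM A hA) ν w, ?_⟩
    have h' : ν.ord (Algebra.norm ↥(modularFunctionFieldFullC (IsLocalRing.ResidueField A) M)
        ((h2_betaC (IsLocalRing.ResidueField A) M ℓ :
          ↥(modularFunctionFieldFullC (IsLocalRing.ResidueField A) M) →+*
            ↥(modularFunctionFieldFullC (IsLocalRing.ResidueField A) (M * ℓ)))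
          (h43_rred (h60_R1 M p hpM A hA) u))) =
        a * h43_rord (h60_R1 M p hpM A hA) ν u + p * h43_rord (h60_R1 M p hpM A hA) ν w := h
    rw [h']
    show a * h43_rord (h60_R1 M p hpM A hA) ν u + p * h43_rord (h60_R1 M p hpM A hA) ν w -
      a * h43_rord (h60_R1 M p hpM A hA) ν u = _
    ring

/-- **(END), modular form**, with the hypothesis in difference form: the normalised residue
orders of `u` at any two places of `S` are congruent modulo `p`. -/
theorem h23_end_mod_diff (hpMℓ : ¬ p ∣ M * ℓ) (hℓ : ℓ.Prime) (hℓM : ¬ ℓ ∣ M)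
    (S : Set (Place (IsLocalRing.ResidueField A)
      ↥(modularFunctionFieldFullC (IsLocalRing.ResidueField A) M)))
    (hα : letI := algebraAlong (h10_alphaC (IsLocalRing.ResidueField A) M ℓ)
      haveI := isScalarTower_along (h10_alphaC (IsLocalRing.ResidueField A) M ℓ)
      haveI := h23_finite_alphaC M A hA ℓ hpMℓ
      ∀ w : Place (IsLocalRing.ResidueField A)
          ↥(modularFunctionFieldFullC (IsLocalRing.ResidueField A) (M * ℓ)),
        w.restrict ↥(modularFunctionFieldFullC (IsLocalRing.ResidueField A) M) ∈ S →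
          w.ramificationIndex ↥(modularFunctionFieldFullC (IsLocalRing.ResidueField A) M) = 1)
    (hβ : letI := algebraAlong (h10_alphaC (IsLocalRing.ResidueField A) M ℓ)
      haveI := isScalarTower_along (h10_alphaC (IsLocalRing.ResidueField A) M ℓ)
      haveI := h23_finite_alphaC M A hA ℓ hpMℓ
      ∀ w : Place (IsLocalRing.ResidueField A)
          ↥(modularFunctionFieldFullC (IsLocalRing.ResidueField A) (M * ℓ)),
        w.restrict ↥(modularFunctionFieldFullC (IsLocalRing.ResidueField A) M) ∈ S →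
          ∃ ν₂ ∈ S, ∀ g : ↥(modularFunctionFieldFullC (IsLocalRing.ResidueField A) M),
            w.ord (h2_betaC (IsLocalRing.ResidueField A) M ℓ g) = ν₂.ord g)
    (a : ℤ) (ha : ¬ (p : ℤ) ∣ (ℓ : ℤ) + 1 - a)
    (u : ↥(modularFunctionFieldBar (M * p))) (hu : u ≠ 0) (c : Qb) (hc : c ≠ 0)
    (w : ↥(modularFunctionFieldBar (M * p))) (hw : w ≠ 0)
    (heig : h67_normAlong (heckeAlphaBar Qb (M * p) ℓ) (heckeBetaBar Qb (M * p) ℓ u) =
      algebraMap Qb ↥(modularFunctionFieldBar (M * p)) c * u ^ a * w ^ p)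
    (hdiff : ∀ ν ∈ S, ∀ ν' ∈ S, (p : ℤ) ∣
      h43_rord (h60_R1 M p hpM A hA) ν u - h43_rord (h60_R1 M p hpM A hA) ν' u) :
    ∀ ν ∈ S, (p : ℤ) ∣ h43_rord (h60_R1 M p hpM A hA) ν u := fun ν hν =>
  h23_end_mod M p hpM A hA ℓ hpMℓ hℓ hℓM S hα hβ a ha u hu c hc w hw heig
    (h43_rord (h60_R1 M p hpM A hA) ν u) (fun ν' hν' => hdiff ν' hν' ν hν) ν hν

/-- **(END), modular form**, with the eigen-relation on the class: `p • E = div u` and
`T_ℓ [E] = a • [E]` in `J₀(M p)`. -/
theorem h23_end_mod_pic (hpMℓ : ¬ p ∣ M * ℓ) (hℓ : ℓ.Prime) (hℓM : ¬ ℓ ∣ M)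
    (S : Set (Place (IsLocalRing.ResidueField A)
      ↥(modularFunctionFieldFullC (IsLocalRing.ResidueField A) M)))
    (hα : letI := algebraAlong (h10_alphaC (IsLocalRing.ResidueField A) M ℓ)
      haveI := isScalarTower_along (h10_alphaC (IsLocalRing.ResidueField A) M ℓ)
      haveI := h23_finite_alphaC M A hA ℓ hpMℓ
      ∀ w : Place (IsLocalRing.ResidueField A)
          ↥(modularFunctionFieldFullC (IsLocalRing.ResidueField A) (M * ℓ)),
        w.restrict ↥(modularFunctionFieldFullC (IsLocalRing.ResidueField A) M) ∈ S →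
          w.ramificationIndex ↥(modularFunctionFieldFullC (IsLocalRing.ResidueField A) M) = 1)
    (hβ : letI := algebraAlong (h10_alphaC (IsLocalRing.ResidueField A) M ℓ)
      haveI := isScalarTower_along (h10_alphaC (IsLocalRing.ResidueField A) M ℓ)
      haveI := h23_finite_alphaC M A hA ℓ hpMℓ
      ∀ w : Place (IsLocalRing.ResidueField A)
          ↥(modularFunctionFieldFullC (IsLocalRing.ResidueField A) (M * ℓ)),
        w.restrict ↥(modularFunctionFieldFullC (IsLocalRing.ResidueField A) M) ∈ S →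
          ∃ ν₂ ∈ S, ∀ g : ↥(modularFunctionFieldFullC (IsLocalRing.ResidueField A) M),
            w.ord (h2_betaC (IsLocalRing.ResidueField A) M ℓ g) = ν₂.ord g)
    (a : ℤ) (ha : ¬ (p : ℤ) ∣ (ℓ : ℤ) + 1 - a)
    (E : Divisor.degZero (K := Qb) (F := modularFunctionFieldBar (M * p)))
    (u : ↥(modularFunctionFieldBar (M * p))) (hu : u ≠ 0)
    (hdiv : ∀ v : Place Qb (modularFunctionFieldBar (M * p)),
      (p : ℤ) * (E : Divisor Qb (modularFunctionFieldBar (M * p))) v = v.ord u)
    (hT : heckeOperatorBar (M * p) ⟨ℓ, hℓ⟩ (Pic0.mk E) = a • Pic0.mk E)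
    (hdiff : ∀ ν ∈ S, ∀ ν' ∈ S, (p : ℤ) ∣
      h43_rord (h60_R1 M p hpM A hA) ν u - h43_rord (h60_R1 M p hpM A hA) ν' u) :
    ∀ ν ∈ S, (p : ℤ) ∣ h43_rord (h60_R1 M p hpM A hA) ν u := by
  obtain ⟨c, w, hc, hw, heig⟩ := h67_eig_char0_bar (M * p) ℓ hℓ p E u hu hdiv a hT
  exact h23_end_mod_diff M p hpM A hA ℓ hpMℓ hℓ hℓM S hα hβ a ha u hu c hc w hw heig hdiff

end Mod

end Fermat.Agent.S40

end
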