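/-
helper23: S40 row T8 (END), ord-form (hedge) branch: the output `h92_T8Out` of helper92's W9
skeleton (`h92_tr_main_of_rows`) from

* `hα`, `hβ`  : (E2) for the set `S` of node places `Φ Q`, `Q ∈ Sg` (= the two conclusions of
                helper28's `h28_e2_gen` at `N := S`);
* `hT`        : the Hecke eigen-relation `T_ℓ [E] = a • [E]` of the class, `p ∤ ℓ + 1 - a`;
* `hdiff`     : the (TR*) consequence of W7: the node orders are pairwise congruent modulo `p`.

`h23_T8Out_of_E2` has a free set `S` with `S = Φ '' Sg` given by two implications;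
`h23_T8Out_of_E2_image` is the special case `S := Φ '' ↑Sg`.
-/
import Mathlib
import Fermat.Agent.S40.h23_EndMod
import Fermat.Agent.S40.h92_TRMain

set_option autoImplicit false
set_option synthInstance.maxHeartbeats 400000
set_option linter.style.haveILetI false

noncomputable section

open ModularCurve AlgebraicCurve IntermediateField CongruenceSubgroup
open scoped MatrixGroups

namespace Fermat.Agent.S40

open Fermat.Agent.S18 Fermat.Agent.S24 Fermat.Agent.S27 Fermat.Agent.S34 Fermat.Agent.GAL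

local notation "Qb" => AlgebraicClosure ℚ

section T8

variable (M p : ℕ) [NeZero M] [NeZero p] [Fact p.Prime] (hpM : ¬ p ∣ M)
  (A : ValuationSubring Qb) (hA : A.LiesOverPrime p) (ℓ : ℕ) [NeZero ℓ]

/-- **T8, ord form**: `h92_T8Out` from (E2) on a set `S = Φ '' Sg`, the eigen-relation of the
class and the pairwise congruence of the node orders. -/
theorem h23_T8Out_of_E2 (hpMℓ : ¬ p ∣ M * ℓ) (hℓ : ℓ.Prime) (hℓM : ¬ ℓ ∣ M)
    (Sg : Finset (Place (IsLocalRing.ResidueField A)
      (modularFunctionFieldFullC (IsLocalRing.ResidueField A) M)))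
    (Φ : Place (IsLocalRing.ResidueField A)
        (modularFunctionFieldFullC (IsLocalRing.ResidueField A) M) →
      Place (IsLocalRing.ResidueField A)
        (modularFunctionFieldFullC (IsLocalRing.ResidueField A) M))
    (S : Set (Place (IsLocalRing.ResidueField A)
      ↥(modularFunctionFieldFullC (IsLocalRing.ResidueField A) M)))
    (hS₁ : ∀ Q ∈ Sg, Φ Q ∈ S) (hS₂ : ∀ ν ∈ S, ∃ Q ∈ Sg, Φ Q = ν)
    (hα : letI := algebraAlong (h10_alphaC (IsLocalRing.ResidueField A) M ℓ)
      haveI := isScalarTower_along (h10_alphaC (IsLocalRing.ResidueField A) M ℓ)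
      haveI := h23_finite_alphaC M A hA ℓ hpMℓ
      ∀ w : Place (IsLocalRing.ResidueField A)
          ↥(modularFunctionFieldFullC (IsLocalRing.ResidueField A) (M * ℓ)),
        w.restrict ↥(modularFunctionFieldFullC (IsLocalRing.ResidueField A) M) ∈ S →
          w.ramificationIndex ↥(modularFunctionFieldFullC (IsLocalRing.ResidueField A) M) = 1)
    (hβ : letI := algebraAlong (h10_alphaC (IsLocalRing.ResidueField A) M ℓ)
      haveI := isScalarTower_along (h10_alphaC (IsLocalRing.ResidueField A) M ℓ)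
      haveI := h23_finite_alphaC M A hA ℓ hpMℓ
      ∀ w : Place (IsLocalRing.ResidueField A)
          ↥(modularFunctionFieldFullC (IsLocalRing.ResidueField A) (M * ℓ)),
        w.restrict ↥(modularFunctionFieldFullC (IsLocalRing.ResidueField A) M) ∈ S →
          ∃ ν₂ ∈ S, ∀ g : ↥(modularFunctionFieldFullC (IsLocalRing.ResidueField A) M),
            w.ord (h2_betaC (IsLocalRing.ResidueField A) M ℓ g) = ν₂.ord g)
    (a : ℤ) (ha : ¬ (p : ℤ) ∣ (ℓ : ℤ) + 1 - a)
    (E : Divisor.degZero (K := Qb) (F := modularFunctionFieldBar (M * p)))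
    (u : ↥(modularFunctionFieldBar (M * p))) (hu : u ≠ 0)
    (hdiv : ∀ v : Place Qb (modularFunctionFieldBar (M * p)),
      (p : ℤ) * (E : Divisor Qb (modularFunctionFieldBar (M * p))) v = v.ord u)
    (hT : heckeOperatorBar (M * p) ⟨ℓ, hℓ⟩ (Pic0.mk E) = a • Pic0.mk E)
    (hdiff : ∀ Q ∈ Sg, ∀ Q' ∈ Sg, (p : ℤ) ∣
      h43_rord (h60_R1 M p hpM A hA) (Φ Q) u - h43_rord (h60_R1 M p hpM A hA) (Φ Q') u) :
    h92_T8Out M p hpM A hA Sg Φ u := by
  intro Q hQ
  refine h23_end_mod_pic M p hpM A hA ℓ hpMℓ hℓ hℓM S hα hβ a ha E u hu hdiv hT ?_ (Φ Q)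
    (hS₁ Q hQ)
  intro ν hν ν' hν'
  obtain ⟨Q₁, hQ₁, rfl⟩ := hS₂ ν hν
  obtain ⟨Q₂, hQ₂, rfl⟩ := hS₂ ν' hν'
  exact hdiff Q₁ hQ₁ Q₂ hQ₂

/-- **T8, ord form**, with `S := Φ '' ↑Sg`. -/
theorem h23_T8Out_of_E2_image (hpMℓ : ¬ p ∣ M * ℓ) (hℓ : ℓ.Prime) (hℓM : ¬ ℓ ∣ M)
    (Sg : Finset (Place (IsLocalRing.ResidueField A)
      (modularFunctionFieldFullC (IsLocalRing.ResidueField A) M)))
    (Φ : Place (IsLocalRing.ResidueField A)
        (modularFunctionFieldFullC (IsLocalRing.ResidueField A) M) →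
      Place (IsLocalRing.ResidueField A)
        (modularFunctionFieldFullC (IsLocalRing.ResidueField A) M))
    (hα : letI := algebraAlong (h10_alphaC (IsLocalRing.ResidueField A) M ℓ)
      haveI := isScalarTower_along (h10_alphaC (IsLocalRing.ResidueField A) M ℓ)
      haveI := h23_finite_alphaC M A hA ℓ hpMℓ
      ∀ w : Place (IsLocalRing.ResidueField A)
          ↥(modularFunctionFieldFullC (IsLocalRing.ResidueField A) (M * ℓ)),
        w.restrict ↥(modularFunctionFieldFullC (IsLocalRing.ResidueField A) M) ∈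
            Φ '' (↑Sg : Set (Place (IsLocalRing.ResidueField A)
              ↥(modularFunctionFieldFullC (IsLocalRing.ResidueField A) M))) →
          w.ramificationIndex ↥(modularFunctionFieldFullC (IsLocalRing.ResidueField A) M) = 1)
    (hβ : letI := algebraAlong (h10_alphaC (IsLocalRing.ResidueField A) M ℓ)
      haveI := isScalarTower_along (h10_alphaC (IsLocalRing.ResidueField A) M ℓ)
      haveI := h23_finite_alphaC M A hA ℓ hpMℓ
      ∀ w : Place (IsLocalRing.ResidueField A)
          ↥(modularFunctionFieldFullC (IsLocalRing.ResidueField A) (M * ℓ)),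
        w.restrict ↥(modularFunctionFieldFullC (IsLocalRing.ResidueField A) M) ∈
            Φ '' (↑Sg : Set (Place (IsLocalRing.ResidueField A)
              ↥(modularFunctionFieldFullC (IsLocalRing.ResidueField A) M))) →
          ∃ ν₂ ∈ Φ '' (↑Sg : Set (Place (IsLocalRing.ResidueField A)
              ↥(modularFunctionFieldFullC (IsLocalRing.ResidueField A) M))),
            ∀ g : ↥(modularFunctionFieldFullC (IsLocalRing.ResidueField A) M),
              w.ord (h2_betaC (IsLocalRing.ResidueField A) M ℓ g) = ν₂.ord g)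
    (a : ℤ) (ha : ¬ (p : ℤ) ∣ (ℓ : ℤ) + 1 - a)
    (E : Divisor.degZero (K := Qb) (F := modularFunctionFieldBar (M * p)))
    (u : ↥(modularFunctionFieldBar (M * p))) (hu : u ≠ 0)
    (hdiv : ∀ v : Place Qb (modularFunctionFieldBar (M * p)),
      (p : ℤ) * (E : Divisor Qb (modularFunctionFieldBar (M * p))) v = v.ord u)
    (hT : heckeOperatorBar (M * p) ⟨ℓ, hℓ⟩ (Pic0.mk E) = a • Pic0.mk E)
    (hdiff : ∀ Q ∈ Sg, ∀ Q' ∈ Sg, (p : ℤ) ∣
      h43_rord (h60_R1 M p hpM A hA) (Φ Q) u - h43_rord (h60_R1 M p hpM A hA) (Φ Q') u) :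
    h92_T8Out M p hpM A hA Sg Φ u :=
  h23_T8Out_of_E2 M p hpM A hA ℓ hpMℓ hℓ hℓM Sg Φ
    (Φ '' (↑Sg : Set (Place (IsLocalRing.ResidueField A)
      ↥(modularFunctionFieldFullC (IsLocalRing.ResidueField A) M))))
    (fun Q hQ => ⟨Q, Finset.mem_coe.mpr hQ, rfl⟩)
    (fun _ hν => by
      obtain ⟨Q, hQ, rfl⟩ := hν
      exact ⟨Q, Finset.mem_coe.mp hQ, rfl⟩)
    hα hβ a ha E u hu hdiv hT hdiff

end T8

end Fermat.Agent.S40

end
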