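/-
S40 / G40, row T8 (END), input (E2) of helper23's `h23_end_unram`, generic core (helper28).

"Nodes are unramified along `ᾱ` and lie unramified over nodes along `β̄`", WITHOUT any lattice
functoriality and without a count: the Hasse function `W` (order `-e` exactly on the nodes,
regular at the cusps, unit elsewhere, at both levels) and one relation `β̄ W = ᾱ W · V` with
`V` a unit off the cusps.  Prelude place API only.
-/
import Mathlib
import Fermat.Prelude.Def_AlgebraicCurve_Correspondence

set_option autoImplicit false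
set_option synthInstance.maxHeartbeats 400000

noncomputable section

open AlgebraicCurve

namespace Fermat.Agent.S40

variable {K F F' : Type*} [Field K] [Field F] [Field F'] [Algebra K F] [Algebra K F']
  [Algebra F F'] [IsScalarTower K F F'] [FiniteDimensional F F']

/-- **(E2), generic.**  `W ∈ F` ("the Hasse function" `red₁ (Δ(pτ)/Δ(τ))`) has order `-e` on the
node places `N`, is regular on the cusps `T` and a unit elsewhere; the same for its image at the
upper level (`N'`, `T'`, nodes are not cusps); and `φ W = W · V` with `V` a unit off the cusps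
(`φ = β̄`, `V = red (Δ(rτ)/Δ(τ)) ^ (p-1)`).  Then every place over a node along `ᾱ` (the algebra
structure) is a node, unramified, and lies unramified over a node along `φ`. -/
theorem h28_e2_gen (φ : F →ₐ[K] F') (hφ : φ.toRingHom.IsIntegral)
    (W : F) (V : F') (e : ℤ) (he : 0 < e)
    (N T : Set (Place K F)) (N' T' : Set (Place K F'))
    (hN : ∀ P ∈ N, P.ord W = -e) (hT : ∀ P ∈ T, 0 ≤ P.ord W)
    (hrest : ∀ P : Place K F, P ∉ T → P ∉ N → P.ord W = 0)
    (hN' : ∀ w ∈ N', w.ord (algebraMap F F' W) = -e) (hNT' : ∀ w ∈ N', w ∉ T')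
    (hT' : ∀ w ∈ T', 0 ≤ w.ord (algebraMap F F' W))
    (hrest' : ∀ w : Place K F', w ∉ T' → w ∉ N' → w.ord (algebraMap F F' W) = 0)
    (hV : ∀ w : Place K F', w ∉ T' → w.ord V = 0)
    (hrel : φ W = algebraMap F F' W * V) :
    (∀ w : Place K F', w.restrict F ∈ N → w ∈ N' ∧ w.ramificationIndex F = 1) ∧
    (∀ w : Place K F', w.restrict F ∈ N → ∃ ν₂ ∈ N, ∀ g : F, w.ord (φ g) = ν₂.ord g) := by
  have hα : ∀ w : Place K F', w.restrict F ∈ N → w ∈ N' ∧ w.ramificationIndex F = 1 := by
    intro w hw
    have h1 := w.ord_restrict (F := F) W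
    rw [hN _ hw] at h1
    have hepos : 0 < w.ramificationIndex F := w.ramificationIndex_pos (F := F)
    have hneg : w.ord (algebraMap F F' W) < 0 := by
      rw [h1]
      have : (0 : ℤ) < (w.ramificationIndex F : ℤ) := by exact_mod_cast hepos
      nlinarith
    have hwT : w ∉ T' := fun h => absurd (hT' w h) (not_le.mpr hneg)
    have hwN : w ∈ N' := by
      by_contra h
      rw [hrest' w hwT h] at hneg
      exact lt_irrefl _ hneg
    refine ⟨hwN, ?_⟩
    rw [hN' w hwN] at h1
    have h2 : ((w.ramificationIndex F : ℤ) - 1) * e = 0 := by linarith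
    rcases mul_eq_zero.mp h2 with h3 | h3
    · have : (w.ramificationIndex F : ℤ) = 1 := by linarith
      exact_mod_cast this
    · exact absurd h3 he.ne'
  refine ⟨hα, ?_⟩
  intro w hw
  obtain ⟨hwN, -⟩ := hα w hw
  have hwT : w ∉ T' := hNT' w hwN
  have hW0 : W ≠ 0 := by
    rintro rfl
    have := hN _ hw
    rw [Place.ord_zero] at this
    linarith
  have hV0 : V ≠ 0 := by
    rintro rfl
    rw [mul_zero] at hrel
    exact hW0 ((map_eq_zero φ).mp hrel)
  have h1 : w.ord (φ W) = -e := by
    rw [hrel, w.ord_mul ((map_ne_zero (algebraMap F F')).mpr hW0) hV0, hN' w hwN, hV w hwT,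
      add_zero]
  have h2 := Place.ord_restrictAlong φ hφ w W
  rw [h1] at h2
  set ν := w.restrictAlong φ hφ with hν
  have hepos : 0 < Place.ramificationIndexAlong φ w := by
    let _ := algebraAlong φ
    have := isScalarTower_along φ
    have := isIntegral_along φ hφ
    exact w.ramificationIndex_pos (F := F)
  have hepos' : (0 : ℤ) < (Place.ramificationIndexAlong φ w : ℤ) := by exact_mod_cast hepos
  have hneg : ν.ord W < 0 := by
    by_contra h
    rw [not_lt] at h
    have : (0 : ℤ) ≤ (Place.ramificationIndexAlong φ w : ℤ) * ν.ord W :=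
      mul_nonneg hepos'.le h
    linarith
  have hνT : ν ∉ T := fun h => absurd (hT ν h) (not_le.mpr hneg)
  have hνN : ν ∈ N := by
    by_contra h
    rw [hrest ν hνT h] at hneg
    exact lt_irrefl _ hneg
  rw [hN ν hνN] at h2
  have h3 : ((Place.ramificationIndexAlong φ w : ℤ) - 1) * e = 0 := by linarith
  have h4 : (Place.ramificationIndexAlong φ w : ℤ) = 1 := by
    rcases mul_eq_zero.mp h3 with h5 | h5
    · linarith
    · exact absurd h5 he.ne'
  refine ⟨ν, hνN, fun g => ?_⟩
  rw [Place.ord_restrictAlong φ hφ w g, h4, one_mul]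

end Fermat.Agent.S40
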