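/-
S40 / G40, row T8, hedge (E2-W), piece (e) **(V-UNIT)** (helper28).

`r` a prime, `r ∤ M`, `Γ₀(M r)` without elliptic elements.  The modular unit
`V = Δ(rτ)/Δ(τ) = ρ_r⁶ J⁴ (J - 1728)³ / (J_r⁴ (J_r - 1728)³) ∈ F(M r)`
(`J_r = j(q^r)`, `ρ_r = (1/r) dJ_r/dJ = h20_rho M r`) has no zero and no pole where `J` is
finite (`h65_unit_u`).  At a prime `p ∤ M r` (good level `M r`, charted) the reduction
`V̄ ∈ Fb(M r)` therefore has order `0` at every place of the special fibre where `j̄` is finite: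
conservation of divisors on the tube (`h60_tube_regAt`).

* `h28_red_ord_zero` : the generic statement (any reduction datum with a chart);
* `h28_VS K r`       : the `q`-series `ρ_r⁶ j⁴ (j - 1728)³ / (j(q^r)⁴ (j(q^r) - 1728)³)` over `K`;
* `h28_V M r`        : the element of `F(M r)` with this series (`h28_coe_V`);
* `h28_V_ord`        : `ord_P V = 0` where `J` is finite (characteristic `0`);
* `h28_V_mem`, `h28_coe_red_V` : `V` is Gauss-integral with reduction series `h28_VS k r`;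
* `h28_vunit`        : **(V-UNIT)**: every `Vb ∈ Fb(M r)` with series `h28_VS k r` has order `0`
  at every place where `j̄` is finite;
* `h28_Vb`, `h28_coe_Vb`, `h28_R1_redF_V` : the element `V̄` itself, and
  `red₁(α_p V) = V̄` for the first-component datum `h60_R1 (M r) p`.
-/
import Mathlib
import Fermat.Agent.S36.h60_HasseCharted
import Fermat.Agent.S36.h65_UnitU2
import Fermat.Agent.S36.h20_Rho
import Fermat.Agent.S34.h60_R1

set_option autoImplicit false
set_option synthInstance.maxHeartbeats 400000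

noncomputable section

open ModularCurve AlgebraicCurve KaehlerDifferential IntermediateField

namespace Fermat.Agent.S40

open Fermat.Agent.S18 Fermat.Agent.S24 Fermat.Agent.S27 Fermat.Agent.S34 Fermat.Agent.S36
  Fermat.Agent.S37

local notation "Qb" => AlgebraicClosure ℚ

/-! ### Generic: no zero or pole on the tube ⟹ the reduction is a unit at the point -/

section Generic

variable {K F k Fb : Type*} [Field K] [Field F] [Algebra K F] [Field k] [Field Fb] [Algebra k Fb]
variable [IsAlgClosed K] [CharZero K] [IsAlgClosed k]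

/-- `R` a reduction datum with a chart `x`, `y` a place of the special fibre where `x̄` is
finite, `J ∈ O` locally regular at `y`.  If `g ∈ O` has nonzero reduction and order `0` at every
place where `J` is finite, then `ḡ` has order `0` at `y`. -/
theorem h28_red_ord_zero (R : h39_RedDatum K F k Fb) {x : F} (hx : h39_Chart R x)
    (y : Place k Fb) (hy : R.redF x ∈ y.toValuationSubring)
    (J : F) (hJO : J ∈ R.O) (hJ : h60_RegAt R x y J)
    (g : F) (hg : g ∈ R.O) (hred : R.red ⟨g, hg⟩ ≠ 0)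
    (hord : ∀ P : Place K F, J ∈ P.toValuationSubring → P.ord g = 0) :
    y.ord (R.red ⟨g, hg⟩) = 0 := by
  classical
  have hw : h39_WeakChart R x := hx.toh39_WeakChart
  have hxK : h75_IsChart K x := h39_weakChart_isChart R hw
  have : HasPrincipalDivisors K F := h75_hasPrincipalDivisors hxK
  obtain ⟨r0, hcons, htube⟩ := h60_tube_regAt R hx
  have hg0 : g ≠ 0 := by
    rintro rfl
    exact hred (map_zero R.red)
  obtain ⟨D, hD, -⟩ := HasPrincipalDivisors.exists_divisor (K := K) (F := F) g hg0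
  rw [← hcons g hg hred D hD y, Finsupp.mapDomain, Finsupp.sum_apply]
  refine Finset.sum_eq_zero fun P _ => ?_
  show (Finsupp.single (r0 P) (D P)) y = 0
  rw [Finsupp.single_apply]
  split_ifs with h
  · obtain ⟨b, -, hbP, -⟩ := htube y hy P h J hJO hJ
    rw [hD P]
    exact hord P (h39_val_mem P hbP)
  · rfl

end Generic

/-! ### The series -/

section Series

variable (K : Type*) [Field K] (r : ℕ) [NeZero r]

/-- The `q`-series `ρ_r⁶ j⁴ (j - 1728)³ / (j(q^r)⁴ (j(q^r) - 1728)³)` (`= Δ(q^r)/Δ(q)`). -/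
def h28_VS : LaurentSeries K :=
  h20_rhoS K r ^ 6 * (jqModC K ^ 4 * (jqModC K - 1728) ^ 3) /
    (qExpand K r (jqModC K) ^ 4 * (qExpand K r (jqModC K) - 1728) ^ 3)

theorem h28_jq_ne_zero : jqModC K ≠ 0 := by
  intro h
  have h1 := coeff_jqModC_neg_one K
  rw [h] at h1
  simp at h1

theorem h28_jq_sub_ne_zero : jqModC K - 1728 ≠ 0 := by
  intro h
  have h1 := coeff_jqModC_neg_one K
  have h2 : (1728 : LaurentSeries K) = algebraMap K (LaurentSeries K) 1728 := (map_ofNat _ 1728).symm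
  have h3 : jqModC K = algebraMap K (LaurentSeries K) 1728 := by
    rw [← h2]
    exact sub_eq_zero.mp h
  rw [h3, algebraMap_laurentSeries_eq_single, HahnSeries.coeff_single_of_ne (by norm_num)] at h1
  exact zero_ne_one h1

theorem h28_jqr_ne_zero : qExpand K r (jqModC K) ≠ 0 := by
  intro h
  exact h28_jq_ne_zero K (qExpand_injective (R := K) r (by rw [h, map_zero]))

theorem h28_jqr_sub_ne_zero : qExpand K r (jqModC K) - 1728 ≠ 0 := by
  intro h
  have h1 : qExpand K r (jqModC K - 1728) = 0 := by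
    rw [map_sub, map_ofNat]
    exact h
  exact h28_jq_sub_ne_zero K (qExpand_injective (R := K) r (by rw [h1, map_zero]))

theorem h28_den_ne_zero :
    qExpand K r (jqModC K) ^ 4 * (qExpand K r (jqModC K) - 1728) ^ 3 ≠ 0 :=
  mul_ne_zero (pow_ne_zero 4 (h28_jqr_ne_zero K r)) (pow_ne_zero 3 (h28_jqr_sub_ne_zero K r))

theorem h28_VS_ne_zero : h28_VS K r ≠ 0 := by
  rw [h28_VS]
  exact div_ne_zero
    (mul_ne_zero (pow_ne_zero 6 (h20_rhoS_ne_zero K r))
      (mul_ne_zero (pow_ne_zero 4 (h28_jq_ne_zero K)) (pow_ne_zero 3 (h28_jq_sub_ne_zero K))))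
    (h28_den_ne_zero K r)

/-- `h28_VS = Δ(q^r)/Δ(q)` for `Δ := (θ j)⁶ / (j⁴ (j - 1728)³)`. -/
theorem h28_VS_delta :
    h28_VS K r * (h20_TJ K ^ 6 * (jqModC K ^ 4 * (jqModC K - 1728) ^ 3)⁻¹) =
      qExpand K r (h20_TJ K ^ 6 * (jqModC K ^ 4 * (jqModC K - 1728) ^ 3)⁻¹) := by
  have h0 := h20_TJ_ne_zero K
  have hj := h28_jq_ne_zero K
  have hj' := h28_jq_sub_ne_zero K
  have hjr := h28_jqr_ne_zero K r
  have hjr' := h28_jqr_sub_ne_zero K r
  rw [h28_VS, h20_rhoS, map_mul, map_pow, map_inv₀, map_mul, map_pow, map_pow, map_sub,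
    map_ofNat]
  field_simp

end Series

/-! ### Integrality of the series -/

section Integral

variable (A : ValuationSubring Qb) (r : ℕ) [NeZero r]

/-- `j` as an element of `h60_Os A`. -/
def h28_jO : h60_Os A :=
  ⟨jqModC Qb, by rw [← coeffMap_jqModC A.subtype]; exact h60_int_mem A _⟩

theorem h28_rs_jO : h60_rs A (h28_jO A) = jqModC (IsLocalRing.ResidueField A) := by
  have h2 : h28_jO A = ⟨coeffMap A.subtype (jqModC A), h60_int_mem A _⟩ :=
    Subtype.ext (coeffMap_jqModC A.subtype).symm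
  rw [h2, h60_rs_int, coeffMap_jqModC]

/-- `j(q^r)` as an element of `h60_Os A`. -/
def h28_jrO : h60_Os A := ⟨qExpand Qb r (jqModC Qb), h60_qExpand_mem A r (h28_jO A).2⟩

theorem h28_rs_jrO :
    h60_rs A (h28_jrO A r) = qExpand (IsLocalRing.ResidueField A) r
      (jqModC (IsLocalRing.ResidueField A)) := by
  have h := h60_rs_qExpand A r (h28_jO A)
  rw [h28_rs_jO] at h
  exact h

/-- The denominator `j(q^r)⁴ (j(q^r) - 1728)³` as an element of `h60_Os A`. -/
def h28_denO : h60_Os A := h28_jrO A r ^ 4 * (h28_jrO A r - 1728) ^ 3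

theorem h28_rs_denO :
    h60_rs A (h28_denO A r) =
      qExpand (IsLocalRing.ResidueField A) r (jqModC (IsLocalRing.ResidueField A)) ^ 4 *
        (qExpand (IsLocalRing.ResidueField A) r (jqModC (IsLocalRing.ResidueField A)) - 1728) ^ 3 := by
  rw [h28_denO, map_mul, map_pow, map_pow, map_sub, map_ofNat, h28_rs_jrO]

theorem h28_rs_denO_ne_zero : h60_rs A (h28_denO A r) ≠ 0 := by
  rw [h28_rs_denO]
  exact h28_den_ne_zero _ r

/-- The series `h28_VS ℚ̄ r` as an element of `h60_Os A`. -/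
def h28_VO : h60_Os A :=
  h20_rhoO A r ^ 6 * (h28_jO A ^ 4 * (h28_jO A - 1728) ^ 3) *
    ⟨((h28_denO A r : h60_Os A) : LaurentSeries Qb)⁻¹,
      h60_inv_mem A (h28_denO A r) (h28_rs_denO_ne_zero A r)⟩

theorem h28_coe_VO : ((h28_VO A r : h60_Os A) : LaurentSeries Qb) = h28_VS Qb r := by
  rw [h28_VS, div_eq_mul_inv]
  rfl

theorem h28_VS_mem : h28_VS Qb r ∈ h60_Os A := by
  rw [← h28_coe_VO A r]
  exact (h28_VO A r).2

/-- **The reduction of the series** is the same series over the residue field. -/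
theorem h28_rs_VO : h60_rs A (h28_VO A r) = h28_VS (IsLocalRing.ResidueField A) r := by
  rw [h28_VO, map_mul, h60_rs_inv A (h28_denO A r) (h28_rs_denO_ne_zero A r), h28_rs_denO,
    map_mul, map_pow, map_mul, map_pow, map_pow, map_sub, map_ofNat, h20_rs_rhoO, h28_rs_jO,
    h28_VS, div_eq_mul_inv]

theorem h28_rs_VS (h : h28_VS Qb r ∈ h60_Os A) :
    h60_rs A ⟨h28_VS Qb r, h⟩ = h28_VS (IsLocalRing.ResidueField A) r := by
  have h2 : (⟨h28_VS Qb r, h⟩ : h60_Os A) = h28_VO A r := Subtype.ext (h28_coe_VO A r).symm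
  rw [h2, h28_rs_VO]

end Integral

/-! ### The function `V ∈ F(M r)` -/

section Mod

open CongruenceSubgroup
open scoped MatrixGroups

variable (M r : ℕ) [NeZero M] [NeZero r]

/-- `V = ρ_r⁶ J⁴ (J - 1728)³ / (J_r⁴ (J_r - 1728)³) ∈ F(M r)` (`= Δ(rτ)/Δ(τ)`). -/
def h28_V : ↥(modularFunctionFieldBar (M * r)) :=
  h20_rho M r ^ 6 * (h59_jbar (M * r) ^ 4 * (h59_jbar (M * r) - 1728) ^ 3) /
    (h20_J1 M r ^ 4 * (h20_J1 M r - 1728) ^ 3)

theorem h28_coe_V :
    ((h28_V M r : ↥(modularFunctionFieldBar (M * r))) : LaurentSeries Qb) = h28_VS Qb r := by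
  have hv : ∀ x : ↥(modularFunctionFieldBar (M * r)),
      (modularFunctionFieldBar (M * r)).val x = (x : LaurentSeries Qb) := fun _ => rfl
  rw [← hv, h28_V]
  simp only [map_div₀, map_mul, map_pow, map_sub, map_ofNat]
  rw [hv, hv, hv, h20_coe_rho, h20_coe_jbar, h20_coe_J1, h28_VS]

theorem h28_V_ne_zero : h28_V M r ≠ 0 := by
  intro h
  have h1 := h28_coe_V M r
  rw [h, IntermediateField.coe_zero] at h1
  exact h28_VS_ne_zero Qb r h1.symm

/-- **Characteristic `0`**: `V` has no zero and no pole where `J` is finite. -/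
theorem h28_V_ord [Fact r.Prime] (hrM : ¬ r ∣ M)
    (hEll : ∀ g : SL(2, ℤ), g⁻¹ * ModularGroup.S * g ∉ Gamma0 (M * r) ∧
      g⁻¹ * (ModularGroup.S * ModularGroup.T) * g ∉ Gamma0 (M * r))
    (P : Place Qb ↥(modularFunctionFieldBar (M * r)))
    (hP : h59_jbar (M * r) ∈ P.toValuationSubring) :
    P.ord (h28_V M r) = 0 := by
  obtain ⟨δ, -, -, hδ⟩ := h73_exists_derivation (h88_isFF (M * r))
    (h59_jbar_transcendental (M * r))
  have huniq : ∀ f, h20_dJ (M * r) f = δ f := by
    intro f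
    have h1 := (h20_dJ (M * r)).liftKaehlerDifferential_comp_D f
    rw [hδ f, map_smul, Derivation.liftKaehlerDifferential_comp_D, h20_dJ_j, smul_eq_mul,
      mul_one] at h1
    exact h1.symm
  have hr0 : ((r : ℕ) : ↥(modularFunctionFieldBar (M * r))) ≠ 0 :=
    Nat.cast_ne_zero.mpr (NeZero.ne r)
  have hρ : D Qb ↥(modularFunctionFieldBar (M * r)) (h60_w M r hrM (h59_jbar (M * r)))
      = (((r : ℕ) : ↥(modularFunctionFieldBar (M * r))) * h20_rho M r) •
        D Qb ↥(modularFunctionFieldBar (M * r)) (h59_jbar (M * r)) := by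
    rw [h20_w_J0, hδ (h20_J1 M r), ← huniq, h20_rho, mul_inv_cancel_left₀ hr0]
  have h := h65_unit_u M r hrM hEll _ hρ P hP
  rw [h20_w_J0] at h
  have e : (((r : ℕ) : ↥(modularFunctionFieldBar (M * r))) * h20_rho M r) ^ 6 *
        (h59_jbar (M * r) ^ 4 * (h59_jbar (M * r) - 1728) ^ 3) /
        (h20_J1 M r ^ 4 * (h20_J1 M r - 1728) ^ 3)
      = algebraMap Qb ↥(modularFunctionFieldBar (M * r)) ((r : Qb) ^ 6) * h28_V M r := by
    rw [h28_V, map_pow, map_natCast]
    ring
  rw [e, P.ord_mul ((map_ne_zero _).mpr (pow_ne_zero 6 (Nat.cast_ne_zero.mpr (NeZero.ne r))))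
    (h28_V_ne_zero M r), h73_ord_algebraMap, zero_add] at h
  exact h

/-! ### Reduction at a good prime -/

variable (A : ValuationSubring Qb)
  {R : h39_RedDatum Qb ↥(modularFunctionFieldBar (M * r)) (IsLocalRing.ResidueField A)
      ↥(modularFunctionFieldFullC (IsLocalRing.ResidueField A) (M * r))}

theorem h28_V_mem (hR : h54_IsModRed (M * r) A R) : h28_V M r ∈ R.O := by
  rw [hR.mem_iff, h28_coe_V]
  exact h28_VS_mem A r

/-- The reduction of `V` has the series `h28_VS k r`. -/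
theorem h28_coe_red_V (hR : h54_IsModRed (M * r) A R) (hV : h28_V M r ∈ R.O) :
    ((R.red ⟨h28_V M r, hV⟩ :
        ↥(modularFunctionFieldFullC (IsLocalRing.ResidueField A) (M * r))) :
          LaurentSeries (IsLocalRing.ResidueField A))
      = h28_VS (IsLocalRing.ResidueField A) r := by
  obtain ⟨y₁, y₂, hy, h⟩ := (hR.mem_iff (h28_V M r)).mp hV
  have h1 := hR.red_eq (h28_V M r) hV y₁ y₂ h
  have hmem : ((h28_V M r : ↥(modularFunctionFieldBar (M * r))) : LaurentSeries Qb) ∈ h60_Os A :=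
    ⟨y₁, y₂, hy, h⟩
  have h2 := (h60_rs_eq A ⟨_, hmem⟩ y₁ y₂ hy h _ h1).symm
  rw [h2]
  have h3 : (⟨((h28_V M r : ↥(modularFunctionFieldBar (M * r))) : LaurentSeries Qb), hmem⟩ :
      h60_Os A) = h28_VO A r := Subtype.ext ((h28_coe_V M r).trans (h28_coe_VO A r).symm)
  rw [h3, h28_rs_VO]

theorem h28_red_V_ne_zero (hR : h54_IsModRed (M * r) A R) (hV : h28_V M r ∈ R.O) :
    R.red ⟨h28_V M r, hV⟩ ≠ 0 := by
  intro h0
  have h1 := h28_coe_red_V M r A hR hV
  rw [h0, IntermediateField.coe_zero] at h1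
  exact h28_VS_ne_zero _ r h1.symm

end Mod

/-! ### (V-UNIT) -/

section Top

variable (M r p : ℕ) [NeZero M] [NeZero r] [Fact r.Prime] [Fact p.Prime]

/-- **(V-UNIT)**, series form.  `r` prime, `r ∤ M`, `p ∤ M r`, level `M r` charted at `p` and
without elliptic points.  Every element `Vb` of `Fb(M r)` whose `q`-series is `h28_VS k r`
(`= Δ̄(q^r)/Δ̄(q)`) has order `0` at every place of `Fb(M r)` where `j̄` is finite. -/
theorem h28_vunit (hrM : ¬ r ∣ M) (hp : ¬ p ∣ M * r) (hch : 5 ≤ p ∨ 2 ∣ M ∨ 3 ∣ M)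
    (h2 : nuTwo M = 0) (h3 : nuThree M = 0)
    (A : ValuationSubring Qb) (hA : A.LiesOverPrime p)
    (y : Place (IsLocalRing.ResidueField A)
      ↥(modularFunctionFieldFullC (IsLocalRing.ResidueField A) (M * r)))
    (hy : h54_jk (IsLocalRing.ResidueField A) (M * r) ∈ y.toValuationSubring)
    (Vb : ↥(modularFunctionFieldFullC (IsLocalRing.ResidueField A) (M * r)))
    (hVb : (Vb : LaurentSeries (IsLocalRing.ResidueField A))
      = h28_VS (IsLocalRing.ResidueField A) r) :
    y.ord Vb = 0 := by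
  have : IsAlgClosed (IsLocalRing.ResidueField A) := h19_residueField_isAlgClosed A
  have hR := h54_isModRed (M * r) hp A hA
  have hV := h28_V_mem M r A hR
  have hVb' : Vb = (h54_redDatum (M * r) hp A hA).red ⟨h28_V M r, hV⟩ :=
    Subtype.ext (hVb.trans (h28_coe_red_V M r A hR hV).symm)
  have hred := h28_red_V_ne_zero M r A hR hV
  have hEll := h65_noEll_of_nu (M * r) M (Dvd.intro _ rfl) h2 h3
  have hord : ∀ P : Place Qb ↥(modularFunctionFieldBar (M * r)),
      h59_jbar (M * r) ∈ P.toValuationSubring → P.ord (h28_V M r) = 0 :=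
    fun P hP => h28_V_ord M r hrM hEll P hP
  have hJO : h59_jbar (M * r) ∈ (h54_redDatum (M * r) hp A hA).O :=
    hR.mem_of_integral _ _ (h54_coe_jbar (M * r) A)
  have hredJ : (h54_redDatum (M * r) hp A hA).redF (h59_jbar (M * r))
      = h54_jk (IsLocalRing.ResidueField A) (M * r) := h54_redF_jbar hR
  rw [hVb']
  rcases hch with h5 | h2M | h3M
  · have hchart := h54_chart_j (M * r) hp h5 A hA
    exact h28_red_ord_zero _ hchart y (by rw [hredJ]; exact hy) _ hJO
      (h60_regAt_of_reg _ _ y hJO (fun _ h => h)) _ hV hred hord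
  · have h2M' : 2 ∣ M * r := Dvd.dvd.mul_right h2M r
    have h2k : (2 : IsLocalRing.ResidueField A) ≠ 0 := by
      have := h60_prime_ne_zero_res p A hA 2 Nat.prime_two (fun h => hp (h ▸ h2M'))
      exact_mod_cast this
    have hchart := h54_chart_h2 (M * r) h2M' hp A hA
    obtain ⟨cx, -, hcx, hJreg⟩ := h60_regAt_h2 (M * r) A hR h2M' hchart h2k y hy
    exact h28_red_ord_zero _ hchart y (h39_val_mem y hcx) _ hJO hJreg _ hV hred hord
  · have h3M' : 3 ∣ M * r := Dvd.dvd.mul_right h3M r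
    have h3k : (3 : IsLocalRing.ResidueField A) ≠ 0 := by
      have := h60_prime_ne_zero_res p A hA 3 Nat.prime_three (fun h => hp (h ▸ h3M'))
      exact_mod_cast this
    have hchart := h54_chart_h3 (M * r) h3M' hp A hA
    obtain ⟨cx, -, hcx, hJreg⟩ := h60_regAt_h3 (M * r) A hR h3M' hchart h3k y hy
    exact h28_red_ord_zero _ hchart y (h39_val_mem y hcx) _ hJO hJreg _ hV hred hord

/-- `V̄ ∈ Fb(M r)`: the reduction of `V` at the good level `M r`. -/
def h28_Vb (hp : ¬ p ∣ M * r) (A : ValuationSubring Qb) (hA : A.LiesOverPrime p) :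
    ↥(modularFunctionFieldFullC (IsLocalRing.ResidueField A) (M * r)) :=
  (h54_redDatum (M * r) hp A hA).redF (h28_V M r)

omit [Fact r.Prime] in
theorem h28_coe_Vb (hp : ¬ p ∣ M * r) (A : ValuationSubring Qb) (hA : A.LiesOverPrime p) :
    ((h28_Vb M r p hp A hA :
        ↥(modularFunctionFieldFullC (IsLocalRing.ResidueField A) (M * r))) :
          LaurentSeries (IsLocalRing.ResidueField A))
      = h28_VS (IsLocalRing.ResidueField A) r := by
  have hR := h54_isModRed (M * r) hp A hA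
  rw [h28_Vb, (h54_redDatum (M * r) hp A hA).redF_of_mem (h28_V_mem M r A hR),
    h28_coe_red_V M r A hR]

omit [Fact r.Prime] in
theorem h28_Vb_ne_zero (hp : ¬ p ∣ M * r) (A : ValuationSubring Qb) (hA : A.LiesOverPrime p) :
    h28_Vb M r p hp A hA ≠ 0 := by
  intro h0
  have h1 := h28_coe_Vb M r p hp A hA
  rw [h0, IntermediateField.coe_zero] at h1
  exact h28_VS_ne_zero _ r h1.symm

/-- **(V-UNIT)** for `V̄` itself, with the finiteness of `j̄` stated through the order. -/
theorem h28_Vb_ord (hrM : ¬ r ∣ M) (hp : ¬ p ∣ M * r) (hch : 5 ≤ p ∨ 2 ∣ M ∨ 3 ∣ M)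
    (h2 : nuTwo M = 0) (h3 : nuThree M = 0)
    (A : ValuationSubring Qb) (hA : A.LiesOverPrime p)
    (y : Place (IsLocalRing.ResidueField A)
      ↥(modularFunctionFieldFullC (IsLocalRing.ResidueField A) (M * r)))
    (hy : 0 ≤ y.ord (h54_jk (IsLocalRing.ResidueField A) (M * r))) :
    y.ord (h28_Vb M r p hp A hA) = 0 :=
  h28_vunit M r p hrM hp hch h2 h3 A hA y (h73_mem_of_ord_nonneg y hy) _
    (h28_coe_Vb M r p hp A hA)

/-- **(V-UNIT)** in the shape of `hV` of `h28_e2_gen` (`T' = {w | ord_w j̄ < 0}`,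
`V := V̄ ^ n`). -/
theorem h28_Vb_pow_ord (hrM : ¬ r ∣ M) (hp : ¬ p ∣ M * r) (hch : 5 ≤ p ∨ 2 ∣ M ∨ 3 ∣ M)
    (h2 : nuTwo M = 0) (h3 : nuThree M = 0)
    (A : ValuationSubring Qb) (hA : A.LiesOverPrime p) (n : ℕ)
    (y : Place (IsLocalRing.ResidueField A)
      ↥(modularFunctionFieldFullC (IsLocalRing.ResidueField A) (M * r)))
    (hy : y ∉ {w : Place (IsLocalRing.ResidueField A)
      ↥(modularFunctionFieldFullC (IsLocalRing.ResidueField A) (M * r)) |
        w.ord (h54_jk (IsLocalRing.ResidueField A) (M * r)) < 0}) :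
    y.ord (h28_Vb M r p hp A hA ^ n) = 0 := by
  rw [h36_ord_pow, h28_Vb_ord M r p hrM hp hch h2 h3 A hA y (not_lt.mp hy), mul_zero]

omit [Fact r.Prime] in
/-- `red₁(α_p V) = V̄` for the first-component datum of level `(M r) p`. -/
theorem h28_R1_redF_V [NeZero p] (hp : ¬ p ∣ M * r) (A : ValuationSubring Qb)
    (hA : A.LiesOverPrime p) :
    (h60_R1 (M * r) p hp A hA).redF (heckeAlphaBar Qb (M * r) p (h28_V M r))
      = h28_Vb M r p hp A hA := by
  have hc : ((heckeAlphaBar Qb (M * r) p (h28_V M r) :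
      ↥(modularFunctionFieldBar (M * r * p))) : LaurentSeries Qb) = h28_VS Qb r := by
    rw [coe_heckeAlphaBar]
    exact h28_coe_V M r
  have hmem : heckeAlphaBar Qb (M * r) p (h28_V M r) ∈ (h60_R1 (M * r) p hp A hA).O := by
    rw [h60_R1_mem_iff_Os, hc]
    exact h28_VS_mem A r
  apply Subtype.ext
  rw [(h60_R1 (M * r) p hp A hA).redF_of_mem hmem, h60_R1_coe_red, h28_coe_Vb]
  have h3 : (⟨((heckeAlphaBar Qb (M * r) p (h28_V M r) :
      ↥(modularFunctionFieldBar (M * r * p))) : LaurentSeries Qb),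
        (h60_R1_mem_iff_Os (M * r) p hp A hA _).mp hmem⟩ : h60_Os A) = h28_VO A r :=
    Subtype.ext (hc.trans (h28_coe_VO A r).symm)
  rw [h3, h28_rs_VO]

end Top

end Fermat.Agent.S40

end
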