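import Mathlib
import Fermat.Agent.S36.h20_Rho
import Fermat.Agent.S36.h64_LevelOne
import Fermat.Agent.S40.h10_NormRedMod

/-!
# S40, T8 hedge (E2-W): the function `W = red₁(Δ(pτ)/Δ(τ))` on the special fibre (helper58)

`Δ` is used only through the `q`-series `h58_DeltaS K = (θ j)⁶ / (j⁴ (j - 1728)³)`.

* series level: `h58_XS`, `h58_DeltaS`, `h58_US K n = Δ(qⁿ)/Δ(q)`, `h58_VS K r = r⁶ Δ(q^r)/Δ(q)`;
  integrality over a valuation ring `A` of `ℚ̄` and reductions (`h58_rs_UO`, `h58_rs_VO`);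
  in characteristic `p`: `h58_US k p = Δ̄ ^ (p - 1)` (`h58_US_char`);
* `h58_u L n : F(L n)`, the modular unit `ρ⁶ J⁴ (J - 1728)³ / (J₁⁴ (J₁ - 1728)³)` with expansion
  `h58_US ℚ̄ n`; for a prime `p ∤ L`: `h58_u L p ∈ O₁` and the expansion of `red₁ (h58_u L p)`
  is `Δ̄ ^ (p - 1)`;
* `h58_IsW k p s` : `s * (j⁴ (j - 1728)³) ^ (p - 1) = (θ j) ^ (6 (p - 1))`, i.e. `s = Δ̄ ^ (p-1)`;
* **(b)** `h58_W_cusp` : a function `W` on the special fibre of level `L` with expansion
  `Δ̄ ^ (p - 1)` has order `-(p - 1) ord_P j̄ ≥ 0` at every pole `P` of `j̄`;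
* **(c)** `h58_W_alpha` : `ᾱ W_M = W_{M r}`;
* **(d)** `h58_W_beta` : `β̄ W_M = W_{M r} * V̄ ^ (p - 1)` for `V̄` with expansion
  `r⁶ Δ̄(q^r)/Δ̄(q)`.
-/

set_option autoImplicit false
set_option synthInstance.maxHeartbeats 400000
set_option linter.style.haveILetI false

noncomputable section

open ModularCurve AlgebraicCurve IntermediateField

namespace Fermat.Agent.S40

open Fermat.Agent.S18 Fermat.Agent.S24 Fermat.Agent.S28 Fermat.Agent.S34 Fermat.Agent.S36
  Fermat.Agent.S37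

local notation "Qb" => AlgebraicClosure ℚ

/-! ### Series level -/

section SeriesRing

variable (R : Type*) [CommRing R]

/-- `j⁴ (j - 1728)³` as a `q`-series. -/
def h58_XS : LaurentSeries R := jqModC R ^ 4 * (jqModC R - 1728) ^ 3

variable {R} in
theorem h58_coeffMap_XS {S : Type*} [CommRing S] (φ : R →+* S) :
    coeffMap φ (h58_XS R) = h58_XS S := by
  rw [h58_XS, map_mul, map_pow, map_pow, map_sub, coeffMap_jqModC, map_ofNat, h58_XS]

theorem h58_LT_TJ : h33_LT (h20_TJ R) (-1) (-1) := by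
  refine ⟨h20_TJ_coeff_neg_one R, fun m hm => ?_⟩
  rw [h20_TJ, h20_thetaFun_coeff, (h33_LT_jqModC (A := R)).2 m hm, mul_zero]

theorem h58_LT_jsub : h33_LT (jqModC R - 1728) (-1) 1 := by
  have h1 := h33_LT_jqModC (A := R)
  have h2 := h33_LT_natCast (A := R) 1728
  have hc : ((1728 : ℕ) : LaurentSeries R) = 1728 := by norm_cast
  rw [hc] at h2
  refine ⟨?_, fun m hm => ?_⟩
  · rw [HahnSeries.coeff_sub, h1.1, h2.2 (-1) (by norm_num), sub_zero]
  · rw [HahnSeries.coeff_sub, h1.2 m hm, h2.2 m (by omega), sub_zero]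

theorem h58_LT_XS : h33_LT (h58_XS R) (-7) 1 := by
  have h := h33_LT_mul (h33_LT_pow (h33_LT_jqModC (A := R)) 4) (h33_LT_pow (h58_LT_jsub R) 3)
  exact h33_LT_congr h (by norm_num) (by norm_num)

end SeriesRing

section SeriesField

variable (K : Type*) [Field K]

theorem h58_XS_ne_zero : h58_XS K ≠ 0 := (h33_LT_order (h58_LT_XS K) one_ne_zero).2

theorem h58_XS_order : (h58_XS K).order = -7 := (h33_LT_order (h58_LT_XS K) one_ne_zero).1

theorem h58_TJ_order : (h20_TJ K).order = -1 :=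
  (h33_LT_order (h58_LT_TJ K) (neg_ne_zero.mpr one_ne_zero)).1

/-- `Δ = (θ j)⁶ / (j⁴ (j - 1728)³)` as a `q`-series. -/
def h58_DeltaS : LaurentSeries K := h20_TJ K ^ 6 * (h58_XS K)⁻¹

theorem h58_DeltaS_mul : h58_DeltaS K * h58_XS K = h20_TJ K ^ 6 := by
  rw [h58_DeltaS, mul_assoc, inv_mul_cancel₀ (h58_XS_ne_zero K), mul_one]

theorem h58_DeltaS_ne_zero : h58_DeltaS K ≠ 0 :=
  mul_ne_zero (pow_ne_zero _ (h20_TJ_ne_zero K)) (inv_ne_zero (h58_XS_ne_zero K))

theorem h58_DeltaS_order : (h58_DeltaS K).order = 1 := by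
  have h := congrArg HahnSeries.order (h58_DeltaS_mul K)
  rw [HahnSeries.order_mul (h58_DeltaS_ne_zero K) (h58_XS_ne_zero K), h58_XS_order,
    HahnSeries.order_pow, h58_TJ_order] at h
  simp only [nsmul_eq_mul] at h
  push_cast at h
  linarith

variable {K} in
theorem h58_coeffMap_DeltaS {K' : Type*} [Field K'] (φ : K →+* K') :
    coeffMap φ (h58_DeltaS K) = h58_DeltaS K' := by
  rw [h58_DeltaS, map_mul, map_pow, map_inv₀, h20_coeffMap_TJ, h58_coeffMap_XS, h58_DeltaS]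

/-- `Δ(qⁿ) / Δ(q)` as a `q`-series. -/
def h58_US (n : ℕ) [NeZero n] : LaurentSeries K :=
  qExpand K n (h58_DeltaS K) * (h58_DeltaS K)⁻¹

theorem h58_US_mul (n : ℕ) [NeZero n] :
    h58_US K n * h58_DeltaS K = qExpand K n (h58_DeltaS K) := by
  rw [h58_US, mul_assoc, inv_mul_cancel₀ (h58_DeltaS_ne_zero K), mul_one]

/-- `r⁶ Δ(q^r) / Δ(q)` as a `q`-series. -/
def h58_VS (r : ℕ) [NeZero r] : LaurentSeries K := (r : LaurentSeries K) ^ 6 * h58_US K r

theorem h58_VS_mul (r : ℕ) [NeZero r] :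
    h58_VS K r * h58_DeltaS K = (r : LaurentSeries K) ^ 6 * qExpand K r (h58_DeltaS K) := by
  rw [h58_VS, mul_assoc, h58_US_mul]

/-- The expansion of `ρⁿ⁶ J⁴ (J - 1728)³ / (J₁⁴ (J₁ - 1728)³)`. -/
theorem h58_US_eq (n : ℕ) [NeZero n] :
    h58_US K n = h20_rhoS K n ^ 6 * h58_XS K / (qExpand K n (jqModC K) ^ 4 *
      (qExpand K n (jqModC K) - 1728) ^ 3) := by
  have hX : qExpand K n (h58_XS K) = qExpand K n (jqModC K) ^ 4 *
      (qExpand K n (jqModC K) - 1728) ^ 3 := by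
    rw [h58_XS, map_mul, map_pow, map_pow, map_sub, map_ofNat]
  have hX0 : qExpand K n (h58_XS K) ≠ 0 := fun h =>
    h58_XS_ne_zero K (qExpand_injective (R := K) n (by rw [h, map_zero]))
  have hT0 := h20_TJ_ne_zero K
  have hXS0 := h58_XS_ne_zero K
  rw [← hX, h58_US, h58_DeltaS, map_mul, map_pow, map_inv₀, h20_rhoS]
  field_simp

end SeriesField

section SeriesChar

variable (k : Type*) [Field k] (p : ℕ) [NeZero p] [Fact p.Prime] [CharP k p]

/-- In characteristic `p`: `Δ̄(q^p) = Δ̄ ^ p`. -/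
theorem h58_DeltaS_pow_char : qExpand k p (h58_DeltaS k) = h58_DeltaS k ^ p := by
  rw [h87_pow_char k p (h58_DeltaS k), h58_coeffMap_DeltaS]

/-- In characteristic `p`: `Δ̄(q^p)/Δ̄(q) = Δ̄ ^ (p - 1)`. -/
theorem h58_US_char : h58_US k p = h58_DeltaS k ^ (p - 1) := by
  have hq : p = (p - 1) + 1 := (Nat.succ_pred_eq_of_pos (Fact.out : p.Prime).pos).symm
  have h0 := h58_DeltaS_ne_zero k
  rw [h58_US, h58_DeltaS_pow_char k p]
  conv_lhs => rw [hq, pow_succ]
  rw [mul_assoc, mul_inv_cancel₀ h0, mul_one]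

omit [NeZero p] in
/-- `r ^ (p - 1) = 1` in `k((q))` for `p ∤ r`. -/
theorem h58_natCast_pow_char (r : ℕ) (hpr : ¬ p ∣ r) :
    (r : LaurentSeries k) ^ (p - 1) = 1 := by
  have h1 : ((r : ZMod p)) ^ (p - 1) = 1 :=
    ZMod.pow_card_sub_one_eq_one (fun h => hpr ((ZMod.natCast_eq_zero_iff r p).mp h))
  have h2 := congrArg ((algebraMap k (LaurentSeries k)).comp (ZMod.castHom (dvd_refl p) k)) h1
  rwa [map_pow, map_natCast, map_one] at h2

end SeriesChar

/-! ### Integrality over `ℚ̄` and reduction -/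

section Integral

variable (A : ValuationSubring Qb)

/-- `j` as an element of `h60_Os A`. -/
def h58_jO : h60_Os A :=
  ⟨jqModC Qb, by rw [← coeffMap_jqModC A.subtype]; exact h60_int_mem A _⟩

theorem h58_rs_jO : h60_rs A (h58_jO A) = jqModC (IsLocalRing.ResidueField A) := by
  have h2 : h58_jO A = ⟨coeffMap A.subtype (jqModC A), h60_int_mem A _⟩ :=
    Subtype.ext (coeffMap_jqModC A.subtype).symm
  rw [h2, h60_rs_int, coeffMap_jqModC]

/-- `j⁴ (j - 1728)³` as an element of `h60_Os A`. -/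
def h58_XO : h60_Os A := h58_jO A ^ 4 * (h58_jO A - 1728) ^ 3

theorem h58_coe_XO : ((h58_XO A : h60_Os A) : LaurentSeries Qb) = h58_XS Qb := rfl

theorem h58_rs_XO : h60_rs A (h58_XO A) = h58_XS (IsLocalRing.ResidueField A) := by
  rw [h58_XO, map_mul, map_pow, map_pow, map_sub, h58_rs_jO, map_ofNat, h58_XS]

theorem h58_rs_XO_ne_zero : h60_rs A (h58_XO A) ≠ 0 := by
  rw [h58_rs_XO]
  exact h58_XS_ne_zero _

/-- `1 / (j⁴ (j - 1728)³)` as an element of `h60_Os A`. -/
def h58_XinvO : h60_Os A :=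
  ⟨(h58_XS Qb)⁻¹, h60_inv_mem A (h58_XO A) (h58_rs_XO_ne_zero A)⟩

theorem h58_rs_XinvO :
    h60_rs A (h58_XinvO A) = (h58_XS (IsLocalRing.ResidueField A))⁻¹ := by
  have h := h60_rs_inv A (h58_XO A) (h58_rs_XO_ne_zero A)
  rw [h58_rs_XO] at h
  exact h

/-- `Δ` as an element of `h60_Os A`. -/
def h58_DeltaO : h60_Os A := h20_TJO A ^ 6 * h58_XinvO A

theorem h58_coe_DeltaO : ((h58_DeltaO A : h60_Os A) : LaurentSeries Qb) = h58_DeltaS Qb := rfl

theorem h58_rs_DeltaO :
    h60_rs A (h58_DeltaO A) = h58_DeltaS (IsLocalRing.ResidueField A) := by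
  rw [h58_DeltaO, map_mul, map_pow, h20_rs_TJO, h58_rs_XinvO, h58_DeltaS]

theorem h58_rs_DeltaO_ne_zero : h60_rs A (h58_DeltaO A) ≠ 0 := by
  rw [h58_rs_DeltaO]
  exact h58_DeltaS_ne_zero _

/-- `Δ(qⁿ)/Δ(q)` as an element of `h60_Os A`. -/
def h58_UO (n : ℕ) [NeZero n] : h60_Os A :=
  ⟨qExpand Qb n (h58_DeltaS Qb), h60_qExpand_mem A n (h58_DeltaO A).2⟩ *
    ⟨(h58_DeltaS Qb)⁻¹, h60_inv_mem A (h58_DeltaO A) (h58_rs_DeltaO_ne_zero A)⟩

theorem h58_coe_UO (n : ℕ) [NeZero n] :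
    ((h58_UO A n : h60_Os A) : LaurentSeries Qb) = h58_US Qb n := rfl

theorem h58_US_mem (n : ℕ) [NeZero n] : h58_US Qb n ∈ h60_Os A := (h58_UO A n).2

/-- **The reduction of `Δ(qⁿ)/Δ(q)`** is the same series over the residue field. -/
theorem h58_rs_UO (n : ℕ) [NeZero n] :
    h60_rs A (h58_UO A n) = h58_US (IsLocalRing.ResidueField A) n := by
  have h1 := h60_rs_qExpand A n (h58_DeltaO A)
  have h2 := h60_rs_inv A (h58_DeltaO A) (h58_rs_DeltaO_ne_zero A)
  rw [h58_rs_DeltaO] at h1 h2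
  rw [h58_UO, map_mul, h58_US]
  exact congrArg₂ (· * ·) h1 h2

/-- `r⁶ Δ(q^r)/Δ(q)` as an element of `h60_Os A`. -/
def h58_VO (r : ℕ) [NeZero r] : h60_Os A := (r : h60_Os A) ^ 6 * h58_UO A r

theorem h58_coe_VO (r : ℕ) [NeZero r] :
    ((h58_VO A r : h60_Os A) : LaurentSeries Qb) = h58_VS Qb r := rfl

theorem h58_VS_mem (r : ℕ) [NeZero r] : h58_VS Qb r ∈ h60_Os A := (h58_VO A r).2

theorem h58_rs_VO (r : ℕ) [NeZero r] :
    h60_rs A (h58_VO A r) = h58_VS (IsLocalRing.ResidueField A) r := by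
  rw [h58_VO, map_mul, map_pow, map_natCast, h58_rs_UO, h58_VS]

end Integral

/-! ### The modular unit `Δ(nτ)/Δ(τ)` -/

section Unit

variable (L n : ℕ) [NeZero L] [NeZero n]

/-- The modular unit `Δ(nτ)/Δ(τ) = ρ⁶ J⁴ (J - 1728)³ / (J₁⁴ (J₁ - 1728)³)` of level `L n`
(`ρ = h20_rho L n`, `J = j(q)`, `J₁ = j(qⁿ)`). -/
def h58_u : ↥(modularFunctionFieldBar (L * n)) :=
  h20_rho L n ^ 6 * (h59_jbar (L * n) ^ 4 * (h59_jbar (L * n) - 1728) ^ 3) /
    (h20_J1 L n ^ 4 * (h20_J1 L n - 1728) ^ 3)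

/-- The expansion of the modular unit is `Δ(qⁿ)/Δ(q)`. -/
theorem h58_coe_u :
    ((h58_u L n : ↥(modularFunctionFieldBar (L * n))) : LaurentSeries Qb) = h58_US Qb n := by
  have h1728 : (((1728 : ↥(modularFunctionFieldBar (L * n))) :
      ↥(modularFunctionFieldBar (L * n))) : LaurentSeries Qb) = 1728 :=
    map_ofNat (modularFunctionFieldBar (L * n)).val 1728
  rw [h58_US_eq, h58_u, h58_XS]
  push_cast
  rw [h20_coe_rho, h20_coe_jbar, h20_coe_J1, h1728]

/-- `r⁶ Δ(rτ)/Δ(τ)`: the modular unit in the normalisation `d(w J) = ρ' dJ`. -/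
def h58_V : ↥(modularFunctionFieldBar (L * n)) :=
  (n : ↥(modularFunctionFieldBar (L * n))) ^ 6 * h58_u L n

theorem h58_coe_V :
    ((h58_V L n : ↥(modularFunctionFieldBar (L * n))) : LaurentSeries Qb) = h58_VS Qb n := by
  rw [h58_V, h58_VS]
  push_cast
  rw [h58_coe_u]

/-- `h58_V` in the shape of `h65_unit_u`, with `ρ' = n ρ`. -/
theorem h58_V_eq :
    h58_V L n = ((n : ↥(modularFunctionFieldBar (L * n))) * h20_rho L n) ^ 6 *
      (h59_jbar (L * n) ^ 4 * (h59_jbar (L * n) - 1728) ^ 3) /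
        (h20_J1 L n ^ 4 * (h20_J1 L n - 1728) ^ 3) := by
  rw [h58_V, h58_u]
  ring

end Unit

/-! ### The predicate "`s = Δ̄ ^ (p - 1)`" -/

section IsW

variable (k : Type*) [Field k] (p : ℕ)

/-- `s` is the series `Δ̄ ^ (p - 1)`, in the multiplied-out form
`s * (j⁴ (j - 1728)³) ^ (p - 1) = (θ j) ^ (6 (p - 1))` (the shape of the (U) identity). -/
def h58_IsW (s : LaurentSeries k) : Prop :=
  s * h58_XS k ^ (p - 1) = h20_TJ k ^ (6 * (p - 1))

theorem h58_isW_iff (s : LaurentSeries k) : h58_IsW k p s ↔ s = h58_DeltaS k ^ (p - 1) := by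
  have hX : h58_XS k ^ (p - 1) ≠ 0 := pow_ne_zero _ (h58_XS_ne_zero k)
  have hD : h58_DeltaS k ^ (p - 1) * h58_XS k ^ (p - 1) = h20_TJ k ^ (6 * (p - 1)) := by
    rw [← mul_pow, h58_DeltaS_mul, ← pow_mul]
  unfold h58_IsW
  constructor
  · intro h
    exact mul_right_cancel₀ hX (h.trans hD.symm)
  · rintro rfl
    exact hD

theorem h58_isW_DeltaS : h58_IsW k p (h58_DeltaS k ^ (p - 1)) := (h58_isW_iff k p _).mpr rfl

variable {k p} in
theorem h58_isW_ne_zero {s : LaurentSeries k} (h : h58_IsW k p s) : s ≠ 0 := by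
  rw [(h58_isW_iff k p s).mp h]
  exact pow_ne_zero _ (h58_DeltaS_ne_zero k)

variable {k p} in
theorem h58_isW_order {s : LaurentSeries k} (h : h58_IsW k p s) :
    s.order = ((p - 1 : ℕ) : ℤ) := by
  rw [(h58_isW_iff k p s).mp h, HahnSeries.order_pow, h58_DeltaS_order]
  simp

variable {k p} in
/-- Two series with the property are equal. -/
theorem h58_isW_unique {s s' : LaurentSeries k} (h : h58_IsW k p s) (h' : h58_IsW k p s') :
    s = s' := by
  rw [(h58_isW_iff k p s).mp h, (h58_isW_iff k p s').mp h']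

variable {k p} in
/-- **(d), series form**: `(Δ̄^(p-1))(q^r) = Δ̄^(p-1) * v^(p-1)` for `v = r⁶ Δ̄(q^r)/Δ̄(q)`. -/
theorem h58_isW_qExpand [Fact p.Prime] [CharP k p] (r : ℕ) [NeZero r] (hpr : ¬ p ∣ r)
    {s s' v : LaurentSeries k} (hs : h58_IsW k p s) (hs' : h58_IsW k p s')
    (hv : v * h58_DeltaS k = (r : LaurentSeries k) ^ 6 * qExpand k r (h58_DeltaS k)) :
    qExpand k r s = s' * v ^ (p - 1) := by
  rw [(h58_isW_iff k p s).mp hs, (h58_isW_iff k p s').mp hs', map_pow, ← mul_pow,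
    mul_comm (h58_DeltaS k) v, hv, mul_pow, ← pow_mul, mul_comm 6 (p - 1), pow_mul,
    h58_natCast_pow_char k p r hpr, one_pow, one_mul]

end IsW

/-! ### Reduction at a prime `p ∤ L`: the function `W_L` -/

section R1

variable (L p : ℕ) [NeZero L] [NeZero p] [Fact p.Prime] (hpL : ¬ p ∣ L)
  (A : ValuationSubring Qb) (hA : A.LiesOverPrime p)

/-- The modular unit lies in `O₁`. -/
theorem h58_u_mem : h58_u L p ∈ (h60_R1 L p hpL A hA).O := by
  rw [h60_R1_mem_iff_Os, h58_coe_u]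
  exact h58_US_mem A p

/-- **The expansion of `W_L = red₁ (Δ(pτ)/Δ(τ))` is `Δ̄ ^ (p - 1)`.** -/
theorem h58_coe_redF_u :
    (((h60_R1 L p hpL A hA).redF (h58_u L p) :
        ↥(modularFunctionFieldFullC (IsLocalRing.ResidueField A) L)) :
          LaurentSeries (IsLocalRing.ResidueField A))
      = h58_DeltaS (IsLocalRing.ResidueField A) ^ (p - 1) := by
  have : CharP (IsLocalRing.ResidueField A) p := h19_residueField_charP A p hA
  rw [(h60_R1 L p hpL A hA).redF_of_mem (h58_u_mem L p hpL A hA), h60_R1_coe_red]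
  have h2 : (⟨((h58_u L p : ↥(modularFunctionFieldBar (L * p))) : LaurentSeries Qb),
      (h60_R1_mem_iff_Os L p hpL A hA (h58_u L p)).mp (h58_u_mem L p hpL A hA)⟩ :
        h60_Os A) = h58_UO A p := Subtype.ext (h58_coe_u L p)
  rw [h2, h58_rs_UO, h58_US_char]

/-- `W_L` satisfies `h58_IsW`. -/
theorem h58_isW_redF_u :
    h58_IsW (IsLocalRing.ResidueField A) p
      (((h60_R1 L p hpL A hA).redF (h58_u L p) :
        ↥(modularFunctionFieldFullC (IsLocalRing.ResidueField A) L)) :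
          LaurentSeries (IsLocalRing.ResidueField A)) := by
  rw [h58_coe_redF_u]
  exact h58_isW_DeltaS _ p

theorem h58_redF_u_ne_zero : (h60_R1 L p hpL A hA).redF (h58_u L p) ≠ 0 := by
  intro h
  have h1 := h58_isW_ne_zero (h58_isW_redF_u L p hpL A hA)
  rw [h, IntermediateField.coe_zero] at h1
  exact h1 rfl

/-- (i) Any `W` satisfying the (U) identity `W * (j̄⁴ (j̄ - 1728)³)^(p-1) = (red₁ ρ)⁶` has
expansion `Δ̄ ^ (p - 1)`. -/
theorem h58_isW_of_U (W : ↥(modularFunctionFieldFullC (IsLocalRing.ResidueField A) L))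
    (hU : W * (h54_jk (IsLocalRing.ResidueField A) L ^ 4 *
        (h54_jk (IsLocalRing.ResidueField A) L - 1728) ^ 3) ^ (p - 1)
      = ((h60_R1 L p hpL A hA).redF (h20_rho L p)) ^ 6) :
    h58_IsW (IsLocalRing.ResidueField A) p
      ((W : ↥(modularFunctionFieldFullC (IsLocalRing.ResidueField A) L)) :
        LaurentSeries (IsLocalRing.ResidueField A)) := by
  have h1728 : (((1728 : ↥(modularFunctionFieldFullC (IsLocalRing.ResidueField A) L)) :
      ↥(modularFunctionFieldFullC (IsLocalRing.ResidueField A) L)) :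
        LaurentSeries (IsLocalRing.ResidueField A)) = 1728 :=
    map_ofNat (modularFunctionFieldFullC (IsLocalRing.ResidueField A) L).val 1728
  have hj : ((h54_jk (IsLocalRing.ResidueField A) L :
      ↥(modularFunctionFieldFullC (IsLocalRing.ResidueField A) L)) :
        LaurentSeries (IsLocalRing.ResidueField A)) = jqModC (IsLocalRing.ResidueField A) := rfl
  have h := congrArg (fun x : ↥(modularFunctionFieldFullC (IsLocalRing.ResidueField A) L) =>
    (x : LaurentSeries (IsLocalRing.ResidueField A))) hU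
  beta_reduce at h
  push_cast at h
  rw [h20_coe_redF_rho_pow, hj, h1728, ← pow_mul, mul_comm (p - 1) 6] at h
  exact h

omit hpL in
include hA in
/-- **(b) (W-CUSP)**: a function on the special fibre of level `L` with expansion
`Δ̄ ^ (p - 1)` has order `-(p - 1) * ord_P j̄` at every pole `P` of `j̄`. -/
theorem h58_W_cusp (W : ↥(modularFunctionFieldFullC (IsLocalRing.ResidueField A) L))
    (hW : h58_IsW (IsLocalRing.ResidueField A) p
      ((W : ↥(modularFunctionFieldFullC (IsLocalRing.ResidueField A) L)) :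
        LaurentSeries (IsLocalRing.ResidueField A)))
    (P : Place (IsLocalRing.ResidueField A)
      ↥(modularFunctionFieldFullC (IsLocalRing.ResidueField A) L))
    (hP : P.ord (h54_jk (IsLocalRing.ResidueField A) L) < 0) :
    P.ord W = -((p : ℤ) - 1) * P.ord (h54_jk (IsLocalRing.ResidueField A) L) := by
  have hp1 : ¬ p ∣ 1 := (Fact.out : p.Prime).not_dvd_one
  have hW0 : W ≠ 0 := by
    intro h
    have h1 := h58_isW_ne_zero hW
    rw [h, IntermediateField.coe_zero] at h1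
    exact h1 rfl
  have h1 : ((W : ↥(modularFunctionFieldFullC (IsLocalRing.ResidueField A) L)) :
      LaurentSeries (IsLocalRing.ResidueField A)) ∈
        modularFunctionFieldFullC (IsLocalRing.ResidueField A) 1 := by
    rw [h58_isW_unique hW (h58_isW_redF_u 1 p hp1 A hA)]
    exact SetLike.coe_mem _
  have h := h64_ord_of_level_one (IsLocalRing.ResidueField A) L hW0 h1 _ (h58_isW_order hW) P hP
  rw [h, Nat.cast_pred (Fact.out : p.Prime).pos]

omit hpL in
include hA in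
/-- **(b)**, the form used by `h28_e2_gen`: `0 ≤ ord_P W` at the poles of `j̄`. -/
theorem h58_W_cusp_nonneg (W : ↥(modularFunctionFieldFullC (IsLocalRing.ResidueField A) L))
    (hW : h58_IsW (IsLocalRing.ResidueField A) p
      ((W : ↥(modularFunctionFieldFullC (IsLocalRing.ResidueField A) L)) :
        LaurentSeries (IsLocalRing.ResidueField A)))
    (P : Place (IsLocalRing.ResidueField A)
      ↥(modularFunctionFieldFullC (IsLocalRing.ResidueField A) L))
    (hP : P.ord (h54_jk (IsLocalRing.ResidueField A) L) < 0) :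
    0 ≤ P.ord W := by
  rw [h58_W_cusp L p A hA W hW P hP]
  have hp : (1 : ℤ) ≤ (p : ℤ) := by exact_mod_cast (Fact.out : p.Prime).one_le
  nlinarith

end R1

/-! ### (c) and (d): the degeneracy maps -/

section Degeneracy

variable (k : Type) [Field k] (M r p : ℕ) [NeZero M] [NeZero r]

/-- **(c)**: `ᾱ W_M = W_{M r}`. -/
theorem h58_W_alpha (W : ↥(modularFunctionFieldFullC k M))
    (W' : ↥(modularFunctionFieldFullC k (M * r)))
    (hW : h58_IsW k p ((W : ↥(modularFunctionFieldFullC k M)) : LaurentSeries k))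
    (hW' : h58_IsW k p ((W' : ↥(modularFunctionFieldFullC k (M * r))) : LaurentSeries k)) :
    h10_alphaC k M r W = W' :=
  Subtype.ext (by rw [h10_coe_alphaC]; exact h58_isW_unique hW hW')

/-- `ᾱ W_M` has expansion `Δ̄ ^ (p - 1)`. -/
theorem h58_isW_alpha (W : ↥(modularFunctionFieldFullC k M))
    (hW : h58_IsW k p ((W : ↥(modularFunctionFieldFullC k M)) : LaurentSeries k)) :
    h58_IsW k p ((h10_alphaC k M r W : ↥(modularFunctionFieldFullC k (M * r))) :
      LaurentSeries k) := by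
  rw [h10_coe_alphaC]
  exact hW

variable [Fact p.Prime] [CharP k p]

omit [NeZero M] in
/-- **(d)**: `β̄ W_M = W_{M r} * V̄ ^ (p - 1)`, for any map `φ` acting as `q ↦ q^r` on
expansions (e.g. `h2_betaC k M r`) and any `V̄` with expansion `r⁶ Δ̄(q^r)/Δ̄(q)`. -/
theorem h58_W_beta (hpr : ¬ p ∣ r)
    (φ : ↥(modularFunctionFieldFullC k M) → ↥(modularFunctionFieldFullC k (M * r)))
    (hφ : ∀ x, ((φ x : ↥(modularFunctionFieldFullC k (M * r))) : LaurentSeries k)
      = qExpand k r ((x : ↥(modularFunctionFieldFullC k M)) : LaurentSeries k))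
    (W : ↥(modularFunctionFieldFullC k M)) (W' Vb : ↥(modularFunctionFieldFullC k (M * r)))
    (hW : h58_IsW k p ((W : ↥(modularFunctionFieldFullC k M)) : LaurentSeries k))
    (hW' : h58_IsW k p ((W' : ↥(modularFunctionFieldFullC k (M * r))) : LaurentSeries k))
    (hV : ((Vb : ↥(modularFunctionFieldFullC k (M * r))) : LaurentSeries k) * h58_DeltaS k
      = (r : LaurentSeries k) ^ 6 * qExpand k r (h58_DeltaS k)) :
    φ W = W' * Vb ^ (p - 1) := by
  apply Subtype.ext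
  rw [hφ, h58_isW_qExpand r hpr hW hW' hV]
  push_cast
  rfl

/-- **(c)+(d)** in the shape `hrel` of `h28_e2_gen`: `β̄ W = ᾱ W * V̄ ^ (p - 1)`. -/
theorem h58_W_rel (hpr : ¬ p ∣ r)
    (φ : ↥(modularFunctionFieldFullC k M) → ↥(modularFunctionFieldFullC k (M * r)))
    (hφ : ∀ x, ((φ x : ↥(modularFunctionFieldFullC k (M * r))) : LaurentSeries k)
      = qExpand k r ((x : ↥(modularFunctionFieldFullC k M)) : LaurentSeries k))
    (W : ↥(modularFunctionFieldFullC k M)) (Vb : ↥(modularFunctionFieldFullC k (M * r)))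
    (hW : h58_IsW k p ((W : ↥(modularFunctionFieldFullC k M)) : LaurentSeries k))
    (hV : ((Vb : ↥(modularFunctionFieldFullC k (M * r))) : LaurentSeries k) * h58_DeltaS k
      = (r : LaurentSeries k) ^ 6 * qExpand k r (h58_DeltaS k)) :
    φ W = h10_alphaC k M r W * Vb ^ (p - 1) :=
  h58_W_beta k M r p hpr φ hφ W _ Vb hW (h58_isW_alpha k M r p W hW) hV

end Degeneracy

end Fermat.Agent.S40

end
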