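/-
helper23: S40 row T8 (END), ord-form (hedge) branch, input (E2) by the Hasse function
(design helper28 #3884, "(E2-W)"): the CALL of `h28_e2_gen` at the modular level.

`k` the residue field of a place `A` of `Qb` over `p`; levels `M` and `M ℓ` (`ℓ` prime, `ℓ ∤ M`,
`p ∤ M ℓ`, `M` without elliptic points, charted at `p`); `W ∈ Fb(M)`, `W' ∈ Fb(M ℓ)` with
`q`-expansion `Δ̄ ^ (p - 1)` (`h58_IsW`); `N`, `N'` the sets of node places, characterised by

* nodes are not poles of `j̄`; `ord_P W = -12` at the nodes; `ord_P W = 0` off the nodes and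
  off the poles of `j̄`   (= `h81_CountHyp.ordW`).

Then (`h23_E2W`) every place of `Fb(M ℓ)` over a node along `ᾱ` is a node, unramified, and lies
unramified over a node along `β̄`: the hypotheses `hα`, `hβ` of `h23_end_mod` /
`h23_T8Out_of_E2`.

* `h23_E2W`            : the call, node sets as `Set`s with the three order properties;
* `h23_E2W_of_count`   : the same from two `h81_CountHyp` structures (`T` = poles of `j̄`,
                         `red₁ u` with expansion `Δ̄ ^ (p - 1)`);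
* `h23_T8Out_of_count` : composed with `h23_T8Out_of_E2_image`: the output `h92_T8Out` of T8.
-/
import Mathlib
import Fermat.Agent.S40.h23_EndT8
import Fermat.Agent.S40.h28_E2Gen
import Fermat.Agent.S40.h28_VUnit
import Fermat.Agent.S40.h58_E2W
import Fermat.Agent.S36.h81_CountW

set_option autoImplicit false
set_option synthInstance.maxHeartbeats 400000
set_option linter.style.haveILetI false

noncomputable section

open ModularCurve AlgebraicCurve IntermediateField CongruenceSubgroup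
open scoped MatrixGroups

namespace Fermat.Agent.S40

open Fermat.Agent.S18 Fermat.Agent.S24 Fermat.Agent.S27 Fermat.Agent.S34 Fermat.Agent.GAL
open Fermat.Agent.S36

local notation "Qb" => AlgebraicClosure ℚ

section E2W

variable (M p ℓ : ℕ) [NeZero M] [NeZero p] [NeZero ℓ] [Fact p.Prime]
  (A : ValuationSubring Qb) (hA : A.LiesOverPrime p)

omit [NeZero p] [Fact p.Prime] in
/-- `β̄ W = ᾱ W * V̄ ^ (p - 1)` for `W` with expansion `Δ̄ ^ (p - 1)` and `V̄` with expansion
`Δ̄(q^ℓ)/Δ̄(q)` (`h28_VS`). -/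
theorem h23_W_rel (k : Type) [Field k]
    (W : ↥(modularFunctionFieldFullC k M))
    (hW : h58_IsW k p ((W : ↥(modularFunctionFieldFullC k M)) : LaurentSeries k))
    (Vb : ↥(modularFunctionFieldFullC k (M * ℓ)))
    (hVb : ((Vb : ↥(modularFunctionFieldFullC k (M * ℓ))) : LaurentSeries k) = h28_VS k ℓ) :
    h2_betaC k M ℓ W = h10_alphaC k M ℓ W * Vb ^ (p - 1) := by
  apply Subtype.ext
  have hD : h28_VS k ℓ * h58_DeltaS k = qExpand k ℓ (h58_DeltaS k) := h28_VS_delta k ℓ
  have hWs := (h58_isW_iff k p _).mp hW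
  have h1 : ((h10_alphaC k M ℓ W * Vb ^ (p - 1) : ↥(modularFunctionFieldFullC k (M * ℓ))) :
      LaurentSeries k) = (W : LaurentSeries k) * (Vb : LaurentSeries k) ^ (p - 1) := by
    push_cast
    rw [h10_coe_alphaC]
  rw [h2_coe_betaC, h1, hVb, hWs, map_pow, ← hD, mul_pow, mul_comm]

include hA in
set_option maxHeartbeats 1600000 in
/-- **(E2-W), the call.**  Node sets `N ⊂ Place Fb(M)`, `N' ⊂ Place Fb(M ℓ)` cut out by the
Hasse function (`W`, `W'` with expansion `Δ̄ ^ (p - 1)`: order `-12` at the nodes, order `0` off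
the nodes and the poles of `j̄`; at the upper level the nodes are not poles of `j̄`).  Then every place over a node
along `ᾱ` is a node, unramified, and lies unramified over a node along `β̄`. -/
theorem h23_E2W (hℓ : ℓ.Prime) (hℓM : ¬ ℓ ∣ M) (hpMℓ : ¬ p ∣ M * ℓ)
    (hch : 5 ≤ p ∨ 2 ∣ M ∨ 3 ∣ M) (h2 : nuTwo M = 0) (h3 : nuThree M = 0)
    (N : Set (Place (IsLocalRing.ResidueField A)
      ↥(modularFunctionFieldFullC (IsLocalRing.ResidueField A) M)))
    (W : ↥(modularFunctionFieldFullC (IsLocalRing.ResidueField A) M))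
    (hW : h58_IsW (IsLocalRing.ResidueField A) p
      ((W : ↥(modularFunctionFieldFullC (IsLocalRing.ResidueField A) M)) :
        LaurentSeries (IsLocalRing.ResidueField A)))
    (hN : ∀ P ∈ N, P.ord W = -12)
    (hrest : ∀ P : Place (IsLocalRing.ResidueField A)
        ↥(modularFunctionFieldFullC (IsLocalRing.ResidueField A) M),
      0 ≤ P.ord (h54_jk (IsLocalRing.ResidueField A) M) → P ∉ N → P.ord W = 0)
    (N' : Set (Place (IsLocalRing.ResidueField A)
      ↥(modularFunctionFieldFullC (IsLocalRing.ResidueField A) (M * ℓ))))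
    (W' : ↥(modularFunctionFieldFullC (IsLocalRing.ResidueField A) (M * ℓ)))
    (hW' : h58_IsW (IsLocalRing.ResidueField A) p
      ((W' : ↥(modularFunctionFieldFullC (IsLocalRing.ResidueField A) (M * ℓ))) :
        LaurentSeries (IsLocalRing.ResidueField A)))
    (hNc' : ∀ w ∈ N', 0 ≤ w.ord (h54_jk (IsLocalRing.ResidueField A) (M * ℓ)))
    (hN' : ∀ w ∈ N', w.ord W' = -12)
    (hrest' : ∀ w : Place (IsLocalRing.ResidueField A)
        ↥(modularFunctionFieldFullC (IsLocalRing.ResidueField A) (M * ℓ)),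
      0 ≤ w.ord (h54_jk (IsLocalRing.ResidueField A) (M * ℓ)) → w ∉ N' → w.ord W' = 0) :
    letI := algebraAlong (h10_alphaC (IsLocalRing.ResidueField A) M ℓ)
    haveI := isScalarTower_along (h10_alphaC (IsLocalRing.ResidueField A) M ℓ)
    haveI := h23_finite_alphaC M A hA ℓ hpMℓ
    (∀ w : Place (IsLocalRing.ResidueField A)
        ↥(modularFunctionFieldFullC (IsLocalRing.ResidueField A) (M * ℓ)),
      w.restrict ↥(modularFunctionFieldFullC (IsLocalRing.ResidueField A) M) ∈ N →
        w ∈ N' ∧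
          w.ramificationIndex ↥(modularFunctionFieldFullC (IsLocalRing.ResidueField A) M) = 1) ∧
    (∀ w : Place (IsLocalRing.ResidueField A)
        ↥(modularFunctionFieldFullC (IsLocalRing.ResidueField A) (M * ℓ)),
      w.restrict ↥(modularFunctionFieldFullC (IsLocalRing.ResidueField A) M) ∈ N →
        ∃ ν₂ ∈ N, ∀ g : ↥(modularFunctionFieldFullC (IsLocalRing.ResidueField A) M),
          w.ord (h2_betaC (IsLocalRing.ResidueField A) M ℓ g) = ν₂.ord g) := by
  letI := algebraAlong (h10_alphaC (IsLocalRing.ResidueField A) M ℓ)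
  haveI := isScalarTower_along (h10_alphaC (IsLocalRing.ResidueField A) M ℓ)
  haveI := h23_finite_alphaC M A hA ℓ hpMℓ
  haveI : Fact ℓ.Prime := ⟨hℓ⟩
  have hαW : algebraMap ↥(modularFunctionFieldFullC (IsLocalRing.ResidueField A) M)
      ↥(modularFunctionFieldFullC (IsLocalRing.ResidueField A) (M * ℓ)) W = W' :=
    h58_W_alpha (IsLocalRing.ResidueField A) M ℓ p W W' hW hW'
  refine h28_e2_gen (h2_betaC (IsLocalRing.ResidueField A) M ℓ)
    (h2_betaC_integral M ℓ hpMℓ A hA) W (h28_Vb M ℓ p hpMℓ A hA ^ (p - 1)) 12 (by norm_num)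
    N {P | P.ord (h54_jk (IsLocalRing.ResidueField A) M) < 0} N'
    {w | w.ord (h54_jk (IsLocalRing.ResidueField A) (M * ℓ)) < 0}
    hN ?_ ?_ ?_ ?_ ?_ ?_ ?_ ?_
  · intro P hP
    exact h58_W_cusp_nonneg M p A hA W hW P hP
  · intro P hPT hPN
    exact hrest P (not_lt.mp hPT) hPN
  · intro w hw
    rw [hαW]
    exact hN' w hw
  · intro w hw hwT
    exact absurd (hNc' w hw) (not_le.mpr hwT)
  · intro w hw
    rw [hαW]
    exact h58_W_cusp_nonneg (M * ℓ) p A hA W' hW' w hw
  · intro w hwT hwN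
    rw [hαW]
    exact hrest' w (not_lt.mp hwT) hwN
  · intro w hw
    exact h28_Vb_pow_ord M ℓ p hℓM hpMℓ hch h2 h3 A hA (p - 1) w hw
  · exact h23_W_rel M p ℓ (IsLocalRing.ResidueField A) W hW _ (h28_coe_Vb M ℓ p hpMℓ A hA)

include hA in
set_option maxHeartbeats 1600000 in
/-- **(E2-W) from two count structures.**  `H`, `H'` the `h81_CountHyp` structures of the levels
`(M, p)` and `(M ℓ, p)`, with `T`, `T'` the poles of `j̄` and `red₁ u`, `red₁ u'` of expansion
`Δ̄ ^ (p - 1)`.  Then (E2) holds for the node set `Φ '' Sg` of level `M`. -/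
theorem h23_E2W_of_count (hpM : ¬ p ∣ M) (hℓ : ℓ.Prime) (hℓM : ¬ ℓ ∣ M) (hpMℓ : ¬ p ∣ M * ℓ)
    (hch : 5 ≤ p ∨ 2 ∣ M ∨ 3 ∣ M) (h2 : nuTwo M = 0) (h3 : nuThree M = 0)
    {R₂ : h39_RedDatum Qb ↥(modularFunctionFieldBar (M * p)) (IsLocalRing.ResidueField A)
      ↥(modularFunctionFieldFullC (IsLocalRing.ResidueField A) M)}
    {D : h22_Lat Qb ↥(modularFunctionFieldBar (M * p)) (IsLocalRing.ResidueField A)
      (↥(modularFunctionFieldFullC (IsLocalRing.ResidueField A) M) ×
        ↥(modularFunctionFieldFullC (IsLocalRing.ResidueField A) M))}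
    {D0 : Divisor Qb ↥(modularFunctionFieldBar (M * p))}
    {Qinf : Place (IsLocalRing.ResidueField A)
      ↥(modularFunctionFieldFullC (IsLocalRing.ResidueField A) M)}
    {Sg : Finset (Place (IsLocalRing.ResidueField A)
      ↥(modularFunctionFieldFullC (IsLocalRing.ResidueField A) M))}
    {Φ : Place (IsLocalRing.ResidueField A)
        ↥(modularFunctionFieldFullC (IsLocalRing.ResidueField A) M) →
      Place (IsLocalRing.ResidueField A)
        ↥(modularFunctionFieldFullC (IsLocalRing.ResidueField A) M)}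
    {B F0 : Subring ↥(modularFunctionFieldBar (M * p))}
    {T : Finset (Place (IsLocalRing.ResidueField A)
      ↥(modularFunctionFieldFullC (IsLocalRing.ResidueField A) M))}
    {π : Qb} {u : ↥(modularFunctionFieldBar (M * p))} {C : ℤ}
    (H : h81_CountHyp (h60_R1 M p hpM A hA) R₂ D D0 Qinf Sg Φ B F0 T π u C)
    (hT : ∀ P ∈ T, P.ord (h54_jk (IsLocalRing.ResidueField A) M) < 0)
    (hWs : h58_IsW (IsLocalRing.ResidueField A) p
      (((h60_R1 M p hpM A hA).redF u :
        ↥(modularFunctionFieldFullC (IsLocalRing.ResidueField A) M)) :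
          LaurentSeries (IsLocalRing.ResidueField A)))
    {R₂' : h39_RedDatum Qb ↥(modularFunctionFieldBar (M * ℓ * p)) (IsLocalRing.ResidueField A)
      ↥(modularFunctionFieldFullC (IsLocalRing.ResidueField A) (M * ℓ))}
    {D' : h22_Lat Qb ↥(modularFunctionFieldBar (M * ℓ * p)) (IsLocalRing.ResidueField A)
      (↥(modularFunctionFieldFullC (IsLocalRing.ResidueField A) (M * ℓ)) ×
        ↥(modularFunctionFieldFullC (IsLocalRing.ResidueField A) (M * ℓ)))}
    {D0' : Divisor Qb ↥(modularFunctionFieldBar (M * ℓ * p))}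
    {Qinf' : Place (IsLocalRing.ResidueField A)
      ↥(modularFunctionFieldFullC (IsLocalRing.ResidueField A) (M * ℓ))}
    {Sg' : Finset (Place (IsLocalRing.ResidueField A)
      ↥(modularFunctionFieldFullC (IsLocalRing.ResidueField A) (M * ℓ)))}
    {Φ' : Place (IsLocalRing.ResidueField A)
        ↥(modularFunctionFieldFullC (IsLocalRing.ResidueField A) (M * ℓ)) →
      Place (IsLocalRing.ResidueField A)
        ↥(modularFunctionFieldFullC (IsLocalRing.ResidueField A) (M * ℓ))}
    {B' F0' : Subring ↥(modularFunctionFieldBar (M * ℓ * p))}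
    {T' : Finset (Place (IsLocalRing.ResidueField A)
      ↥(modularFunctionFieldFullC (IsLocalRing.ResidueField A) (M * ℓ)))}
    {π' : Qb} {u' : ↥(modularFunctionFieldBar (M * ℓ * p))} {C' : ℤ}
    (H' : h81_CountHyp (h60_R1 (M * ℓ) p hpMℓ A hA) R₂' D' D0' Qinf' Sg' Φ' B' F0' T' π' u' C')
    (hT' : ∀ w : Place (IsLocalRing.ResidueField A)
        ↥(modularFunctionFieldFullC (IsLocalRing.ResidueField A) (M * ℓ)),
      w ∈ T' ↔ w.ord (h54_jk (IsLocalRing.ResidueField A) (M * ℓ)) < 0)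
    (hWs' : h58_IsW (IsLocalRing.ResidueField A) p
      (((h60_R1 (M * ℓ) p hpMℓ A hA).redF u' :
        ↥(modularFunctionFieldFullC (IsLocalRing.ResidueField A) (M * ℓ))) :
          LaurentSeries (IsLocalRing.ResidueField A))) :
    letI := algebraAlong (h10_alphaC (IsLocalRing.ResidueField A) M ℓ)
    haveI := isScalarTower_along (h10_alphaC (IsLocalRing.ResidueField A) M ℓ)
    haveI := h23_finite_alphaC M A hA ℓ hpMℓ
    (∀ w : Place (IsLocalRing.ResidueField A)
        ↥(modularFunctionFieldFullC (IsLocalRing.ResidueField A) (M * ℓ)),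
      w.restrict ↥(modularFunctionFieldFullC (IsLocalRing.ResidueField A) M) ∈
          Φ '' (↑Sg : Set (Place (IsLocalRing.ResidueField A)
            ↥(modularFunctionFieldFullC (IsLocalRing.ResidueField A) M))) →
        w ∈ Φ' '' (↑Sg' : Set (Place (IsLocalRing.ResidueField A)
            ↥(modularFunctionFieldFullC (IsLocalRing.ResidueField A) (M * ℓ)))) ∧
          w.ramificationIndex ↥(modularFunctionFieldFullC (IsLocalRing.ResidueField A) M) = 1) ∧
    (∀ w : Place (IsLocalRing.ResidueField A)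
        ↥(modularFunctionFieldFullC (IsLocalRing.ResidueField A) (M * ℓ)),
      w.restrict ↥(modularFunctionFieldFullC (IsLocalRing.ResidueField A) M) ∈
          Φ '' (↑Sg : Set (Place (IsLocalRing.ResidueField A)
            ↥(modularFunctionFieldFullC (IsLocalRing.ResidueField A) M))) →
        ∃ ν₂ ∈ Φ '' (↑Sg : Set (Place (IsLocalRing.ResidueField A)
            ↥(modularFunctionFieldFullC (IsLocalRing.ResidueField A) M))),
          ∀ g : ↥(modularFunctionFieldFullC (IsLocalRing.ResidueField A) M),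
            w.ord (h2_betaC (IsLocalRing.ResidueField A) M ℓ g) = ν₂.ord g) := by
  haveI := h23_hpd_fb M A hA hpM
  haveI := h23_hpd_fb (M * ℓ) A hA hpMℓ
  obtain ⟨-, hN, hrest⟩ := H.ordW
  obtain ⟨hNT', hN', hrest'⟩ := H'.ordW
  refine h23_E2W M p ℓ A hA hℓ hℓM hpMℓ hch h2 h3 _ _ hWs ?_ ?_ _ _ hWs' ?_ ?_ ?_
  · rintro P ⟨S, hS, rfl⟩
    exact hN S (Finset.mem_coe.mp hS)
  · intro P hP hPN
    exact hrest P (fun hPT => absurd hP (not_le.mpr (hT P hPT)))
      (fun S hS hPS => hPN ⟨S, Finset.mem_coe.mpr hS, hPS.symm⟩)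
  · rintro w ⟨S, hS, rfl⟩
    exact not_lt.mp (fun h => hNT' S (Finset.mem_coe.mp hS) ((hT' _).mpr h))
  · rintro w ⟨S, hS, rfl⟩
    exact hN' S (Finset.mem_coe.mp hS)
  · intro w hw hwN
    exact hrest' w (fun hwT => absurd hw (not_le.mpr ((hT' w).mp hwT)))
      (fun S hS hwS => hwN ⟨S, Finset.mem_coe.mpr hS, hwS.symm⟩)

include hA in
set_option maxHeartbeats 1600000 in
/-- **T8, ord form, from two count structures**: the output `h92_T8Out` of row T8 at level
`(M, p)` from the count structures of the levels `(M, p)` and `(M ℓ, p)`, the eigen-relation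
`T_ℓ [E] = a • [E]` (`p ∤ ℓ + 1 - a`) and the pairwise congruence of the node orders (W7). -/
theorem h23_T8Out_of_count (hpM : ¬ p ∣ M) (hℓ : ℓ.Prime) (hℓM : ¬ ℓ ∣ M) (hpMℓ : ¬ p ∣ M * ℓ)
    (hch : 5 ≤ p ∨ 2 ∣ M ∨ 3 ∣ M) (h2 : nuTwo M = 0) (h3 : nuThree M = 0)
    {R₂ : h39_RedDatum Qb ↥(modularFunctionFieldBar (M * p)) (IsLocalRing.ResidueField A)
      ↥(modularFunctionFieldFullC (IsLocalRing.ResidueField A) M)}
    {D : h22_Lat Qb ↥(modularFunctionFieldBar (M * p)) (IsLocalRing.ResidueField A)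
      (↥(modularFunctionFieldFullC (IsLocalRing.ResidueField A) M) ×
        ↥(modularFunctionFieldFullC (IsLocalRing.ResidueField A) M))}
    {D0 : Divisor Qb ↥(modularFunctionFieldBar (M * p))}
    {Qinf : Place (IsLocalRing.ResidueField A)
      ↥(modularFunctionFieldFullC (IsLocalRing.ResidueField A) M)}
    {Sg : Finset (Place (IsLocalRing.ResidueField A)
      ↥(modularFunctionFieldFullC (IsLocalRing.ResidueField A) M))}
    {Φ : Place (IsLocalRing.ResidueField A)
        ↥(modularFunctionFieldFullC (IsLocalRing.ResidueField A) M) →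
      Place (IsLocalRing.ResidueField A)
        ↥(modularFunctionFieldFullC (IsLocalRing.ResidueField A) M)}
    {B F0 : Subring ↥(modularFunctionFieldBar (M * p))}
    {T : Finset (Place (IsLocalRing.ResidueField A)
      ↥(modularFunctionFieldFullC (IsLocalRing.ResidueField A) M))}
    {π : Qb} {u₀ : ↥(modularFunctionFieldBar (M * p))} {C : ℤ}
    (H : h81_CountHyp (h60_R1 M p hpM A hA) R₂ D D0 Qinf Sg Φ B F0 T π u₀ C)
    (hT : ∀ P ∈ T, P.ord (h54_jk (IsLocalRing.ResidueField A) M) < 0)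
    (hWs : h58_IsW (IsLocalRing.ResidueField A) p
      (((h60_R1 M p hpM A hA).redF u₀ :
        ↥(modularFunctionFieldFullC (IsLocalRing.ResidueField A) M)) :
          LaurentSeries (IsLocalRing.ResidueField A)))
    {R₂' : h39_RedDatum Qb ↥(modularFunctionFieldBar (M * ℓ * p)) (IsLocalRing.ResidueField A)
      ↥(modularFunctionFieldFullC (IsLocalRing.ResidueField A) (M * ℓ))}
    {D' : h22_Lat Qb ↥(modularFunctionFieldBar (M * ℓ * p)) (IsLocalRing.ResidueField A)
      (↥(modularFunctionFieldFullC (IsLocalRing.ResidueField A) (M * ℓ)) ×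
        ↥(modularFunctionFieldFullC (IsLocalRing.ResidueField A) (M * ℓ)))}
    {D0' : Divisor Qb ↥(modularFunctionFieldBar (M * ℓ * p))}
    {Qinf' : Place (IsLocalRing.ResidueField A)
      ↥(modularFunctionFieldFullC (IsLocalRing.ResidueField A) (M * ℓ))}
    {Sg' : Finset (Place (IsLocalRing.ResidueField A)
      ↥(modularFunctionFieldFullC (IsLocalRing.ResidueField A) (M * ℓ)))}
    {Φ' : Place (IsLocalRing.ResidueField A)
        ↥(modularFunctionFieldFullC (IsLocalRing.ResidueField A) (M * ℓ)) →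
      Place (IsLocalRing.ResidueField A)
        ↥(modularFunctionFieldFullC (IsLocalRing.ResidueField A) (M * ℓ))}
    {B' F0' : Subring ↥(modularFunctionFieldBar (M * ℓ * p))}
    {T' : Finset (Place (IsLocalRing.ResidueField A)
      ↥(modularFunctionFieldFullC (IsLocalRing.ResidueField A) (M * ℓ)))}
    {π' : Qb} {u₀' : ↥(modularFunctionFieldBar (M * ℓ * p))} {C' : ℤ}
    (H' : h81_CountHyp (h60_R1 (M * ℓ) p hpMℓ A hA) R₂' D' D0' Qinf' Sg' Φ' B' F0' T' π' u₀' C')
    (hT' : ∀ w : Place (IsLocalRing.ResidueField A)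
        ↥(modularFunctionFieldFullC (IsLocalRing.ResidueField A) (M * ℓ)),
      w ∈ T' ↔ w.ord (h54_jk (IsLocalRing.ResidueField A) (M * ℓ)) < 0)
    (hWs' : h58_IsW (IsLocalRing.ResidueField A) p
      (((h60_R1 (M * ℓ) p hpMℓ A hA).redF u₀' :
        ↥(modularFunctionFieldFullC (IsLocalRing.ResidueField A) (M * ℓ))) :
          LaurentSeries (IsLocalRing.ResidueField A)))
    (a : ℤ) (ha : ¬ (p : ℤ) ∣ (ℓ : ℤ) + 1 - a)
    (E : Divisor.degZero (K := Qb) (F := modularFunctionFieldBar (M * p)))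
    (u : ↥(modularFunctionFieldBar (M * p))) (hu : u ≠ 0)
    (hdiv : ∀ v : Place Qb (modularFunctionFieldBar (M * p)),
      (p : ℤ) * (E : Divisor Qb (modularFunctionFieldBar (M * p))) v = v.ord u)
    (hTℓ : heckeOperatorBar (M * p) ⟨ℓ, hℓ⟩ (Pic0.mk E) = a • Pic0.mk E)
    (hdiff : ∀ Q ∈ Sg, ∀ Q' ∈ Sg, (p : ℤ) ∣
      h43_rord (h60_R1 M p hpM A hA) (Φ Q) u - h43_rord (h60_R1 M p hpM A hA) (Φ Q') u) :
    h92_T8Out M p hpM A hA Sg Φ u := by
  have h := h23_E2W_of_count M p ℓ A hA hpM hℓ hℓM hpMℓ hch h2 h3 H hT hWs H' hT' hWs'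
  exact h23_T8Out_of_E2_image M p hpM A hA ℓ hpMℓ hℓ hℓM Sg Φ (fun w hw => (h.1 w hw).2) h.2
    a ha E u hu hdiv hTℓ hdiff

end E2W

end Fermat.Agent.S40

end
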