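/-
helper23: S40 row T8 (END), generic input (E2-COUNT) - unramifiedness of the two degeneracy
maps over the supersingular places from a COUNT.

`F'/F` finite separable function fields in one variable over an algebraically closed `K` (any
characteristic).

* `h23_unram_of_count` : finite sets `S` of places of `F`, `S'` of places of `F'` with
  `S'` lying over `S` and `[F' : F] * #S ≤ #S'`  ⟹  every place over `S` lies in `S'` and is
  unramified.
* `h23_restrictAlong`, `h23_ord_along` : restriction of a place along a second embedding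
  `b : F →ₐ[K] F'`.
* `h23_E2_of_count` : the two hypotheses `hα`, `hβ` of `h23_end_unram` from the counts along
  `ᾱ` (the algebra structure) and along `β̄ = b`.
-/
import Mathlib
import Fermat.Prelude.Def_AlgebraicCurve_Correspondence
import Fermat.Agent.S40.h23_EndCore

set_option autoImplicit false
set_option synthInstance.maxHeartbeats 400000
set_option linter.style.haveILetI false

noncomputable section

open AlgebraicCurve

namespace Fermat.Agent.S40

open Fermat.Agent.S24 Fermat.Agent.S27

section OneSided

variable {K F F' : Type*} [Field K] [Field F] [Field F'] [Algebra K F] [Algebra K F']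
  [IsAlgClosed K] [Algebra F F'] [IsScalarTower K F F'] [FiniteDimensional F F']
  [Algebra.IsSeparable F F']

/-- **(E2-COUNT), one map.**  If `S'` lies over `S` and has at least `[F' : F] * #S` elements,
then `S'` is the full preimage of `S` and `F'/F` is unramified over `S`. -/
theorem h23_unram_of_count (hF : h73_IsFF K F) [HasPrincipalDivisors K F']
    (S : Finset (Place K F)) (S' : Finset (Place K F'))
    (hS : ∀ w ∈ S', w.restrict F ∈ S)
    (hcard : Module.finrank F F' * S.card ≤ S'.card)
    (w : Place K F') (hw : w.restrict F ∈ S) :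
    w ∈ S' ∧ w.ramificationIndex F = 1 := by
  classical
  have hsub : S' ⊆ S.biUnion (fun ν => ν.fiber F') := fun w' hw' =>
    Finset.mem_biUnion.mpr ⟨w'.restrict F, hS w' hw', Place.mem_fiber.mpr rfl⟩
  have hle : ∀ ν ∈ S, (ν.fiber F').card ≤ Module.finrank F F' := fun ν _ =>
    h94_fiber_card_le hF ν
  have h1 : (S.biUnion (fun ν => ν.fiber F')).card ≤ ∑ ν ∈ S, (ν.fiber F').card :=
    Finset.card_biUnion_le
  have h2 : ∑ ν ∈ S, (ν.fiber F').card ≤ S.card * Module.finrank F F' := by
    have := Finset.sum_le_card_nsmul S (fun ν => (ν.fiber F').card) (Module.finrank F F') hle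
    simpa using this
  have h3 : S'.card ≤ (S.biUnion (fun ν => ν.fiber F')).card := Finset.card_le_card hsub
  have h4 : (S.biUnion (fun ν => ν.fiber F')).card ≤ S'.card := by
    calc (S.biUnion (fun ν => ν.fiber F')).card ≤ S.card * Module.finrank F F' := h1.trans h2
      _ = Module.finrank F F' * S.card := Nat.mul_comm _ _
      _ ≤ S'.card := hcard
  have hEq : S' = S.biUnion (fun ν => ν.fiber F') := Finset.eq_of_subset_of_card_le hsub h4
  have hsumEq : ∑ ν ∈ S, (ν.fiber F').card = S.card * Module.finrank F F' := by
    have : S.card * Module.finrank F F' ≤ ∑ ν ∈ S, (ν.fiber F').card := by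
      calc S.card * Module.finrank F F' = Module.finrank F F' * S.card := Nat.mul_comm _ _
        _ ≤ S'.card := hcard
        _ ≤ (S.biUnion (fun ν => ν.fiber F')).card := h3
        _ ≤ ∑ ν ∈ S, (ν.fiber F').card := h1
    omega
  have hfull : ∀ ν ∈ S, (ν.fiber F').card = Module.finrank F F' := by
    by_contra hne
    push Not at hne
    obtain ⟨ν₀, hν₀, hne₀⟩ := hne
    have hlt : ∑ ν ∈ S, (ν.fiber F').card < ∑ _ν ∈ S, Module.finrank F F' :=
      Finset.sum_lt_sum hle ⟨ν₀, hν₀, lt_of_le_of_ne (hle ν₀ hν₀) hne₀⟩
    rw [Finset.sum_const, smul_eq_mul] at hlt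
    omega
  refine ⟨?_, ?_⟩
  · rw [hEq]
    exact Finset.mem_biUnion.mpr ⟨w.restrict F, hw, Place.mem_fiber.mpr rfl⟩
  · exact (h94_fiber_eq_of_card hF (w.restrict F) ((w.restrict F).fiber F')
      (fun w' hw' => Place.mem_fiber.mp hw') (hfull _ hw).ge).2 w rfl

end OneSided

section Along

variable {K F F' : Type*} [Field K] [Field F] [Field F'] [Algebra K F] [Algebra K F']

/-- the restriction of a place of `F'` along a second embedding `b : F →ₐ[K] F'`. -/
def h23_restrictAlong (b : F →ₐ[K] F') (hb : FiniteAlong K b) (w : Place K F') : Place K F :=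
  letI := algebraAlong b
  haveI := isScalarTower_along b
  haveI : Module.Finite F F' := hb
  w.restrict F

/-- the ramification index of a place of `F'` along `b`. -/
def h23_ramAlong (b : F →ₐ[K] F') (w : Place K F') : ℕ :=
  letI := algebraAlong b
  w.ramificationIndex F

theorem h23_ord_along (b : F →ₐ[K] F') (hb : FiniteAlong K b) (w : Place K F') (g : F) :
    w.ord (b g) = (h23_ramAlong b w : ℤ) * (h23_restrictAlong b hb w).ord g := by
  letI := algebraAlong b
  haveI := isScalarTower_along b
  haveI : Module.Finite F F' := hb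
  exact w.ord_restrict (F := F) g

variable [IsAlgClosed K] [Algebra F F'] [IsScalarTower K F F'] [FiniteDimensional F F']
  [Algebra.IsSeparable F F']

/-- **(E2-COUNT).**  The hypotheses `hα`, `hβ` of `h23_end_unram` from counts: `S'` lies over `S`
along both `ᾱ` (the algebra structure) and `β̄ = b`, and `#S'` is at least `deg * #S` for both
degrees. -/
theorem h23_E2_of_count (hF : h73_IsFF K F) [HasPrincipalDivisors K F']
    (b : F →ₐ[K] F') (hb : FiniteAlong K b)
    (hbsep : letI := algebraAlong b; Algebra.IsSeparable F F')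
    (S : Finset (Place K F)) (S' : Finset (Place K F'))
    (hSα : ∀ w ∈ S', w.restrict F ∈ S)
    (hSβ : ∀ w ∈ S', h23_restrictAlong b hb w ∈ S)
    (hcardα : Module.finrank F F' * S.card ≤ S'.card)
    (hcardβ : finrankAlong K b * S.card ≤ S'.card) :
    (∀ w : Place K F', w.restrict F ∈ (S : Set (Place K F)) → w.ramificationIndex F = 1) ∧
    (∀ w : Place K F', w.restrict F ∈ (S : Set (Place K F)) →
      ∃ ν₂ ∈ (S : Set (Place K F)), ∀ g : F, w.ord ((b : F →+* F') g) = ν₂.ord g) := by
  have hA := h23_unram_of_count hF S S' hSα hcardα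
  refine ⟨fun w hw => (hA w (Finset.mem_coe.mp hw)).2, fun w hw => ?_⟩
  have hwS' : w ∈ S' := (hA w (Finset.mem_coe.mp hw)).1
  have hB : h23_ramAlong b w = 1 := by
    letI := algebraAlong b
    haveI := isScalarTower_along b
    haveI : Module.Finite F F' := hb
    haveI : Algebra.IsSeparable F F' := hbsep
    exact (h23_unram_of_count hF S S' hSβ hcardβ w (hSβ w hwS')).2
  refine ⟨h23_restrictAlong b hb w, Finset.mem_coe.mpr (hSβ w hwS'), fun g => ?_⟩
  have h := h23_ord_along b hb w g
  rw [hB] at h
  simpa using h

end Along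

end Fermat.Agent.S40

end
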