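import Mathlib
import Fermat.Agent.S40.h58_E2W
import Fermat.Agent.S36.h84_UnitU
import Fermat.Agent.S36.h65_UnitU2

/-!
# S40, T8 hedge (E2-W), part 2 (helper58): the bridge to `h84_u` and the function `V`

* `h58_u_eq_h84` : `h84_u L n hnL (h20_rho L n) = h58_u L n`; hence `W_L := red₁ (h84_u ..)`
  (the `W` of the node count `h81_CountHyp`) satisfies `h58_IsW` (`h58_isW_h84`), and (b), (c),
  (d) of `h58_E2W` hold for it verbatim (`h58_h84_cusp_nonneg`, `h58_h84_alpha`, `h58_h84_rel`);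
* `V̄` : for every reduction datum `R` of the good level `M r` with `h54_IsModRed (M * r) A R`,
  the reduction `R.redF (h58_V M r)` of `V = r⁶ Δ(rτ)/Δ(τ)` has expansion `h58_VS k r`
  (`h58_coe_redF_V`), hence satisfies the hypothesis `hV` of (d) (`h58_hV_modRed`); same for
  `h60_R1 (M * r) p` after `heckeAlphaBar` (`h58_hV_R1`);
* characteristic `0` half of (e): `h58_V_ord` : `ord_P (h58_V M r) = 0` at every place `P` of
  `F(M r)` with `0 ≤ ord_P J` (no elliptic points on `X₀(M)`).
-/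

set_option autoImplicit false
set_option synthInstance.maxHeartbeats 400000
set_option linter.style.haveILetI false

noncomputable section

open ModularCurve AlgebraicCurve IntermediateField KaehlerDifferential

namespace Fermat.Agent.S40

open Fermat.Agent.S18 Fermat.Agent.S24 Fermat.Agent.S28 Fermat.Agent.S34 Fermat.Agent.S36
  Fermat.Agent.S37

local notation "Qb" => AlgebraicClosure ℚ

/-! ### The bridge to `h84_u` -/

section Bridge

variable (L n : ℕ) [NeZero L] [NeZero n] [Fact n.Prime] (hnL : ¬ n ∣ L)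

/-- The unit of `h84_UnitU` at `ρ = h20_rho` is `h58_u`. -/
theorem h58_u_eq_h84 : h84_u L n hnL (h20_rho L n) = h58_u L n := by
  rw [h84_u, h58_u, h20_w_J0]

/-- `h58_V` is the unit of `h84_UnitU` at `ρ' = n ρ` (the normalisation `d(w J) = ρ' dJ`). -/
theorem h58_V_eq_h84 :
    h84_u L n hnL ((n : ↥(modularFunctionFieldBar (L * n))) * h20_rho L n) = h58_V L n := by
  rw [h84_u, h58_V_eq, h20_w_J0]

end Bridge

section BridgeW

variable (L p : ℕ) [NeZero L] [NeZero p] [Fact p.Prime] (hpL : ¬ p ∣ L)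
  (A : ValuationSubring Qb) (hA : A.LiesOverPrime p)

/-- The `W` of the node count, `red₁ (h84_u L p hpL (h20_rho L p))`, has expansion
`Δ̄ ^ (p - 1)`. -/
theorem h58_isW_h84 :
    h58_IsW (IsLocalRing.ResidueField A) p
      (((h60_R1 L p hpL A hA).redF (h84_u L p hpL (h20_rho L p)) :
        ↥(modularFunctionFieldFullC (IsLocalRing.ResidueField A) L)) :
          LaurentSeries (IsLocalRing.ResidueField A)) := by
  rw [h58_u_eq_h84]
  exact h58_isW_redF_u L p hpL A hA

/-- **(b)** for the `W` of the node count: `0 ≤ ord_P W_L` at every pole `P` of `j̄`. -/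
theorem h58_h84_cusp_nonneg
    (P : Place (IsLocalRing.ResidueField A)
      ↥(modularFunctionFieldFullC (IsLocalRing.ResidueField A) L))
    (hP : P.ord (h54_jk (IsLocalRing.ResidueField A) L) < 0) :
    0 ≤ P.ord ((h60_R1 L p hpL A hA).redF (h84_u L p hpL (h20_rho L p))) :=
  h58_W_cusp_nonneg L p A hA _ (h58_isW_h84 L p hpL A hA) P hP

/-- **(b)**, exact form. -/
theorem h58_h84_cusp
    (P : Place (IsLocalRing.ResidueField A)
      ↥(modularFunctionFieldFullC (IsLocalRing.ResidueField A) L))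
    (hP : P.ord (h54_jk (IsLocalRing.ResidueField A) L) < 0) :
    P.ord ((h60_R1 L p hpL A hA).redF (h84_u L p hpL (h20_rho L p)))
      = -((p : ℤ) - 1) * P.ord (h54_jk (IsLocalRing.ResidueField A) L) :=
  h58_W_cusp L p A hA _ (h58_isW_h84 L p hpL A hA) P hP

end BridgeW

section BridgeDeg

variable (M r p : ℕ) [NeZero M] [NeZero r] [NeZero p] [Fact p.Prime] (hpM : ¬ p ∣ M)
  (hpMr : ¬ p ∣ M * r) (A : ValuationSubring Qb) (hA : A.LiesOverPrime p)

/-- **(c)** for the `W` of the node count: `ᾱ W_M = W_{M r}`. -/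
theorem h58_h84_alpha :
    h10_alphaC (IsLocalRing.ResidueField A) M r
        ((h60_R1 M p hpM A hA).redF (h84_u M p hpM (h20_rho M p)))
      = (h60_R1 (M * r) p hpMr A hA).redF (h84_u (M * r) p hpMr (h20_rho (M * r) p)) :=
  h58_W_alpha _ M r p _ _ (h58_isW_h84 M p hpM A hA) (h58_isW_h84 (M * r) p hpMr A hA)

/-- **(c)+(d)** for the `W` of the node count, in the shape `hrel` of `h28_e2_gen`:
`β̄ W_M = ᾱ W_M * V̄ ^ (p - 1)`. -/
theorem h58_h84_rel (hpr : ¬ p ∣ r)
    (φ : ↥(modularFunctionFieldFullC (IsLocalRing.ResidueField A) M) →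
      ↥(modularFunctionFieldFullC (IsLocalRing.ResidueField A) (M * r)))
    (hφ : ∀ x, ((φ x : ↥(modularFunctionFieldFullC (IsLocalRing.ResidueField A) (M * r))) :
        LaurentSeries (IsLocalRing.ResidueField A))
      = qExpand (IsLocalRing.ResidueField A) r
        ((x : ↥(modularFunctionFieldFullC (IsLocalRing.ResidueField A) M)) :
          LaurentSeries (IsLocalRing.ResidueField A)))
    (Vb : ↥(modularFunctionFieldFullC (IsLocalRing.ResidueField A) (M * r)))
    (hV : ((Vb : ↥(modularFunctionFieldFullC (IsLocalRing.ResidueField A) (M * r))) :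
        LaurentSeries (IsLocalRing.ResidueField A)) * h58_DeltaS (IsLocalRing.ResidueField A)
      = (r : LaurentSeries (IsLocalRing.ResidueField A)) ^ 6 *
        qExpand (IsLocalRing.ResidueField A) r (h58_DeltaS (IsLocalRing.ResidueField A))) :
    φ ((h60_R1 M p hpM A hA).redF (h84_u M p hpM (h20_rho M p)))
      = h10_alphaC (IsLocalRing.ResidueField A) M r
          ((h60_R1 M p hpM A hA).redF (h84_u M p hpM (h20_rho M p))) * Vb ^ (p - 1) := by
  have : CharP (IsLocalRing.ResidueField A) p := h19_residueField_charP A p hA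
  exact h58_W_rel _ M r p hpr φ hφ _ Vb (h58_isW_h84 M p hpM A hA) hV

end BridgeDeg

/-! ### (d) in the normalisation without `r⁶` (`V̄ = Δ̄(q^r)/Δ̄(q)`, the `h28_Vb` of `h28_VUnit`) -/

section NoR6

variable {k : Type*} [Field k] {p : ℕ}

/-- **(d), series form, no `r⁶`**: `(Δ̄^(p-1))(q^r) = Δ̄^(p-1) * v^(p-1)` for `v = Δ̄(q^r)/Δ̄(q)`.
No hypothesis on the characteristic. -/
theorem h58_isW_qExpand' (r : ℕ) [NeZero r]
    {s s' v : LaurentSeries k} (hs : h58_IsW k p s) (hs' : h58_IsW k p s')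
    (hv : v * h58_DeltaS k = qExpand k r (h58_DeltaS k)) :
    qExpand k r s = s' * v ^ (p - 1) := by
  rw [(h58_isW_iff k p s).mp hs, (h58_isW_iff k p s').mp hs', map_pow, ← mul_pow,
    mul_comm (h58_DeltaS k) v, hv]

/-- `h58_US K r` satisfies the hypothesis `hv`. -/
theorem h58_US_hv (K : Type*) [Field K] (r : ℕ) [NeZero r] :
    h58_US K r * h58_DeltaS K = qExpand K r (h58_DeltaS K) := h58_US_mul K r

end NoR6

section NoR6Fun

variable (k : Type) [Field k] (M r p : ℕ) [NeZero M] [NeZero r]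

omit [NeZero M] in
/-- **(d), no `r⁶`**: `β̄ W_M = W_{M r} * V̄ ^ (p - 1)` for any map `φ` acting as `q ↦ q^r` on
expansions and any `V̄` with `V̄ * Δ̄ = Δ̄(q^r)` (e.g. `h28_Vb`). -/
theorem h58_W_beta'
    (φ : ↥(modularFunctionFieldFullC k M) → ↥(modularFunctionFieldFullC k (M * r)))
    (hφ : ∀ x, ((φ x : ↥(modularFunctionFieldFullC k (M * r))) : LaurentSeries k)
      = qExpand k r ((x : ↥(modularFunctionFieldFullC k M)) : LaurentSeries k))
    (W : ↥(modularFunctionFieldFullC k M)) (W' Vb : ↥(modularFunctionFieldFullC k (M * r)))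
    (hW : h58_IsW k p ((W : ↥(modularFunctionFieldFullC k M)) : LaurentSeries k))
    (hW' : h58_IsW k p ((W' : ↥(modularFunctionFieldFullC k (M * r))) : LaurentSeries k))
    (hV : ((Vb : ↥(modularFunctionFieldFullC k (M * r))) : LaurentSeries k) * h58_DeltaS k
      = qExpand k r (h58_DeltaS k)) :
    φ W = W' * Vb ^ (p - 1) := by
  apply Subtype.ext
  rw [hφ, h58_isW_qExpand' r hW hW' hV]
  push_cast
  rfl

/-- **(c)+(d), no `r⁶`**, in the shape `hrel` of `h28_e2_gen`: `β̄ W = ᾱ W * V̄ ^ (p - 1)`. -/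
theorem h58_W_rel'
    (φ : ↥(modularFunctionFieldFullC k M) → ↥(modularFunctionFieldFullC k (M * r)))
    (hφ : ∀ x, ((φ x : ↥(modularFunctionFieldFullC k (M * r))) : LaurentSeries k)
      = qExpand k r ((x : ↥(modularFunctionFieldFullC k M)) : LaurentSeries k))
    (W : ↥(modularFunctionFieldFullC k M)) (Vb : ↥(modularFunctionFieldFullC k (M * r)))
    (hW : h58_IsW k p ((W : ↥(modularFunctionFieldFullC k M)) : LaurentSeries k))
    (hV : ((Vb : ↥(modularFunctionFieldFullC k (M * r))) : LaurentSeries k) * h58_DeltaS k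
      = qExpand k r (h58_DeltaS k)) :
    φ W = h10_alphaC k M r W * Vb ^ (p - 1) :=
  h58_W_beta' k M r p φ hφ W _ Vb hW (h58_isW_alpha k M r p W hW) hV

omit [NeZero M] in
/-- The hypothesis `hV` from the expansion of `V̄` in the shape of `h28_VS`
(`ρ̄⁶ j̄⁴ (j̄ - 1728)³ / (j̄(q^r)⁴ (j̄(q^r) - 1728)³)`). -/
theorem h58_hV_of_coe (Vb : ↥(modularFunctionFieldFullC k (M * r)))
    (hVb : ((Vb : ↥(modularFunctionFieldFullC k (M * r))) : LaurentSeries k)
      = h20_rhoS k r ^ 6 * (jqModC k ^ 4 * (jqModC k - 1728) ^ 3) /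
        (qExpand k r (jqModC k) ^ 4 * (qExpand k r (jqModC k) - 1728) ^ 3)) :
    ((Vb : ↥(modularFunctionFieldFullC k (M * r))) : LaurentSeries k) * h58_DeltaS k
      = qExpand k r (h58_DeltaS k) := by
  have h := h58_US_eq k r
  rw [h58_XS] at h
  rw [hVb, ← h, h58_US_mul]

end NoR6Fun

/-! ### The reduction `V̄` of `V = r⁶ Δ(rτ)/Δ(τ)` at a good level -/

section ModRed

variable {N : ℕ} [NeZero N] {A : ValuationSubring Qb}
  {R : h39_RedDatum Qb ↥(modularFunctionFieldBar N) (IsLocalRing.ResidueField A)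
    ↥(modularFunctionFieldFullC (IsLocalRing.ResidueField A) N)}

/-- Membership in the valuation ring of a modular reduction datum, in terms of `h60_Os`. -/
theorem h58_modRed_mem_iff (h : h54_IsModRed N A R) (f : ↥(modularFunctionFieldBar N)) :
    f ∈ R.O ↔ (f : LaurentSeries Qb) ∈ h60_Os A :=
  h.mem_iff f

/-- The reduction of a modular reduction datum is the coefficientwise reduction `h60_rs`. -/
theorem h58_modRed_coe_red (h : h54_IsModRed N A R) (f : ↥(modularFunctionFieldBar N))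
    (hf : f ∈ R.O) :
    ((R.red ⟨f, hf⟩ : ↥(modularFunctionFieldFullC (IsLocalRing.ResidueField A) N)) :
        LaurentSeries (IsLocalRing.ResidueField A))
      = h60_rs A ⟨(f : LaurentSeries Qb), (h58_modRed_mem_iff h f).mp hf⟩ := by
  obtain ⟨y₁, y₂, hy, h'⟩ := (h.mem_iff f).mp hf
  have h1 := h.red_eq f hf y₁ y₂ h'
  exact (h60_rs_eq A ⟨(f : LaurentSeries Qb), (h58_modRed_mem_iff h f).mp hf⟩
    y₁ y₂ hy h' _ h1).symm

end ModRed

section VBar

variable (M r : ℕ) [NeZero M] [NeZero r] (A : ValuationSubring Qb)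

/-- `V ∈ O` for every modular reduction datum of level `M r`. -/
theorem h58_V_mem
    {R : h39_RedDatum Qb ↥(modularFunctionFieldBar (M * r)) (IsLocalRing.ResidueField A)
      ↥(modularFunctionFieldFullC (IsLocalRing.ResidueField A) (M * r))}
    (h : h54_IsModRed (M * r) A R) : h58_V M r ∈ R.O := by
  rw [h58_modRed_mem_iff h, h58_coe_V]
  exact h58_VS_mem A r

/-- **The expansion of `V̄ = red (r⁶ Δ(rτ)/Δ(τ))` is `r⁶ Δ̄(q^r)/Δ̄(q)`.** -/
theorem h58_coe_redF_V
    {R : h39_RedDatum Qb ↥(modularFunctionFieldBar (M * r)) (IsLocalRing.ResidueField A)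
      ↥(modularFunctionFieldFullC (IsLocalRing.ResidueField A) (M * r))}
    (h : h54_IsModRed (M * r) A R) :
    ((R.redF (h58_V M r) : ↥(modularFunctionFieldFullC (IsLocalRing.ResidueField A) (M * r))) :
        LaurentSeries (IsLocalRing.ResidueField A))
      = h58_VS (IsLocalRing.ResidueField A) r := by
  rw [R.redF_of_mem (h58_V_mem M r A h), h58_modRed_coe_red h]
  have h2 : (⟨((h58_V M r : ↥(modularFunctionFieldBar (M * r))) : LaurentSeries Qb),
      (h58_modRed_mem_iff h (h58_V M r)).mp (h58_V_mem M r A h)⟩ : h60_Os A) = h58_VO A r :=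
    Subtype.ext (h58_coe_V M r)
  rw [h2, h58_rs_VO]

/-- The hypothesis `hV` of `h58_W_beta` / `h58_W_rel` / `h58_h84_rel` for
`V̄ := R.redF (h58_V M r)`. -/
theorem h58_hV_modRed
    {R : h39_RedDatum Qb ↥(modularFunctionFieldBar (M * r)) (IsLocalRing.ResidueField A)
      ↥(modularFunctionFieldFullC (IsLocalRing.ResidueField A) (M * r))}
    (h : h54_IsModRed (M * r) A R) :
    ((R.redF (h58_V M r) : ↥(modularFunctionFieldFullC (IsLocalRing.ResidueField A) (M * r))) :
        LaurentSeries (IsLocalRing.ResidueField A)) * h58_DeltaS (IsLocalRing.ResidueField A)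
      = (r : LaurentSeries (IsLocalRing.ResidueField A)) ^ 6 *
        qExpand (IsLocalRing.ResidueField A) r (h58_DeltaS (IsLocalRing.ResidueField A)) := by
  rw [h58_coe_redF_V M r A h, h58_VS_mul]

theorem h58_redF_V_ne_zero
    {R : h39_RedDatum Qb ↥(modularFunctionFieldBar (M * r)) (IsLocalRing.ResidueField A)
      ↥(modularFunctionFieldFullC (IsLocalRing.ResidueField A) (M * r))}
    (h : h54_IsModRed (M * r) A R) (hr : (r : IsLocalRing.ResidueField A) ≠ 0) :
    R.redF (h58_V M r) ≠ 0 := by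
  intro h0
  have h1 := h58_hV_modRed M r A h
  rw [h0, IntermediateField.coe_zero, zero_mul] at h1
  have hr' : (r : LaurentSeries (IsLocalRing.ResidueField A)) ≠ 0 := by
    rw [← map_natCast (algebraMap (IsLocalRing.ResidueField A)
      (LaurentSeries (IsLocalRing.ResidueField A)))]
    exact (map_ne_zero _).mpr hr
  have hq : qExpand (IsLocalRing.ResidueField A) r (h58_DeltaS (IsLocalRing.ResidueField A)) ≠ 0 :=
    fun hz => h58_DeltaS_ne_zero _ (qExpand_injective (R := IsLocalRing.ResidueField A) r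
      (by rw [hz, map_zero]))
  exact mul_ne_zero (pow_ne_zero _ hr') hq h1.symm

end VBar

section VBarR1

variable (M r p : ℕ) [NeZero M] [NeZero r] [NeZero p] [Fact p.Prime] (hpMr : ¬ p ∣ M * r)
  (A : ValuationSubring Qb) (hA : A.LiesOverPrime p)

/-- `V`, seen at level `M r p`, lies in `O₁`. -/
theorem h58_V_mem_R1 :
    heckeAlphaBar Qb (M * r) p (h58_V M r) ∈ (h60_R1 (M * r) p hpMr A hA).O := by
  rw [h60_R1_mem_iff_Os, coe_heckeAlphaBar, h58_coe_V]
  exact h58_VS_mem A r

/-- The expansion of `red₁ V` is `r⁶ Δ̄(q^r)/Δ̄(q)`. -/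
theorem h58_coe_redF_V_R1 :
    (((h60_R1 (M * r) p hpMr A hA).redF (heckeAlphaBar Qb (M * r) p (h58_V M r)) :
        ↥(modularFunctionFieldFullC (IsLocalRing.ResidueField A) (M * r))) :
          LaurentSeries (IsLocalRing.ResidueField A))
      = h58_VS (IsLocalRing.ResidueField A) r := by
  rw [(h60_R1 (M * r) p hpMr A hA).redF_of_mem (h58_V_mem_R1 M r p hpMr A hA), h60_R1_coe_red]
  have h2 : (⟨((heckeAlphaBar Qb (M * r) p (h58_V M r) :
        ↥(modularFunctionFieldBar (M * r * p))) : LaurentSeries Qb),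
      (h60_R1_mem_iff_Os (M * r) p hpMr A hA _).mp (h58_V_mem_R1 M r p hpMr A hA)⟩ :
        h60_Os A) = h58_VO A r :=
    Subtype.ext (by rw [coe_heckeAlphaBar, h58_coe_V]; rfl)
  rw [h2, h58_rs_VO]

/-- The hypothesis `hV` for `V̄ := red₁ (α_p^* V)`. -/
theorem h58_hV_R1 :
    (((h60_R1 (M * r) p hpMr A hA).redF (heckeAlphaBar Qb (M * r) p (h58_V M r)) :
        ↥(modularFunctionFieldFullC (IsLocalRing.ResidueField A) (M * r))) :
          LaurentSeries (IsLocalRing.ResidueField A)) * h58_DeltaS (IsLocalRing.ResidueField A)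
      = (r : LaurentSeries (IsLocalRing.ResidueField A)) ^ 6 *
        qExpand (IsLocalRing.ResidueField A) r (h58_DeltaS (IsLocalRing.ResidueField A)) := by
  rw [h58_coe_redF_V_R1 M r p hpMr A hA, h58_VS_mul]

end VBarR1

/-! ### Characteristic `0`: `V` has no zeros or poles where `J` is finite -/

section Ord

variable (N : ℕ) [NeZero N]

/-- `df = (df/dJ) dJ` for the derivation `h20_dJ`. -/
theorem h58_D_eq (f : ↥(modularFunctionFieldBar N)) :
    D Qb ↥(modularFunctionFieldBar N) f
      = h20_dJ N f • D Qb ↥(modularFunctionFieldBar N) (h59_jbar N) := by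
  obtain ⟨δ, hδ1, -, hδ⟩ := h73_exists_derivation (h88_isFF N) (h59_jbar_transcendental N)
  have : Algebra.IsSeparable Qb⟮h59_jbar N⟯ ↥(modularFunctionFieldBar N) :=
    (h54_isChart_jbar N).sep
  have key := h20_der_eq_zero (K := Qb) (F := ↥(modularFunctionFieldBar N))
    (E := ↥(modularFunctionFieldBar N)) (h59_jbar N)
    (fun f => δ f - h20_dJ N f) ?_ ?_ ?_ ?_ f
  · rw [hδ f, sub_eq_zero.mp key]
  · intro f g
    simp only [map_add]
    ring
  · intro f g
    simp only [Derivation.leibniz, smul_eq_mul, Algebra.algebraMap_self, RingHom.id_apply]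
    ring
  · intro c
    simp only [Derivation.map_algebraMap, sub_self]
  · simp only [hδ1, h20_dJ_j, sub_self]

end Ord

section OrdV

variable (M r : ℕ) [NeZero M] [NeZero r] [Fact r.Prime] (hrM : ¬ r ∣ M)

include hrM in
/-- **Characteristic-`0` half of (e)**: at a level `M r` with `ν₂(M) = ν₃(M) = 0`, the unit
`V = r⁶ Δ(rτ)/Δ(τ)` has order `0` at every place `P` with `0 ≤ ord_P J`. -/
theorem h58_V_ord (h2 : nuTwo M = 0) (h3 : nuThree M = 0)
    (P : Place Qb ↥(modularFunctionFieldBar (M * r)))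
    (hP : 0 ≤ P.ord (h59_jbar (M * r))) :
    P.ord (h58_V M r) = 0 := by
  have hρ : D Qb ↥(modularFunctionFieldBar (M * r)) (h60_w M r hrM (h59_jbar (M * r)))
      = ((r : ↥(modularFunctionFieldBar (M * r))) * h20_rho M r) •
        D Qb ↥(modularFunctionFieldBar (M * r)) (h59_jbar (M * r)) := by
    have hr0 : ((r : ℕ) : ↥(modularFunctionFieldBar (M * r))) ≠ 0 := by
      rw [← map_natCast (algebraMap Qb ↥(modularFunctionFieldBar (M * r)))]
      exact (map_ne_zero _).mpr (Nat.cast_ne_zero.mpr (NeZero.ne r))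
    rw [h20_w_J0, h58_D_eq (M * r) (h20_J1 M r), h20_rho, mul_inv_cancel_left₀ hr0]
  have h := h65_unit_u_ord M r hrM h2 h3 _ hρ P hP
  rw [h20_w_J0] at h
  rw [h58_V_eq]
  exact h

end OrdV

end Fermat.Agent.S40

end
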