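/-
helper23: S40 row T8 (END), ord-form branch, closed modulo W7.

* `h23_nuTwo_mul`, `h23_nuThree_mul` : no elliptic points at a multiple of a level without
  elliptic points;
* `h23_t8_ord` : the output `h92_T8Out` of T8 at the W9 block `(Sg, hSg, n0, hnode)` of a
  charted level `M` without elliptic points, for ONE Hecke prime `ℓ ∤ M p` with
  `T_ℓ [E] = a • [E]`, `p ∤ ℓ + 1 - a`, from the single hypothesis
  `hdiff` : the node orders of `u` are pairwise congruent modulo `p` (the (TR*) consequence of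
  W7).  Both count structures (levels `M` and `M ℓ`) are supplied inside
  (`h67_cnt_block`, `h87_node_closed`, `h58_isW_h84`).
* `h23_trstar_of_gamma` : (TR*) from the W7 conclusion `Γ₂ - Γ₁ = (e_ν - κ) λ`, `λ ≠ 0`;
* `h23_hdiff_of_w7` : `hdiff` from W7 in the binder shape of `h12_ej_gen` / `h15w_datum_of_w7`
  at ONE datum `(u₁, u₂, κ)` with `u₁ = u / c`;
* `h23_t8_ord_w7` : the composition.
-/
import Mathlib
import Fermat.Agent.S40.h23_E2W
import Fermat.Agent.S40.h67_W6Row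
import Fermat.Agent.S40.h58_E2WV
import Fermat.Agent.S40.h38_JumpGen

set_option autoImplicit false
set_option synthInstance.maxHeartbeats 400000
set_option linter.style.haveILetI false
set_option linter.unusedSectionVars false

noncomputable section

open ModularCurve AlgebraicCurve IntermediateField CongruenceSubgroup
open scoped MatrixGroups

namespace Fermat.Agent.S40

open Fermat.Agent.S18 Fermat.Agent.S24 Fermat.Agent.S27 Fermat.Agent.S34 Fermat.Agent.GAL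
open Fermat.Agent.S36 Fermat.Agent.S37

local notation "Qb" => AlgebraicClosure ℚ

/-- No elliptic points of order `2` at a multiple of a level without such points. -/
theorem h23_nuTwo_mul (M ℓ : ℕ) [NeZero M] (h : nuTwo M = 0) : nuTwo (M * ℓ) = 0 := by
  have hempty : IsEmpty {x : ZMod M // x ^ 2 + 1 = 0} := by
    rw [nuTwo] at h
    rcases Nat.card_eq_zero.mp h with h1 | h1
    · exact h1
    · exact absurd (inferInstance : Finite {x : ZMod M // x ^ 2 + 1 = 0}) (not_finite_iff_infinite.mpr h1)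
  have hempty' : IsEmpty {x : ZMod (M * ℓ) // x ^ 2 + 1 = 0} := by
    refine ⟨fun x => hempty.false ⟨ZMod.castHom (Dvd.intro ℓ rfl) (ZMod M) x.1, ?_⟩⟩
    have h1 := congrArg (ZMod.castHom (Dvd.intro ℓ rfl) (ZMod M)) x.2
    rwa [map_add, map_pow, map_one, map_zero] at h1
  rw [nuTwo]
  exact Nat.card_of_isEmpty

/-- No elliptic points of order `3` at a multiple of a level without such points. -/
theorem h23_nuThree_mul (M ℓ : ℕ) [NeZero M] (h : nuThree M = 0) : nuThree (M * ℓ) = 0 := by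
  have hempty : IsEmpty {x : ZMod M // x ^ 2 + x + 1 = 0} := by
    rw [nuThree] at h
    rcases Nat.card_eq_zero.mp h with h1 | h1
    · exact h1
    · exact absurd (inferInstance : Finite {x : ZMod M // x ^ 2 + x + 1 = 0})
        (not_finite_iff_infinite.mpr h1)
  have hempty' : IsEmpty {x : ZMod (M * ℓ) // x ^ 2 + x + 1 = 0} := by
    refine ⟨fun x => hempty.false ⟨ZMod.castHom (Dvd.intro ℓ rfl) (ZMod M) x.1, ?_⟩⟩
    have h1 := congrArg (ZMod.castHom (Dvd.intro ℓ rfl) (ZMod M)) x.2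
    rwa [map_add, map_add, map_pow, map_one, map_zero] at h1
  rw [nuThree]
  exact Nat.card_of_isEmpty

section Ord

variable (M p : ℕ) [NeZero M] [NeZero p] [Fact p.Prime] (hpM : ¬ p ∣ M)
  (A : ValuationSubring Qb) (hA : A.LiesOverPrime p)
  [CharP (IsLocalRing.ResidueField A) p] [IsAlgClosed (IsLocalRing.ResidueField A)]

set_option maxHeartbeats 1600000 in
/-- **T8, ord form, closed modulo W7.**  At the W9 block `(Sg, hSg, n0, hnode)` of a charted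
level `M` without elliptic points: for a Hecke prime `ℓ ∤ M p` with `T_ℓ [E] = a • [E]`,
`p ∤ ℓ + 1 - a`, `p • E = div u`, if the node orders of `u` are pairwise congruent modulo `p`
(`hdiff`, from W7), then they are all divisible by `p`. -/
theorem h23_t8_ord (ℓ : ℕ) [NeZero ℓ] (hℓ : ℓ.Prime) (hℓM : ¬ ℓ ∣ M) (hpMℓ : ¬ p ∣ M * ℓ)
    (hch : 5 ≤ p ∨ 2 ∣ M ∨ 3 ∣ M) (h2 : nuTwo M = 0) (h3 : nuThree M = 0)
    (Sg : Finset (Place (IsLocalRing.ResidueField A)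
      ↥(modularFunctionFieldFullC (IsLocalRing.ResidueField A) M)))
    (hSg : ∀ Q ∈ Sg, Q ≠ h11_placeInftyC (IsLocalRing.ResidueField A) M ∧
      h96_frobPerm (h84_isFrobChart_jk M p hpM A hA) Q ≠
        h11_placeInftyC (IsLocalRing.ResidueField A) M ∧
      h96_frobPerm (h84_isFrobChart_jk M p hpM A hA)
        (h96_frobPerm (h84_isFrobChart_jk M p hpM A hA) Q) = Q)
    (n0 : ℕ)
    (hnode : ∀ n, n0 ≤ n → ∀ a : ↥(modularFunctionFieldFullC (IsLocalRing.ResidueField A) M) ×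
        ↥(modularFunctionFieldFullC (IsLocalRing.ResidueField A) M),
      a ∈ h51_Rd (h87_D M p hpM A hA) (n • h87_D0 M p hpM) ↔
        (a ∈ h20_P (h11_placeInftyC (IsLocalRing.ResidueField A) M) n ∧
          ∀ Q ∈ Sg, ∃ c : IsLocalRing.ResidueField A,
            h39_Val (h96_frobPerm (h84_isFrobChart_jk M p hpM A hA) Q) a.1 c ∧
              h39_Val Q a.2 c))
    (a : ℤ) (ha : ¬ (p : ℤ) ∣ (ℓ : ℤ) + 1 - a)
    (E : Divisor.degZero (K := Qb) (F := modularFunctionFieldBar (M * p)))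
    (u : ↥(modularFunctionFieldBar (M * p))) (hu : u ≠ 0)
    (hdiv : ∀ v : Place Qb (modularFunctionFieldBar (M * p)),
      (p : ℤ) * (E : Divisor Qb (modularFunctionFieldBar (M * p))) v = v.ord u)
    (hTℓ : heckeOperatorBar (M * p) ⟨ℓ, hℓ⟩ (Pic0.mk E) = a • Pic0.mk E)
    (hdiff : ∀ Q ∈ Sg, ∀ Q' ∈ Sg, (p : ℤ) ∣
      h43_rord (h60_R1 M p hpM A hA) (h96_frobPerm (h84_isFrobChart_jk M p hpM A hA) Q) u -
        h43_rord (h60_R1 M p hpM A hA) (h96_frobPerm (h84_isFrobChart_jk M p hpM A hA) Q') u) :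
    h92_T8Out M p hpM A hA Sg (h96_frobPerm (h84_isFrobChart_jk M p hpM A hA)) u := by
  obtain ⟨T, hT⟩ := h67_cnt_exists_T M p hpM A hA hch
  have H := h67_cnt_block M p hpM A hA hch h2 h3 Sg hSg n0 hnode T hT
  have hch' : 5 ≤ p ∨ 2 ∣ M * ℓ ∨ 3 ∣ M * ℓ :=
    hch.imp id (Or.imp (fun h => Dvd.dvd.mul_right h ℓ) (fun h => Dvd.dvd.mul_right h ℓ))
  obtain ⟨Sg', hSg', n0', -, -, hnode'⟩ := h87_node_closed (M * ℓ) p hpMℓ A hA hch'
  obtain ⟨T', hT'⟩ := h67_cnt_exists_T (M * ℓ) p hpMℓ A hA hch'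
  have H' := h67_cnt_block (M * ℓ) p hpMℓ A hA hch' (h23_nuTwo_mul M ℓ h2)
    (h23_nuThree_mul M ℓ h3) Sg' hSg' n0' hnode' T' hT'
  exact h23_T8Out_of_count M p ℓ A hA hpM hℓ hℓM hpMℓ hch h2 h3 H (fun P hP => (hT P).mp hP)
    (h58_isW_h84 M p hpM A hA) H' hT' (h58_isW_h84 (M * ℓ) p hpMℓ A hA) a ha E u hu hdiv hTℓ
    hdiff

end Ord

section W7

/-- **(TR\*)** from the W7 conclusion: if `Γ₂ - Γ₁ = (e ν - κ) λ` for every node `ν` with
`λ ≠ 0` in a field of characteristic `p`, the integers `e ν` are pairwise congruent modulo `p`. -/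
theorem h23_trstar_of_gamma {k : Type*} [Field k] (p : ℕ) [CharP k p] (lam : k) (hlam : lam ≠ 0)
    {Z : Type*} (e : Z → ℤ) (κ : ℤ) (Γ₁ Γ₂ : k)
    (h : ∀ ν, Γ₂ - Γ₁ = ((e ν - κ : ℤ) : k) * lam) (ν ν' : Z) : (p : ℤ) ∣ e ν - e ν' := by
  have h1 := mul_right_cancel₀ hlam ((h ν).symm.trans (h ν'))
  rw [← CharP.intCast_eq_zero_iff k p]
  have h2 : ((e ν - e ν' : ℤ) : k) = ((e ν - κ : ℤ) : k) - ((e ν' - κ : ℤ) : k) := by
    push_cast
    ring
  rw [h2, h1, sub_self]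

variable {K F k Fb : Type*} [Field K] [Field F] [Algebra K F] [Field k] [Field Fb] [Algebra k Fb]

/-- **`hdiff` from W7** (binder shape of `h12_ej_gen`): W7 at ONE datum `(u₁, u₂, κ)` with
`u₁ = u / c` gives the pairwise congruence of the normalised orders of `u` at the nodes. -/
theorem h23_hdiff_of_w7_gen (R1 : h39_RedDatum K F k Fb) (S1 S2 : Subring F)
    (hS1 : ∀ f : F, f ∈ S1 → f ∈ R1.O)
    (J1 : S1 →+* TrivSqZeroExt Fb Fb) (J2 : S2 →+* TrivSqZeroExt Fb Fb)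
    (p : ℕ) [CharP k p] (lam : k) (hlam : lam ≠ 0) (π : F)
    {Z : Type*} (Q1 : Z → Place k Fb)
    (hW7 : ∀ (u1 u2 : F) (hu1 : u1 ∈ S1) (_ : u1⁻¹ ∈ S1) (hu2 : u2 ∈ S2) (_ : u2⁻¹ ∈ S2)
      (κ' : ℤ), u1 ≠ 0 → u1 = π ^ κ' * u2 → (∀ v : Place K F, (p : ℤ) ∣ v.ord u1) →
      ∃ Γ₁ Γ₂ : k, h38_IsOm J1 ⟨u1, hu1⟩ (algebraMap k Fb Γ₁) ∧
        h38_IsOm J2 ⟨u2, hu2⟩ (algebraMap k Fb Γ₂) ∧
        ∀ ν, Γ₂ - Γ₁ = (((Q1 ν).ord (R1.redF u1) - κ' : ℤ) : k) * lam)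
    (u : F) (hdiv : ∀ v : Place K F, (p : ℤ) ∣ v.ord u) (c : K) (hc : c ≠ 0)
    (u₁ u₂ : F) (hu₁ : u₁ ∈ S1) (hu₁i : u₁⁻¹ ∈ S1) (hu₂ : u₂ ∈ S2) (hu₂i : u₂⁻¹ ∈ S2)
    (κ : ℤ) (hu₁0 : u₁ ≠ 0) (hcu : u₁ = u / algebraMap K F c) (hu12 : u₁ = π ^ κ * u₂)
    (ν ν' : Z) : (p : ℤ) ∣ h43_rord R1 (Q1 ν) u - h43_rord R1 (Q1 ν') u := by
  have hc' : algebraMap K F c ≠ 0 := (map_ne_zero _).mpr hc
  have hu0 : u ≠ 0 := by
    rintro rfl
    rw [zero_div] at hcu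
    exact hu₁0 hcu
  have hdiv₁ : ∀ v : Place K F, (p : ℤ) ∣ v.ord u₁ := by
    intro v
    rw [hcu, div_eq_mul_inv, v.ord_mul hu0 (inv_ne_zero hc'), v.ord_inv, h43_ord_algebraMap,
      neg_zero, add_zero]
    exact hdiv v
  obtain ⟨Γ₁, Γ₂, -, -, h⟩ := hW7 u₁ u₂ hu₁ hu₁i hu₂ hu₂i κ hu₁0 hu12 hdiv₁
  have hru : h43_IsRUnit R1 u₁ := ⟨hu₁0, hS1 _ hu₁, hS1 _ hu₁i⟩
  have hord : ∀ Q : Place k Fb, h43_rord R1 Q u = Q.ord (R1.redF u₁) := by
    intro Q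
    have hu : u = algebraMap K F c * u₁ := by
      rw [hcu, mul_div_cancel₀ _ hc']
    rw [← h43_rord_of_unit R1 Q hru]
    conv_lhs => rw [hu]
    rw [h43_rord_mul R1 Q hc' hu₁0, h43_rord_algebraMap, zero_add]
  rw [hord, hord]
  exact h23_trstar_of_gamma p lam hlam (fun ν => (Q1 ν).ord (R1.redF u₁)) κ Γ₁ Γ₂ h ν ν'

end W7

section OrdW7

variable (M p : ℕ) [NeZero M] [NeZero p] [Fact p.Prime] (hpM : ¬ p ∣ M)
  (A : ValuationSubring Qb) (hA : A.LiesOverPrime p)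
  [CharP (IsLocalRing.ResidueField A) p] [IsAlgClosed (IsLocalRing.ResidueField A)]

set_option maxHeartbeats 1600000 in
/-- **T8, ord form, from W7** (the binder shape of `h12_ej_gen` / `h15w_datum_of_w7` for the
jets and the datum): W7 is used at ONE datum `(u₁, u₂, κ)`, `u₁ = u / c`; no jets of norms. -/
theorem h23_t8_ord_w7 (ℓ : ℕ) [NeZero ℓ] (hℓ : ℓ.Prime) (hℓM : ¬ ℓ ∣ M) (hpMℓ : ¬ p ∣ M * ℓ)
    (hch : 5 ≤ p ∨ 2 ∣ M ∨ 3 ∣ M) (h2 : nuTwo M = 0) (h3 : nuThree M = 0)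
    (Sg : Finset (Place (IsLocalRing.ResidueField A)
      ↥(modularFunctionFieldFullC (IsLocalRing.ResidueField A) M)))
    (hSg : ∀ Q ∈ Sg, Q ≠ h11_placeInftyC (IsLocalRing.ResidueField A) M ∧
      h96_frobPerm (h84_isFrobChart_jk M p hpM A hA) Q ≠
        h11_placeInftyC (IsLocalRing.ResidueField A) M ∧
      h96_frobPerm (h84_isFrobChart_jk M p hpM A hA)
        (h96_frobPerm (h84_isFrobChart_jk M p hpM A hA) Q) = Q)
    (n0 : ℕ)
    (hnode : ∀ n, n0 ≤ n → ∀ a : ↥(modularFunctionFieldFullC (IsLocalRing.ResidueField A) M) ×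
        ↥(modularFunctionFieldFullC (IsLocalRing.ResidueField A) M),
      a ∈ h51_Rd (h87_D M p hpM A hA) (n • h87_D0 M p hpM) ↔
        (a ∈ h20_P (h11_placeInftyC (IsLocalRing.ResidueField A) M) n ∧
          ∀ Q ∈ Sg, ∃ c : IsLocalRing.ResidueField A,
            h39_Val (h96_frobPerm (h84_isFrobChart_jk M p hpM A hA) Q) a.1 c ∧
              h39_Val Q a.2 c))
    (a : ℤ) (ha : ¬ (p : ℤ) ∣ (ℓ : ℤ) + 1 - a)
    (E : Divisor.degZero (K := Qb) (F := modularFunctionFieldBar (M * p)))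
    (u : ↥(modularFunctionFieldBar (M * p))) (hu : u ≠ 0)
    (hdiv : ∀ v : Place Qb (modularFunctionFieldBar (M * p)),
      (p : ℤ) * (E : Divisor Qb (modularFunctionFieldBar (M * p))) v = v.ord u)
    (hTℓ : heckeOperatorBar (M * p) ⟨ℓ, hℓ⟩ (Pic0.mk E) = a • Pic0.mk E)
    (S1 S2 : Subring ↥(modularFunctionFieldBar (M * p)))
    (hS1 : ∀ f : ↥(modularFunctionFieldBar (M * p)), f ∈ S1 → f ∈ (h60_R1 M p hpM A hA).O)
    (J1 : S1 →+* TrivSqZeroExt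
      ↥(modularFunctionFieldFullC (IsLocalRing.ResidueField A) M)
      ↥(modularFunctionFieldFullC (IsLocalRing.ResidueField A) M))
    (J2 : S2 →+* TrivSqZeroExt
      ↥(modularFunctionFieldFullC (IsLocalRing.ResidueField A) M)
      ↥(modularFunctionFieldFullC (IsLocalRing.ResidueField A) M))
    (lam : IsLocalRing.ResidueField A) (hlam : lam ≠ 0)
    {Z : Type*} (Q1 : Z → Place (IsLocalRing.ResidueField A)
      ↥(modularFunctionFieldFullC (IsLocalRing.ResidueField A) M))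
    (hQ1 : ∀ Q ∈ Sg, ∃ ν, Q1 ν = h96_frobPerm (h84_isFrobChart_jk M p hpM A hA) Q)
    (hW7 : ∀ (u1 u2 : ↥(modularFunctionFieldBar (M * p))) (hu1 : u1 ∈ S1) (_ : u1⁻¹ ∈ S1)
      (hu2 : u2 ∈ S2) (_ : u2⁻¹ ∈ S2) (κ' : ℤ), u1 ≠ 0 →
      u1 = algebraMap Qb ↥(modularFunctionFieldBar (M * p)) (p : Qb) ^ κ' * u2 →
      (∀ v : Place Qb ↥(modularFunctionFieldBar (M * p)), (p : ℤ) ∣ v.ord u1) →
      ∃ Γ₁ Γ₂ : IsLocalRing.ResidueField A,
        h38_IsOm J1 ⟨u1, hu1⟩ (algebraMap (IsLocalRing.ResidueField A)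
          ↥(modularFunctionFieldFullC (IsLocalRing.ResidueField A) M) Γ₁) ∧
        h38_IsOm J2 ⟨u2, hu2⟩ (algebraMap (IsLocalRing.ResidueField A)
          ↥(modularFunctionFieldFullC (IsLocalRing.ResidueField A) M) Γ₂) ∧
        ∀ ν, Γ₂ - Γ₁ = (((Q1 ν).ord ((h60_R1 M p hpM A hA).redF u1) - κ' : ℤ) :
          IsLocalRing.ResidueField A) * lam)
    (c : Qb) (hc : c ≠ 0) (u₁ u₂ : ↥(modularFunctionFieldBar (M * p)))
    (hu₁ : u₁ ∈ S1) (hu₁i : u₁⁻¹ ∈ S1) (hu₂ : u₂ ∈ S2) (hu₂i : u₂⁻¹ ∈ S2) (κ : ℤ)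
    (hu₁0 : u₁ ≠ 0)
    (hcu : u₁ = u / algebraMap Qb ↥(modularFunctionFieldBar (M * p)) c)
    (hu12 : u₁ = algebraMap Qb ↥(modularFunctionFieldBar (M * p)) (p : Qb) ^ κ * u₂) :
    h92_T8Out M p hpM A hA Sg (h96_frobPerm (h84_isFrobChart_jk M p hpM A hA)) u := by
  refine h23_t8_ord M p hpM A hA ℓ hℓ hℓM hpMℓ hch h2 h3 Sg hSg n0 hnode a ha E u hu hdiv hTℓ ?_
  intro Q hQ Q' hQ'
  obtain ⟨ν, hν⟩ := hQ1 Q hQ
  obtain ⟨ν', hν'⟩ := hQ1 Q' hQ'
  rw [← hν, ← hν']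
  exact h23_hdiff_of_w7_gen (h60_R1 M p hpM A hA) S1 S2 hS1 J1 J2 p lam
    hlam _ Q1 hW7 u (fun v => ⟨_, (hdiv v).symm⟩) c hc u₁ u₂ hu₁ hu₁i hu₂ hu₂i κ hu₁0 hcu hu12
    ν ν'

end OrdW7

end Fermat.Agent.S40

end
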