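import Mathlib

/-!
# S40, row (HECKE-A), generic core: a strong BLR lemma with an odd involution

`k` a field with `2 ≠ 0`, `G` a group acting `k`-linearly on a plane `V` (irreducibly) and on a
nonzero space `X`.  Assume that for every `g` ONE scalar `t` satisfies `g + d(g) g⁻¹ = t` on `V`
and on `X` (`d : G →* kˣ`), and that some `c ∈ G` has `c² = 1` on `V` and `d c = -1`.
Then there is an injective `G`-equivariant `k`-linear map `V → X` (`h24_blr_embed`).

Proof: `S = k[G]`, `σ` the anti-involution `g ↦ d(g) g⁻¹` of `S`; `ρ(s) + ρ(σ s)` is one scalar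
on `V` and `X`.  `c` has eigenvectors `v₊, v₋` on `V`; some `h` moves both eigenlines and
`w = c h - h c` satisfies `ρ_X(w)² = -n` with `n = 4 b c' ≠ 0` read off on `V`.  For `x` in the
kernel of `ρ_V` one gets `ρ_X(x y) = ρ_X(σ y) ρ_X(x)`, hence commutators kill `ρ_X(x)`, hence
`ρ_X(x) = 0`.  So `s v₊ ↦ s (1 + c) x'` is well defined.
-/

set_option autoImplicit false

namespace Fermat.Agent.S40

open Module

section star

variable {k : Type*} [Field k] {G : Type*} [Group G]

/-- The anti-involution `g ↦ d(g) g⁻¹` of the group algebra, as an algebra map into the opposite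
algebra. -/
noncomputable def h24_starHom (d : G →* kˣ) :
    MonoidAlgebra k G →ₐ[k] (MonoidAlgebra k G)ᵐᵒᵖ :=
  MonoidAlgebra.lift k (MonoidAlgebra k G)ᵐᵒᵖ G
    { toFun := fun g => MulOpposite.op (((d g : kˣ) : k) • MonoidAlgebra.of k G g⁻¹)
      map_one' := by
        rw [map_one, Units.val_one, one_smul, inv_one, map_one]
        rfl
      map_mul' := fun g h => by
        rw [← MulOpposite.op_mul]
        congr 1
        rw [smul_mul_smul_comm, ← map_mul, mul_inv_rev, map_mul, Units.val_mul, mul_comm] }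

/-- The anti-involution `g ↦ d(g) g⁻¹` of the group algebra. -/
noncomputable def h24_star (d : G →* kˣ) (s : MonoidAlgebra k G) : MonoidAlgebra k G :=
  MulOpposite.unop (h24_starHom d s)

theorem h24_star_of (d : G →* kˣ) (g : G) :
    h24_star d (MonoidAlgebra.of k G g) = ((d g : kˣ) : k) • MonoidAlgebra.of k G g⁻¹ := by
  unfold h24_star h24_starHom
  rw [MonoidAlgebra.lift_of]
  rfl

theorem h24_star_add (d : G →* kˣ) (s s' : MonoidAlgebra k G) :
    h24_star d (s + s') = h24_star d s + h24_star d s' := by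
  unfold h24_star
  rw [map_add, MulOpposite.unop_add]

theorem h24_star_smul (d : G →* kˣ) (r : k) (s : MonoidAlgebra k G) :
    h24_star d (r • s) = r • h24_star d s := by
  unfold h24_star
  rw [map_smul, MulOpposite.unop_smul]

theorem h24_star_mul (d : G →* kˣ) (s s' : MonoidAlgebra k G) :
    h24_star d (s * s') = h24_star d s' * h24_star d s := by
  unfold h24_star
  rw [map_mul, MulOpposite.unop_mul]

/-- An explicit preimage of a group element under the anti-involution. -/
theorem h24_star_pre (d : G →* kˣ) (g : G) :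
    h24_star d (((d g : kˣ) : k) • MonoidAlgebra.of k G g⁻¹) = MonoidAlgebra.of k G g := by
  rw [h24_star_smul, h24_star_of, inv_inv, smul_smul, ← Units.val_mul, ← map_mul,
    mul_inv_cancel, map_one, Units.val_one, one_smul]

end star

section blr

variable {k : Type*} [Field k] {G : Type*} [Group G]
  {V : Type*} [AddCommGroup V] [Module k V] {X : Type*} [AddCommGroup X] [Module k X]

/-- The quadratic relations extend to the group algebra: `ρ(s) + ρ(σ s)` is ONE scalar on `V`
and on `X`. -/
theorem h24_star_rel (rV : G →* Module.End k V) (rX : G →* Module.End k X) (d : G →* kˣ)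
    (hquad : ∀ g : G, ∃ t : k, rV g + ((d g : kˣ) : k) • rV g⁻¹ = t • (1 : Module.End k V) ∧
      rX g + ((d g : kˣ) : k) • rX g⁻¹ = t • (1 : Module.End k X))
    (s : MonoidAlgebra k G) :
    ∃ τ : k,
      MonoidAlgebra.lift k (Module.End k V) G rV s +
          MonoidAlgebra.lift k (Module.End k V) G rV (h24_star d s) = τ • (1 : Module.End k V) ∧
      MonoidAlgebra.lift k (Module.End k X) G rX s +
          MonoidAlgebra.lift k (Module.End k X) G rX (h24_star d s) = τ • (1 : Module.End k X) := by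
  induction s using MonoidAlgebra.induction_on with
  | of g =>
    obtain ⟨t, h1, h2⟩ := hquad g
    refine ⟨t, ?_, ?_⟩
    · rw [h24_star_of, map_smul, MonoidAlgebra.lift_of, MonoidAlgebra.lift_of, h1]
    · rw [h24_star_of, map_smul, MonoidAlgebra.lift_of, MonoidAlgebra.lift_of, h2]
  | add x y hx hy =>
    obtain ⟨τx, hx1, hx2⟩ := hx
    obtain ⟨τy, hy1, hy2⟩ := hy
    refine ⟨τx + τy, ?_, ?_⟩
    · rw [h24_star_add, map_add, map_add, add_smul, ← hx1, ← hy1]
      abel
    · rw [h24_star_add, map_add, map_add, add_smul, ← hx2, ← hy2]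
      abel
  | smul r x hx =>
    obtain ⟨τx, hx1, hx2⟩ := hx
    refine ⟨r * τx, ?_, ?_⟩
    · rw [h24_star_smul, map_smul, map_smul, ← smul_add, hx1, smul_smul]
    · rw [h24_star_smul, map_smul, map_smul, ← smul_add, hx2, smul_smul]

/-- On an irreducible plane not every group element acts as a scalar. -/
theorem h24_not_all_scalar (rV : G →* Module.End k V) (hV : finrank k V = 2)
    (hirr : ∀ N : Submodule k V, (∀ (g : G), ∀ v ∈ N, rV g v ∈ N) → N = ⊥ ∨ N = ⊤) :
    ¬ ∀ g : G, ∃ a : k, rV g = a • (1 : Module.End k V) := by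
  intro hall
  have hnt : Nontrivial V := Module.nontrivial_of_finrank_pos (R := k) (by rw [hV]; norm_num)
  obtain ⟨v, hv⟩ := exists_ne (0 : V)
  have hstab : ∀ (g : G), ∀ x ∈ Submodule.span k {v}, rV g x ∈ Submodule.span k {v} := by
    intro g x hx
    obtain ⟨a, ha⟩ := hall g
    rw [ha]
    exact Submodule.smul_mem _ _ hx
  rcases hirr _ hstab with h | h
  · have := Submodule.mem_span_singleton_self (R := k) v
    rw [h, Submodule.mem_bot] at this
    exact hv this
  · have h1 : finrank k (Submodule.span k {v}) = 1 := finrank_span_singleton hv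
    rw [h, finrank_top, hV] at h1
    norm_num at h1

/-- If `c` acts on `V` as `ε = ± 1` then every element is a scalar. -/
theorem h24_scalar_of_central (h2 : (2 : k) ≠ 0) (rV : G →* Module.End k V) (d : G →* kˣ)
    (hquad : ∀ g : G, ∃ t : k, rV g + ((d g : kˣ) : k) • rV g⁻¹ = t • (1 : Module.End k V))
    (c : G) (hdc : d c = -1) (ε : k) (hε : ε * ε = 1) (hcε : rV c = ε • (1 : Module.End k V))
    (hcinv : rV c⁻¹ = ε • (1 : Module.End k V)) (g : G) :
    ∃ a : k, rV g = a • (1 : Module.End k V) := by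
  obtain ⟨t, ht⟩ := hquad g
  obtain ⟨t', ht'⟩ := hquad (c * g)
  have e1 : rV (c * g) = ε • rV g := by rw [map_mul, hcε, smul_mul_assoc, one_mul]
  have e2 : rV (c * g)⁻¹ = ε • rV g⁻¹ := by
    rw [mul_inv_rev, map_mul, hcinv, mul_smul_comm, mul_one]
  have e3 : ((d (c * g) : kˣ) : k) = -((d g : kˣ) : k) := by
    rw [map_mul, hdc]
    simp
  rw [e1, e2, e3] at ht'
  -- `ε (g - d g g⁻¹) = t'`
  have h3 : rV g - ((d g : kˣ) : k) • rV g⁻¹ = (ε * t') • (1 : Module.End k V) := by
    have h4 : ε • (ε • rV g + -((d g : kˣ) : k) • ε • rV g⁻¹) =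
        ε • (t' • (1 : Module.End k V)) := by rw [ht']
    rw [smul_add, smul_smul, hε, one_smul, smul_comm ε, smul_smul ε ε, hε, one_smul,
      smul_smul] at h4
    rw [← h4]
    simp only [neg_smul]
    abel
  refine ⟨(t + ε * t') / 2, ?_⟩
  have h5 : (2 : k) • rV g = (t + ε * t') • (1 : Module.End k V) := by
    rw [add_smul, ← ht, ← h3, two_smul]
    abel
  have h6 : rV g = (2 : k)⁻¹ • ((2 : k) • rV g) := by
    rw [smul_smul, inv_mul_cancel₀ h2, one_smul]
  rw [h6, h5, smul_smul]
  congr 1
  field_simp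

/-- The two eigenvectors of the odd involution. -/
theorem h24_exists_eig (h2 : (2 : k) ≠ 0) (rV : G →* Module.End k V) (d : G →* kˣ)
    (hV : finrank k V = 2)
    (hquad : ∀ g : G, ∃ t : k, rV g + ((d g : kˣ) : k) • rV g⁻¹ = t • (1 : Module.End k V))
    (hirr : ∀ N : Submodule k V, (∀ (g : G), ∀ v ∈ N, rV g v ∈ N) → N = ⊥ ∨ N = ⊤)
    (c : G) (hc : rV c * rV c = 1) (hdc : d c = -1) :
    (∃ vp : V, vp ≠ 0 ∧ rV c vp = vp) ∧ ∃ vm : V, vm ≠ 0 ∧ rV c vm = -vm := by
  have hcc : ∀ v : V, rV c (rV c v) = v := fun v => by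
    have := congrArg (fun f : Module.End k V => f v) hc
    simpa using this
  have hcinv : rV c⁻¹ = rV c := by
    have h1 : rV c⁻¹ * rV c = 1 := by rw [← map_mul, inv_mul_cancel, map_one]
    calc rV c⁻¹ = rV c⁻¹ * (rV c * rV c) := by rw [hc, mul_one]
      _ = rV c := by rw [← mul_assoc, h1, one_mul]
  constructor
  · by_contra hcon
    push Not at hcon
    have h1 : rV c = (-1 : k) • (1 : Module.End k V) := by
      ext v
      have h3 : rV c (v + rV c v) = v + rV c v := by rw [map_add, hcc]; abel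
      have h4 : v + rV c v = 0 := by
        by_contra h5
        exact hcon (v + rV c v) h5 h3
      simp only [neg_smul, one_smul]
      exact eq_neg_of_add_eq_zero_right h4
    exact h24_not_all_scalar rV hV hirr
      (h24_scalar_of_central h2 rV d hquad c hdc (-1) (by ring) h1 (by rw [hcinv, h1]))
  · by_contra hcon
    push Not at hcon
    have h1 : rV c = (1 : k) • (1 : Module.End k V) := by
      ext v
      have h3 : rV c (v - rV c v) = -(v - rV c v) := by rw [map_sub, hcc]; abel
      have h4 : v - rV c v = 0 := by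
        by_contra h5
        exact hcon (v - rV c v) h5 h3
      simp only [Module.End.one_apply, one_smul]
      exact (sub_eq_zero.mp h4).symm
    exact h24_not_all_scalar rV hV hirr
      (h24_scalar_of_central h2 rV d hquad c hdc 1 (by ring) h1 (by rw [hcinv, h1]))

/-- The commutator computation: for `W = c h - h c`, `W (τ - W)` is a scalar given by the
quadratic relations for `c h`, `h c` and the commutator `c h c⁻¹ h⁻¹`. -/
theorem h24_comm_sq {Y : Type*} [AddCommGroup Y] [Module k Y] (r : G →* Module.End k Y)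
    (d : G →* kˣ) (c h : G) (t1 t2 t3 : k)
    (h1 : r (c * h) + ((d (c * h) : kˣ) : k) • r (c * h)⁻¹ = t1 • (1 : Module.End k Y))
    (h2 : r (h * c) + ((d (h * c) : kˣ) : k) • r (h * c)⁻¹ = t2 • (1 : Module.End k Y))
    (h3 : r (c * h * c⁻¹ * h⁻¹) + ((d (c * h * c⁻¹ * h⁻¹) : kˣ) : k) • r (c * h * c⁻¹ * h⁻¹)⁻¹ =
      t3 • (1 : Module.End k Y)) :
    (r c * r h - r h * r c) * ((t1 - t2) • (1 : Module.End k Y) - (r c * r h - r h * r c)) =
      ((((d c : kˣ) : k) * ((d h : kˣ) : k)) * (2 - t3)) • (1 : Module.End k Y) := by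
  have hAA' : r c * r c⁻¹ = 1 := by rw [← map_mul, mul_inv_cancel, map_one]
  have hBB' : r h * r h⁻¹ = 1 := by rw [← map_mul, mul_inv_cancel, map_one]
  have hd1 : ((d (c * h) : kˣ) : k) = ((d c : kˣ) : k) * ((d h : kˣ) : k) := by
    rw [map_mul, Units.val_mul]
  have hd2 : ((d (h * c) : kˣ) : k) = ((d c : kˣ) : k) * ((d h : kˣ) : k) := by
    rw [map_mul, Units.val_mul, mul_comm]
  have hd3 : ((d (c * h * c⁻¹ * h⁻¹) : kˣ) : k) = 1 := by
    have : d (c * h * c⁻¹ * h⁻¹) = 1 := by
      rw [map_mul, map_mul, map_mul, map_inv, map_inv]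
      rw [mul_comm (d c) (d h), mul_assoc (d h), mul_inv_cancel, mul_one, mul_inv_cancel]
    rw [this, Units.val_one]
  have e1 : r (c * h)⁻¹ = r h⁻¹ * r c⁻¹ := by rw [mul_inv_rev, map_mul]
  have e2 : r (h * c)⁻¹ = r c⁻¹ * r h⁻¹ := by rw [mul_inv_rev, map_mul]
  have e3 : r (c * h * c⁻¹ * h⁻¹) = r c * r h * r c⁻¹ * r h⁻¹ := by
    rw [map_mul, map_mul, map_mul]
  have e4 : r (c * h * c⁻¹ * h⁻¹)⁻¹ = r h * r c * r h⁻¹ * r c⁻¹ := by
    have : (c * h * c⁻¹ * h⁻¹)⁻¹ = h * c * h⁻¹ * c⁻¹ := by group
    rw [this, map_mul, map_mul, map_mul]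
  rw [hd1, e1, map_mul] at h1
  rw [hd2, e2, map_mul] at h2
  rw [hd3, one_smul, e3, e4] at h3
  -- `τ - W = d c d h (h⁻¹ c⁻¹ - c⁻¹ h⁻¹)`
  have hW' : (t1 - t2) • (1 : Module.End k Y) - (r c * r h - r h * r c) =
      (((d c : kˣ) : k) * ((d h : kˣ) : k)) • (r h⁻¹ * r c⁻¹ - r c⁻¹ * r h⁻¹) := by
    rw [sub_smul, ← h1, ← h2, smul_sub]
    abel
  rw [hW', mul_smul_comm]
  have hexp : (r c * r h - r h * r c) * (r h⁻¹ * r c⁻¹ - r c⁻¹ * r h⁻¹) =
      r c * (r h * r h⁻¹) * r c⁻¹ - r c * r h * r c⁻¹ * r h⁻¹ - r h * r c * r h⁻¹ * r c⁻¹ +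
        r h * (r c * r c⁻¹) * r h⁻¹ := by
    noncomm_ring
  rw [hexp, hBB', hAA', mul_one, mul_one, hAA', hBB']
  have h5 : (1 : Module.End k Y) - r c * r h * r c⁻¹ * r h⁻¹ - r h * r c * r h⁻¹ * r c⁻¹ + 1 =
      (2 - t3) • (1 : Module.End k Y) := by
    rw [sub_smul, ← h3, two_smul]
    abel
  rw [h5, smul_smul]

/-- **Strong BLR with an odd involution.**  An injective equivariant map `V → X`. -/
theorem h24_blr_embed (h2 : (2 : k) ≠ 0) [Nontrivial X] (hV : finrank k V = 2)
    (rV : G →* Module.End k V) (rX : G →* Module.End k X) (d : G →* kˣ)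
    (hquad : ∀ g : G, ∃ t : k, rV g + ((d g : kˣ) : k) • rV g⁻¹ = t • (1 : Module.End k V) ∧
      rX g + ((d g : kˣ) : k) • rX g⁻¹ = t • (1 : Module.End k X))
    (hirr : ∀ N : Submodule k V, (∀ (g : G), ∀ v ∈ N, rV g v ∈ N) → N = ⊥ ∨ N = ⊤)
    (c : G) (hc : rV c * rV c = 1) (hdc : d c = -1) :
    ∃ φ : V →ₗ[k] X, Function.Injective φ ∧ ∀ (g : G) (v : V), φ (rV g v) = rX g (φ v) := by
  classical
  have hquadV : ∀ g : G, ∃ t : k,
      rV g + ((d g : kˣ) : k) • rV g⁻¹ = t • (1 : Module.End k V) := fun g => by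
    obtain ⟨t, h, -⟩ := hquad g
    exact ⟨t, h⟩
  obtain ⟨⟨vp, hvp, hcp⟩, ⟨vm, hvm, hcm⟩⟩ := h24_exists_eig h2 rV d hV hquadV hirr c hc hdc
  -- `vp, vm` is a basis
  have hli : LinearIndependent k ![vp, vm] := by
    rw [LinearIndependent.pair_iff]
    intro s t hst
    have h1 : s • vp - t • vm = 0 := by
      have := congrArg (rV c) hst
      rw [map_add, map_smul, map_smul, hcp, hcm, map_zero, smul_neg] at this
      rw [← this]
      abel
    have h3 : (2 * s) • vp = 0 := by
      rw [mul_smul, two_smul]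
      calc s • vp + s • vp = (s • vp + t • vm) + (s • vp - t • vm) := by abel
        _ = 0 := by rw [hst, h1, add_zero]
    have hs : s = 0 := by
      rcases smul_eq_zero.mp h3 with h | h
      · exact (mul_eq_zero.mp h).resolve_left h2
      · exact absurd h hvp
    refine ⟨hs, ?_⟩
    rw [hs, zero_smul, zero_add] at hst
    exact (smul_eq_zero.mp hst).resolve_right hvm
  let b : Basis (Fin 2) k V := basisOfLinearIndependentOfCardEqFinrank hli (by simp [hV])
  have hb : ⇑b = ![vp, vm] := coe_basisOfLinearIndependentOfCardEqFinrank hli _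
  have hb0 : b 0 = vp := by rw [hb]; rfl
  have hb1 : b 1 = vm := by rw [hb]; rfl
  -- coordinates
  have hdec : ∀ v : V, v = b.coord 0 v • vp + b.coord 1 v • vm := by
    intro v
    conv_lhs => rw [← b.sum_repr v]
    rw [Fin.sum_univ_two, hb0, hb1]
    rfl
  have hpp : b.coord 0 vp = 1 := by
    rw [← hb0, Basis.coord_apply, Basis.repr_self, Finsupp.single_eq_same]
  have hpm : b.coord 0 vm = 0 := by
    rw [← hb1, Basis.coord_apply, Basis.repr_self, Finsupp.single_apply]
    simp
  have hmp : b.coord 1 vp = 0 := by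
    rw [← hb0, Basis.coord_apply, Basis.repr_self, Finsupp.single_apply]
    simp
  have hmm : b.coord 1 vm = 1 := by
    rw [← hb1, Basis.coord_apply, Basis.repr_self, Finsupp.single_eq_same]
  have hinj : ∀ (g : G) (v : V), rV g v = 0 → v = 0 := by
    intro g v hv
    have h1 : rV g⁻¹ (rV g v) = v := by
      rw [← Module.End.mul_apply, ← map_mul, inv_mul_cancel, map_one, Module.End.one_apply]
    rw [← h1, hv, map_zero]
  -- an element moving both eigenlines
  have hg1 : ∃ g : G, b.coord 1 (rV g vp) ≠ 0 := by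
    by_contra hcon
    push Not at hcon
    have hstab : ∀ (g : G), ∀ x ∈ Submodule.span k {vp}, rV g x ∈ Submodule.span k {vp} := by
      intro g x hx
      obtain ⟨a, rfl⟩ := Submodule.mem_span_singleton.mp hx
      rw [map_smul]
      refine Submodule.smul_mem _ _ ?_
      rw [hdec (rV g vp), hcon g, zero_smul, add_zero]
      exact Submodule.smul_mem _ _ (Submodule.mem_span_singleton_self vp)
    rcases hirr _ hstab with h | h
    · have := Submodule.mem_span_singleton_self (R := k) vp
      rw [h, Submodule.mem_bot] at this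
      exact hvp this
    · have h1 : finrank k (Submodule.span k {vp}) = 1 := finrank_span_singleton hvp
      rw [h, finrank_top, hV] at h1
      norm_num at h1
  have hg2 : ∃ g : G, b.coord 0 (rV g vm) ≠ 0 := by
    by_contra hcon
    push Not at hcon
    have hstab : ∀ (g : G), ∀ x ∈ Submodule.span k {vm}, rV g x ∈ Submodule.span k {vm} := by
      intro g x hx
      obtain ⟨a, rfl⟩ := Submodule.mem_span_singleton.mp hx
      rw [map_smul]
      refine Submodule.smul_mem _ _ ?_
      rw [hdec (rV g vm), hcon g, zero_smul, zero_add]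
      exact Submodule.smul_mem _ _ (Submodule.mem_span_singleton_self vm)
    rcases hirr _ hstab with h | h
    · have := Submodule.mem_span_singleton_self (R := k) vm
      rw [h, Submodule.mem_bot] at this
      exact hvm this
    · have h1 : finrank k (Submodule.span k {vm}) = 1 := finrank_span_singleton hvm
      rw [h, finrank_top, hV] at h1
      norm_num at h1
  have hh : ∃ h : G, b.coord 1 (rV h vp) ≠ 0 ∧ b.coord 0 (rV h vm) ≠ 0 := by
    obtain ⟨g1, hg1⟩ := hg1
    obtain ⟨g2, hg2⟩ := hg2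
    by_cases h1 : b.coord 0 (rV g1 vm) = 0
    swap
    · exact ⟨g1, hg1, h1⟩
    by_cases h2' : b.coord 1 (rV g2 vp) = 0
    swap
    · exact ⟨g2, h2', hg2⟩
    -- `g1 vm = e1 vm`, `g2 vp = a2 vp`
    obtain ⟨ee, e1⟩ : ∃ ee : k, rV g1 vm = ee • vm :=
      ⟨_, by conv_lhs => rw [hdec (rV g1 vm), h1, zero_smul, zero_add]⟩
    obtain ⟨a2, e2⟩ : ∃ a2 : k, rV g2 vp = a2 • vp :=
      ⟨_, by conv_lhs => rw [hdec (rV g2 vp), h2', zero_smul, add_zero]⟩
    have ha2 : a2 ≠ 0 := by
      intro h0
      rw [h0, zero_smul] at e2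
      exact hvp (hinj g2 vp e2)
    have ha1 : b.coord 0 (rV g1 vp) ≠ 0 := by
      intro h0
      -- `g1 vp = c1 vm`, `g1 vm = ee vm`
      obtain ⟨c1, e3⟩ : ∃ c1 : k, rV g1 vp = c1 • vm :=
        ⟨_, by conv_lhs => rw [hdec (rV g1 vp), h0, zero_smul, zero_add]⟩
      have h4 : rV g1 (ee • vp - c1 • vm) = 0 := by
        rw [map_sub, map_smul, map_smul, e3, e1, smul_smul, smul_smul, mul_comm, sub_self]
      have h5 := hinj g1 _ h4
      have h6 := (LinearIndependent.pair_iff.mp hli) ee (-c1)
        (by rw [neg_smul, ← sub_eq_add_neg]; exact h5)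
      rw [h6.1, zero_smul] at e1
      exact hvm (hinj g1 vm e1)
    refine ⟨g1 * g2, ?_, ?_⟩
    · rw [map_mul, Module.End.mul_apply, e2, map_smul, map_smul, smul_eq_mul]
      exact mul_ne_zero ha2 hg1
    · rw [map_mul, Module.End.mul_apply, hdec (rV g2 vm), map_add, map_smul, map_smul, map_add,
        map_smul, map_smul, smul_eq_mul, smul_eq_mul, e1, map_smul, hpm, smul_eq_mul, mul_zero,
        mul_zero, add_zero]
      exact mul_ne_zero hg2 ha1
  obtain ⟨h, hc', hbb⟩ := hh
  -- the commutator `W = c h - h c`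
  obtain ⟨t1, h1V, h1X⟩ := hquad (c * h)
  obtain ⟨t2, h2V, h2X⟩ := hquad (h * c)
  obtain ⟨t3, h3V, h3X⟩ := hquad (c * h * c⁻¹ * h⁻¹)
  have hsqV := h24_comm_sq rV d c h t1 t2 t3 h1V h2V h3V
  have hsqX := h24_comm_sq rX d c h t1 t2 t3 h1X h2X h3X
  set n : k := (((d c : kˣ) : k) * ((d h : kˣ) : k)) * (2 - t3) with hn
  obtain ⟨WV, hWV⟩ : ∃ W : Module.End k V, W = rV c * rV h - rV h * rV c := ⟨_, rfl⟩
  obtain ⟨WX, hWX⟩ : ∃ W : Module.End k X, W = rX c * rX h - rX h * rX c := ⟨_, rfl⟩
  rw [← hWV] at hsqV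
  rw [← hWX] at hsqX
  have hWp : WV vp = (-(2 * b.coord 1 (rV h vp))) • vm := by
    rw [hWV, LinearMap.sub_apply, Module.End.mul_apply, Module.End.mul_apply, hcp]
    have e := hdec (rV h vp)
    generalize b.coord 0 (rV h vp) = a at e
    generalize b.coord 1 (rV h vp) = c' at e ⊢
    rw [e, map_add, map_smul, map_smul, hcp, hcm, neg_smul, mul_smul, two_smul]
    simp only [smul_neg]
    abel
  have hWm : WV vm = (2 * b.coord 0 (rV h vm)) • vp := by
    rw [hWV, LinearMap.sub_apply, Module.End.mul_apply, Module.End.mul_apply, hcm, map_neg]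
    have e := hdec (rV h vm)
    generalize b.coord 1 (rV h vm) = a at e
    generalize b.coord 0 (rV h vm) = c' at e ⊢
    rw [e, map_add, map_smul, map_smul, hcp, hcm, mul_smul, two_smul]
    simp only [smul_neg]
    abel
  have hn0 : n ≠ 0 := by
    have h4 := congrArg (fun f : Module.End k V => f vp) hsqV
    beta_reduce at h4
    rw [Module.End.mul_apply, LinearMap.sub_apply, LinearMap.smul_apply, Module.End.one_apply,
      LinearMap.smul_apply, Module.End.one_apply, hWp, map_sub, map_smul, map_smul, hWp,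
      hWm] at h4
    have h5 := congrArg (b.coord 0) h4
    rw [map_sub, map_smul, map_smul, map_smul, map_smul, map_smul, hpm, hpp] at h5
    simp only [smul_eq_mul, mul_zero, mul_one, zero_sub] at h5
    rw [← h5]
    have : -(-(2 * b.coord 1 (rV h vp)) * (2 * b.coord 0 (rV h vm))) =
        4 * (b.coord 1 (rV h vp) * b.coord 0 (rV h vm)) := by ring
    rw [this]
    have h4' : (4 : k) ≠ 0 := by
      have : (4 : k) = 2 * 2 := by norm_num
      rw [this]
      exact mul_ne_zero h2 h2
    exact mul_ne_zero h4' (mul_ne_zero hc' hbb)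
  have hWinj : ∀ x : X, WX x = 0 → x = 0 := by
    intro x hx
    have h4 := congrArg (fun f : Module.End k X => f x) hsqX
    beta_reduce at h4
    rw [Module.End.mul_apply, LinearMap.sub_apply, LinearMap.smul_apply, Module.End.one_apply,
      LinearMap.smul_apply, Module.End.one_apply, hx, sub_zero, map_smul, hx, smul_zero] at h4
    exact (smul_eq_zero.mp h4.symm).resolve_left hn0
  -- the algebra maps
  set ρV : MonoidAlgebra k G →ₐ[k] Module.End k V := MonoidAlgebra.lift k (Module.End k V) G rV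
    with hρV
  set ρX : MonoidAlgebra k G →ₐ[k] Module.End k X := MonoidAlgebra.lift k (Module.End k X) G rX
    with hρX
  have hρVof : ∀ g : G, ρV (MonoidAlgebra.of k G g) = rV g := fun g =>
    MonoidAlgebra.lift_of rV g
  have hρXof : ∀ g : G, ρX (MonoidAlgebra.of k G g) = rX g := fun g =>
    MonoidAlgebra.lift_of rX g
  have hrel := h24_star_rel rV rX d hquad
  -- kernel inclusion
  have hker : ∀ x : MonoidAlgebra k G, ρV x = 0 → ρX x = 0 := by
    intro x hx
    obtain ⟨τx, hxV, hxX⟩ := hrel x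
    rw [← hρV] at hxV
    rw [← hρX] at hxX
    rw [hx, zero_add] at hxV
    -- the relation for `x * y`
    have hxy : ∀ y : MonoidAlgebra k G, ∃ τ : k,
        τx • ρV (h24_star d y) = τ • (1 : Module.End k V) ∧
        ρX (x * y) + ρX (h24_star d y) * ρX (h24_star d x) = τ • (1 : Module.End k X) := by
      intro y
      obtain ⟨τ, hV', hX'⟩ := hrel (x * y)
      rw [← hρV] at hV'
      rw [← hρX] at hX'
      refine ⟨τ, ?_, ?_⟩
      · rw [h24_star_mul, map_mul, map_mul, hx, zero_mul, zero_add, hxV, mul_smul_comm,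
          mul_one] at hV'
        exact hV'
      · rw [h24_star_mul, map_mul (f := ρX) (h24_star d y)] at hX'
        exact hX'
    -- `τx = 0`
    have hτx : τx = 0 := by
      by_contra hne
      obtain ⟨τ, hτ, -⟩ := hxy (((d c : kˣ) : k) • MonoidAlgebra.of k G c⁻¹)
      rw [h24_star_pre, hρVof] at hτ
      have e1 := congrArg (fun f : Module.End k V => f vp) hτ
      have e2 := congrArg (fun f : Module.End k V => f vm) hτ
      simp only [LinearMap.smul_apply, Module.End.one_apply] at e1 e2
      rw [hcp] at e1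
      rw [hcm] at e2
      have e3 : τx = τ := by
        have : (τx - τ) • vp = 0 := by rw [sub_smul, e1, sub_self]
        exact sub_eq_zero.mp ((smul_eq_zero.mp this).resolve_right hvp)
      have e4 : -τx = τ := by
        have : (-τx - τ) • vm = 0 := by rw [sub_smul, neg_smul, ← smul_neg, e2, sub_self]
        exact sub_eq_zero.mp ((smul_eq_zero.mp this).resolve_right hvm)
      have e5 : 2 * τx = 0 := by linear_combination e3 - e4
      exact hne ((mul_eq_zero.mp e5).resolve_left h2)
    have hstarx : ρX (h24_star d x) = -ρX x := by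
      rw [hτx, zero_smul] at hxX
      exact eq_neg_of_add_eq_zero_right hxX
    -- `ρX (x y) = ρX (σ y) ρX x`
    have hmul : ∀ y : MonoidAlgebra k G, ρX (x * y) = ρX (h24_star d y) * ρX x := by
      intro y
      obtain ⟨τ, hτ, hX'⟩ := hxy y
      rw [hτx, zero_smul] at hτ
      have hτ0 : τ = 0 := by
        have := congrArg (fun f : Module.End k V => f vp) hτ
        simp only [LinearMap.zero_apply, LinearMap.smul_apply, Module.End.one_apply] at this
        exact (smul_eq_zero.mp this.symm).resolve_right hvp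
      rw [hτ0, zero_smul, hstarx, mul_neg] at hX'
      exact (sub_eq_zero.mp (by rw [sub_eq_add_neg]; exact hX'))
    set yc : MonoidAlgebra k G := ((d c : kˣ) : k) • MonoidAlgebra.of k G c⁻¹ with hyc
    set yh : MonoidAlgebra k G := ((d h : kˣ) : k) • MonoidAlgebra.of k G h⁻¹ with hyh
    have hsc : ρX (h24_star d yc) = rX c := by rw [hyc, h24_star_pre, hρXof]
    have hsh : ρX (h24_star d yh) = rX h := by rw [hyh, h24_star_pre, hρXof]
    have e1 : ρX (x * (yh * yc)) = rX c * rX h * ρX x := by
      rw [hmul, h24_star_mul, map_mul, hsc, hsh]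
    have e2 : ρX (x * (yh * yc)) = rX h * rX c * ρX x := by
      rw [← mul_assoc, map_mul, hmul yh, hsh, mul_assoc, ← map_mul, hmul yc, hsc, mul_assoc]
    have e3 : WX * ρX x = 0 := by
      rw [hWX, sub_mul, ← e1, ← e2, sub_self]
    ext v
    have := congrArg (fun f : Module.End k X => f v) e3
    simp only [Module.End.mul_apply, LinearMap.zero_apply] at this
    exact hWinj _ this
  -- the base point
  have hx' : ∃ x' : X, x' + rX c x' ≠ 0 := by
    by_contra hcon
    push Not at hcon
    have hc1 : ∀ x : X, rX c x = -x := fun x => (eq_neg_of_add_eq_zero_right (hcon x))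
    obtain ⟨x, hx⟩ := exists_ne (0 : X)
    refine hx (hWinj x ?_)
    rw [hWX, LinearMap.sub_apply, Module.End.mul_apply, Module.End.mul_apply, hc1, hc1, map_neg,
      sub_self]
  obtain ⟨x', hx'⟩ := hx'
  set x0 : X := x' + rX c x' with hx0
  let f : MonoidAlgebra k G →ₗ[k] V := (LinearMap.applyₗ vp).comp ρV.toLinearMap
  let g : MonoidAlgebra k G →ₗ[k] X := (LinearMap.applyₗ x0).comp ρX.toLinearMap
  have hf : ∀ s, f s = ρV s vp := fun s => rfl
  have hg : ∀ s, g s = ρX s x0 := fun s => rfl
  have hkerfg : LinearMap.ker f ≤ LinearMap.ker g := by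
    intro s hs
    rw [LinearMap.mem_ker, hf] at hs
    rw [LinearMap.mem_ker, hg]
    have h7 : ∀ v : V, v + rV c v = (2 * b.coord 0 v) • vp := by
      intro v
      have e := hdec v
      generalize b.coord 0 v = a at e ⊢
      generalize b.coord 1 v = c' at e
      rw [e, map_add, map_smul, map_smul, hcp, hcm, smul_neg, mul_smul, two_smul]
      abel
    have h4 : ρV (s * (1 + MonoidAlgebra.of k G c)) = 0 := by
      ext v
      rw [map_mul, map_add, map_one, hρVof, Module.End.mul_apply, LinearMap.add_apply,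
        Module.End.one_apply, LinearMap.zero_apply, h7, map_smul, hs, smul_zero]
    have h5 := hker _ h4
    have h6 := congrArg (fun F : Module.End k X => F x') h5
    simp only [LinearMap.zero_apply] at h6
    rw [map_mul, map_add, map_one, hρXof, Module.End.mul_apply, LinearMap.add_apply,
      Module.End.one_apply] at h6
    exact h6
  have hfstab : ∀ (γ : G) (s : MonoidAlgebra k G), rV γ (f s) = f (MonoidAlgebra.of k G γ * s) := by
    intro γ s
    rw [hf, hf, map_mul, hρVof, Module.End.mul_apply]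
  have hgstab : ∀ (γ : G) (s : MonoidAlgebra k G), rX γ (g s) = g (MonoidAlgebra.of k G γ * s) := by
    intro γ s
    rw [hg, hg, map_mul, hρXof, Module.End.mul_apply]
  have hsurj : Function.Surjective f := by
    have hstab : ∀ (γ : G), ∀ v ∈ LinearMap.range f, rV γ v ∈ LinearMap.range f := by
      rintro γ _ ⟨s, rfl⟩
      exact ⟨_, (hfstab γ s).symm⟩
    have hmem : vp ∈ LinearMap.range f := ⟨1, by rw [hf, map_one, Module.End.one_apply]⟩
    rcases hirr _ hstab with h | h
    · rw [h, Submodule.mem_bot] at hmem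
      exact absurd hmem hvp
    · exact LinearMap.range_eq_top.mp h
  let φ : V →ₗ[k] X := ((LinearMap.ker f).liftQ g hkerfg).comp
    (f.quotKerEquivOfSurjective hsurj).symm.toLinearMap
  have hφ : ∀ s, φ (f s) = g s := by
    intro s
    have h1 : (f.quotKerEquivOfSurjective hsurj).symm (f s) = Submodule.Quotient.mk s := by
      rw [LinearEquiv.symm_apply_eq, LinearMap.quotKerEquivOfSurjective_apply_mk]
    show ((LinearMap.ker f).liftQ g hkerfg) ((f.quotKerEquivOfSurjective hsurj).symm (f s)) = g s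
    rw [h1, Submodule.liftQ_apply]
  have hequiv : ∀ (γ : G) (v : V), φ (rV γ v) = rX γ (φ v) := by
    intro γ v
    obtain ⟨s, rfl⟩ := hsurj v
    rw [hfstab, hφ, hφ, hgstab]
  refine ⟨φ, ?_, hequiv⟩
  have hstabk : ∀ (γ : G), ∀ v ∈ LinearMap.ker φ, rV γ v ∈ LinearMap.ker φ := by
    intro γ v hv
    rw [LinearMap.mem_ker] at hv ⊢
    rw [hequiv, hv, map_zero]
  rcases hirr _ hstabk with h | h
  · exact LinearMap.ker_eq_bot.mp h
  · exfalso
    have h1 : vp ∈ LinearMap.ker φ := by rw [h]; trivial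
    rw [LinearMap.mem_ker] at h1
    have h3 : φ vp = x0 := by
      have := hφ 1
      rw [hf, hg, map_one, map_one, Module.End.one_apply, Module.End.one_apply] at this
      exact this
    rw [h3] at h1
    exact hx' h1

end blr

end Fermat.Agent.S40
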