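import Fermat.Agent.S40.h24_BlrEmbed
import Fermat.Agent.S41.h45_GaloisCore
import Fermat.Agent.GAL.Pow

/-!
# S40, row (HECKE-A): the BLR embedding in the Frobenius-power shape

`h24_embed_frob`: the hypotheses are those of S41's `h45_galois_core` (`hF`, with the clauses for
the second module `Y` added): every `g` acts on `V` and on `Y` as a power `σ ^ b` of an element
`σ` killed by `X² - t X + χ(σ)` on both modules.  Conclusion: an injective equivariant
`𝔽_p`-linear map `V → Y`.  (Power trick on the product algebra `End V × End Y`, then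
`h24_blr_embed`.)
-/

set_option autoImplicit false

namespace Fermat.Agent.S40

open Module Fermat.Agent.S41

/-- The action as a monoid homomorphism into `End`. -/
noncomputable def h24_rhoHom (p : ℕ) [Fact p.Prime] (G : Type*) [Group G] (V : Type*)
    [AddCommGroup V] [Module (ZMod p) V] [DistribMulAction G V] : G →* Module.End (ZMod p) V where
  toFun := fun g => h45_rho p g
  map_one' := h45_rho_one p
  map_mul' := fun g h => h45_rho_mul p g h

theorem h24_rhoHom_apply (p : ℕ) [Fact p.Prime] {G : Type*} [Group G] {V : Type*}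
    [AddCommGroup V] [Module (ZMod p) V] [DistribMulAction G V] (g : G) (v : V) :
    h24_rhoHom p G V g v = g • v := rfl

/-- The quadratic relation in `End`, `σ + χ(σ) σ⁻¹ = t`, from the pointwise relation. -/
theorem h24_quad_end {p : ℕ} [Fact p.Prime] {G : Type*} [Group G] {V : Type*}
    [AddCommGroup V] [Module (ZMod p) V] [DistribMulAction G V] (σ : G) (t δ : ZMod p)
    (h : ∀ v : V, σ • σ • v - t • σ • v + δ • v = 0) :
    h24_rhoHom p G V σ + δ • h24_rhoHom p G V σ⁻¹ = t • (1 : Module.End (ZMod p) V) := by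
  ext w
  have h1 := h (σ⁻¹ • w)
  rw [smul_inv_smul] at h1
  simp only [LinearMap.add_apply, LinearMap.smul_apply, h24_rhoHom_apply, Module.End.one_apply]
  have h2 : σ • w + δ • σ⁻¹ • w - t • w = 0 := by rw [← h1]; abel
  exact sub_eq_zero.mp h2

/-- **BLR embedding, Frobenius-power shape** (the `hF` shape of `h45_galois_core` for the pair
`(V, Y)`). -/
theorem h24_embed_frob {p : ℕ} [Fact p.Prime] (hp2 : p ≠ 2) {G : Type*} [Group G]
    {V : Type*} [AddCommGroup V] [Module (ZMod p) V] [DistribMulAction G V]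
    {Y : Type*} [AddCommGroup Y] [Module (ZMod p) Y] [DistribMulAction G Y] [Nontrivial Y]
    (hcard : Nat.card V = p ^ 2)
    (hirr : ∀ N : Submodule (ZMod p) V, (∀ (g : G), ∀ x ∈ N, g • x ∈ N) → N = ⊥ ∨ N = ⊤)
    (χ : G →* (ZMod p)ˣ) (c : G) (hc : ∀ v : V, c • c • v = v) (hχc : χ c = -1)
    (hF : ∀ g : G, ∃ (σ : G) (b : ℕ) (t : ZMod p),
      (∀ v : V, σ ^ b • v = g • v) ∧ (∀ y : Y, σ ^ b • y = g • y) ∧ χ σ ^ b = χ g ∧
      (∀ v : V, σ • σ • v - t • σ • v + ((χ σ : (ZMod p)ˣ) : ZMod p) • v = 0) ∧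
      (∀ y : Y, σ • σ • y - t • σ • y + ((χ σ : (ZMod p)ˣ) : ZMod p) • y = 0)) :
    ∃ iota : V →ₗ[ZMod p] Y, Function.Injective iota ∧
      ∀ (g : G) (v : V), iota (g • v) = g • iota v := by
  have hp : p.Prime := Fact.out
  have h2 : (2 : ZMod p) ≠ 0 := by
    intro h
    have h1 : ((2 : ℕ) : ZMod p) = 0 := by exact_mod_cast h
    rw [ZMod.natCast_eq_zero_iff] at h1
    exact hp2 ((Nat.prime_dvd_prime_iff_eq hp Nat.prime_two).mp h1)
  have hquad : ∀ g : G, ∃ t : ZMod p,
      h24_rhoHom p G V g + ((χ g : (ZMod p)ˣ) : ZMod p) • h24_rhoHom p G V g⁻¹ =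
          t • (1 : Module.End (ZMod p) V) ∧
      h24_rhoHom p G Y g + ((χ g : (ZMod p)ˣ) : ZMod p) • h24_rhoHom p G Y g⁻¹ =
          t • (1 : Module.End (ZMod p) Y) := by
    intro g
    obtain ⟨σ, b, t, hbV, hbY, hχ, hqV, hqY⟩ := hF g
    -- the power trick on the product algebra
    have hprod := Fermat.Agent.GAL.h5_pow_scalar_end (k := ZMod p)
      (A := Module.End (ZMod p) V × Module.End (ZMod p) Y)
      (h24_rhoHom p G V σ, h24_rhoHom p G Y σ) (h24_rhoHom p G V σ⁻¹, h24_rhoHom p G Y σ⁻¹)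
      (by
        ext1
        · show h24_rhoHom p G V σ * h24_rhoHom p G V σ⁻¹ = 1
          rw [← map_mul, mul_inv_cancel, map_one]
        · show h24_rhoHom p G Y σ * h24_rhoHom p G Y σ⁻¹ = 1
          rw [← map_mul, mul_inv_cancel, map_one])
      (by
        ext1
        · show h24_rhoHom p G V σ⁻¹ * h24_rhoHom p G V σ = 1
          rw [← map_mul, inv_mul_cancel, map_one]
        · show h24_rhoHom p G Y σ⁻¹ * h24_rhoHom p G Y σ = 1
          rw [← map_mul, inv_mul_cancel, map_one])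
      ((χ σ : (ZMod p)ˣ) : ZMod p) t
      (by
        ext1
        · exact h24_quad_end σ t _ hqV
        · exact h24_quad_end σ t _ hqY)
      b
    obtain ⟨t', ht'⟩ := hprod
    have e1 := congrArg Prod.fst ht'
    have e2 := congrArg Prod.snd ht'
    simp only [Prod.fst_add, Prod.snd_add, Prod.smul_fst, Prod.smul_snd, Prod.pow_fst,
      Prod.pow_snd, Prod.fst_one, Prod.snd_one] at e1 e2
    have hgV : h24_rhoHom p G V g = h24_rhoHom p G V σ ^ b := by
      rw [← map_pow]
      ext v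
      rw [h24_rhoHom_apply, h24_rhoHom_apply, hbV]
    have hgY : h24_rhoHom p G Y g = h24_rhoHom p G Y σ ^ b := by
      rw [← map_pow]
      ext v
      rw [h24_rhoHom_apply, h24_rhoHom_apply, hbY]
    have hgV' : h24_rhoHom p G V g⁻¹ = h24_rhoHom p G V σ⁻¹ ^ b := by
      have h3 : h24_rhoHom p G V g⁻¹ * h24_rhoHom p G V g = 1 := by
        rw [← map_mul, inv_mul_cancel, map_one]
      have h4 : h24_rhoHom p G V σ ^ b * h24_rhoHom p G V σ⁻¹ ^ b = 1 := by
        rw [← map_pow, ← map_pow, ← map_mul, inv_pow, mul_inv_cancel, map_one]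
      calc h24_rhoHom p G V g⁻¹
          = h24_rhoHom p G V g⁻¹ * (h24_rhoHom p G V σ ^ b * h24_rhoHom p G V σ⁻¹ ^ b) := by
            rw [h4, mul_one]
        _ = h24_rhoHom p G V σ⁻¹ ^ b := by rw [← mul_assoc, ← hgV, h3, one_mul]
    have hgY' : h24_rhoHom p G Y g⁻¹ = h24_rhoHom p G Y σ⁻¹ ^ b := by
      have h3 : h24_rhoHom p G Y g⁻¹ * h24_rhoHom p G Y g = 1 := by
        rw [← map_mul, inv_mul_cancel, map_one]
      have h4 : h24_rhoHom p G Y σ ^ b * h24_rhoHom p G Y σ⁻¹ ^ b = 1 := by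
        rw [← map_pow, ← map_pow, ← map_mul, inv_pow, mul_inv_cancel, map_one]
      calc h24_rhoHom p G Y g⁻¹
          = h24_rhoHom p G Y g⁻¹ * (h24_rhoHom p G Y σ ^ b * h24_rhoHom p G Y σ⁻¹ ^ b) := by
            rw [h4, mul_one]
        _ = h24_rhoHom p G Y σ⁻¹ ^ b := by rw [← mul_assoc, ← hgY, h3, one_mul]
    have hχ' : ((χ g : (ZMod p)ˣ) : ZMod p) = ((χ σ : (ZMod p)ˣ) : ZMod p) ^ b := by
      rw [← hχ, Units.val_pow_eq_pow_val]
    refine ⟨t', ?_, ?_⟩
    · rw [hgV, hgV', hχ']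
      exact e1
    · rw [hgY, hgY', hχ']
      exact e2
  obtain ⟨φ, hφinj, hφ⟩ := h24_blr_embed h2 (h45_finrank hcard) (h24_rhoHom p G V)
    (h24_rhoHom p G Y) χ hquad (fun N hN => hirr N hN) c
    (by
      ext v
      rw [Module.End.mul_apply, h24_rhoHom_apply, h24_rhoHom_apply, hc, Module.End.one_apply])
    hχc
  exact ⟨φ, hφinj, fun g v => hφ g v⟩

end Fermat.Agent.S40
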