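import Mathlib
import Fermat.Prelude.Def_FLTPrelim_ModularRep
import Fermat.Agent.GAL.h29_Iface
import Fermat.Agent.GAL.Theta
import Fermat.Agent.GAL.h42_Coh
import Fermat.Agent.GAL.h42_Zbar
import Fermat.Agent.GAL.h42_AsmV0

/-!
# S40, row R1b (EIG): a nonzero `a_ℓ(W)`-eigenclass of order `p` in `J₀(M)(ℚ̄)`

If `W` is residually modular of level `M` at `p`, then there is

* `h45_eig_char` : a nonzero homomorphism `χ : Γ₀(M) → ℤ/p`, killing the parabolic and the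
  finite-order elements, with `T_ℓ χ = a_ℓ(W) • χ` for every prime `ℓ ∤ M`, `ℓ ≠ p`, good for `W`;
* `h45_eig_class` : a nonzero class `x₀ ∈ J₀(M)(ℚ̄)` with `p • x₀ = 0` and
  `T_ℓ x₀ = a_ℓ(W) • x₀` for the same primes `ℓ`.

Inputs: `h42_coh` (the eigen-homomorphism `ψ : Γ₀(M) → ℤ̄/𝔪` of the eigenform), an additive
functional `ℤ̄/𝔪 → 𝔽_p` not killing `ψ`, and the interface THETA (`gal_thetaProp`).
-/

set_option autoImplicit false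

namespace Fermat.Agent.S40

open CongruenceSubgroup ModularCurve ModularCurve.Period ModularFormClass
open Fermat.Agent.GAL Fermat.Agent.S16

/-- **(EIG), character form.** A nonzero `𝔽_p`-valued homomorphism of `Γ₀(M)`, killing parabolic
and finite-order elements, which is an eigenvector of `T_ℓ` with eigenvalue `a_ℓ(W)` for all
primes `ℓ ∤ M p` good for `W`. -/
theorem h45_eig_char (W : WeierstrassCurve ℤ) {p M : ℕ} [Fact p.Prime] [NeZero M]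
    (hmod : W.IsResiduallyModularOfLevel p M) :
    ∃ χ : gal_Hpe M p, χ ≠ 0 ∧
      ∀ (ℓ : ℕ) [Fact ℓ.Prime] (hℓM : ¬ ℓ ∣ M), W.IsGoodPrimeFor ℓ → ℓ ≠ p →
        h30_heckeT M ℓ hℓM (χ : Additive (Gamma0 M) →+ ZMod p) =
          ((W.apOfModel ℓ • χ : gal_Hpe M p) : Additive (Gamma0 M) →+ ZMod p) := by
  classical
  obtain ⟨f, 𝔪, hf, h𝔪, hp𝔪, hcong⟩ := hmod
  have hp : p.Prime := Fact.out
  let _ : Field (integralClosure ℤ ℂ ⧸ 𝔪) := Ideal.Quotient.field 𝔪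
  have : CharP (integralClosure ℤ ℂ ⧸ 𝔪) p := h42_quot_charP 𝔪 hp hp𝔪
  have hker : (RingHom.ker (Ideal.Quotient.mk 𝔪)).IsMaximal := by
    rw [Ideal.mk_ker]; exact h𝔪
  obtain ⟨a, ψ, ha, hψ0, -, hψpar, hψfin, hψT⟩ := h42_coh hf (Ideal.Quotient.mk 𝔪) hker
  obtain ⟨γ, hγ⟩ : ∃ γ, ψ γ ≠ 0 := by
    by_contra hall
    push Not at hall
    exact hψ0 (AddMonoidHom.ext hall)
  obtain ⟨l, hl⟩ := h42_exists_functional (p := p) hγ
  have hpe : l.comp ψ ∈ gal_Hpe M p :=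
    ⟨fun γ hγ => by
        show l (ψ (Additive.ofMul γ)) = 0
        rw [hψpar γ hγ, map_zero],
      fun γ hγ => by
        show l (ψ (Additive.ofMul γ)) = 0
        rw [hψfin γ hγ, map_zero]⟩
  refine ⟨⟨l.comp ψ, hpe⟩, ?_, ?_⟩
  · intro h0
    have h1 := congrArg Subtype.val h0
    exact hl (by simpa using DFunLike.congr_fun h1 γ)
  · intro ℓ _ hℓM hgood hℓp
    have hℓ : ℓ.Prime := Fact.out
    obtain ⟨c, hc, hcm⟩ := hcong ℓ hℓ hgood hℓM hℓp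
    have hca : c = a ℓ := Subtype.ext (by rw [hc, ha ℓ hℓ hℓM])
    have hφ : Ideal.Quotient.mk 𝔪 (a ℓ) = ((W.apOfModel ℓ : ℤ) : integralClosure ℤ ℂ ⧸ 𝔪) := by
      rw [← hca]
      have h1 : Ideal.Quotient.mk 𝔪 (c - ((W.apOfModel ℓ : ℤ) : integralClosure ℤ ℂ)) = 0 :=
        Ideal.Quotient.eq_zero_iff_mem.mpr hcm
      rw [map_sub, sub_eq_zero, map_intCast] at h1
      exact h1
    show h30_heckeT M ℓ hℓM (l.comp ψ) = W.apOfModel ℓ • l.comp ψ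
    rw [h30_heckeT_comp, hψT ℓ hℓM, hφ]
    refine AddMonoidHom.ext fun δ => ?_
    show l (((W.apOfModel ℓ : ℤ) : integralClosure ℤ ℂ ⧸ 𝔪) • ψ δ) = W.apOfModel ℓ • l (ψ δ)
    rw [smul_eq_mul, ← zsmul_eq_mul, map_zsmul]

/-- **(EIG), class form, for any THETA.** -/
theorem h45_eig_class_of_theta (W : WeierstrassCurve ℤ) {p M : ℕ} [Fact p.Prime] [NeZero M]
    (hmod : W.IsResiduallyModularOfLevel p M)
    (Θ : gal_Hpe M p →+ JZero M) (hΘinj : Function.Injective Θ)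
    (hΘT : ∀ (ℓ : ℕ) [Fact ℓ.Prime] (hℓN : ¬ ℓ ∣ M), ¬ ℓ ∣ p →
      ∀ χ χ' : gal_Hpe M p,
        (χ' : Additive (Gamma0 M) →+ ZMod p) =
            h30_heckeT M ℓ hℓN (χ : Additive (Gamma0 M) →+ ZMod p) →
          heckeOperatorBar M ⟨ℓ, Fact.out⟩ (Θ χ) = Θ χ') :
    ∃ χ : gal_Hpe M p, χ ≠ 0 ∧ Θ χ ≠ 0 ∧ p • Θ χ = 0 ∧
      ∀ (ℓ : ℕ) (hℓ : ℓ.Prime), W.IsGoodPrimeFor ℓ → ¬ ℓ ∣ M → ℓ ≠ p →
        heckeOperatorBar M ⟨ℓ, hℓ⟩ (Θ χ) = W.apOfModel ℓ • Θ χ := by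
  have hp : p.Prime := Fact.out
  obtain ⟨χ, hχ0, hχT⟩ := h45_eig_char W hmod
  refine ⟨χ, hχ0, ?_, ?_, ?_⟩
  · intro h0
    exact hχ0 (hΘinj (by rw [h0, map_zero]))
  · rw [← map_nsmul]
    have h1 : p • χ = 0 := by
      apply Subtype.ext
      refine AddMonoidHom.ext fun γ => ?_
      show (p • (χ : Additive (Gamma0 M) →+ ZMod p)) γ = 0
      rw [AddMonoidHom.nsmul_apply, nsmul_eq_mul, ZMod.natCast_self, zero_mul]
    rw [h1, map_zero]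
  · intro ℓ hℓ hgood hℓM hℓp
    have : Fact ℓ.Prime := ⟨hℓ⟩
    have hℓp' : ¬ ℓ ∣ p := fun h => hℓp ((Nat.prime_dvd_prime_iff_eq hℓ hp).mp h)
    have h1 := hΘT ℓ hℓM hℓp' χ (W.apOfModel ℓ • χ) (hχT ℓ hℓM hgood hℓp).symm
    rw [h1, map_zsmul]

/-- **(EIG) = row R1b of S40.** If `W` is residually modular of level `M` at `p`, there is a
nonzero class `x₀ ∈ J₀(M)(ℚ̄)` of order `p` on which `T_ℓ` acts as `a_ℓ(W)` for every prime
`ℓ ∤ M`, `ℓ ≠ p`, good for `W`. -/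
theorem h45_eig_class (W : WeierstrassCurve ℤ) {p M : ℕ} [Fact p.Prime] [NeZero M]
    (hmod : W.IsResiduallyModularOfLevel p M) :
    ∃ x0 : ModularCurve.JZero M, x0 ≠ 0 ∧ p • x0 = 0 ∧
      ∀ (ℓ : ℕ) (hℓ : ℓ.Prime), W.IsGoodPrimeFor ℓ → ¬ ℓ ∣ M → ℓ ≠ p →
        ModularCurve.heckeOperatorBar M ⟨ℓ, hℓ⟩ x0 = W.apOfModel ℓ • x0 := by
  have hp : p.Prime := Fact.out
  have : NeZero p := ⟨hp.ne_zero⟩
  obtain ⟨Θ, hΘinj, hΘT⟩ := gal_thetaProp M p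
  obtain ⟨χ, -, h0, hp0, hT⟩ := h45_eig_class_of_theta W hmod Θ hΘinj hΘT
  exact ⟨Θ χ, h0, hp0, hT⟩

end Fermat.Agent.S40
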