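import Mathlib
import Fermat.Agent.S40.h24_EmbedFrob
import Fermat.Agent.S40.h45_EigClass
import Fermat.Agent.S41.h48_NotEis
import Fermat.Agent.GAL.h29_Asm
import Fermat.Agent.S37.h60_Final
import Fermat.Agent.S17.h56_DivJZero

/-!
# S40 / S44, row (HECKE-A) = TOP-A: `E[p]` embeds Galois-equivariantly into the
`a_ℓ(W)`-eigenpart of `J₀(M)[p]`

`h24_hecke_embed`: `E` an elliptic curve over `ℚ` with integral model `W`, `p` odd, `E[p]`
irreducible, `W` residually modular of level `M` at `p`.  Then there is an injective,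
`Gal(ℚ̄/ℚ)`-equivariant homomorphism `ι : E[p](ℚ̄) → J₀(M)(ℚ̄)` with `p • ι P = 0` and
`T_ℓ (ι P) = a_ℓ(W) • ι P` for every prime `ℓ ∤ M`, `ℓ ≠ p`, good for `W`.

Proof: `Y := h24_eigPart W p M` (the eigenpart of `J₀(M)[p]`) is nonzero (`h45_eig_class`),
finite, Galois-stable; Eichler–Shimura (`h29_red_es`) on `Y`, the Frobenius relation on `E[p]`
(`h48_frob_rel_torsion`) and weak Chebotarev give the hypothesis `hF` of `h24_embed_frob` for the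
pair `(E[p], Y)`.
-/

set_option autoImplicit false

open WeierstrassCurve WeierstrassCurve.Affine WeierstrassCurve.Affine.Point

namespace Fermat.Agent.S40

open ModularCurve Fermat.Agent.GAL Fermat.Agent.S41 Fermat.Agent.S37 ExtCitation

local notation "Qb" => AlgebraicClosure ℚ

/-- The `a_ℓ(W)`-eigenpart of `J₀(M)[p]`. -/
def h24_eigPart (W : WeierstrassCurve ℤ) (p M : ℕ) [NeZero M] : AddSubgroup (JZero M) where
  carrier := {x | p • x = 0 ∧ ∀ (ℓ : ℕ) (hℓ : ℓ.Prime), W.IsGoodPrimeFor ℓ → ¬ ℓ ∣ M → ℓ ≠ p →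
      heckeOperatorBar M ⟨ℓ, hℓ⟩ x = W.apOfModel ℓ • x}
  zero_mem' := ⟨_root_.smul_zero p, fun ℓ hℓ _ _ _ => by
    rw [_root_.map_zero, _root_.smul_zero]⟩
  add_mem' := by
    rintro x y ⟨hx, hx'⟩ ⟨hy, hy'⟩
    exact ⟨by rw [nsmul_add, hx, hy, add_zero], fun ℓ hℓ h1 h2 h3 => by
      rw [_root_.map_add, hx' ℓ hℓ h1 h2 h3, hy' ℓ hℓ h1 h2 h3, zsmul_add]⟩
  neg_mem' := by
    rintro x ⟨hx, hx'⟩
    exact ⟨by rw [neg_nsmul, hx, _root_.neg_zero], fun ℓ hℓ h1 h2 h3 => by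
      rw [_root_.map_neg, hx' ℓ hℓ h1 h2 h3, zsmul_neg]⟩

theorem h24_mem_eigPart (W : WeierstrassCurve ℤ) (p M : ℕ) [NeZero M] (x : JZero M) :
    x ∈ h24_eigPart W p M ↔ p • x = 0 ∧ ∀ (ℓ : ℕ) (hℓ : ℓ.Prime), W.IsGoodPrimeFor ℓ →
      ¬ ℓ ∣ M → ℓ ≠ p → heckeOperatorBar M ⟨ℓ, hℓ⟩ x = W.apOfModel ℓ • x := Iff.rfl

/-- The eigenpart is Galois-stable. -/
theorem h24_eigPart_smul (W : WeierstrassCurve ℤ) (p M : ℕ) [NeZero M] (σ : Qb ≃ₐ[ℚ] Qb)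
    {x : JZero M} (hx : x ∈ h24_eigPart W p M) : σ • x ∈ h24_eigPart W p M := by
  obtain ⟨h1, h2⟩ := hx
  refine ⟨?_, fun ℓ hℓ g1 g2 g3 => ?_⟩
  · have := (DistribSMul.toAddMonoidHom (JZero M) σ).map_nsmul p x
    simp only [DistribSMul.toAddMonoidHom_apply] at this
    rw [← this, h1, smul_zero]
  · rw [h67_hecke_galois_comm M ⟨ℓ, hℓ⟩ σ x, h2 ℓ hℓ g1 g2 g3]
    have := (DistribSMul.toAddMonoidHom (JZero M) σ).map_zsmul (W.apOfModel ℓ) x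
    simp only [DistribSMul.toAddMonoidHom_apply] at this
    exact this

/-- The eigenpart is an `𝔽_p`-vector space. -/
noncomputable instance h24_eigPart_module (W : WeierstrassCurve ℤ) (p M : ℕ) [NeZero M] :
    Module (ZMod p) (h24_eigPart W p M) :=
  AddCommGroup.zmodModule (fun y => Subtype.ext y.2.1)

/-- The Galois action on the eigenpart. -/
noncomputable instance h24_eigPart_action (W : WeierstrassCurve ℤ) (p M : ℕ) [NeZero M] :
    DistribMulAction (Qb ≃ₐ[ℚ] Qb) (h24_eigPart W p M) where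
  smul := fun σ y => ⟨σ • (y : JZero M), h24_eigPart_smul W p M σ y.2⟩
  one_smul := fun y => Subtype.ext (one_smul _ (y : JZero M))
  mul_smul := fun σ τ y => Subtype.ext (mul_smul σ τ (y : JZero M))
  smul_zero := fun σ => Subtype.ext (_root_.smul_zero σ)
  smul_add := fun σ y z => Subtype.ext (_root_.smul_add σ (y : JZero M) (z : JZero M))

theorem h24_eigPart_coe_smul (W : WeierstrassCurve ℤ) (p M : ℕ) [NeZero M] (σ : Qb ≃ₐ[ℚ] Qb)
    (y : h24_eigPart W p M) : ((σ • y : h24_eigPart W p M) : JZero M) = σ • (y : JZero M) := rfl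

/-- The Eichler–Shimura relation on the eigenpart, in `ZMod p`-module form. -/
theorem h24_eigPart_rel (W : WeierstrassCurve ℤ) (p M : ℕ) [NeZero M] (σ : Qb ≃ₐ[ℚ] Qb)
    (ℓ : ℕ) (hℓ : ℓ.Prime) (hgood : W.IsGoodPrimeFor ℓ) (hℓM : ¬ ℓ ∣ M) (hℓp : ℓ ≠ p)
    (hrel : ∀ x : JZero M, p • x = 0 →
      σ • σ • x - heckeOperatorBar M ⟨ℓ, hℓ⟩ (σ • x) + ℓ • x = 0)
    (y : h24_eigPart W p M) :
    σ • σ • y - ((W.apOfModel ℓ : ℤ) : ZMod p) • σ • y + (ℓ : ZMod p) • y = 0 := by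
  have hy := hrel (y : JZero M) y.2.1
  have hσy : σ • (y : JZero M) ∈ h24_eigPart W p M := h24_eigPart_smul W p M σ y.2
  rw [hσy.2 ℓ hℓ hgood hℓM hℓp] at hy
  have e1 : ((W.apOfModel ℓ : ℤ) : ZMod p) • σ • y = W.apOfModel ℓ • σ • y :=
    Int.cast_smul_eq_zsmul (ZMod p) (W.apOfModel ℓ) (σ • y)
  have e2 : (ℓ : ZMod p) • y = ℓ • y := Nat.cast_smul_eq_nsmul (ZMod p) ℓ y
  rw [e1, e2]
  apply Subtype.ext
  rw [AddSubgroup.coe_add, AddSubgroup.coe_sub, AddSubgroup.coe_zsmul, AddSubgroup.coe_nsmul,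
    h24_eigPart_coe_smul, h24_eigPart_coe_smul]
  exact hy

set_option maxHeartbeats 400000 in
/-- **(HECKE-A) = TOP-A.**  `E[p]` embeds Galois-equivariantly into the `a_ℓ(W)`-eigenpart of
`J₀(M)[p]`. -/
theorem h24_hecke_embed (E : WeierstrassCurve ℚ) [E.IsElliptic] {W : WeierstrassCurve ℤ}
    (hW : W.IsIntegralModelOf E) {p : ℕ} (hp : p.Prime) (hp2 : p ≠ 2)
    (hirr : GaloisRepIsIrreducible (K := AlgebraicClosure ℚ) ℚ E p)
    {M : ℕ} [NeZero M] (hmod : W.IsResiduallyModularOfLevel p M) :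
    ∃ ι : Submodule.torsionBy ℤ (E⁄Qb).Point p →+ JZero M,
      Function.Injective ι ∧
      (∀ (σ : Qb ≃ₐ[ℚ] Qb) (P : Submodule.torsionBy ℤ (E⁄Qb).Point p), ι (σ • P) = σ • ι P) ∧
      (∀ P : Submodule.torsionBy ℤ (E⁄Qb).Point p, p • ι P = 0) ∧
      ∀ (ℓ : ℕ) (hℓ : ℓ.Prime), W.IsGoodPrimeFor ℓ → ¬ ℓ ∣ M → ℓ ≠ p →
        ∀ P : Submodule.torsionBy ℤ (E⁄Qb).Point p,
          heckeOperatorBar M ⟨ℓ, hℓ⟩ (ι P) = W.apOfModel ℓ • ι P := by
  classical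
  have : Fact p.Prime := ⟨hp⟩
  have hΔ := h61_model_Δ_ne_zero E hW
  have hcard := c_p2 E hp hp2
  have hfin : Finite (Submodule.torsionBy ℤ (E⁄Qb).Point p) :=
    Nat.finite_of_card_ne_zero (by rw [hcard]; exact pow_ne_zero _ hp.ne_zero)
  have hcoe : ∀ (σ : Qb ≃ₐ[ℚ] Qb) (y : h24_eigPart W p M),
      ((σ • y : h24_eigPart W p M) : JZero M) = σ • (y : JZero M) := fun σ y => rfl
  have hnt : Nontrivial (h24_eigPart W p M) := by
    obtain ⟨x0, h0, hp0, hT⟩ := h45_eig_class W hmod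
    exact ⟨⟨⟨x0, hp0, hT⟩, 0, fun h => h0 (congrArg Subtype.val h)⟩⟩
  -- the finite level
  obtain ⟨ζ, hζ⟩ := h11_exists_primitiveRoot p
  obtain ⟨LV, hLVfin, hLVgal, hLVT, hLVact⟩ := c_field E p hfin {ζ}
  obtain ⟨EY, hEYfin, hEY⟩ := h67_finite_torsion_stabiliser M {x : JZero M | p • x = 0}
    (Fermat.Agent.S17.h56_jzero_torsion_set_finite M p hp.ne_zero) (fun x hx => ⟨p, hp.pos, hx⟩)
  have := hLVfin
  have := hEYfin
  obtain ⟨L, hLle, hLfin, hLgal, -⟩ := h29_exists_galois_level (LV ⊔ EY)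
  have := hLfin
  have := hLgal
  have hLV : ∀ x ∈ LV, x ∈ L := fun x hx => hLle ((le_sup_left : LV ≤ LV ⊔ EY) hx)
  have hLE : ∀ x ∈ EY, x ∈ L := fun x hx => hLle ((le_sup_right : EY ≤ LV ⊔ EY) hx)
  have hLactV : ∀ g h : Qb ≃ₐ[ℚ] Qb, (∀ x ∈ L, g x = h x) →
      ∀ P : Submodule.torsionBy ℤ (E⁄Qb).Point p, g • P = h • P :=
    fun g h hgh P => hLVact g h (fun x hx => hgh x (hLV x hx)) P
  have hLactY : ∀ g h : Qb ≃ₐ[ℚ] Qb, (∀ x ∈ L, g x = h x) →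
      ∀ y : h24_eigPart W p M, g • y = h • y := by
    intro g h hgh y
    apply Subtype.ext
    rw [hcoe, hcoe]
    have h1 : (h⁻¹ * g) • (y : JZero M) = y := hEY (h⁻¹ * g) (fun a ha => by
      show h⁻¹ (g a) = a
      rw [hgh a (hLE a ha)]
      exact h.symm_apply_apply a) y y.2.1
    rw [mul_smul] at h1
    have h3 := congrArg (fun z => h • z) h1
    simpa using h3
  have hLp : ∀ ω : Qb, ω ^ p = 1 → ω ∈ L := by
    intro ω hω
    obtain ⟨i, -, rfl⟩ := hζ.eq_pow_of_pow_eq_one hω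
    exact pow_mem (hLV ζ (hLVT ζ (by simp))) i
  -- the hypothesis `hF`
  have hF : ∀ g : Qb ≃ₐ[ℚ] Qb, ∃ (σ : Qb ≃ₐ[ℚ] Qb) (b : ℕ) (t : ZMod p),
      (∀ v : Submodule.torsionBy ℤ (E⁄Qb).Point p, σ ^ b • v = g • v) ∧
      (∀ y : h24_eigPart W p M, σ ^ b • y = g • y) ∧ cycloChar p σ ^ b = cycloChar p g ∧
      (∀ v : Submodule.torsionBy ℤ (E⁄Qb).Point p,
        σ • σ • v - t • σ • v + ((cycloChar p σ : (ZMod p)ˣ) : ZMod p) • v = 0) ∧
      (∀ y : h24_eigPart W p M,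
        σ • σ • y - t • σ • y + ((cycloChar p σ : (ZMod p)ˣ) : ZMod p) • y = 0) := by
    intro g
    obtain ⟨ℓ, A, σ, a, b, hℓ, hℓS, hA, hσ, h1, h2⟩ :=
      gal_weak_chebotarev L g ({2, 3, p} ∪ M.primeFactors ∪ W.Δ.natAbs.primeFactors)
    simp only [Finset.mem_union, Finset.mem_insert, Finset.mem_singleton, not_or] at hℓS
    obtain ⟨⟨⟨hℓ2, hℓ3, hℓp⟩, hℓM'⟩, hℓΔ⟩ := hℓS
    have h5 : 5 ≤ ℓ := by
      have h2le := hℓ.two_le
      by_contra hlt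
      have h4' : ℓ = 4 := by omega
      rw [h4'] at hℓ
      norm_num at hℓ
    have hℓM : ¬ ℓ ∣ M := fun hd => hℓM' (Nat.mem_primeFactors.mpr ⟨hℓ, hd, NeZero.ne M⟩)
    have hgood : W.IsGoodPrimeFor ℓ := by
      intro hdvd
      apply hℓΔ
      rw [Nat.mem_primeFactors]
      exact ⟨hℓ, Int.natCast_dvd.mp hdvd, Int.natAbs_ne_zero.mpr hΔ⟩
    have hℓp' : ¬ ℓ ∣ p := (Nat.prime_dvd_prime_iff_eq hℓ hp).not.mpr hℓp
    have : Fact ℓ.Prime := ⟨hℓ⟩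
    have hrelV := h48_frob_rel_torsion E hW ℓ h5 hgood A hA σ hσ p hℓp'
    have hℓMp : ¬ ℓ ∣ M * p := fun hd => (hℓ.dvd_mul.mp hd).elim hℓM hℓp'
    have hrelY := h29_red_es M p hℓ A (h60_redData M p ℓ hℓ hℓMp A hA) σ hσ
    refine ⟨σ, b, ((W.apOfModel ℓ : ℤ) : ZMod p), fun v => hLactV (σ ^ b) g h2 v,
      fun y => hLactY (σ ^ b) g h2 y, ?_, fun v => ?_, fun y => ?_⟩
    · rw [← map_pow]
      exact h11_cycloChar_congr (σ ^ b) g (fun ω hω => h2 ω (hLp ω hω))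
    · have hv := hrelV v
      rw [h11_cycloChar_frob A hℓ hℓp hA hσ, Int.cast_smul_eq_zsmul, Nat.cast_smul_eq_nsmul]
      rw [natCast_zsmul] at hv
      exact hv
    · rw [h11_cycloChar_frob A hℓ hℓp hA hσ]
      exact h24_eigPart_rel W p M σ ℓ hℓ hgood hℓM hℓp hrelY y
  obtain ⟨φ, hφinj, hφeq⟩ := h24_embed_frob (G := Qb ≃ₐ[ℚ] Qb)
    (V := Submodule.torsionBy ℤ (E⁄Qb).Point p) (Y := h24_eigPart W p M) hp2 hcard
    (fun N hN => hirr.2 N hN) (cycloChar p) complexConjugation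
    (fun v => by rw [← mul_smul, complexConjugation_mul_self, one_smul])
    (h61_cycloChar_complexConj p) hF
  refine ⟨(h24_eigPart W p M).subtype.comp φ.toAddMonoidHom, ?_, ?_, ?_, ?_⟩
  · exact Subtype.val_injective.comp hφinj
  · intro σ P
    show ((φ (σ • P) : h24_eigPart W p M) : JZero M) = σ • ((φ P : h24_eigPart W p M) : JZero M)
    rw [hφeq, hcoe]
  · intro P
    exact (φ P).2.1
  · intro ℓ hℓ hgood hℓM hℓp P
    exact (φ P).2.2 ℓ hℓ hgood hℓM hℓp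

end Fermat.Agent.S40
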