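import Fermat.Agent.S40.h57_EKappa
import Fermat.Agent.S13.h26_FreyP

/-
helper26, project S40/S44 (G40), row R13 (E-MULT), sub-row (E-FREY-TRANSPORT).

The E-side of the level-lowering argument at `p` for the FREY curve, reduced to ONE model-level
statement on `Y² = X³ + a X² + b X` (`a b : ℤ`) in the multiplicative case:

* `h26_EMultTop A p a b` : the model-level interface (the shape of `h57_E_top`, with the
  coordinatewise Galois action `S13.h26_sig a b σ` on the points of the model);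
* `h26_kappa_of_top`, `h26_kappa0_of_top` : for an abstract action on a set, the `h57_E_top`
  shape implies the `False` forms `h57_E_top_kappa` / `h57_E_top_kappa0` (the curve plays no
  role in that step);
* `h26_E_frey_top` : the `h57_E_top` shape for the `p`-torsion points of `P.freyCurve⁄ℚ̄` with
  the Prelude Galois action, from the model-level interface in the multiplicative case (the
  good case of the model `S05.h26_frey_model_ne` is `h57_E_top` for `shortW a b` over `ℤ`);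
* `h26_E_frey_kappa0` : the `False` form on `P.freyCurve⁄ℚ̄`;
* `h26_E_frey_model_kappa0` : the `False` form on `h57_EQb W` for EVERY integral model `W` of
  the Frey curve (`W.IsIntegralModelOf P.freyCurve`).
-/

set_option autoImplicit false

namespace Fermat.Agent.S40

open WeierstrassCurve WeierstrassCurve.Affine WeierstrassCurve.Affine.Point
open Fermat.Agent.S05 Fermat.Agent.S13

local notation "Qb" => AlgebraicClosure ℚ

/-! ### The model-level interface -/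

/-- Model-level E-side statement on `Y² = X³ + a X² + b X` (`a b : ℤ`), in the shape of
`h57_E_top`: if the stabiliser in `I' = {σ ∈ I | σ ζ = ζ}` of a "tres ramifie" Kummer generator
`θ` fixes the `p`-torsion point `T`, then all of `I'` fixes `T`. -/
def h26_EMultTop (A : ValuationSubring Qb) (p : ℕ) (a b : ℤ) : Prop :=
  ∀ ζ : Qb, IsPrimitiveRoot ζ p → ∀ θ : Qb, θ ≠ 0 →
    (∀ σ ∈ A.inertiaSubgroupIn ℚ, σ ζ = ζ → σ (θ ^ p) = θ ^ p) →
    (∀ c : Qb, (∀ σ ∈ A.inertiaSubgroupIn ℚ, σ ζ = ζ → σ c = c) → c ≠ 0 →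
      ∀ l : ℕ, 0 < l → l < p → A.valuation c ≠ A.valuation θ ^ l) →
    ∀ T : (shortW ((a : ℤ) : Qb) ((b : ℤ) : Qb)).toAffine.Point, p • T = 0 →
    (∀ σ ∈ A.inertiaSubgroupIn ℚ, σ ζ = ζ → σ θ = θ → h26_sig a b σ T = T) →
    ∀ σ ∈ A.inertiaSubgroupIn ℚ, σ ζ = ζ → h26_sig a b σ T = T

/-! ### From the `h57_E_top` shape to the `False` forms, for an abstract action -/

section abstract

variable {X : Type*} (act : (Qb ≃ₐ[ℚ] Qb) → X → X) (T : X)

/-- `K'`-form: a Kummer generator `e` with `v (e ^ p) = v (ζ - 1) ^ n`, `p ∤ n`, cannot have the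
same `I'`-stabiliser as an element `T` satisfying the `h57_E_top` shape. -/
theorem h26_kappa_of_top (p : ℕ) [Fact p.Prime] (hp2 : p ≠ 2)
    (A : ValuationSubring Qb) (hA : A.LiesOverPrime p) (ζ : Qb) (hζ : IsPrimitiveRoot ζ p)
    (e : Qb) (he0 : e ≠ 0)
    (n : ℤ) (hn : A.valuation (e ^ p) = A.valuation (ζ - 1) ^ n) (hpn : ¬ (p : ℤ) ∣ n)
    (htop : (∀ c : Qb, (∀ σ ∈ A.inertiaSubgroupIn ℚ, σ ζ = ζ → σ c = c) → c ≠ 0 →
        ∀ l : ℕ, 0 < l → l < p → A.valuation c ≠ A.valuation e ^ l) →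
      (∀ σ ∈ A.inertiaSubgroupIn ℚ, σ ζ = ζ → σ e = e → act σ T = T) →
      ∀ σ ∈ A.inertiaSubgroupIn ℚ, σ ζ = ζ → act σ T = T)
    (hiff : ∀ σ ∈ A.inertiaSubgroupIn ℚ, σ ζ = ζ → (σ e = e ↔ act σ T = T)) : False := by
  obtain ⟨hγ0, hγ1⟩ := h8_val_zeta_lt p hp2 A hA ζ hζ
  have hinj := zpow_right_injective₀ hγ0 hγ1.ne
  have htres := h57_tres_of_val p hp2 A hA ζ hζ e n hn hpn
  have hfixT : ∀ σ ∈ A.inertiaSubgroupIn ℚ, σ ζ = ζ → act σ T = T :=
    htop htres (fun τ hτ hτζ hτe => (hiff τ hτ hτζ).mp hτe)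
  have hfixe : ∀ σ ∈ A.inertiaSubgroupIn ℚ, σ ζ = ζ → σ e = e := fun σ hσ hσζ =>
    (hiff σ hσ hσζ).mpr (hfixT σ hσ hσζ)
  obtain ⟨n', hn'⟩ := h8_val_tame p hp2 A hA ζ hζ e he0 hfixe
  have h1 : A.valuation (ζ - 1) ^ (n' * (p : ℤ)) = A.valuation (ζ - 1) ^ n := by
    rw [zpow_mul, ← hn', ← hn, zpow_natCast, map_pow]
  have h2 : n' * (p : ℤ) = n := hinj h1
  exact hpn ⟨n', by rw [← h2, mul_comm]⟩

/-- `K₀`-form: `κ = e ^ p` fixed by the whole inertia group, `v κ` not a `p`-th power in the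
value group `v p ^ ℤ` of the inertia field. -/
theorem h26_kappa0_of_top (p : ℕ) [Fact p.Prime] (hp2 : p ≠ 2)
    (A : ValuationSubring Qb) (hA : A.LiesOverPrime p) (ζ : Qb) (hζ : IsPrimitiveRoot ζ p)
    (e : Qb) (he0 : e ≠ 0)
    (hκI : ∀ σ ∈ A.inertiaSubgroupIn ℚ, σ (e ^ p) = e ^ p)
    (hκv : ∀ m : ℤ, A.valuation (e ^ p) ≠ A.valuation (p : Qb) ^ ((p : ℤ) * m))
    (htop : (∀ c : Qb, (∀ σ ∈ A.inertiaSubgroupIn ℚ, σ ζ = ζ → σ c = c) → c ≠ 0 →
        ∀ l : ℕ, 0 < l → l < p → A.valuation c ≠ A.valuation e ^ l) →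
      (∀ σ ∈ A.inertiaSubgroupIn ℚ, σ ζ = ζ → σ e = e → act σ T = T) →
      ∀ σ ∈ A.inertiaSubgroupIn ℚ, σ ζ = ζ → act σ T = T)
    (hiff : ∀ σ ∈ A.inertiaSubgroupIn ℚ, σ ζ = ζ → (σ e = e ↔ act σ T = T)) : False := by
  have hp : p.Prime := Fact.out
  obtain ⟨k, hk⟩ := h8_val_unr p A hA (e ^ p) (pow_ne_zero p he0) hκI
  have hpk : ¬ (p : ℤ) ∣ k := by
    rintro ⟨m, rfl⟩
    exact hκv m hk
  have hn : A.valuation (e ^ p) = A.valuation (ζ - 1) ^ (((p - 1 : ℕ) : ℤ) * k) := by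
    rw [hk, h8_val_p p A ζ hζ, zpow_mul, zpow_natCast]
  have hpp : Prime (p : ℤ) := Nat.prime_iff_prime_int.mp hp
  have hpn : ¬ (p : ℤ) ∣ ((p - 1 : ℕ) : ℤ) * k := by
    intro h
    rcases hpp.dvd_or_dvd h with h | h
    · have h4 : p ∣ p - 1 := Int.natCast_dvd_natCast.mp h
      have h5 := Nat.le_of_dvd (by have := hp.two_le; omega) h4
      have := hp.two_le
      omega
    · exact hpk h
  exact h26_kappa_of_top act T p hp2 A hA ζ hζ e he0 _ hn hpn htop hiff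

end abstract

/-! ### Transport of the `h57_E_top` shape along a change of variables over `ℚ` -/

/-- The `h57_E_top` shape for the points of `W⁄ℚ̄`, `W` a curve over `ℚ` which is a change of
variables of an integral model `W₀` with `p ∤ Δ(W₀)`. -/
theorem h26_E_top_vc (W₀ : WeierstrassCurve ℤ) (W : WeierstrassCurve ℚ) (C : VariableChange ℚ)
    (hC : C • W₀.map (Int.castRingHom ℚ) = W)
    (p : ℕ) [Fact p.Prime] (hp2 : p ≠ 2) (hgood : ¬ (p : ℤ) ∣ W₀.Δ)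
    (A : ValuationSubring Qb) (hA : A.LiesOverPrime p) (ζ : Qb) (hζ : IsPrimitiveRoot ζ p)
    (θ : Qb) (hθ0 : θ ≠ 0)
    (hκ : ∀ σ ∈ A.inertiaSubgroupIn ℚ, σ ζ = ζ → σ (θ ^ p) = θ ^ p)
    (htres : ∀ c : Qb, (∀ σ ∈ A.inertiaSubgroupIn ℚ, σ ζ = ζ → σ c = c) → c ≠ 0 →
      ∀ l : ℕ, 0 < l → l < p → A.valuation c ≠ A.valuation θ ^ l)
    (T : (W⁄Qb).Point) (hT : p • T = 0)
    (hfac : ∀ σ ∈ A.inertiaSubgroupIn ℚ, σ ζ = ζ → σ θ = θ → σ • T = T)
    (σ : Qb ≃ₐ[ℚ] Qb) (hσ : σ ∈ A.inertiaSubgroupIn ℚ) (hσζ : σ ζ = ζ) : σ • T = T := by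
  subst hC
  have key := h57_E_top W₀ p hp2 hgood A hA ζ hζ θ hθ0 hκ htres
    (h15_vcEquivBase (K := Qb) (W₀.map (Int.castRingHom ℚ)) C T)
    (by rw [← map_nsmul, hT, _root_.map_zero])
    (fun τ hτ hτζ hτθ => by
      rw [← h15_vcEquivBase_smul (S := ℚ), hfac τ hτ hτζ hτθ]) σ hσ hσζ
  apply (h15_vcEquivBase (K := Qb) (W₀.map (Int.castRingHom ℚ)) C).injective
  rw [h15_vcEquivBase_smul (S := ℚ)]
  exact key

/-- The model-level interface gives the `h57_E_top` shape on every curve over `ℚ` which is a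
change of variables of `Y² = X³ + a X² + b X`. -/
theorem h26_E_top_mult_vc (W : WeierstrassCurve ℚ) (a b : ℤ) (C : VariableChange ℚ)
    (hC : C • shortW (a : ℚ) (b : ℚ) = W) (p : ℕ)
    (A : ValuationSubring Qb) (hmult : h26_EMultTop A p a b)
    (ζ : Qb) (hζ : IsPrimitiveRoot ζ p) (θ : Qb) (hθ0 : θ ≠ 0)
    (hκ : ∀ σ ∈ A.inertiaSubgroupIn ℚ, σ ζ = ζ → σ (θ ^ p) = θ ^ p)
    (htres : ∀ c : Qb, (∀ σ ∈ A.inertiaSubgroupIn ℚ, σ ζ = ζ → σ c = c) → c ≠ 0 →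
      ∀ l : ℕ, 0 < l → l < p → A.valuation c ≠ A.valuation θ ^ l)
    (T : (W⁄Qb).Point) (hT : p • T = 0)
    (hfac : ∀ σ ∈ A.inertiaSubgroupIn ℚ, σ ζ = ζ → σ θ = θ → σ • T = T)
    (σ : Qb ≃ₐ[ℚ] Qb) (hσ : σ ∈ A.inertiaSubgroupIn ℚ) (hσζ : σ ζ = ζ) : σ • T = T := by
  obtain ⟨e, he⟩ := h26_model_equiv_aux W a b C hC
  have key := hmult ζ hζ θ hθ0 hκ htres (e T) (by rw [← map_nsmul, hT, _root_.map_zero])
    (fun τ hτ hτζ hτθ => by rw [← he, hfac τ hτ hτζ hτθ]) σ hσ hσζ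
  apply e.injective
  rw [he]
  exact key

/-! ### The Frey curve -/

/-- **E-side for the Frey curve at `p`, `h57_E_top` shape.**  For a `p`-torsion point `T` of the
Frey curve over `ℚ̄`: if the stabiliser in `I'` of a "tres ramifie" Kummer generator `θ` fixes
`T`, then all of `I'` fixes `T`.  The only input is the model-level statement `h26_EMultTop` in
the multiplicative case of the model at `p`. -/
theorem h26_E_frey_top (P : FreyPackage) (A : ValuationSubring Qb) (hA : A.LiesOverPrime P.p)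
    (hmult : ∀ a b : ℤ, (¬ (P.p : ℤ) ∣ a ∧ ∃ g : ℤ, g ≠ 0 ∧ (P.p : ℤ) ∣ g ∧ b = g ^ P.p) →
      h26_EMultTop A P.p a b)
    (ζ : Qb) (hζ : IsPrimitiveRoot ζ P.p) (θ : Qb) (hθ0 : θ ≠ 0)
    (hκ : ∀ σ ∈ A.inertiaSubgroupIn ℚ, σ ζ = ζ → σ (θ ^ P.p) = θ ^ P.p)
    (htres : ∀ c : Qb, (∀ σ ∈ A.inertiaSubgroupIn ℚ, σ ζ = ζ → σ c = c) → c ≠ 0 →
      ∀ l : ℕ, 0 < l → l < P.p → A.valuation c ≠ A.valuation θ ^ l)
    (T : (P.freyCurve⁄Qb).Point) (hT : P.p • T = 0)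
    (hfac : ∀ σ ∈ A.inertiaSubgroupIn ℚ, σ ζ = ζ → σ θ = θ → σ • T = T)
    (σ : Qb ≃ₐ[ℚ] Qb) (hσ : σ ∈ A.inertiaSubgroupIn ℚ) (hσζ : σ ζ = ζ) : σ • T = T := by
  have : Fact P.p.Prime := ⟨P.pp⟩
  have hp2 : P.p ≠ 2 := by have := P.hp5; omega
  obtain ⟨a, b, C, hC, hcase⟩ := h26_frey_model_ne P P.pp
  rcases hcase with ⟨hb, hd⟩ | hcase
  · -- good reduction of the model: `h57_E_top` for `shortW a b` over `ℤ`
    have hpZ : Prime (P.p : ℤ) := Nat.prime_iff_prime_int.mp P.pp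
    have hgood : ¬ (P.p : ℤ) ∣ (shortW a b).Δ := by
      rw [shortW_Δ]
      intro h
      rcases hpZ.dvd_or_dvd h with h | h
      · rcases hpZ.dvd_or_dvd h with h | h
        · have h16 : (P.p : ℤ) ∣ 2 ^ 4 := by norm_num; exact h
          have h2 : (P.p : ℤ) ∣ 2 := hpZ.dvd_of_dvd_pow h16
          have h2' : P.p ∣ 2 := Int.natCast_dvd_natCast.mp (by exact_mod_cast h2)
          have := Nat.le_of_dvd (by norm_num) h2'
          have := P.hp5
          omega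
        · exact hb (hpZ.dvd_of_dvd_pow h)
      · exact hd h
    have hC' : C • (shortW a b).map (Int.castRingHom ℚ) = P.freyCurve := by
      rw [shortW_map]
      exact hC
    exact h26_E_top_vc (shortW a b) P.freyCurve C hC' P.p hp2 hgood A hA ζ hζ θ hθ0 hκ htres
      T hT hfac σ hσ hσζ
  · exact h26_E_top_mult_vc P.freyCurve a b C hC P.p A (hmult a b hcase) ζ hζ θ hθ0 hκ htres
      T hT hfac σ hσ hσζ

/-- **E-side for the Frey curve at `p`, `False` form (`K₀`-form of the (TR) output).**  A Kummer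
generator `e` with `e ^ p` fixed by inertia and `v (e ^ p)` not a `p`-th power in `v p ^ ℤ`
cannot have the same `I'`-stabiliser as a `p`-torsion point of the Frey curve. -/
theorem h26_E_frey_kappa0 (P : FreyPackage) (A : ValuationSubring Qb) (hA : A.LiesOverPrime P.p)
    (hmult : ∀ a b : ℤ, (¬ (P.p : ℤ) ∣ a ∧ ∃ g : ℤ, g ≠ 0 ∧ (P.p : ℤ) ∣ g ∧ b = g ^ P.p) →
      h26_EMultTop A P.p a b)
    (ζ : Qb) (hζ : IsPrimitiveRoot ζ P.p) (e : Qb) (he0 : e ≠ 0)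
    (hκI : ∀ σ ∈ A.inertiaSubgroupIn ℚ, σ (e ^ P.p) = e ^ P.p)
    (hκv : ∀ m : ℤ, A.valuation (e ^ P.p) ≠ A.valuation (P.p : Qb) ^ ((P.p : ℤ) * m))
    (T : (P.freyCurve⁄Qb).Point) (hT : P.p • T = 0)
    (hiff : ∀ σ ∈ A.inertiaSubgroupIn ℚ, σ ζ = ζ → (σ e = e ↔ σ • T = T)) : False := by
  have : Fact P.p.Prime := ⟨P.pp⟩
  have hp2 : P.p ≠ 2 := by have := P.hp5; omega
  exact h26_kappa0_of_top (fun σ (T : (P.freyCurve⁄Qb).Point) => σ • T) T P.p hp2 A hA ζ hζ e he0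
    hκI hκv
    (fun htres hfac => h26_E_frey_top P A hA hmult ζ hζ e he0 (fun σ hσ _ => hκI σ hσ) htres
      T hT hfac)
    hiff

/-- Transport of the `False` form along a change of variables over `ℚ`. -/
theorem h26_false_vc (E E' : WeierstrassCurve ℚ) (C : VariableChange ℚ) (hC : C • E = E')
    (A : ValuationSubring Qb) (p : ℕ) (ζ e : Qb)
    (hE : ∀ T : (E⁄Qb).Point, p • T = 0 →
      (∀ σ ∈ A.inertiaSubgroupIn ℚ, σ ζ = ζ → (σ e = e ↔ σ • T = T)) → False)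
    (T : (E'⁄Qb).Point) (hT : p • T = 0)
    (hiff : ∀ σ ∈ A.inertiaSubgroupIn ℚ, σ ζ = ζ → (σ e = e ↔ σ • T = T)) : False := by
  subst hC
  refine hE (h15_vcEquivBase (K := Qb) E C T) (by rw [← map_nsmul, hT, _root_.map_zero]) ?_
  intro σ hσ hσζ
  rw [hiff σ hσ hσζ, ← h15_vcEquivBase_smul (S := ℚ)]
  exact ⟨fun h => by rw [h], fun h => (h15_vcEquivBase (K := Qb) E C).injective h⟩

/-- **E-side for every integral model of the Frey curve, `False` form.**  This is the statement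
of `h57_E_top_kappa0` with `hgood` replaced by `W.IsIntegralModelOf P.freyCurve` (and the
model-level multiplicative input `hmult`). -/
theorem h26_E_frey_model_kappa0 (P : FreyPackage) (W : WeierstrassCurve ℤ)
    (hW : W.IsIntegralModelOf P.freyCurve)
    (A : ValuationSubring Qb) (hA : A.LiesOverPrime P.p)
    (hmult : ∀ a b : ℤ, (¬ (P.p : ℤ) ∣ a ∧ ∃ g : ℤ, g ≠ 0 ∧ (P.p : ℤ) ∣ g ∧ b = g ^ P.p) →
      h26_EMultTop A P.p a b)
    (ζ : Qb) (hζ : IsPrimitiveRoot ζ P.p) (e : Qb) (he0 : e ≠ 0)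
    (hκI : ∀ σ ∈ A.inertiaSubgroupIn ℚ, σ (e ^ P.p) = e ^ P.p)
    (hκv : ∀ m : ℤ, A.valuation (e ^ P.p) ≠ A.valuation (P.p : Qb) ^ ((P.p : ℤ) * m))
    (T : (h57_EQb W).toAffine.Point) (hT : P.p • T = 0)
    (hiff : ∀ σ ∈ A.inertiaSubgroupIn ℚ, σ ζ = ζ → (σ e = e ↔ σ • T = T)) : False := by
  obtain ⟨C, hC⟩ := hW
  exact h26_false_vc P.freyCurve (W.map (Int.castRingHom ℚ)) C hC A P.p ζ e
    (fun T' hT' hiff' => h26_E_frey_kappa0 P A hA hmult ζ hζ e he0 hκI hκv T' hT' hiff')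
    T hT hiff

end Fermat.Agent.S40
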