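import Mathlib
import Fermat.Prelude.Def_FLTPrelim_GaloisRep
import Fermat.Prelude.Def_FLTPrelim_Ramification

/-!
# S40 / S44 (helper37): the E-side as a hypothesis of the J-side core

`h37_ESide E p` is the statement of `h57_E_top_kappa0` (good reduction, on main) and of the
multiplicative twin (E-MULT, Frey curve), for points of `E⁄ℚ̄`, `E : WeierstrassCurve ℚ`:

a Kummer generator `e` (`e ^ p` fixed by the inertia group `I` at `A ∣ p`) whose `p`-th power
has valuation outside `v(p) ^ (p ℤ)` cannot have the same stabiliser in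
`I' = {σ ∈ I | σ ζ = ζ}` as a `p`-torsion point of `E`.

It is the only way in which the reduction type of `E` at `p` enters the level-lowering core.
-/

set_option autoImplicit false

namespace Fermat.Agent.S40

open WeierstrassCurve WeierstrassCurve.Affine

/-- **E-side** (peu ramifié at `p`, Kummer form). -/
def h37_ESide (E : WeierstrassCurve ℚ) (p : ℕ) : Prop :=
  ∀ (A : ValuationSubring (AlgebraicClosure ℚ)), A.LiesOverPrime p →
    ∀ ζ : AlgebraicClosure ℚ, IsPrimitiveRoot ζ p →
    ∀ e : AlgebraicClosure ℚ, e ≠ 0 →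
      (∀ σ ∈ A.inertiaSubgroupIn ℚ, σ (e ^ p) = e ^ p) →
      (∀ m : ℤ, A.valuation (e ^ p) ≠ A.valuation (p : AlgebraicClosure ℚ) ^ ((p : ℤ) * m)) →
      ∀ P : (E⁄(AlgebraicClosure ℚ)).Point, p • P = 0 →
        (∀ σ ∈ A.inertiaSubgroupIn ℚ, σ ζ = ζ → (σ e = e ↔ σ • P = P)) → False

end Fermat.Agent.S40
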