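import Mathlib

/-
helper57, project S40 (G40, E-side of the peu/tres ramifie dichotomy), layer (E-d):
the Kummer-Eisenstein valuation lemma.

`G` acts on a valued field `L`, `ζ` is a `G`-fixed primitive `p`-th root of unity, `θ ≠ 0` is
moved by `G` through powers of `ζ` (a Kummer generator), `g ∈ G` with `g θ = ζ θ`, and no
`v θ ^ l`, `0 < l < p`, is the valuation of a `G`-fixed element (`θ ^ p` has valuation prime to
`p` in the value group of the fixed field: the "tres ramifie" situation).  Then every INTEGRAL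
element `a` fixed by the stabiliser of `θ` satisfies `v (g a - a) < v (ζ - 1)`.

Main exports (namespace `Fermat.Agent.S40`):
* `h57_val_le_sum`          : sums of terms with pairwise distinct valuations
* `h57_kummer_eisenstein`   : the lemma above
-/

set_option autoImplicit false

namespace Fermat.Agent.S40

open Finset

section distinct

variable {L : Type*} [Field L] {Γ₀ : Type*} [LinearOrderedCommGroupWithZero Γ₀]
  (v : Valuation L Γ₀)

/-- A finite sum whose nonzero terms have pairwise distinct valuations dominates each of its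
terms, and its valuation is attained by one of them. -/
lemma h57_val_le_sum {ι : Type*} [DecidableEq ι] (s : Finset ι) (f : ι → L)
    (hd : ∀ l ∈ s, ∀ m ∈ s, l ≠ m → f l ≠ 0 → f m ≠ 0 → v (f l) ≠ v (f m)) :
    (∀ l ∈ s, v (f l) ≤ v (∑ i ∈ s, f i)) ∧
      ((∑ i ∈ s, f i) = 0 ∨ ∃ l ∈ s, f l ≠ 0 ∧ v (∑ i ∈ s, f i) = v (f l)) := by
  induction s using Finset.induction_on with
  | empty => simp
  | insert n s hn ih =>
    obtain ⟨ih1, ih2⟩ :=
      ih (fun l hl m hm => hd l (mem_insert_of_mem hl) m (mem_insert_of_mem hm))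
    rw [sum_insert hn]
    by_cases hfn : f n = 0
    · rw [hfn, zero_add]
      refine ⟨?_, ?_⟩
      · intro l hl
        rcases mem_insert.mp hl with rfl | hl
        · rw [hfn, map_zero]; exact zero_le
        · exact ih1 l hl
      · rcases ih2 with h0 | ⟨l, hl, hl0, hlv⟩
        · exact Or.inl h0
        · exact Or.inr ⟨l, mem_insert_of_mem hl, hl0, hlv⟩
    · rcases ih2 with h0 | ⟨l₀, hl₀, hl₀0, hlv⟩
      · rw [h0, add_zero]
        refine ⟨?_, Or.inr ⟨n, mem_insert_self n s, hfn, rfl⟩⟩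
        intro l hl
        rcases mem_insert.mp hl with rfl | hl
        · exact le_rfl
        · have := ih1 l hl
          rw [h0, map_zero] at this
          exact this.trans zero_le
      · have hne : v (f n) ≠ v (∑ i ∈ s, f i) := by
          rw [hlv]
          exact hd n (mem_insert_self n s) l₀ (mem_insert_of_mem hl₀)
            (by rintro rfl; exact hn hl₀) hfn hl₀0
        rw [v.map_add_of_distinct_val hne]
        refine ⟨?_, ?_⟩
        · intro l hl
          rcases mem_insert.mp hl with rfl | hl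
          · exact le_max_left _ _
          · exact (ih1 l hl).trans (le_max_right _ _)
        · right
          rcases le_total (v (f n)) (v (∑ i ∈ s, f i)) with h | h
          · exact ⟨l₀, mem_insert_of_mem hl₀, hl₀0, by rw [max_eq_right h, hlv]⟩
          · exact ⟨n, mem_insert_self n s, hfn, by rw [max_eq_left h]⟩

end distinct

section resolvent

variable {L : Type*} [Field L] {Γ : Type*} [Group Γ] [MulSemiringAction Γ L]

/-- The Lagrange resolvents of `a` with respect to `g` and a `p`-th root of unity `ζ`. -/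
noncomputable def h57_res (p : ℕ) (ζ : L) (g : Γ) (a : L) (l : ℕ) : L :=
  (p : L)⁻¹ * ∑ i ∈ range p, (ζ⁻¹) ^ (i * l) * (g ^ i) • a

lemma h57_smul_natCast (h : Γ) (n : ℕ) : h • (n : L) = (n : L) :=
  map_natCast (MulSemiringAction.toRingHom Γ L h) n

lemma h57_smul_div (h : Γ) (x y : L) : h • (x / y) = h • x / h • y :=
  map_div₀ (MulSemiringAction.toRingHom Γ L h) x y

lemma h57_res_smul (p : ℕ) {ζ : L} {g : Γ} (a : L) (l : ℕ) (h : Γ) (hζ : h • ζ = ζ)
    (hc : ∀ i : ℕ, h • (g ^ i) • a = (g ^ i) • a) :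
    h • h57_res p ζ g a l = h57_res p ζ g a l := by
  unfold h57_res
  rw [smul_mul', smul_inv'', h57_smul_natCast, Finset.smul_sum]
  congr 1
  refine Finset.sum_congr rfl fun i _ => ?_
  rw [smul_mul', smul_pow', smul_inv'', hζ, hc i]

/-- `g` multiplies the `l`-th resolvent by `ζ ^ l`. -/
lemma h57_res_g {p : ℕ} (hp : 0 < p) {ζ : L} (hζ : ζ ^ p = 1) {g : Γ} (hgζ : g • ζ = ζ) {a : L}
    (hga : (g ^ p) • a = a) (l : ℕ) :
    g • h57_res p ζ g a l = ζ ^ l * h57_res p ζ g a l := by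
  have hζ0 : ζ ≠ 0 := by
    rintro rfl
    rw [zero_pow hp.ne'] at hζ
    exact zero_ne_one hζ
  have hξ : ζ⁻¹ * ζ = 1 := inv_mul_cancel₀ hζ0
  have hξp : (ζ⁻¹) ^ p = 1 := by rw [inv_pow, hζ, inv_one]
  unfold h57_res
  rw [smul_mul', smul_inv'', h57_smul_natCast, Finset.smul_sum, mul_left_comm (ζ ^ l)]
  congr 1
  rw [Finset.mul_sum]
  set F : ℕ → L := fun i => ζ ^ l * ((ζ⁻¹) ^ (i * l) * (g ^ i) • a) with hF
  have h1 : ∀ i, g • ((ζ⁻¹) ^ (i * l) * (g ^ i) • a) = F (i + 1) := by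
    intro i
    have e : ζ ^ l * (ζ⁻¹) ^ ((i + 1) * l) = (ζ⁻¹) ^ (i * l) := by
      rw [add_mul, one_mul, pow_add, mul_left_comm, ← mul_pow, mul_comm ζ, hξ, one_pow, mul_one]
    rw [hF]
    change _ = ζ ^ l * ((ζ⁻¹) ^ ((i + 1) * l) * (g ^ (i + 1)) • a)
    rw [← mul_assoc, e, smul_mul', smul_pow', smul_inv'', hgζ, ← mul_smul, ← pow_succ']
  have h2 : ∑ i ∈ range p, F (i + 1) = ∑ i ∈ range p, F i := by
    have e1 := Finset.sum_range_succ' F p
    have e2 := Finset.sum_range_succ F p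
    have e3 : F p = F 0 := by
      rw [hF]
      change ζ ^ l * ((ζ⁻¹) ^ (p * l) * (g ^ p) • a) = ζ ^ l * ((ζ⁻¹) ^ (0 * l) * (g ^ 0) • a)
      rw [pow_mul, hξp, one_pow, hga, zero_mul, pow_zero, pow_zero, one_smul]
    rw [e3] at e2
    rw [e2] at e1
    exact (add_right_cancel e1).symm
  rw [Finset.sum_congr rfl (fun i _ => h1 i), h2]

/-- Iterating `h57_res_g`. -/
lemma h57_res_gpow {p : ℕ} (hp : 0 < p) {ζ : L} (hζ : ζ ^ p = 1) {g : Γ} (hgζ : g • ζ = ζ)
    {a : L} (hga : (g ^ p) • a = a) (l j : ℕ) :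
    (g ^ j) • h57_res p ζ g a l = ζ ^ (l * j) * h57_res p ζ g a l := by
  induction j with
  | zero => simp
  | succ j ih =>
    rw [pow_succ', mul_smul, ih, smul_mul', smul_pow', hgζ, h57_res_g hp hζ hgζ hga,
      ← mul_assoc, ← pow_add, Nat.mul_succ]

/-- The resolvents add up to `a`. -/
lemma h57_res_sum {p : ℕ} (hp : p.Prime) (hpL : (p : L) ≠ 0) {ζ : L} (hζ : ζ ^ p = 1)
    (hζ1 : ζ ≠ 1) (g : Γ) (a : L) :
    ∑ l ∈ range p, h57_res p ζ g a l = a := by
  have hξp : (ζ⁻¹) ^ p = 1 := by rw [inv_pow, hζ, inv_one]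
  have hξ1 : ζ⁻¹ ≠ 1 := fun h => hζ1 (inv_eq_one.mp h)
  unfold h57_res
  rw [← Finset.mul_sum, Finset.sum_comm]
  have h1 : ∀ i ∈ range p, ∑ l ∈ range p, (ζ⁻¹) ^ (i * l) * (g ^ i) • a =
      if i = 0 then (p : L) * a else 0 := by
    intro i hi
    rw [← Finset.sum_mul]
    split_ifs with h0
    · subst h0
      simp
    · have hi' : i < p := Finset.mem_range.mp hi
      have hne : (ζ⁻¹) ^ i ≠ 1 := by
        intro h
        have hcop : Nat.Coprime i p :=
          (Nat.coprime_comm.mp ((Nat.Prime.coprime_iff_not_dvd hp).mpr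
            (Nat.not_dvd_of_pos_of_lt (Nat.pos_of_ne_zero h0) hi')))
        have := (pow_gcd_eq_one (a := ζ⁻¹) (m := i) (n := p)).mpr ⟨h, hξp⟩
        rw [Nat.Coprime.gcd_eq_one hcop, pow_one] at this
        exact hξ1 this
      have hsum : ∑ l ∈ range p, (ζ⁻¹) ^ (i * l) = 0 := by
        have hg := geom_sum_mul ((ζ⁻¹) ^ i) p
        rw [← pow_mul, mul_comm i p, pow_mul, hξp, one_pow, sub_self] at hg
        have h3 := (mul_eq_zero.mp hg).resolve_right (sub_ne_zero.mpr hne)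
        rw [← h3]
        exact Finset.sum_congr rfl fun l _ => by rw [pow_mul]
      rw [hsum, zero_mul]
  rw [Finset.sum_congr rfl h1, Finset.sum_ite_eq' (range p) 0 (fun _ => (p : L) * a),
    if_pos (Finset.mem_range.mpr hp.pos), ← mul_assoc, inv_mul_cancel₀ hpL, one_mul]

end resolvent

section main

variable {L : Type*} [Field L] {Γ₀ : Type*} [LinearOrderedCommGroupWithZero Γ₀]
  (v : Valuation L Γ₀) {Γ : Type*} [Group Γ] [MulSemiringAction Γ L] (G : Subgroup Γ)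

/-- **Kummer-Eisenstein lemma.**  `ζ` a `G`-fixed primitive `p`-th root of unity, `θ ≠ 0` with
`h θ ∈ ζ ^ ℕ * θ` for all `h ∈ G`, `g ∈ G` with `g θ = ζ θ`.  Assume that no `v θ ^ l`,
`0 < l < p`, is the valuation of a nonzero `G`-fixed element.  Then every integral `a` fixed by
the stabiliser of `θ` in `G` satisfies `v (g a - a) < v (ζ - 1)`. -/
theorem h57_kummer_eisenstein {p : ℕ} (hp : p.Prime) (hpL : (p : L) ≠ 0)
    {ζ θ : L} (hζ : ζ ^ p = 1) (hζ1 : ζ ≠ 1) (hζG : ∀ h ∈ G, h • ζ = ζ)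
    (hθ0 : θ ≠ 0) (hθG : ∀ h ∈ G, ∃ j : ℕ, h • θ = ζ ^ j * θ)
    {g : Γ} (hg : g ∈ G) (hgθ : g • θ = ζ * θ)
    (hval : ∀ c : L, (∀ h ∈ G, h • c = c) → c ≠ 0 → ∀ l : ℕ, 0 < l → l < p → v c ≠ v θ ^ l)
    {a : L} (haG : ∀ h ∈ G, h • θ = θ → h • a = a) (ha : v a ≤ 1) :
    v (g • a - a) < v (ζ - 1) := by
  have hζ0 : ζ ≠ 0 := by
    rintro rfl
    rw [zero_pow hp.ne_zero] at hζ
    exact zero_ne_one hζ
  have hgζ : g • ζ = ζ := hζG g hg
  have hgθj : ∀ j : ℕ, (g ^ j) • θ = ζ ^ j * θ := by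
    intro j
    induction j with
    | zero => simp
    | succ j ih =>
      rw [pow_succ', mul_smul, ih, smul_mul', smul_pow', hgζ, hgθ, ← mul_assoc, ← pow_succ]
  have hgjG : ∀ j : ℕ, g ^ j ∈ G := fun j => G.pow_mem hg j
  have hstab : ∀ i : ℕ, ∀ h ∈ G, h • θ = θ → h • (g ^ i) • a = (g ^ i) • a := by
    intro i h hh hhθ
    have hk : ((g ^ i)⁻¹ * h * g ^ i) ∈ G :=
      G.mul_mem (G.mul_mem (G.inv_mem (hgjG i)) hh) (hgjG i)
    have hkθ : ((g ^ i)⁻¹ * h * g ^ i) • θ = θ := by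
      rw [mul_smul, mul_smul, hgθj, smul_mul', smul_pow', hζG h hh, hhθ, inv_smul_eq_iff, hgθj]
    have := haG _ hk hkθ
    rw [mul_smul, mul_smul, inv_smul_eq_iff] at this
    exact this
  have hga : (g ^ p) • a = a := haG _ (hgjG p) (by rw [hgθj, hζ, one_mul])
  obtain ⟨b, hb⟩ : ∃ b : ℕ → L, b = fun l => h57_res p ζ g a l := ⟨_, rfl⟩
  have hbg : ∀ l, g • b l = ζ ^ l * b l := by
    intro l; rw [hb]; exact h57_res_g hp.pos hζ hgζ hga l
  have hbgj : ∀ l j : ℕ, (g ^ j) • b l = ζ ^ (l * j) * b l := by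
    intro l j; rw [hb]; exact h57_res_gpow hp.pos hζ hgζ hga l j
  have hbF : ∀ l, ∀ h ∈ G, h • θ = θ → h • b l = b l := by
    intro l h hh hhθ; rw [hb]
    exact h57_res_smul p a l h (hζG h hh) (fun i => hstab i h hh hhθ)
  have hsum : ∑ l ∈ range p, b l = a := by
    rw [hb]; exact h57_res_sum hp hpL hζ hζ1 g a
  have hbh : ∀ l, ∀ h ∈ G, ∀ j : ℕ, h • θ = ζ ^ j * θ → h • b l = ζ ^ (l * j) * b l := by
    intro l h hh j hj
    have hk : ((g ^ j)⁻¹ * h) ∈ G := G.mul_mem (G.inv_mem (hgjG j)) hh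
    have hkθ : ((g ^ j)⁻¹ * h) • θ = θ := by
      rw [mul_smul, hj, inv_smul_eq_iff, hgθj]
    have := hbF l _ hk hkθ
    rw [mul_smul, inv_smul_eq_iff] at this
    rw [this]
    exact hbgj l j
  have hcfix : ∀ l, ∀ h ∈ G, h • (b l / θ ^ l) = b l / θ ^ l := by
    intro l h hh
    obtain ⟨j, hj⟩ := hθG h hh
    rw [h57_smul_div, smul_pow', hbh l h hh j hj, hj, mul_pow, ← pow_mul, mul_comm j l,
      mul_div_mul_left _ _ (pow_ne_zero _ hζ0)]
  have hvb : ∀ l, v (b l) = v (b l / θ ^ l) * v θ ^ l := by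
    intro l
    rw [← map_pow, ← map_mul, div_mul_cancel₀ _ (pow_ne_zero _ hθ0)]
  have hvθ0 : v θ ≠ 0 := v.ne_zero_iff.mpr hθ0
  have hlt : ∀ l m : ℕ, l < m → m < p → b l ≠ 0 → b m ≠ 0 → v (b l) ≠ v (b m) := by
    intro l m hlm hmp hl0 hm0 heq
    have hcl : b l / θ ^ l ≠ 0 := div_ne_zero hl0 (pow_ne_zero _ hθ0)
    have hcm : b m / θ ^ m ≠ 0 := div_ne_zero hm0 (pow_ne_zero _ hθ0)
    refine hval (b l / θ ^ l / (b m / θ ^ m)) (fun h hh => ?_) (div_ne_zero hcl hcm) (m - l)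
      (Nat.sub_pos_of_lt hlm) (lt_of_le_of_lt (Nat.sub_le m l) hmp) ?_
    · rw [h57_smul_div, hcfix l h hh, hcfix m h hh]
    · rw [hvb l, hvb m] at heq
      have hcm' : v (b m / θ ^ m) ≠ 0 := v.ne_zero_iff.mpr hcm
      rw [map_div₀, div_eq_iff hcm']
      have e : v θ ^ m = v θ ^ (m - l) * v θ ^ l := by
        rw [← pow_add, Nat.sub_add_cancel hlm.le]
      rw [e, ← mul_assoc] at heq
      have := mul_right_cancel₀ (pow_ne_zero l hvθ0) heq
      rw [this, mul_comm]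
  have hdist : ∀ l ∈ range p, ∀ m ∈ range p, l ≠ m → b l ≠ 0 → b m ≠ 0 →
      v (b l) ≠ v (b m) := by
    intro l hl m hm hne hl0 hm0
    rcases Nat.lt_or_gt_of_ne hne with h | h
    · exact hlt l m h (mem_range.mp hm) hl0 hm0
    · exact fun heq => hlt m l h (mem_range.mp hl) hm0 hl0 heq.symm
  obtain ⟨hle, -⟩ := h57_val_le_sum v (range p) b hdist
  rw [hsum] at hle
  have hsmall : ∀ l, 0 < l → l < p → b l ≠ 0 → v (b l) < 1 := by
    intro l hl0 hlp hbl
    refine lt_of_le_of_ne ((hle l (mem_range.mpr hlp)).trans ha) ?_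
    intro h1
    have hc0 : b l / θ ^ l ≠ 0 := div_ne_zero hbl (pow_ne_zero _ hθ0)
    refine hval (b l / θ ^ l)⁻¹ (fun h hh => ?_) (inv_ne_zero hc0) l hl0 hlp ?_
    · rw [smul_inv'', hcfix l h hh]
    · rw [hvb l] at h1
      rw [map_inv₀]
      exact inv_eq_of_mul_eq_one_right h1
  have hvζ : v ζ = 1 := by
    have : v ζ ^ p = 1 := by rw [← map_pow, hζ, map_one]
    exact (pow_eq_one_iff.mp this).resolve_right hp.ne_zero
  have hζl : ∀ l : ℕ, v (ζ ^ l - 1) ≤ v (ζ - 1) := by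
    intro l
    rw [← geom_sum_mul, map_mul]
    refine mul_le_of_le_one_left' ?_
    refine v.map_sum_le (fun i _ => ?_)
    rw [map_pow, hvζ, one_pow]
  have hpos : 0 < v (ζ - 1) := zero_lt_iff.mpr (v.ne_zero_iff.mpr (sub_ne_zero.mpr hζ1))
  have hga1 : g • (∑ l ∈ range p, b l) - ∑ l ∈ range p, b l =
      ∑ l ∈ range p, (ζ ^ l - 1) * b l := by
    rw [Finset.smul_sum, ← Finset.sum_sub_distrib]
    refine Finset.sum_congr rfl fun l _ => ?_
    rw [hbg l]; ring
  rw [hsum] at hga1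
  rw [hga1]
  refine v.map_sum_lt hpos.ne' (fun l hl => ?_)
  rw [map_mul]
  rcases Nat.eq_zero_or_pos l with rfl | hl0
  · simpa using hpos
  · by_cases hbl : b l = 0
    · rw [hbl, map_zero, mul_zero]; exact hpos
    · have h1 := hsmall l hl0 (mem_range.mp hl) hbl
      rcases eq_or_ne (v (ζ ^ l - 1)) 0 with h0 | h0
      · rw [h0, zero_mul]; exact hpos
      · calc v (ζ ^ l - 1) * v (b l) < v (ζ ^ l - 1) * 1 :=
              mul_lt_mul_of_pos_left h1 (zero_lt_iff.mpr h0)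
          _ = v (ζ ^ l - 1) := mul_one _
          _ ≤ v (ζ - 1) := hζl l

end main

end Fermat.Agent.S40
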