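import Fermat.Agent.S40.h57_EChord
import Fermat.Agent.S40.h57_EKummer
import Fermat.Agent.S05.h18_Red

/-
helper57, project S40 (G40, E-side of the peu/tres ramifie dichotomy): the generic core.

`K` a valued field (valuation subring `A`), `W` a Weierstrass curve with integral coefficients
and unit discriminant, `G` a group of automorphisms of `K` (the wild part `I'` of inertia at the
instance), `ζ` a `G`-fixed primitive `p`-th root of unity, `θ` a Kummer generator in the "tres
ramifie" position (no `v θ ^ l`, `0 < l < p`, is the valuation of a `G`-fixed element),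
`g ∈ G` with `g θ = ζ θ`.  Let `P = (x, y)` be a point whose coordinates are fixed by the
stabiliser of `θ`, and assume `g P = P + R` with `R` in the kernel of reduction of depth
exactly `v (t R) = v (ζ - 1)`.  This is contradictory:

* if `P` is integral, `x(P + R) - x(P)` has valuation exactly `v (t R)` (`h57_add_x`; the
  factor `2 y + a₁ x + a₃` is a unit because `2 P ∉ E₁` and the reduction is nonsingular);
* if `P ∈ E₁`, `t(P + R) - t(P)` has valuation exactly `v (t R)` (exact difference law on `E₁`,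
  hypothesis `hdiff`);
* but every integral `a` fixed by the stabiliser of `θ` has `v (g a - a) < v (ζ - 1)`
  (`h57_kummer_eisenstein`).

Main exports (namespace `Fermat.Agent.S40`):
* `h57_D_unit`  : good reduction, `P` integral, `2 P ∉ E₁` ⟹ `2 y + a₁ x + a₃` is a unit
* `h57_E_core`  : the contradiction above
-/

set_option autoImplicit false

namespace Fermat.Agent.S40

open WeierstrassCurve WeierstrassCurve.Affine Fermat.Agent.S05

section unit

variable {K : Type*} [Field K] [DecidableEq K] (A : ValuationSubring K) (W : WeierstrassCurve K)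

/-- Good reduction: for an integral point `P = (x, y)` with `2 P` outside the kernel of
reduction, `2 y + a₁ x + a₃` is a unit. -/
theorem h57_D_unit (hW : h86_Integral A W) (hΔ : W.Δ ∉ A.nonunits) {x y : K}
    (hP : W.toAffine.Nonsingular x y) (hx : x ∈ A)
    (h2P : 2 • Affine.Point.some x y hP ∉ h86_E1 A W hW) :
    A.valuation (2 * y + W.a₁ * x + W.a₃) = 1 := by
  have hW' := hW
  obtain ⟨h1, h2, h3, h4, h6⟩ := hW'
  have hW18 : h18_Integral A W.toAffine := ⟨h1, h2, h3, h4, h6⟩
  have hy : y ∈ A := h18_y_mem hW18 hP.1 hx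
  have hD : 2 * y + W.a₁ * x + W.a₃ ∈ A :=
    A.add_mem _ _ (A.add_mem _ _ (A.mul_mem _ _ (ofNat_mem A 2) hy) (A.mul_mem _ _ h1 hx)) h3
  by_contra hne
  have hlt : A.valuation (2 * y + W.a₁ * x + W.a₃) < 1 :=
    lt_of_le_of_ne ((A.valuation_le_one_iff _).mpr hD) hne
  have hneg : W.toAffine.Nonsingular x (W.toAffine.negY x y) :=
    (Affine.nonsingular_neg ..).mpr hP
  have hxx : x - x ∈ A.nonunits := by
    rw [sub_self, A.mem_nonunits_iff, map_zero]
    exact zero_lt_one
  have hyy : W.toAffine.negY x y - y ∈ A.nonunits := by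
    have e : W.toAffine.negY x y - y = -(2 * y + W.a₁ * x + W.a₃) := by
      simp only [Affine.negY]; ring
    rw [e, A.mem_nonunits_iff, Valuation.map_neg]
    exact hlt
  have hns := h18_nonsingular_reduction_of_Δ_unit hW18 hΔ hP.1 hx
  have key := h18_sub_mem_E1 hW18 hP hneg hx hy hxx hyy hns
  have hmem : Affine.Point.some x (W.toAffine.negY x y) hneg - Affine.Point.some x y hP ∈
      h86_E1 A W hW := (h86_mem_E1_iff A W hW _).mpr key
  apply h2P
  have e : 2 • Affine.Point.some x y hP =
      -(Affine.Point.some x (W.toAffine.negY x y) hneg - Affine.Point.some x y hP) := by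
    have hnegP : Affine.Point.some x (W.toAffine.negY x y) hneg =
        -(Affine.Point.some x y hP) := rfl
    rw [hnegP, two_nsmul]
    abel
  rw [e]
  exact neg_mem hmem

end unit

section core

variable {K : Type*} [Field K] [DecidableEq K] (A : ValuationSubring K) (W : WeierstrassCurve K)
  {Γ : Type*} [Group Γ] [MulSemiringAction Γ K] (G : Subgroup Γ)

/-- **Generic E-side core.**  See the file header. -/
theorem h57_E_core (hW : h86_Integral A W) (hΔ : W.Δ ∉ A.nonunits)
    {p : ℕ} (hp : p.Prime) (hpK : (p : K) ≠ 0)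
    {ζ θ : K} (hζ : ζ ^ p = 1) (hζ1 : ζ ≠ 1) (hζG : ∀ h ∈ G, h • ζ = ζ)
    (hθ0 : θ ≠ 0) (hθG : ∀ h ∈ G, ∃ j : ℕ, h • θ = ζ ^ j * θ)
    {g : Γ} (hg : g ∈ G) (hgθ : g • θ = ζ * θ)
    (hval : ∀ c : K, (∀ h ∈ G, h • c = c) → c ≠ 0 → ∀ l : ℕ, 0 < l → l < p →
      A.valuation c ≠ A.valuation θ ^ l)
    {x y : K} (hP : W.toAffine.Nonsingular x y)
    (hP' : W.toAffine.Nonsingular (g • x) (g • y))
    (hfix : ∀ h ∈ G, h • θ = θ → h • x = x ∧ h • y = y)
    {R : W.toAffine.Point}
    (hR : Affine.Point.some (g • x) (g • y) hP' = Affine.Point.some x y hP + R)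
    (hRE1 : R ∈ h86_E1 A W hW)
    (hdepth : A.valuation (h86_t W R) = A.valuation (ζ - 1))
    (h2P : Affine.Point.some x y hP ∉ h86_E1 A W hW →
      2 • Affine.Point.some x y hP ∉ h86_E1 A W hW)
    (hdiff : ∀ Q Q' : W.toAffine.Point, Q ∈ h86_E1 A W hW → Q' ∈ h86_E1 A W hW →
      A.valuation (h86_t W (Q' - Q)) = A.valuation (h86_t W Q' - h86_t W Q)) :
    False := by
  have hv : ∀ a : K, a ∈ A → A.valuation a ≤ 1 := fun a ha => (A.valuation_le_one_iff a).mpr ha
  have hW' := hW
  obtain ⟨h1, h2, h3, h4, h6⟩ := hW'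
  have hpos : 0 < A.valuation (ζ - 1) :=
    zero_lt_iff.mpr (A.valuation.ne_zero_iff.mpr (sub_ne_zero.mpr hζ1))
  by_cases hx : x ∈ A
  · -- `P` integral: use the `x`-coordinate
    have hPE1 : Affine.Point.some x y hP ∉ h86_E1 A W hW := by
      rw [h86_some_mem_E1_iff]
      exact not_not.mpr hx
    have hDu := h57_D_unit A W hW hΔ hP hx (h2P hPE1)
    rcases R with _ | ⟨x₂, y₂, hR₂⟩
    · have h0 : h86_t W (Affine.Point.zero : W.toAffine.Point) = 0 := rfl
      rw [h0, map_zero] at hdepth
      exact hpos.ne hdepth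
    · have hx₂ : 1 < A.valuation x₂ := hRE1
      obtain ⟨x₃, y₃, h₃, hadd, -, hEq⟩ := h57_add_x A.valuation W (hv _ h1) (hv _ h2)
        (hv _ h3) (hv _ h4) (hv _ h6) hP hR₂ (hv _ hx) hx₂
      rw [hadd] at hR
      have hx₃ : g • x = x₃ := by
        rw [Affine.Point.some.injEq] at hR
        exact hR.1
      have hval1 : A.valuation (g • x - x) = A.valuation (ζ - 1) := by
        rw [hx₃, hEq hDu, ← hdepth]
        rfl
      have hlt := h57_kummer_eisenstein A.valuation G hp hpK hζ hζ1 hζG hθ0 hθG hg hgθ hval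
        (a := x) (fun h hh hhθ => (hfix h hh hhθ).1) (hv _ hx)
      rw [hval1] at hlt
      exact lt_irrefl _ hlt
  · -- `P` in the kernel of reduction: use `t = x / y`
    have hPE1 : Affine.Point.some x y hP ∈ h86_E1 A W hW :=
      (h86_some_mem_E1_iff A W hW hP).mpr hx
    have hP'E1 : Affine.Point.some (g • x) (g • y) hP' ∈ h86_E1 A W hW := by
      rw [hR]
      exact add_mem hPE1 hRE1
    have hd := hdiff _ _ hPE1 hP'E1
    have e : Affine.Point.some (g • x) (g • y) hP' - Affine.Point.some x y hP = R := by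
      rw [hR, add_sub_cancel_left]
    rw [e, hdepth] at hd
    have hta : A.valuation (x / y) ≤ 1 :=
      (h86_t_lt_one A.valuation W (hv _ h1) (hv _ h2) (hv _ h3) (hv _ h4) (hv _ h6)
        (P := Affine.Point.some x y hP) hPE1).le
    have hlt := h57_kummer_eisenstein A.valuation G hp hpK hζ hζ1 hζG hθ0 hθG hg hgθ hval
      (a := x / y)
      (fun h hh hhθ => by rw [h57_smul_div, (hfix h hh hhθ).1, (hfix h hh hhθ).2]) hta
    rw [h57_smul_div] at hlt
    have hd' : A.valuation (ζ - 1) = A.valuation (g • x / g • y - x / y) := hd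
    rw [← hd'] at hlt
    exact lt_irrefl _ hlt

end core

end Fermat.Agent.S40
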