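/-
helper57, project S40 (G40), row R13 (E-MULT): the generic E-side core WITHOUT any hypothesis
on the reduction type (only `W.Δ ≠ 0`), split into its two branches.

`K` a field with a valuation subring `A`, `W` a Weierstrass curve with coefficients in `A`,
`G` a group of automorphisms of `K`, `ζ` a `G`-fixed `p`-th root of unity, `θ` a Kummer
generator in the "tres ramifie" position, `g ∈ G` with `g θ = ζ θ`.  Let `P = (x, y)` be a point
whose coordinates are fixed by the stabiliser of `θ`, with `g P = P + R`, `R` in the kernel of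
reduction `E₁` and of depth `v (ζ - 1) ≤ v (t R)`.  Then

* `h57_core_E1`  : `P ∈ E₁` is impossible (parameter `t = x / y`, exact difference law);
* `h57_core_int` : `P` integral with `2 y + a₁ x + a₃` a unit is impossible (chord formula);
* `h57_depth_of_torsion` : the depth hypothesis holds for every nonzero `p`-torsion point of
  `E₁` (sharp bound of helper13, `W.Δ ≠ 0` only).

These are the two halves of `h13_E_core_le` (helper13), restated so that they apply to a curve
with multiplicative reduction.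
-/
import Fermat.Agent.S40.h57_ECore
import Fermat.Agent.S40.h76_EDepth
import Fermat.Agent.S40.h95_E1Fine
import Fermat.Agent.S40.h13_Sharp

set_option autoImplicit false

namespace Fermat.Agent.S40

open WeierstrassCurve WeierstrassCurve.Affine Fermat.Agent.S05

section core

variable {K : Type*} [Field K] [DecidableEq K] (A : ValuationSubring K) (W : WeierstrassCurve K)
  {Γ : Type*} [Group Γ] [MulSemiringAction Γ K] (G : Subgroup Γ)

/-- Branch `P ∈ E₁` of the E-side core. -/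
theorem h57_core_E1 (hW : h86_Integral A W)
    {p : ℕ} (hp : p.Prime) (hpK : (p : K) ≠ 0)
    {ζ θ : K} (hζ : ζ ^ p = 1) (hζ1 : ζ ≠ 1) (hζG : ∀ h ∈ G, h • ζ = ζ)
    (hθ0 : θ ≠ 0) (hθG : ∀ h ∈ G, ∃ j : ℕ, h • θ = ζ ^ j * θ)
    {g : Γ} (hg : g ∈ G) (hgθ : g • θ = ζ * θ)
    (hval : ∀ c : K, (∀ h ∈ G, h • c = c) → c ≠ 0 → ∀ l : ℕ, 0 < l → l < p →
      A.valuation c ≠ A.valuation θ ^ l)
    {x y : K} (hP : W.toAffine.Nonsingular x y)
    (hP' : W.toAffine.Nonsingular (g • x) (g • y))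
    (hfix : ∀ h ∈ G, h • θ = θ → h • x = x ∧ h • y = y)
    (hx : x ∉ A)
    {R : W.toAffine.Point}
    (hR : Affine.Point.some (g • x) (g • y) hP' = Affine.Point.some x y hP + R)
    (hRE1 : R ∈ h86_E1 A W hW)
    (hdepth : A.valuation (ζ - 1) ≤ A.valuation (h86_t W R)) :
    False := by
  have hv : ∀ a : K, a ∈ A → A.valuation a ≤ 1 := fun a ha => (A.valuation_le_one_iff a).mpr ha
  have hW' := hW
  obtain ⟨h1, h2, h3, h4, h6⟩ := hW'
  have hPE1 : Affine.Point.some x y hP ∈ h86_E1 A W hW :=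
    (h86_some_mem_E1_iff A W hW hP).mpr hx
  have hP'E1 : Affine.Point.some (g • x) (g • y) hP' ∈ h86_E1 A W hW := by
    rw [hR]
    exact add_mem hPE1 hRE1
  have hd := h95_t_sub A.valuation W (hv _ h1) (hv _ h2) (hv _ h3) (hv _ h4) (hv _ h6)
    (P := Affine.Point.some x y hP) (P' := Affine.Point.some (g • x) (g • y) hP') hPE1 hP'E1
  have e : Affine.Point.some (g • x) (g • y) hP' - Affine.Point.some x y hP = R := by
    rw [hR, add_sub_cancel_left]
  rw [e] at hd
  have hta : A.valuation (x / y) ≤ 1 :=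
    (h86_t_lt_one A.valuation W (hv _ h1) (hv _ h2) (hv _ h3) (hv _ h4) (hv _ h6)
      (P := Affine.Point.some x y hP) hPE1).le
  have hlt := h57_kummer_eisenstein A.valuation G hp hpK hζ hζ1 hζG hθ0 hθG hg hgθ hval
    (a := x / y)
    (fun h hh hhθ => by rw [h57_smul_div, (hfix h hh hhθ).1, (hfix h hh hhθ).2]) hta
  rw [h57_smul_div] at hlt
  have hd' : A.valuation (h86_t W R) = A.valuation (g • x / g • y - x / y) := hd
  rw [← hd'] at hlt
  exact absurd hdepth (not_le.mpr hlt)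

/-- Branch `P` integral, `2 y + a₁ x + a₃` a unit, of the E-side core. -/
theorem h57_core_int (hW : h86_Integral A W)
    {p : ℕ} (hp : p.Prime) (hpK : (p : K) ≠ 0)
    {ζ θ : K} (hζ : ζ ^ p = 1) (hζ1 : ζ ≠ 1) (hζG : ∀ h ∈ G, h • ζ = ζ)
    (hθ0 : θ ≠ 0) (hθG : ∀ h ∈ G, ∃ j : ℕ, h • θ = ζ ^ j * θ)
    {g : Γ} (hg : g ∈ G) (hgθ : g • θ = ζ * θ)
    (hval : ∀ c : K, (∀ h ∈ G, h • c = c) → c ≠ 0 → ∀ l : ℕ, 0 < l → l < p →
      A.valuation c ≠ A.valuation θ ^ l)
    {x y : K} (hP : W.toAffine.Nonsingular x y)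
    (hP' : W.toAffine.Nonsingular (g • x) (g • y))
    (hfix : ∀ h ∈ G, h • θ = θ → h • x = x)
    (hx : x ∈ A) (hDu : A.valuation (2 * y + W.a₁ * x + W.a₃) = 1)
    {R : W.toAffine.Point}
    (hR : Affine.Point.some (g • x) (g • y) hP' = Affine.Point.some x y hP + R)
    (hRE1 : R ∈ h86_E1 A W hW)
    (hdepth : A.valuation (ζ - 1) ≤ A.valuation (h86_t W R)) :
    False := by
  have hv : ∀ a : K, a ∈ A → A.valuation a ≤ 1 := fun a ha => (A.valuation_le_one_iff a).mpr ha
  have hW' := hW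
  obtain ⟨h1, h2, h3, h4, h6⟩ := hW'
  have hpos : 0 < A.valuation (ζ - 1) :=
    zero_lt_iff.mpr (A.valuation.ne_zero_iff.mpr (sub_ne_zero.mpr hζ1))
  rcases R with _ | ⟨x₂, y₂, hR₂⟩
  · have h0 : h86_t W (Affine.Point.zero : W.toAffine.Point) = 0 := rfl
    rw [h0, map_zero] at hdepth
    exact absurd hdepth (not_le.mpr hpos)
  · have hx₂ : 1 < A.valuation x₂ := hRE1
    obtain ⟨x₃, y₃, h₃, hadd, -, hEq⟩ := h57_add_x A.valuation W (hv _ h1) (hv _ h2)
      (hv _ h3) (hv _ h4) (hv _ h6) hP hR₂ (hv _ hx) hx₂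
    rw [hadd] at hR
    have hx₃ : g • x = x₃ := by
      rw [Affine.Point.some.injEq] at hR
      exact hR.1
    have hval1 : A.valuation (g • x - x) = A.valuation (h86_t W (Affine.Point.some x₂ y₂ hR₂)) := by
      rw [hx₃, hEq hDu]
      rfl
    have hlt := h57_kummer_eisenstein A.valuation G hp hpK hζ hζ1 hζG hθ0 hθG hg hgθ hval
      (a := x) (fun h hh hhθ => hfix h hh hhθ) (hv _ hx)
    rw [hval1] at hlt
    exact absurd hdepth (not_le.mpr hlt)

/-- The depth of a nonzero `p`-torsion point of the kernel of reduction (`W.Δ ≠ 0` only). -/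
theorem h57_depth_of_torsion [IsAlgClosed K] (hW : h86_Integral A W) (hΔ0 : W.Δ ≠ 0)
    {p : ℕ} (hp : p.Prime) (hp2 : p ≠ 2) (hB : A.LiesOverPrime p)
    {ζ : K} (hζ : ζ ^ p = 1) (hζ1 : ζ ≠ 1)
    {R : W.toAffine.Point} (hRE1 : R ∈ h86_E1 A W hW) (hR0 : R ≠ 0) (hRp : p • R = 0) :
    A.valuation (ζ - 1) ≤ A.valuation (h86_t W R) := by
  rcases R with _ | ⟨x₂, y₂, hR₂⟩
  · exact absurd rfl hR0
  · have hx₂ : 1 < A.valuation x₂ := hRE1
    have hs := h13_sharp_t A W hW hΔ0 hp hp2 hB hR₂ hx₂ hRp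
    rw [h76_val_p_eq A.valuation hp hζ1 hζ] at hs
    rw [h86_t_some]
    by_contra hlt
    rw [not_le] at hlt
    have hp1 : p - 1 ≠ 0 := by have := hp.two_le; omega
    exact absurd hs (not_le.mpr (pow_lt_pow_left₀ hlt zero_le hp1))

end core

end Fermat.Agent.S40
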