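/-
helper57, project S40 (G40), row R13 (E-MULT): the decomposition `T = P0 + D` of a `p`-torsion
point of the multiplicative model `Y² = X³ + a X² + b X` (`v a = 1`, `v b = v g₀ ^ p < 1`).

`P0` is fixed by every "inertia-like" automorphism `σ` (`σ x ≡ x` on integers, `σ a = a`,
`σ b = b`, `σ g₀ = g₀`), and `D` does not reduce to the node.  This is the proof of
`S05.core_mult` with its last step (`E₁` has no `p`-torsion, which needs `v p = 1`) removed:
no hypothesis on the residue characteristic.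
-/
import Fermat.Agent.S05.Core

set_option autoImplicit false

namespace Fermat.Agent.S40

open WeierstrassCurve Fermat.Agent.S05

variable {K : Type*} [Field K] [DecidableEq K] (A : ValuationSubring K) (a b : K)

/-- **Decomposition at a multiplicative place.**  See the file header. -/
theorem h57_mult_decomp [IsAlgClosed K] (g₀ : K) (p : ℕ) (hp : p.Prime) (hp2 : p ≠ 2)
    (h2 : A.valuation (2 : K) = 1)
    (ha : A.valuation a = 1) (hg : A.valuation g₀ < 1) (hg0 : g₀ ≠ 0)
    (hb : A.valuation b = A.valuation g₀ ^ p)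
    (T : (shortW a b).toAffine.Point) (hT : p • T = 0) :
    ∃ P0 D : (shortW a b).toAffine.Point, T = P0 + D ∧ ¬ IsN a b A D ∧
      ∀ (σ : K ≃+* K) (_hσm : ∀ x, A.valuation x ≤ 1 → A.valuation (σ x - x) < 1)
        (hσa : σ a = a) (hσb : σ b = b) (_hσg : σ g₀ = g₀),
        Sigma_hom a b σ hσa hσb P0 = P0 := by
  classical
  have hp0 : p ≠ 0 := hp.ne_zero
  have hvg0 : A.valuation g₀ ≠ 0 := (Valuation.ne_zero_iff _).mpr hg0
  have hb1 : A.valuation b < 1 := by rw [hb]; exact pow_lt_one₀ zero_le hg hp0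
  have hvb0 : A.valuation b ≠ 0 := by rw [hb]; exact pow_ne_zero _ hvg0
  have hvbpos : 0 < A.valuation b := lt_of_le_of_ne zero_le (Ne.symm hvb0)
  have hb0 : b ≠ 0 := (Valuation.ne_zero_iff _).mp hvb0
  obtain ⟨r, hr⟩ := IsAlgClosed.exists_pow_nat_eq a (n := 2) two_pos
  have hsq : ∀ x : K, ∃ y, y ^ 2 = x := fun x => IsAlgClosed.exists_pow_nat_eq x two_pos
  -- the subgroup `E0` and the quotient map
  let mk : (shortW a b).toAffine.Point →+
      (shortW a b).toAffine.Point ⧸ (E0 A a b ha hb1 h2) :=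
    QuotientAddGroup.mk' (E0 A a b ha hb1 h2)
  have hmk0 : ∀ P, mk P = 0 ↔ ¬ IsN a b A P := fun P =>
    (QuotientAddGroup.eq_zero_iff P).trans (mem_E0_iff A a b ha hb1 h2)
  have hmkC : ∀ (g : A.ValueGroup) (P P' : (shortW a b).toAffine.Point),
      InC a b A r g P → InC a b A r g P' → mk P = mk P' := by
    intro g P P' hP hP'
    refine sub_eq_zero.mp ?_
    rw [← map_sub]
    exact (hmk0 _).mpr (inC_sub_not_isN A a b r hr ha hb1 h2 hP hP')
  let c : A.ValueGroup → (shortW a b).toAffine.Point ⧸ (E0 A a b ha hb1 h2) := fun g =>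
    if hex : ∃ P, InC a b A r g P then mk hex.choose else 0
  have hc_eq : ∀ (g : A.ValueGroup) (P : (shortW a b).toAffine.Point),
      InC a b A r g P → c g = mk P := by
    intro g P hP
    have hex : ∃ P, InC a b A r g P := ⟨P, hP⟩
    simp only [c, dif_pos hex]
    exact hmkC g _ _ hex.choose_spec hP
  have exC : ∀ g : A.ValueGroup, A.valuation b < g → g < 1 → ∃ P, InC a b A r g P := by
    intro g hg1 hg2
    obtain ⟨x, rfl⟩ := A.valuation_surjective g
    obtain ⟨Y, hY, hC⟩ := exists_inC A a b r hr ha hb1 hb0 h2 hsq x hg2 hg1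
    exact ⟨_, hC⟩
  obtain ⟨T0, hT0⟩ := exists_inM A a b ha hb1 hb0 h2
  -- an auxiliary value `g3` with `g3 ^ 3 = v b`
  obtain ⟨x3, hx3⟩ := IsAlgClosed.exists_pow_nat_eq b (n := 3) (by norm_num)
  have hg3 : A.valuation x3 ^ 3 = A.valuation b := by rw [← map_pow, hx3]
  have hg3pos : 0 < A.valuation x3 := by
    refine lt_of_le_of_ne zero_le (Ne.symm ?_)
    intro h0
    rw [h0] at hg3
    exact hvb0 (by rw [← hg3]; simp)
  have hg3lt : A.valuation x3 < 1 := by
    by_contra hge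
    have : 1 ≤ A.valuation x3 ^ 3 := one_le_pow₀ (not_lt.mp hge)
    rw [hg3] at this
    exact absurd hb1 (not_lt.mpr this)
  have hg3sq : A.valuation b < A.valuation x3 ^ 2 := by
    rw [← hg3, pow_succ]
    exact mul_lt_of_lt_one_right (pow_pos hg3pos 2) hg3lt
  have hg3b : A.valuation b < A.valuation x3 :=
    lt_of_lt_of_le hg3sq (pow_le_of_le_one zero_le hg3lt.le two_ne_zero)
  obtain ⟨Q3, hQ3⟩ := exC _ hg3b hg3lt
  have hmkM : ∀ T : (shortW a b).toAffine.Point, InM a b A T → mk T = mk T0 := by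
    intro T hTM
    have h1 := inC_neg_add_of_inM A a b r hr ha hb1 hb0 h2 hTM hQ3 hg3sq
    have h2' := inC_neg_add_of_inM A a b r hr ha hb1 hb0 h2 hT0 hQ3 hg3sq
    have h3 := hmkC _ _ _ h1 h2'
    rw [map_neg, map_neg, map_add, map_add, neg_inj] at h3
    exact add_right_cancel h3
  -- the abstract component lemma
  obtain ⟨hpμ, htors⟩ := torsion_component (A.valuation b) hvbpos hb1 c (mk T0)
    (fun g => by
      obtain ⟨x, rfl⟩ := A.valuation_surjective g
      obtain ⟨y, hy⟩ := IsAlgClosed.exists_pow_nat_eq x (n := 3) (by norm_num)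
      exact ⟨A.valuation y, by rw [← map_pow, hy]⟩)
    (fun g₁ g₂ h21 h11 hh => by
      have hg2lt1 : g₂ < 1 := h21.trans h11
      have hbg1 : A.valuation b < g₁ := lt_of_lt_of_le hh (mul_le_of_le_one_right' hg2lt1.le)
      have hbg2 : A.valuation b < g₂ := lt_of_lt_of_le hh (mul_le_of_le_one_left' h11.le)
      obtain ⟨P1, hP1⟩ := exC g₁ hbg1 h11
      obtain ⟨P2, hP2⟩ := exC g₂ hbg2 hg2lt1
      rw [hc_eq g₁ P1 hP1, hc_eq g₂ P2 hP2,
        hc_eq _ _ (inC_add A a b r hr ha hb1 h2 hP1 hP2 h21 hh), map_add])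
    (fun g₁ g₂ h21 h11 hh => by
      have hg2lt1 : g₂ < 1 := h21.trans h11
      have hg1pos : 0 < g₁ := by
        refine lt_of_le_of_ne zero_le (Ne.symm ?_)
        intro h0
        rw [h0, zero_mul] at hh
        exact hvb0 hh.symm
      have hg2pos : 0 < g₂ := by
        refine lt_of_le_of_ne zero_le (Ne.symm ?_)
        intro h0
        rw [h0, mul_zero] at hh
        exact hvb0 hh.symm
      have hbg1 : A.valuation b < g₁ := by
        rw [← hh]; exact mul_lt_of_lt_one_right hg1pos hg2lt1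
      have hbg2 : A.valuation b < g₂ := by
        rw [← hh]; exact mul_lt_of_lt_one_left hg2pos h11
      obtain ⟨P1, hP1⟩ := exC g₁ hbg1 h11
      obtain ⟨P2, hP2⟩ := exC g₂ hbg2 hg2lt1
      rw [hc_eq g₁ P1 hP1, hc_eq g₂ P2 hP2, ← map_add]
      exact hmkM _ (inM_add A a b r hr ha hb1 h2 hP1 hP2 h21 hh))
    (fun g hg1 hgsq => by
      have hbg : A.valuation b < g :=
        lt_of_lt_of_le hgsq (pow_le_of_le_one zero_le hg1.le two_ne_zero)
      obtain ⟨Q, hQ⟩ := exC g hbg hg1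
      have h3 := inC_neg_add_of_inM A a b r hr ha hb1 hb0 h2 hT0 hQ hgsq
      rw [hc_eq g Q hQ, hc_eq _ _ h3, map_neg, map_add, neg_neg])
    (fun g hbg hg1 => by
      obtain ⟨P, hP⟩ := exC g hbg hg1
      rw [hc_eq g P hP]
      intro h0
      exact ((hmk0 P).mp h0) (core_isN_of_inC A a b hP))
    (fun h0 => ((hmk0 T0).mp h0) (core_isN_of_inM A a b hb1 hT0))
    p hp hp2
  -- a `p`-torsion point of a component `C_g` differs from a fixed point by a point of `E0`
  have key : ∀ (S : (shortW a b).toAffine.Point) (g : A.ValueGroup),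
      InC a b A r g S → p • S = 0 →
      ∃ P0 : (shortW a b).toAffine.Point, ¬ IsN a b A (S - P0) ∧
        ∀ (σ : K ≃+* K) (_hσm : ∀ x, A.valuation x ≤ 1 → A.valuation (σ x - x) < 1)
          (hσa : σ a = a) (hσb : σ b = b) (_hσg : σ g₀ = g₀),
          Sigma_hom a b σ hσa hσb P0 = P0 := by
    intro S g hC hpS
    have hbg : A.valuation b < g := by obtain ⟨_, _, _, -, -, hbg, -, -⟩ := hC; exact hbg
    have hg1 : g < 1 := by obtain ⟨_, _, _, -, -, -, hg1, -⟩ := hC; exact hg1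
    have hpc : p • c g = 0 := by rw [hc_eq g _ hC, ← map_nsmul, hpS, map_zero]
    obtain ⟨k, hk⟩ := htors g hbg hg1 hpc
    have hgk : g = A.valuation (g₀ ^ (2 * k)) := by
      have h3 : g ^ p = (A.valuation g₀ ^ (2 * k)) ^ p := by
        rw [hk, hb, ← pow_mul, ← pow_mul, mul_comm]
      rw [map_pow]
      exact (pow_left_inj₀ zero_le zero_le hp0).mp h3
    subst hgk
    obtain ⟨Y0, h0, hC0⟩ := exists_inC A a b r hr ha hb1 hb0 h2 hsq (g₀ ^ (2 * k)) hg1 hbg
    have hx00 : g₀ ^ (2 * k) ≠ 0 := pow_ne_zero _ hg0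
    have hs0 : A.valuation (Y0 - r * g₀ ^ (2 * k)) < A.valuation (g₀ ^ (2 * k)) := by
      obtain ⟨X', Y', h', heq, -, -, -, hs'⟩ := hC0
      rw [Affine.Point.some.injEq] at heq
      obtain ⟨rfl, rfl⟩ := heq
      exact hs'
    refine ⟨Affine.Point.some _ Y0 h0, inC_sub_not_isN A a b r hr ha hb1 h2 hC hC0, ?_⟩
    intro σ hσm hσa hσb hσg
    have hx0 : σ (g₀ ^ (2 * k)) = g₀ ^ (2 * k) := by rw [map_pow, hσg]
    have hσY0 : σ Y0 = Y0 :=
      core_fixed_of_inC A a b r hr ha h2 σ hσm hσa hσb h0 hx0 hx00 hs0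
    rw [Sigma_hom_some, Affine.Point.some.injEq]
    exact ⟨hx0, hσY0⟩
  -- conclusion
  by_cases hN : IsN a b A T
  · rcases node_trichotomy A a b r hr ha hb1 h2 hN with ⟨g, hC⟩ | ⟨g, hC⟩ | hM
    · obtain ⟨P0, hD, hfix⟩ := key T g hC hT
      exact ⟨P0, T - P0, by abel, hD, hfix⟩
    · obtain ⟨P0, hD, hfix⟩ := key (-T) g hC (by rw [smul_neg, hT, neg_zero])
      refine ⟨-P0, T + P0, by abel, ?_, ?_⟩
      · have e : T + P0 = -(-T - P0) := by abel
        rw [e, isN_neg_iff]
        exact hD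
      · intro σ hσm hσa hσb hσg
        rw [map_neg, hfix σ hσm hσa hσb hσg]
    · exfalso
      apply hpμ
      rw [← hmkM _ hM, ← map_nsmul, hT, map_zero]
  · refine ⟨0, T, by rw [zero_add], hN, ?_⟩
    intro σ hσm hσa hσb hσg
    exact map_zero _

end Fermat.Agent.S40
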