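/-
helper57, project S40 (G40), row R13 (E-MULT): the E-SIDE at a place of MULTIPLICATIVE reduction,
model level, instance `ℚ̄`.

Model `Y² = X³ + a X² + b X` with `a b : ℤ`, `p ∤ a`, `b = g ^ p`, `p ∣ g`, `g ≠ 0` (the second
alternative of `S13.h26_model_equiv` for the Frey curve at `q = p`), `A` a place of `ℚ̄` over the
odd prime `p`, `I = A.inertiaSubgroupIn ℚ`, `I' = {σ ∈ I | σ ζ = ζ}`, action `S13.h26_sig a b`.

`h57_EMultTop` : let `θ` be a Kummer generator (`θ ^ p` fixed by `I'`) in the TRES RAMIFIE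
position.  If the stabiliser of `θ` in `I'` fixes the `p`-torsion point `T`, then all of `I'`
fixes `T`.  (Same shape as `h57_E_top`, the good-reduction twin.)

Proof.  `T = P0 + D` with `P0` fixed by `I` and `D` not reducing to the node
(`h57_mult_decomp`).  For `g ∈ I'` with `g θ = ζ θ`: `R := g T - T = g D - D` lies in `E₁[p]`.
* `D ∈ E₁` : parameter branch `h57_core_E1` at `D`;
* `D` integral, `y(D)` a unit : chord branch `h57_core_int` at `D`;
* `D` integral, `y(D)` a non-unit : `2 D ∈ E₁` (congruence of `D` and `-D` at a nonsingular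
  point of the reduction), and `h57_core_E1` at `2 D` with `2 R`.
Depth of `R`, `2 R` : `h57_depth_of_torsion` (sharp bound, `Δ ≠ 0` only).
-/
import Fermat.Agent.S40.h57_EMultCore
import Fermat.Agent.S40.h57_MultDecomp
import Fermat.Agent.S13.h26_FreyP
import Fermat.Agent.S05.InertiaVal

set_option autoImplicit false

namespace Fermat.Agent.S40

open WeierstrassCurve WeierstrassCurve.Affine Fermat.Agent.S05 Fermat.Agent.S13

local notation "Qb" => AlgebraicClosure ℚ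

theorem h57_sig_mul (a b : ℤ) (σ τ : Qb ≃ₐ[ℚ] Qb)
    (T : (shortW ((a : ℤ) : Qb) ((b : ℤ) : Qb)).toAffine.Point) :
    h26_sig a b (σ * τ) T = h26_sig a b σ (h26_sig a b τ T) := by
  rcases T with _ | ⟨X, Y, h⟩
  · rfl
  · rfl

theorem h57_sig_one (a b : ℤ) (T : (shortW ((a : ℤ) : Qb) ((b : ℤ) : Qb)).toAffine.Point) :
    h26_sig a b 1 T = T := by
  rcases T with _ | ⟨X, Y, h⟩
  · rfl
  · rfl

theorem h57_sig_pow_fix (a b : ℤ) (τ : Qb ≃ₐ[ℚ] Qb)
    (T : (shortW ((a : ℤ) : Qb) ((b : ℤ) : Qb)).toAffine.Point) (hτ : h26_sig a b τ T = T)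
    (k : ℕ) : h26_sig a b (τ ^ k) T = T := by
  induction k with
  | zero => rw [pow_zero, h57_sig_one]
  | succ k ih => rw [pow_succ, h57_sig_mul, hτ, ih]

/-- **E-SIDE at a multiplicative place, model level.**  See the file header. -/
theorem h57_EMultTop (p : ℕ) (hp : p.Prime) (hp2 : p ≠ 2)
    (A : ValuationSubring Qb) (hA : A.LiesOverPrime p) (a b : ℤ)
    (hcase : ¬ (p : ℤ) ∣ a ∧ ∃ g : ℤ, g ≠ 0 ∧ (p : ℤ) ∣ g ∧ b = g ^ p)
    (ζ : Qb) (hζ : IsPrimitiveRoot ζ p) (θ : Qb) (hθ0 : θ ≠ 0)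
    (hκ : ∀ σ ∈ A.inertiaSubgroupIn ℚ, σ ζ = ζ → σ (θ ^ p) = θ ^ p)
    (htres : ∀ c : Qb, (∀ σ ∈ A.inertiaSubgroupIn ℚ, σ ζ = ζ → σ c = c) → c ≠ 0 →
      ∀ l : ℕ, 0 < l → l < p → A.valuation c ≠ A.valuation θ ^ l)
    (T : (shortW ((a : ℤ) : Qb) ((b : ℤ) : Qb)).toAffine.Point) (hT : p • T = 0)
    (hfac : ∀ σ ∈ A.inertiaSubgroupIn ℚ, σ ζ = ζ → σ θ = θ → h26_sig a b σ T = T)
    (σ : Qb ≃ₐ[ℚ] Qb) (hσ : σ ∈ A.inertiaSubgroupIn ℚ) (hσζ : σ ζ = ζ) :
    h26_sig a b σ T = T := by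
  have : NeZero p := ⟨hp.ne_zero⟩
  have hpQ : (p : Qb) ≠ 0 := by exact_mod_cast hp.ne_zero
  have hζp : ζ ^ p = 1 := hζ.pow_eq_one
  have hζ1 : ζ ≠ 1 := hζ.ne_one hp.one_lt
  have hodd : p % 2 = 1 := by
    rcases hp.eq_two_or_odd with h | h
    · exact absurd h hp2
    · exact h
  -- the model in valuation form
  obtain ⟨hb0, hd0⟩ := h26_model_ne (p := p) hp a b (Or.inr hcase) hp.ne_zero
  obtain ⟨hpa, g₀, hg0, hpg, hbg⟩ := hcase
  have hv2 : A.valuation (2 : Qb) = 1 := by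
    have := valuation_natCast_eq_one A p hp hA 2
      (fun h => hp2 ((Nat.prime_dvd_prime_iff_eq hp Nat.prime_two).mp h))
    exact_mod_cast this
  have ha1 : A.valuation ((a : ℤ) : Qb) = 1 := valuation_intCast_eq_one A p hp hA a hpa
  have hg1 : A.valuation ((g₀ : ℤ) : Qb) < 1 := (valuation_intCast A p hp hA g₀).2.mpr hpg
  have hgQ : ((g₀ : ℤ) : Qb) ≠ 0 := Int.cast_ne_zero.mpr hg0
  have hbv : A.valuation ((b : ℤ) : Qb) = A.valuation ((g₀ : ℤ) : Qb) ^ p := by
    rw [hbg]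
    push_cast
    rw [map_pow]
  have hb1 : A.valuation ((b : ℤ) : Qb) < 1 := by
    rw [hbv]
    exact pow_lt_one₀ zero_le hg1 hp.ne_zero
  have hW : h86_Integral A (shortW ((a : ℤ) : Qb) ((b : ℤ) : Qb)) :=
    ⟨A.zero_mem, intCast_mem A a, A.zero_mem, intCast_mem A b, A.zero_mem⟩
  have hΔ0 : (shortW ((a : ℤ) : Qb) ((b : ℤ) : Qb)).Δ ≠ 0 := by
    rw [shortW_Δ]
    have h16 : (16 : Qb) ≠ 0 := by norm_num
    exact mul_ne_zero (mul_ne_zero h16 (pow_ne_zero _ hb0)) hd0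
  -- the decomposition
  obtain ⟨P0, D, hTD, hDN, hP0fix⟩ := h57_mult_decomp A ((a : ℤ) : Qb) ((b : ℤ) : Qb)
    ((g₀ : ℤ) : Qb) p hp hp2 hv2 ha1 hg1 hgQ hbv T hT
  have hP0I : ∀ h ∈ A.inertiaSubgroupIn ℚ, h26_sig a b h P0 = P0 := by
    intro h hh
    exact hP0fix h.toRingEquiv (inertia_valuation A h hh).2 (map_intCast h.toRingEquiv a)
      (map_intCast h.toRingEquiv b) (map_intCast h.toRingEquiv g₀)
  have hDT : D = T - P0 := by rw [hTD]; abel
  by_contra hne
  -- the group `I'`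
  let G : Subgroup (Qb ≃ₐ[ℚ] Qb) :=
    A.inertiaSubgroupIn ℚ ⊓ MulAction.stabilizer (Qb ≃ₐ[ℚ] Qb) ζ
  have hG : ∀ h : Qb ≃ₐ[ℚ] Qb, h ∈ G ↔ h ∈ A.inertiaSubgroupIn ℚ ∧ h ζ = ζ :=
    fun h => Subgroup.mem_inf
  -- Kummer data
  have hθG : ∀ h ∈ G, ∃ j : ℕ, h • θ = ζ ^ j * θ := by
    intro h hh
    obtain ⟨hI, hζh⟩ := (hG h).mp hh
    have h1 : (h θ / θ) ^ p = 1 := by
      rw [div_pow, ← map_pow, hκ h hI hζh, div_self (pow_ne_zero _ hθ0)]
    obtain ⟨j, -, hj⟩ := hζ.eq_pow_of_pow_eq_one h1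
    refine ⟨j, ?_⟩
    change h θ = ζ ^ j * θ
    rw [hj, div_mul_cancel₀ _ hθ0]
  have hσG : σ ∈ G := (hG σ).mpr ⟨hσ, hσζ⟩
  obtain ⟨j, hj⟩ := hθG σ hσG
  have hj' : σ θ = ζ ^ j * θ := hj
  have hpj : ¬ p ∣ j := by
    rintro ⟨q, rfl⟩
    rw [pow_mul, hζp, one_pow, one_mul] at hj'
    exact hne (hfac σ hσ hσζ hj')
  have hcop : Nat.Coprime j p := (Nat.Coprime.symm ((Nat.Prime.coprime_iff_not_dvd hp).2 hpj))
  obtain ⟨m, -, hm⟩ := Nat.exists_mul_mod_eq_one_of_coprime hcop hp.one_lt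
  have hjm : j * m = p * (j * m / p) + 1 := by
    have := Nat.div_add_mod (j * m) p
    omega
  have hpm : ¬ p ∣ m := by
    rintro ⟨q, rfl⟩
    rw [← mul_assoc, mul_comm j p, mul_assoc, Nat.mul_mod_right] at hm
    exact zero_ne_one hm
  have hσk : ∀ k : ℕ, (σ ^ k) θ = ζ ^ (j * k) * θ := by
    intro k
    induction k with
    | zero => simp
    | succ k ih =>
      rw [pow_succ', AlgEquiv.mul_apply, ih, map_mul, map_pow, hσζ, hj', ← mul_assoc,
        ← pow_add, Nat.mul_succ]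
  have hgG : σ ^ m ∈ G := G.pow_mem hσG m
  have hgI : σ ^ m ∈ A.inertiaSubgroupIn ℚ := ((hG _).mp hgG).1
  have hgθ : (σ ^ m) • θ = ζ * θ := by
    change (σ ^ m) θ = ζ * θ
    rw [hσk m, hjm, pow_add, pow_mul, hζp, one_pow, one_mul, pow_one]
  -- `σ ^ m` moves `T`
  have hgT : h26_sig a b (σ ^ m) T ≠ T := by
    intro hfixm
    have hσpθ : (σ ^ p) θ = θ := by
      rw [hσk p, mul_comm j p, pow_mul, hζp, one_pow, one_mul]
    have hσpG : σ ^ p ∈ G := G.pow_mem hσG p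
    have hfixp : h26_sig a b (σ ^ p) T = T :=
      hfac _ ((hG _).mp hσpG).1 ((hG _).mp hσpG).2 hσpθ
    have hcop' : Nat.Coprime m p :=
      (Nat.Coprime.symm ((Nat.Prime.coprime_iff_not_dvd hp).2 hpm))
    obtain ⟨m', -, hm'⟩ := Nat.exists_mul_mod_eq_one_of_coprime hcop' hp.one_lt
    have hmm : m * m' = p * (m * m' / p) + 1 := by
      have := Nat.div_add_mod (m * m') p
      omega
    have h1 : h26_sig a b (σ ^ (m * m')) T = T := by
      rw [pow_mul]
      exact h57_sig_pow_fix a b _ T hfixm m'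
    have h2 : h26_sig a b (σ ^ (p * (m * m' / p))) T = T := by
      rw [pow_mul]
      exact h57_sig_pow_fix a b _ T hfixp _
    rw [hmm, pow_succ', h57_sig_mul, h2] at h1
    exact hne h1
  -- the translation `R := g T - T = g D - D`
  obtain ⟨R, hRdef⟩ : ∃ R : (shortW ((a : ℤ) : Qb) ((b : ℤ) : Qb)).toAffine.Point,
      R = h26_sig a b (σ ^ m) T - T := ⟨_, rfl⟩
  have hR0 : R ≠ 0 := by
    rw [hRdef]
    exact fun h => hgT (sub_eq_zero.mp h)
  have hRp : p • R = 0 := by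
    rw [hRdef, nsmul_sub, ← map_nsmul, hT, map_zero, sub_zero]
  have hRD : R = h26_sig a b (σ ^ m) D - D := by
    rw [hRdef, hDT, map_sub, hP0I _ hgI]
    abel
  have hRE1 : R ∈ h86_E1 A (shortW ((a : ℤ) : Qb) ((b : ℤ) : Qb)) hW := by
    have key := core_sub_isE1 A ((a : ℤ) : Qb) ((b : ℤ) : Qb) hv2 ha1.le hb1.le
      (σ ^ m).toRingEquiv (inertia_valuation A _ hgI).1 (inertia_valuation A _ hgI).2
      (h26_sig a b (σ ^ m)) (fun X Y h => h26_sig_some a b (σ ^ m) h)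
      (fun hE hX => ns_of_mult A _ _ ha1 hb1 hE hX) D hDN
    rw [← hRD] at key
    exact (E1_isE1_iff A _ _ R).mp key
  have hDadd : h26_sig a b (σ ^ m) D = D + R := by
    rw [hRD]
    abel
  have hDfix : ∀ h ∈ G, h • θ = θ → h26_sig a b h D = D := by
    intro h hh hhθ
    obtain ⟨hI, hζh⟩ := (hG h).mp hh
    rw [hDT, map_sub, hfac h hI hζh hhθ, hP0I h hI]
  have hζG : ∀ h ∈ G, h • ζ = ζ := fun h hh => ((hG h).mp hh).2
  have hval : ∀ c : Qb, (∀ h ∈ G, h • c = c) → c ≠ 0 → ∀ l : ℕ, 0 < l → l < p →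
      A.valuation c ≠ A.valuation θ ^ l := by
    intro c hc hc0 l hl0 hlp
    exact htres c (fun s hs hsζ => hc s ((hG s).mpr ⟨hs, hsζ⟩)) hc0 l hl0 hlp
  have hdepth := h57_depth_of_torsion A (shortW ((a : ℤ) : Qb) ((b : ℤ) : Qb)) hW hΔ0 hp hp2 hA
    hζp hζ1 hRE1 hR0 hRp
  -- `2 R`
  have h2R0 : 2 • R ≠ 0 := by
    intro h0
    apply hR0
    have e : R = ((p + 1) / 2) • (2 • R) := by
      rw [← mul_nsmul, show 2 * ((p + 1) / 2) = p + 1 by omega, add_nsmul, hRp, zero_add,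
        one_nsmul]
    rw [e, h0, nsmul_zero]
  rcases D with _ | ⟨x, y, hxy⟩
  · apply hR0
    rw [hRD]
    exact sub_self _
  · obtain ⟨hxy', hs⟩ := h26_sig_some a b (σ ^ m) hxy
    have hRadd : Affine.Point.some ((σ ^ m) • x) ((σ ^ m) • y) hxy' =
        Affine.Point.some x y hxy + R := by
      rw [← hDadd, hs]
      rfl
    have hfix : ∀ h ∈ G, h • θ = θ → h • x = x ∧ h • y = y := by
      intro h hh hhθ
      have hfx := hDfix h hh hhθ
      obtain ⟨h', hs'⟩ := h26_sig_some a b h hxy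
      rw [hs', Affine.Point.some.injEq] at hfx
      exact hfx
    by_cases hx : x ∈ A
    · have hxle : A.valuation x ≤ 1 := (A.valuation_le_one_iff x).mpr hx
      have hx1 : A.valuation x = 1 := by
        refine le_antisymm hxle ?_
        by_contra hlt
        exact hDN ⟨x, y, hxy, rfl, not_le.mp hlt⟩
      have hyle : A.valuation y ≤ 1 := core_val_Y_le A _ _ ha1.le hb1.le hxy.1 hxle
      by_cases hy : A.valuation y = 1
      · -- chord branch
        have hDu : A.valuation (2 * y + (shortW ((a : ℤ) : Qb) ((b : ℤ) : Qb)).a₁ * x +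
            (shortW ((a : ℤ) : Qb) ((b : ℤ) : Qb)).a₃) = 1 := by
          rw [shortW_a₁, shortW_a₃, zero_mul, add_zero, add_zero, map_mul, hv2, hy, one_mul]
        exact h57_core_int A (shortW ((a : ℤ) : Qb) ((b : ℤ) : Qb)) G hW hp hpQ hζp hζ1 hζG hθ0
          hθG hgG hgθ hval hxy hxy' (fun h hh hhθ => (hfix h hh hhθ).1) hx hDu hRadd hRE1 hdepth
      · -- `2 D ∈ E₁`
        have hylt : A.valuation y < 1 := lt_of_le_of_ne hyle hy
        have hneg : (shortW ((a : ℤ) : Qb) ((b : ℤ) : Qb)).toAffine.Nonsingular x (-y) := by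
          have := (Affine.nonsingular_neg (W' := (shortW ((a : ℤ) : Qb) ((b : ℤ) : Qb)).toAffine)
            x y).mpr hxy
          rwa [shortW_negY] at this
        have hnegeq : Affine.Point.some x (-y) hneg = -Affine.Point.some x y hxy := by
          rw [Affine.Point.neg_some]
          congr 1
          exact (shortW_negY _ _ x y).symm
        have hE := isE1_sub_of_congr A ((a : ℤ) : Qb) ((b : ℤ) : Qb) ha1.le hb1.le hv2 hneg hxy
          hxle (by rw [sub_self, map_zero]; exact zero_lt_one)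
          (by
            have e : y - -y = 2 * y := by ring
            rw [e, map_mul, hv2, one_mul]
            exact hylt)
          (ns_of_mult A _ _ ha1 hb1 hneg.1 hx1)
        rw [hnegeq, sub_neg_eq_add, ← two_nsmul] at hE
        have hsig2 : ∀ h : Qb ≃ₐ[ℚ] Qb, h26_sig a b h (2 • Affine.Point.some x y hxy) =
            2 • h26_sig a b h (Affine.Point.some x y hxy) := fun h => map_nsmul _ _ _
        have hEadd : h26_sig a b (σ ^ m) (2 • Affine.Point.some x y hxy) =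
            2 • Affine.Point.some x y hxy + 2 • R := by
          rw [hsig2, hDadd, nsmul_add]
        have hEfix : ∀ h ∈ G, h • θ = θ → h26_sig a b h (2 • Affine.Point.some x y hxy) =
            2 • Affine.Point.some x y hxy := by
          intro h hh hhθ
          rw [hsig2, hDfix h hh hhθ]
        have h2RE1 : 2 • R ∈ h86_E1 A (shortW ((a : ℤ) : Qb) ((b : ℤ) : Qb)) hW :=
          nsmul_mem hRE1 2
        have h2Rp : p • (2 • R) = 0 := by
          rw [nsmul_left_comm, hRp, nsmul_zero]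
        have hdepth2 := h57_depth_of_torsion A (shortW ((a : ℤ) : Qb) ((b : ℤ) : Qb)) hW hΔ0 hp
          hp2 hA hζp hζ1 h2RE1 h2R0 h2Rp
        generalize 2 • Affine.Point.some x y hxy = E at hE hEadd hEfix
        rcases hE with rfl | ⟨X₂, Y₂, h₂, rfl, hX₂⟩
        · apply h2R0
          rw [map_zero, zero_add] at hEadd
          exact hEadd.symm
        · obtain ⟨h₂', hs₂⟩ := h26_sig_some a b (σ ^ m) h₂
          have hRadd₂ : Affine.Point.some ((σ ^ m) • X₂) ((σ ^ m) • Y₂) h₂' =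
              Affine.Point.some X₂ Y₂ h₂ + 2 • R := by
            rw [← hEadd, hs₂]
            rfl
          have hfix₂ : ∀ h ∈ G, h • θ = θ → h • X₂ = X₂ ∧ h • Y₂ = Y₂ := by
            intro h hh hhθ
            have hfx := hEfix h hh hhθ
            obtain ⟨h', hs'⟩ := h26_sig_some a b h h₂
            rw [hs', Affine.Point.some.injEq] at hfx
            exact hfx
          have hX₂' : X₂ ∉ A := by
            rw [← A.valuation_le_one_iff, not_le]
            exact hX₂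
          exact h57_core_E1 A (shortW ((a : ℤ) : Qb) ((b : ℤ) : Qb)) G hW hp hpQ hζp hζ1 hζG
            hθ0 hθG hgG hgθ hval h₂ h₂' hfix₂ hX₂' hRadd₂ h2RE1 hdepth2
    · -- parameter branch
      exact h57_core_E1 A (shortW ((a : ℤ) : Qb) ((b : ℤ) : Qb)) G hW hp hpQ hζp hζ1 hζG hθ0
        hθG hgG hgθ hval hxy hxy' hfix hx hRadd hRE1 hdepth

end Fermat.Agent.S40
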