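import Fermat.Agent.S40.h26_EFrey
import Fermat.Agent.S40.h57_EMultInst
import Fermat.Agent.S40.h37_ESide

/-
helper26, project S40/S44 (G40), row R13 (E-MULT), final glue.

`h26_ESide_frey P : h37_ESide P.freyCurve P.p` : the E-side hypothesis of the level-lowering core
`h37_core` for the Frey curve at its own prime `p`, UNCONDITIONALLY (no hypothesis `p ∣ abc`):
the multiplicative case of the model at `p` is helper57's `h57_EMultTop`, the good case is
`h57_E_top` (inside `h26_E_frey_top`), the passage to the `False` form is `h26_kappa0_of_top`.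
Also the form on an arbitrary integral model of the Frey curve.
-/

set_option autoImplicit false

namespace Fermat.Agent.S40

open WeierstrassCurve WeierstrassCurve.Affine WeierstrassCurve.Affine.Point
open Fermat.Agent.S05 Fermat.Agent.S13

local notation "Qb" => AlgebraicClosure ℚ

/-- The model-level multiplicative input of `h26_EFrey`, from `h57_EMultTop`. -/
theorem h26_frey_hmult (P : FreyPackage) (A : ValuationSubring Qb) (hA : A.LiesOverPrime P.p)
    (a b : ℤ) (hcase : ¬ (P.p : ℤ) ∣ a ∧ ∃ g : ℤ, g ≠ 0 ∧ (P.p : ℤ) ∣ g ∧ b = g ^ P.p) :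
    h26_EMultTop A P.p a b := by
  have hp2 : P.p ≠ 2 := by have := P.hp5; omega
  exact fun ζ hζ θ hθ0 hκ htres T hT hfac σ hσ hσζ =>
    h57_EMultTop P.p P.pp hp2 A hA a b hcase ζ hζ θ hθ0 hκ htres T hT hfac σ hσ hσζ

/-- **E-side for the Frey curve at `p`** (`= h37_ESide P.freyCurve P.p`, unconditional). -/
theorem h26_ESide_frey (P : FreyPackage) : h37_ESide P.freyCurve P.p :=
  fun A hA ζ hζ e he0 hκI hκv T hT hiff =>
    h26_E_frey_kappa0 P A hA (h26_frey_hmult P A hA) ζ hζ e he0 hκI hκv T hT hiff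

/-- The same on every integral model `W` of the Frey curve (points of `h57_EQb W`). -/
theorem h26_ESide_frey_model (P : FreyPackage) (W : WeierstrassCurve ℤ)
    (hW : W.IsIntegralModelOf P.freyCurve) :
    h37_ESide (W.map (Int.castRingHom ℚ)) P.p :=
  fun A hA ζ hζ e he0 hκI hκv T hT hiff =>
    h26_E_frey_model_kappa0 P W hW A hA (h26_frey_hmult P A hA) ζ hζ e he0 hκI hκv T hT hiff

/-- The `h57_E_top` shape on the Frey curve, unconditional. -/
theorem h26_E_frey_top' (P : FreyPackage) (A : ValuationSubring Qb) (hA : A.LiesOverPrime P.p)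
    (ζ : Qb) (hζ : IsPrimitiveRoot ζ P.p) (θ : Qb) (hθ0 : θ ≠ 0)
    (hκ : ∀ σ ∈ A.inertiaSubgroupIn ℚ, σ ζ = ζ → σ (θ ^ P.p) = θ ^ P.p)
    (htres : ∀ c : Qb, (∀ σ ∈ A.inertiaSubgroupIn ℚ, σ ζ = ζ → σ c = c) → c ≠ 0 →
      ∀ l : ℕ, 0 < l → l < P.p → A.valuation c ≠ A.valuation θ ^ l)
    (T : (P.freyCurve⁄Qb).Point) (hT : P.p • T = 0)
    (hfac : ∀ σ ∈ A.inertiaSubgroupIn ℚ, σ ζ = ζ → σ θ = θ → σ • T = T)
    (σ : Qb ≃ₐ[ℚ] Qb) (hσ : σ ∈ A.inertiaSubgroupIn ℚ) (hσζ : σ ζ = ζ) : σ • T = T :=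
  h26_E_frey_top P A hA (h26_frey_hmult P A hA) ζ hζ θ hθ0 hκ htres T hT hfac σ hσ hσζ

end Fermat.Agent.S40
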