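/-
S40 / G40, row T8, hedge (E2-W): the plug (helper28).

`h28_hedge_t8` : at the W9 level `(M, p)` with its node block `(Sg, hSg, n0, hnode)`
(the binders of `h67_cnt_block` / `h92_NodeData`), for a Hecke prime `ℓ ∤ M p`, a class `[E]` with
`p E = div u`, `T_ℓ [E] = a [E]`, `p ∤ ℓ + 1 - a`, and the (TR*) consequence `hdiff` of W7:

  `h92_T8Out M p hpM A hA Sg (h96_frobPerm (h84_isFrobChart_jk M p hpM A hA)) u`.

No count instance and no node data at the level `M ℓ` are left as hypotheses: the count instances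
are `h67_cnt_block` at `(M, p)` and at `(M ℓ, p)` (node block of level `M ℓ` from
`h87_node_closed`), the Hasse series is `h58_isW_h84`, `hα`/`hβ` are `h23_E2W_of_count`
(= `h28_e2_gen` + (b),(c),(d) of helper58 + (V-UNIT) `h28_VUnit`), and the end is
`h23_T8Out_of_E2_image`.
-/
import Mathlib
import Fermat.Agent.S40.h23_E2W
import Fermat.Agent.S40.h58_E2WV
import Fermat.Agent.S40.h67_W6Row

set_option autoImplicit false
set_option synthInstance.maxHeartbeats 400000
set_option linter.style.haveILetI false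

noncomputable section

open ModularCurve AlgebraicCurve IntermediateField

namespace Fermat.Agent.S40

open Fermat.Agent.S18 Fermat.Agent.S24 Fermat.Agent.S34 Fermat.Agent.S36 Fermat.Agent.S37

local notation "Qb" => AlgebraicClosure ℚ

/-! ### Level bookkeeping: "no elliptic points" passes to multiples of the level -/

/-- No root of `x² + 1` modulo `M` ⟹ none modulo any multiple of `M`. -/
theorem h28_nuTwo_of_dvd {M L : ℕ} [NeZero M] (hML : M ∣ L) (h2 : nuTwo M = 0) :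
    nuTwo L = 0 := by
  by_contra h
  unfold nuTwo at h
  obtain ⟨⟨x, hx⟩⟩ := (Nat.card_ne_zero.mp h).1
  have hne : Nonempty {y : ZMod M // y ^ 2 + 1 = 0} :=
    ⟨⟨ZMod.castHom hML (ZMod M) x, by
      rw [← map_pow, ← map_one (ZMod.castHom hML (ZMod M)), ← map_add, hx, map_zero]⟩⟩
  have : 0 < nuTwo M := by
    unfold nuTwo
    exact Nat.card_pos
  omega

/-- No root of `x² + x + 1` modulo `M` ⟹ none modulo any multiple of `M`. -/
theorem h28_nuThree_of_dvd {M L : ℕ} [NeZero M] (hML : M ∣ L) (h3 : nuThree M = 0) :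
    nuThree L = 0 := by
  by_contra h
  unfold nuThree at h
  obtain ⟨⟨x, hx⟩⟩ := (Nat.card_ne_zero.mp h).1
  have hne : Nonempty {y : ZMod M // y ^ 2 + y + 1 = 0} :=
    ⟨⟨ZMod.castHom hML (ZMod M) x, by
      rw [← map_pow, ← map_one (ZMod.castHom hML (ZMod M)), ← map_add, ← map_add, hx,
        map_zero]⟩⟩
  have : 0 < nuThree M := by
    unfold nuThree
    exact Nat.card_pos
  omega

/-! ### The plug -/

section Plug

variable (M p : ℕ) [NeZero M] [NeZero p] [Fact p.Prime] (hpM : ¬ p ∣ M)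
  (A : ValuationSubring Qb) (hA : A.LiesOverPrime p)
  [CharP (IsLocalRing.ResidueField A) p] [IsAlgClosed (IsLocalRing.ResidueField A)]
  (ℓ : ℕ) [NeZero ℓ]

set_option maxHeartbeats 1600000 in
/-- **(E2-W) at the W9 block**: `hα ∧ hβ` of `h23_T8Out_of_E2_image` for the node block
`(Sg, hSg, n0, hnode)` of level `(M, p)`, with no hypothesis at the level `M ℓ`. -/
theorem h28_hedge_e2 (hℓ : ℓ.Prime) (hℓM : ¬ ℓ ∣ M) (hpMℓ : ¬ p ∣ M * ℓ)
    (hch : 5 ≤ p ∨ 2 ∣ M ∨ 3 ∣ M) (h2 : nuTwo M = 0) (h3 : nuThree M = 0)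
    (Sg : Finset (Place (IsLocalRing.ResidueField A)
      ↥(modularFunctionFieldFullC (IsLocalRing.ResidueField A) M)))
    (hSg : ∀ Q ∈ Sg, Q ≠ h11_placeInftyC (IsLocalRing.ResidueField A) M ∧
      h96_frobPerm (h84_isFrobChart_jk M p hpM A hA) Q ≠
        h11_placeInftyC (IsLocalRing.ResidueField A) M ∧
      h96_frobPerm (h84_isFrobChart_jk M p hpM A hA)
        (h96_frobPerm (h84_isFrobChart_jk M p hpM A hA) Q) = Q)
    (n0 : ℕ)
    (hnode : ∀ n, n0 ≤ n → ∀ a : ↥(modularFunctionFieldFullC (IsLocalRing.ResidueField A) M) ×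
        ↥(modularFunctionFieldFullC (IsLocalRing.ResidueField A) M),
      a ∈ h51_Rd (h87_D M p hpM A hA) (n • h87_D0 M p hpM) ↔
        (a ∈ h20_P (h11_placeInftyC (IsLocalRing.ResidueField A) M) n ∧
          ∀ Q ∈ Sg, ∃ c : IsLocalRing.ResidueField A,
            h39_Val (h96_frobPerm (h84_isFrobChart_jk M p hpM A hA) Q) a.1 c ∧
              h39_Val Q a.2 c)) :
    letI := algebraAlong (h10_alphaC (IsLocalRing.ResidueField A) M ℓ)
    haveI := isScalarTower_along (h10_alphaC (IsLocalRing.ResidueField A) M ℓ)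
    haveI := h23_finite_alphaC M A hA ℓ hpMℓ
    (∀ w : Place (IsLocalRing.ResidueField A)
        ↥(modularFunctionFieldFullC (IsLocalRing.ResidueField A) (M * ℓ)),
      w.restrict ↥(modularFunctionFieldFullC (IsLocalRing.ResidueField A) M) ∈
          h96_frobPerm (h84_isFrobChart_jk M p hpM A hA) ''
            (↑Sg : Set (Place (IsLocalRing.ResidueField A)
              ↥(modularFunctionFieldFullC (IsLocalRing.ResidueField A) M))) →
        w.ramificationIndex ↥(modularFunctionFieldFullC (IsLocalRing.ResidueField A) M) = 1) ∧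
    (∀ w : Place (IsLocalRing.ResidueField A)
        ↥(modularFunctionFieldFullC (IsLocalRing.ResidueField A) (M * ℓ)),
      w.restrict ↥(modularFunctionFieldFullC (IsLocalRing.ResidueField A) M) ∈
          h96_frobPerm (h84_isFrobChart_jk M p hpM A hA) ''
            (↑Sg : Set (Place (IsLocalRing.ResidueField A)
              ↥(modularFunctionFieldFullC (IsLocalRing.ResidueField A) M))) →
        ∃ ν₂ ∈ h96_frobPerm (h84_isFrobChart_jk M p hpM A hA) ''
            (↑Sg : Set (Place (IsLocalRing.ResidueField A)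
              ↥(modularFunctionFieldFullC (IsLocalRing.ResidueField A) M))),
          ∀ g : ↥(modularFunctionFieldFullC (IsLocalRing.ResidueField A) M),
            w.ord (h2_betaC (IsLocalRing.ResidueField A) M ℓ g) = ν₂.ord g) := by
  obtain ⟨T, hT⟩ := h67_cnt_exists_T M p hpM A hA hch
  have H := h67_cnt_block M p hpM A hA hch h2 h3 Sg hSg n0 hnode T hT
  have hch' : 5 ≤ p ∨ 2 ∣ M * ℓ ∨ 3 ∣ M * ℓ :=
    hch.imp id (Or.imp (fun h => Dvd.dvd.mul_right h ℓ) (fun h => Dvd.dvd.mul_right h ℓ))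
  have h2' : nuTwo (M * ℓ) = 0 := h28_nuTwo_of_dvd (Dvd.intro _ rfl) h2
  have h3' : nuThree (M * ℓ) = 0 := h28_nuThree_of_dvd (Dvd.intro _ rfl) h3
  obtain ⟨Sg', hSg', n0', -, -, hnode'⟩ := h87_node_closed (M * ℓ) p hpMℓ A hA hch'
  obtain ⟨T', hT'⟩ := h67_cnt_exists_T (M * ℓ) p hpMℓ A hA hch'
  have H' := h67_cnt_block (M * ℓ) p hpMℓ A hA hch' h2' h3' Sg' hSg' n0' hnode' T' hT'
  have key := h23_E2W_of_count M p ℓ A hA hpM hℓ hℓM hpMℓ hch h2 h3 H
    (fun P hP => (hT P).mp hP) (h58_isW_h84 M p hpM A hA) H' hT'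
    (h58_isW_h84 (M * ℓ) p hpMℓ A hA)
  exact ⟨fun w hw => (key.1 w hw).2, key.2⟩

/-- **T8 through the hedge (E2-W)** at the W9 block: eigen-relation at a Hecke prime `ℓ` with
`p ∤ ℓ + 1 - a` + the (TR*) consequence `hdiff` of W7 ⟹ `h92_T8Out`. -/
theorem h28_hedge_t8 (hℓ : ℓ.Prime) (hℓM : ¬ ℓ ∣ M) (hpMℓ : ¬ p ∣ M * ℓ)
    (hch : 5 ≤ p ∨ 2 ∣ M ∨ 3 ∣ M) (h2 : nuTwo M = 0) (h3 : nuThree M = 0)
    (Sg : Finset (Place (IsLocalRing.ResidueField A)
      ↥(modularFunctionFieldFullC (IsLocalRing.ResidueField A) M)))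
    (hSg : ∀ Q ∈ Sg, Q ≠ h11_placeInftyC (IsLocalRing.ResidueField A) M ∧
      h96_frobPerm (h84_isFrobChart_jk M p hpM A hA) Q ≠
        h11_placeInftyC (IsLocalRing.ResidueField A) M ∧
      h96_frobPerm (h84_isFrobChart_jk M p hpM A hA)
        (h96_frobPerm (h84_isFrobChart_jk M p hpM A hA) Q) = Q)
    (n0 : ℕ)
    (hnode : ∀ n, n0 ≤ n → ∀ a : ↥(modularFunctionFieldFullC (IsLocalRing.ResidueField A) M) ×
        ↥(modularFunctionFieldFullC (IsLocalRing.ResidueField A) M),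
      a ∈ h51_Rd (h87_D M p hpM A hA) (n • h87_D0 M p hpM) ↔
        (a ∈ h20_P (h11_placeInftyC (IsLocalRing.ResidueField A) M) n ∧
          ∀ Q ∈ Sg, ∃ c : IsLocalRing.ResidueField A,
            h39_Val (h96_frobPerm (h84_isFrobChart_jk M p hpM A hA) Q) a.1 c ∧
              h39_Val Q a.2 c))
    (a : ℤ) (ha : ¬ (p : ℤ) ∣ (ℓ : ℤ) + 1 - a)
    (E : Divisor.degZero (K := Qb) (F := modularFunctionFieldBar (M * p)))
    (u : ↥(modularFunctionFieldBar (M * p))) (hu : u ≠ 0)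
    (hdiv : ∀ v : Place Qb (modularFunctionFieldBar (M * p)),
      (p : ℤ) * (E : Divisor Qb (modularFunctionFieldBar (M * p))) v = v.ord u)
    (hTℓ : heckeOperatorBar (M * p) ⟨ℓ, hℓ⟩ (Pic0.mk E) = a • Pic0.mk E)
    (hdiff : ∀ Q ∈ Sg, ∀ Q' ∈ Sg, (p : ℤ) ∣
      h43_rord (h60_R1 M p hpM A hA) (h96_frobPerm (h84_isFrobChart_jk M p hpM A hA) Q) u -
        h43_rord (h60_R1 M p hpM A hA) (h96_frobPerm (h84_isFrobChart_jk M p hpM A hA) Q') u) :
    h92_T8Out M p hpM A hA Sg (h96_frobPerm (h84_isFrobChart_jk M p hpM A hA)) u := by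
  obtain ⟨hα, hβ⟩ := h28_hedge_e2 M p hpM A hA ℓ hℓ hℓM hpMℓ hch h2 h3 Sg hSg n0 hnode
  exact h23_T8Out_of_E2_image M p hpM A hA ℓ hpMℓ hℓ hℓM Sg _ hα hβ a ha E u hu hdiv hTℓ hdiff

end Plug

end Fermat.Agent.S40

end
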