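import Mathlib
import Fermat.Agent.S40.h2_EndGlue
import Fermat.Agent.S40.h67_EigChar0

/-!
# S40 / T8 (END-JET): `T = N_α ∘ β` as a monoid homomorphism  (helper2)

The binders `T`, `hTπ`, `heig` (and the membership facts behind `hT₁`, `hT₂`) of
`h12_ej_gen`, for `T f := N_α (β f)`, `α, β : F(N) → F(N ℓ)`.

* `h2_normBetaHom` : `T` as a `MonoidHom`; `h2_normBetaHom_apply` (`rfl`).
* `h2_normBetaHom_algebraMap`, `h2_normBetaHom_algebraMap_prime` : `T c = c ^ d`, `d = ℓ + 1`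
  for a prime `ℓ ∤ N`.
* `h2_normBetaHom_ringAut`, `h2_normBetaHom_ringAut_fixed` : Galois equivariance.
* `h2_normBetaHom_mem_R1`, `_unit_R1`, `_mem_R2`, `_unit_R2` : the two components at level `M p`.
* `h2_normBetaHom_eig`, `h2_normBetaHom_eig_scaled` : the eigen-relation
  `T u = c • u ^ a * h ^ m` for `u` and for every constant multiple `u₁` of `u`.
-/

set_option autoImplicit false
set_option synthInstance.maxHeartbeats 400000

noncomputable section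

open ModularCurve AlgebraicCurve

namespace Fermat.Agent.S40

open Fermat.Agent.GAL Fermat.Agent.S37 Fermat.Agent.S34 Fermat.Agent.S18 Fermat.Agent.S24

local notation "Qb" => AlgebraicClosure ℚ

section Hom

variable (N ℓ : ℕ) [NeZero N] [NeZero ℓ]

/-- `T f := N_α (β f)` as a monoid homomorphism of `F(N)`. -/
def h2_normBetaHom : ↥(modularFunctionFieldBar N) →* ↥(modularFunctionFieldBar N) where
  toFun f := h67_normAlong (heckeAlphaBar Qb N ℓ) (heckeBetaBar Qb N ℓ f)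
  map_one' := h2_normBeta_one N ℓ
  map_mul' := h2_normBeta_mul N ℓ

theorem h2_normBetaHom_apply (f : ↥(modularFunctionFieldBar N)) :
    h2_normBetaHom N ℓ f = h67_normAlong (heckeAlphaBar Qb N ℓ) (heckeBetaBar Qb N ℓ f) :=
  rfl

/-- `T c = c ^ d` for a constant `c`, `d = [F(N ℓ) : F(N)]`. -/
theorem h2_normBetaHom_algebraMap (c : Qb) :
    h2_normBetaHom N ℓ (algebraMap Qb ↥(modularFunctionFieldBar N) c)
      = algebraMap Qb ↥(modularFunctionFieldBar N) c ^ finrankAlong Qb (heckeAlphaBar Qb N ℓ) := by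
  rw [h2_normBetaHom_apply, h2_normBeta_const, map_pow]

/-- `T c = c ^ (ℓ + 1)` for a constant `c`, `ℓ` a prime not dividing `N`
(`hTπ` of `h12_ej_gen` with `n := ℓ + 1`). -/
theorem h2_normBetaHom_algebraMap_prime (hℓ : ℓ.Prime) (hℓN : ¬ ℓ ∣ N) (c : Qb) :
    h2_normBetaHom N ℓ (algebraMap Qb ↥(modularFunctionFieldBar N) c)
      = algebraMap Qb ↥(modularFunctionFieldBar N) c ^ (ℓ + 1) := by
  rw [h2_normBetaHom_algebraMap, h19_DEG N ℓ hℓ hℓN]

/-- `T` commutes with the arithmetic Galois action. -/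
theorem h2_normBetaHom_ringAut (σ : Qb ≃ₐ[ℚ] Qb) (f : ↥(modularFunctionFieldBar N)) :
    arithmeticRingAut (modularFunctionFieldFull N) σ (h2_normBetaHom N ℓ f)
      = h2_normBetaHom N ℓ (arithmeticRingAut (modularFunctionFieldFull N) σ f) :=
  h2_normBeta_ringAut N ℓ σ f

/-- `T f` is fixed by every `σ` fixing `f`. -/
theorem h2_normBetaHom_ringAut_fixed (σ : Qb ≃ₐ[ℚ] Qb) (f : ↥(modularFunctionFieldBar N))
    (hf : arithmeticRingAut (modularFunctionFieldFull N) σ f = f) :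
    arithmeticRingAut (modularFunctionFieldFull N) σ (h2_normBetaHom N ℓ f)
      = h2_normBetaHom N ℓ f :=
  h2_normBeta_ringAut_fixed N ℓ σ f hf

/-- `T f ≠ 0` for `f ≠ 0`. -/
theorem h2_normBetaHom_ne_zero {f : ↥(modularFunctionFieldBar N)} (hf : f ≠ 0) :
    h2_normBetaHom N ℓ f ≠ 0 :=
  h2_normBeta_ne_zero N ℓ hf

/-- `T f⁻¹ = (T f)⁻¹`. -/
theorem h2_normBetaHom_inv (f : ↥(modularFunctionFieldBar N)) :
    h2_normBetaHom N ℓ f⁻¹ = (h2_normBetaHom N ℓ f)⁻¹ :=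
  h2_normBeta_inv N ℓ f

/-- **The eigen-relation at function level** (`heig` of `h12_ej_gen`): `x = [E]`,
`m • E = div u`, `T_ℓ x = a • x` ⟹ `T u = c • u ^ a * h ^ m`. -/
theorem h2_normBetaHom_eig (m : ℕ)
    (E : Divisor.degZero (K := Qb) (F := modularFunctionFieldBar N))
    (u : ↥(modularFunctionFieldBar N)) (hu : u ≠ 0)
    (hdiv : ∀ v : Place Qb (modularFunctionFieldBar N),
      (m : ℤ) * (E : Divisor Qb (modularFunctionFieldBar N)) v = v.ord u)
    (a : ℤ) (hT : heckeOperatorAlong Qb N ℓ (Pic0.mk E) = a • Pic0.mk E) :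
    ∃ (c : Qb) (h : ↥(modularFunctionFieldBar N)), c ≠ 0 ∧ h ≠ 0 ∧
      h2_normBetaHom N ℓ u = algebraMap Qb ↥(modularFunctionFieldBar N) c * u ^ a * h ^ m :=
  h67_eig_char0 N ℓ m E u hu hdiv a hT

/-- **The eigen-relation for a constant multiple**: if `u = c₁ • u₁` (`c₁ ≠ 0`) and
`m • E = div u`, `T_ℓ [E] = a • [E]`, then `T u₁ = c • u₁ ^ a * h ^ m`. -/
theorem h2_normBetaHom_eig_scaled (m : ℕ)
    (E : Divisor.degZero (K := Qb) (F := modularFunctionFieldBar N))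
    (u : ↥(modularFunctionFieldBar N)) (hu : u ≠ 0)
    (hdiv : ∀ v : Place Qb (modularFunctionFieldBar N),
      (m : ℤ) * (E : Divisor Qb (modularFunctionFieldBar N)) v = v.ord u)
    (a : ℤ) (hT : heckeOperatorAlong Qb N ℓ (Pic0.mk E) = a • Pic0.mk E)
    (c₁ : Qb) (u₁ : ↥(modularFunctionFieldBar N))
    (hu₁ : u = algebraMap Qb ↥(modularFunctionFieldBar N) c₁ * u₁) :
    ∃ (c : Qb) (h : ↥(modularFunctionFieldBar N)), c ≠ 0 ∧ h ≠ 0 ∧
      h2_normBetaHom N ℓ u₁ = algebraMap Qb ↥(modularFunctionFieldBar N) c * u₁ ^ a * h ^ m := by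
  obtain ⟨c, h, hc, hh, hrel⟩ := h2_normBetaHom_eig N ℓ m E u hu hdiv a hT
  have hc₁ : c₁ ≠ 0 := by
    rintro rfl
    rw [map_zero, zero_mul] at hu₁
    exact hu hu₁
  have hu₁0 : u₁ ≠ 0 := by
    rintro rfl
    rw [mul_zero] at hu₁
    exact hu hu₁
  set d := finrankAlong Qb (heckeAlphaBar Qb N ℓ) with hd
  have hA1 : algebraMap Qb ↥(modularFunctionFieldBar N) c₁ ≠ 0 :=
    (map_ne_zero (algebraMap Qb ↥(modularFunctionFieldBar N))).mpr hc₁
  refine ⟨c * c₁ ^ a / c₁ ^ d, h, ?_, hh, ?_⟩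
  · exact div_ne_zero (mul_ne_zero hc (zpow_ne_zero a hc₁)) (pow_ne_zero d hc₁)
  · have h1 : h2_normBetaHom N ℓ u
        = algebraMap Qb ↥(modularFunctionFieldBar N) c₁ ^ d * h2_normBetaHom N ℓ u₁ := by
      rw [hu₁, map_mul, h2_normBetaHom_algebraMap]
    rw [h1, hu₁, mul_zpow] at hrel
    have hAd : algebraMap Qb ↥(modularFunctionFieldBar N) c₁ ^ d ≠ 0 := pow_ne_zero d hA1
    rw [map_div₀, map_mul, map_zpow₀, map_pow]
    field_simp
    rw [mul_comm] at hrel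
    rw [hrel]
    ring

end Hom

section Components

variable (M p : ℕ) [NeZero M] [NeZero p] [Fact p.Prime] (hpM : ¬ p ∣ M)
  (ℓ : ℕ) [NeZero ℓ] (hpMℓ : ¬ p ∣ M * ℓ)
  (A : ValuationSubring Qb) (hA : A.LiesOverPrime p)

include hpMℓ in
theorem h2_normBetaHom_mem_R1 (f : ↥(modularFunctionFieldBar (M * p)))
    (hf : f ∈ (h60_R1 M p hpM A hA).O) :
    h2_normBetaHom (M * p) ℓ f ∈ (h60_R1 M p hpM A hA).O :=
  h2_normBeta_mem_R1 M p hpM ℓ hpMℓ A hA f hf

include hpMℓ in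
theorem h2_normBetaHom_mem_R2 (f : ↥(modularFunctionFieldBar (M * p)))
    (hf : f ∈ (h60_R2 M p hpM A hA).O) :
    h2_normBetaHom (M * p) ℓ f ∈ (h60_R2 M p hpM A hA).O :=
  h2_normBeta_mem_R2 M p hpM ℓ hpMℓ A hA f hf

include hpMℓ in
theorem h2_normBetaHom_unit_R1 (f : ↥(modularFunctionFieldBar (M * p)))
    (hne : (h60_R1 M p hpM A hA).redF f ≠ 0) :
    h2_normBetaHom (M * p) ℓ f ∈ (h60_R1 M p hpM A hA).O ∧
      (h60_R1 M p hpM A hA).redF (h2_normBetaHom (M * p) ℓ f) ≠ 0 :=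
  h2_normBeta_unit_R1 M p hpM ℓ hpMℓ A hA f hne

include hpMℓ in
theorem h2_normBetaHom_unit_R2 (f : ↥(modularFunctionFieldBar (M * p)))
    (hne : (h60_R2 M p hpM A hA).redF f ≠ 0) :
    h2_normBetaHom (M * p) ℓ f ∈ (h60_R2 M p hpM A hA).O ∧
      (h60_R2 M p hpM A hA).redF (h2_normBetaHom (M * p) ℓ f) ≠ 0 :=
  h2_normBeta_unit_R2 M p hpM ℓ hpMℓ A hA f hne

end Components

end Fermat.Agent.S40
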