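import Mathlib

/-!
# S40 / (BRIDGE), row (B2): the Galois trick (helper2).  Mathlib only.

Abstract core of the step "a Hecke polynomial which kills the `p`-power torsion of `J₀(M')`
kills the `p`-torsion eigenclasses of the special fibre".

* `h2_exists_pow_fix` : an element of a group acting with a finite orbit has a positive power
  fixing the point.
* `h2_gal_trick` : `J` a `p`-divisible group, `t s : J →+ J` commuting, `t` killing the
  `p`-power torsion, `sp : J →+ Jb` with `sp ∘ s = Φ ∘ sp` and only finitely many `Φ`-fixed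
  elements in `Jb`.  Then for every `s`-fixed `y` some `h'` prime to `p` kills `sp (t y)`.
  (`t` is not assumed to vanish on non-torsion points, and no `p`-torsion of `Jb` is lifted.)
* `h2_eig_adjoin` : if `ker sp` is stable under a commutative ring `H` of operators and
  `sp (g • y) = χ g • sp y` for generators `g`, then `sp (h • y) = χ h • sp y` on the subalgebra
  generated by them.
* `h2_bridge_core` : the conclusion `c = 0`.
-/

set_option autoImplicit false

namespace Fermat.Agent.S40

/-- An element acting on a point with finite orbit has a positive power fixing the point. -/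
theorem h2_exists_pow_fix {G X : Type*} [Group G] [MulAction G X] (g : G) (x : X)
    (hfin : (MulAction.orbit G x).Finite) : ∃ m : ℕ, 0 < m ∧ g ^ m • x = x := by
  classical
  have hmaps : ∀ n : ℕ, g ^ n • x ∈ MulAction.orbit G x := fun n => ⟨g ^ n, rfl⟩
  obtain ⟨a, -, b, -, hab, heq⟩ :=
    Set.infinite_univ.exists_ne_map_eq_of_mapsTo (f := fun n : ℕ => g ^ n • x)
      (fun n _ => hmaps n) hfin
  have key : ∀ a b : ℕ, a < b → g ^ a • x = g ^ b • x → ∃ m : ℕ, 0 < m ∧ g ^ m • x = x := by
    intro a b hlt h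
    refine ⟨b - a, Nat.sub_pos_of_lt hlt, ?_⟩
    have hb : g ^ b = g ^ a * g ^ (b - a) := by
      rw [← pow_add, Nat.add_sub_cancel' hlt.le]
    rw [hb, mul_smul] at h
    exact (smul_left_cancel (g ^ a) h).symm
  rcases Nat.lt_or_gt_of_ne hab with h | h
  · exact key a b h heq
  · exact key b a h heq.symm

/-- **The Galois trick.** -/
theorem h2_gal_trick {J Jb : Type*} [AddCommGroup J] [AddCommGroup Jb] (p : ℕ) (hp : p.Prime)
    (sp : J →+ Jb) (t s : J →+ J) (Φ : Jb →+ Jb)
    (hts : ∀ z : J, t (s z) = s (t z))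
    (hsp : ∀ z : J, sp (s z) = Φ (sp z))
    (hfin : Finite {c : Jb // Φ c = c})
    (hdiv : ∀ (a : ℕ) (y : J), ∃ y' : J, p ^ a • y' = y)
    (hkill : ∀ (a : ℕ) (w : J), p ^ a • w = 0 → t w = 0)
    (y : J) (hy : s y = y) :
    ∃ h' : ℕ, 0 < h' ∧ ¬ p ∣ h' ∧ h' • sp (t y) = 0 := by
  classical
  -- the subgroup of `Φ`-fixed elements
  let G : AddSubgroup Jb :=
    { carrier := {c | Φ c = c}
      zero_mem' := map_zero Φ
      add_mem' := by
        intro a b ha hb
        show Φ (a + b) = a + b
        rw [map_add, ha, hb]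
      neg_mem' := by
        intro a ha
        show Φ (-a) = -a
        rw [map_neg, ha] }
  have hGfin : Finite G := hfin
  have hn0 : Nat.card G ≠ 0 := Nat.card_pos.ne'
  obtain ⟨b, h', hh', hnb⟩ := Nat.exists_eq_pow_mul_and_not_dvd hn0 p hp.ne_one
  have hh'0 : 0 < h' := by
    rcases Nat.eq_zero_or_pos h' with h0 | h0
    · exact absurd (h0 ▸ dvd_zero p) hh'
    · exact h0
  refine ⟨h', hh'0, hh', ?_⟩
  obtain ⟨yb, hyb⟩ := hdiv b y
  -- `s yb - yb` is `p ^ b`-torsion
  have hw : p ^ b • (s yb - yb) = 0 := by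
    rw [smul_sub, ← map_nsmul, hyb, hy, sub_self]
  have htw := hkill b _ hw
  rw [map_sub, sub_eq_zero] at htw
  -- `z := t yb` is fixed by `s`
  have hz : s (t yb) = t yb := by rw [← hts, htw]
  have hG : sp (t yb) ∈ G := by
    show Φ (sp (t yb)) = sp (t yb)
    rw [← hsp, hz]
  have hcard : Nat.card G • (⟨sp (t yb), hG⟩ : G) = 0 := card_nsmul_eq_zero'
  have hcard' : Nat.card G • sp (t yb) = 0 := by
    have h1 := congrArg (fun c : G => (c : Jb)) hcard
    simp only [AddSubgroup.coe_nsmul, AddSubgroup.coe_zero] at h1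
    exact h1
  have hty : t y = p ^ b • t yb := by rw [← map_nsmul, hyb]
  rw [hty, map_nsmul, ← mul_nsmul, ← hnb]
  exact hcard'

/-- Eigen-relations propagate from generators to the subalgebra they generate, as soon as the
kernel of `sp` is stable. -/
theorem h2_eig_adjoin {H J Jb : Type*} [CommRing H] [AddCommGroup J] [Module H J]
    [AddCommGroup Jb] (sp : J →+ Jb) (χ : H →+* ℤ) (gens : Set H)
    (hker : ∀ g ∈ gens, ∀ z : J, sp z = 0 → sp (g • z) = 0)
    (y : J)
    (hgen : ∀ g ∈ gens, sp (g • y) = χ g • sp y)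
    (h : H) (hh : h ∈ Algebra.adjoin ℤ gens) :
    sp (h • y) = χ h • sp y := by
  -- stronger statement, for every `y'` whose image is a multiple of `sp y`
  have key : ∀ h ∈ Algebra.adjoin ℤ gens, ∀ (y' : J) (m : ℤ), sp y' = m • sp y →
      sp (h • y') = (χ h * m) • sp y := by
    intro h hh
    induction hh using Algebra.adjoin_induction with
    | mem g hg =>
      intro y' m hy'
      have h0 : sp (y' - m • y) = 0 := by
        rw [map_sub, map_zsmul, hy', sub_self]
      have h1 := hker g hg _ h0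
      rw [smul_sub, map_sub, sub_eq_zero, smul_comm, map_zsmul, hgen g hg] at h1
      rw [h1, smul_smul, mul_comm]
    | algebraMap n =>
      intro y' m hy'
      rw [algebraMap_int_eq, eq_intCast, Int.cast_smul_eq_zsmul, map_zsmul, hy', smul_smul,
        map_intCast, Int.cast_id]
    | add a b _ _ iha ihb =>
      intro y' m hy'
      rw [add_smul, map_add, iha y' m hy', ihb y' m hy', ← add_smul, map_add, add_mul]
    | mul a b _ _ iha ihb =>
      intro y' m hy'
      rw [mul_smul, iha (b • y') (χ b * m) (ihb y' m hy'), map_mul, mul_assoc]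
  have := key h hh y 1 (one_smul ℤ _).symm
  rwa [mul_one] at this

/-- **(BRIDGE), abstract form.**  `c = sp y` is `p`-torsion, `P₀` (in the subalgebra generated
by `gens`) acts on `J` through `t`, `t` satisfies the hypotheses of the Galois trick, `y` is
`s`-fixed, the eigenvalue `χ P₀` is prime to `p`: then `c = 0`. -/
theorem h2_bridge_core {H J Jb : Type*} [CommRing H] [AddCommGroup J] [Module H J]
    [AddCommGroup Jb] (p : ℕ) (hp : p.Prime)
    (sp : J →+ Jb) (χ : H →+* ℤ) (gens : Set H)
    (hker : ∀ g ∈ gens, ∀ z : J, sp z = 0 → sp (g • z) = 0)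
    (P₀ : H) (hP₀ : P₀ ∈ Algebra.adjoin ℤ gens) (hχ : ¬ (p : ℤ) ∣ χ P₀)
    (s : J →+ J) (Φ : Jb →+ Jb)
    (hts : ∀ z : J, P₀ • s z = s (P₀ • z))
    (hsp : ∀ z : J, sp (s z) = Φ (sp z))
    (hfin : Finite {c : Jb // Φ c = c})
    (hdiv : ∀ (a : ℕ) (y : J), ∃ y' : J, p ^ a • y' = y)
    (hkill : ∀ (a : ℕ) (w : J), p ^ a • w = 0 → P₀ • w = 0)
    (y : J) (hy : s y = y) (hpy : p • sp y = 0)
    (hgen : ∀ g ∈ gens, sp (g • y) = χ g • sp y) :
    sp y = 0 := by
  let t : J →+ J := DistribSMul.toAddMonoidHom J P₀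
  have ht : ∀ z : J, t z = P₀ • z := fun z => rfl
  obtain ⟨h', hh'0, hh', hzero⟩ := h2_gal_trick p hp sp t s Φ
    (fun z => by rw [ht, ht, hts]) hsp hfin hdiv (fun a w hw => by rw [ht]; exact hkill a w hw)
    y hy
  rw [ht, h2_eig_adjoin sp χ gens hker y hgen P₀ hP₀] at hzero
  -- `(h' * χ P₀) • c = 0` and `p • c = 0` with `gcd = 1`
  have hcop : IsCoprime ((h' : ℤ) * χ P₀) (p : ℤ) := by
    have hp' : Prime (p : ℤ) := Nat.prime_iff_prime_int.mp hp
    refine (IsCoprime.symm ?_)
    rw [hp'.coprime_iff_not_dvd]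
    intro hdvd
    rcases hp'.dvd_or_dvd hdvd with h1 | h1
    · exact hh' (Int.natCast_dvd_natCast.mp h1)
    · exact hχ h1
  obtain ⟨u, v, huv⟩ := hcop
  have h1 : ((h' : ℤ) * χ P₀) • sp y = 0 := by
    rw [mul_smul, natCast_zsmul]
    exact hzero
  have h2 : (p : ℤ) • sp y = 0 := by rw [natCast_zsmul]; exact hpy
  have h3 : (1 : ℤ) • sp y = 0 := by
    rw [← huv, add_smul, mul_smul u, mul_smul v, h1, h2, smul_zero, smul_zero, add_zero]
  rwa [one_smul] at h3

end Fermat.Agent.S40
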