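import Mathlib
import Fermat.Agent.S17.h56_DivJZero
import Fermat.Agent.S40.h2_RedHeckeCore

/-!
# S40 / (BRIDGE) row (BR2'), final form (helper2)

At a charted level `N` (`5 ≤ p ∨ 2 ∣ N ∨ 3 ∣ N`) and a prime `p ∤ N ℓ`, the kernel of the
reduction map `reductionModL A N : J₀(N)(Q̄) → Pic⁰(F̄(N))` is stable under the Hecke
operator `T_ℓ`:

* `h2_red_hecke_ker` : for `heckeOperatorAlong Q̄ N ℓ` (any `ℓ` with `p ∤ N ℓ`);
* `h2_red_heckeBar_ker` : for `heckeOperatorBar N ℓ` (`ℓ : Nat.Primes`) - this is the hypothesis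
  `hker` of `h77_bridge_words` with `J := JZero N`, `sp := reductionModL A N`.
-/

set_option autoImplicit false
set_option synthInstance.maxHeartbeats 400000

noncomputable section

open ModularCurve AlgebraicCurve

namespace Fermat.Agent.S40

local notation "Qb" => AlgebraicClosure ℚ

/-- **(BR2') / (CORR-w).**  The kernel of the reduction at `p ∤ N ℓ` is stable under
`T_ℓ = α_* β^*`. -/
theorem h2_red_hecke_ker (N : ℕ) [NeZero N] (ℓ : ℕ) [NeZero ℓ] {p : ℕ} [Fact p.Prime]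
    (hp : ¬ p ∣ N * ℓ) (A : ValuationSubring Qb) (hA : A.LiesOverPrime p)
    (hc : 5 ≤ p ∨ 2 ∣ N ∨ 3 ∣ N) (z : JZero N) (hz : reductionModL A N z = 0) :
    reductionModL A N (heckeOperatorAlong Qb N ℓ z) = 0 :=
  h2_red_hecke_ker_of_div N ℓ hp A hA hc
    (fun n hn x => Fermat.Agent.S17.h56_jzero_divisible N n hn x) z hz

/-- **(BR2') for `heckeOperatorBar`** : the hypothesis `hker` of `h77_bridge_words`. -/
theorem h2_red_heckeBar_ker (N : ℕ) [NeZero N] (ℓ : Nat.Primes) {p : ℕ} [Fact p.Prime]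
    (hp : ¬ p ∣ N * (ℓ : ℕ)) (A : ValuationSubring Qb) (hA : A.LiesOverPrime p)
    (hc : 5 ≤ p ∨ 2 ∣ N ∨ 3 ∣ N) (z : JZero N) (hz : reductionModL A N z = 0) :
    reductionModL A N (heckeOperatorBar N ℓ z) = 0 := by
  haveI : NeZero (ℓ : ℕ) := ⟨ℓ.2.ne_zero⟩
  rw [heckeOperatorBar_apply]
  exact h2_red_hecke_ker N (ℓ : ℕ) hp A hA hc z hz

end Fermat.Agent.S40

end
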