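import Mathlib
import Fermat.Agent.S17.h56_DivJZero
import Fermat.Agent.S40.h2_RedHeckeCore

/-!
# S40 / (BRIDGE) row (BR2'), DIVISOR form (helper2)

`h2_red_hecke_div_of` / `h2_red_hecke_div` : for a place reduction `r` at level `N` and a prime
`p ∤ N ℓ`: a divisor `Z` of degree `0` on `X₀(N)` with `r_* Z = 0` has `r_* (T_ℓ Z) = 0`, where
`T_ℓ = heckeDivBar = α_* β^*` on divisors.  (The class form is `h2_red_hecke_ker`.)
-/

set_option autoImplicit false
set_option synthInstance.maxHeartbeats 400000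
set_option linter.style.haveILetI false

noncomputable section

open ModularCurve AlgebraicCurve IntermediateField HahnSeries

namespace Fermat.Agent.S40

open Fermat.Agent.S18 Fermat.Agent.S24 Fermat.Agent.S37

local notation "Qb" => AlgebraicClosure ℚ

set_option maxHeartbeats 2000000 in
/-- **(CORR-w), divisor form**, for ANY place reductions `r`, `r'` at the levels `N`, `N ℓ`
(no chart hypothesis). -/
theorem h2_red_hecke_div_of (N : ℕ) [NeZero N] (ℓ : ℕ) [NeZero ℓ] {p : ℕ} [Fact p.Prime]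
    (hp : ¬ p ∣ N * ℓ) (A : ValuationSubring Qb) (hA : A.LiesOverPrime p)
    (r : Place Qb (modularFunctionFieldBar N) →
      Place (IsLocalRing.ResidueField A) (modularFunctionFieldFullC (IsLocalRing.ResidueField A) N))
    (hr : IsPlaceReductionModL A N r)
    (r' : Place Qb (modularFunctionFieldBar (N * ℓ)) →
      Place (IsLocalRing.ResidueField A)
        (modularFunctionFieldFullC (IsLocalRing.ResidueField A) (N * ℓ)))
    (hr' : IsPlaceReductionModL A (N * ℓ) r')
    [HasPrincipalDivisors Qb (modularFunctionFieldBar (N * ℓ))]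
    (hα : HeckeAlphaBarIntegral Qb N ℓ) (hβ : HeckeBetaBarIntegral Qb N ℓ)
    (Z₀ : Divisor Qb (modularFunctionFieldBar N)) (hZ₀ : Divisor.degree Z₀ = 0)
    (hZ₀r : Finsupp.mapDomain r Z₀ = 0) :
    Finsupp.mapDomain r (heckeDivBar hα hβ Z₀) = 0 := by
  classical
  have hpN : ¬ p ∣ N := fun h => hp (Dvd.dvd.mul_right h ℓ)
  have hk : IsAlgClosed (IsLocalRing.ResidueField A) := h19_residueField_isAlgClosed A
  have hgen : PrincipalGeneratedByIntegral A (IsLocalRing.residue A) N := h62_PGI N hpN A hA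
  obtain ⟨hPD, hdegK, hdegk⟩ := h39_level_facts N hpN A hA
  obtain ⟨hPD', hdegK', hdegk'⟩ := h39_level_facts (N * ℓ) hp A hA
  -- the charts `j`, `j̄` at both levels
  have hw := h39_modRed_weakChart_j N hpN A hA
  have hw' := h39_modRed_weakChart_j (N * ℓ) hp A hA
  have hxK := h39_weakChart_isChart _ hw
  have hxK' := h39_weakChart_isChart _ hw'
  have hxk := h39_weakChart_isChart_red _ hw
  have hxk' := h39_weakChart_isChart_red _ hw'
  rw [h54_redF_jbar (h39_modRed_spec N hpN A hA)] at hxk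
  rw [h54_redF_jbar (h39_modRed_spec (N * ℓ) hp A hA)] at hxk'
  haveI hPDk : HasPrincipalDivisors (IsLocalRing.ResidueField A)
      (modularFunctionFieldFullC (IsLocalRing.ResidueField A) N) := h75_hasPrincipalDivisors hxk
  haveI hPDk' : HasPrincipalDivisors (IsLocalRing.ResidueField A)
      (modularFunctionFieldFullC (IsLocalRing.ResidueField A) (N * ℓ)) :=
    h75_hasPrincipalDivisors hxk'
  haveI := hPD
  have hα' : (heckeAlphaBar Qb N ℓ).toRingHom.IsIntegral := hα
  have hβ' : (heckeBetaBar Qb N ℓ).toRingHom.IsIntegral := hβ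
  have hαb := h2_alphaC_integral N ℓ hp A hA
  have hβb := h2_betaC_integral N ℓ hp A hA
  -- the zero divisors of `j`
  obtain ⟨-, Z, -, hZ⟩ := h2_exists_zero (K := Qb) (h59_jbar N) hxK.ne_zero
  obtain ⟨-, Z', -, hZ'⟩ := h2_exists_zero (K := Qb) (h59_jbar (N * ℓ)) hxK'.ne_zero
  obtain ⟨-, Zb, -, hZb⟩ := h2_exists_zero (K := IsLocalRing.ResidueField A)
    (h54_jk (IsLocalRing.ResidueField A) N) hxk.ne_zero
  obtain ⟨-, Zb', -, hZb'⟩ := h2_exists_zero (K := IsLocalRing.ResidueField A)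
    (h54_jk (IsLocalRing.ResidueField A) (N * ℓ)) hxk'.ne_zero
  have e1 : Finsupp.mapDomain r Z = Zb := h2_zero_j N hpN A hA r hr Z hZ Zb hZb
  have e2 : Finsupp.mapDomain r' Z' = Zb' := h2_zero_j (N * ℓ) hp A hA r' hr' Z' hZ' Zb' hZb'
  have e3 : Divisor.pullbackAlong (heckeAlphaBar Qb N ℓ) hα' Z = Z' := by
    ext w
    rw [h2_pullback_zero _ hα' (h59_jbar N) Z hZ w, h88_alpha_jbar, hZ']
  have e4 : Divisor.pullbackAlong (h2_alphaC (IsLocalRing.ResidueField A) N ℓ) hαb Zb = Zb' := by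
    ext Q
    rw [h2_pullback_zero _ hαb (h54_jk (IsLocalRing.ResidueField A) N) Zb hZb Q, hZb']
    rfl
  have hD₀α : Finsupp.mapDomain r' (Divisor.pullbackAlong (heckeAlphaBar Qb N ℓ) hα' Z)
      = Divisor.pullbackAlong (h2_alphaC (IsLocalRing.ResidueField A) N ℓ) hαb
          (Finsupp.mapDomain r Z) := by
    rw [e3, e2, e1, e4]
  have hdegZ : Divisor.degree Z ≠ 0 := by
    rw [h2_degree_eq_tot hdegK, h2_tot_zero hxK Z hZ]
    have := hxK.fin
    exact_mod_cast (Module.finrank_pos (R := Qb⟮h59_jbar N⟯)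
      (M := modularFunctionFieldBar N)).ne'
  exact h2_weak_corr (heckeAlphaBar Qb N ℓ) (heckeBetaBar Qb N ℓ) hα' hβ'
    (h2_alphaC (IsLocalRing.ResidueField A) N ℓ) (h2_betaC (IsLocalRing.ResidueField A) N ℓ)
    hαb hβb r r' (fun n hn x => Fermat.Agent.S17.h56_jzero_divisible N n hn x)
    (integralPrincipalDivisors A (IsLocalRing.residue A) N) hgen
    (fun D hD => h2_compat_alpha hr hr' hα' hαb D hD)
    (fun D hD => h2_compat_beta hr hr' hβ' hβb D hD)
    Z hdegZ hD₀α hdegK hdegK' Z₀ hZ₀ hZ₀r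

/-- **(CORR-w), divisor form**, at a charted level. -/
theorem h2_red_hecke_div (N : ℕ) [NeZero N] (ℓ : ℕ) [NeZero ℓ] {p : ℕ} [Fact p.Prime]
    (hp : ¬ p ∣ N * ℓ) (A : ValuationSubring Qb) (hA : A.LiesOverPrime p)
    (hc : 5 ≤ p ∨ 2 ∣ N ∨ 3 ∣ N)
    (r : Place Qb (modularFunctionFieldBar N) →
      Place (IsLocalRing.ResidueField A) (modularFunctionFieldFullC (IsLocalRing.ResidueField A) N))
    (hr : IsPlaceReductionModL A N r)
    [HasPrincipalDivisors Qb (modularFunctionFieldBar (N * ℓ))]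
    (hα : HeckeAlphaBarIntegral Qb N ℓ) (hβ : HeckeBetaBarIntegral Qb N ℓ)
    (Z₀ : Divisor Qb (modularFunctionFieldBar N)) (hZ₀ : Divisor.degree Z₀ = 0)
    (hZ₀r : Finsupp.mapDomain r Z₀ = 0) :
    Finsupp.mapDomain r (heckeDivBar hα hβ Z₀) = 0 := by
  have hc' : 5 ≤ p ∨ 2 ∣ N * ℓ ∨ 3 ∣ N * ℓ := by
    rcases hc with h | h | h
    · exact Or.inl h
    · exact Or.inr (Or.inl (Dvd.dvd.mul_right h ℓ))
    · exact Or.inr (Or.inr (Dvd.dvd.mul_right h ℓ))
  obtain ⟨r', hr', -⟩ := h39_reductionInputsModL (N * ℓ) hp A hA hc'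
  exact h2_red_hecke_div_of N ℓ hp A hA r hr r' hr' hα hβ Z₀ hZ₀ hZ₀r

end Fermat.Agent.S40

end
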