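import Fermat.Agent.S40.h95_S44Adapter
import Fermat.Agent.S40.h26_ESideFrey

/-!
# S44 top wrapper, light import closure (helper30)

`h30_S44_light_of_h37core` has EXACTLY the signature of `h30_S44_of_h37core`
(`S40/h30_S44Wrap.lean`): the frozen S44 statement from the statement of the core theorem
`h37_core` alone.  The difference is the import closure: this file imports only
`S40/h95_S44Adapter` (4 Agent modules) and `S40/h26_ESideFrey` (E-side of the Frey curve),
and not `GLUE/h69_GlueFrey` (which drags in ~125 further Agent modules of other projects).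

`S44.lean` is then the one-line call
`Fermat.Agent.S40.h30_S44_light_of_h37core
   (fun E _ _ hW _ _ => Fermat.Agent.S40.h37_core E hW) P hcond hpN hirr hmod`.
-/

set_option autoImplicit false

open WeierstrassCurve WeierstrassCurve.Affine WeierstrassCurve.Affine.Point

namespace Fermat.Agent.S40

/-- **The frozen S44 from the statement of the core theorem `h37_core`** (light closure). -/
theorem h30_S44_light_of_h37core
    (hcore : ∀ (E : WeierstrassCurve ℚ) [E.IsElliptic] {W : WeierstrassCurve ℤ},
      W.IsIntegralModelOf E → ∀ {p M : ℕ}, p.Prime → 5 ≤ p → 0 < M → p ∣ M → ¬ p ^ 2 ∣ M →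
      GaloisRepIsIrreducible (K := AlgebraicClosure ℚ) ℚ E p → h37_ESide E p →
      W.IsResiduallyModularOfLevel p M → W.IsResiduallyModularOfLevel p (M / p))
    (P : FreyPackage) {N : ℕ} (hcond : P.IsConductorLevel N) (hpN : P.p ∣ N)
    (hirr : GaloisRepIsIrreducible (K := AlgebraicClosure ℚ) ℚ P.freyCurve P.p)
    (hmod : P.ModularRepOfLevel N) :
    ∃ M : ℕ, M ∣ N ∧ ¬ P.p ∣ M ∧ P.ModularRepOfLevel M :=
  h95_S44_of_core
    (fun E _ _ hW _ _ hp hp5 hM hpM hp2M hirr' hE hmod' =>
      hcore E hW hp hp5 hM hpM hp2M hirr' hE hmod')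
    P (h26_ESide_frey P) hcond hpN hirr hmod

/-- Sanity check of the call shape against the frozen header of `h37_core`: any theorem with
that header feeds `h30_S44_light_of_h37core` by the displayed lambda. -/
theorem h30_S44_light_call_shape
    (h37core : ∀ (E : WeierstrassCurve ℚ) [E.IsElliptic] {W : WeierstrassCurve ℤ}
      (_ : W.IsIntegralModelOf E) {p M : ℕ} (_ : p.Prime) (_ : 5 ≤ p) (_ : 0 < M) (_ : p ∣ M)
      (_ : ¬ p ^ 2 ∣ M)
      (_ : WeierstrassCurve.Affine.Point.GaloisRepIsIrreducible (K := AlgebraicClosure ℚ) ℚ E p)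
      (_ : h37_ESide E p) (_ : W.IsResiduallyModularOfLevel p M),
      W.IsResiduallyModularOfLevel p (M / p))
    (P : FreyPackage) {N : ℕ} (hcond : P.IsConductorLevel N) (hpN : P.p ∣ N)
    (hirr : GaloisRepIsIrreducible (K := AlgebraicClosure ℚ) ℚ P.freyCurve P.p)
    (hmod : P.ModularRepOfLevel N) :
    ∃ M : ℕ, M ∣ N ∧ ¬ P.p ∣ M ∧ P.ModularRepOfLevel M :=
  h30_S44_light_of_h37core (fun E _ _ hW _ _ => h37core E hW) P hcond hpN hirr hmod

end Fermat.Agent.S40
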