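import Mathlib
import Fermat.Prelude.Def_FLTPrelim_FreyPackage
import Fermat.Prelude.Def_FLTPrelim_GaloisRep
import Fermat.Prelude.Def_FLTPrelim_Modularity
import Fermat.Prelude.Def_FLTPrelim_ModularRep
import Fermat.Prelude.Def_FreyPackage_IsConductorLevel
import Fermat.Agent.GLUE.h69_GlueFrey
import Fermat.Agent.S40.h26_ESideFrey

/-!
# S44 top wrapper (helper30): the frozen S44 statement from the core theorem in hypothesis form

`h30_S44_of_core` : the frozen statement of S44 (Frey form of Mazur's principle at `p`) from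

* `hcore` : the core level-lowering theorem at `p` (the header `h37_core` of the S40 top:
  an elliptic curve `E⁄ℚ` with an integral model `W`, `p ≥ 5`, `p ∥ M`, `E[p]` irreducible,
  the `E`-side property `ES E p`, `W` residually modular of level `M`
  `⟹` `W` residually modular of level `M / p`), and
* `hES` : the `E`-side property for the Frey curve when `p ∣ abc`.

`ES` is an arbitrary predicate, so the lemma can be called with whatever the final shape of the
`E`-side hypothesis of the core is.  Also: `h30_frey_isElliptic`.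

`h30_S44_of_h37core` : the same with `ES := h37_ESide` and the `E`-side of the Frey curve
discharged by `h26_ESide_frey` (on main): the frozen S44 from the statement of `h37_core`
(frozen header of the S40 core) alone.  `S44.lean` is then the one-line call
`h30_S44_of_h37core (fun E _ _ hW _ _ => h37_core E hW) P hcond hpN hirr hmod`.
-/

set_option autoImplicit false

open WeierstrassCurve WeierstrassCurve.Affine WeierstrassCurve.Affine.Point

namespace Fermat.Agent.S40

/-- The rational Frey curve is an elliptic curve. -/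
theorem h30_frey_isElliptic (P : FreyPackage) : P.freyCurve.IsElliptic := by
  refine ⟨?_⟩
  have h1 : P.freyCurve.Δ = ((P.freyCurveInt.Δ : ℤ) : ℚ) := by
    rw [← Fermat.Agent.GLUE.h69_frey_map P, WeierstrassCurve.map_Δ]
    rfl
  rw [h1]
  exact IsUnit.mk0 _ (Int.cast_ne_zero.mpr (Fermat.Agent.GLUE.h69_frey_disc_ne_zero P))

/-- **The frozen S44 from the core theorem in hypothesis form.** -/
theorem h30_S44_of_core
    (ES : WeierstrassCurve ℚ → ℕ → Prop)
    (hcore : ∀ (E : WeierstrassCurve ℚ) [E.IsElliptic] {W : WeierstrassCurve ℤ},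
      W.IsIntegralModelOf E → ∀ {p M : ℕ}, p.Prime → 5 ≤ p → 0 < M → p ∣ M → ¬ p ^ 2 ∣ M →
      GaloisRepIsIrreducible (K := AlgebraicClosure ℚ) ℚ E p → ES E p →
      W.IsResiduallyModularOfLevel p M → W.IsResiduallyModularOfLevel p (M / p))
    (hES : ∀ P : FreyPackage, (P.p : ℤ) ∣ P.a * P.b * P.c → ES P.freyCurve P.p)
    (P : FreyPackage) {N : ℕ} (hcond : P.IsConductorLevel N) (hpN : P.p ∣ N)
    (hirr : GaloisRepIsIrreducible (K := AlgebraicClosure ℚ) ℚ P.freyCurve P.p)
    (hmod : P.ModularRepOfLevel N) :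
    ∃ M : ℕ, M ∣ N ∧ ¬ P.p ∣ M ∧ P.ModularRepOfLevel M := by
  obtain ⟨f, W, 𝔪, hf, hW, hmax, hp𝔪, hcong⟩ := hmod
  have : P.freyCurve.IsElliptic := h30_frey_isElliptic P
  have hsq : ¬ P.p ^ 2 ∣ N := hcond.sq_not_dvd P.pp
  have hres : W.IsResiduallyModularOfLevel P.p N := ⟨f, 𝔪, hf, hmax, hp𝔪, hcong⟩
  obtain ⟨g, 𝔪', hg, hmax', hp𝔪', hcong'⟩ :=
    hcore P.freyCurve hW P.pp P.hp5 hcond.pos hpN hsq hirr (hES P (hcond.p_dvd_abc hpN)) hres
  refine ⟨N / P.p, Nat.div_dvd_of_dvd hpN, ?_, ⟨g, W, 𝔪', hg, hW, hmax', hp𝔪', hcong'⟩⟩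
  intro hdvd
  apply hsq
  obtain ⟨k, hk⟩ := hdvd
  refine ⟨k, ?_⟩
  have h1 : N = P.p * (N / P.p) := (Nat.mul_div_cancel' hpN).symm
  rw [h1, hk]
  ring

/-- **The frozen S44 from the statement of the core theorem `h37_core`** (E-side of the Frey
curve = `h26_ESide_frey`). -/
theorem h30_S44_of_h37core
    (hcore : ∀ (E : WeierstrassCurve ℚ) [E.IsElliptic] {W : WeierstrassCurve ℤ},
      W.IsIntegralModelOf E → ∀ {p M : ℕ}, p.Prime → 5 ≤ p → 0 < M → p ∣ M → ¬ p ^ 2 ∣ M →
      GaloisRepIsIrreducible (K := AlgebraicClosure ℚ) ℚ E p → h37_ESide E p →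
      W.IsResiduallyModularOfLevel p M → W.IsResiduallyModularOfLevel p (M / p))
    (P : FreyPackage) {N : ℕ} (hcond : P.IsConductorLevel N) (hpN : P.p ∣ N)
    (hirr : GaloisRepIsIrreducible (K := AlgebraicClosure ℚ) ℚ P.freyCurve P.p)
    (hmod : P.ModularRepOfLevel N) :
    ∃ M : ℕ, M ∣ N ∧ ¬ P.p ∣ M ∧ P.ModularRepOfLevel M :=
  h30_S44_of_core h37_ESide hcore (fun P _ => h26_ESide_frey P) P hcond hpN hirr hmod

/-- Sanity check of the call shape against the frozen header of `h37_core` (#3740): any theorem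
with that header feeds `h30_S44_of_h37core` by the displayed lambda. -/
theorem h30_S44_call_shape
    (h37core : ∀ (E : WeierstrassCurve ℚ) [E.IsElliptic] {W : WeierstrassCurve ℤ}
      (_ : W.IsIntegralModelOf E) {p M : ℕ} (_ : p.Prime) (_ : 5 ≤ p) (_ : 0 < M) (_ : p ∣ M)
      (_ : ¬ p ^ 2 ∣ M)
      (_ : WeierstrassCurve.Affine.Point.GaloisRepIsIrreducible (K := AlgebraicClosure ℚ) ℚ E p)
      (_ : h37_ESide E p) (_ : W.IsResiduallyModularOfLevel p M),
      W.IsResiduallyModularOfLevel p (M / p))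
    (P : FreyPackage) {N : ℕ} (hcond : P.IsConductorLevel N) (hpN : P.p ∣ N)
    (hirr : GaloisRepIsIrreducible (K := AlgebraicClosure ℚ) ℚ P.freyCurve P.p)
    (hmod : P.ModularRepOfLevel N) :
    ∃ M : ℕ, M ∣ N ∧ ¬ P.p ∣ M ∧ P.ModularRepOfLevel M :=
  h30_S44_of_h37core (fun E _ _ hW _ _ => h37core E hW) P hcond hpN hirr hmod

end Fermat.Agent.S40
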