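import Mathlib
import Fermat.Agent.S40.h31_W6Out
import Fermat.Agent.S36.h67_CountMod
import Fermat.Agent.S34.h51_Last
import Fermat.Agent.S34.h20_ChartNode

/-!
# S40 / (TR) row W6, CLOSED: `h92_W6Out` from the W9 binder block alone (helper31)

* `h31_hunion_of_sharp` : (generic) the sharp node hypothesis
  `red (L(n D0) ∩ O) = {a ∈ P_n | node conditions}` for `n ≥ n0` gives the union form
  `⋃ₙ red (L(n D0) ∩ O) = {a ∈ ⋃ₙ P_n | node conditions}` (the `hunion` binder of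
  `h67_cnt_mod` / `h64_node_count_mod`);
* `h31_block_hunion` : the same at the modular level, in the exact binder shape of `h67_cnt_mod`
  for `Pinf := h11_placeInfty (M * p)`, `P0 := h87_P0 M p hpM`;
* `h31_count_inst` : the instance of `h81_CountHyp` for the W9 binder block (`h67_cnt_mod_ex`);
* `h31_w6_closed` : **row W6** = `h92_W6Out M p hpM A hA Sg Φ u` for every `u ≠ 0` and every
  divisor `E` with `p E = div u`, from the W9 binder block `(Sg, hSg, n0, hnode)` and the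
  no-elliptic-point hypotheses on the level `M` only.
-/

set_option autoImplicit false
set_option synthInstance.maxHeartbeats 400000

noncomputable section

open AlgebraicCurve ModularCurve Module

namespace Fermat.Agent.S40

open Fermat.Agent.S18 Fermat.Agent.S34 Fermat.Agent.S24 Fermat.Agent.S27 Fermat.Agent.S37
  Fermat.Agent.S36

local notation "Qb" => AlgebraicClosure ℚ

/-- **Sharp ⟹ union.** -/
theorem h31_hunion_of_sharp {K F k Fb : Type*} [Field K] [Field F] [Algebra K F] [Field k]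
    [Field Fb] [Algebra k Fb] (D : h22_Lat K F k (Fb × Fb)) (D0 : Divisor K F)
    (hD0 : ∀ v, 0 ≤ D0 v) (Qinf : Place k Fb) (Sg : Finset (Place k Fb))
    (Φ : Place k Fb → Place k Fb) (n0 : ℕ)
    (hnode : ∀ n, n0 ≤ n → ∀ a : Fb × Fb, a ∈ h51_Rd D (n • D0) ↔
      (a ∈ h20_P Qinf n ∧ ∀ Q ∈ Sg, ∃ c : k, h39_Val (Φ Q) a.1 c ∧ h39_Val Q a.2 c))
    (a : Fb × Fb) :
    (∃ n : ℕ, a ∈ h51_Rd D (n • D0)) ↔
      (∃ n : ℕ, a.1 ∈ h16_Linf Qinf n ∧ a.2 ∈ h16_Linf Qinf n) ∧
        ∀ Q ∈ Sg, ∃ c : k, h39_Val (Φ Q) a.1 c ∧ h39_Val Q a.2 c := by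
  constructor
  · rintro ⟨n, hn⟩
    have h1 : a ∈ h51_Rd D (max n n0 • D0) := by
      refine h51_Rd_mono D (fun v => ?_) hn
      have h2 : n • D0 ≤ max n n0 • D0 :=
        nsmul_le_nsmul_left (fun v => hD0 v) (le_max_left n n0)
      exact h2 v
    obtain ⟨hP, hQ⟩ := (hnode _ (le_max_right n n0) a).1 h1
    exact ⟨⟨max n n0, h20_mem_P_Linf.1 hP⟩, hQ⟩
  · rintro ⟨⟨n, h1, h2⟩, hQ⟩
    have hP : a ∈ h20_P Qinf (max n n0) :=
      h20_P_mono Qinf (le_max_left n n0) (h20_mem_P_Linf.2 ⟨h1, h2⟩)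
    exact ⟨max n n0, (hnode _ (le_max_right n n0) a).2 ⟨hP, hQ⟩⟩

set_option maxHeartbeats 1600000 in
/-- **The `hunion` binder of `h67_cnt_mod`** for the W9 binder block. -/
theorem h31_block_hunion (M p : ℕ) [NeZero M] [NeZero p] [Fact p.Prime] (hpM : ¬ p ∣ M)
    (A : ValuationSubring Qb) (hA : A.LiesOverPrime p)
    (Sg : Finset (Place (IsLocalRing.ResidueField A)
      ↥(modularFunctionFieldFullC (IsLocalRing.ResidueField A) M)))
    (Φ : Place (IsLocalRing.ResidueField A)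
        ↥(modularFunctionFieldFullC (IsLocalRing.ResidueField A) M) →
      Place (IsLocalRing.ResidueField A)
        ↥(modularFunctionFieldFullC (IsLocalRing.ResidueField A) M))
    (n0 : ℕ)
    (hnode : ∀ n, n0 ≤ n → ∀ a : ↥(modularFunctionFieldFullC (IsLocalRing.ResidueField A) M) ×
        ↥(modularFunctionFieldFullC (IsLocalRing.ResidueField A) M),
      a ∈ h51_Rd (h87_D M p hpM A hA) (n • h87_D0 M p hpM) ↔
        (a ∈ h20_P (h11_placeInftyC (IsLocalRing.ResidueField A) M) n ∧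
          ∀ Q ∈ Sg, ∃ c : IsLocalRing.ResidueField A, h39_Val (Φ Q) a.1 c ∧ h39_Val Q a.2 c)) :
    ∀ a : ↥(modularFunctionFieldFullC (IsLocalRing.ResidueField A) M) ×
        ↥(modularFunctionFieldFullC (IsLocalRing.ResidueField A) M),
      (∃ n : ℕ, a ∈ h51_Rd (h87_D M p hpM A hA)
        (n • (Finsupp.single (h11_placeInfty (M * p)) (1 : ℤ) +
          Finsupp.single (h87_P0 M p hpM) (1 : ℤ)))) ↔
      (∃ n : ℕ, a.1 ∈ h16_Linf (h11_placeInftyC (IsLocalRing.ResidueField A) M) n ∧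
          a.2 ∈ h16_Linf (h11_placeInftyC (IsLocalRing.ResidueField A) M) n) ∧
        ∀ Q ∈ Sg, ∃ c : IsLocalRing.ResidueField A, h39_Val (Φ Q) a.1 c ∧ h39_Val Q a.2 c :=
  fun a => h31_hunion_of_sharp (h87_D M p hpM A hA) (h87_D0 M p hpM)
    (fun v => h87_D0_nonneg M p hpM v) (h11_placeInftyC (IsLocalRing.ResidueField A) M) Sg Φ n0
    hnode a

set_option maxHeartbeats 1600000 in
/-- **The count instance for the W9 binder block** (`h67_cnt_mod_ex`; no elliptic points at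
level `M`). -/
theorem h31_count_inst (M p : ℕ) [NeZero M] [NeZero p] [Fact p.Prime] (hpM : ¬ p ∣ M)
    (A : ValuationSubring Qb) (hA : A.LiesOverPrime p)
    [CharP (IsLocalRing.ResidueField A) p] [IsAlgClosed (IsLocalRing.ResidueField A)]
    (hch : 5 ≤ p ∨ 2 ∣ M ∨ 3 ∣ M) (h2 : nuTwo M = 0) (h3 : nuThree M = 0)
    (Sg : Finset (Place (IsLocalRing.ResidueField A)
      ↥(modularFunctionFieldFullC (IsLocalRing.ResidueField A) M)))
    (hSg : ∀ Q ∈ Sg, Q ≠ h11_placeInftyC (IsLocalRing.ResidueField A) M ∧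
      h96_frobPerm (h84_isFrobChart_jk M p hpM A hA) Q ≠
        h11_placeInftyC (IsLocalRing.ResidueField A) M ∧
      h96_frobPerm (h84_isFrobChart_jk M p hpM A hA)
        (h96_frobPerm (h84_isFrobChart_jk M p hpM A hA) Q) = Q)
    (n0 : ℕ)
    (hnode : ∀ n, n0 ≤ n → ∀ a : ↥(modularFunctionFieldFullC (IsLocalRing.ResidueField A) M) ×
        ↥(modularFunctionFieldFullC (IsLocalRing.ResidueField A) M),
      a ∈ h51_Rd (h87_D M p hpM A hA) (n • h87_D0 M p hpM) ↔
        (a ∈ h20_P (h11_placeInftyC (IsLocalRing.ResidueField A) M) n ∧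
          ∀ Q ∈ Sg, ∃ c : IsLocalRing.ResidueField A,
            h39_Val (h96_frobPerm (h84_isFrobChart_jk M p hpM A hA) Q) a.1 c ∧
              h39_Val Q a.2 c)) :
    ∃ T : Finset (Place (IsLocalRing.ResidueField A)
      ↥(modularFunctionFieldFullC (IsLocalRing.ResidueField A) M)),
      (∀ P, P ∈ T ↔ P.ord (h54_jk (IsLocalRing.ResidueField A) M) < 0) ∧
      h81_CountHyp (h60_R1 M p hpM A hA) (h60_R2 M p hpM A hA) (h87_D M p hpM A hA)
        (h87_D0 M p hpM) (h11_placeInftyC (IsLocalRing.ResidueField A) M) Sg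
        (h96_frobPerm (h84_isFrobChart_jk M p hpM A hA))
        (h67_cnt_B (K := Qb) (h59_jbar (M * p)))
        (h69_F0 (M * p) (A.inertiaSubgroupIn ℚ)).toSubring T (p : Qb)
        (h84_u M p hpM (h20_rho M p)) (((p - 1 : ℕ) : ℤ) * (dedekindPsi M : ℤ)) :=
  h67_cnt_mod_ex M p hpM A hA hch h2 h3 (h87_Pinf_spec (M * p)) (h87_P0_spec M p hpM) Sg
    (h96_frobPerm (h84_isFrobChart_jk M p hpM A hA))
    (h96_frobPerm (h84_isFrobChart_jk M p hpM A hA)).injective
    (fun Q hQ => ⟨(hSg Q hQ).1, (hSg Q hQ).2.1⟩)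
    (h31_block_hunion M p hpM A hA Sg (h96_frobPerm (h84_isFrobChart_jk M p hpM A hA)) n0 hnode)

set_option maxHeartbeats 1600000 in
/-- **Row W6, closed**: the W9 binder block alone (at a level `M` without elliptic points)
gives `h92_W6Out` for every `(E, u)` with `p E = div u`. -/
theorem h31_w6_closed (M p : ℕ) [NeZero M] [NeZero p] [Fact p.Prime] (hpM : ¬ p ∣ M)
    (A : ValuationSubring Qb) (hA : A.LiesOverPrime p)
    [CharP (IsLocalRing.ResidueField A) p] [IsAlgClosed (IsLocalRing.ResidueField A)]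
    (hch : 5 ≤ p ∨ 2 ∣ M ∨ 3 ∣ M) (h2 : nuTwo M = 0) (h3 : nuThree M = 0)
    (Sg : Finset (Place (IsLocalRing.ResidueField A)
      ↥(modularFunctionFieldFullC (IsLocalRing.ResidueField A) M)))
    (hSg : ∀ Q ∈ Sg, Q ≠ h11_placeInftyC (IsLocalRing.ResidueField A) M ∧
      h96_frobPerm (h84_isFrobChart_jk M p hpM A hA) Q ≠
        h11_placeInftyC (IsLocalRing.ResidueField A) M ∧
      h96_frobPerm (h84_isFrobChart_jk M p hpM A hA)
        (h96_frobPerm (h84_isFrobChart_jk M p hpM A hA) Q) = Q)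
    (n0 : ℕ)
    (hnode : ∀ n, n0 ≤ n → ∀ a : ↥(modularFunctionFieldFullC (IsLocalRing.ResidueField A) M) ×
        ↥(modularFunctionFieldFullC (IsLocalRing.ResidueField A) M),
      a ∈ h51_Rd (h87_D M p hpM A hA) (n • h87_D0 M p hpM) ↔
        (a ∈ h20_P (h11_placeInftyC (IsLocalRing.ResidueField A) M) n ∧
          ∀ Q ∈ Sg, ∃ c : IsLocalRing.ResidueField A,
            h39_Val (h96_frobPerm (h84_isFrobChart_jk M p hpM A hA) Q) a.1 c ∧
              h39_Val Q a.2 c))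
    (u : ↥(modularFunctionFieldBar (M * p))) (hu : u ≠ 0)
    (E : Divisor Qb ↥(modularFunctionFieldBar (M * p)))
    (hE : ∀ P : Place Qb ↥(modularFunctionFieldBar (M * p)), (p : ℤ) * E P = P.ord u) :
    h92_W6Out M p hpM A hA Sg (h96_frobPerm (h84_isFrobChart_jk M p hpM A hA)) u := by
  obtain ⟨T, -, H⟩ := h31_count_inst M p hpM A hA hch h2 h3 Sg hSg n0 hnode
  exact h31_w6_out_of_count M p hpM A hA Sg hSg n0 hnode H u hu E hE

end Fermat.Agent.S40

end
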