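import Mathlib
import Fermat.Agent.S41.h48_NotEis

/-!
# S40, (HK-NE): a good prime `r` with `a_r ≢ r + 1 (mod p)`

For an elliptic curve `E` over `ℚ` with integral model `W` and irreducible `E[p]`, `p` odd, and
any finite set `S` of primes there is a prime `r ∉ S`, good for `W`, with
`a_r(W) ≢ r + 1 (mod p)` (and moreover `r ≡ 1 (mod p)`).  This is the "non-Eisenstein" input of
the (END) row; it is a direct consequence of the Galois side of S41 (`h48_not_eisenstein`).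
-/

set_option autoImplicit false

open WeierstrassCurve WeierstrassCurve.Affine WeierstrassCurve.Affine.Point

namespace Fermat.Agent.S40

/-- If `p ∤ ℓ - 1` then every element of `ℤ/ℓ` is a `p`-th power. -/
theorem h54_exists_pow_eq {ℓ p : ℕ} [Fact ℓ.Prime] (hp : p.Prime) (h : ¬ p ∣ ℓ - 1)
    (c : ZMod ℓ) : ∃ x : ZMod ℓ, x ^ p = c := by
  by_cases hc : c = 0
  · exact ⟨0, by rw [hc, zero_pow hp.ne_zero]⟩
  · have hcop : (Nat.card (ZMod ℓ)ˣ).Coprime p := by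
      rw [Nat.card_eq_fintype_card, ZMod.card_units_eq_totient, Nat.totient_prime Fact.out]
      exact Nat.Coprime.symm ((Nat.Prime.coprime_iff_not_dvd hp).2 h)
    obtain ⟨y, hy⟩ := (powCoprime hcop).surjective (Units.mk0 c hc)
    refine ⟨(y : ZMod ℓ), ?_⟩
    have h1 := congrArg Units.val hy
    simpa using h1

/-- **(HK-NE)**, finite-set form. -/
theorem h54_hk_ne (E : WeierstrassCurve ℚ) [E.IsElliptic] {W : WeierstrassCurve ℤ}
    (hW : W.IsIntegralModelOf E) {p : ℕ} (hp : p.Prime) (hp2 : p ≠ 2)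
    (hirr : GaloisRepIsIrreducible (K := AlgebraicClosure ℚ) ℚ E p) (S : Finset ℕ) :
    ∃ r : ℕ, r.Prime ∧ r ∉ S ∧ W.IsGoodPrimeFor r ∧ p ∣ r - 1 ∧
      ¬ (p : ℤ) ∣ (r : ℤ) + 1 - W.apOfModel r := by
  by_contra hcon
  refine Fermat.Agent.S41.h48_not_eisenstein E hW (q := 2) (M := 1) hp hp2 Nat.prime_two
    one_pos hirr S ?_
  intro ℓ hℓ hℓS hgood _ hpow
  have : Fact ℓ.Prime := ⟨hℓ⟩
  have hdvd : p ∣ ℓ - 1 := by
    by_contra hnd
    obtain ⟨x, hx⟩ := h54_exists_pow_eq hp hnd ((2 : ℕ) : ZMod ℓ)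
    exact hpow x hx
  have h1 : (p : ℤ) ∣ (ℓ : ℤ) + 1 - W.apOfModel ℓ := by
    by_contra h2
    exact hcon ⟨ℓ, hℓ, hℓS, hgood, hdvd, h2⟩
  have h3 : (p : ℤ) ∣ (ℓ : ℤ) - 1 := by
    have h4 : ((ℓ - 1 : ℕ) : ℤ) = (ℓ : ℤ) - 1 := by
      rw [Nat.cast_sub hℓ.one_le, Nat.cast_one]
    rw [← h4]
    exact Int.natCast_dvd_natCast.mpr hdvd
  have h5 : W.apOfModel ℓ - 2 = ((ℓ : ℤ) - 1) - ((ℓ : ℤ) + 1 - W.apOfModel ℓ) := by ring
  rw [h5]
  exact dvd_sub h3 h1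

/-- **(HK-NE)**, bound form: the prime can be taken larger than any given bound (hence prime to
any given nonzero level). -/
theorem h54_hk_ne_gt (E : WeierstrassCurve ℚ) [E.IsElliptic] {W : WeierstrassCurve ℤ}
    (hW : W.IsIntegralModelOf E) {p : ℕ} (hp : p.Prime) (hp2 : p ≠ 2)
    (hirr : GaloisRepIsIrreducible (K := AlgebraicClosure ℚ) ℚ E p) (B : ℕ) :
    ∃ r : ℕ, r.Prime ∧ B < r ∧ W.IsGoodPrimeFor r ∧ p ∣ r - 1 ∧
      ¬ (p : ℤ) ∣ (r : ℤ) + 1 - W.apOfModel r := by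
  obtain ⟨r, hr, hrS, hgood, hdvd, hne⟩ := h54_hk_ne E hW hp hp2 hirr (Finset.range (B + 1))
  refine ⟨r, hr, ?_, hgood, hdvd, hne⟩
  by_contra hlt
  exact hrS (Finset.mem_range.mpr (by omega))

/-- **(HK-NE)**, level form: `r` does not divide a given nonzero level `N` (e.g. `N = M' * aux * p`). -/
theorem h54_hk_ne_level (E : WeierstrassCurve ℚ) [E.IsElliptic] {W : WeierstrassCurve ℤ}
    (hW : W.IsIntegralModelOf E) {p : ℕ} (hp : p.Prime) (hp2 : p ≠ 2)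
    (hirr : GaloisRepIsIrreducible (K := AlgebraicClosure ℚ) ℚ E p) (N : ℕ) (hN : N ≠ 0) :
    ∃ r : ℕ, r.Prime ∧ ¬ r ∣ N ∧ r ≠ p ∧ W.IsGoodPrimeFor r ∧
      ¬ (p : ℤ) ∣ (r : ℤ) + 1 - W.apOfModel r := by
  obtain ⟨r, hr, hrB, hgood, -, hne⟩ := h54_hk_ne_gt E hW hp hp2 hirr (N + p)
  refine ⟨r, hr, fun hdvd => ?_, by omega, hgood, hne⟩
  have := Nat.le_of_dvd (Nat.pos_of_ne_zero hN) hdvd
  omega

end Fermat.Agent.S40
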