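import Mathlib
import Fermat.Agent.S40.h43_TailPt

/-!
# S40 / T8 hedge: the `hdiff` binder from the W7 output (helper58)

The modular W7 theorem (`hW7` of `h12_ej_gen`, `h38_w7_mod`, `h25_w7_plug`) produces, for a datum
`(u₁, u₂, κ')`, two constants `Γ₁ Γ₂ : k` with

  `∀ ν, Γ₂ - Γ₁ = (((Q1 ν).ord (R₁.redF u₁) - κ' : ℤ) : k) * lam`,   `lam ≠ 0`.

Since `k` has characteristic `p`, the residue orders `ord_{Q1 ν} (red₁ u₁)` are congruent mod `p`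
for all nodes `ν`; as `h43_rord` does not see constants, the same holds for
`h43_rord R₁ (Q1 ν) u`, `u = c · u₁`.  This is the binder `hdiff` of `h23_T8Out_of_E2_image` /
`h28_T8_hedge`.

* `h58_ord_congr_of_w7`  : `p ∣ ord_{Q1 ν} (red₁ u₁) - ord_{Q1 ν'} (red₁ u₁)`.
* `h58_hdiff_of_w7`      : `p ∣ h43_rord R₁ (Q1 ν) u - h43_rord R₁ (Q1 ν') u` for `u = c · u₁`.
* `h58_hdiff_of_w7_fin`  : the `Finset` form (`Z := {Q // Q ∈ Sg}`, `Q1 ν := Φ ν.1`).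
* `h58_hdiff_of_w7_ex`   : the same from the existential output shape of W7.
-/

set_option autoImplicit false

noncomputable section

namespace Fermat.Agent.S40

open Fermat.Agent.S36 Fermat.Agent.S18 AlgebraicCurve

section HedgeDiff

variable {K F k Fb : Type*} [Field K] [Field F] [Algebra K F] [Field k] [Field Fb] [Algebra k Fb]

/-- A jump relation `Γ₂ - Γ₁ = (n ν - κ') · lam` with `lam ≠ 0` in characteristic `p` forces the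
integers `n ν` to be congruent mod `p`. -/
theorem h58_int_congr_of_jump (p : ℕ) [CharP k p] (lam : k) (hlam : lam ≠ 0) {Z : Type*}
    (n : Z → ℤ) (κ' : ℤ) (Γ₁ Γ₂ : k)
    (hΓ : ∀ ν, Γ₂ - Γ₁ = ((n ν - κ' : ℤ) : k) * lam) (ν ν' : Z) :
    (p : ℤ) ∣ n ν - n ν' := by
  have h1 := hΓ ν
  have h2 := hΓ ν'
  have h3 : ((n ν - κ' : ℤ) : k) * lam = ((n ν' - κ' : ℤ) : k) * lam := by rw [← h1, ← h2]
  have h4 : ((n ν - κ' : ℤ) : k) = ((n ν' - κ' : ℤ) : k) := mul_right_cancel₀ hlam h3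
  have h5 : (((n ν - n ν' : ℤ)) : k) = 0 := by
    have : (n ν - n ν' : ℤ) = (n ν - κ') - (n ν' - κ') := by ring
    rw [this, Int.cast_sub, h4, sub_self]
  exact (CharP.intCast_eq_zero_iff k p _).mp h5

/-- The residue orders of `u₁` at the nodes are congruent mod `p`. -/
theorem h58_ord_congr_of_w7 (R₁ : h39_RedDatum K F k Fb) (p : ℕ) [CharP k p] (lam : k)
    (hlam : lam ≠ 0) {Z : Type*} (Q1 : Z → Place k Fb) (u₁ : F) (κ' : ℤ) (Γ₁ Γ₂ : k)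
    (hΓ : ∀ ν, Γ₂ - Γ₁ = (((Q1 ν).ord (R₁.redF u₁) - κ' : ℤ) : k) * lam) (ν ν' : Z) :
    (p : ℤ) ∣ (Q1 ν).ord (R₁.redF u₁) - (Q1 ν').ord (R₁.redF u₁) :=
  h58_int_congr_of_jump p lam hlam (fun ν => (Q1 ν).ord (R₁.redF u₁)) κ' Γ₁ Γ₂ hΓ ν ν'

/-- `h43_rord` of a constant multiple of a unit is the order of the reduction of the unit. -/
theorem h58_rord_const_mul_unit (R₁ : h39_RedDatum K F k Fb) (Q : Place k Fb) {u u₁ : F} {c : K}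
    (hu : u = algebraMap K F c * u₁) (hc : c ≠ 0) (hu₁ : h43_IsRUnit R₁ u₁) :
    h43_rord R₁ Q u = Q.ord (R₁.redF u₁) := by
  have hc' : algebraMap K F c ≠ 0 := (map_ne_zero _).mpr hc
  rw [hu, h43_rord_mul R₁ Q hc' hu₁.1, h43_rord_algebraMap, zero_add, h43_rord_of_unit R₁ Q hu₁]

/-- **`hdiff` from the W7 output**, indexed form. -/
theorem h58_hdiff_of_w7 (R₁ : h39_RedDatum K F k Fb) (p : ℕ) [CharP k p] (lam : k)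
    (hlam : lam ≠ 0) {Z : Type*} (Q1 : Z → Place k Fb) (u u₁ : F) (c : K)
    (hu : u = algebraMap K F c * u₁) (hc : c ≠ 0) (hu₁ : h43_IsRUnit R₁ u₁) (κ' : ℤ)
    (Γ₁ Γ₂ : k)
    (hΓ : ∀ ν, Γ₂ - Γ₁ = (((Q1 ν).ord (R₁.redF u₁) - κ' : ℤ) : k) * lam) (ν ν' : Z) :
    (p : ℤ) ∣ h43_rord R₁ (Q1 ν) u - h43_rord R₁ (Q1 ν') u := by
  rw [h58_rord_const_mul_unit R₁ (Q1 ν) hu hc hu₁, h58_rord_const_mul_unit R₁ (Q1 ν') hu hc hu₁]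
  exact h58_ord_congr_of_w7 R₁ p lam hlam Q1 u₁ κ' Γ₁ Γ₂ hΓ ν ν'

/-- **`hdiff` from the W7 output**, in the `Finset` form of `h23_T8Out_of_E2_image` /
`h28_T8_hedge` (`Z := {Q // Q ∈ Sg}`, `Q1 ν := Φ ν.1`). -/
theorem h58_hdiff_of_w7_fin (R₁ : h39_RedDatum K F k Fb) (p : ℕ) [CharP k p] (lam : k)
    (hlam : lam ≠ 0) (Sg : Finset (Place k Fb)) (Φ : Place k Fb → Place k Fb) (u u₁ : F) (c : K)
    (hu : u = algebraMap K F c * u₁) (hc : c ≠ 0) (hu₁ : h43_IsRUnit R₁ u₁) (κ' : ℤ)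
    (Γ₁ Γ₂ : k)
    (hΓ : ∀ ν : {Q // Q ∈ Sg},
      Γ₂ - Γ₁ = (((Φ ν.1).ord (R₁.redF u₁) - κ' : ℤ) : k) * lam) :
    ∀ Q ∈ Sg, ∀ Q' ∈ Sg, (p : ℤ) ∣ h43_rord R₁ (Φ Q) u - h43_rord R₁ (Φ Q') u := by
  intro Q hQ Q' hQ'
  exact h58_hdiff_of_w7 R₁ p lam hlam (fun ν : {Q // Q ∈ Sg} => Φ ν.1) u u₁ c hu hc hu₁ κ'
    Γ₁ Γ₂ hΓ ⟨Q, hQ⟩ ⟨Q', hQ'⟩

/-- **`hdiff` from the W7 output**, from the existential shape (the two jet conjuncts of W7 are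
irrelevant here and are kept as arbitrary propositions `P₁ Γ₁`, `P₂ Γ₂`). -/
theorem h58_hdiff_of_w7_ex (R₁ : h39_RedDatum K F k Fb) (p : ℕ) [CharP k p] (lam : k)
    (hlam : lam ≠ 0) (Sg : Finset (Place k Fb)) (Φ : Place k Fb → Place k Fb) (u u₁ : F) (c : K)
    (hu : u = algebraMap K F c * u₁) (hc : c ≠ 0) (hu₁ : h43_IsRUnit R₁ u₁) (κ' : ℤ)
    (P₁ P₂ : k → Prop)
    (hW : ∃ Γ₁ Γ₂ : k, P₁ Γ₁ ∧ P₂ Γ₂ ∧ ∀ ν : {Q // Q ∈ Sg},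
      Γ₂ - Γ₁ = (((Φ ν.1).ord (R₁.redF u₁) - κ' : ℤ) : k) * lam) :
    ∀ Q ∈ Sg, ∀ Q' ∈ Sg, (p : ℤ) ∣ h43_rord R₁ (Φ Q) u - h43_rord R₁ (Φ Q') u := by
  obtain ⟨Γ₁, Γ₂, -, -, hΓ⟩ := hW
  exact h58_hdiff_of_w7_fin R₁ p lam hlam Sg Φ u u₁ c hu hc hu₁ κ' Γ₁ Γ₂ hΓ

/-- The datum in quotient form: `u₁ = u / algebraMap c` (the output shape of `h11_hscale_R1`,
`c = w ^ a`). -/
theorem h58_hdiff_of_w7_div (R₁ : h39_RedDatum K F k Fb) (p : ℕ) [CharP k p] (lam : k)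
    (hlam : lam ≠ 0) (Sg : Finset (Place k Fb)) (Φ : Place k Fb → Place k Fb) (u : F) (c : K)
    (hc : c ≠ 0) (hu₁ : h43_IsRUnit R₁ (u / algebraMap K F c)) (κ' : ℤ) (Γ₁ Γ₂ : k)
    (hΓ : ∀ ν : {Q // Q ∈ Sg},
      Γ₂ - Γ₁ = (((Φ ν.1).ord (R₁.redF (u / algebraMap K F c)) - κ' : ℤ) : k) * lam) :
    ∀ Q ∈ Sg, ∀ Q' ∈ Sg, (p : ℤ) ∣ h43_rord R₁ (Φ Q) u - h43_rord R₁ (Φ Q') u := by
  have hc' : algebraMap K F c ≠ 0 := (map_ne_zero _).mpr hc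
  have hu : u = algebraMap K F c * (u / algebraMap K F c) := by
    rw [mul_div_cancel₀ _ hc']
  exact h58_hdiff_of_w7_fin R₁ p lam hlam Sg Φ u _ c hu hc hu₁ κ' Γ₁ Γ₂ hΓ

end HedgeDiff

end Fermat.Agent.S40
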