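import Mathlib
import Fermat.Agent.S40.h31_W6Closed
import Fermat.Agent.S40.h50_JumpMod
import Fermat.Agent.S40.h11_JetChart
import Fermat.Agent.S40.h15_WNormPair
import Fermat.Agent.S40.h86_DatumDiv
import Fermat.Agent.S40.h58_E2WV
import Fermat.Agent.S40.h58_HedgeDiff
import Fermat.Agent.S40.h23_E2W
import Fermat.Agent.S40.h54_HkNE
import Fermat.Agent.S34.h87_NodeInst
import Fermat.Agent.S40.h67_W6Row
import Fermat.Agent.S40.h53_NodeFun

/-!
# S40 / (TR) rows W7 + W8 + T8, ord-form route, assembled (helper31)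

Everything below is an assembly of landed rows:

* W7 at the charted level = `h50_jump_mod_div` (helper50), jets = `h11_jet_chart` (helper11),
  the divisor of a datum = `h86_datum_div_pair` (helper86);
* W8 (the normalised datum of a class) = `h15w_datum_of_w7` (helper15);
* the count structures at the levels `(M, p)` and `(M ℓ, p)` = `h31_count_inst`
  (`h67_cnt_mod`, helper67), with `h58_isW_h84` (helper58);
* T8 in ord form = `h23_T8Out_of_count` (helper23, helper28).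

Results:

* `h31_w7_every` : W7 for EVERY datum `(u₁, u₂, κ')` with `p ∣ div u₁` (the binder `hW7` of
  `h15w_datum_of_w7` / `h12_ej_gen`), jets of `h11_jet_chart` as binders;
* `h31_t8_block` : `h92_T8Out M p hpM A hA Sg Φ u` for the W9 binder block at a level `M`
  without elliptic points, a Hecke prime `ℓ` with `p ∤ ℓ + 1 - a`, a Kummer pair `(z, w)` and a
  class `(E, u)`, `p E = div u`, `T_ℓ [E] = a [E]`, fixed by the stabiliser of `w`.
-/

set_option autoImplicit false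
set_option synthInstance.maxHeartbeats 400000
set_option linter.style.haveILetI false

noncomputable section

open AlgebraicCurve ModularCurve Module ExtCitation
open WeierstrassCurve WeierstrassCurve.Affine WeierstrassCurve.Affine.Point

namespace Fermat.Agent.S40

open Fermat.Agent.S18 Fermat.Agent.S34 Fermat.Agent.S24 Fermat.Agent.S27 Fermat.Agent.S37
  Fermat.Agent.S36 Fermat.Agent.GAL Fermat.Agent.S41 Fermat.Agent.S33 Fermat.Agent.S35

local notation "Qb" => AlgebraicClosure ℚ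

section Block

variable (M p : ℕ) [NeZero M] [NeZero p] [Fact p.Prime] (hp2 : p ≠ 2) (hpM : ¬ p ∣ M)
  (A : ValuationSubring Qb) (hA : A.LiesOverPrime p)
  [CharP (IsLocalRing.ResidueField A) p] [IsAlgClosed (IsLocalRing.ResidueField A)]
  (Sg : Finset (Place (IsLocalRing.ResidueField A)
    ↥(modularFunctionFieldFullC (IsLocalRing.ResidueField A) M)))
  (hSg : ∀ Q ∈ Sg, Q ≠ h11_placeInftyC (IsLocalRing.ResidueField A) M ∧
    h96_frobPerm (h84_isFrobChart_jk M p hpM A hA) Q ≠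
      h11_placeInftyC (IsLocalRing.ResidueField A) M ∧
    h96_frobPerm (h84_isFrobChart_jk M p hpM A hA)
      (h96_frobPerm (h84_isFrobChart_jk M p hpM A hA) Q) = Q)
  (n0 : ℕ)
  (hnode : ∀ n, n0 ≤ n → ∀ a : ↥(modularFunctionFieldFullC (IsLocalRing.ResidueField A) M) ×
      ↥(modularFunctionFieldFullC (IsLocalRing.ResidueField A) M),
    a ∈ h51_Rd (h87_D M p hpM A hA) (n • h87_D0 M p hpM) ↔
      (a ∈ h20_P (h11_placeInftyC (IsLocalRing.ResidueField A) M) n ∧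
        ∀ Q ∈ Sg, ∃ c : IsLocalRing.ResidueField A,
          h39_Val (h96_frobPerm (h84_isFrobChart_jk M p hpM A hA) Q) a.1 c ∧
            h39_Val Q a.2 c))

include hp2 hSg hnode in
set_option maxHeartbeats 3200000 in
/-- **W7 for every datum** (jets and node functions as binders): the binder `hW7` of
`h15w_datum_of_w7`, with `lam = (res z)⁻¹`. -/
theorem h31_w7_every
    (a : {Q // Q ∈ Sg} → ↥(modularFunctionFieldBar (M * p))) (na : ℕ)
    (ha0 : ∀ ν, a ν ∈ h69_F0 (M * p) (A.inertiaSubgroupIn ℚ))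
    (ha : ∀ ν, a ν ∈ riemannRochSpace (na • h87_D0 M p hpM))
    (ha₁ : ∀ ν, (algebraMap Qb ↥(modularFunctionFieldBar (M * p)) (p : Qb))⁻¹ * a ν ∈
      (h60_R1 M p hpM A hA).O)
    (ha₂ : ∀ ν, a ν ∈ (h60_R2 M p hpM A hA).O)
    (haρ : ∀ ν : {Q // Q ∈ Sg}, (h60_R1 M p hpM A hA).redF
        ((algebraMap Qb ↥(modularFunctionFieldBar (M * p)) (p : Qb))⁻¹ * a ν) ≠ 0 ∧
      (h96_frobPerm (h84_isFrobChart_jk M p hpM A hA) ν.1).ord ((h60_R1 M p hpM A hA).redF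
        ((algebraMap Qb ↥(modularFunctionFieldBar (M * p)) (p : Qb))⁻¹ * a ν)) = -1)
    (haα : ∀ ν : {Q // Q ∈ Sg}, (h60_R2 M p hpM A hA).redF (a ν) ≠ 0 ∧
      (ν.1).ord ((h60_R2 M p hpM A hA).redF (a ν)) = 1)
    (ζ : Qb) (hζ : IsPrimitiveRoot ζ p) (z w : Qb) (hz : A.valuation z = 1)
    (hzI : ∀ g ∈ (A.inertiaSubgroupIn ℚ), g z = z) (hw : (1 + w) ^ p = 1 + (p : Qb) * z)
    (J1 : ↥(h25_SH (h60_R1 M p hpM A hA) (h25_rho (M * p) (A.inertiaSubgroupIn ℚ))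
        (algebraMap Qb ↥(modularFunctionFieldBar (M * p)) w)) →+*
      TrivSqZeroExt ↥(modularFunctionFieldFullC (IsLocalRing.ResidueField A) M)
        ↥(modularFunctionFieldFullC (IsLocalRing.ResidueField A) M))
    (J2 : ↥(h25_SH (h60_R2 M p hpM A hA) (h25_rho (M * p) (A.inertiaSubgroupIn ℚ))
        (algebraMap Qb ↥(modularFunctionFieldBar (M * p)) w)) →+*
      TrivSqZeroExt ↥(modularFunctionFieldFullC (IsLocalRing.ResidueField A) M)
        ↥(modularFunctionFieldFullC (IsLocalRing.ResidueField A) M))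
    (hjet : h38_HJet (h60_R1 M p hpM A hA) (h60_R2 M p hpM A hA) (h87_D0 M p hpM)
      (h25_SH (h60_R1 M p hpM A hA) (h25_rho (M * p) (A.inertiaSubgroupIn ℚ))
        (algebraMap Qb ↥(modularFunctionFieldBar (M * p)) w))
      (h25_SH (h60_R2 M p hpM A hA) (h25_rho (M * p) (A.inertiaSubgroupIn ℚ))
        (algebraMap Qb ↥(modularFunctionFieldBar (M * p)) w)) J1 J2)
    (hJa1 : ∀ f : ↥(h25_SH (h60_R1 M p hpM A hA) (h25_rho (M * p) (A.inertiaSubgroupIn ℚ))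
        (algebraMap Qb ↥(modularFunctionFieldBar (M * p)) w)),
      (f : ↥(modularFunctionFieldBar (M * p))) ∈ h69_F0 (M * p) (A.inertiaSubgroupIn ℚ) →
      J1 f = TrivSqZeroExt.inl
        ((h60_R1 M p hpM A hA).redF (f : ↥(modularFunctionFieldBar (M * p)))))
    (hJa2 : ∀ f : ↥(h25_SH (h60_R2 M p hpM A hA) (h25_rho (M * p) (A.inertiaSubgroupIn ℚ))
        (algebraMap Qb ↥(modularFunctionFieldBar (M * p)) w)),
      (f : ↥(modularFunctionFieldBar (M * p))) ∈ h69_F0 (M * p) (A.inertiaSubgroupIn ℚ) →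
      J2 f = TrivSqZeroExt.inl
        ((h60_R2 M p hpM A hA).redF (f : ↥(modularFunctionFieldBar (M * p)))))
    (hJb2 : ∀ hwS : algebraMap Qb ↥(modularFunctionFieldBar (M * p)) w ∈
        (h25_SH (h60_R2 M p hpM A hA) (h25_rho (M * p) (A.inertiaSubgroupIn ℚ))
          (algebraMap Qb ↥(modularFunctionFieldBar (M * p)) w)),
      J2 ⟨algebraMap Qb ↥(modularFunctionFieldBar (M * p)) w, hwS⟩ = TrivSqZeroExt.inr 1)
    (hJc1 : ∀ f : ↥(h25_SH (h60_R1 M p hpM A hA) (h25_rho (M * p) (A.inertiaSubgroupIn ℚ))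
        (algebraMap Qb ↥(modularFunctionFieldBar (M * p)) w)),
      (J1 f).fst = (h60_R1 M p hpM A hA).redF (f : ↥(modularFunctionFieldBar (M * p))))
    (hJc2 : ∀ f : ↥(h25_SH (h60_R2 M p hpM A hA) (h25_rho (M * p) (A.inertiaSubgroupIn ℚ))
        (algebraMap Qb ↥(modularFunctionFieldBar (M * p)) w)),
      (J2 f).fst = (h60_R2 M p hpM A hA).redF (f : ↥(modularFunctionFieldBar (M * p)))) :
    ∀ (u1 u2 : ↥(modularFunctionFieldBar (M * p)))
      (hu1 : u1 ∈ h25_SH (h60_R1 M p hpM A hA) (h25_rho (M * p) (A.inertiaSubgroupIn ℚ))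
        (algebraMap Qb ↥(modularFunctionFieldBar (M * p)) w))
      (_ : u1⁻¹ ∈ h25_SH (h60_R1 M p hpM A hA) (h25_rho (M * p) (A.inertiaSubgroupIn ℚ))
        (algebraMap Qb ↥(modularFunctionFieldBar (M * p)) w))
      (hu2 : u2 ∈ h25_SH (h60_R2 M p hpM A hA) (h25_rho (M * p) (A.inertiaSubgroupIn ℚ))
        (algebraMap Qb ↥(modularFunctionFieldBar (M * p)) w))
      (_ : u2⁻¹ ∈ h25_SH (h60_R2 M p hpM A hA) (h25_rho (M * p) (A.inertiaSubgroupIn ℚ))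
        (algebraMap Qb ↥(modularFunctionFieldBar (M * p)) w)) (κ' : ℤ), u1 ≠ 0 →
      u1 = algebraMap Qb ↥(modularFunctionFieldBar (M * p)) (p : Qb) ^ κ' * u2 →
      (∀ v : Place Qb ↥(modularFunctionFieldBar (M * p)), (p : ℤ) ∣ v.ord u1) →
      (∃ Γ₁ Γ₂ : IsLocalRing.ResidueField A,
        h38_IsOm J1 ⟨u1, hu1⟩ (algebraMap (IsLocalRing.ResidueField A)
          ↥(modularFunctionFieldFullC (IsLocalRing.ResidueField A) M) Γ₁) ∧
        h38_IsOm J2 ⟨u2, hu2⟩ (algebraMap (IsLocalRing.ResidueField A)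
          ↥(modularFunctionFieldFullC (IsLocalRing.ResidueField A) M) Γ₂) ∧
        ∀ ν : {Q // Q ∈ Sg}, Γ₂ - Γ₁ =
          (((h96_frobPerm (h84_isFrobChart_jk M p hpM A hA) ν.1).ord
            ((h60_R1 M p hpM A hA).redF u1) - κ' : ℤ) : IsLocalRing.ResidueField A) *
              ((h60_R2 M p hpM A hA).resK z)⁻¹) ∧
      ∀ ν ν' : {Q // Q ∈ Sg}, (p : ℤ) ∣
        (h96_frobPerm (h84_isFrobChart_jk M p hpM A hA) ν.1).ord
            ((h60_R1 M p hpM A hA).redF u1) -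
          (h96_frobPerm (h84_isFrobChart_jk M p hpM A hA) ν'.1).ord
            ((h60_R1 M p hpM A hA).redF u1) := by
  intro u1 u2 hu1 hu1i hu2 hu2i κ' hu10 hκ hdvd
  have hp0 : p ≠ 0 := (Fact.out : p.Prime).ne_zero
  obtain ⟨E1, hE1, hE1deg, hE1fix⟩ := h86_datum_div_pair (M * p) p hp0 u1 hu10 hdvd
    (A.inertiaSubgroupIn ℚ) w
    (h50_SH_fixed (M * p) (A.inertiaSubgroupIn ℚ) (h60_R1 M p hpM A hA) w hu1)
  have h := h50_jump_mod_div M p hp2 hpM A hA Sg hSg n0 hnode a na ha0 ha ha₁ ha₂ haρ haα ζ hζ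
    z w hz hzI hw J1 J2 hjet hJa1 hJa2 hJb2 hJc1 hJc2 u1 u2 hu1 hu1i hu2 hu2i κ' hu10 hκ E1
    hE1deg hE1fix hE1
  exact ⟨h.2.2.1, h.2.2.2.2⟩

end Block

section T8

variable (M p ℓ : ℕ) [NeZero M] [NeZero p] [NeZero ℓ] [Fact p.Prime] (hp2 : p ≠ 2)
  (hpM : ¬ p ∣ M) (A : ValuationSubring Qb) (hA : A.LiesOverPrime p)
  [CharP (IsLocalRing.ResidueField A) p] [IsAlgClosed (IsLocalRing.ResidueField A)]

include hp2 in
set_option maxHeartbeats 3200000 in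
/-- **Rows W7 + W8 + T8 at a W9 block** (ord-form route): the output `h92_T8Out`. -/
theorem h31_t8_block (hch : 5 ≤ p ∨ 2 ∣ M ∨ 3 ∣ M) (h2 : nuTwo M = 0) (h3 : nuThree M = 0)
    (h2' : nuTwo (M * ℓ) = 0) (h3' : nuThree (M * ℓ) = 0)
    (hℓ : ℓ.Prime) (hℓM : ¬ ℓ ∣ M) (hpMℓ : ¬ p ∣ M * ℓ)
    (Sg : Finset (Place (IsLocalRing.ResidueField A)
      ↥(modularFunctionFieldFullC (IsLocalRing.ResidueField A) M)))
    (hSg : ∀ Q ∈ Sg, Q ≠ h11_placeInftyC (IsLocalRing.ResidueField A) M ∧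
      h96_frobPerm (h84_isFrobChart_jk M p hpM A hA) Q ≠
        h11_placeInftyC (IsLocalRing.ResidueField A) M ∧
      h96_frobPerm (h84_isFrobChart_jk M p hpM A hA)
        (h96_frobPerm (h84_isFrobChart_jk M p hpM A hA) Q) = Q)
    (n0 : ℕ)
    (hnode : ∀ n, n0 ≤ n → ∀ a : ↥(modularFunctionFieldFullC (IsLocalRing.ResidueField A) M) ×
        ↥(modularFunctionFieldFullC (IsLocalRing.ResidueField A) M),
      a ∈ h51_Rd (h87_D M p hpM A hA) (n • h87_D0 M p hpM) ↔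
        (a ∈ h20_P (h11_placeInftyC (IsLocalRing.ResidueField A) M) n ∧
          ∀ Q ∈ Sg, ∃ c : IsLocalRing.ResidueField A,
            h39_Val (h96_frobPerm (h84_isFrobChart_jk M p hpM A hA) Q) a.1 c ∧
              h39_Val Q a.2 c))
    (aℓ : ℤ) (hna : ¬ (p : ℤ) ∣ (ℓ : ℤ) + 1 - aℓ)
    (z w : Qb) (hz : A.valuation z = 1) (hzI : ∀ g ∈ A.inertiaSubgroupIn ℚ, g z = z)
    (hw : (1 + w) ^ p = 1 + (p : Qb) * z)
    (E : Divisor.degZero (K := Qb) (F := modularFunctionFieldBar (M * p)))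
    (u : ↥(modularFunctionFieldBar (M * p))) (hu : u ≠ 0)
    (hdiv : ∀ v : Place Qb (modularFunctionFieldBar (M * p)),
      (p : ℤ) * (E : Divisor Qb (modularFunctionFieldBar (M * p))) v = v.ord u)
    (hTℓ : heckeOperatorBar (M * p) ⟨ℓ, hℓ⟩ (Pic0.mk E) = aℓ • Pic0.mk E)
    (hEfix : ∀ g ∈ A.inertiaSubgroupIn ℚ, g w = w →
      arithmeticGalois (modularFunctionFieldFull (M * p)) g •
        (E : Divisor Qb (modularFunctionFieldBar (M * p))) = E)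
    (hufix : ∀ g ∈ A.inertiaSubgroupIn ℚ, g w = w →
      arithmeticGalois (modularFunctionFieldFull (M * p)) g • u = u) :
    h92_T8Out M p hpM A hA Sg (h96_frobPerm (h84_isFrobChart_jk M p hpM A hA)) u := by
  classical
  intro Q hQ
  have hch' : 5 ≤ p ∨ 2 ∣ M * ℓ ∨ 3 ∣ M * ℓ := by
    rcases hch with h | h | h
    · exact Or.inl h
    · exact Or.inr (Or.inl (Dvd.dvd.mul_right h ℓ))
    · exact Or.inr (Or.inr (Dvd.dvd.mul_right h ℓ))
  -- the two count structures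
  obtain ⟨T, hT, H⟩ := h31_count_inst M p hpM A hA hch h2 h3 Sg hSg n0 hnode
  obtain ⟨Sg', hSg', n0', -, -, hnode'⟩ := h87_node_closed (M * ℓ) p hpMℓ A hA hch'
  obtain ⟨T', hT', H'⟩ :=
    h31_count_inst (M * ℓ) p hpMℓ A hA hch' h2' h3' Sg' hSg' n0' hnode'
  -- the node functions
  haveI := h75_hasPrincipalDivisors (h84_isChart_jk M p hpM A hA)
  obtain ⟨an, na, ha0, haL, ha₁, ha₂, -, haρ, haα⟩ :=
    h53_node_fun H (fun v => h87_D0_nonneg M p hpM v)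
  -- the jets of the pair `(z, w)`
  obtain ⟨ζ, hζ⟩ := HasEnoughRootsOfUnity.exists_primitiveRoot Qb p
  obtain ⟨g, J1, J2, -, -, ⟨hJa1, hJa2⟩, ⟨-, ⟨hwS2, hJb2⟩⟩, ⟨hJc1, hJc2⟩, hjet, -, hlam⟩ :=
    h11_jet_chart M p hp2 hpM A hA ζ hζ z w hz hzI hw
  -- W7 for every datum
  have hW := h31_w7_every M p hp2 hpM A hA Sg hSg n0 hnode an na (fun ν => ha0 ν) haL ha₁ ha₂
    haρ haα ζ hζ z w hz hzI hw J1 J2 hjet hJa1 hJa2 (fun _ => hJb2) hJc1 hJc2
  -- W8: the datum of the class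
  have hw0 : w ≠ 0 := (h12_eis_ne_zero p A hA z w hz hw).2
  obtain ⟨a', κ, u₁, u₂, hu₁eq, -, hu₁0, -, hκ, -, ⟨hu₁O, hu₁iO, -⟩, ⟨hu₂O, hu₂iO, -⟩, hfix⟩ :=
    h15w_datum_of_w7 M p hp2 hpM A hA _ _ J1 J2 hJc1 hJc2 _ hlam
      (fun ν : {Q // Q ∈ Sg} => h96_frobPerm (h84_isFrobChart_jk M p hpM A hA) ν.1) ⟨Q, hQ⟩
      (fun u1 u2 hu1 hu1i hu2 hu2i κ' h0 hκ' hd => (hW u1 u2 hu1 hu1i hu2 hu2i κ' h0 hκ' hd).1)
      (fun f hf hO =>
        ⟨h50_mem_SH_of_F0 (M * p) (A.inertiaSubgroupIn ℚ) (h60_R1 M p hpM A hA) w hO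
            ((h69_mem_F0 (M * p) _ f).mpr hf), by
          rw [hJa1 ⟨f, _⟩ ((h69_mem_F0 (M * p) _ f).mpr hf), TrivSqZeroExt.snd_inl]⟩)
      (fun f hf hO =>
        ⟨h50_mem_SH_of_F0 (M * p) (A.inertiaSubgroupIn ℚ) (h60_R2 M p hpM A hA) w hO
            ((h69_mem_F0 (M * p) _ f).mpr hf), by
          rw [hJa2 ⟨f, _⟩ ((h69_mem_F0 (M * p) _ f).mpr hf), TrivSqZeroExt.snd_inl]⟩)
      ζ hζ z w hz hzI hw u hu hufix (E : Divisor Qb (modularFunctionFieldBar (M * p))) hEfix hdiv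
  have hu₁S := h50_mem_SH_of (M * p) (A.inertiaSubgroupIn ℚ) (h60_R1 M p hpM A hA) w hu₁O
    (fun σ hσ hσw => (hfix σ hσ hσw).1)
  have hu₁iS := h50_mem_SH_of (M * p) (A.inertiaSubgroupIn ℚ) (h60_R1 M p hpM A hA) w hu₁iO
    (fun σ hσ hσw => (hfix σ hσ hσw).2.1)
  have hu₂S := h50_mem_SH_of (M * p) (A.inertiaSubgroupIn ℚ) (h60_R2 M p hpM A hA) w hu₂O
    (fun σ hσ hσw => (hfix σ hσ hσw).2.2.1)
  have hu₂iS := h50_mem_SH_of (M * p) (A.inertiaSubgroupIn ℚ) (h60_R2 M p hpM A hA) w hu₂iO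
    (fun σ hσ hσw => (hfix σ hσ hσw).2.2.2)
  have hc0 : algebraMap Qb ↥(modularFunctionFieldBar (M * p)) (w ^ a') ≠ 0 :=
    (map_ne_zero _).mpr (zpow_ne_zero _ hw0)
  have hdvd : ∀ v : Place Qb ↥(modularFunctionFieldBar (M * p)), (p : ℤ) ∣ v.ord u₁ := by
    intro v
    rw [hu₁eq, div_eq_mul_inv, Place.ord_mul v hu (inv_ne_zero hc0), Place.ord_inv,
      h43_ord_algebraMap, _root_.neg_zero, add_zero, ← hdiv v]
    exact dvd_mul_right _ _
  have hcongr := (hW u₁ u₂ hu₁S hu₁iS hu₂S hu₂iS κ hu₁0 hκ hdvd).2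
  have hunit : h43_IsRUnit (h60_R1 M p hpM A hA) u₁ := ⟨hu₁0, hu₁O, hu₁iO⟩
  have hueq : u = algebraMap Qb ↥(modularFunctionFieldBar (M * p)) (w ^ a') * u₁ := by
    rw [hu₁eq, mul_div_cancel₀ _ hc0]
  have hdiff : ∀ Q₁ ∈ Sg, ∀ Q₂ ∈ Sg, (p : ℤ) ∣
      h43_rord (h60_R1 M p hpM A hA) (h96_frobPerm (h84_isFrobChart_jk M p hpM A hA) Q₁) u -
        h43_rord (h60_R1 M p hpM A hA)
          (h96_frobPerm (h84_isFrobChart_jk M p hpM A hA) Q₂) u := by
    intro Q₁ hQ₁ Q₂ hQ₂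
    rw [h58_rord_const_mul_unit (h60_R1 M p hpM A hA) _ hueq (zpow_ne_zero _ hw0) hunit,
      h58_rord_const_mul_unit (h60_R1 M p hpM A hA) _ hueq (zpow_ne_zero _ hw0) hunit]
    exact hcongr ⟨Q₁, hQ₁⟩ ⟨Q₂, hQ₂⟩
  exact h23_T8Out_of_count M p ℓ A hA hpM hℓ hℓM hpMℓ hch h2 h3 H (fun P hP => (hT P).1 hP)
    (h58_isW_h84 M p hpM A hA) H' hT' (h58_isW_h84 (M * ℓ) p hpMℓ A hA) aℓ hna E u hu hdiv hTℓ
    hdiff Q hQ

end T8

end Fermat.Agent.S40

end
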