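import Mathlib

/-!
# S40/S44, row TOP-C (AUX-UP): existence of the auxiliary prime

`h32_exists_aux_prime` : for a prime `p ≥ 5` and any bound `n` there is a prime `r > n` with
`r ≡ 11 mod 12` (so that a `Γ₀(r)`-structure has no automorphism of order `2` or `3`) and
`r ≡ 1 mod p`; in particular `p ∤ r + 1` (the degree of the degeneracy map is prime to `p`),
`r ≠ p` and `p ∤ r`.

Mathlib-only (Dirichlet's theorem on primes in arithmetic progressions).
-/

set_option autoImplicit false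

namespace Fermat.Agent.S40

/-- **Dirichlet + CRT**: for a prime `p ≥ 5` there are primes `r ≡ 11 mod 12`, `r ≡ 1 mod p`
above any bound. -/
theorem h32_exists_aux_prime_mod {p : ℕ} (hp : p.Prime) (hp5 : 5 ≤ p) (n : ℕ) :
    ∃ r : ℕ, r.Prime ∧ n < r ∧ r % 12 = 11 ∧ r % p = 1 := by
  have hcop : Nat.Coprime 12 p := by
    have h2 : ¬ p ∣ 12 := by
      intro h
      have hle : p ≤ 12 := Nat.le_of_dvd (by norm_num) h
      interval_cases p <;> simp_all (config := { decide := true })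
    exact (Nat.coprime_comm.mp ((Nat.Prime.coprime_iff_not_dvd hp).mpr h2))
  -- CRT: a residue `a` mod `12 p` with `a ≡ 11 mod 12`, `a ≡ 1 mod p`
  obtain ⟨a, ha12, hap⟩ := Nat.chineseRemainder hcop 11 1
  have ha12' : a % 12 = 11 := by
    have := ha12
    unfold Nat.ModEq at this
    simpa using this
  have hap' : a % p = 1 := by
    have := hap
    unfold Nat.ModEq at this
    rw [this]
    exact Nat.mod_eq_of_lt hp.one_lt
  have hpos : 12 * p ≠ 0 := by
    have := hp.pos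
    positivity
  have : NeZero (12 * p) := ⟨hpos⟩
  have hacop : Nat.Coprime a (12 * p) := by
    apply Nat.Coprime.mul_right
    · -- gcd a 12 = gcd (a % 12) 12 = gcd 11 12 = 1
      have : Nat.gcd a 12 = Nat.gcd (a % 12) 12 := by
        rw [← Nat.gcd_rec, Nat.gcd_comm]
      unfold Nat.Coprime
      rw [this, ha12']
      decide
    · have : Nat.gcd a p = Nat.gcd (a % p) p := by
        rw [← Nat.gcd_rec, Nat.gcd_comm]
      unfold Nat.Coprime
      rw [this, hap']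
      exact Nat.gcd_one_left p
  have hunit : IsUnit ((a : ℕ) : ZMod (12 * p)) :=
    (ZMod.isUnit_iff_coprime a (12 * p)).mpr hacop
  obtain ⟨r, hrn, hrp, hra⟩ := Nat.forall_exists_prime_gt_and_eq_mod hunit n
  refine ⟨r, hrp, hrn, ?_, ?_⟩
  · have h1 : r ≡ a [MOD 12 * p] := (ZMod.natCast_eq_natCast_iff r a (12 * p)).mp hra
    have h2 : r ≡ a [MOD 12] := h1.of_mul_right p
    unfold Nat.ModEq at h2
    rw [h2, ha12']
  · have h1 : r ≡ a [MOD 12 * p] := (ZMod.natCast_eq_natCast_iff r a (12 * p)).mp hra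
    have h2 : r ≡ a [MOD p] := h1.of_mul_left 12
    unfold Nat.ModEq at h2
    rw [h2, hap']

/-- **The auxiliary prime of TOP-C.** For a prime `p ≥ 5`, a level `M ≠ 0` and any bound `n`
there is a prime `r > n` with `r ≡ 11 mod 12`, `r ∤ M`, `r ≠ p` and `p ∤ r + 1`. -/
theorem h32_exists_aux_prime {p : ℕ} (hp : p.Prime) (hp5 : 5 ≤ p) (M : ℕ) (hM : M ≠ 0) (n : ℕ) :
    ∃ r : ℕ, r.Prime ∧ n < r ∧ r % 12 = 11 ∧ ¬ r ∣ M ∧ r ≠ p ∧ ¬ p ∣ r + 1 ∧ ¬ r ∣ M * p := by
  obtain ⟨r, hr, hrn, hr12, hrp⟩ := h32_exists_aux_prime_mod hp hp5 (max n (max M p))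
  have hrM : M < r := lt_of_le_of_lt ((le_max_left M p).trans (le_max_right n _)) hrn
  have hrp' : p < r := lt_of_le_of_lt ((le_max_right M p).trans (le_max_right n _)) hrn
  have h1 : ¬ r ∣ M := fun h => absurd (Nat.le_of_dvd (Nat.pos_of_ne_zero hM) h) (not_le.mpr hrM)
  have h2 : r ≠ p := (ne_of_gt hrp')
  have h3 : ¬ p ∣ r + 1 := by
    intro h
    have h4 : (r + 1) % p = 0 := Nat.mod_eq_zero_of_dvd h
    rw [Nat.add_mod, hrp] at h4
    have hp3 : 3 ≤ p := by omega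
    have h5 : (1 + 1 % p) % p = 2 := by
      rw [Nat.mod_eq_of_lt (by omega : 1 < p)]
      exact Nat.mod_eq_of_lt (by omega)
    omega
  refine ⟨r, hr, lt_of_le_of_lt (le_max_left n _) hrn, hr12, h1, h2, h3, ?_⟩
  intro h
  rcases (Nat.Prime.dvd_mul hr).mp h with h | h
  · exact h1 h
  · exact h2 ((Nat.prime_dvd_prime_iff_eq hr hp).mp h)

/-- The shape asked for by TOP-C (C1) (`#3705`): `B` is any nonzero bound (take `B = M' * p`). -/
theorem h32_aux_prime (p : ℕ) (hp : p.Prime) (hp5 : 5 ≤ p) (B : ℕ) (hB : B ≠ 0) :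
    ∃ r : ℕ, r.Prime ∧ r % 12 = 11 ∧ ¬ r ∣ B ∧ ¬ p ∣ r + 1 := by
  obtain ⟨r, hr, -, hr12, hrB, -, hpr, -⟩ := h32_exists_aux_prime hp hp5 B hB 0
  exact ⟨r, hr, hr12, hrB, hpr⟩

end Fermat.Agent.S40

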