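import Mathlib
import Fermat.Agent.S40.h45_EigClass
import Fermat.Agent.S40.h24_EmbedFrob
import Fermat.Agent.S40.h37_GTSplit
import Fermat.Agent.S37.h60_Final
import Fermat.Agent.S41.h48_FrobRel
import Fermat.Agent.S41.h61_NotEisMain
import Fermat.Agent.GAL.h67_GalHecke
import Fermat.Agent.GAL.WCheb
import Fermat.Agent.GAL.h69_Red

/-!
# S40, row (HECKE-A) = (HK-IN): `E[p]` inside the `a_ℓ`-eigenpart of `J₀(M)[p]`

`E / ℚ` an elliptic curve with integral model `W`, `p` odd, `E[p]` irreducible, `W` residually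
modular of level `M` at `p`.

* `h42_Y W p M L` : the part of `J₀(M)[p]` on which `T_ℓ = a_ℓ(W)` (good `ℓ ∤ M p`) and on which
  `Gal(ℚ̄/L)` acts trivially (on all conjugates); an additive subgroup with its Galois action and
  `𝔽_p`-module structure (framework of `S41/h45_GaloisCore`).
* `h42_hecke_frob` : a finite normal level `L` (containing any given finite set) such that every
  `g ∈ Gal(ℚ̄/ℚ)` acts on `E[p]` and on `h42_Y W p M L` as a power `σ^b` of a Frobenius element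
  killed by `X² - a_ℓ X + ℓ` on both (`hF` shape of `h24_embed_frob`).  No modularity hypothesis.
  Inputs: Eichler–Shimura on torsion (`gal_red_es` + `h60_redData`), the Frobenius relation on
  `E[p]` (`h48_frob_rel_torsion`), weak Chebotarev (`gal_weak_chebotarev`), `c_field`.
* `h42_hecke_embed` : **(HK-IN)**, an injective additive `ι : E[p](ℚ̄) → J₀(M)(ℚ̄)`, Galois
  equivariant, with `p ι = 0` and `T_ℓ ι = a_ℓ(W) ι` for the good primes `ℓ ∤ M p`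
  (`h45_eig_class` for `Y ≠ 0`, then the BLR embedding `h24_embed_frob`).
* `h42_det_eq_cyclo` : `det(g | E[p]) = χ_p(g)` for every `g` (via `h37_det_eq_chi`).
* `h42_hecke_embed_W` : the same for `E = W_ℚ` (binders of the frozen S40).
-/

set_option autoImplicit false
set_option synthInstance.maxHeartbeats 400000

open WeierstrassCurve WeierstrassCurve.Affine WeierstrassCurve.Affine.Point

namespace Fermat.Agent.S40

open ModularCurve Fermat.Agent.GAL Fermat.Agent.S41 ExtCitation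

local notation "Qb" => AlgebraicClosure ℚ

theorem h42_gal_nsmul {M : ℕ} (ρ : Qb ≃ₐ[ℚ] Qb) (n : ℕ) (x : JZero M) :
    ρ • (n • x) = n • ρ • x :=
  map_nsmul (DistribSMul.toAddMonoidHom (JZero M) ρ) n x

theorem h42_gal_zsmul {M : ℕ} (ρ : Qb ≃ₐ[ℚ] Qb) (n : ℤ) (x : JZero M) :
    ρ • (n • x) = n • ρ • x :=
  map_zsmul (DistribSMul.toAddMonoidHom (JZero M) ρ) n x

/-- The `a_ℓ(W)`-eigenpart of `J₀(M)[p]` of level `L`. -/
def h42_Y (W : WeierstrassCurve ℤ) (p M : ℕ) [NeZero M] (L : IntermediateField ℚ Qb) :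
    AddSubgroup (JZero M) where
  carrier := {x | p • x = 0 ∧
    (∀ (ℓ : ℕ) (hℓ : ℓ.Prime), W.IsGoodPrimeFor ℓ → ¬ ℓ ∣ M → ℓ ≠ p →
      heckeOperatorBar M ⟨ℓ, hℓ⟩ x = W.apOfModel ℓ • x) ∧
    ∀ σ τ : Qb ≃ₐ[ℚ] Qb, (∀ a ∈ L, σ a = a) → σ • τ • x = τ • x}
  zero_mem' := by
    refine ⟨nsmul_zero _, fun ℓ hℓ _ _ _ => ?_, fun σ τ _ => ?_⟩
    · rw [_root_.map_zero, zsmul_zero]
    · rw [smul_zero, smul_zero]
  add_mem' := by
    rintro x y ⟨hx1, hx2, hx3⟩ ⟨hy1, hy2, hy3⟩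
    refine ⟨?_, fun ℓ hℓ h1 h2 h3 => ?_, fun σ τ h => ?_⟩
    · rw [nsmul_add, hx1, hy1, add_zero]
    · rw [_root_.map_add, hx2 ℓ hℓ h1 h2 h3, hy2 ℓ hℓ h1 h2 h3, zsmul_add]
    · rw [smul_add, smul_add, hx3 σ τ h, hy3 σ τ h]
  neg_mem' := by
    rintro x ⟨hx1, hx2, hx3⟩
    refine ⟨?_, fun ℓ hℓ h1 h2 h3 => ?_, fun σ τ h => ?_⟩
    · rw [neg_nsmul, hx1, _root_.neg_zero]
    · rw [_root_.map_neg, hx2 ℓ hℓ h1 h2 h3, zsmul_neg]
    · rw [smul_neg, smul_neg, hx3 σ τ h]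

section inst

variable (W : WeierstrassCurve ℤ) (p M : ℕ) [NeZero M] (L : IntermediateField ℚ Qb)

theorem h42_Y_smul_mem (ρ : Qb ≃ₐ[ℚ] Qb) {x : JZero M} (hx : x ∈ h42_Y W p M L) :
    ρ • x ∈ h42_Y W p M L := by
  obtain ⟨hx1, hx2, hx3⟩ := hx
  refine ⟨?_, fun ℓ hℓ h1 h2 h3 => ?_, fun σ τ h => ?_⟩
  · rw [← h42_gal_nsmul, hx1]
    exact smul_zero (A := JZero M) ρ
  · refine (h67_hecke_galois_comm M ⟨ℓ, hℓ⟩ ρ x).trans ?_
    rw [hx2 ℓ hℓ h1 h2 h3, h42_gal_zsmul]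
  · have h4 := hx3 σ (τ * ρ) h
    rw [mul_smul] at h4
    exact h4

noncomputable instance h42_Y_smul : SMul (Qb ≃ₐ[ℚ] Qb) (h42_Y W p M L) :=
  ⟨fun ρ x => ⟨ρ • (x : JZero M), h42_Y_smul_mem W p M L ρ x.2⟩⟩

theorem h42_Y_coe_smul (ρ : Qb ≃ₐ[ℚ] Qb) (x : h42_Y W p M L) :
    ((ρ • x : h42_Y W p M L) : JZero M) = ρ • (x : JZero M) := rfl

noncomputable instance h42_Y_dma : DistribMulAction (Qb ≃ₐ[ℚ] Qb) (h42_Y W p M L) where
  one_smul x := Subtype.ext (one_smul _ (x : JZero M))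
  mul_smul σ τ x := Subtype.ext (mul_smul σ τ (x : JZero M))
  smul_zero σ := Subtype.ext (smul_zero σ)
  smul_add σ x y := Subtype.ext (smul_add σ (x : JZero M) (y : JZero M))

theorem h42_Y_nsmul (x : h42_Y W p M L) : p • x = 0 :=
  Subtype.ext x.2.1

noncomputable instance h42_Y_module : Module (ZMod p) (h42_Y W p M L) :=
  AddCommGroup.zmodModule (h42_Y_nsmul W p M L)

end inst

/-- A finite-dimensional subfield of `ℚ̄` is contained in every intermediate field containing a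
suitable finite set. -/
theorem h42_exists_finset_le (E₀ : IntermediateField ℚ Qb) [FiniteDimensional ℚ E₀] :
    ∃ T : Finset Qb, ∀ L : IntermediateField ℚ Qb, (∀ x ∈ T, x ∈ L) → E₀ ≤ L := by
  have h1 : (Subalgebra.toSubmodule E₀.toSubalgebra).FG :=
    Module.Finite.iff_fg.mp (inferInstance : Module.Finite ℚ E₀)
  have h2 : E₀.toSubalgebra.FG := Subalgebra.fg_of_fg_toSubmodule h1
  obtain ⟨T, hT⟩ := IntermediateField.fg_of_fg_toSubalgebra E₀ h2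
  refine ⟨T, fun L hL => ?_⟩
  rw [← hT]
  exact IntermediateField.adjoin_le_iff.mpr (fun x hx => hL x hx)

/-- An automorphism of `ℚ̄` maps a normal subfield into itself. -/
theorem h42_map_mem_of_normal (L : IntermediateField ℚ Qb) [Normal ℚ L] (τ : Qb ≃ₐ[ℚ] Qb)
    {a : Qb} (ha : a ∈ L) : τ a ∈ L := by
  have h1 := AlgEquiv.restrictNormal_commutes τ L ⟨a, ha⟩
  have h2 : τ a = ((τ.restrictNormal L ⟨a, ha⟩ : L) : Qb) := h1.symm
  rw [h2]
  exact (τ.restrictNormal L ⟨a, ha⟩).2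

set_option maxHeartbeats 1600000 in
/-- **The Frobenius data for the pair `(E[p], Y)`** at a finite normal level containing a given
finite set. -/
theorem h42_hecke_frob (E : WeierstrassCurve ℚ) [E.IsElliptic] {W : WeierstrassCurve ℤ}
    (hW : W.IsIntegralModelOf E) (p M : ℕ) [Fact p.Prime] (hp2 : p ≠ 2) [NeZero M]
    (T : Finset Qb) :
    ∃ L : IntermediateField ℚ Qb, Normal ℚ L ∧ (∀ x ∈ T, x ∈ L) ∧
      ∀ g : Qb ≃ₐ[ℚ] Qb, ∃ (σ : Qb ≃ₐ[ℚ] Qb) (b : ℕ) (t : ZMod p),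
        (∀ v : Submodule.torsionBy ℤ (E⁄Qb).Point p, σ ^ b • v = g • v) ∧
        (∀ x : h42_Y W p M L, σ ^ b • x = g • x) ∧ cycloChar p σ ^ b = cycloChar p g ∧
        (∀ v : Submodule.torsionBy ℤ (E⁄Qb).Point p,
          σ • σ • v - t • σ • v + ((cycloChar p σ : (ZMod p)ˣ) : ZMod p) • v = 0) ∧
        (∀ x : h42_Y W p M L,
          σ • σ • x - t • σ • x + ((cycloChar p σ : (ZMod p)ˣ) : ZMod p) • x = 0) := by
  classical
  have hp : p.Prime := Fact.out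
  have hΔ : W.Δ ≠ 0 := h61_model_Δ_ne_zero E hW
  have hcard := c_p2 E hp hp2
  have hfin : Finite (Submodule.torsionBy ℤ (E⁄Qb).Point p) :=
    Nat.finite_of_card_ne_zero (by rw [hcard]; exact pow_ne_zero _ hp.ne_zero)
  obtain ⟨ζ, hζ⟩ := h11_exists_primitiveRoot p
  obtain ⟨L, hLfin, hLgal, hLT, hLact⟩ := c_field E p hfin (insert ζ T)
  have hLp : ∀ ω : Qb, ω ^ p = 1 → ω ∈ L := by
    intro ω hω
    obtain ⟨i, -, rfl⟩ := hζ.eq_pow_of_pow_eq_one hω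
    exact pow_mem (hLT ζ (Finset.mem_insert_self _ _)) i
  refine ⟨L, hLgal.to_normal, fun x hx => hLT x (Finset.mem_insert_of_mem hx), ?_⟩
  intro g
  obtain ⟨ℓ, A, σ, a, b, hℓ, hℓS, hA, hσ, h1, h2⟩ :=
    gal_weak_chebotarev L g ({2, 3, p} ∪ M.primeFactors ∪ W.Δ.natAbs.primeFactors)
  simp only [Finset.mem_union, Finset.mem_insert, Finset.mem_singleton, not_or] at hℓS
  obtain ⟨⟨⟨hℓ2, hℓ3, hℓp⟩, hℓM'⟩, hℓΔ⟩ := hℓS
  have h5 : 5 ≤ ℓ := by
    have h2le := hℓ.two_le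
    by_contra hlt
    have h4' : ℓ = 4 := by omega
    rw [h4'] at hℓ
    norm_num at hℓ
  have hgood : W.IsGoodPrimeFor ℓ := by
    intro hdvd
    apply hℓΔ
    rw [Nat.mem_primeFactors]
    exact ⟨hℓ, Int.natCast_dvd.mp hdvd, Int.natAbs_ne_zero.mpr hΔ⟩
  have hℓM : ¬ ℓ ∣ M := by
    intro hdvd
    apply hℓM'
    rw [Nat.mem_primeFactors]
    exact ⟨hℓ, hdvd, NeZero.ne M⟩
  have hnp : ¬ ℓ ∣ p := fun h => hℓp ((Nat.prime_dvd_prime_iff_eq hℓ hp).mp h)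
  have hℓNp : ¬ ℓ ∣ M * p := by
    intro hdvd
    rcases (Nat.Prime.dvd_mul hℓ).mp hdvd with h | h
    · exact hℓM h
    · exact hnp h
  have : Fact ℓ.Prime := ⟨hℓ⟩
  have hχσ := h11_cycloChar_frob (p := p) A hℓ hℓp hA hσ
  refine ⟨σ, b, ((W.apOfModel ℓ : ℤ) : ZMod p), fun v => hLact (σ ^ b) g h2 v, fun x => ?_,
    ?_, fun v => ?_, fun x => ?_⟩
  · -- `σ^b = g` on `Y`
    have h3 : (g⁻¹ * σ ^ b) • (x : JZero M) = x := by
      have h4 := x.2.2.2 (g⁻¹ * σ ^ b) 1 (fun a ha => by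
        show g⁻¹ ((σ ^ b) a) = a
        rw [h2 a ha]
        exact g.symm_apply_apply a)
      rw [one_smul] at h4
      exact h4
    apply Subtype.ext
    show σ ^ b • (x : JZero M) = g • (x : JZero M)
    rw [mul_smul] at h3
    calc σ ^ b • (x : JZero M) = g • g⁻¹ • σ ^ b • (x : JZero M) := (smul_inv_smul g _).symm
      _ = g • (x : JZero M) := by rw [h3]
  · rw [← map_pow]
    exact h11_cycloChar_congr (σ ^ b) g (fun ω hω => h2 ω (hLp ω hω))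
  · -- relation on `E[p]`
    have hv := h48_frob_rel_torsion E hW ℓ h5 hgood A hA σ hσ p hnp v
    rw [hχσ, Int.cast_smul_eq_zsmul, Nat.cast_smul_eq_nsmul]
    rw [natCast_zsmul] at hv
    exact hv
  · -- relation on `Y`
    have hx := x.2
    have hσx := h42_Y_smul_mem W p M L σ hx
    have hes := gal_red_es M p hℓ A (Fermat.Agent.S37.h60_redData M p ℓ hℓ hℓNp A hA) σ hσ
      (x : JZero M) hx.1
    rw [hσx.2.1 ℓ hℓ hgood hℓM hℓp] at hes
    rw [hχσ, Int.cast_smul_eq_zsmul, Nat.cast_smul_eq_nsmul]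
    apply Subtype.ext
    exact hes

/-- `h42_Y W p M L ≠ 0` for every normal level `L` containing a suitable finite set, when `W` is
residually modular of level `M`. -/
theorem h42_Y_nontrivial (W : WeierstrassCurve ℤ) (p M : ℕ) [Fact p.Prime] [NeZero M]
    (hmod : W.IsResiduallyModularOfLevel p M) :
    ∃ T : Finset Qb, ∀ L : IntermediateField ℚ Qb, Normal ℚ L → (∀ x ∈ T, x ∈ L) →
      Nontrivial (h42_Y W p M L) := by
  classical
  have hp : p.Prime := Fact.out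
  obtain ⟨x₀, hx₀ne, hx₀p, hx₀T⟩ := h45_eig_class W hmod
  obtain ⟨E₀, hE₀fin, hE₀⟩ := h67_finite_torsion_stabiliser M {x₀} (Set.finite_singleton _)
    (by rintro x rfl; exact ⟨p, hp.pos, hx₀p⟩)
  obtain ⟨T, hT⟩ := h42_exists_finset_le E₀
  refine ⟨T, fun L hLn hLT => ?_⟩
  have hE₀L : E₀ ≤ L := hT L hLT
  have hmem : x₀ ∈ h42_Y W p M L := by
    refine ⟨hx₀p, hx₀T, fun σ τ hσ => ?_⟩
    have h1 : (τ⁻¹ * σ * τ) • x₀ = x₀ := by
      refine hE₀ (τ⁻¹ * σ * τ) (fun a ha => ?_) x₀ rfl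
      have h2 : σ (τ a) = τ a := hσ _ (h42_map_mem_of_normal L τ (hE₀L ha))
      show τ⁻¹ (σ (τ a)) = a
      rw [h2]
      exact τ.symm_apply_apply a
    have h3 : τ * (τ⁻¹ * σ * τ) = σ * τ := by group
    rw [← mul_smul σ τ x₀, ← h3, mul_smul, h1]
  exact ⟨⟨⟨x₀, hmem⟩, 0, fun h => hx₀ne (congrArg Subtype.val h)⟩⟩

/-- **`det = χ_p` on `E[p]`** (`E[p]` irreducible, `p` odd), for every `g ∈ Gal(ℚ̄/ℚ)`. -/
theorem h42_det_eq_cyclo (E : WeierstrassCurve ℚ) [E.IsElliptic] {W : WeierstrassCurve ℤ}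
    (hW : W.IsIntegralModelOf E) {p : ℕ} [Fact p.Prime] (hp2 : p ≠ 2)
    (hirr : GaloisRepIsIrreducible (K := Qb) ℚ E p) (g : Qb ≃ₐ[ℚ] Qb) :
    LinearMap.det (h45_rho p g :
        Submodule.torsionBy ℤ (E⁄Qb).Point p →ₗ[ZMod p] Submodule.torsionBy ℤ (E⁄Qb).Point p) =
      ((cycloChar p g : (ZMod p)ˣ) : ZMod p) := by
  have hp : p.Prime := Fact.out
  obtain ⟨L, -, -, hF⟩ := h42_hecke_frob E hW p 1 hp2 ∅
  refine h37_det_eq_chi (c_p2 E hp hp2) (fun N hN => hirr.2 N hN) (cycloChar p) (fun g => ?_) g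
  obtain ⟨σ, b, t, h1, -, h3, h4, -⟩ := hF g
  exact ⟨σ, b, t, h1, h3, h4⟩

/-- **(HK-IN)**: `E[p]` embeds Galois-equivariantly into the `a_ℓ(W)`-eigenpart of `J₀(M)[p]`. -/
theorem h42_hecke_embed (E : WeierstrassCurve ℚ) [E.IsElliptic] {W : WeierstrassCurve ℤ}
    (hW : W.IsIntegralModelOf E) {p M : ℕ} [Fact p.Prime] (hp2 : p ≠ 2) [NeZero M]
    (hirr : GaloisRepIsIrreducible (K := Qb) ℚ E p)
    (hmod : W.IsResiduallyModularOfLevel p M) :
    ∃ ι : Submodule.torsionBy ℤ (E⁄Qb).Point p →+ JZero M, Function.Injective ι ∧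
      (∀ (σ : Qb ≃ₐ[ℚ] Qb) (P : Submodule.torsionBy ℤ (E⁄Qb).Point p), ι (σ • P) = σ • ι P) ∧
      (∀ P : Submodule.torsionBy ℤ (E⁄Qb).Point p, p • ι P = 0) ∧
      ∀ (ℓ : ℕ) (hℓ : ℓ.Prime), W.IsGoodPrimeFor ℓ → ¬ ℓ ∣ M → ℓ ≠ p →
        ∀ P : Submodule.torsionBy ℤ (E⁄Qb).Point p,
          heckeOperatorBar M ⟨ℓ, hℓ⟩ (ι P) = W.apOfModel ℓ • ι P := by
  have hp : p.Prime := Fact.out
  obtain ⟨T, hT⟩ := h42_Y_nontrivial W p M hmod
  obtain ⟨L, hLn, hLT, hF⟩ := h42_hecke_frob E hW p M hp2 T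
  have hnt : Nontrivial (h42_Y W p M L) := hT L hLn hLT
  obtain ⟨φ, hφinj, hφ⟩ := h24_embed_frob (V := Submodule.torsionBy ℤ (E⁄Qb).Point p)
    (Y := h42_Y W p M L) hp2 (c_p2 E hp hp2) (fun N hN => hirr.2 N hN)
    (cycloChar p) complexConjugation
    (fun v => by rw [← mul_smul, complexConjugation_mul_self, one_smul])
    (h61_cycloChar_complexConj p) hF
  refine ⟨(h42_Y W p M L).subtype.comp φ.toAddMonoidHom, ?_, ?_, ?_, ?_⟩
  · exact Subtype.val_injective.comp hφinj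
  · intro σ P
    show ((φ (σ • P) : h42_Y W p M L) : JZero M) = σ • ((φ P : h42_Y W p M L) : JZero M)
    rw [hφ]
    rfl
  · intro P
    exact (φ P).2.1
  · intro ℓ hℓ hg hM hℓp P
    exact (φ P).2.2.1 ℓ hℓ hg hM hℓp

/-- `W` is an integral model of its own base change to `ℚ`. -/
theorem h42_isIntegralModelOf_map (W : WeierstrassCurve ℤ) :
    W.IsIntegralModelOf (W.map (Int.castRingHom ℚ)) :=
  ⟨1, one_smul _ _⟩

/-- **(HK-IN)** in the binders of the frozen S40: `W_ℚ[p]` embeds Galois-equivariantly into the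
`a_ℓ(W)`-eigenpart of `J₀(M)[p]`. -/
theorem h42_hecke_embed_W (W : WeierstrassCurve ℤ) (hΔ : W.Δ ≠ 0) {p M : ℕ} [Fact p.Prime]
    (hp2 : p ≠ 2) [NeZero M] (hirr : W.ModRepIsIrreducible p)
    (hmod : W.IsResiduallyModularOfLevel p M) :
    ∃ ι : Submodule.torsionBy ℤ ((W.map (Int.castRingHom ℚ))⁄Qb).Point p →+ JZero M,
      Function.Injective ι ∧
      (∀ (σ : Qb ≃ₐ[ℚ] Qb) (P : Submodule.torsionBy ℤ ((W.map (Int.castRingHom ℚ))⁄Qb).Point p),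
        ι (σ • P) = σ • ι P) ∧
      (∀ P : Submodule.torsionBy ℤ ((W.map (Int.castRingHom ℚ))⁄Qb).Point p, p • ι P = 0) ∧
      ∀ (ℓ : ℕ) (hℓ : ℓ.Prime), W.IsGoodPrimeFor ℓ → ¬ ℓ ∣ M → ℓ ≠ p →
        ∀ P : Submodule.torsionBy ℤ ((W.map (Int.castRingHom ℚ))⁄Qb).Point p,
          heckeOperatorBar M ⟨ℓ, hℓ⟩ (ι P) = W.apOfModel ℓ • ι P := by
  have hEll : (W.map (Int.castRingHom ℚ)).IsElliptic := by
    refine ⟨?_⟩
    rw [WeierstrassCurve.map_Δ]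
    exact isUnit_iff_ne_zero.mpr (by simpa using hΔ)
  exact h42_hecke_embed (W.map (Int.castRingHom ℚ)) (h42_isIntegralModelOf_map W) hp2 hirr hmod

end Fermat.Agent.S40
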