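import Mathlib
import Fermat.Prelude.Def_FLTPrelim_ModularRep
import Fermat.Agent.S33.h52_Degen

/-!
# S40, row R1 (HECKE-NEW): the `a_ℓ(W)`-eigenclasses of order `p` at level `M' p` are `p`-new

Setting of the level-lowering argument: `θ = (a_ℓ(W) mod p)_ℓ` does not occur at level `M'`, which
is encoded by a non-commutative Hecke polynomial `P₀` (an element of a free algebra on good
primes) such that `P₀(T)` kills `J₀(M')[p]` while `p ∤ P₀(a)` (row (HK-P0)).  Then every class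
`x ∈ J₀(M' p)[p]` with `T_ℓ x = a_ℓ x` is killed by both degeneracy push-forwards
`α_*, β_* : J₀(M' p) → J₀(M')`, i.e. it is `p`-new (`h67_Jnew M' p x`).

* `h45_lift_eigen`  : a free-algebra word evaluated on a common eigenvector (generic);
* `h45_pnew_core`   : the generic argument (any additive map intertwining the generators on
  `p`-torsion);
* `h45_pnew`        : the modular instance for an arbitrary index type of good primes;
* `h45_pnew_W`      : the instance in the shape of (HK-P0) for a Weierstrass model `W`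
  (index type `{ℓ // ℓ.Prime ∧ (W.IsGoodPrimeFor ℓ ∧ ¬ ℓ ∣ M' ∧ ℓ ≠ p)}`).
-/

set_option autoImplicit false

namespace Fermat.Agent.S40

open ModularCurve
open Fermat.Agent.S33 Fermat.Agent.S35

/-- A word in the free algebra, evaluated at operators `T i`, acts on a common eigenvector `y`
(`T i y = a i • y`) through the same word evaluated at the eigenvalues. -/
theorem h45_lift_eigen {L A : Type*} [AddCommGroup A] (T : L → Module.End ℤ A) (a : L → ℤ)
    (y : A) (hy : ∀ i, T i y = a i • y) (P : FreeAlgebra ℤ L) :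
    FreeAlgebra.lift ℤ T P y = FreeAlgebra.lift ℤ a P • y := by
  induction P using FreeAlgebra.induction with
  | grade0 r =>
    rw [AlgHom.commutes, AlgHom.commutes, Module.algebraMap_end_apply]
    rfl
  | grade1 i =>
    rw [FreeAlgebra.lift_ι_apply, FreeAlgebra.lift_ι_apply, hy]
  | mul P Q hP hQ =>
    rw [map_mul, map_mul, Module.End.mul_apply, hQ, map_zsmul, hP, smul_smul, mul_comm]
  | add P Q hP hQ =>
    rw [map_add, map_add, LinearMap.add_apply, hP, hQ, add_smul]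

/-- **(HECKE-NEW), generic core.** `π : A → B` intertwines the generators `TA i`, `TB i` on
`p`-torsion; a word `P₀` kills the `p`-torsion of `B` but its value at the eigenvalues `a` is
prime to `p`.  Then `π` kills every `p`-torsion common eigenvector with eigenvalues `a`. -/
theorem h45_pnew_core {L A B : Type*} [AddCommGroup A] [AddCommGroup B] (p : ℕ) (hp : p.Prime)
    (TA : L → Module.End ℤ A) (TB : L → Module.End ℤ B) (a : L → ℤ) (π : A →+ B)
    (hπ : ∀ i x, p • x = 0 → π (TA i x) = TB i (π x))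
    (P₀ : FreeAlgebra ℤ L) (hkill : ∀ z : B, p • z = 0 → FreeAlgebra.lift ℤ TB P₀ z = 0)
    (hnd : ¬ (p : ℤ) ∣ FreeAlgebra.lift ℤ a P₀)
    (x : A) (hx : p • x = 0) (hT : ∀ i, TA i x = a i • x) : π x = 0 := by
  have hy : p • π x = 0 := by rw [← map_nsmul, hx, map_zero]
  have heig : ∀ i, TB i (π x) = a i • π x := by
    intro i
    rw [← hπ i x hx, hT i, map_zsmul]
  have h1 : FreeAlgebra.lift ℤ a P₀ • π x = 0 := by
    rw [← h45_lift_eigen TB a (π x) heig P₀]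
    exact hkill _ hy
  have hcop : IsCoprime (FreeAlgebra.lift ℤ a P₀) (p : ℤ) :=
    ((Nat.prime_iff_prime_int.mp hp).coprime_iff_not_dvd.mpr hnd).symm
  obtain ⟨u, v, huv⟩ := hcop
  have h2 : (u * FreeAlgebra.lift ℤ a P₀ + v * (p : ℤ)) • π x = 0 := by
    rw [add_smul, mul_smul, mul_smul, h1, smul_zero, zero_add, natCast_zsmul, hy, smul_zero]
  rw [huv, one_smul] at h2
  exact h2

/-- **(HECKE-NEW), modular form with an arbitrary index type of good primes.** -/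
theorem h45_pnew {p M' : ℕ} [Fact p.Prime] [NeZero M'] [NeZero p]
    {L : Type*} (pr : L → Nat.Primes) (hgood : ∀ i, ¬ ((pr i : ℕ) ∣ M') ∧ (pr i : ℕ) ≠ p)
    (a : L → ℤ) (P₀ : FreeAlgebra ℤ L)
    (hkill : ∀ z : JZero M', p • z = 0 →
      FreeAlgebra.lift ℤ (fun i => heckeOperatorBar M' (pr i)) P₀ z = 0)
    (hnd : ¬ (p : ℤ) ∣ FreeAlgebra.lift ℤ a P₀)
    (x : JZero (M' * p)) (hx : p • x = 0)
    (hT : ∀ i, heckeOperatorBar (M' * p) (pr i) x = a i • x) :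
    h52_pushAlpha M' p x = 0 ∧ h52_pushBeta M' p x = 0 := by
  have hp : p.Prime := Fact.out
  have hdvd : ∀ i, ¬ (pr i : ℕ) ∣ M' * p * p := by
    intro i h
    rcases (pr i).2.dvd_mul.mp h with h | h
    · rcases (pr i).2.dvd_mul.mp h with h | h
      · exact (hgood i).1 h
      · exact (hgood i).2 ((Nat.prime_dvd_prime_iff_eq (pr i).2 hp).mp h)
    · exact (hgood i).2 ((Nat.prime_dvd_prime_iff_eq (pr i).2 hp).mp h)
  refine ⟨?_, ?_⟩
  · exact h45_pnew_core p hp (fun i => heckeOperatorBar (M' * p) (pr i))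
      (fun i => heckeOperatorBar M' (pr i)) a (h52_pushAlpha M' p)
      (fun i y hy => h52_pushAlpha_hecke M' p p (pr i) (hdvd i) y hy) P₀ hkill hnd x hx hT
  · exact h45_pnew_core p hp (fun i => heckeOperatorBar (M' * p) (pr i))
      (fun i => heckeOperatorBar M' (pr i)) a (h52_pushBeta M' p)
      (fun i y hy => h52_pushBeta_hecke M' p p (pr i) (hdvd i) y hy) P₀ hkill hnd x hx hT

/-- **(HECKE-NEW) in the shape of (HK-P0)** for a Weierstrass model `W`: if a word `P₀` in the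
`T_ℓ` (`ℓ` good for `W`, `ℓ ∤ M'`, `ℓ ≠ p`) kills `J₀(M')[p]` and `p ∤ P₀(a_ℓ(W))`, then every
class of order `p` at level `M' p` on which `T_ℓ = a_ℓ(W)` is `p`-new. -/
theorem h45_pnew_W (W : WeierstrassCurve ℤ) {p M' : ℕ} [Fact p.Prime] [NeZero M'] [NeZero p]
    (P₀ : FreeAlgebra ℤ {ℓ : ℕ // ℓ.Prime ∧ (W.IsGoodPrimeFor ℓ ∧ ¬ ℓ ∣ M' ∧ ℓ ≠ p)})
    (hkill : ∀ z : JZero M', p • z = 0 →
      FreeAlgebra.lift ℤ (fun ℓ : {ℓ : ℕ // ℓ.Prime ∧ (W.IsGoodPrimeFor ℓ ∧ ¬ ℓ ∣ M' ∧ ℓ ≠ p)} =>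
        heckeOperatorBar M' ⟨ℓ.1, ℓ.2.1⟩) P₀ z = 0)
    (hnd : ¬ (p : ℤ) ∣
      FreeAlgebra.lift ℤ (fun ℓ : {ℓ : ℕ // ℓ.Prime ∧ (W.IsGoodPrimeFor ℓ ∧ ¬ ℓ ∣ M' ∧ ℓ ≠ p)} =>
        W.apOfModel ℓ.1) P₀)
    (x : JZero (M' * p)) (hx : p • x = 0)
    (hT : ∀ (ℓ : ℕ) (hℓ : ℓ.Prime), W.IsGoodPrimeFor ℓ → ¬ ℓ ∣ M' * p → ℓ ≠ p →
      heckeOperatorBar (M' * p) ⟨ℓ, hℓ⟩ x = W.apOfModel ℓ • x) :
    h67_Jnew M' p x ∧ h52_pushAlpha M' p x = 0 ∧ h52_pushBeta M' p x = 0 := by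
  have hp : p.Prime := Fact.out
  have h := h45_pnew (p := p) (M' := M')
    (fun ℓ : {ℓ : ℕ // ℓ.Prime ∧ (W.IsGoodPrimeFor ℓ ∧ ¬ ℓ ∣ M' ∧ ℓ ≠ p)} =>
      (⟨ℓ.1, ℓ.2.1⟩ : Nat.Primes))
    (fun ℓ => ⟨ℓ.2.2.2.1, ℓ.2.2.2.2⟩) (fun ℓ => W.apOfModel ℓ.1) P₀ hkill hnd x hx
    (fun ℓ => hT ℓ.1 ℓ.2.1 ℓ.2.2.1 (by
      intro h
      rcases ℓ.2.1.dvd_mul.mp h with h | h
      · exact ℓ.2.2.2.1 h
      · exact ℓ.2.2.2.2 ((Nat.prime_dvd_prime_iff_eq ℓ.2.1 hp).mp h)) ℓ.2.2.2.2)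
  exact ⟨(h52_jnew_iff M' p x).mpr h, h.1, h.2⟩

end Fermat.Agent.S40
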