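/-
S40 (helper67), row (HK-P0) = (ALG) = (BR-P0): THE HECKE POLYNOMIAL `P₀`.

Let `N` be a level, `p` a prime, `good` a set of primes not dividing `N` and not containing `p`,
and `a : ℕ → ℤ` a system of integers.  If NO normalized eigenform of level `N` is congruent to
`a` at the good primes modulo a maximal ideal of `ℤ̄` over `p`, then there is a (non-commutative)
polynomial `P₀` in the good Hecke operators such that

* `P₀(T)` kills every `p`-power torsion point of `J₀(N)` (`h67_hkP0`, first conjunct);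
* `P₀(a)` is prime to `p` (second conjunct).

`P₀` is an element of `FreeAlgebra ℤ (h67_Good good)`: the commutativity of the Hecke operators
on all of `J₀(N)(ℚ̄)` is not available, so the polynomial is evaluated with `FreeAlgebra.lift`
(`h67_evJ` on `J₀(N)` at any level, `h67_evZ` at an integer system).

Proof.  The evaluation `evH` in the (commutative) Hecke algebra `H` of level `N` away from the
bad primes is onto.  If `evH P = 0` then `P(T)` kills `J₀(N)[p ^ k]`: every such class is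
`Θ (red φ)` for `φ` in the Hecke lattice (`h29_theta_surj`, which carries the genus bridge) and
`Θ ∘ red` is Hecke-equivariant (`gal_thetaProp`).  So, if the conclusion fails, `a mod p` factors
through a ring homomorphism `θ : H → ℤ/p`; Deligne–Serre (`h67_deligne_serre`: a minimal prime
below `ker θ`, an embedding of the quotient domain in `ℂ`, lying-over in `ℤ̄`) gives a character
`χ : H → ℤ̄` and a maximal ideal `𝔪 ∋ p` with `χ (ker θ) ⊆ 𝔪`; `χ` occurs in the cusp forms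
(`h67_exists_eigvec`) and gives a normalized eigenform (`h7_exists_normalized_eigenform`).
-/
import Mathlib
import Fermat.Agent.S36.h29_NewSq

set_option autoImplicit false
set_option linter.unusedSectionVars false
set_option linter.style.haveILetI false

open ModularCurve CongruenceSubgroup AlgebraicCurve ModularCurve.Period

namespace Fermat.Agent.S40

open Fermat.Agent.GAL Fermat.Agent.S24 Fermat.Agent.S16 Fermat.Agent.S35 Fermat.Agent.S36
open Fermat.Agent.S18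

local notation "Qb" => AlgebraicClosure ℚ

/-! ## Generic lemmas (Mathlib only) -/

/-- An additive map intertwining the generators intertwines every non-commutative polynomial
in them. -/
theorem h67_ev_intertwine {L A B ΛA ΛB : Type*} [Ring A] [Ring B] [Algebra ℤ A] [Algebra ℤ B]
    [AddCommGroup ΛA] [AddCommGroup ΛB]
    (a : L → A) (b : L → B) (ιA : A →+* Module.End ℤ ΛA) (ιB : B →+* Module.End ℤ ΛB)
    (τ : ΛA →+ ΛB) (h : ∀ (ℓ : L) (φ : ΛA), τ (ιA (a ℓ) φ) = ιB (b ℓ) (τ φ))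
    (P : FreeAlgebra ℤ L) (φ : ΛA) :
    τ (ιA (FreeAlgebra.lift ℤ a P) φ) = ιB (FreeAlgebra.lift ℤ b P) (τ φ) := by
  induction P using FreeAlgebra.induction generalizing φ with
  | grade0 r =>
    rw [AlgHom.commutes, AlgHom.commutes, eq_intCast, eq_intCast, map_intCast, map_intCast,
      Module.End.intCast_apply, Module.End.intCast_apply, map_zsmul]
  | grade1 ℓ =>
    rw [FreeAlgebra.lift_ι_apply, FreeAlgebra.lift_ι_apply]
    exact h ℓ φ
  | mul x y hx hy =>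
    rw [map_mul, map_mul, map_mul, map_mul, Module.End.mul_apply, Module.End.mul_apply, hx, hy]
  | add x y hx hy =>
    rw [map_add, map_add, map_add, map_add, LinearMap.add_apply, LinearMap.add_apply, map_add,
      hx, hy]

/-- **Deligne–Serre lifting, ring form.**  A ring homomorphism from a commutative ring `H`,
finite and torsion-free over `ℤ`, to `ℤ/p` lifts to characteristic zero: there are a ring
homomorphism `χ : H → ℤ̄` and a maximal ideal `𝔪 ∋ p` of `ℤ̄` with `χ (ker θ) ⊆ 𝔪`. -/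
theorem h67_deligne_serre {H : Type*} [CommRing H] [Module.Finite ℤ H]
    (htf : ∀ (n : ℤ) (x : H), n ≠ 0 → n • x = 0 → x = 0)
    {p : ℕ} [Fact p.Prime] (θ : H →+* ZMod p) :
    ∃ (χ : H →+* integralClosure ℤ ℂ) (𝔪 : Ideal (integralClosure ℤ ℂ)),
      𝔪.IsMaximal ∧ (p : integralClosure ℤ ℂ) ∈ 𝔪 ∧ ∀ t : H, θ t = 0 → χ t ∈ 𝔪 := by
  classical
  set 𝔫 : Ideal H := RingHom.ker θ with h𝔫
  haveI h𝔫p : 𝔫.IsPrime := RingHom.ker_isPrime θ
  obtain ⟨𝔭, h𝔭min, h𝔭le⟩ := Ideal.exists_minimalPrimes_le (bot_le : (⊥ : Ideal H) ≤ 𝔫)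
  haveI h𝔭p : 𝔭.IsPrime := h𝔭min.1.1
  -- nonzero integers are not in `𝔭`
  have hint : ∀ n : ℤ, (n : H) ∈ 𝔭 → n = 0 := by
    intro n hn
    by_contra hn0
    have hnzd : (n : H) ∈ nonZeroDivisors H := by
      rw [mem_nonZeroDivisors_iff_right]
      intro x hx
      apply htf n x hn0
      rw [zsmul_eq_mul, mul_comm]
      exact hx
    exact Set.disjoint_left.mp (Ideal.disjoint_nonZeroDivisors_of_mem_minimalPrimes h𝔭min) hn hnzd
  -- the quotient domain
  haveI hDtf : Module.IsTorsionFree ℤ (H ⧸ 𝔭) := by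
    apply Module.IsTorsionFree.of_smul_eq_zero
    intro n x hx
    obtain ⟨y, rfl⟩ := Ideal.Quotient.mk_surjective x
    by_cases hn : n = 0
    · exact Or.inl hn
    right
    have h1 : Ideal.Quotient.mk 𝔭 ((n : H) * y) = 0 := by
      rw [map_mul, map_intCast, ← zsmul_eq_mul]
      exact hx
    rw [Ideal.Quotient.eq_zero_iff_mem] at h1 ⊢
    rcases h𝔭p.mem_or_mem h1 with h2 | h2
    · exact absurd (hint n h2) hn
    · exact h2
  haveI hDfin : Module.Finite ℤ (H ⧸ 𝔭) :=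
    Module.Finite.of_surjective (Ideal.Quotient.mkₐ ℤ 𝔭).toLinearMap
      (Ideal.Quotient.mkₐ_surjective ℤ 𝔭)
  haveI hDalg : Algebra.IsAlgebraic ℤ (H ⧸ 𝔭) := Algebra.IsIntegral.isAlgebraic
  let g : (H ⧸ 𝔭) →ₐ[ℤ] ℂ := IsAlgClosed.lift
  have hginj : Function.Injective g := by
    rw [injective_iff_map_eq_zero]
    intro x hx
    have hker : RingHom.ker (g : (H ⧸ 𝔭) →+* ℂ) = ⊥ := by
      apply Ideal.eq_bot_of_comap_eq_bot (R := ℤ)
      rw [eq_bot_iff]
      intro n hn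
      rw [Ideal.mem_comap, RingHom.mem_ker] at hn
      have h2 : ((n : ℤ) : ℂ) = 0 := by
        rw [← hn, eq_intCast, map_intCast]
      rw [Ideal.mem_bot]
      exact_mod_cast h2
    have : x ∈ RingHom.ker (g : (H ⧸ 𝔭) →+* ℂ) := hx
    rw [hker] at this
    exact this
  let χ0 : H →+* ℂ := (g : (H ⧸ 𝔭) →+* ℂ).comp (Ideal.Quotient.mk 𝔭)
  have hχ0int : ∀ t : H, χ0 t ∈ integralClosure ℤ ℂ := fun t =>
    map_isIntegral_int χ0 (Algebra.IsIntegral.isIntegral t)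
  let χ : H →+* integralClosure ℤ ℂ := χ0.codRestrict (integralClosure ℤ ℂ) hχ0int
  have hχker : ∀ t : H, χ t = 0 → t ∈ 𝔭 := by
    intro t ht
    have h1 : χ0 t = 0 := congrArg Subtype.val ht
    have h2 : Ideal.Quotient.mk 𝔭 t = 0 := hginj (by rw [map_zero]; exact h1)
    exact Ideal.Quotient.eq_zero_iff_mem.mp h2
  letI : Algebra H (integralClosure ℤ ℂ) := χ.toAlgebra
  haveI : Algebra.IsIntegral H (integralClosure ℤ ℂ) :=
    ⟨fun x => (Algebra.IsIntegral.isIntegral (R := ℤ) x).tower_top⟩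
  have hIP : (⊥ : Ideal (integralClosure ℤ ℂ)).comap (algebraMap H (integralClosure ℤ ℂ)) ≤ 𝔫 := by
    intro t ht
    rw [Ideal.mem_comap, Ideal.mem_bot] at ht
    exact h𝔭le (hχker t ht)
  obtain ⟨Q, -, hQp, hQ⟩ := Ideal.exists_ideal_over_prime_of_isIntegral 𝔫
    (⊥ : Ideal (integralClosure ℤ ℂ)) hIP
  obtain ⟨𝔪, h𝔪, hQ𝔪⟩ := Ideal.exists_le_maximal Q hQp.ne_top
  have hmem : ∀ t : H, θ t = 0 → χ t ∈ 𝔪 := by
    intro t ht
    have h1 : t ∈ Q.comap (algebraMap H (integralClosure ℤ ℂ)) := by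
      rw [hQ]
      exact ht
    exact hQ𝔪 h1
  refine ⟨χ, 𝔪, h𝔪, ?_, hmem⟩
  have h1 := hmem (p : H) (by rw [map_natCast, ZMod.natCast_self])
  rwa [map_natCast] at h1

/-! ## Non-commutative Hecke polynomials on `J₀(N)` -/

/-- The index set: the good primes. -/
abbrev h67_Good (good : ℕ → Prop) : Type := {ℓ : ℕ // ℓ.Prime ∧ good ℓ}

section Ev

variable (N : ℕ) [NeZero N] (good : ℕ → Prop)

/-- `T_ℓ` on `J₀(N)(ℚ̄)` for a good prime `ℓ`. -/
noncomputable def h67_TJ (ℓ : h67_Good good) : Module.End ℤ (JZero N) :=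
  heckeOperatorBar N ⟨ℓ.1, ℓ.2.1⟩

/-- Evaluation of a non-commutative Hecke polynomial on `J₀(N)(ℚ̄)` (any level `N`). -/
noncomputable def h67_evJ : FreeAlgebra ℤ (h67_Good good) →ₐ[ℤ] Module.End ℤ (JZero N) :=
  FreeAlgebra.lift ℤ (h67_TJ N good)

/-- Evaluation of a non-commutative Hecke polynomial at a system of integers. -/
noncomputable def h67_evZ (a : ℕ → ℤ) : FreeAlgebra ℤ (h67_Good good) →ₐ[ℤ] ℤ :=
  FreeAlgebra.lift ℤ (fun ℓ : h67_Good good => a ℓ.1)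

theorem h67_evJ_ι (ℓ : h67_Good good) :
    h67_evJ N good (FreeAlgebra.ι ℤ ℓ) = heckeOperatorBar N ⟨ℓ.1, ℓ.2.1⟩ :=
  FreeAlgebra.lift_ι_apply _ _

theorem h67_evZ_ι (a : ℕ → ℤ) (ℓ : h67_Good good) :
    h67_evZ good a (FreeAlgebra.ι ℤ ℓ) = a ℓ.1 :=
  FreeAlgebra.lift_ι_apply _ _

theorem h67_evJ_algebraMap (r : ℤ) (z : JZero N) :
    h67_evJ N good (algebraMap ℤ _ r) z = r • z := by
  rw [AlgHom.commutes, eq_intCast, Module.End.intCast_apply]

theorem h67_evZ_algebraMap (a : ℕ → ℤ) (r : ℤ) :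
    h67_evZ good a (algebraMap ℤ _ r) = r := by
  rw [AlgHom.commutes]
  rfl

/-- Hecke polynomials commute with the Galois action. -/
theorem h67_evJ_galois (P : FreeAlgebra ℤ (h67_Good good)) (σ : Qb ≃ₐ[ℚ] Qb) (z : JZero N) :
    h67_evJ N good P (σ • z) = σ • h67_evJ N good P z :=
  (h67_ev_intertwine (h67_TJ N good) (h67_TJ N good) (RingHom.id _) (RingHom.id _)
    (DistribSMul.toAddMonoidHom (JZero N) σ)
    (fun ℓ φ => (h67_hecke_galois_comm N ⟨ℓ.1, ℓ.2.1⟩ σ φ).symm) P z).symm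

/-- An additive map between two levels which commutes with the good Hecke operators commutes
with every Hecke polynomial. -/
theorem h67_evJ_map {N' : ℕ} [NeZero N'] (f : JZero N →+ JZero N')
    (hf : ∀ (ℓ : h67_Good good) (x : JZero N),
      f (heckeOperatorBar N ⟨ℓ.1, ℓ.2.1⟩ x) = heckeOperatorBar N' ⟨ℓ.1, ℓ.2.1⟩ (f x))
    (P : FreeAlgebra ℤ (h67_Good good)) (x : JZero N) :
    f (h67_evJ N good P x) = h67_evJ N' good P (f x) :=
  h67_ev_intertwine (h67_TJ N good) (h67_TJ N' good) (RingHom.id _) (RingHom.id _) f hf P x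

/-- **Relational induction.**  A relation between `J₀(N)` and an abelian group which is additive
and compatible with the good Hecke operators (acting through `a` on the right) is compatible
with every Hecke polynomial. -/
theorem h67_evJ_rel {J' : Type*} [AddCommGroup J'] (a : ℕ → ℤ) (R : JZero N → J' → Prop)
    (hzero : R 0 0)
    (hadd : ∀ (y y' : JZero N) (c c' : J'), R y c → R y' c' → R (y + y') (c + c'))
    (hneg : ∀ (y : JZero N) (c : J'), R y c → R (-y) (-c))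
    (hT : ∀ (ℓ : h67_Good good) (y : JZero N) (c : J'), R y c →
      R (heckeOperatorBar N ⟨ℓ.1, ℓ.2.1⟩ y) (a ℓ.1 • c))
    (P : FreeAlgebra ℤ (h67_Good good)) (y : JZero N) (c : J') (h : R y c) :
    R (h67_evJ N good P y) (h67_evZ good a P • c) := by
  have hsmul : ∀ (r : ℤ) (y : JZero N) (c : J'), R y c → R (r • y) (r • c) := by
    intro r y c hyc
    induction r using Int.induction_on with
    | zero => rw [zero_zsmul, zero_zsmul]; exact hzero
    | succ n ih => rw [add_zsmul, add_zsmul, one_zsmul, one_zsmul]; exact hadd _ _ _ _ ih hyc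
    | pred n ih =>
      rw [sub_zsmul, sub_zsmul, one_zsmul, one_zsmul]
      exact hadd _ _ _ _ ih (hneg _ _ hyc)
  induction P using FreeAlgebra.induction generalizing y c with
  | grade0 r =>
    rw [h67_evJ_algebraMap, h67_evZ_algebraMap]
    exact hsmul r y c h
  | grade1 ℓ =>
    rw [h67_evJ_ι, h67_evZ_ι]
    exact hT ℓ y c h
  | mul P Q hP hQ =>
    rw [map_mul, map_mul, Module.End.mul_apply, mul_zsmul]
    exact hP _ _ (hQ y c h)
  | add P Q hP hQ =>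
    rw [map_add, map_add, LinearMap.add_apply, add_zsmul]
    exact hadd _ _ _ _ (hP y c h) (hQ y c h)

/-- On a common eigenvector of the good Hecke operators a Hecke polynomial acts through its
value. -/
theorem h67_evJ_eigen (a : ℕ → ℤ) (x : JZero N)
    (hx : ∀ ℓ : h67_Good good, heckeOperatorBar N ⟨ℓ.1, ℓ.2.1⟩ x = a ℓ.1 • x)
    (P : FreeAlgebra ℤ (h67_Good good)) :
    h67_evJ N good P x = h67_evZ good a P • x := by
  induction P using FreeAlgebra.induction with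
  | grade0 r => rw [h67_evJ_algebraMap, h67_evZ_algebraMap]
  | grade1 ℓ =>
    rw [h67_evJ_ι, h67_evZ_ι]
    exact hx ℓ
  | mul P Q hP hQ =>
    rw [map_mul, map_mul, Module.End.mul_apply, hQ, map_zsmul, hP, mul_zsmul']
  | add P Q hP hQ =>
    rw [map_add, map_add, LinearMap.add_apply, hP, hQ, add_zsmul]

end Ev

/-! ## The Hecke algebra away from the bad primes -/

section Hecke

variable (N : ℕ) [NeZero N] (good : ℕ → Prop) (hgN : ∀ ℓ : ℕ, good ℓ → ¬ ℓ ∣ N)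

/-- The excluded set: the primes which are not good. -/
def h67_Bad : Set ℕ := {ℓ | ¬ good ℓ}

include hgN in
theorem h67_hNBad : ∀ q : ℕ, q.Prime → q ∣ N → q ∈ h67_Bad good :=
  fun q _ hq hg => hgN q hg hq

/-- `T_ℓ` in the Hecke algebra of level `N` away from the bad primes. -/
noncomputable def h67_TH (ℓ : h67_Good good) : CuspForm.heckeAlgebra N 2 (h67_Bad good) :=
  CuspForm.heckeAlgebra.T ℓ.2.1 (hgN ℓ.1 ℓ.2.2) (fun h => h ℓ.2.2)

/-- Evaluation of a non-commutative Hecke polynomial in the Hecke algebra. -/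
noncomputable def h67_evH :
    FreeAlgebra ℤ (h67_Good good) →ₐ[ℤ] CuspForm.heckeAlgebra N 2 (h67_Bad good) :=
  FreeAlgebra.lift ℤ (h67_TH N good hgN)

theorem h67_evH_ι (ℓ : h67_Good good) :
    h67_evH N good hgN (FreeAlgebra.ι ℤ ℓ) = h67_TH N good hgN ℓ :=
  FreeAlgebra.lift_ι_apply _ _

/-- The good `T_ℓ` generate the Hecke algebra away from the bad primes. -/
theorem h67_evH_surj : Function.Surjective (h67_evH N good hgN) := by
  rintro ⟨t, ht⟩
  induction ht using Algebra.adjoin_induction with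
  | mem x hx =>
    rcases hx with ⟨ℓ, hℓ, hℓN, hℓS, rfl⟩ | ⟨q, hqN, hq, hqS, rfl⟩
    · have hg : good ℓ := not_not.mp hℓS
      refine ⟨FreeAlgebra.ι ℤ (⟨ℓ, hℓ, hg⟩ : h67_Good good), ?_⟩
      rw [h67_evH_ι]
      rfl
    · exact absurd (h67_hNBad N good hgN q hq hqN) hqS
  | algebraMap r =>
    refine ⟨algebraMap ℤ _ r, ?_⟩
    rw [AlgHom.commutes]
    rfl
  | add x y hx hy ihx ihy =>
    obtain ⟨P, hP⟩ := ihx
    obtain ⟨Q, hQ⟩ := ihy
    refine ⟨P + Q, ?_⟩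
    rw [map_add, hP, hQ]
    rfl
  | mul x y hx hy ihx ihy =>
    obtain ⟨P, hP⟩ := ihx
    obtain ⟨Q, hQ⟩ := ihy
    refine ⟨P * Q, ?_⟩
    rw [map_mul, hP, hQ]
    rfl

/-- **A Hecke polynomial vanishing on the cusp forms of level `N` kills the `p`-power torsion
of `J₀(N)`** (`p` not a good prime). -/
theorem h67_kills (p : ℕ) [Fact p.Prime] (hgp : ¬ good p)
    (hbridge : (h75_genus Qb (h59_jbar N) : ℚ) = ModularCurve.genusFormula N)
    (P : FreeAlgebra ℤ (h67_Good good)) (hP : h67_evH N good hgN P = 0)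
    (k : ℕ) (z : JZero N) (hz : p ^ k • z = 0) : h67_evJ N good P z = 0 := by
  have hp : p.Prime := Fact.out
  haveI : NeZero (p ^ k) := ⟨pow_ne_zero k hp.ne_zero⟩
  obtain ⟨Θ, hΘinj, hΘhecke⟩ := gal_thetaProp N (p ^ k)
  obtain ⟨φ, hφ⟩ := h29_theta_surj N p k hbridge Θ hΘinj z hz
  let τ : h65_Lam N →+ JZero N := Θ.comp (h65_redHom N (p ^ k))
  have hτ : ∀ (ℓ : h67_Good good) (ψ : h65_Lam N),
      τ (h65_iota N (h67_Bad good) (h67_hNBad N good hgN) (h67_TH N good hgN ℓ) ψ)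
        = h67_TJ N good ℓ (τ ψ) := by
    intro ℓ ψ
    haveI : Fact ℓ.1.Prime := ⟨ℓ.2.1⟩
    have hℓp : ¬ ℓ.1 ∣ p ^ k := by
      intro h
      have h' := (Nat.prime_dvd_prime_iff_eq ℓ.2.1 hp).1 (ℓ.2.1.dvd_of_dvd_pow h)
      exact hgp (h' ▸ ℓ.2.2)
    exact (hΘhecke ℓ.1 (hgN ℓ.1 ℓ.2.2) hℓp (h65_redHom N (p ^ k) ψ) _
      (h65_redHom_hecke N (p ^ k) (h67_Bad good) (h67_hNBad N good hgN) ℓ.2.1
        (hgN ℓ.1 ℓ.2.2) (fun h => h ℓ.2.2) ψ)).symm
  have key := h67_ev_intertwine (h67_TH N good hgN) (h67_TJ N good)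
    (h65_iota N (h67_Bad good) (h67_hNBad N good hgN)) (RingHom.id _) τ hτ P φ
  have hτφ : τ φ = z := hφ
  rw [hτφ] at key
  have hP' : FreeAlgebra.lift ℤ (h67_TH N good hgN) P = 0 := hP
  rw [hP', map_zero, LinearMap.zero_apply, map_zero] at key
  exact key.symm

end Hecke

/-! ## From a character of the Hecke algebra to a normalized eigenform -/

section Eigenform

open ModularFormClass

variable {N : ℕ} [NeZero N]

/-- A character of the Hecke algebra of level `N` away from a set `S2` containing the primes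
dividing `N` occurs in a normalized eigenform of level `N`. -/
theorem h67_eigenform_of_char (S2 : Set ℕ) (hNS2 : ∀ q : ℕ, q.Prime → q ∣ N → q ∈ S2)
    (χ : CuspForm.heckeAlgebra N 2 S2 →+* ℂ) :
    ∃ f : CuspForm (Gamma0 N) 2, f.IsNormalizedEigenform ∧
      ∀ (ℓ : ℕ) (hℓ : ℓ.Prime) (hℓN : ¬ ℓ ∣ N) (hℓS : ℓ ∉ S2),
        qCoeff (⇑f) ℓ = χ (CuspForm.heckeAlgebra.T hℓ hℓN hℓS) := by
  classical
  have hfV : Module.Finite ℂ (CuspForm (Gamma0 N) 2) := Fermat.Agent.S21.h20_finite_cuspForm N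
  obtain ⟨v, hv0, hv⟩ := h67_exists_eigvec S2 hNS2 χ
  -- the common eigenspace of the good operators
  let W : Submodule ℂ (CuspForm (Gamma0 N) 2) :=
    { carrier := {w | ∀ (ℓ : ℕ) (hℓ : ℓ.Prime) (hℓN : ¬ ℓ ∣ N) (hℓS : ℓ ∉ S2),
        CuspForm.heckeTLin 2 hℓ hℓN w = χ (CuspForm.heckeAlgebra.T hℓ hℓN hℓS) • w}
      add_mem' := fun {a b} ha hb ℓ hℓ hℓN hℓS => by
        rw [map_add, ha ℓ hℓ hℓN hℓS, hb ℓ hℓ hℓN hℓS, smul_add]
      zero_mem' := fun ℓ hℓ hℓN hℓS => by rw [map_zero, smul_zero]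
      smul_mem' := fun c w hw ℓ hℓ hℓN hℓS => by rw [map_smul, hw ℓ hℓ hℓN hℓS, smul_comm] }
  have hvW : v ∈ W := fun ℓ hℓ hℓN hℓS => hv (CuspForm.heckeAlgebra.T hℓ hℓN hℓS)
  have hW : W ≠ ⊥ := fun h => hv0 ((Submodule.mem_bot ℂ).1 (h ▸ hvW))
  have hs : ∀ a ∈ CuspForm.heckeGenerators N 2 (∅ : Set ℕ),
      ∀ b ∈ CuspForm.heckeGenerators N 2 (∅ : Set ℕ), Commute a b :=
    fun a ha b hb => CuspForm.commute_of_mem_heckeGenerators ha hb
  have hWs : ∀ a ∈ CuspForm.heckeGenerators N 2 (∅ : Set ℕ), ∀ w ∈ W, a w ∈ W := by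
    intro a ha w hw ℓ hℓ hℓN hℓS
    have hc : Commute (CuspForm.heckeTLin 2 hℓ hℓN) a :=
      CuspForm.commute_of_mem_heckeGenerators
        (CuspForm.heckeTLin_mem_heckeGenerators hℓ hℓN (Set.notMem_empty _)) ha
    have h1 := congrArg (fun T : Module.End ℂ (CuspForm (Gamma0 N) 2) => T w) hc.eq
    simp only [Module.End.mul_apply] at h1
    rw [h1, hw ℓ hℓ hℓN hℓS, map_smul]
  obtain ⟨v', hv'W, hv'0, hv'⟩ := h39_exists_common_eigenvector W hW _ hs hWs
  have hT : ∀ (ℓ : ℕ) (hℓ : ℓ.Prime) (hℓN : ¬ ℓ ∣ N),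
      ∃ c : ℂ, CuspForm.heckeTLin 2 hℓ hℓN v' = c • v' := fun ℓ hℓ hℓN =>
    hv' _ (CuspForm.heckeTLin_mem_heckeGenerators hℓ hℓN (Set.notMem_empty _))
  have hU : ∀ (q : ℕ) (_ : q.Prime) (hqN : q ∣ N),
      ∃ c : ℂ, CuspForm.heckeULin 2 hqN v' = c • v' := fun q hq hqN =>
    hv' _ (CuspForm.heckeULin_mem_heckeGenerators hq hqN (Set.notMem_empty _))
  let lam : ℕ → ℂ := fun ℓ =>
    if h : ℓ.Prime then
      (if hN : ℓ ∣ N then Classical.choose (hU ℓ h hN) else Classical.choose (hT ℓ h hN))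
    else 0
  have hlamT : ∀ (ℓ : ℕ) (hℓ : ℓ.Prime) (hℓN : ¬ ℓ ∣ N),
      CuspForm.heckeTLin 2 hℓ hℓN v' = lam ℓ • v' := by
    intro ℓ hℓ hℓN
    simp only [lam, dif_pos hℓ, dif_neg hℓN]
    exact Classical.choose_spec (hT ℓ hℓ hℓN)
  have hlamU : ∀ (q : ℕ) (_ : q.Prime) (hqN : q ∣ N),
      CuspForm.heckeULin 2 hqN v' = lam q • v' := by
    intro q hq hqN
    simp only [lam, dif_pos hq, dif_pos hqN]
    exact Classical.choose_spec (hU q hq hqN)
  obtain ⟨f, hf, hfl⟩ :=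
    Fermat.Agent.S49.h7_exists_normalized_eigenform v' hv'0 lam hlamT hlamU
  refine ⟨f, hf, fun ℓ hℓ hℓN hℓS => ?_⟩
  rw [hfl ℓ hℓ]
  have h1 := hv'W ℓ hℓ hℓN hℓS
  have h2 := hlamT ℓ hℓ hℓN
  have h3 : lam ℓ • v' = χ (CuspForm.heckeAlgebra.T hℓ hℓN hℓS) • v' := h2.symm.trans h1
  exact smul_left_injective ℂ hv'0 h3

end Eigenform

/-! ## (HK-P0) -/

section Main

open ModularFormClass

/-- **(HK-P0).**  If no normalized eigenform of level `N` is congruent to the system `a` at the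
good primes modulo a maximal ideal of `ℤ̄` above `p`, there is a Hecke polynomial `P₀` in the good
Hecke operators which kills the `p`-power torsion of `J₀(N)` and whose value at `a` is prime
to `p`. -/
theorem h67_hkP0 (N : ℕ) [NeZero N] (p : ℕ) [Fact p.Prime] (good : ℕ → Prop)
    (hgN : ∀ ℓ : ℕ, good ℓ → ¬ ℓ ∣ N) (hgp : ¬ good p) (a : ℕ → ℤ)
    (hbridge : (h75_genus Qb (h59_jbar N) : ℚ) = ModularCurve.genusFormula N)
    (hnot : ¬ ∃ (f : CuspForm (Gamma0 N) 2) (𝔪 : Ideal (integralClosure ℤ ℂ)),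
      f.IsNormalizedEigenform ∧ 𝔪.IsMaximal ∧ (p : integralClosure ℤ ℂ) ∈ 𝔪 ∧
      ∀ ℓ : ℕ, ℓ.Prime → good ℓ → ∃ c : integralClosure ℤ ℂ,
        (c : ℂ) = qCoeff (⇑f) ℓ ∧ c - ((a ℓ : ℤ) : integralClosure ℤ ℂ) ∈ 𝔪) :
    ∃ P₀ : FreeAlgebra ℤ (h67_Good good),
      (∀ (k : ℕ) (z : JZero N), p ^ k • z = 0 → h67_evJ N good P₀ z = 0) ∧
      ¬ (p : ℤ) ∣ h67_evZ good a P₀ := by
  classical
  by_contra hcon
  apply hnot
  have hcon' : ∀ P₀ : FreeAlgebra ℤ (h67_Good good),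
      (∀ (k : ℕ) (z : JZero N), p ^ k • z = 0 → h67_evJ N good P₀ z = 0) →
        (p : ℤ) ∣ h67_evZ good a P₀ := by
    intro P₀ h
    by_contra h'
    exact hcon ⟨P₀, h, h'⟩
  -- the character mod `p` of the Hecke algebra
  let evH : FreeAlgebra ℤ (h67_Good good) →+* CuspForm.heckeAlgebra N 2 (h67_Bad good) :=
    (h67_evH N good hgN).toRingHom
  have hsurj : Function.Surjective evH := h67_evH_surj N good hgN
  let evp : FreeAlgebra ℤ (h67_Good good) →+* ZMod p :=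
    (Int.castRingHom (ZMod p)).comp (h67_evZ good a).toRingHom
  have hker : ∀ P : FreeAlgebra ℤ (h67_Good good), evH P = 0 → evp P = 0 := by
    intro P hP
    have h1 := hcon' P (fun k z hz => h67_kills N good hgN p hgp hbridge P hP k z hz)
    exact (ZMod.intCast_zmod_eq_zero_iff_dvd _ p).2 h1
  let θ : CuspForm.heckeAlgebra N 2 (h67_Bad good) →+* ZMod p :=
    RingHom.liftOfSurjective evH hsurj ⟨evp, fun P hP => hker P hP⟩
  have hθ : ∀ P : FreeAlgebra ℤ (h67_Good good), θ (evH P) = evp P :=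
    fun P => RingHom.liftOfSurjective_comp_apply evH hsurj ⟨evp, fun P hP => hker P hP⟩ P
  haveI hfH : Module.Finite ℤ (CuspForm.heckeAlgebra N 2 (h67_Bad good)) :=
    Fermat.Agent.S22.result N 2 (h67_Bad good)
  have htf : ∀ (n : ℤ) (x : CuspForm.heckeAlgebra N 2 (h67_Bad good)), n ≠ 0 → n • x = 0 →
      x = 0 := by
    intro n x hn hx
    exact (smul_eq_zero.mp hx).resolve_left hn
  obtain ⟨χ', 𝔪, h𝔪, hp𝔪, hχ'⟩ := h67_deligne_serre htf θ
  let χ : CuspForm.heckeAlgebra N 2 (h67_Bad good) →+* ℂ :=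
    (algebraMap (integralClosure ℤ ℂ) ℂ).comp χ'
  obtain ⟨f, hf, hfl⟩ := h67_eigenform_of_char (h67_Bad good) (h67_hNBad N good hgN) χ
  refine ⟨f, 𝔪, hf, h𝔪, hp𝔪, fun ℓ hℓ hg => ?_⟩
  refine ⟨χ' (h67_TH N good hgN ⟨ℓ, hℓ, hg⟩), ?_, ?_⟩
  · rw [hfl ℓ hℓ (hgN ℓ hg) (fun h => h hg)]
    rfl
  · have h1 : θ (h67_TH N good hgN ⟨ℓ, hℓ, hg⟩ - ((a ℓ : ℤ) : CuspForm.heckeAlgebra N 2 (h67_Bad good)))
        = 0 := by
      have h2 : evH (FreeAlgebra.ι ℤ (⟨ℓ, hℓ, hg⟩ : h67_Good good) - algebraMap ℤ _ (a ℓ))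
          = h67_TH N good hgN ⟨ℓ, hℓ, hg⟩
            - ((a ℓ : ℤ) : CuspForm.heckeAlgebra N 2 (h67_Bad good)) := by
        rw [map_sub]
        congr 1
        · exact h67_evH_ι N good hgN _
        · show h67_evH N good hgN (algebraMap ℤ _ (a ℓ)) = _
          rw [AlgHom.commutes, eq_intCast]
      rw [← h2, hθ]
      show (Int.castRingHom (ZMod p)) (h67_evZ good a
        (FreeAlgebra.ι ℤ (⟨ℓ, hℓ, hg⟩ : h67_Good good) - algebraMap ℤ _ (a ℓ))) = 0
      rw [map_sub, h67_evZ_ι, h67_evZ_algebraMap, sub_self, map_zero]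
    have h3 := hχ' _ h1
    rwa [map_sub, map_intCast] at h3

/-- **(HK-P0) for a Weierstrass model**: the shape consumed by the top of S40 (at `N = M / p`). -/
theorem h67_hkP0_W (W : WeierstrassCurve ℤ) (N : ℕ) [NeZero N] (p : ℕ) [Fact p.Prime]
    (hbridge : (h75_genus Qb (h59_jbar N) : ℚ) = ModularCurve.genusFormula N)
    (hnot : ¬ W.IsResiduallyModularOfLevel p N) :
    ∃ P₀ : FreeAlgebra ℤ (h67_Good (fun ℓ => W.IsGoodPrimeFor ℓ ∧ ¬ ℓ ∣ N ∧ ℓ ≠ p)),
      (∀ (k : ℕ) (z : JZero N), p ^ k • z = 0 →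
        h67_evJ N (fun ℓ => W.IsGoodPrimeFor ℓ ∧ ¬ ℓ ∣ N ∧ ℓ ≠ p) P₀ z = 0) ∧
      ¬ (p : ℤ) ∣ h67_evZ (fun ℓ => W.IsGoodPrimeFor ℓ ∧ ¬ ℓ ∣ N ∧ ℓ ≠ p)
        (fun ℓ => W.apOfModel ℓ) P₀ :=
  h67_hkP0 N p (fun ℓ => W.IsGoodPrimeFor ℓ ∧ ¬ ℓ ∣ N ∧ ℓ ≠ p) (fun _ h => h.2.1)
    (fun h => h.2.2 rfl) (fun ℓ => W.apOfModel ℓ) hbridge
    (fun ⟨f, 𝔪, hf, h𝔪, hp𝔪, h⟩ => hnot ⟨f, 𝔪, hf, h𝔪, hp𝔪,
      fun ℓ hℓ hg hℓN hℓp => h ℓ hℓ ⟨hg, hℓN, hℓp⟩⟩)

end Main

end Fermat.Agent.S40
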