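import Mathlib
import Fermat.Agent.S40.h45_PNew
import Fermat.Agent.S40.h67_HkP0
import Fermat.Agent.S36.h83_GenusMod

/-!
# S40, row R1 / TOP-B: `p`-newness from "not residually modular of level `M'`", unconditionally

`h45_pnew_of_not_resmod` : if `W` is NOT residually modular of level `M'` at `p`, then every class
`x ∈ J₀(M' p)(ℚ̄)` with `p • x = 0` and `T_ℓ x = a_ℓ(W) • x` (all primes `ℓ ∤ M' p` good for `W`)
is `p`-new: `h67_Jnew M' p x`, i.e. `α_* x = β_* x = 0`.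

It combines (HK-P0) (`h67_hkP0_W`, helper67), the genus bridge (`h83_h75_genus_jbar`) and the
generic (HECKE-NEW) argument `h45_pnew`.  No hypothesis is left.

`h45_topB` : the start dichotomy of the level-lowering argument in one statement.
-/

set_option autoImplicit false

namespace Fermat.Agent.S40

open ModularCurve
open Fermat.Agent.S33 Fermat.Agent.S35 Fermat.Agent.S36

/-- **(HECKE-NEW), unconditional form.** -/
theorem h45_pnew_of_not_resmod (W : WeierstrassCurve ℤ) {p M' : ℕ} [Fact p.Prime] [NeZero M']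
    [NeZero p] (hnot : ¬ W.IsResiduallyModularOfLevel p M')
    (x : JZero (M' * p)) (hx : p • x = 0)
    (hT : ∀ (ℓ : ℕ) (hℓ : ℓ.Prime), W.IsGoodPrimeFor ℓ → ¬ ℓ ∣ M' * p → ℓ ≠ p →
      heckeOperatorBar (M' * p) ⟨ℓ, hℓ⟩ x = W.apOfModel ℓ • x) :
    h67_Jnew M' p x ∧ h52_pushAlpha M' p x = 0 ∧ h52_pushBeta M' p x = 0 := by
  obtain ⟨P₀, hkill, hnd⟩ := h67_hkP0_W W M' p (h83_h75_genus_jbar M') hnot
  exact h45_pnew_W W P₀ (fun z hz => hkill 1 z (by rwa [pow_one])) hnd x hx hT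

/-- **TOP-B, the start dichotomy.** Either `W` is residually modular of level `M'` at `p`, or
there is a non-commutative Hecke polynomial `P₀` in the `T_ℓ` (`ℓ` good for `W`, `ℓ ∤ M'`,
`ℓ ≠ p`) killing the `p`-power torsion of `J₀(M')` with `p ∤ P₀(a_ℓ(W))`, and then every
`a_ℓ(W)`-eigenclass of order `p` at level `M' p` is `p`-new. -/
theorem h45_topB (W : WeierstrassCurve ℤ) (p M' : ℕ) [Fact p.Prime] [NeZero M'] [NeZero p] :
    W.IsResiduallyModularOfLevel p M' ∨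
      ((∃ P₀ : FreeAlgebra ℤ (h67_Good (fun ℓ => W.IsGoodPrimeFor ℓ ∧ ¬ ℓ ∣ M' ∧ ℓ ≠ p)),
        (∀ (k : ℕ) (z : JZero M'), p ^ k • z = 0 →
          h67_evJ M' (fun ℓ => W.IsGoodPrimeFor ℓ ∧ ¬ ℓ ∣ M' ∧ ℓ ≠ p) P₀ z = 0) ∧
        ¬ (p : ℤ) ∣ h67_evZ (fun ℓ => W.IsGoodPrimeFor ℓ ∧ ¬ ℓ ∣ M' ∧ ℓ ≠ p)
          (fun ℓ => W.apOfModel ℓ) P₀) ∧
      ∀ x : JZero (M' * p), p • x = 0 →
        (∀ (ℓ : ℕ) (hℓ : ℓ.Prime), W.IsGoodPrimeFor ℓ → ¬ ℓ ∣ M' * p → ℓ ≠ p →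
          heckeOperatorBar (M' * p) ⟨ℓ, hℓ⟩ x = W.apOfModel ℓ • x) →
        h67_Jnew M' p x ∧ h52_pushAlpha M' p x = 0 ∧ h52_pushBeta M' p x = 0) := by
  by_cases h : W.IsResiduallyModularOfLevel p M'
  · exact Or.inl h
  · exact Or.inr ⟨h67_hkP0_W W M' p (h83_h75_genus_jbar M') h,
      fun x hx hT => h45_pnew_of_not_resmod W h x hx hT⟩

end Fermat.Agent.S40
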