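import Mathlib
import Fermat.Agent.S33.h70_AuxLevel
import Fermat.Agent.S33.h52_Degen

/-!
# S40/S44 (G40), row TOP-C (AUX-UP), part (C2): the level map `J₀(N) → J₀(N c)` (helper55)

`h55_up N c : JZero N →+ JZero (N * c)` is the pull-back of divisor classes along
`heckeAlphaBar Qb N c` (the inclusion of function fields).  Collected here, for the top of S44:

* `h55_up_mk`, `h55_up_div` : on representatives: `[E] ↦ [π^* E]`, and `m E = div u` gives
  `m π^* E = div (π^* u)`;
* `h55_up_inj` : injective on torsion (`c` prime, `c ∤ N`);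
* `h55_up_smul` : Galois-equivariant;
* `h55_hecke_of_galois` : ANY Galois-equivariant additive map `J₀(N) → J₀(N')` commutes with
  `T_ℓ` on `m`-torsion for `ℓ ∤ N m`, `ℓ ∤ N' m` (Eichler–Shimura at both levels);
* `h55_up_hecke` : hence `T_ℓ (π^* x) = π^* (T_ℓ x)` on `m`-torsion, `ℓ ∤ N c m`;
* `h55_up_eigen` : eigenclasses stay eigenclasses;
* `h55_up_new` : `q`-new torsion classes stay `q`-new (levels `M q → M q c`).
-/

set_option autoImplicit false
set_option synthInstance.maxHeartbeats 400000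
set_option linter.style.haveILetI false

noncomputable section

open ModularCurve AlgebraicCurve

namespace Fermat.Agent.S40

open Fermat.Agent.S37 Fermat.Agent.S19 Fermat.Agent.S35 Fermat.Agent.S33

local notation "Qb" => AlgebraicClosure ℚ
local notation "Γℚ" => (AlgebraicClosure ℚ ≃ₐ[ℚ] AlgebraicClosure ℚ)

/-- **Galois-equivariant additive maps between modular Jacobians commute with `T_ℓ` on
torsion** (`ℓ` prime to both levels and to the order): by Eichler–Shimura at both levels
`T_ℓ = σ + ℓ σ⁻¹` on `m`-torsion for a Frobenius element `σ` at `ℓ`. -/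
theorem h55_hecke_of_galois {N N' : ℕ} [NeZero N] [NeZero N'] (φ : JZero N →+ JZero N')
    (hφ : ∀ (σ : Γℚ) (x : JZero N), φ (σ • x) = σ • φ x)
    (m : ℕ) (ℓ : Nat.Primes) (hℓN : ¬ (ℓ : ℕ) ∣ N * m) (hℓN' : ¬ (ℓ : ℕ) ∣ N' * m)
    (x : JZero N) (hx : m • x = 0) :
    heckeOperatorBar N' ℓ (φ x) = φ (heckeOperatorBar N ℓ x) := by
  obtain ⟨A, σ, hA, hσ⟩ := Fermat.Agent.S54.exists_isFrobeniusAt ℓ ℓ.2
  have h1 : heckeOperatorBar N ℓ x = σ • x + (ℓ : ℕ) • σ⁻¹ • x :=
    h52_es N m ℓ ℓ.2 hℓN A hA σ hσ x hx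
  have h2 : heckeOperatorBar N' ℓ (φ x) = σ • φ x + (ℓ : ℕ) • σ⁻¹ • φ x :=
    h52_es N' m ℓ ℓ.2 hℓN' A hA σ hσ (φ x) (by rw [← map_nsmul, hx, map_zero])
  rw [h1, h2, map_add, map_nsmul, hφ, hφ]

section Up

variable (N c : ℕ) [NeZero N] [NeZero c]

/-- **The level map** `π^* : J₀(N) → J₀(N c)`: pull-back of divisor classes along the inclusion
`heckeAlphaBar Qb N c` of function fields. -/
def h55_up : JZero N →+ JZero (N * c) :=
  haveI : HasPrincipalDivisors Qb (modularFunctionFieldBar (N * c)) :=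
    h88_hasPrincipalDivisors (N * c)
  h87_pullPic0 (heckeAlphaBar Qb N c) (h88_alphaIntegral N c) (h60_FI_alpha N c)

/-- the pull-back of degree-zero divisors underlying `h55_up`. -/
def h55_upDiv : Divisor.degZero (K := Qb) (F := modularFunctionFieldBar N) →+
    Divisor.degZero (K := Qb) (F := modularFunctionFieldBar (N * c)) :=
  haveI : HasPrincipalDivisors Qb (modularFunctionFieldBar (N * c)) :=
    h88_hasPrincipalDivisors (N * c)
  h87_pullDegZero (heckeAlphaBar Qb N c) (h88_alphaIntegral N c) (h60_FI_alpha N c)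


theorem h55_up_mk (D : Divisor.degZero (K := Qb) (F := modularFunctionFieldBar N)) :
    h55_up N c (Pic0.mk D) = Pic0.mk (h55_upDiv N c D) :=
  rfl

/-- **Representatives**: if `m E = div u` then `m π^* E = div (π^* u)`. -/
theorem h55_up_div (D : Divisor.degZero (K := Qb) (F := modularFunctionFieldBar N))
    (m : ℤ) (u : modularFunctionFieldBar N)
    (hdiv : ∀ P : Place Qb (modularFunctionFieldBar N),
      m * (D : Divisor Qb (modularFunctionFieldBar N)) P = P.ord u)
    (W : Place Qb (modularFunctionFieldBar (N * c))) :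
    m * (h55_upDiv N c D : Divisor Qb (modularFunctionFieldBar (N * c))) W
      = W.ord (heckeAlphaBar Qb N c u) := by
  have hD' : ∀ P : Place Qb (modularFunctionFieldBar N),
      (m • (D : Divisor Qb (modularFunctionFieldBar N))) P = P.ord u := by
    intro P
    rw [Finsupp.smul_apply, smul_eq_mul]
    exact hdiv P
  haveI : HasPrincipalDivisors Qb (modularFunctionFieldBar (N * c)) :=
    h88_hasPrincipalDivisors (N * c)
  have h2 := h87_pullbackAlong_isDiv (heckeAlphaBar Qb N c) (h88_alphaIntegral N c) hD' W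
  rw [map_zsmul, Finsupp.smul_apply, smul_eq_mul] at h2
  exact h2

/-- **The level map is injective on torsion** (`c` a prime not dividing `N`). -/
theorem h55_up_inj (hc : c.Prime) (hcN : ¬ c ∣ N) (n : ℕ) (hn : 0 < n) (x : JZero N)
    (hx : n • x = 0) (h0 : h55_up N c x = 0) : x = 0 :=
  haveI : HasPrincipalDivisors Qb (modularFunctionFieldBar (N * c)) :=
    h88_hasPrincipalDivisors (N * c)
  h54_lvl_inj N c (h88_alphaIntegral N c) (h60_FI_alpha N c) hc hcN n hn x hx h0

/-- **The level map is Galois-equivariant.** -/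
theorem h55_up_smul (σ : Γℚ) (x : JZero N) : h55_up N c (σ • x) = σ • h55_up N c x :=
  haveI : HasPrincipalDivisors Qb (modularFunctionFieldBar (N * c)) :=
    h88_hasPrincipalDivisors (N * c)
  h54_pull_galois N c (h88_alphaIntegral N c) (h60_FI_alpha N c) σ x

/-- **The level map commutes with `T_ℓ` on `m`-torsion**, `ℓ ∤ N c m`. -/
theorem h55_up_hecke (m : ℕ) (ℓ : Nat.Primes) (hℓ : ¬ (ℓ : ℕ) ∣ N * c * m)
    (x : JZero N) (hx : m • x = 0) :
    heckeOperatorBar (N * c) ℓ (h55_up N c x) = h55_up N c (heckeOperatorBar N ℓ x) := by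
  have hℓN : ¬ (ℓ : ℕ) ∣ N * m := fun h => hℓ (by
    obtain ⟨d, hd⟩ := h
    exact ⟨d * c, by rw [show N * c * m = N * m * c by ring, hd]; ring⟩)
  exact h55_hecke_of_galois (h55_up N c) (h55_up_smul N c) m ℓ hℓN hℓ x hx

/-- **Eigenclasses stay eigenclasses** under the level map (torsion classes, `ℓ ∤ N c m`). -/
theorem h55_up_eigen (m : ℕ) (ℓ : Nat.Primes) (hℓ : ¬ (ℓ : ℕ) ∣ N * c * m)
    (x : JZero N) (hx : m • x = 0) (a : ℤ) (hax : heckeOperatorBar N ℓ x = a • x) :
    heckeOperatorBar (N * c) ℓ (h55_up N c x) = a • h55_up N c x := by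
  rw [h55_up_hecke N c m ℓ hℓ x hx, hax, map_zsmul]

/-- torsion is preserved. -/
theorem h55_up_tors (m : ℕ) (x : JZero N) (hx : m • x = 0) : m • h55_up N c x = 0 := by
  rw [← map_nsmul, hx, map_zero]

end Up

/-- **The level map preserves `q`-new torsion classes** (levels `M q → M q c`, `c` a prime not
dividing `M q`). -/
theorem h55_up_new (M q c : ℕ) [NeZero M] [NeZero q] [NeZero c] (hq : q.Prime)
    (hqM : ¬ q ∣ M) (hc : c.Prime) (hcMq : ¬ c ∣ M * q) (n : ℕ) (hn : 0 < n)
    (x : JZero (M * q)) (hx : n • x = 0) (hnew : h67_Jnew M q x) :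
    h67_JnewAt (M * q * c) q (h55_up (M * q) c x) :=
  haveI : HasPrincipalDivisors Qb (modularFunctionFieldBar (M * q * c)) :=
    h88_hasPrincipalDivisors (M * q * c)
  h29_pullNew M q c hq hqM hc hcMq (h88_alphaIntegral (M * q) c) (h60_FI_alpha (M * q) c)
    n hn x hx hnew

end Fermat.Agent.S40

end
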