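import Mathlib
import Fermat.Agent.S40.h55_AuxUp

/-!
# S40/S44 (G40), row TOP-C (AUX-UP), part (C3): the level map in the `(M * r, p)` indexing
(helper55)

The two-component machinery at the prime `p` (S34 `h60_R1 M₀ p`, the (TR) rows, N-min_c, ...) lives
at levels written `M₀ * p`.  For the auxiliary prime `r` we need the level map

  `h55_auxUp M p r : JZero (M * p) →+ JZero (M * r * p)`        (`M₀ := M * r`)

which is `h55_up (M * p) r` followed by the transport along `M * p * r = M * r * p`.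

* `h55_incl h` (`h : N ∣ N'`) : the inclusion of function fields `F(N) → F(N')` (the identity on
  `q`-expansions); `h55_incl_alpha`: it is `heckeAlphaBar` for `N ∣ N * c`;
* `h55_castAdd h` (`h : N = N'`) : the transport `JZero N ≃+ JZero N'`, compatible with the Galois
  action, the Hecke operators and representatives;
* `h55_auxUp_inj`, `h55_auxUp_smul`, `h55_auxUp_hecke`, `h55_auxUp_eigen`, `h55_auxUp_tors`,
  `h55_auxUp_new` : the properties of `h55_up` in the new indexing;
* `h55_auxUp_rep` : REPRESENTATIVES: if `x = [E]` and `m E = div u` at level `M * p`, then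
  `h55_auxUp x = [E'']` with `m E'' = div (ι u)`, `ι := h55_incl _ : F(M p) → F(M r p)`.
-/

set_option autoImplicit false
set_option synthInstance.maxHeartbeats 400000
set_option linter.style.haveILetI false
set_option linter.unusedSectionVars false

noncomputable section

open ModularCurve AlgebraicCurve

namespace Fermat.Agent.S40

open Fermat.Agent.S37 Fermat.Agent.S19 Fermat.Agent.S35 Fermat.Agent.S33

local notation "Qb" => AlgebraicClosure ℚ
local notation "Γℚ" => (AlgebraicClosure ℚ ≃ₐ[ℚ] AlgebraicClosure ℚ)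

/-! ### The inclusion of function fields -/

/-- `F(N) ≤ F(N')` inside the Laurent series, for `N ∣ N'`. -/
theorem h55_le {N N' : ℕ} [NeZero N] [NeZero N'] (h : N ∣ N') :
    modularFunctionFieldBar N ≤ modularFunctionFieldBar N' := by
  obtain ⟨c, rfl⟩ := h
  haveI : NeZero c := ⟨fun hc => NeZero.ne (N * c) (by rw [hc, mul_zero])⟩
  intro x hx
  have h1 := (heckeAlphaBar Qb N c ⟨x, hx⟩).2
  rwa [coe_heckeAlphaBar] at h1

/-- The inclusion `F(N) → F(N')` of modular function fields for `N ∣ N'` (identity on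
`q`-expansions). -/
def h55_incl {N N' : ℕ} [NeZero N] [NeZero N'] (h : N ∣ N') :
    modularFunctionFieldBar N →ₐ[Qb] modularFunctionFieldBar N' :=
  IntermediateField.inclusion (h55_le h)

@[simp]
theorem h55_coe_incl {N N' : ℕ} [NeZero N] [NeZero N'] (h : N ∣ N')
    (f : modularFunctionFieldBar N) :
    ((h55_incl h f : modularFunctionFieldBar N') : LaurentSeries Qb) = (f : LaurentSeries Qb) :=
  IntermediateField.coe_inclusion _ f

theorem h55_incl_alpha (N c : ℕ) [NeZero N] [NeZero c] :
    h55_incl (dvd_mul_right N c) = heckeAlphaBar Qb N c :=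
  rfl

theorem h55_incl_comp {N N' N'' : ℕ} [NeZero N] [NeZero N'] [NeZero N''] (h : N ∣ N')
    (h' : N' ∣ N'') (f : modularFunctionFieldBar N) :
    h55_incl h' (h55_incl h f) = h55_incl (h.trans h') f :=
  Subtype.ext (by rw [h55_coe_incl, h55_coe_incl, h55_coe_incl])

theorem h55_incl_refl {N : ℕ} [NeZero N] (h : N ∣ N) (f : modularFunctionFieldBar N) :
    h55_incl h f = f :=
  Subtype.ext (h55_coe_incl h f)

/-! ### Transport along an equality of levels -/

/-- Transport of `JZero` along an equality of levels. -/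
def h55_castAdd {N N' : ℕ} [NeZero N] [NeZero N'] (h : N = N') : JZero N ≃+ JZero N' := by
  subst h
  exact AddEquiv.refl (JZero N)

theorem h55_castAdd_smul {N N' : ℕ} [NeZero N] [NeZero N'] (h : N = N') (σ : Γℚ) (x : JZero N) :
    h55_castAdd h (σ • x) = σ • h55_castAdd h x := by
  subst h
  rfl

theorem h55_castAdd_hecke {N N' : ℕ} [NeZero N] [NeZero N'] (h : N = N') (ℓ : Nat.Primes)
    (x : JZero N) :
    heckeOperatorBar N' ℓ (h55_castAdd h x) = h55_castAdd h (heckeOperatorBar N ℓ x) := by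
  subst h
  rfl

/-- representatives under the transport. -/
theorem h55_castAdd_rep {N N' : ℕ} [NeZero N] [NeZero N'] (h : N = N')
    (D : Divisor.degZero (K := Qb) (F := modularFunctionFieldBar N)) (m : ℤ)
    (g : modularFunctionFieldBar N)
    (hd : ∀ W : Place Qb (modularFunctionFieldBar N),
      m * (D : Divisor Qb (modularFunctionFieldBar N)) W = W.ord g) :
    ∃ D' : Divisor.degZero (K := Qb) (F := modularFunctionFieldBar N'),
      h55_castAdd h (Pic0.mk D) = Pic0.mk D' ∧
      ∀ W : Place Qb (modularFunctionFieldBar N'),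
        m * (D' : Divisor Qb (modularFunctionFieldBar N')) W
          = W.ord (h55_incl (dvd_of_eq h) g) := by
  subst h
  refine ⟨D, rfl, fun W => ?_⟩
  rw [h55_incl_refl]
  exact hd W

/-- `q`-newness under the transport. -/
theorem h55_jnew_of_jnewAt {M₀ L q : ℕ} [NeZero M₀] [NeZero q] [NeZero L] (h : L = M₀ * q)
    (x : JZero L) (hx : h67_JnewAt L q x) : h67_Jnew M₀ q (h55_castAdd h x) := by
  subst h
  exact (h67_jnewAt_iff M₀ q x).1 hx

/-! ### The auxiliary level map -/

section AuxUp

variable (M p r : ℕ) [NeZero M] [NeZero p] [NeZero r]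

/-- **The auxiliary level map** `J₀(M p) → J₀((M r) p)`. -/
def h55_auxUp : JZero (M * p) →+ JZero (M * r * p) :=
  (h55_castAdd (Nat.mul_right_comm M p r)).toAddMonoidHom.comp (h55_up (M * p) r)

theorem h55_auxUp_apply (x : JZero (M * p)) :
    h55_auxUp M p r x = h55_castAdd (Nat.mul_right_comm M p r) (h55_up (M * p) r x) :=
  rfl

/-- the inclusion of function fields underlying `h55_auxUp`. -/
def h55_auxIncl : modularFunctionFieldBar (M * p) →ₐ[Qb] modularFunctionFieldBar (M * r * p) :=
  h55_incl (N := M * p) (N' := M * r * p) ⟨r, (Nat.mul_right_comm M p r).symm⟩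

@[simp]
theorem h55_coe_auxIncl (f : modularFunctionFieldBar (M * p)) :
    ((h55_auxIncl M p r f : modularFunctionFieldBar (M * r * p)) : LaurentSeries Qb)
      = (f : LaurentSeries Qb) :=
  h55_coe_incl _ f

/-- **Injective on torsion** (`r` a prime not dividing `M p`). -/
theorem h55_auxUp_inj (hr : r.Prime) (hrMp : ¬ r ∣ M * p) (n : ℕ) (hn : 0 < n)
    (x : JZero (M * p)) (hx : n • x = 0) (h0 : h55_auxUp M p r x = 0) : x = 0 := by
  rw [h55_auxUp_apply] at h0
  have h1 : h55_up (M * p) r x = 0 := by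
    have := congrArg (h55_castAdd (Nat.mul_right_comm M p r)).symm h0
    rwa [AddEquiv.symm_apply_apply, map_zero] at this
  exact h55_up_inj (M * p) r hr hrMp n hn x hx h1

/-- **Galois-equivariant.** -/
theorem h55_auxUp_smul (σ : Γℚ) (x : JZero (M * p)) :
    h55_auxUp M p r (σ • x) = σ • h55_auxUp M p r x := by
  rw [h55_auxUp_apply, h55_auxUp_apply, h55_up_smul, h55_castAdd_smul]

/-- torsion is preserved. -/
theorem h55_auxUp_tors (m : ℕ) (x : JZero (M * p)) (hx : m • x = 0) :
    m • h55_auxUp M p r x = 0 := by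
  rw [← map_nsmul, hx, map_zero]

/-- **Commutes with `T_ℓ` on `m`-torsion**, `ℓ ∤ M p r m`. -/
theorem h55_auxUp_hecke (m : ℕ) (ℓ : Nat.Primes) (hℓ : ¬ (ℓ : ℕ) ∣ M * p * r * m)
    (x : JZero (M * p)) (hx : m • x = 0) :
    heckeOperatorBar (M * r * p) ℓ (h55_auxUp M p r x)
      = h55_auxUp M p r (heckeOperatorBar (M * p) ℓ x) := by
  rw [h55_auxUp_apply, h55_auxUp_apply, h55_castAdd_hecke, h55_up_hecke (M * p) r m ℓ hℓ x hx]

/-- **Eigenclasses stay eigenclasses.** -/
theorem h55_auxUp_eigen (m : ℕ) (ℓ : Nat.Primes) (hℓ : ¬ (ℓ : ℕ) ∣ M * p * r * m)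
    (x : JZero (M * p)) (hx : m • x = 0) (a : ℤ)
    (hax : heckeOperatorBar (M * p) ℓ x = a • x) :
    heckeOperatorBar (M * r * p) ℓ (h55_auxUp M p r x) = a • h55_auxUp M p r x := by
  rw [h55_auxUp_hecke M p r m ℓ hℓ x hx, hax, map_zsmul]

/-- **`p`-new torsion classes stay `p`-new.** -/
theorem h55_auxUp_new (hp : p.Prime) (hpM : ¬ p ∣ M) (hr : r.Prime) (hrMp : ¬ r ∣ M * p)
    (n : ℕ) (hn : 0 < n) (x : JZero (M * p)) (hx : n • x = 0) (hnew : h67_Jnew M p x) :
    h67_Jnew (M * r) p (h55_auxUp M p r x) :=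
  h55_jnew_of_jnewAt (Nat.mul_right_comm M p r) _
    (h55_up_new M p r hp hpM hr hrMp n hn x hx hnew)

/-- **Representatives**: if `x = [E]` and `m E = div u` at level `M p`, then
`h55_auxUp x = [E'']` with `m E'' = div (ι u)` at level `(M r) p`. -/
theorem h55_auxUp_rep (D : Divisor.degZero (K := Qb) (F := modularFunctionFieldBar (M * p)))
    (m : ℤ) (u : modularFunctionFieldBar (M * p))
    (hdiv : ∀ P : Place Qb (modularFunctionFieldBar (M * p)),
      m * (D : Divisor Qb (modularFunctionFieldBar (M * p))) P = P.ord u) :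
    ∃ D'' : Divisor.degZero (K := Qb) (F := modularFunctionFieldBar (M * r * p)),
      h55_auxUp M p r (Pic0.mk D) = Pic0.mk D'' ∧
      ∀ W : Place Qb (modularFunctionFieldBar (M * r * p)),
        m * (D'' : Divisor Qb (modularFunctionFieldBar (M * r * p))) W
          = W.ord (h55_auxIncl M p r u) := by
  obtain ⟨D'', h1, h2⟩ := h55_castAdd_rep (Nat.mul_right_comm M p r) (h55_upDiv (M * p) r D) m
    (heckeAlphaBar Qb (M * p) r u) (h55_up_div (M * p) r D m u hdiv)
  refine ⟨D'', ?_, fun W => ?_⟩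
  · rw [h55_auxUp_apply, h55_up_mk, h1]
  · rw [h2 W, ← h55_incl_alpha, h55_incl_comp]
    rfl

end AuxUp

/-- **TOP-C (AUX-UP), one statement.**  For primes `p ∤ M` and `r ∤ M p` the auxiliary level map
`φ : J₀(M p) → J₀((M r) p)` and the inclusion `ι : F(M p) → F((M r) p)` of function fields
(identity on `q`-expansions) satisfy: `φ` is injective on torsion, Galois-equivariant, commutes
with `T_ℓ` on `m`-torsion (`ℓ ∤ M p r m`), preserves `p`-new torsion classes, and on
representatives `[E] ↦ [E'']` with `m E'' = div (ι u)` whenever `m E = div u`. -/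
theorem h55_aux_package (M p r : ℕ) [NeZero M] [NeZero p] [NeZero r] (hp : p.Prime)
    (hpM : ¬ p ∣ M) (hr : r.Prime) (hrMp : ¬ r ∣ M * p) :
    ∃ (φ : JZero (M * p) →+ JZero (M * r * p))
      (ι : modularFunctionFieldBar (M * p) →ₐ[Qb] modularFunctionFieldBar (M * r * p)),
      (∀ f : modularFunctionFieldBar (M * p),
        ((ι f : modularFunctionFieldBar (M * r * p)) : LaurentSeries Qb)
          = (f : LaurentSeries Qb)) ∧
      (∀ n : ℕ, 0 < n → ∀ x : JZero (M * p), n • x = 0 → φ x = 0 → x = 0) ∧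
      (∀ (σ : Γℚ) (x : JZero (M * p)), φ (σ • x) = σ • φ x) ∧
      (∀ (m : ℕ) (ℓ : Nat.Primes), ¬ (ℓ : ℕ) ∣ M * p * r * m → ∀ x : JZero (M * p), m • x = 0 →
        heckeOperatorBar (M * r * p) ℓ (φ x) = φ (heckeOperatorBar (M * p) ℓ x)) ∧
      (∀ n : ℕ, 0 < n → ∀ x : JZero (M * p), n • x = 0 → h67_Jnew M p x →
        h67_Jnew (M * r) p (φ x)) ∧
      (∀ (D : Divisor.degZero (K := Qb) (F := modularFunctionFieldBar (M * p))) (m : ℤ)
        (u : modularFunctionFieldBar (M * p)),
        (∀ P : Place Qb (modularFunctionFieldBar (M * p)),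
          m * (D : Divisor Qb (modularFunctionFieldBar (M * p))) P = P.ord u) →
        ∃ D'' : Divisor.degZero (K := Qb) (F := modularFunctionFieldBar (M * r * p)),
          φ (Pic0.mk D) = Pic0.mk D'' ∧
          ∀ W : Place Qb (modularFunctionFieldBar (M * r * p)),
            m * (D'' : Divisor Qb (modularFunctionFieldBar (M * r * p))) W = W.ord (ι u)) :=
  ⟨h55_auxUp M p r, h55_auxIncl M p r, h55_coe_auxIncl M p r,
    fun n hn x hx h0 => h55_auxUp_inj M p r hr hrMp n hn x hx h0,
    h55_auxUp_smul M p r,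
    fun m ℓ hℓ x hx => h55_auxUp_hecke M p r m ℓ hℓ x hx,
    fun n hn x hx hnew => h55_auxUp_new M p r hp hpM hr hrMp n hn x hx hnew,
    fun D m u hdiv => h55_auxUp_rep M p r D m u hdiv⟩

end Fermat.Agent.S40

end
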