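import Mathlib
import Fermat.Agent.S40.h55_AuxUpCast
import Fermat.Agent.S40.h42_HeckeA
import Fermat.Agent.S40.h45_PNewTop

/-!
# S40/S44 (G40), TOP glue: the embedded plane at the thin level (helper55)

`[HK-A] + [HK-B] + [TOP-C]` of the assembly plan of `h37_core`, in one statement.

Let `E/ℚ` be an elliptic curve with integral model `W`, `p` an odd prime with `E[p]` irreducible,
`W` residually modular of level `M' p` but NOT of level `M'`, and `r` an auxiliary prime not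
dividing `M' p`.  Then there are Galois-equivariant injections

  `ι  : E[p](ℚ̄) → J₀(M' p)[p]`      and      `ι'' = π^* ∘ ι : E[p](ℚ̄) → J₀((M' r) p)[p]`

into the `a_ℓ(W)`-eigenparts (`ℓ` good for `W`, prime to the level, `ℓ ≠ p`), with `p`-new images
at both levels.
-/

set_option autoImplicit false
set_option synthInstance.maxHeartbeats 400000
set_option linter.style.haveILetI false
set_option linter.unusedSectionVars false

noncomputable section

open WeierstrassCurve WeierstrassCurve.Affine WeierstrassCurve.Affine.Point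
open ModularCurve AlgebraicCurve

namespace Fermat.Agent.S40

open Fermat.Agent.S35 Fermat.Agent.S33

local notation "Qb" => AlgebraicClosure ℚ

/-- **The embedded plane at the thin level** (`[HK-A] + [HK-B] + [TOP-C]`). -/
theorem h55_stage1 (E : WeierstrassCurve ℚ) [E.IsElliptic] {W : WeierstrassCurve ℤ}
    (hW : W.IsIntegralModelOf E) {p M' r : ℕ} [Fact p.Prime] [NeZero p] [NeZero M'] [NeZero r]
    (hp2 : p ≠ 2) (hpM' : ¬ p ∣ M') (hr : r.Prime) (hrMp : ¬ r ∣ M' * p)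
    (hirr : GaloisRepIsIrreducible (K := Qb) ℚ E p)
    (hmod : W.IsResiduallyModularOfLevel p (M' * p))
    (hnot : ¬ W.IsResiduallyModularOfLevel p M') :
    ∃ (ι : Submodule.torsionBy ℤ (E⁄Qb).Point p →+ JZero (M' * p))
      (ι'' : Submodule.torsionBy ℤ (E⁄Qb).Point p →+ JZero (M' * r * p)),
      (∀ P, ι'' P = h55_auxUp M' p r (ι P)) ∧
      Function.Injective ι ∧ Function.Injective ι'' ∧
      (∀ (σ : Qb ≃ₐ[ℚ] Qb) (P : Submodule.torsionBy ℤ (E⁄Qb).Point p), ι (σ • P) = σ • ι P) ∧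
      (∀ (σ : Qb ≃ₐ[ℚ] Qb) (P : Submodule.torsionBy ℤ (E⁄Qb).Point p),
        ι'' (σ • P) = σ • ι'' P) ∧
      (∀ P, p • ι P = 0) ∧ (∀ P, p • ι'' P = 0) ∧
      (∀ (ℓ : ℕ) (hℓ : ℓ.Prime), W.IsGoodPrimeFor ℓ → ¬ ℓ ∣ M' * p → ℓ ≠ p →
        ∀ P, heckeOperatorBar (M' * p) ⟨ℓ, hℓ⟩ (ι P) = W.apOfModel ℓ • ι P) ∧
      (∀ (ℓ : ℕ) (hℓ : ℓ.Prime), W.IsGoodPrimeFor ℓ → ¬ ℓ ∣ M' * r * p → ℓ ≠ p →
        ∀ P, heckeOperatorBar (M' * r * p) ⟨ℓ, hℓ⟩ (ι'' P) = W.apOfModel ℓ • ι'' P) ∧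
      (∀ P, h67_Jnew M' p (ι P)) ∧ (∀ P, h67_Jnew (M' * r) p (ι'' P)) := by
  have hp : p.Prime := Fact.out
  obtain ⟨ι, hinj, hgal, htors, heig⟩ := h42_hecke_embed E hW hp2 hirr hmod
  have hnew : ∀ P, h67_Jnew M' p (ι P) := fun P =>
    (h45_pnew_of_not_resmod W hnot (ι P) (htors P)
      (fun ℓ hℓ hg hM hℓp => heig ℓ hℓ hg hM hℓp P)).1
  refine ⟨ι, (h55_auxUp M' p r).comp ι, fun P => rfl, hinj, ?_, hgal, ?_, htors, ?_, heig, ?_,
    hnew, ?_⟩
  · -- injectivity of the composite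
    intro P Q hPQ
    apply hinj
    have h0 : h55_auxUp M' p r (ι P - ι Q) = 0 := by
      rw [map_sub]
      exact sub_eq_zero.mpr hPQ
    have h1 : p • (ι P - ι Q) = 0 := by rw [nsmul_sub, htors P, htors Q, sub_zero]
    exact sub_eq_zero.mp (h55_auxUp_inj M' p r hr hrMp p hp.pos _ h1 h0)
  · intro σ P
    show h55_auxUp M' p r (ι (σ • P)) = σ • h55_auxUp M' p r (ι P)
    rw [hgal, h55_auxUp_smul]
  · intro P
    exact h55_auxUp_tors M' p r p (ι P) (htors P)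
  · intro ℓ hℓ hg hM hℓp P
    have hM1 : ¬ ℓ ∣ M' * p := fun h => hM (by
      obtain ⟨d, hd⟩ := h
      exact ⟨d * r, by rw [Nat.mul_right_comm, hd]; ring⟩)
    have hM2 : ¬ ((⟨ℓ, hℓ⟩ : Nat.Primes) : ℕ) ∣ M' * p * r * p := by
      intro h
      rcases (Nat.Prime.dvd_mul hℓ).1 h with h' | h'
      · exact hM (by rwa [Nat.mul_right_comm] at h')
      · exact hℓp ((Nat.prime_dvd_prime_iff_eq hℓ hp).1 h')
    exact h55_auxUp_eigen M' p r p ⟨ℓ, hℓ⟩ hM2 (ι P) (htors P) (W.apOfModel ℓ)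
      (heig ℓ hℓ hg hM1 hℓp P)
  · intro P
    exact h55_auxUp_new M' p r hp hpM' hr hrMp p hp.pos (ι P) (htors P) (hnew P)

end Fermat.Agent.S40

end
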