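import Mathlib
import Fermat.Agent.S33.h67_NMinMod

/-!
# S40 / N-min with an eigenvalue, modular wrapper, first half (helper53)

The eigenvalue analogue of `h67_nstar_of_G` (S33, row N-MOD, helper67): at a level `M p`
(`p ∤ M`) and a valuation ring `A` of `ℚ̄` over `p`, a class `z ∈ J₀(M p)` which is toric for the
exponent `p`, `p`-new, and an eigenvector `σ0 • z = e • z` of `σ0` vanishes, PROVIDED

* `hN1` (the deep representative, row (N1) of S33): unchanged;
* `hG` (the generic N-min with eigenvalue, `h85_nmin_c`): for a deep witness `(E₀, u₀)` with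
  `σ0 • E₀ - e • E₀` principal, `E₀` is principal.

`e = 1` is `h67_nstar_of_G`.
-/

set_option autoImplicit false
set_option synthInstance.maxHeartbeats 400000

noncomputable section

open ModularCurve AlgebraicCurve IntermediateField

namespace Fermat.Agent.S40

open Fermat.Agent.S34 Fermat.Agent.S18 Fermat.Agent.S37 Fermat.Agent.S24 Fermat.Agent.S27
open Fermat.Agent.S35 Fermat.Agent.S33

local notation "Qb" => AlgebraicClosure ℚ

section Generic

variable {K F : Type*} [Field K] [Field F] [Algebra K F]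

/-- an eigenclass of `g` with eigenvalue `e`: `g • E - e • E` is principal for every
representative `E` -/
theorem h53_fix_principal_c (g : SemilinearAut K F) (E : Divisor.degZero (K := K) (F := F))
    (e : ℕ) (h : g • Pic0.mk E = e • Pic0.mk E) :
    g • (E : Divisor K F) - (e : ℤ) • (E : Divisor K F)
      ∈ Divisor.principal (K := K) (F := F) := by
  rw [SemilinearAut.pic0_smul_mk] at h
  have he : e • Pic0.mk E = Pic0.mk (e • E) := rfl
  rw [he] at h
  have h1 := (QuotientAddGroup.eq).mp h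
  rw [AddSubgroup.mem_addSubgroupOf] at h1
  have h2 := (Divisor.principal (K := K) (F := F)).neg_mem h1
  have hcoe : -((-(SemilinearAut.degZeroSMulHom g E) + e • E :
      Divisor.degZero (K := K) (F := F)) : Divisor K F)
        = g • (E : Divisor K F) - (e : ℤ) • (E : Divisor K F) := by
    simp only [AddSubgroup.coe_add, NegMemClass.coe_neg, SemilinearAut.coe_degZeroSMulHom,
      AddSubgroup.coe_nsmul, natCast_zsmul]
    abel
  rw [hcoe] at h2
  exact h2

end Generic

section Mod

variable (M p : ℕ) [NeZero M] [NeZero p] [Fact p.Prime] (hpM : ¬ p ∣ M)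
  (A : ValuationSubring Qb) (hA : A.LiesOverPrime p)

set_option maxHeartbeats 1600000 in
/-- **N-MOD with an eigenvalue, first half**: the vanishing of toric, new classes of exponent `p`
which are eigenvectors `σ0 • z = e • z`, from the deep representative `hN1` and the generic
N-min with eigenvalue `hG` on deep witnesses. -/
theorem h53_nstar_of_G_c (ζ : Qb) (hζ : IsPrimitiveRoot ζ p) (σ0 : Qb ≃ₐ[ℚ] Qb) (e : ℕ)
    (hN1 : ∀ (E : Divisor Qb ↥(modularFunctionFieldBar (M * p)))
        (u : ↥(modularFunctionFieldBar (M * p))), u ≠ 0 → h67_DivNew M p E →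
        (∀ v : Place Qb ↥(modularFunctionFieldBar (M * p)), (p : ℤ) * E v = v.ord u) →
        ∀ hu : u ∈ (h87_D M p hpM A hA).O, (h87_D M p hpM A hA).red ⟨u, hu⟩ = 1 →
        ∀ c : Qb, c ≠ 0 → c ∈ A →
        ∃ g : ↥(modularFunctionFieldBar (M * p)), ∃ hg : g ∈ (h87_D M p hpM A hA).O,
          (h87_D M p hpM A hA).red ⟨g, hg⟩ = 1 ∧
          ∃ w ∈ (h87_D M p hpM A hA).O,
            u - g ^ p = algebraMap Qb ↥(modularFunctionFieldBar (M * p)) c * w)
    (hG : ∀ (E₀ : Divisor Qb ↥(modularFunctionFieldBar (M * p)))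
        (u₀ : ↥(modularFunctionFieldBar (M * p))), Divisor.degree E₀ = 0 → u₀ ≠ 0 →
        (∀ v : Place Qb ↥(modularFunctionFieldBar (M * p)), (p : ℤ) * E₀ v = v.ord u₀) →
        (∃ h : (h87_D M p hpM A hA).O, (h87_D M p hpM A hA).red h = 0 ∧
          u₀ - 1 = algebraMap Qb ↥(modularFunctionFieldBar (M * p)) ((ζ - 1) ^ p) *
            (h : ↥(modularFunctionFieldBar (M * p)))) →
        arithmeticGalois (modularFunctionFieldFull (M * p)) σ0 • E₀ - (e : ℤ) • E₀
          ∈ Divisor.principal (K := Qb) (F := ↥(modularFunctionFieldBar (M * p))) →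
        E₀ ∈ Divisor.principal (K := Qb) (F := ↥(modularFunctionFieldBar (M * p))))
    (z : JZero (M * p)) (htor : h29_Toric M p hpM A hA p z) (hnew : h67_Jnew M p z)
    (hfix : σ0 • z = e • z) : z = 0 := by
  have hp : p.Prime := Fact.out
  have : IsAlgClosed (IsLocalRing.ResidueField A) := h19_residueField_isAlgClosed A
  have : CharP (IsLocalRing.ResidueField A) p := h19_residueField_charP A p hA
  have : HasPrincipalDivisors Qb ↥(modularFunctionFieldBar (M * p)) :=
    h88_hasPrincipalDivisors (M * p)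
  obtain ⟨E, u, hu, hEz, hdiv, hred⟩ := (h60_toric_iff M p hpM A hA p z).mp htor
  obtain ⟨h1, hr1⟩ := hred 0
  obtain ⟨h2, hr2⟩ := hred 1
  have huO : u ∈ (h87_D M p hpM A hA).O := (h87_D_mem M p hpM A hA).mpr ⟨h1, h2⟩
  have e1 : (h60_R1 M p hpM A hA).redF u = 1 :=
    ((h60_R1 M p hpM A hA).redF_of_mem h1).trans hr1
  have e2 : (h60_R2 M p hpM A hA).redF u = 1 :=
    ((h60_R2 M p hpM A hA).redF_of_mem h2).trans hr2
  have hured : (h87_D M p hpM A hA).red ⟨u, huO⟩ = 1 := by
    rw [← (h87_D M p hpM A hA).redF_of_mem huO, h87_D_redF M p hpM A hA h1 h2, e1, e2]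
    rfl
  -- newness of the toric representative
  obtain ⟨D', hD'z, hD'new⟩ := hnew
  have hEnew : h67_DivNew M p (E : Divisor Qb ↥(modularFunctionFieldBar (M * p))) := by
    refine h67_divNew_congr M p ?_ hD'new
    have h3 : Pic0.mk E = Pic0.mk D' := hEz.trans hD'z.symm
    have h4 := (QuotientAddGroup.eq).mp h3
    rw [AddSubgroup.mem_addSubgroupOf] at h4
    have h5 := (Divisor.principal (K := Qb)
      (F := ↥(modularFunctionFieldBar (M * p)))).neg_mem h4
    have hcoe : -((-E + D' : Divisor.degZero (K := Qb)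
        (F := ↥(modularFunctionFieldBar (M * p)))) :
          Divisor Qb ↥(modularFunctionFieldBar (M * p)))
        = (E : Divisor Qb ↥(modularFunctionFieldBar (M * p))) - D' := by
      simp only [AddSubgroup.coe_add, NegMemClass.coe_neg]
      abel
    rw [hcoe] at h5
    exact h5
  -- the depth
  have hζ1 : ζ - 1 ≠ 0 := sub_ne_zero.mpr (hζ.ne_one hp.one_lt)
  have hlamA : ζ - 1 ∈ (h87_D M p hpM A hA).A :=
    h15_zeta_sub_one_mem (h87_D M p hpM A hA) p hζ
  have hlam_nu : ζ - 1 ∈ (h87_D M p hpM A hA).A.nonunits := by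
    have h0 := h15_res_zeta_sub_one (h87_D M p hpM A hA) p hζ
    exact (h22_resK_eq_zero_iff (h87_D M p hpM A hA) hlamA).mp
      (((h87_D M p hpM A hA).resK_of_mem hlamA).trans h0)
  obtain ⟨g, hgO, hgred, w, hwO, hw⟩ := hN1 E u hu hEnew hdiv huO hured ((ζ - 1) ^ (p + 1))
    (pow_ne_zero _ hζ1) (A.pow_mem hlamA _)
  have hg0 : g ≠ 0 := by
    rintro rfl
    have h0 : (h87_D M p hpM A hA).red ⟨0, hgO⟩ = 0 := map_zero _
    rw [hgred] at h0
    exact one_ne_zero h0
  have hginv : g⁻¹ ∈ (h87_D M p hpM A hA).O :=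
    h87_D_hinv M p hpM A hA g hgO (by rw [hgred]; exact isUnit_one)
  -- the corrected witness
  obtain ⟨E₀, hE₀E, hdiv₀⟩ := h67_correct_witness p E u g hu hg0 hdiv
  have hE₀z : Pic0.mk E₀ = z := hE₀E.trans hEz
  have hu₀0 : u * (g⁻¹) ^ p ≠ 0 := mul_ne_zero hu (pow_ne_zero _ (inv_ne_zero hg0))
  have hdeep : ∃ h : (h87_D M p hpM A hA).O, (h87_D M p hpM A hA).red h = 0 ∧
      u * (g⁻¹) ^ p - 1 = algebraMap Qb ↥(modularFunctionFieldBar (M * p)) ((ζ - 1) ^ p) *
        (h : ↥(modularFunctionFieldBar (M * p))) := by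
    have hmem : w * (g⁻¹) ^ p ∈ (h87_D M p hpM A hA).O :=
      (h87_D M p hpM A hA).O.mul_mem hwO ((h87_D M p hpM A hA).O.pow_mem hginv _)
    have hmem' : algebraMap Qb ↥(modularFunctionFieldBar (M * p)) (ζ - 1) * (w * (g⁻¹) ^ p)
        ∈ (h87_D M p hpM A hA).O :=
      (h87_D M p hpM A hA).O.mul_mem (((h87_D M p hpM A hA).mem_iff _).mp hlamA) hmem
    refine ⟨⟨_, hmem'⟩, ?_, ?_⟩
    · rw [← (h87_D M p hpM A hA).redF_of_mem hmem']
      exact h22_redF_smul_nonunit (h87_D M p hpM A hA) hlam_nu hmem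
    · have h3 : u * (g⁻¹) ^ p - 1 = (u - g ^ p) * (g⁻¹) ^ p := by
        rw [sub_mul, ← mul_pow, mul_inv_cancel₀ hg0, one_pow]
      rw [h3, hw, pow_succ, map_mul]
      ring
  -- the eigenclass
  have hfix' : arithmeticGalois (modularFunctionFieldFull (M * p)) σ0 •
      (E₀ : Divisor Qb ↥(modularFunctionFieldBar (M * p))) -
        (e : ℤ) • (E₀ : Divisor Qb ↥(modularFunctionFieldBar (M * p)))
        ∈ Divisor.principal (K := Qb) (F := ↥(modularFunctionFieldBar (M * p))) := by
    refine h53_fix_principal_c _ E₀ e ?_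
    rw [hE₀z, ← galois_smul_pic0_def]
    exact hfix
  have hprin := hG _ _ E₀.2 hu₀0 hdiv₀ hdeep hfix'
  rw [← hE₀z]
  exact h67_mk_eq_zero_of_principal E₀ hprin

end Mod

end Fermat.Agent.S40

end
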