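import Mathlib
import Fermat.Agent.S33.h22_KumCover

/-!
# S40 / N-min with an eigenvalue, row K5c: Kummer lifts with an exponent

`F' = F[X]/(X^p - u)` the Kummer cover of `h22_KumCover`.  A semilinear automorphism `σ` of `F/K`
with `σ u = h^p u^e`, `p ∤ e`, lifts to `F'` with `θ ↦ h θ^e` (`h85_kumLiftC`), and the packaged
existence statement `h85_kum_cover_exists_c` is `h22_kum_cover_exists` with this more general
lift as its last clause.
-/

set_option autoImplicit false

noncomputable section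

open Polynomial AlgebraicCurve IntermediateField

namespace Fermat.Agent.S40

open Fermat.Agent.S18 Fermat.Agent.S33

section Lift

variable {K F : Type*} [Field K] [Field F] [Algebra K F]

/-- The ring endomorphism of the Kummer extension lifting `τ` with `θ ↦ h θ^e`
(`τ u = h^p u^e`). -/
def h85_kumLiftHomC (p : ℕ) (u : F) (τ : F ≃+* F) (h : F) (e : ℕ) (hτ : τ u = h ^ p * u ^ e) :
    h22_KumF p u →+* h22_KumF p u :=
  AdjoinRoot.lift ((algebraMap F (h22_KumF p u)).comp (τ : F →+* F))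
    (algebraMap F (h22_KumF p u) h * h22_kumTheta p u ^ e) (by
      rw [eval₂_sub, eval₂_X_pow, eval₂_C, mul_pow, ← pow_mul, mul_comm e p, pow_mul,
        h22_kumTheta_pow, RingHom.comp_apply, RingEquiv.coe_toRingHom, hτ, ← map_pow, ← map_pow,
        ← map_mul]
      exact sub_self _)

theorem h85_kumLiftHomC_algebraMap (p : ℕ) (u : F) (τ : F ≃+* F) (h : F) (e : ℕ)
    (hτ : τ u = h ^ p * u ^ e) (a : F) :
    h85_kumLiftHomC p u τ h e hτ (algebraMap F (h22_KumF p u) a) =
      algebraMap F (h22_KumF p u) (τ a) := by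
  have h1 : algebraMap F (h22_KumF p u) a = AdjoinRoot.of (X ^ p - C u : F[X]) a := rfl
  rw [h1]
  unfold h85_kumLiftHomC
  rw [AdjoinRoot.lift_of]
  rfl

theorem h85_kumLiftHomC_theta (p : ℕ) (u : F) (τ : F ≃+* F) (h : F) (e : ℕ)
    (hτ : τ u = h ^ p * u ^ e) :
    h85_kumLiftHomC p u τ h e hτ (h22_kumTheta p u) =
      algebraMap F (h22_KumF p u) h * h22_kumTheta p u ^ e :=
  AdjoinRoot.lift_root _

theorem h85_kumLiftHomC_bijective {p : ℕ} (hp : p.Prime) (u : F) (hu : u ≠ 0)
    [Fact (Irreducible (X ^ p - C u : F[X]))]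
    (τ : F ≃+* F) (h : F) (hh : h ≠ 0) (e : ℕ) (he : ¬ p ∣ e) (hτ : τ u = h ^ p * u ^ e) :
    Function.Bijective (h85_kumLiftHomC p u τ h e hτ) := by
  refine ⟨RingHom.injective _, ?_⟩
  have hof : ∀ a : F, algebraMap F (h22_KumF p u) a ∈ (h85_kumLiftHomC p u τ h e hτ).range := by
    intro a
    exact ⟨algebraMap F (h22_KumF p u) (τ.symm a), by
      rw [h85_kumLiftHomC_algebraMap, RingEquiv.apply_symm_apply]⟩
  have hθe : h22_kumTheta p u ^ e ∈ (h85_kumLiftHomC p u τ h e hτ).range := by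
    have h1 : algebraMap F (h22_KumF p u) h * h22_kumTheta p u ^ e ∈
        (h85_kumLiftHomC p u τ h e hτ).range := ⟨_, h85_kumLiftHomC_theta p u τ h e hτ⟩
    have h2 := mul_mem (hof h⁻¹) h1
    rwa [← mul_assoc, ← map_mul, inv_mul_cancel₀ hh, map_one, one_mul] at h2
  -- `e e' = 1 + m p`
  have hcop : Nat.Coprime e p := (Nat.Coprime.symm ((Nat.Prime.coprime_iff_not_dvd hp).mpr he))
  obtain ⟨e', -, he'⟩ := Nat.exists_mul_mod_eq_one_of_coprime hcop hp.one_lt
  obtain ⟨m, hdiv⟩ : ∃ m : ℕ, e * e' = p * m + 1 := by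
    refine ⟨e * e' / p, ?_⟩
    have := Nat.div_add_mod (e * e') p
    omega
  have hθ : h22_kumTheta p u ∈ (h85_kumLiftHomC p u τ h e hτ).range := by
    have h1 : (h22_kumTheta p u ^ e) ^ e' ∈ (h85_kumLiftHomC p u τ h e hτ).range :=
      pow_mem hθe e'
    have h2 : (h22_kumTheta p u ^ e) ^ e' =
        algebraMap F (h22_KumF p u) (u ^ m) * h22_kumTheta p u := by
      rw [← pow_mul, hdiv, pow_succ, pow_mul, h22_kumTheta_pow, map_pow]
    rw [h2] at h1
    have h3 := mul_mem (hof (u ^ m)⁻¹) h1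
    rwa [← mul_assoc, ← map_mul, inv_mul_cancel₀ (pow_ne_zero _ hu), map_one, one_mul] at h3
  intro y
  induction y using AdjoinRoot.induction_on with
  | ih q =>
    show AdjoinRoot.mk _ q ∈ (h85_kumLiftHomC p u τ h e hτ).range
    induction q using Polynomial.induction_on with
    | C a =>
      rw [AdjoinRoot.mk_C, ← AdjoinRoot.algebraMap_eq]
      exact hof a
    | add q r hq hr =>
      rw [map_add]
      exact add_mem hq hr
    | monomial n a ih =>
      rw [pow_succ, ← mul_assoc, map_mul, AdjoinRoot.mk_X]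
      exact mul_mem ih hθ

/-- **The semilinear lift with an exponent**: a semilinear automorphism `σ` of `F/K` with
`σ u = h^p u^e`, `p ∤ e`, lifts to the Kummer extension, with `θ ↦ h θ^e`. -/
def h85_kumLiftC {p : ℕ} (hp : p.Prime) (u : F) (hu : u ≠ 0)
    [Fact (Irreducible (X ^ p - C u : F[X]))]
    (σ : SemilinearAut K F) (h : F) (hh : h ≠ 0) (e : ℕ) (he : ¬ p ∣ e)
    (hσ : σ • u = h ^ p * u ^ e) :
    SemilinearAut K (h22_KumF p u) :=
  ⟨(RingEquiv.ofBijective (h85_kumLiftHomC p u (SemilinearAut.toRingAut σ) h e hσ)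
      (h85_kumLiftHomC_bijective hp u hu _ h hh e he hσ), SemilinearAut.baseAut σ), fun a => by
    show h85_kumLiftHomC p u (SemilinearAut.toRingAut σ) h e hσ
        (algebraMap K (h22_KumF p u) a) =
      algebraMap K (h22_KumF p u) (SemilinearAut.baseAut σ a)
    rw [IsScalarTower.algebraMap_apply K F (h22_KumF p u), h85_kumLiftHomC_algebraMap,
      SemilinearAut.commutes, ← IsScalarTower.algebraMap_apply]⟩

theorem h85_kumLiftC_algebraMap {p : ℕ} (hp : p.Prime) (u : F) (hu : u ≠ 0)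
    [Fact (Irreducible (X ^ p - C u : F[X]))]
    (σ : SemilinearAut K F) (h : F) (hh : h ≠ 0) (e : ℕ) (he : ¬ p ∣ e)
    (hσ : σ • u = h ^ p * u ^ e) (f : F) :
    h85_kumLiftC hp u hu σ h hh e he hσ • algebraMap F (h22_KumF p u) f =
      algebraMap F (h22_KumF p u) (σ • f) :=
  h85_kumLiftHomC_algebraMap p u _ h e hσ f

theorem h85_kumLiftC_theta {p : ℕ} (hp : p.Prime) (u : F) (hu : u ≠ 0)
    [Fact (Irreducible (X ^ p - C u : F[X]))]
    (σ : SemilinearAut K F) (h : F) (hh : h ≠ 0) (e : ℕ) (he : ¬ p ∣ e)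
    (hσ : σ • u = h ^ p * u ^ e) :
    h85_kumLiftC hp u hu σ h hh e he hσ • h22_kumTheta p u =
      algebraMap F (h22_KumF p u) h * h22_kumTheta p u ^ e :=
  h85_kumLiftHomC_theta p u _ h e hσ

theorem h85_kumLiftC_baseAut {p : ℕ} (hp : p.Prime) (u : F) (hu : u ≠ 0)
    [Fact (Irreducible (X ^ p - C u : F[X]))]
    (σ : SemilinearAut K F) (h : F) (hh : h ≠ 0) (e : ℕ) (he : ¬ p ∣ e)
    (hσ : σ • u = h ^ p * u ^ e) :
    SemilinearAut.baseAut (h85_kumLiftC hp u hu σ h hh e he hσ) = SemilinearAut.baseAut σ := rfl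

end Lift

/-! ### The packaged existence statement, with lifts `θ ↦ h θ^e` -/

section Package

universe uK uF

variable {K : Type uK} {F : Type uF} [Field K] [Field F] [Algebra K F]

/-- **KUM-FF with exponents** = `h22_kum_cover_exists`, with the last clause generalised to
lifts of semilinear automorphisms `σ` with `σ u = h^p u^e`, `p ∤ e`: `σ' θ = h θ^e`. -/
theorem h85_kum_cover_exists_c [IsAlgClosed K] [CharZero K] {x : F} (hx : h75_IsChart K x)
    {p : ℕ} (hp : p.Prime) (ζ : K) (hζ : ζ ^ p = 1) (u : F) (hu : u ≠ 0) (E : Divisor K F)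
    (hdiv : ∀ v : Place K F, (p : ℤ) * E v = v.ord u)
    (hE : E ∉ Divisor.principal (K := K) (F := F)) :
    ∃ (F' : Type uF) (_ : Field F') (_ : Algebra F F') (_ : Algebra K F')
      (_ : IsScalarTower K F F') (_ : FiniteDimensional F F') (_ : Algebra.IsIntegral F F')
      (_ : HasPrincipalDivisors K F') (θ : F'),
      h75_IsChart K (algebraMap F F' x) ∧ Module.finrank F F' = p ∧
      θ ^ p = algebraMap F F' u ∧
      LinearIndependent F (fun j : Fin p => θ ^ (j : ℕ)) ∧
      (∀ f : F', ∃ c : Fin p → F, f = ∑ j, algebraMap F F' (c j) * θ ^ (j : ℕ)) ∧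
      (∀ (a : ℕ) (w : Place K F'), w.ord (θ ^ a) = Divisor.pullback F' (a • E) w) ∧
      (∃ g : F' ≃ₐ[F] F', g θ = algebraMap K F' ζ * θ) ∧
      (∀ (σ : SemilinearAut K F) (h : F) (e : ℕ), h ≠ 0 → ¬ p ∣ e → σ • u = h ^ p * u ^ e →
        ∃ σ' : SemilinearAut K F',
          (∀ f : F, σ' • algebraMap F F' f = algebraMap F F' (σ • f)) ∧
          σ' • θ = algebraMap F F' h * θ ^ e ∧
          SemilinearAut.baseAut σ' = SemilinearAut.baseAut σ) := by
  have hirr : Irreducible (X ^ p - C u : F[X]) :=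
    h22_kum_irreducible hp (h22_not_pow_of_not_principal hp.ne_zero hu E hdiv hE)
  have : Fact (Irreducible (X ^ p - C u : F[X])) := ⟨hirr⟩
  have hfin : FiniteDimensional F (h22_KumF p u) := h22_kum_finite hp.pos u
  have hint : Algebra.IsIntegral F (h22_KumF p u) := h22_kum_isIntegral hp.pos u
  have hPD : HasPrincipalDivisors K (h22_KumF p u) :=
    h22_kum_hasPrincipalDivisors hx hp.pos u
  refine ⟨h22_KumF p u, inferInstance, inferInstance, inferInstance, inferInstance, hfin, hint,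
    hPD, h22_kumTheta p u, h22_kum_isChart hx hp.pos u, h22_kum_finrank hp.pos u,
    h22_kumTheta_pow p u, h22_kum_li hp.pos u, h22_kum_span hp.pos u, ?_, ?_, ?_⟩
  · intro a w
    exact h22_ord_kummer hp.ne_zero (h22_kumTheta_pow p u) E hdiv a w
  · exact ⟨h22_kumGen hp.pos u ζ hζ, h22_kumGen_theta hp.pos u ζ hζ⟩
  · intro σ h e hh he hσ
    exact ⟨h85_kumLiftC hp u hu σ h hh e he hσ, h85_kumLiftC_algebraMap hp u hu σ h hh e he hσ,
      h85_kumLiftC_theta hp u hu σ h hh e he hσ, h85_kumLiftC_baseAut hp u hu σ h hh e he hσ⟩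

end Package

end Fermat.Agent.S40
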