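import Mathlib
import Fermat.Agent.S33.h15_ASSheet
import Fermat.Agent.S33.h35_PullEquiv

/-!
# S40 / N-min with an eigenvalue, row (T)c: sheet action of a lift `θ ↦ H θ^e`

`S := h15_asInst ..` the Artin–Schreier model of `F' = F(θ)`, `θ^p = 1 + (ζ-1)^p h`, `red h = 0`.
A lift `ψ` of an endomorphism `σ` of `F` (preserving `O`, commuting with `red`, `σ ζ = ζ^c`,
`p ∤ c`) with `ψ θ = θ^e H`, `H ∈ F`, permutes the sheets of each component by an affine map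
`s`, `c · r (s a) = e · r a + β`.  This is `h15_asInst_sheet_perm*` / `h15_tau_stab_of_lift`
(the case `e = 1`) with an exponent; the proofs follow helper15's line by line, the only new
computation being `[c]_ζ ψ(y) = y (1 + θ + .. + θ^(e-1)) + θ^e w`.
-/

set_option autoImplicit false

noncomputable section

open Polynomial Module AlgebraicCurve

namespace Fermat.Agent.S40

open Fermat.Agent.S34 Fermat.Agent.S33

variable {K F k Rb : Type*} [Field K] [Field F] [Algebra K F] [Field k] [CommRing Rb]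
  [Algebra k Rb]

section inst

variable (D : h22_Lat K F k Rb) (p : ℕ) [hp : Fact p.Prime] [CharP k p]
  {ζ : K} (hζ : IsPrimitiveRoot ζ p)
  {F' : Type*} [Field F'] [Algebra F F'] [Algebra K F'] [IsScalarTower K F F']

include hζ in
/-- `ψ θ = θ^e (1 + (ζ-1) w)` and `σ ζ = ζ^a0` give
`[a0]_ζ ψ y = y (1 + θ + .. + θ^(e-1)) + θ^e w`. -/
theorem h85_asGen_semilinear_c (θ : F') (ψ : F' →+* F') (σ : F →+* F)
    (hψ : ∀ x, ψ (algebraMap F F' x) = algebraMap F F' (σ x)) (a0 : ℕ)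
    (hσζ : σ (algebraMap K F ζ) = algebraMap K F (ζ ^ a0)) (e : ℕ)
    (w : F) (hψθ : ψ θ = θ ^ e * algebraMap F F' (1 + algebraMap K F (ζ - 1) * w)) :
    algebraMap K F' (h15_qint ζ a0) * ψ (h15_asGen (F := F) ζ θ) =
      h15_asGen (F := F) ζ θ * (∑ i ∈ Finset.range e, θ ^ i) +
        θ ^ e * algebraMap F F' w := by
  have hne : algebraMap K F' (ζ - 1) ≠ 0 := by
    rw [Ne, map_eq_zero]
    exact sub_ne_zero.mpr (hζ.ne_one hp.out.one_lt)
  apply mul_left_cancel₀ hne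
  have h0 : ψ (algebraMap K F' (ζ - 1)) = algebraMap K F' ((ζ - 1) * h15_qint ζ a0) := by
    have hA : algebraMap K F' (ζ - 1) = algebraMap F F' (algebraMap K F ζ - 1) := by
      rw [IsScalarTower.algebraMap_apply K F F', map_sub, map_one]
    rw [hA, hψ, map_sub σ, map_one σ, hσζ, h15_qint_mul, IsScalarTower.algebraMap_apply K F F',
      map_sub (algebraMap K F), map_one]
  have h1 : algebraMap K F' (ζ - 1) * (algebraMap K F' (h15_qint ζ a0) *
      ψ (h15_asGen (F := F) ζ θ)) =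
      θ ^ e * algebraMap F F' (1 + algebraMap K F (ζ - 1) * w) - 1 := by
    rw [← mul_assoc, ← map_mul, ← h0, ← map_mul, h15_asGen_mul p hζ θ, map_sub, map_one, hψθ]
  have h2 := h15_asGen_mul (F := F) p hζ θ
  have h3 : (θ - 1) * ∑ i ∈ Finset.range e, θ ^ i = θ ^ e - 1 := mul_geom_sum θ e
  rw [h1, map_add, map_one, map_mul, ← IsScalarTower.algebraMap_apply K F F']
  linear_combination (-(∑ i ∈ Finset.range e, θ ^ i)) * h2 - h3

variable (h : D.O) (hred : D.red h = 0) (θ : F')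
  (hθ : θ ^ p - 1 = algebraMap K F' ((ζ - 1) ^ p) * algebraMap F F' (h : F))
  (hli : LinearIndependent F (fun j : Fin p => θ ^ (j : ℕ)))
  (hspan : ∀ f : F', ∃ c : Fin p → F, f = ∑ j, algebraMap F F' (c j) * θ ^ (j : ℕ))

/-- **(T)c a semilinear lift `θ ↦ θ^e (1 + (ζ-1) w)` acts on the sheets by an affine map of
`𝔽_p`** (hypothesis form: `w ∈ O` whose reduction is `b ∈ 𝔽_p` in the quotient `q`):
`a0 · a' = e · a + b`. -/
theorem h85_asInst_semilinear_c (ψ : F' →+* F') (σ : F →+* F)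
    (hψ : ∀ x, ψ (algebraMap F F' x) = algebraMap F F' (σ x))
    (hσO : ∀ x ∈ D.O, σ x ∈ D.O) (a0 : ℕ) (ha0 : ¬ p ∣ a0)
    (hσζ : σ (algebraMap K F ζ) = algebraMap K F (ζ ^ a0)) (e : ℕ)
    (w : D.O) (hψθ : ψ θ = θ ^ e * algebraMap F F' (1 + algebraMap K F (ζ - 1) * (w : F)))
    {L : Type*} [CommRing L] (q : Rb →+* L)
    (hredσ : ∀ x (hx : x ∈ D.O), q (D.red ⟨σ x, hσO x hx⟩) = q (D.red ⟨x, hx⟩))
    (b : Fin p) (hb : q (D.red w) = q (algebraMap k Rb (((b : ℕ) : k))))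
    (a a' : Fin p)
    (haa' : (((a' : ℕ) : k)) * (a0 : k) = (e : k) * ((a : ℕ) : k) + ((b : ℕ) : k))
    {f : F'} (hf : f ∈ (h15_asInst D p hζ h hred θ hθ hli hspan).lat.O) :
    ∃ hm : ψ f ∈ (h15_asInst D p hζ h hred θ hθ hli hspan).lat.O,
      q ((h15_asInst D p hζ h hred θ hθ hli hspan).lat.red ⟨ψ f, hm⟩ a) =
        q ((h15_asInst D p hζ h hred θ hθ hli hspan).lat.red ⟨f, hf⟩ a') := by
  set S := h15_asInst D p hζ h hred θ hθ hli hspan with hS
  -- the unit `[a0]_ζ`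
  have ha0k : ((a0 : ℕ) : k) ≠ 0 := by
    rw [Ne, CharP.cast_eq_zero_iff k p]
    exact ha0
  have hεA : h15_qint ζ a0 ∈ D.A := by
    rw [← h15_qA_coe D p hζ a0]
    exact (h15_qA D p hζ a0).2
  have hεres : D.res ⟨h15_qint ζ a0, hεA⟩ = (a0 : k) := by
    rw [← h15_res_qA D p hζ a0]
    congr 1
    exact Subtype.ext (h15_qA_coe D p hζ a0).symm
  have hεnn : h15_qint ζ a0 ∉ D.A.nonunits := by
    intro hn
    have := (h22_res_eq_zero_iff D ⟨_, hεA⟩).mpr hn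
    rw [hεres] at this
    exact ha0k this
  have hε0 : h15_qint ζ a0 ≠ 0 := by
    intro h0
    apply ha0k
    rw [← hεres]
    have : (⟨h15_qint ζ a0, hεA⟩ : D.A) = 0 := Subtype.ext h0
    rw [this, map_zero]
  have heA : (h15_qint ζ a0)⁻¹ ∈ D.A := by
    by_contra hc
    exact hεnn (h15_nonunit_of_inv_not_mem D.A hc)
  have heres : D.res ⟨(h15_qint ζ a0)⁻¹, heA⟩ = ((a0 : ℕ) : k)⁻¹ := by
    have h1 : (⟨(h15_qint ζ a0)⁻¹, heA⟩ : D.A) * ⟨h15_qint ζ a0, hεA⟩ = 1 :=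
      Subtype.ext (inv_mul_cancel₀ hε0)
    have h2 := congrArg D.res h1
    rw [map_mul, map_one, hεres] at h2
    exact eq_inv_of_mul_eq_one_left h2
  -- membership
  have heO : algebraMap K F' (h15_qint ζ a0)⁻¹ ∈ S.lat.O := (S.algebraMap_K_mem_O'_iff _).mpr heA
  have hyO : S.y ∈ S.lat.O := S.y_mem
  have hwO : algebraMap F F' (w : F) ∈ S.lat.O := (S.algebraMap_mem_O'_iff _).mpr w.2
  have hθO : θ ∈ S.lat.O := h15_asInst_theta_mem D p hζ h hred θ hθ hli hspan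
  have hθred : S.lat.red ⟨θ, hθO⟩ = 1 := h15_asInst_red_theta D p hζ h hred θ hθ hli hspan hθO
  -- the geometric sum, as an element of `O'`
  obtain ⟨G, hG, hGred⟩ : ∃ G : S.lat.O, (G : F') = ∑ i ∈ Finset.range e, θ ^ i ∧
      S.lat.red G = (e : Fin p → Rb) := by
    refine ⟨∑ i ∈ Finset.range e, (⟨θ, hθO⟩ : S.lat.O) ^ i, ?_, ?_⟩
    · rw [AddSubmonoidClass.coe_finsetSum]
      rfl
    · rw [map_sum]
      simp only [map_pow, hθred, one_pow, Finset.sum_const, Finset.card_range, nsmul_eq_mul,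
        mul_one]
  have hψy : ψ S.y = algebraMap K F' (h15_qint ζ a0)⁻¹ * (S.y * (G : F') +
      θ ^ e * algebraMap F F' (w : F)) := by
    have h1 := h85_asGen_semilinear_c p hζ θ ψ σ hψ a0 hσζ e (w : F) hψθ
    have h2 : S.y = h15_asGen (F := F) ζ θ := rfl
    rw [h2, hG, ← h1, ← mul_assoc, ← map_mul, inv_mul_cancel₀ hε0, map_one, one_mul]
  have hy : ψ S.y ∈ S.O' := by
    rw [hψy]
    exact S.O'.mul_mem heO (S.O'.add_mem (S.O'.mul_mem hyO G.2)
      (S.O'.mul_mem (S.O'.pow_mem hθO e) hwO))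
  have hm : ψ f ∈ S.O' := S.map_mem ψ σ hψ hσO hy hf
  refine ⟨hm, ?_⟩
  have hya : q (S.red' ⟨ψ S.y, hy⟩ a) = q (algebraMap k Rb (S.r a')) := by
    have h1 : (⟨ψ S.y, hy⟩ : S.lat.O) = ⟨algebraMap K F' (h15_qint ζ a0)⁻¹, heO⟩ *
        (⟨S.y, hyO⟩ * G + ⟨θ, hθO⟩ ^ e * ⟨algebraMap F F' (w : F), hwO⟩) :=
      Subtype.ext hψy
    show q (S.lat.red ⟨ψ S.y, hy⟩ a) = _
    rw [h1, map_mul, map_add, map_mul, map_mul, map_pow, hθred, hGred, one_pow, one_mul,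
      Pi.mul_apply, Pi.add_apply, Pi.mul_apply, S.lat_red_const _ heA, S.lat_red_y,
      S.lat_red_algebraMap _ w.2, heres, map_mul, map_add, map_mul, Subtype.coe_eta, hb]
    have hk : S.r a' = ((a0 : ℕ) : k)⁻¹ * (S.r a * (e : k) + ((b : ℕ) : k)) := by
      show ((a' : ℕ) : k) = ((a0 : ℕ) : k)⁻¹ * (((a : ℕ) : k) * (e : k) + ((b : ℕ) : k))
      rw [mul_comm ((a : ℕ) : k) (e : k), ← haa', mul_comm, mul_assoc, mul_inv_cancel₀ ha0k,
        mul_one]
    have hen : q ((e : Fin p → Rb) a) = q (algebraMap k Rb (e : k)) := by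
      rw [map_natCast (algebraMap k Rb)]
      rfl
    rw [hk, map_mul (algebraMap k Rb), map_add (algebraMap k Rb), map_mul (algebraMap k Rb),
      map_mul q, map_add q, map_mul q, hen]
  exact S.red_map ψ σ hψ hσO hy q q hredσ a a' hya hf hm

include hζ in
omit [CharP k p] in
/-- **The quotient `σ(u)/u^e` of a deep `u` is deep.**  `u = 1 + (ζ-1)^p h`, `red h = 0`,
`σ` an endomorphism of `F` preserving `O`, compatible with `red`, with `σ ζ = ζ^a0`: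
if `σ u = u^e H^p` then `H^p - 1 = (ζ-1)^p h'` with `h' ∈ O`, `red h' = 0`. -/
theorem h85_deep_quot_c (h : D.O) (hred : D.red h = 0) (σ : F →+* F)
    (hσO : ∀ x ∈ D.O, σ x ∈ D.O)
    (hσred : ∀ x (hx : x ∈ D.O), D.red ⟨σ x, hσO x hx⟩ = D.red ⟨x, hx⟩)
    (a0 : ℕ) (hσζ : σ (algebraMap K F ζ) = algebraMap K F (ζ ^ a0)) (e : ℕ)
    (H : F)
    (hH : σ (1 + algebraMap K F ((ζ - 1) ^ p) * (h : F)) =
      (1 + algebraMap K F ((ζ - 1) ^ p) * (h : F)) ^ e * H ^ p) :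
    ∃ h' : D.O, D.red h' = 0 ∧ H ^ p - 1 = algebraMap K F ((ζ - 1) ^ p) * (h' : F) := by
  have hlamA : ζ - 1 ∈ D.A := h15_zeta_sub_one_mem D p hζ
  have hlampA : (ζ - 1) ^ p ∈ D.A := D.A.pow_mem hlamA p
  obtain ⟨Λ, hΛ⟩ : ∃ m : D.O, (m : F) = algebraMap K F ((ζ - 1) ^ p) :=
    ⟨⟨_, (D.mem_iff _).mp hlampA⟩, rfl⟩
  obtain ⟨u, hu⟩ : ∃ m : D.O, m = 1 + Λ * h := ⟨_, rfl⟩
  have hured : D.red u = 1 := by
    rw [hu, map_add, map_one, map_mul, hred, mul_zero, add_zero]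
  have huF : (u : F) = 1 + algebraMap K F ((ζ - 1) ^ p) * (h : F) := by
    rw [hu, ← hΛ]
    rfl
  have huered : D.red (u ^ e) = 1 := by rw [map_pow, hured, one_pow]
  obtain ⟨hueinv, -⟩ := h15_inv_mem_of_red_one D (u ^ e).2 huered
  have hu0 : (u : F) ≠ 0 := by
    intro h0
    have hnt : Nontrivial Rb := h15_lat_nontrivial D
    have : u = 0 := Subtype.ext h0
    rw [this, map_zero] at hured
    exact zero_ne_one hured
  -- `σ ((ζ-1)^p) = (ζ-1)^p [a0]^p`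
  have hεA : h15_qint ζ a0 ^ p ∈ D.A := by
    refine D.A.pow_mem ?_ p
    rw [← h15_qA_coe D p hζ a0]
    exact (h15_qA D p hζ a0).2
  obtain ⟨E, hE⟩ : ∃ m : D.O, (m : F) = algebraMap K F (h15_qint ζ a0 ^ p) :=
    ⟨⟨_, (D.mem_iff _).mp hεA⟩, rfl⟩
  have hσlam : σ (algebraMap K F ((ζ - 1) ^ p)) =
      algebraMap K F ((ζ - 1) ^ p) * algebraMap K F (h15_qint ζ a0 ^ p) := by
    have hA : algebraMap K F ((ζ - 1) ^ p) * algebraMap K F (h15_qint ζ a0 ^ p) =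
        (algebraMap K F (ζ ^ a0) - 1) ^ p := by
      rw [← map_mul, ← mul_pow, h15_qint_mul, map_pow, map_sub, map_one]
    rw [hA, map_pow, map_sub, map_one, map_pow σ, map_sub σ, map_one σ, hσζ]
  obtain ⟨sh, hsh, hshred⟩ : ∃ m : D.O, (m : F) = σ (h : F) ∧ D.red m = 0 := by
    refine ⟨⟨σ (h : F), hσO _ h.2⟩, rfl, ?_⟩
    rw [hσred _ h.2]
    exact hred
  -- the geometric sum of `u`
  obtain ⟨G, hG⟩ : ∃ G : D.O, (G : F) = ∑ i ∈ Finset.range e, (u : F) ^ i := by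
    refine ⟨∑ i ∈ Finset.range e, u ^ i, ?_⟩
    rw [AddSubmonoidClass.coe_finsetSum]
    rfl
  have hgeom : ((u : F) - 1) * (G : F) = (u : F) ^ e - 1 := by
    rw [hG]
    exact mul_geom_sum (u : F) e
  refine ⟨(E * sh - h * G) * ⟨((u ^ e : D.O) : F)⁻¹, hueinv⟩, ?_, ?_⟩
  · rw [map_mul, map_sub, map_mul, map_mul, hshred, hred, mul_zero, zero_mul, sub_zero, zero_mul]
  · show H ^ p - 1 = algebraMap K F ((ζ - 1) ^ p) *
      (((E : F) * (sh : F) - (h : F) * (G : F)) * ((u : F) ^ e)⁻¹)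
    rw [← huF] at hH
    have hue0 : (u : F) ^ e ≠ 0 := pow_ne_zero e hu0
    have h1 : H ^ p = σ (u : F) * ((u : F) ^ e)⁻¹ := by
      rw [hH, mul_comm ((u : F) ^ e), mul_assoc, mul_inv_cancel₀ hue0, mul_one]
    have h2 : σ (u : F) = 1 + algebraMap K F ((ζ - 1) ^ p) * ((E : F) * (sh : F)) := by
      rw [huF, map_add, map_one, map_mul, hσlam, hE, hsh, mul_assoc]
    have h3 : (u : F) ^ e * ((u : F) ^ e)⁻¹ = 1 := mul_inv_cancel₀ hue0
    have h4 : (u : F) ^ e = 1 + algebraMap K F ((ζ - 1) ^ p) * (h : F) * (G : F) := by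
      have h5 : (u : F) - 1 = algebraMap K F ((ζ - 1) ^ p) * (h : F) := by
        rw [huF]
        ring
      rw [← h5]
      linear_combination (-1 : F) * hgeom
    rw [h1, h2]
    linear_combination (-(((u : F) ^ e)⁻¹)) * h4 + h3

variable (h : D.O) (hred : D.red h = 0) (θ : F')
  (hθ : θ ^ p - 1 = algebraMap K F' ((ζ - 1) ^ p) * algebraMap F F' (h : F))
  (hli : LinearIndependent F (fun j : Fin p => θ ^ (j : ℕ)))
  (hspan : ∀ f : F', ∃ c : Fin p → F, f = ∑ j, algebraMap F F' (c j) * θ ^ (j : ℕ))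

/-- **(T)c a semilinear lift `θ ↦ θ^e H` acts on the sheets by affine maps of `𝔽_p`.**
For every quotient domain `q : Rb → L` there is `b ∈ 𝔽_p` such that
`q (red'(ψ f)(a)) = q (red'(f)((e a + b)/a0))`. -/
theorem h85_asInst_sheet_perm_c [IsReduced Rb] (ψ : F' →+* F') (σ : F →+* F)
    (hψ : ∀ x, ψ (algebraMap F F' x) = algebraMap F F' (σ x))
    (hσO : ∀ x ∈ D.O, σ x ∈ D.O)
    (hσred : ∀ x (hx : x ∈ D.O), D.red ⟨σ x, hσO x hx⟩ = D.red ⟨x, hx⟩)
    (a0 : ℕ) (ha0 : ¬ p ∣ a0)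
    (hσζ : σ (algebraMap K F ζ) = algebraMap K F (ζ ^ a0)) (e : ℕ)
    (H : F) (hψθ : ψ θ = θ ^ e * algebraMap F F' H)
    {L : Type*} [CommRing L] [IsDomain L] (q : Rb →+* L) :
    ∃ b : Fin p, ∀ a a' : Fin p,
      (((a' : ℕ) : k)) * (a0 : k) = (e : k) * ((a : ℕ) : k) + ((b : ℕ) : k) →
      ∀ (f : F') (hf : f ∈ (h15_asInst D p hζ h hred θ hθ hli hspan).lat.O),
      ∃ hm : ψ f ∈ (h15_asInst D p hζ h hred θ hθ hli hspan).lat.O,
        q ((h15_asInst D p hζ h hred θ hθ hli hspan).lat.red ⟨ψ f, hm⟩ a) =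
          q ((h15_asInst D p hζ h hred θ hθ hli hspan).lat.red ⟨f, hf⟩ a') := by
  -- `θ^p = u`
  have hθu : θ ^ p = algebraMap F F' (1 + algebraMap K F ((ζ - 1) ^ p) * (h : F)) := by
    rw [map_add, map_one, map_mul, ← IsScalarTower.algebraMap_apply K F F', ← hθ]
    ring
  have hσu : σ (1 + algebraMap K F ((ζ - 1) ^ p) * (h : F)) =
      (1 + algebraMap K F ((ζ - 1) ^ p) * (h : F)) ^ e * H ^ p := by
    apply (algebraMap F F').injective
    calc algebraMap F F' (σ (1 + algebraMap K F ((ζ - 1) ^ p) * (h : F)))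
        = ψ (algebraMap F F' (1 + algebraMap K F ((ζ - 1) ^ p) * (h : F))) := (hψ _).symm
      _ = ψ (θ ^ p) := by rw [hθu]
      _ = (ψ θ) ^ p := map_pow ψ θ p
      _ = (θ ^ p) ^ e * (algebraMap F F' H) ^ p := by
          rw [hψθ, mul_pow, ← pow_mul, ← pow_mul, mul_comm e p]
      _ = algebraMap F F' ((1 + algebraMap K F ((ζ - 1) ^ p) * (h : F)) ^ e) *
            algebraMap F F' (H ^ p) := by
          rw [hθu, map_pow (algebraMap F F') H, map_pow (algebraMap F F') _ e]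
      _ = _ := (map_mul _ _ _).symm
  obtain ⟨h', hh', hH⟩ := h85_deep_quot_c D p hζ h hred σ hσO hσred a0 hσζ e H hσu
  obtain ⟨w, hw⟩ := h15_deep_root_mem D p hζ H h' hh' hH
  obtain ⟨b, hb⟩ := h15_deep_root_Fp D p hζ q H h' hh' hH w hw
  have hψθ' : ψ θ = θ ^ e * algebraMap F F' (1 + algebraMap K F (ζ - 1) * (w : F)) := by
    rw [hψθ, ← hw]
    congr 2
    ring
  exact ⟨b, fun a a' haa' f hf =>
    h85_asInst_semilinear_c D p hζ h hred θ hθ hli hspan ψ σ hψ hσO a0 ha0 hσζ e w hψθ' q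
      (fun x hx => by rw [hσred]) b hb a a' haa' hf⟩

omit [Algebra k Rb] in
/-- affine maps of `𝔽_p` as maps of `Fin p`: `c · s(a) = e · a + β`. -/
theorem h85_exists_affine_c (k : Type*) [Field k] [CharP k p] (c : ℕ) (hc : ¬ p ∣ c)
    (e β : ℕ) :
    ∃ s : Fin p → Fin p, ∀ a : Fin p,
      (c : k) * ((s a : ℕ) : k) = (e : k) * ((a : ℕ) : k) + (β : k) := by
  have hc' : ((c : ℕ) : ZMod p) ≠ 0 := by
    rw [Ne, ZMod.natCast_eq_zero_iff]
    exact hc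
  let φ : ZMod p →+* k := ZMod.castHom (dvd_refl p) k
  have h1 : ∀ z : ZMod p, ((z.val : ℕ) : k) = φ z := fun z => by
    rw [ZMod.castHom_apply, ZMod.natCast_val]
  refine ⟨fun a => ⟨(((e : ZMod p) * ((a : ℕ) : ZMod p) + (β : ZMod p)) *
    ((c : ℕ) : ZMod p)⁻¹).val, ZMod.val_lt _⟩, fun a => ?_⟩
  show (c : k) * (((((e : ZMod p) * ((a : ℕ) : ZMod p) + (β : ZMod p)) *
    ((c : ℕ) : ZMod p)⁻¹).val : ℕ) : k) = _
  rw [h1, ← map_natCast φ c, ← map_mul, mul_comm, inv_mul_cancel_right₀ hc', map_add, map_mul,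
    map_natCast, map_natCast, map_natCast]

/-- **(T)c, consumer form** (one quotient domain). -/
theorem h85_asInst_sheet_perm_exists_c [IsReduced Rb] (ψ : F' →+* F') (σ : F →+* F)
    (hψ : ∀ x, ψ (algebraMap F F' x) = algebraMap F F' (σ x))
    (hσO : ∀ x ∈ D.O, σ x ∈ D.O)
    (hσred : ∀ x (hx : x ∈ D.O), D.red ⟨σ x, hσO x hx⟩ = D.red ⟨x, hx⟩)
    (a0 : ℕ) (ha0 : ¬ p ∣ a0)
    (hσζ : σ (algebraMap K F ζ) = algebraMap K F (ζ ^ a0)) (e : ℕ)
    (H : F) (hψθ : ψ θ = θ ^ e * algebraMap F F' H)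
    {L : Type*} [CommRing L] [IsDomain L] (q : Rb →+* L) :
    ∃ (s : Fin p → Fin p) (β : ℕ),
      (∀ a, (a0 : k) * (h15_asInst D p hζ h hred θ hθ hli hspan).r (s a) =
        (e : k) * (h15_asInst D p hζ h hred θ hθ hli hspan).r a + (β : k)) ∧
      ∀ (f : F') (hf : f ∈ (h15_asInst D p hζ h hred θ hθ hli hspan).lat.O),
      ∃ hm : ψ f ∈ (h15_asInst D p hζ h hred θ hθ hli hspan).lat.O, ∀ a : Fin p,
        q ((h15_asInst D p hζ h hred θ hθ hli hspan).lat.red ⟨ψ f, hm⟩ a) =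
          q ((h15_asInst D p hζ h hred θ hθ hli hspan).lat.red ⟨f, hf⟩ (s a)) := by
  obtain ⟨b, hb⟩ := h85_asInst_sheet_perm_c D p hζ h hred θ hθ hli hspan ψ σ hψ hσO hσred a0
    ha0 hσζ e H hψθ q
  obtain ⟨s, hs⟩ := h85_exists_affine_c p k a0 ha0 e (b : ℕ)
  refine ⟨s, (b : ℕ), hs, fun f hf => ?_⟩
  have hm : ψ f ∈ (h15_asInst D p hζ h hred θ hθ hli hspan).lat.O := by
    obtain ⟨a⟩ : Nonempty (Fin p) := ⟨⟨0, hp.out.pos⟩⟩
    exact (hb a (s a) (by rw [mul_comm]; exact hs a) f hf).1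
  refine ⟨hm, fun a => ?_⟩
  obtain ⟨_, h2⟩ := hb a (s a) (by rw [mul_comm]; exact hs a) f hf
  exact h2

end inst

/-! ### The two-component case `Rb = Fb × Fb` -/

section two

variable {Fb : Type*} [Field Fb] [Algebra k Fb]
  (D : h22_Lat K F k (Fb × Fb)) (p : ℕ) [hp : Fact p.Prime] [CharP k p]
  {ζ : K} (hζ : IsPrimitiveRoot ζ p)
  {F' : Type*} [Field F'] [Algebra F F'] [Algebra K F'] [IsScalarTower K F F']
  (h : D.O) (hred : D.red h = 0) (θ : F')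
  (hθ : θ ^ p - 1 = algebraMap K F' ((ζ - 1) ^ p) * algebraMap F F' (h : F))
  (hli : LinearIndependent F (fun j : Fin p => θ ^ (j : ℕ)))
  (hspan : ∀ f : F', ∃ c : Fin p → F, f = ∑ j, algebraMap F F' (c j) * θ ^ (j : ℕ))

/-- **(T)c for two components**: a semilinear lift `ψ` (over `σ` with `red ∘ σ = red`,
`σ ζ = ζ^c`, `p ∤ c`, `ψ θ = θ^e H`) permutes the sheets of component `i` by the affine map
`s_i`, `c · s_i(a) = e · a + β_i`. -/
theorem h85_asInst_sheet_perm_two_c (ψ : F' →+* F') (σ : F →+* F)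
    (hψ : ∀ x, ψ (algebraMap F F' x) = algebraMap F F' (σ x))
    (hσO : ∀ x ∈ D.O, σ x ∈ D.O)
    (hσred : ∀ x (hx : x ∈ D.O), D.red ⟨σ x, hσO x hx⟩ = D.red ⟨x, hx⟩)
    (c : ℕ) (hc : ¬ p ∣ c)
    (hσζ : σ (algebraMap K F ζ) = algebraMap K F (ζ ^ c)) (e : ℕ)
    (H : F) (hψθ : ψ θ = θ ^ e * algebraMap F F' H) :
    ∃ (s1 s2 : Fin p → Fin p) (β1 β2 : k),
      (∀ a, (c : k) * (h15_asInst D p hζ h hred θ hθ hli hspan).r (s1 a) =
        (e : k) * (h15_asInst D p hζ h hred θ hθ hli hspan).r a + β1) ∧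
      (∀ a, (c : k) * (h15_asInst D p hζ h hred θ hθ hli hspan).r (s2 a) =
        (e : k) * (h15_asInst D p hζ h hred θ hθ hli hspan).r a + β2) ∧
      ∀ (f : F') (hf : f ∈ (h15_asInst D p hζ h hred θ hθ hli hspan).lat.O),
      ∃ hm : ψ f ∈ (h15_asInst D p hζ h hred θ hθ hli hspan).lat.O, ∀ a : Fin p,
        (h15_asInst D p hζ h hred θ hθ hli hspan).lat.red ⟨ψ f, hm⟩ a =
          (((h15_asInst D p hζ h hred θ hθ hli hspan).lat.red ⟨f, hf⟩ (s1 a)).1,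
            ((h15_asInst D p hζ h hred θ hθ hli hspan).lat.red ⟨f, hf⟩ (s2 a)).2) := by
  obtain ⟨s1, β1, hs1, h1⟩ := h85_asInst_sheet_perm_exists_c D p hζ h hred θ hθ hli hspan ψ σ hψ
    hσO hσred c hc hσζ e H hψθ (RingHom.fst Fb Fb)
  obtain ⟨s2, β2, hs2, h2⟩ := h85_asInst_sheet_perm_exists_c D p hζ h hred θ hθ hli hspan ψ σ hψ
    hσO hσred c hc hσζ e H hψθ (RingHom.snd Fb Fb)
  refine ⟨s1, s2, (β1 : k), (β2 : k), hs1, hs2, fun f hf => ?_⟩
  obtain ⟨hm, h1'⟩ := h1 f hf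
  obtain ⟨_, h2'⟩ := h2 f hf
  exact ⟨hm, fun a => Prod.ext (h1' a) (h2' a)⟩

end two

/-! ### TAU with an exponent -/

section tau

variable {Fb : Type*} [Field Fb] [Algebra k Fb]
variable {F' : Type*} [Field F'] [Algebra F F'] [Algebra K F'] [IsScalarTower K F F']
variable [Algebra.IsIntegral F F'] [HasPrincipalDivisors K F']

/-- **TAU with an exponent** = `h15_tau_stab_of_lift` for a lift `τ' θ = H θ^e`: sheet maps
`s1, s2` with `c · r (s_i a) = e · r a + β_i` stabilising the reductions of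
`L'(n π^* D0) ∩ O'`. -/
theorem h85_tau_stab_of_lift_c (D : h22_Lat K F k (Fb × Fb)) (p : ℕ) [hp : Fact p.Prime]
    [CharP k p] {ζ : K} (hζ : IsPrimitiveRoot ζ p) (h : D.O) (hred : D.red h = 0) (θ : F')
    (hθ : θ ^ p - 1 = algebraMap K F' ((ζ - 1) ^ p) * algebraMap F F' (h : F))
    (hli : LinearIndependent F (fun j : Fin p => θ ^ (j : ℕ)))
    (hspan : ∀ f : F', ∃ c : Fin p → F, f = ∑ j, algebraMap F F' (c j) * θ ^ (j : ℕ))
    (g' : SemilinearAut K F) (hgO : ∀ f, f ∈ D.O → g' • f ∈ D.O)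
    (hgred : ∀ f, f ∈ D.O → D.redF (g' • f) = D.redF f)
    (D0 : Divisor K F) (hgD0 : g' • D0 = D0)
    (c : ℕ) (hgζ : SemilinearAut.baseAut g' ζ = ζ ^ c)
    (τ' : SemilinearAut K F')
    (hlift : ∀ f : F, τ' • algebraMap F F' f = algebraMap F F' (g' • f))
    (e : ℕ) (H : F) (hτθ : τ' • θ = algebraMap F F' H * θ ^ e) :
    ∃ (s1 s2 : Fin p → Fin p) (β1 β2 : k),
      (∀ a, (c : k) * (h15_asInst D p hζ h hred θ hθ hli hspan).r (s1 a) =
        (e : k) * (h15_asInst D p hζ h hred θ hθ hli hspan).r a + β1) ∧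
      (∀ a, (c : k) * (h15_asInst D p hζ h hred θ hθ hli hspan).r (s2 a) =
        (e : k) * (h15_asInst D p hζ h hred θ hθ hli hspan).r a + β2) ∧
      ∀ n : ℕ, ∀ f ∈ h51_Rd (h15_asInst D p hζ h hred θ hθ hli hspan).lat
          (n • Divisor.pullback F' D0),
        (fun a => ((f (s1 a)).1, (f (s2 a)).2)) ∈
          h51_Rd (h15_asInst D p hζ h hred θ hθ hli hspan).lat (n • Divisor.pullback F' D0) := by
  set S := h15_asInst D p hζ h hred θ hθ hli hspan with hS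
  -- `p ∤ c`
  have hc : ¬ p ∣ c := by
    intro hdvd
    have h1 : ζ ^ c = 1 := (hζ.pow_eq_one_iff_dvd c).mpr hdvd
    rw [h1] at hgζ
    have h2 : ζ = 1 := by
      have := (SemilinearAut.baseAut g').injective (hgζ.trans (map_one _).symm)
      exact this
    exact hζ.ne_one hp.out.one_lt h2
  -- the ring homomorphisms
  have hσO : ∀ x ∈ D.O, ((SemilinearAut.toRingAut g' : F ≃+* F) : F →+* F) x ∈ D.O :=
    fun x hx => hgO x hx
  have hσred : ∀ x (hx : x ∈ D.O),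
      D.red ⟨((SemilinearAut.toRingAut g' : F ≃+* F) : F →+* F) x, hσO x hx⟩ = D.red ⟨x, hx⟩ := by
    intro x hx
    have h1 := hgred x hx
    rw [D.redF_of_mem (hgO x hx), D.redF_of_mem hx] at h1
    exact h1
  have hσζ : ((SemilinearAut.toRingAut g' : F ≃+* F) : F →+* F) (algebraMap K F ζ) =
      algebraMap K F (ζ ^ c) := by
    have h1 := SemilinearAut.commutes g' ζ
    rw [hgζ] at h1
    exact h1
  have hψ : ∀ x, ((SemilinearAut.toRingAut τ' : F' ≃+* F') : F' →+* F') (algebraMap F F' x) =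
      algebraMap F F' (((SemilinearAut.toRingAut g' : F ≃+* F) : F →+* F) x) := hlift
  have hψθ : ((SemilinearAut.toRingAut τ' : F' ≃+* F') : F' →+* F') θ =
      θ ^ e * algebraMap F F' H := by
    rw [mul_comm]
    exact hτθ
  obtain ⟨s1, s2, β1, β2, hs1, hs2, hact⟩ := h85_asInst_sheet_perm_two_c D p hζ h hred θ hθ hli
    hspan _ _ hψ hσO hσred c hc hσζ e H hψθ
  refine ⟨s1, s2, β1, β2, hs1, hs2, ?_⟩
  intro n f hf
  rw [← map_nsmul] at hf ⊢
  have hE : g' • (n • D0) = n • D0 := by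
    rw [smul_comm, hgD0]
  refine h35_Rd_stable S.lat hlift (n • D0) hE
    (fun f a => ((f (s1 a)).1, (f (s2 a)).2)) ?_ f hf
  intro f' hf'
  obtain ⟨hm, hval⟩ := hact f' hf'
  refine ⟨hm, ?_⟩
  rw [S.lat.redF_of_mem (show τ' • f' ∈ S.lat.O from hm), S.lat.redF_of_mem hf']
  funext a
  exact hval a

end tau

end Fermat.Agent.S40
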