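import Mathlib
import Fermat.Agent.S33.h67_NMinInst
import Fermat.Agent.S40.h85_NMinC
import Fermat.Agent.S40.h53_NStarCMod

/-!
# S40 / N-min with an eigenvalue: the modular wrapper (helper53)

The eigenvalue twins of helper67's S33 rows `h67_nmin_of_frob`, `h67_deep_principal`,
`h67_nstar`, on top of helper85's generic `h85_nmin_c`:

* `h53_nmin_of_frob_c` : `h85_nmin_c` with its base node description produced by
  `h51_node_of_frob` (Frobenius-chart shape);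
* `h53_deep_principal_c` : at a charted level `M p` and a valuation ring `A` over `p`, for an
  inertia element `σ0` at `A` with `σ0 ζ = ζ ^ c`: a deep Kummer witness `(E₀, u₀)` with
  `σ0 • E₀ - e • E₀` principal, `p ∤ e`, `c ≢ e mod p`, is principal;
* `h53_nstar_c` : **(N\*) with an eigenvalue** at a charted level: a class of `J₀(M p)` which is
  toric of exponent `p` at `A`, `p`-new, and an eigenvector `σ0 • z = e • z` (`p ∤ e`) of an
  inertia element `σ0` at `A` whose cyclotomic exponent `a` is `≢ e mod p`, is zero.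
  (`e = 1` is `h67_nstar`.)
* `h53_nstar_c_eig` : the contrapositive in the shape consumed by `h37_gt_split_nat`: a nonzero
  toric new eigenvector has eigenvalue `e ≡ a mod p`.
-/

set_option autoImplicit false
set_option synthInstance.maxHeartbeats 400000

noncomputable section

open ModularCurve AlgebraicCurve IntermediateField Polynomial Module

namespace Fermat.Agent.S40

open Fermat.Agent.S34 Fermat.Agent.S18 Fermat.Agent.S37 Fermat.Agent.S24 Fermat.Agent.S27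
open Fermat.Agent.S35 Fermat.Agent.GAL Fermat.Agent.S33

local notation "Qb" => AlgebraicClosure ℚ

section Frob

variable {K F k Fb : Type*} [Field K] [Field F] [Algebra K F] [Field k] [Field Fb] [Algebra k Fb]
variable [IsAlgClosed K] [IsAlgClosed k] [CharZero K] {p : ℕ} [Fact p.Prime] [CharP k p]

/-- **The generic N-min with an eigenvalue in the Frobenius-chart shape.** -/
theorem h53_nmin_of_frob_c {xF : F} (hxF : h75_IsChart K xF)
    {xφ : Fb} {φ : Fb →+* Fb} (h : h96_IsFrobChart k p xφ φ)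
    {y : Fb} (hy : h75_IsChart k y) (Qinf : Place k Fb)
    (hpole : ∀ Q : Place k Fb, y ∈ Q.toValuationSubring ↔ Q ≠ Qinf)
    (hfix : h96_frobPerm h Qinf = Qinf)
    (D : h22_Lat K F k (Fb × Fb))
    (hG : ∀ P : K[X], aeval xF P ∈ D.O ↔ ∀ i, P.coeff i ∈ D.A)
    (hU : ∀ P : K[X], aeval xF P ≠ 0 → ∃ c : K, c ≠ 0 ∧ algebraMap K F c * aeval xF P ∈ D.O ∧
      (algebraMap K F c * aeval xF P)⁻¹ ∈ D.O)
    {ι : Type*} [Fintype ι] (b : Module.Basis ι K⟮xF⟯ F)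
    (hb : ∀ f : F, f ∈ D.O ↔ ∀ i, ((b.repr f i : K⟮xF⟯) : F) ∈ D.O)
    (hinv : ∀ (f : F) (hf : f ∈ D.O), IsUnit (D.red ⟨f, hf⟩) → f⁻¹ ∈ D.O)
    (hRk : h39_RankOne D.A) (q : K) (hq : q ∈ D.A.nonunits) (hq0 : q ≠ 0)
    (D0 D2 : Divisor K F) (hD0 : ∀ v, 0 ≤ D0 v) (hdeg : Divisor.degree D0 = 2)
    (hD2 : ∀ v, 0 ≤ D2 v) (hdisj : ∀ v, D0 v = 0 ∨ D2 v = 0)
    (N : ℕ) (hN : 1 ≤ N)
    (x : F) (hx0 : x ≠ 0) (hxO : x ∈ D.O) (hxinvO : x⁻¹ ∈ D.O)
    (hxdiv : ∀ v : Place K F, v.ord x = D2 v - (N : ℤ) * D0 v)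
    (hxb1 : Qinf.ord (D.redF x).1 ≤ -(N : ℤ)) (hxb2 : Qinf.ord (D.redF x).2 ≤ -(N : ℤ))
    (hreg : ∀ n, ∀ a ∈ h51_Rd D (n • D0), a.1 ∈ h16_Linf Qinf n ∧ a.2 ∈ h16_Linf Qinf n)
    (n₁ : ℕ)
    (hlead₁ : ∀ n, n₁ ≤ n → ∃ x ∈ h51_Rd D ((n + 1) • D0),
      x.1 ∉ h16_Linf Qinf n ∧ x.2 ∈ h16_Linf Qinf n)
    (hlead₂ : ∀ n, n₁ ≤ n → ∃ y ∈ h51_Rd D ((n + 1) • D0),
      y.1 ∈ h16_Linf Qinf n ∧ y.2 ∉ h16_Linf Qinf n)
    (hB1 : ∀ b : Fb, (∀ Q : Place k Fb, Q ≠ Qinf → b ∈ Q.toValuationSubring) →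
      ∃ n : ℕ, (b, φ b) ∈ h51_Rd D (n • D0))
    (hB2 : ∀ b : Fb, (∀ Q : Place k Fb, Q ≠ Qinf → b ∈ Q.toValuationSubring) →
      ∃ n : ℕ, (φ b, b) ∈ h51_Rd D (n • D0))
    (ζ : K) (hζ : IsPrimitiveRoot ζ p)
    (g' : SemilinearAut K F) (hgO : ∀ f, f ∈ D.O → g' • f ∈ D.O)
    (hgred : ∀ f, f ∈ D.O → D.redF (g' • f) = D.redF f) (hgD0 : g' • D0 = D0)
    (c : ℕ) (hgζ : SemilinearAut.baseAut g' ζ = ζ ^ c)
    (e : ℕ) (he : ¬ p ∣ e) (hc : ¬ c ≡ e [MOD p])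
    (E₀ : Divisor K F) (u₀ : F) (hu₀ : u₀ ≠ 0)
    (hdiv : ∀ v : Place K F, (p : ℤ) * E₀ v = v.ord u₀)
    (hh : F) (hhO : hh ∈ D.O) (hhred : D.red ⟨hh, hhO⟩ = 0)
    (hu : u₀ = 1 + algebraMap K F ((ζ - 1) ^ p) * hh)
    (hfixE : g' • E₀ - (e : ℤ) • E₀ ∈ Divisor.principal (K := K) (F := F)) :
    E₀ ∈ Divisor.principal (K := K) (F := F) := by
  have hON : h22_ON D := h22_on_of_basis D hG hU b hb
  obtain ⟨Sg, hSg, hnode⟩ := h51_node_of_frob hxF h hy Qinf hpole hfix D hON D0 hD0 hdeg hreg n₁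
    hlead₁ hlead₂ hB1 hB2
  have hdegD0 : 1 ≤ Divisor.degree D0 := by
    rw [hdeg]
    norm_num
  have hic : ∀ f : F, IsIntegral D.O f → f ∈ D.O := fun f hf => h35_lat_mem_of_isIntegral D hf
  have hreg' : ∀ n, ∀ a ∈ h51_Rd D (n • D0), a ∈ h20_P Qinf n := by
    intro n a ha
    rw [h51_mem_P_iff_Linf]
    exact hreg n a ha
  exact h85_nmin_c hxF hy D hG hU b hb hinv hic hRk q hq hq0 D0 D2 hD0 hdegD0 hD2 hdisj N hN
    x hx0 hxO hxinvO hxdiv Qinf hxb1 hxb2 hreg' Sg (h96_frobPerm h) (h96_frobPerm h).injective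
    (fun Q hQ => ⟨(hSg Q hQ).1, (hSg Q hQ).2.1⟩)
    (max (max n₁ (h75_genus K xF))
      (max (2 * h75_genus K xF) (2 * h75_genus k y + Sg.card)))
    (le_trans (le_max_left _ _) (le_max_right _ _))
    (le_trans (le_max_right _ _) (le_max_right _ _))
    (fun n hn a => hnode n (le_trans (le_max_left _ _) hn) a)
    p Fact.out ζ hζ g' hgO hgred hgD0 c hgζ e he hc E₀ u₀ hu₀ hdiv hh hhO hhred hu hfixE

end Frob

section Mod

variable (M p : ℕ) [NeZero M] [NeZero p] [Fact p.Prime] (hpM : ¬ p ∣ M)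
  (A : ValuationSubring Qb) (hA : A.LiesOverPrime p)

set_option maxHeartbeats 1600000 in
/-- **The generic N-min with an eigenvalue at a charted level `M p`.** -/
theorem h53_deep_principal_c (hch : 5 ≤ p ∨ 2 ∣ M ∨ 3 ∣ M) (ζ : Qb) (hζ : IsPrimitiveRoot ζ p)
    (σ0 : Qb ≃ₐ[ℚ] Qb) (hσ0 : σ0 ∈ A.inertiaSubgroupIn ℚ)
    (c : ℕ) (hσζ : σ0 ζ = ζ ^ c) (e : ℕ) (he : ¬ p ∣ e) (hc : ¬ c ≡ e [MOD p])
    (E₀ : Divisor Qb ↥(modularFunctionFieldBar (M * p)))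
    (u₀ : ↥(modularFunctionFieldBar (M * p))) (hu₀ : u₀ ≠ 0)
    (hdiv : ∀ v : Place Qb ↥(modularFunctionFieldBar (M * p)), (p : ℤ) * E₀ v = v.ord u₀)
    (hdeep : ∃ h : (h87_D M p hpM A hA).O, (h87_D M p hpM A hA).red h = 0 ∧
      u₀ - 1 = algebraMap Qb ↥(modularFunctionFieldBar (M * p)) ((ζ - 1) ^ p) *
        (h : ↥(modularFunctionFieldBar (M * p))))
    (hfixE : arithmeticGalois (modularFunctionFieldFull (M * p)) σ0 • E₀ - (e : ℤ) • E₀
      ∈ Divisor.principal (K := Qb) (F := ↥(modularFunctionFieldBar (M * p)))) :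
    E₀ ∈ Divisor.principal (K := Qb) (F := ↥(modularFunctionFieldBar (M * p))) := by
  have hp : p.Prime := Fact.out
  have : IsAlgClosed (IsLocalRing.ResidueField A) := h19_residueField_isAlgClosed A
  have : CharP (IsLocalRing.ResidueField A) p := h19_residueField_charP A p hA
  -- the rows
  obtain ⟨Pinf, hPinf⟩ := h10_exists_cusp (K := Qb) (F := modularFunctionFieldBar (M * p))
    ⟨h59_jbar (M * p), h10_order_jbar (M * p)⟩
  obtain ⟨P0, hP0⟩ := h10_exists_cusp0 (h60_w M p hpM) (h60_w_alpha M p hpM)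
    (h60_w_beta M p hpM)
  obtain ⟨y, hy, hpole⟩ := h31_ychart M p hpM A hA hch
  obtain ⟨n₁, hlead₁, hlead₂⟩ := h31_lead M p hpM A hA hch hPinf hP0
  have hreg := h17_int_mod M p hpM A hA hch hPinf hP0
  have hxF : h75_IsChart Qb (heckeAlphaBar Qb M p (h59_jbar M)) := by
    rw [h88_alpha_jbar]
    exact h54_isChart_jbar (M * p)
  have hfr := h84_isFrobChart_jk M p hpM A hA
  have hfix := h84_frobPerm_placeInftyC hfr
  have hRk : h39_RankOne (h87_D M p hpM A hA).A := h22_DMq_rankOne M p hpM A hA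
  have hD0 : ∀ v, 0 ≤ (Finsupp.single Pinf (1 : ℤ) + Finsupp.single P0 (1 : ℤ) :
      Divisor Qb ↥(modularFunctionFieldBar (M * p))) v := fun v => h10_D0_nonneg Pinf P0 v
  have hdeg : Divisor.degree (Finsupp.single Pinf (1 : ℤ) + Finsupp.single P0 (1 : ℤ) :
      Divisor Qb ↥(modularFunctionFieldBar (M * p))) = 2 :=
    h10_D0_degree (h75_deg_eq_one hxF) Pinf P0
  obtain ⟨ν₀, hx⟩ := h10_xmod_inst M p hpM A hA hch hPinf hP0
    (Qinf := h11_placeInftyC (IsLocalRing.ResidueField A) M) h84_isCusp_placeInftyC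
  obtain ⟨x, E2, hx0, hxO, hxinvO, hE2, hdisj, hxdiv, -, -, hxb1, hxb2⟩ :=
    hx (max ν₀ 1) (le_max_left _ _)
  have hN : 1 ≤ (p + 1) * max ν₀ 1 :=
    Nat.mul_pos (Nat.succ_pos p) (lt_of_lt_of_le Nat.one_pos (le_max_right _ _))
  have hdisj' : ∀ v, (Finsupp.single Pinf (1 : ℤ) + Finsupp.single P0 (1 : ℤ) :
      Divisor Qb ↥(modularFunctionFieldBar (M * p))) v = 0 ∨ E2 v = 0 := by
    intro v
    rcases hdisj v with h | h
    · left
      rw [Finsupp.smul_apply, nsmul_eq_mul] at h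
      rcases mul_eq_zero.mp h with h | h
      · have h' : (p + 1) * max ν₀ 1 = 0 := by exact_mod_cast h
        omega
      · exact h
    · right
      exact h
  have hxdiv' : ∀ v : Place Qb ↥(modularFunctionFieldBar (M * p)),
      v.ord x = E2 v - (((p + 1) * max ν₀ 1 : ℕ) : ℤ) *
        (Finsupp.single Pinf (1 : ℤ) + Finsupp.single P0 (1 : ℤ) :
          Divisor Qb ↥(modularFunctionFieldBar (M * p))) v := by
    intro v
    rw [hxdiv v, Finsupp.smul_apply, nsmul_eq_mul]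
  -- the frame of `h87_D` for the chart `α(j)`
  have hj1 := h22_R1_alpha_j M p hpM A hA
  have hj2 := h22_R2_alpha_j M p hpM A hA
  obtain ⟨ι, _, b, hb⟩ := h22_DMq_exists_frame M p hpM A hA
  have hG := h22_latOfPair_hG (h60_R1 M p hpM A hA) (h60_R2 M p hpM A hA) A
    (IsLocalRing.residue A) IsLocalRing.residue_surjective (h60_R1_A M p hpM A hA)
    (h60_R2_A M p hpM A hA) (h87_R1_resK M p hpM A hA) (h87_R2_resK M p hpM A hA)
    hj1.1 hj2.1 hj1.2 hj2.2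
  have hU := h22_latOfPair_hU (h60_R1 M p hpM A hA) (h60_R2 M p hpM A hA) A
    (IsLocalRing.residue A) IsLocalRing.residue_surjective (h60_R1_A M p hpM A hA)
    (h60_R2_A M p hpM A hA) (h87_R1_resK M p hpM A hA) (h87_R2_resK M p hpM A hA)
    hj1.1 hj2.1 hj1.2 hj2.2
  -- the constants
  have hζ1 : ζ - 1 ≠ 0 := sub_ne_zero.mpr (hζ.ne_one hp.one_lt)
  have hlamA : ζ - 1 ∈ (h87_D M p hpM A hA).A :=
    h15_zeta_sub_one_mem (h87_D M p hpM A hA) p hζ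
  have hlam_nu : ζ - 1 ∈ (h87_D M p hpM A hA).A.nonunits := by
    have h0 := h15_res_zeta_sub_one (h87_D M p hpM A hA) p hζ
    exact (h22_resK_eq_zero_iff (h87_D M p hpM A hA) hlamA).mp
      (((h87_D M p hpM A hA).resK_of_mem hlamA).trans h0)
  -- the inertia element
  obtain ⟨hgO, hgred⟩ := h87_D_gal M p hpM A hA σ0 hσ0
  have hgD0 := h10_D0_galois M p hpM σ0 hPinf hP0
  have hgζ : SemilinearAut.baseAut (arithmeticGalois (modularFunctionFieldFull (M * p)) σ0) ζ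
      = ζ ^ c := by
    rw [baseAut_arithmeticGalois]
    exact hσζ
  obtain ⟨h, hhred, hu⟩ := hdeep
  have hu' : u₀ = 1 + algebraMap Qb ↥(modularFunctionFieldBar (M * p)) ((ζ - 1) ^ p) *
      (h : ↥(modularFunctionFieldBar (M * p))) := by
    rw [← hu]
    ring
  exact h53_nmin_of_frob_c hxF hfr hy _ hpole hfix (h87_D M p hpM A hA) hG hU b hb
    (h87_D_hinv M p hpM A hA) hRk (ζ - 1) hlam_nu hζ1 _ E2 hD0 hdeg hE2 hdisj' _ hN
    x hx0 hxO hxinvO hxdiv' (le_of_eq hxb1) (le_of_eq hxb2) hreg n₁ hlead₁ hlead₂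
    (h31_graph_D₁ M p hpM A hA hch hPinf hP0) (h31_graph_D₂ M p hpM A hA hch hPinf hP0)
    ζ hζ (arithmeticGalois (modularFunctionFieldFull (M * p)) σ0) hgO hgred hgD0 c hgζ e he hc
    E₀ u₀ hu₀ hdiv (h : ↥(modularFunctionFieldBar (M * p))) h.2 hhred hu' hfixE

/-- **(N\*) with an eigenvalue at a charted level `M p`**: a class of `J₀(M p)` which is toric
of exponent `p` at `A`, `p`-new, and an eigenvector `σ0 • z = e • z` (`p ∤ e`) of an inertia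
element `σ0` at `A` acting on the `p`-th roots of unity through `μ ↦ μ ^ a` with
`a ≢ e mod p`, is zero. -/
theorem h53_nstar_c (hch : 5 ≤ p ∨ 2 ∣ M ∨ 3 ∣ M) (σ0 : Qb ≃ₐ[ℚ] Qb)
    (hσ0 : σ0 ∈ A.inertiaSubgroupIn ℚ) (a : ℕ) (hcyc : ∀ μ : Qb, μ ^ p = 1 → σ0 μ = μ ^ a)
    (e : ℕ) (he : ¬ p ∣ e) (hae : ¬ a ≡ e [MOD p]) (z : JZero (M * p))
    (htor : h29_Toric M p hpM A hA p z) (hnew : h67_Jnew M p z) (hfix : σ0 • z = e • z) :
    z = 0 := by
  obtain ⟨ζ, hζ⟩ := HasEnoughRootsOfUnity.exists_primitiveRoot Qb p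
  exact h53_nstar_of_G_c M p hpM A hA ζ hζ σ0 e
    (fun E u hu0 hEnew hdiv hu hured c hc0 _ =>
      h67_N1 M p hpM A hA E u hu0 hEnew hdiv hu hured c hc0)
    (fun E₀ u₀ _ hu₀ hdiv hdeep hfixE => h53_deep_principal_c M p hpM A hA hch ζ hζ σ0 hσ0 a
      (hcyc ζ hζ.pow_eq_one) e he hae E₀ u₀ hu₀ hdiv hdeep hfixE)
    z htor hnew hfix

/-- **(N\*) with an eigenvalue, eigenvalue form** (the shape of the hypothesis `hN` of
`h37_gt_split_nat`): a nonzero toric `p`-new eigenvector `σ0 • z = e • z`, `p ∤ e`, of an inertia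
element has eigenvalue `e ≡ a mod p`, `a` the cyclotomic exponent of `σ0`. -/
theorem h53_nstar_c_eig (hch : 5 ≤ p ∨ 2 ∣ M ∨ 3 ∣ M) (σ0 : Qb ≃ₐ[ℚ] Qb)
    (hσ0 : σ0 ∈ A.inertiaSubgroupIn ℚ) (a : ℕ) (hcyc : ∀ μ : Qb, μ ^ p = 1 → σ0 μ = μ ^ a)
    (z : JZero (M * p)) (hz : z ≠ 0)
    (htor : h29_Toric M p hpM A hA p z) (hnew : h67_Jnew M p z)
    (e : ℕ) (he : ¬ p ∣ e) (hfix : σ0 • z = e • z) : ((e : ℕ) : ZMod p) = ((a : ℕ) : ZMod p) := by
  by_contra hne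
  apply hz
  refine h53_nstar_c M p hpM A hA hch σ0 hσ0 a hcyc e he ?_ z htor hnew hfix
  intro h
  exact hne ((ZMod.natCast_eq_natCast_iff e a p).mpr h.symm)

end Mod

end Fermat.Agent.S40

end
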