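import Mathlib
import Fermat.Agent.S40.h37_GTSplit
import Fermat.Agent.S33.h39_ToricGrp
import Fermat.Agent.S35.h67_NewDefs
import Fermat.Agent.GAL.h11_CycFrob
import Fermat.Agent.S36.h49_MidGal

/-!
# S40 (G40), row FRONT: from the plane `V` to the configuration `(l₀, x, c)` (helper67)

Level `M p`, `p ∤ M`, `A` over `p`, `I := A.inertiaSubgroupIn ℚ`.  `V` is a plane over `𝔽_p` with
an action of `Γ = Gal(ℚ̄/ℚ)` (in the application: `E[p](ℚ̄)` itself) and `φ : V →+ J₀(M p)(ℚ̄)` an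
injective `Γ`-equivariant map (in the application: `π^* ∘ ι`).  `Vf := {v | φ v toric}`.

* `h67_front_core` : the group theory after `h37_gt_split_nat`: a generator `l₀` of the line
  `Vf`, a vector `x ∉ Vf` fixed by some `σ₀ ∈ I` with `ω σ₀ ≠ 1`, and a cocycle `c : G → ℕ`
  with `g x - x = c g • l₀` on `I`.
* `h67_front` : the modular form; the only non-formal input is (N-min_c) `hN`.
  The toric classes form an `I`-stable `𝔽_p`-subspace and `(g - 1) V ⊆ Vf` for `g ∈ I`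
  (`h39_formal_of_inertia`, no newness needed); `ω` = the mod `p` cyclotomic character is
  non-trivial on `I` for `p ≠ 2` (`h49_exists_inertia_pow`).
* `h67_front_mod` : the same with `hN` replaced by newness of `φ V` and the statement of the
  modular wrapper `nstar_c` (as a hypothesis, in its literal shape).
* `h67_front_jzero` : the `J₀`-side reading of the output (`x' := φ x`, `l₀' := φ l₀`), in the
  binder shape of the Kummer/Hilbert-90 row.
-/

set_option autoImplicit false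
set_option synthInstance.maxHeartbeats 400000

noncomputable section

open ModularCurve AlgebraicCurve ExtCitation Module

namespace Fermat.Agent.S40

open Fermat.Agent.S41 Fermat.Agent.S33 Fermat.Agent.S35 Fermat.Agent.S36 Fermat.Agent.GAL

local notation "Qb" => AlgebraicClosure ℚ

/-! ### The group theory after the split -/

section core

variable {p : ℕ} [Fact p.Prime] {G : Type*} [Group G] {V : Type*} [AddCommGroup V]
  [Module (ZMod p) V] [DistribMulAction G V]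

/-- In an `𝔽_p`-module, `p • v = 0`. -/
theorem h67_front_p_nsmul (v : V) : p • v = 0 := by
  rw [← Nat.cast_smul_eq_nsmul (ZMod p) p v, ZMod.natCast_self, zero_smul]

/-- In an `𝔽_p`-module, the scalar `a` acts as the natural number `a.val`. -/
theorem h67_front_val_nsmul (a : ZMod p) (v : V) : a.val • v = a • v := by
  have hp : p.Prime := Fact.out
  have : NeZero p := ⟨hp.ne_zero⟩
  rw [← Nat.cast_smul_eq_nsmul (ZMod p) a.val v, ZMod.natCast_zmod_val]

/-- **(FRONT), group theory.**  The conclusion of `h37_gt_split_nat`, unpacked: a generator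
`l₀` of the line `Vf`, a vector `x ∉ Vf` fixed by some `σ₀ ∈ I` with `ω σ₀ ≠ 1`, and
`c : G → ℕ` with `g x - x = c g • l₀` for `g ∈ I`; `I` acts on `l₀` through `ω`
(`ex g` any natural number representing `ω g`). -/
theorem h67_front_core (hV : finrank (ZMod p) V = 2) (I : Subgroup G) (ω : G →* (ZMod p)ˣ)
    (ex : G → ℕ) (hex : ∀ g, ((ω g : (ZMod p)ˣ) : ZMod p) = (ex g : ZMod p))
    (hdet : ∀ g ∈ I, LinearMap.det (h45_rho p g : V →ₗ[ZMod p] V) = ((ω g : (ZMod p)ˣ) : ZMod p))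
    (hω : ∃ g ∈ I, ω g ≠ 1)
    (Vf : Submodule (ZMod p) V)
    (hstab : ∀ g ∈ I, ∀ z ∈ Vf, g • z ∈ Vf)
    (hF : ∀ g ∈ I, ∀ v : V, g • v - v ∈ Vf)
    (hN : ∀ g ∈ I, ∀ z ∈ Vf, z ≠ 0 → ∀ e : ℕ, ¬ p ∣ e → g • z = e • z →
      (e : ZMod p) = ((ω g : (ZMod p)ˣ) : ZMod p)) :
    ∃ (l0 x : V) (c : G → ℕ), l0 ≠ 0 ∧ l0 ∈ Vf ∧ (∀ v ∈ Vf, ∃ n : ℕ, v = n • l0) ∧ x ∉ Vf ∧
      (∀ g ∈ I, g • l0 = ex g • l0) ∧ (∀ g ∈ I, g • x - x = c g • l0) ∧
      ∃ σ0 ∈ I, ω σ0 ≠ 1 ∧ σ0 • x = x := by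
  obtain ⟨h1, h2, h3⟩ := h37_gt_split_nat hV I ω hdet hω Vf hstab hF hN
  obtain ⟨⟨l0, hl0⟩, hl0ne, hgen⟩ := finrank_eq_one_iff'.mp h1
  have hl0ne' : l0 ≠ 0 := by
    intro h
    apply hl0ne
    exact Subtype.ext h
  have hgen' : ∀ v ∈ Vf, ∃ n : ℕ, v = n • l0 := by
    intro v hv
    obtain ⟨a, ha⟩ := hgen ⟨v, hv⟩
    refine ⟨a.val, ?_⟩
    have ha' : a • l0 = v := congrArg Subtype.val ha
    rw [h67_front_val_nsmul, ha']
  obtain ⟨σ0, hσ0, hωσ0⟩ := hω
  obtain ⟨x, hx, hfix⟩ := h3 σ0 hσ0 hωσ0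
  classical
  refine ⟨l0, x, fun g => if hg : g ∈ I then (hgen' _ (hF g hg x)).choose else 0,
    hl0ne', hl0, hgen', hx, ?_, ?_, σ0, hσ0, hωσ0, hfix⟩
  · intro g hg
    rw [h2 g hg l0 hl0, hex g, Nat.cast_smul_eq_nsmul]
  · intro g hg
    simp only [dif_pos hg]
    exact (hgen' _ (hF g hg x)).choose_spec

end core

/-! ### The modular form -/

/-- The mod `p` cyclotomic character is non-trivial on the inertia group at `p` (`p ≠ 2`). -/
theorem h67_front_cyclo_ne_one (p : ℕ) [Fact p.Prime] (A : ValuationSubring Qb)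
    (hA : A.LiesOverPrime p) (hp2 : p ≠ 2) :
    ∃ g ∈ A.inertiaSubgroupIn ℚ, cycloChar p g ≠ 1 := by
  have hp : p.Prime := Fact.out
  obtain ⟨ζ, hζ⟩ := h11_exists_primitiveRoot p
  have h2 : ¬ p ∣ 2 := fun h => hp2 ((Nat.prime_dvd_prime_iff_eq hp Nat.prime_two).mp h)
  obtain ⟨τ, hτ, hτζ⟩ := h49_exists_inertia_pow p A hA ζ hζ 2 h2
  refine ⟨τ, hτ, fun h1 => ?_⟩
  have h3 := h11_cycloChar_eq_of_pow τ ζ hζ 2 hτζ
  rw [h1, Units.val_one] at h3
  have h4 : ((1 : ℕ) : ZMod p) = ((2 : ℕ) : ZMod p) := by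
    rw [Nat.cast_one, Nat.cast_ofNat]
    exact h3
  have h5 := (ZMod.natCast_eq_natCast_iff' 1 2 p).mp h4
  rw [Nat.mod_eq_of_lt hp.one_lt] at h5
  have h6 : 2 % p = 2 ∨ 2 % p = 0 := by
    rcases Nat.lt_or_ge 2 p with h | h
    · exact Or.inl (Nat.mod_eq_of_lt h)
    · have : p = 2 := le_antisymm h hp.two_le
      exact absurd this hp2
  rcases h6 with h | h <;> omega

section modular

variable (M p : ℕ) [NeZero M] [NeZero p] [Fact p.Prime] (hpM : ¬ p ∣ M)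
  (A : ValuationSubring Qb) (hA : A.LiesOverPrime p)

/-- Natural multiples of toric classes are toric. -/
theorem h67_front_toric_nsmul (m n : ℕ) {y : JZero (M * p)}
    (hy : h29_Toric M p hpM A hA m y) : h29_Toric M p hpM A hA m (n • y) := by
  induction n with
  | zero => rw [zero_nsmul]; exact h39_toric_zero M p hpM A hA m
  | succ n ih => rw [succ_nsmul]; exact h39_toric_add M p hpM A hA m ih hy

/-- The toric classes (exponent `p`) killed by `p` are stable under the inertia group of `A`. -/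
theorem h67_front_toric_inertia (g : Qb ≃ₐ[ℚ] Qb) (hg : g ∈ A.inertiaSubgroupIn ℚ)
    {y : JZero (M * p)} (hpy : p • y = 0) (hy : h29_Toric M p hpM A hA p y) :
    h29_Toric M p hpM A hA p (g • y) := by
  have hp : p.Prime := Fact.out
  have h1 := h39_formal_of_inertia M p hpM A hA g hg p hp.ne_zero y hpy
  have h2 := h39_toric_add M p hpM A hA p h1 hy
  rwa [sub_add_cancel] at h2

variable {V : Type*} [AddCommGroup V] [Module (ZMod p) V]

/-- The toric part of `V` (through `φ`), as an `𝔽_p`-subspace. -/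
def h67_frontVf (φ : V →+ JZero (M * p)) : Submodule (ZMod p) V where
  carrier := {v | h29_Toric M p hpM A hA p (φ v)}
  add_mem' := by
    intro a b ha hb
    show h29_Toric M p hpM A hA p (φ (a + b))
    rw [map_add]
    exact h39_toric_add M p hpM A hA p ha hb
  zero_mem' := by
    show h29_Toric M p hpM A hA p (φ 0)
    rw [map_zero]
    exact h39_toric_zero M p hpM A hA p
  smul_mem' := by
    intro c v hv
    show h29_Toric M p hpM A hA p (φ (c • v))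
    rw [← h67_front_val_nsmul, map_nsmul]
    exact h67_front_toric_nsmul M p hpM A hA p c.val hv

theorem h67_mem_frontVf (φ : V →+ JZero (M * p)) (v : V) :
    v ∈ h67_frontVf M p hpM A hA φ ↔ h29_Toric M p hpM A hA p (φ v) := Iff.rfl

variable [DistribMulAction (Qb ≃ₐ[ℚ] Qb) V]

/-- **(FRONT), modular form.**  `V` a plane over `𝔽_p` with `Γ`-action, `φ : V →+ J₀(M p)`
injective and `Γ`-equivariant, `det = ` cyclotomic character on the inertia group `I` of `A`,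
`p ≠ 2`, and (N-min_c) `hN` (read through `φ`).  Then the toric part of `V` is a line `⟨l₀⟩`
on which `I` acts through the cyclotomic character, there is `x ∈ V` non-toric and fixed by
some `σ₀ ∈ I` with `χ(σ₀) ≠ 1`, and `g x - x = c g • l₀` for `g ∈ I`. -/
theorem h67_front (hV : finrank (ZMod p) V = 2)
    (φ : V →+ JZero (M * p))
    (hφg : ∀ (σ : Qb ≃ₐ[ℚ] Qb) (v : V), φ (σ • v) = σ • φ v)
    (hdet : ∀ g ∈ A.inertiaSubgroupIn ℚ,
      LinearMap.det (h45_rho p g : V →ₗ[ZMod p] V) = ((cycloChar p g : (ZMod p)ˣ) : ZMod p))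
    (hp2 : p ≠ 2)
    (hN : ∀ σ0 ∈ A.inertiaSubgroupIn ℚ, ∀ a e : ℕ, (∀ μ : Qb, μ ^ p = 1 → σ0 μ = μ ^ a) →
      ¬ p ∣ e → ¬ a ≡ e [MOD p] → ∀ v : V, h29_Toric M p hpM A hA p (φ v) →
        σ0 • v = e • v → v = 0) :
    ∃ (l0 x : V) (c : (Qb ≃ₐ[ℚ] Qb) → ℕ), l0 ≠ 0 ∧ h29_Toric M p hpM A hA p (φ l0) ∧
      (∀ v : V, h29_Toric M p hpM A hA p (φ v) → ∃ n : ℕ, v = n • l0) ∧
      ¬ h29_Toric M p hpM A hA p (φ x) ∧
      (∀ g ∈ A.inertiaSubgroupIn ℚ, g • l0 = cycloExp p g • l0) ∧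
      (∀ g ∈ A.inertiaSubgroupIn ℚ, g • x - x = c g • l0) ∧
      ∃ σ0 ∈ A.inertiaSubgroupIn ℚ, cycloChar p σ0 ≠ 1 ∧ σ0 • x = x := by
  have hp : p.Prime := Fact.out
  have hpφ : ∀ v : V, p • φ v = 0 := by
    intro v
    rw [← map_nsmul, h67_front_p_nsmul, map_zero]
  refine h67_front_core hV (A.inertiaSubgroupIn ℚ) (cycloChar p) (cycloExp p)
    (fun g => coe_cycloChar p g) hdet (h67_front_cyclo_ne_one p A hA hp2)
    (h67_frontVf M p hpM A hA φ) ?_ ?_ ?_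
  · intro g hg z hz
    show h29_Toric M p hpM A hA p (φ (g • z))
    rw [hφg]
    exact h67_front_toric_inertia M p hpM A hA g hg (hpφ z) hz
  · intro g hg v
    show h29_Toric M p hpM A hA p (φ (g • v - v))
    rw [map_sub, hφg]
    exact h39_formal_of_inertia M p hpM A hA g hg p hp.ne_zero (φ v) (hpφ v)
  · intro g hg z hz hz0 e he hge
    by_contra hne
    apply hz0
    refine hN g hg (cycloExp p g) e (fun μ hμ => h11_cycloExp_spec p g μ hμ) he ?_ z hz hge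
    intro hmod
    apply hne
    rw [coe_cycloChar]
    exact ((ZMod.natCast_eq_natCast_iff _ _ _).mpr hmod).symm

/-- **(FRONT) from the modular wrapper of N-min_c.**  `hN` of `h67_front` is replaced by the
newness of `φ V` and the statement `hnstar` of the modular wrapper `nstar_c` at level `M p`
(toric + new + `σ₀ z = e z` with `e ≢ χ(σ₀)` ⟹ `z = 0`). -/
theorem h67_front_mod (hV : finrank (ZMod p) V = 2)
    (φ : V →+ JZero (M * p)) (hφ : Function.Injective φ)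
    (hφg : ∀ (σ : Qb ≃ₐ[ℚ] Qb) (v : V), φ (σ • v) = σ • φ v)
    (hdet : ∀ g ∈ A.inertiaSubgroupIn ℚ,
      LinearMap.det (h45_rho p g : V →ₗ[ZMod p] V) = ((cycloChar p g : (ZMod p)ˣ) : ZMod p))
    (hp2 : p ≠ 2)
    (hnew : ∀ v : V, h67_Jnew M p (φ v))
    (hnstar : ∀ (σ0 : Qb ≃ₐ[ℚ] Qb), σ0 ∈ A.inertiaSubgroupIn ℚ → ∀ (a : ℕ),
      (∀ μ : Qb, μ ^ p = 1 → σ0 μ = μ ^ a) → ∀ (e : ℕ), ¬ p ∣ e → ¬ a ≡ e [MOD p] →
      ∀ (z : JZero (M * p)), p • z = 0 → h29_Toric M p hpM A hA p z → h67_Jnew M p z →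
        σ0 • z = e • z → z = 0) :
    ∃ (l0 x : V) (c : (Qb ≃ₐ[ℚ] Qb) → ℕ), l0 ≠ 0 ∧ h29_Toric M p hpM A hA p (φ l0) ∧
      (∀ v : V, h29_Toric M p hpM A hA p (φ v) → ∃ n : ℕ, v = n • l0) ∧
      ¬ h29_Toric M p hpM A hA p (φ x) ∧
      (∀ g ∈ A.inertiaSubgroupIn ℚ, g • l0 = cycloExp p g • l0) ∧
      (∀ g ∈ A.inertiaSubgroupIn ℚ, g • x - x = c g • l0) ∧
      ∃ σ0 ∈ A.inertiaSubgroupIn ℚ, cycloChar p σ0 ≠ 1 ∧ σ0 • x = x := by
  refine h67_front M p hpM A hA hV φ hφg hdet hp2 ?_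
  intro σ0 hσ0 a e hcyc he hae v hv hfix
  apply hφ
  rw [map_zero]
  refine hnstar σ0 hσ0 a hcyc e he hae (φ v) ?_ hv (hnew v) ?_
  · rw [← map_nsmul, h67_front_p_nsmul, map_zero]
  · rw [← hφg, hfix, map_nsmul]

omit [NeZero M] [NeZero p] in
/-- **(FRONT), `J₀`-side reading.**  With `x' := φ x`, `l₀' := φ l₀` the output of `h67_front`
reads: `l₀' ≠ 0`, `p • l₀' = 0`, `p • x' = 0`, `l₀'` toric, `x'` not toric, `g l₀' = χ(g) l₀'`
and `g x' - x' = c g • l₀'` on `I`, and for `g ∈ I`: `g x' = x' ↔ p ∣ c g`. -/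
theorem h67_front_jzero
    (φ : V →+ JZero (M * p)) (hφ : Function.Injective φ)
    (hφg : ∀ (σ : Qb ≃ₐ[ℚ] Qb) (v : V), φ (σ • v) = σ • φ v)
    (l0 x : V) (c : (Qb ≃ₐ[ℚ] Qb) → ℕ) (hl0 : l0 ≠ 0)
    (hl : ∀ g ∈ A.inertiaSubgroupIn ℚ, g • l0 = cycloExp p g • l0)
    (hx : ∀ g ∈ A.inertiaSubgroupIn ℚ, g • x - x = c g • l0) :
    φ l0 ≠ 0 ∧ p • φ l0 = 0 ∧ p • φ x = 0 ∧
      (∀ g ∈ A.inertiaSubgroupIn ℚ, g • φ l0 = cycloExp p g • φ l0) ∧
      (∀ g ∈ A.inertiaSubgroupIn ℚ, g • φ x - φ x = c g • φ l0) ∧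
      (∀ g ∈ A.inertiaSubgroupIn ℚ, (g • φ x = φ x ↔ p ∣ c g)) ∧
      (∀ g ∈ A.inertiaSubgroupIn ℚ, (g • x = x ↔ p ∣ c g)) := by
  have hp : p.Prime := Fact.out
  have hpφ : ∀ v : V, p • φ v = 0 := by
    intro v
    rw [← map_nsmul, h67_front_p_nsmul, map_zero]
  have hφl0 : φ l0 ≠ 0 := fun h => hl0 (hφ (by rw [h, map_zero]))
  have hiff : ∀ g ∈ A.inertiaSubgroupIn ℚ, (g • x = x ↔ p ∣ c g) := by
    intro g hg
    constructor
    · intro h
      have h1 := hx g hg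
      rw [h, sub_self] at h1
      by_contra hnd
      have hcop : Nat.Coprime (c g) p := (Nat.coprime_comm.mp ((Nat.Prime.coprime_iff_not_dvd hp).mpr hnd))
      obtain ⟨u, v, huv⟩ : ∃ u v : ℤ, u * (c g : ℤ) + v * (p : ℤ) = 1 := by
        have := Nat.Coprime.isCoprime hcop
        obtain ⟨u, v, h⟩ := this
        exact ⟨u, v, h⟩
      apply hl0
      have h2 : (u * (c g : ℤ) + v * (p : ℤ)) • l0 = 0 := by
        rw [add_smul, mul_smul, mul_smul, natCast_zsmul, natCast_zsmul, ← h1, smul_zero,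
          h67_front_p_nsmul, smul_zero, add_zero]
      rwa [huv, one_smul] at h2
    · rintro ⟨k, hk⟩
      have h1 := hx g hg
      rw [hk, mul_smul, h67_front_p_nsmul] at h1
      exact sub_eq_zero.mp h1
  refine ⟨hφl0, hpφ l0, hpφ x, ?_, ?_, ?_, hiff⟩
  · intro g hg
    rw [← hφg, hl g hg, map_nsmul]
  · intro g hg
    rw [← hφg, ← map_sub, hx g hg, map_nsmul]
  · intro g hg
    rw [← hiff g hg, ← hφg]
    exact ⟨fun h => hφ h, fun h => by rw [h]⟩

end modular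

end Fermat.Agent.S40
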