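import Mathlib
import Fermat.Agent.S40.h67_Front
import Fermat.Agent.S40.h53_NStarC
import Fermat.Agent.S40.h42_HeckeA
import Fermat.Agent.S40.h12_KummerEis
import Fermat.Agent.S40.h37_ESide
import Fermat.Agent.S41.h16_CField
import Fermat.Agent.S41.h70_P2

/-!
# S40 (G40), row FRONT, closed forms (helper67)

Everything of the J-side core that happens BEFORE the (TR) chain, as ONE call.

`E : WeierstrassCurve ℚ` elliptic with integral model `W`, `p` odd, `E[p]` irreducible;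
level `M p` with `p ∤ M`, charted (`hch`); `A` over `p`, `I := A.inertiaSubgroupIn ℚ`;
`φ : E[p](ℚ̄) →+ J₀(M p)(ℚ̄)` injective, Galois-equivariant, with `p`-new image
(in the application `φ = π^* ∘ ι`, `ι` from `h42_hecke_embed`, newness from `h45_topB`).

* `h67_front_nstar` : `h67_front_mod` with the modular wrapper `h53_nstar_c` plugged in
  (any plane `V` in the S41 framework).
* `h67_front_E` : the same for `V = E[p](ℚ̄)` (`det = χ_p` by `h42_det_eq_cyclo`,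
  `#E[p] = p²` by `c_p2`): the toric part of `E[p]` is a line `⟨l₀⟩` on which `I` acts through
  the cyclotomic character, `x ∈ E[p]` is non-toric, and `g x - x = c g • l₀` on `I`.
* `h67_front_peu` : with the E-side `h37_ESide E p` in addition: the Kummer element `e` of the
  cocycle `c` (Hilbert 90, `h12_kummer_of_line`: `g e = ζ ^ c g * e` on `I`) is peu ramifié:
  `v(e ^ p) = v(p) ^ (p m)` for some `m : ℤ`.  This is the input of (TR-MAIN); its conclusion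
  (all residue orders divisible by `p`) leads, through the tail, to `φ x` toric, which
  contradicts the clause `¬ h29_Toric .. (φ x)` of the output.
-/

set_option autoImplicit false
set_option synthInstance.maxHeartbeats 400000

noncomputable section

open ModularCurve AlgebraicCurve ExtCitation Module
open WeierstrassCurve WeierstrassCurve.Affine WeierstrassCurve.Affine.Point

namespace Fermat.Agent.S40

open Fermat.Agent.S41 Fermat.Agent.S33 Fermat.Agent.S35 Fermat.Agent.S36 Fermat.Agent.GAL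

local notation "Qb" => AlgebraicClosure ℚ

section nstar

variable (M p : ℕ) [NeZero M] [NeZero p] [Fact p.Prime] (hpM : ¬ p ∣ M)
  (A : ValuationSubring Qb) (hA : A.LiesOverPrime p)
  {V : Type*} [AddCommGroup V] [Module (ZMod p) V] [DistribMulAction (Qb ≃ₐ[ℚ] Qb) V]

/-- **(FRONT) at a charted level**, any plane `V` in the S41 framework: `h67_front_mod` with
the modular wrapper `h53_nstar_c` of N-min_c plugged in. -/
theorem h67_front_nstar (hch : 5 ≤ p ∨ 2 ∣ M ∨ 3 ∣ M) (hV : finrank (ZMod p) V = 2)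
    (φ : V →+ JZero (M * p)) (hφ : Function.Injective φ)
    (hφg : ∀ (σ : Qb ≃ₐ[ℚ] Qb) (v : V), φ (σ • v) = σ • φ v)
    (hdet : ∀ g ∈ A.inertiaSubgroupIn ℚ,
      LinearMap.det (h45_rho p g : V →ₗ[ZMod p] V) = ((cycloChar p g : (ZMod p)ˣ) : ZMod p))
    (hp2 : p ≠ 2)
    (hnew : ∀ v : V, h67_Jnew M p (φ v)) :
    ∃ (l0 x : V) (c : (Qb ≃ₐ[ℚ] Qb) → ℕ), l0 ≠ 0 ∧ h29_Toric M p hpM A hA p (φ l0) ∧
      (∀ v : V, h29_Toric M p hpM A hA p (φ v) → ∃ n : ℕ, v = n • l0) ∧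
      ¬ h29_Toric M p hpM A hA p (φ x) ∧
      (∀ g ∈ A.inertiaSubgroupIn ℚ, g • l0 = cycloExp p g • l0) ∧
      (∀ g ∈ A.inertiaSubgroupIn ℚ, g • x - x = c g • l0) ∧
      ∃ σ0 ∈ A.inertiaSubgroupIn ℚ, cycloChar p σ0 ≠ 1 ∧ σ0 • x = x :=
  h67_front_mod M p hpM A hA hV φ hφ hφg hdet hp2 hnew
    (fun σ0 hσ0 a hcyc e he hae z _ htor hnewz hfix =>
      h53_nstar_c M p hpM A hA hch σ0 hσ0 a hcyc e he hae z htor hnewz hfix)

end nstar

section elliptic

variable (E : WeierstrassCurve ℚ) [E.IsElliptic] {W : WeierstrassCurve ℤ}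
  (hW : W.IsIntegralModelOf E)
  (M p : ℕ) [NeZero M] [NeZero p] [Fact p.Prime] (hp2 : p ≠ 2) (hpM : ¬ p ∣ M)
  (hch : 5 ≤ p ∨ 2 ∣ M ∨ 3 ∣ M)
  (hirr : GaloisRepIsIrreducible (K := Qb) ℚ E p)
  (A : ValuationSubring Qb) (hA : A.LiesOverPrime p)

include hW hp2 hch hirr in
/-- **(FRONT) for `E[p]`.**  `φ : E[p](ℚ̄) →+ J₀(M p)` injective, Galois-equivariant, with
`p`-new image, at a charted level.  Then the toric part of `E[p]` (through `φ`) is a line
`⟨l₀⟩` on which the inertia group `I` of `A` acts through the cyclotomic character; there is a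
non-toric `x` fixed by some `σ₀ ∈ I` with `χ_p(σ₀) ≠ 1`; and `g x - x = c g • l₀` on `I`. -/
theorem h67_front_E
    (φ : Submodule.torsionBy ℤ (E⁄Qb).Point p →+ JZero (M * p)) (hφ : Function.Injective φ)
    (hφg : ∀ (σ : Qb ≃ₐ[ℚ] Qb) (P : Submodule.torsionBy ℤ (E⁄Qb).Point p),
      φ (σ • P) = σ • φ P)
    (hnew : ∀ P : Submodule.torsionBy ℤ (E⁄Qb).Point p, h67_Jnew M p (φ P)) :
    ∃ (l0 x : Submodule.torsionBy ℤ (E⁄Qb).Point p) (c : (Qb ≃ₐ[ℚ] Qb) → ℕ), l0 ≠ 0 ∧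
      h29_Toric M p hpM A hA p (φ l0) ∧
      (∀ v : Submodule.torsionBy ℤ (E⁄Qb).Point p,
        h29_Toric M p hpM A hA p (φ v) → ∃ n : ℕ, v = n • l0) ∧
      ¬ h29_Toric M p hpM A hA p (φ x) ∧
      (∀ g ∈ A.inertiaSubgroupIn ℚ, g • l0 = cycloExp p g • l0) ∧
      (∀ g ∈ A.inertiaSubgroupIn ℚ, g • x - x = c g • l0) ∧
      ∃ σ0 ∈ A.inertiaSubgroupIn ℚ, cycloChar p σ0 ≠ 1 ∧ σ0 • x = x := by
  have hp : p.Prime := Fact.out
  exact h67_front_nstar M p hpM A hA hch (h45_finrank (c_p2 E hp hp2)) φ hφ hφg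
    (fun g _ => h42_det_eq_cyclo E hW hp2 hirr g) hp2 hnew

include hW hp2 hch hirr in
/-- **(FRONT) + (W0a) + (E-SIDE): the Kummer element is peu ramifié.**  In the situation of
`h67_front_E`, with the E-side `h37_ESide E p`: there are `l₀, x ∈ E[p]`, `c : Γ → ℕ`, a
primitive `p`-th root of unity `ζ` and `e ≠ 0` with

* `l₀ ≠ 0`, `φ l₀` toric, every `v` with `φ v` toric is a multiple of `l₀`, `φ x` NOT toric;
* on `I`: `g • φ l₀ = χ(g) • φ l₀`, `g • φ x - φ x = c g • φ l₀`, `g e = ζ ^ c g * e`;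
* `v(e ^ p) = v(p) ^ (p m)` for some `m : ℤ`. -/
theorem h67_front_peu (hE : h37_ESide E p)
    (φ : Submodule.torsionBy ℤ (E⁄Qb).Point p →+ JZero (M * p)) (hφ : Function.Injective φ)
    (hφg : ∀ (σ : Qb ≃ₐ[ℚ] Qb) (P : Submodule.torsionBy ℤ (E⁄Qb).Point p),
      φ (σ • P) = σ • φ P)
    (hnew : ∀ P : Submodule.torsionBy ℤ (E⁄Qb).Point p, h67_Jnew M p (φ P)) :
    ∃ (l0 x : Submodule.torsionBy ℤ (E⁄Qb).Point p) (c : (Qb ≃ₐ[ℚ] Qb) → ℕ) (ζ e : Qb),
      l0 ≠ 0 ∧ h29_Toric M p hpM A hA p (φ l0) ∧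
      (∀ v : Submodule.torsionBy ℤ (E⁄Qb).Point p,
        h29_Toric M p hpM A hA p (φ v) → ∃ n : ℕ, v = n • l0) ∧
      ¬ h29_Toric M p hpM A hA p (φ x) ∧
      φ l0 ≠ 0 ∧ p • φ l0 = 0 ∧ p • φ x = 0 ∧
      (∀ g ∈ A.inertiaSubgroupIn ℚ, g • φ l0 = cycloExp p g • φ l0) ∧
      (∀ g ∈ A.inertiaSubgroupIn ℚ, g • φ x - φ x = c g • φ l0) ∧
      IsPrimitiveRoot ζ p ∧ e ≠ 0 ∧
      (∀ g ∈ A.inertiaSubgroupIn ℚ, g e = ζ ^ c g * e) ∧
      ∃ m : ℤ, A.valuation (e ^ p) = A.valuation (p : Qb) ^ ((p : ℤ) * m) := by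
  have hp : p.Prime := Fact.out
  obtain ⟨l0, x, c, hl0, htl0, hgen, hntx, hl, hx, -⟩ :=
    h67_front_E E hW M p hp2 hpM hch hirr A hA φ hφ hφg hnew
  obtain ⟨hφl0, hpl0, hpx, hl', hx', -, -⟩ :=
    h67_front_jzero M p A φ hφ hφg l0 x c hl0 hl hx
  obtain ⟨ζ, hζ⟩ := h11_exists_primitiveRoot p
  have hfin : Finite (Submodule.torsionBy ℤ (E⁄Qb).Point p) :=
    Nat.finite_of_card_ne_zero (by rw [c_p2 E hp hp2]; exact pow_ne_zero _ hp.ne_zero)
  obtain ⟨L, hLfd, -, -, hL⟩ := c_field E p hfin ∅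
  have := hLfd
  obtain ⟨e, he0, he, hκI, hiff⟩ := h12_kummer_of_line p (A.inertiaSubgroupIn ℚ) ζ hζ x l0 hl0
    (h67_front_p_nsmul l0) c (cycloExp p) hx hl
    (fun g _ => h11_cycloExp_spec p g ζ hζ.pow_eq_one) L
    (fun u hu => by
      have h1 := hL u 1 (fun b hb => by rw [hu b hb]; rfl) x
      rwa [one_smul] at h1)
  refine ⟨l0, x, c, ζ, e, hl0, htl0, hgen, hntx, hφl0, hpl0, hpx, hl', hx', hζ, he0, he, ?_⟩
  by_contra hcon0
  have hcon : ∀ m : ℤ, A.valuation (e ^ p) ≠ A.valuation (p : Qb) ^ ((p : ℤ) * m) :=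
    fun m h => hcon0 ⟨m, h⟩
  have hP : p • (x : (E⁄Qb).Point) = 0 := by
    have h1 := x.2
    rw [Submodule.mem_torsionBy_iff] at h1
    rwa [natCast_zsmul] at h1
  refine hE A hA ζ hζ e he0 hκI hcon (x : (E⁄Qb).Point) hP (fun σ hσ _ => ?_)
  rw [hiff σ hσ]
  exact ⟨fun h => congrArg Subtype.val h, fun h => Subtype.ext h⟩

end elliptic

end Fermat.Agent.S40
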