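import Mathlib
import Fermat.Agent.S40.h67_FrontTop
import Fermat.Agent.S40.h55_Stage1
import Fermat.Agent.S40.h12_KummerMod
import Fermat.Agent.S40.h32_AuxPrime
import Fermat.Agent.S54.Frob

/-!
# S40/S44 (G40): the J-side core reduced to ONE statement (BACK) (helper67)

Everything of the core theorem (level lowering at `p` for an integral model `W` of `E / ℚ`)
that is on main, composed:

* `[HK-A] + [HK-B] + [TOP-C]` : `h55_stage1` (the plane `ι'' E[p] ⊆ J₀(M' r p)[p]`, `p`-new,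
  Hecke eigen, at the thin level `M' r p`);
* `(FRONT)` : `h67_front_peu` (toric line `⟨l₀⟩`, non-toric `x`, cocycle `c`, Kummer element
  `e`, and, by the E-side, `v(e ^ p) ∈ v(p) ^ (p ℤ)`);
* `(W0)` : `h12_front_cases` (SPLIT: `x - i l₀` is fixed by inertia; or WILD: the Eisenstein
  pair `(z, w)`, `(1 + w) ^ p = 1 + p z`, with `Stab_I(w) = Stab_I(x)`);
* the auxiliary prime `h32_exists_aux_prime` and a place `A` over `p`.

What is left is the statement `h67_BackStmt` = (TR-MAIN) + (AUX-DOWN) + (BRIDGE) + (TRIV ⟹ TORIC):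

  for `P ∈ E[p]` and an Eisenstein pair `(z, w)` (`z` an inertia-fixed unit,
  `(1 + w) ^ p = 1 + p z`): if every `g ∈ I` fixing `w` fixes the class `ι'' P`, then `ι'' P`
  is toric (`h29_Toric`) at the level `(M' r, p)`.

In the SPLIT case it is applied to `P = x - i l₀` with the auxiliary pair `(1, w#)`,
`(1 + w#) ^ p = 1 + p` (`h12_exists_aux`); in the WILD case to `P = x` with the pair of W0.
Either way `x` becomes toric, which contradicts the (FRONT).

* `h67_core_of_back` : fixed auxiliary prime `r` and place `A`.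
* `h67_core_of_backAll` : the header of the core theorem (`p ∣ M`, `p² ∤ M`, conclusion at
  `M / p`), with (BACK) for every auxiliary prime `r > B` (`r ≡ 11 mod 12`, `r ∤ M' p`,
  `p ∤ r + 1`) as the only hypothesis.
-/

set_option autoImplicit false
set_option synthInstance.maxHeartbeats 400000

noncomputable section

open ModularCurve AlgebraicCurve ExtCitation Module
open WeierstrassCurve WeierstrassCurve.Affine WeierstrassCurve.Affine.Point

namespace Fermat.Agent.S40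

open Fermat.Agent.S41 Fermat.Agent.S33 Fermat.Agent.S35 Fermat.Agent.S36 Fermat.Agent.GAL

local notation "Qb" => AlgebraicClosure ℚ

/-- **The statement (BACK)** at the thin level `(M' r, p)`, for the place `A` over `p`:
for every pair `(ι, ι'')` with the properties delivered by `h55_stage1`, every `P ∈ E[p]` and
every Eisenstein pair `(z, w)`: if the stabiliser of `w` in the inertia group fixes `ι'' P`,
then `ι'' P` is toric. -/
def h67_BackStmt (E : WeierstrassCurve ℚ) [E.IsElliptic] (W : WeierstrassCurve ℤ)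
    (M' p r : ℕ) [Fact p.Prime] [NeZero p] [NeZero M'] [NeZero r] (hpMr : ¬ p ∣ M' * r)
    (A : ValuationSubring Qb) (hA : A.LiesOverPrime p) : Prop :=
  ∀ (ι : Submodule.torsionBy ℤ (E⁄Qb).Point p →+ JZero (M' * p))
    (ι'' : Submodule.torsionBy ℤ (E⁄Qb).Point p →+ JZero (M' * r * p)),
    (∀ P, ι'' P = h55_auxUp M' p r (ι P)) →
    Function.Injective ι → Function.Injective ι'' →
    (∀ (σ : Qb ≃ₐ[ℚ] Qb) (P : Submodule.torsionBy ℤ (E⁄Qb).Point p), ι (σ • P) = σ • ι P) →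
    (∀ (σ : Qb ≃ₐ[ℚ] Qb) (P : Submodule.torsionBy ℤ (E⁄Qb).Point p),
      ι'' (σ • P) = σ • ι'' P) →
    (∀ P, p • ι P = 0) → (∀ P, p • ι'' P = 0) →
    (∀ (ℓ : ℕ) (hℓ : ℓ.Prime), W.IsGoodPrimeFor ℓ → ¬ ℓ ∣ M' * p → ℓ ≠ p →
      ∀ P, heckeOperatorBar (M' * p) ⟨ℓ, hℓ⟩ (ι P) = W.apOfModel ℓ • ι P) →
    (∀ (ℓ : ℕ) (hℓ : ℓ.Prime), W.IsGoodPrimeFor ℓ → ¬ ℓ ∣ M' * r * p → ℓ ≠ p →
      ∀ P, heckeOperatorBar (M' * r * p) ⟨ℓ, hℓ⟩ (ι'' P) = W.apOfModel ℓ • ι'' P) →
    (∀ P, h67_Jnew M' p (ι P)) → (∀ P, h67_Jnew (M' * r) p (ι'' P)) →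
    ∀ (P : Submodule.torsionBy ℤ (E⁄Qb).Point p) (z w : Qb),
      A.valuation z = 1 → (∀ g ∈ A.inertiaSubgroupIn ℚ, g z = z) →
      (1 + w) ^ p = 1 + (p : Qb) * z →
      (∀ g ∈ A.inertiaSubgroupIn ℚ, g w = w → g • ι'' P = ι'' P) →
      h29_Toric (M' * r) p hpMr A hA p (ι'' P)

/-- **The core from (BACK)**, fixed auxiliary prime `r` and place `A` over `p`. -/
theorem h67_core_of_back (E : WeierstrassCurve ℚ) [E.IsElliptic] {W : WeierstrassCurve ℤ}
    (hW : W.IsIntegralModelOf E) {p M' r : ℕ} [Fact p.Prime] [NeZero p] [NeZero M'] [NeZero r]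
    (hp2 : p ≠ 2) (hpM' : ¬ p ∣ M') (hr : r.Prime) (hrMp : ¬ r ∣ M' * p)
    (hpMr : ¬ p ∣ M' * r) (hch : 5 ≤ p ∨ 2 ∣ M' * r ∨ 3 ∣ M' * r)
    (hirr : GaloisRepIsIrreducible (K := Qb) ℚ E p) (hE : h37_ESide E p)
    (A : ValuationSubring Qb) (hA : A.LiesOverPrime p)
    (hback : ¬ W.IsResiduallyModularOfLevel p M' → h67_BackStmt E W M' p r hpMr A hA)
    (hmod : W.IsResiduallyModularOfLevel p (M' * p)) :
    W.IsResiduallyModularOfLevel p M' := by
  by_contra hnot
  obtain ⟨ι, ι'', hιι, hinj, hinj'', hgal, hgal'', htors, htors'', heig, heig'', hnew, hnew''⟩ :=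
    h55_stage1 E hW hp2 hpM' hr hrMp hirr hmod hnot
  obtain ⟨l0, x, c, ζ, e, -, htl0, hgen, hntx, hφl0, hpl0, -, hl', hx', hζ, he0, he, m, hm⟩ :=
    h67_front_peu E hW (M' * r) p hp2 hpMr hch hirr A hA hE ι'' hinj'' hgal'' hnew''
  have hB := hback hnot ι ι'' hιι hinj hinj'' hgal hgal'' htors htors'' heig heig'' hnew hnew''
  rcases h12_front_cases p hp2 A hA ζ hζ (ι'' x) (ι'' l0) hφl0 hpl0 c (cycloExp p) hx' hl'
    (fun g _ => h11_cycloExp_spec p g ζ hζ.pow_eq_one) e he0 he m hm with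
    ⟨i, hi⟩ | ⟨z, w, hz, hzI, hw, -, hgw, -⟩
  · -- SPLIT: `x - i l₀` is fixed by the inertia group
    obtain ⟨w', hw'⟩ := h12_exists_aux p
    have hy : ι'' (x - i • l0) = ι'' x - i • ι'' l0 := by rw [map_sub, map_nsmul]
    have ht : h29_Toric (M' * r) p hpMr A hA p (ι'' (x - i • l0)) :=
      hB (x - i • l0) 1 w' (map_one _) (fun g _ => map_one g) hw'
        (fun g hg _ => by rw [hy]; exact hi g hg)
    obtain ⟨n, hn⟩ := hgen _ ht
    apply hntx
    have hx : x = (n + i) • l0 := by rw [add_nsmul, ← hn, sub_add_cancel]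
    rw [hx, map_nsmul]
    exact h67_front_toric_nsmul (M' * r) p hpMr A hA p (n + i) htl0
  · -- WILD: the Eisenstein pair of W0
    exact hntx (hB x z w hz hzI hw (fun g hg hgw' => (hgw g hg).mp hgw'))

/-- **The core theorem from (BACK)**, in the header of the core: `p ≥ 5`, `p ∣ M`, `p² ∤ M`,
`W` residually modular of level `M` ⟹ of level `M / p`.  The only hypothesis left is (BACK)
for the auxiliary primes `r > B` with `r ≡ 11 mod 12`, `r ∤ M' p`, `p ∤ r + 1`
(`M = M' p`), at every place `A` over `p`. -/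
theorem h67_core_of_backAll (E : WeierstrassCurve ℚ) [E.IsElliptic] {W : WeierstrassCurve ℤ}
    (hW : W.IsIntegralModelOf E) {p M : ℕ} [Fact p.Prime] [NeZero p] (hp5 : 5 ≤ p)
    (hM : 0 < M) (hpM : p ∣ M) (hp2M : ¬ p ^ 2 ∣ M)
    (hirr : GaloisRepIsIrreducible (K := Qb) ℚ E p) (hE : h37_ESide E p) (B : ℕ)
    (hback : ∀ (M' r : ℕ) [NeZero M'] [NeZero r], M = M' * p → ¬ p ∣ M' → r.Prime → B < r →
      r % 12 = 11 → ¬ r ∣ M' * p → ¬ p ∣ r + 1 →
      ∀ (hpMr : ¬ p ∣ M' * r) (A : ValuationSubring Qb) (hA : A.LiesOverPrime p),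
        ¬ W.IsResiduallyModularOfLevel p M' → h67_BackStmt E W M' p r hpMr A hA)
    (hmod : W.IsResiduallyModularOfLevel p M) :
    W.IsResiduallyModularOfLevel p (M / p) := by
  have hp : p.Prime := Fact.out
  have hMeq : M = M / p * p := (Nat.div_mul_cancel hpM).symm
  have hM'0 : M / p ≠ 0 := by
    intro h0
    rw [h0, zero_mul] at hMeq
    omega
  have : NeZero (M / p) := ⟨hM'0⟩
  have hpM' : ¬ p ∣ M / p := by
    rintro ⟨d, hd⟩
    apply hp2M
    refine ⟨d, ?_⟩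
    rw [hMeq, hd]
    ring
  obtain ⟨r, hr, hBr, hr12, -, hrp, hpr, hrMp⟩ := h32_exists_aux_prime hp hp5 (M / p) hM'0 B
  have : NeZero r := ⟨hr.ne_zero⟩
  have hpMr : ¬ p ∣ M / p * r := by
    intro h
    rcases hp.dvd_mul.mp h with h1 | h1
    · exact hpM' h1
    · exact hrp ((Nat.prime_dvd_prime_iff_eq hp hr).mp h1).symm
  obtain ⟨A, hA⟩ := Fermat.Agent.S54.exists_liesOverPrime p hp
  have hmod' : W.IsResiduallyModularOfLevel p (M / p * p) := by
    rw [← hMeq]
    exact hmod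
  exact h67_core_of_back E hW (by omega) hpM' hr hrMp hpMr (Or.inl hp5) hirr hE A hA
    (hback (M / p) r hMeq hpM' hr hBr hr12 hrMp hpr hpMr A hA) hmod'

end Fermat.Agent.S40

end
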