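import Mathlib
import Fermat.Agent.S40.h67_CoreFront
import Fermat.Agent.S40.h92_TRMain

/-!
# S40/S44 (G40): the core theorem from the open rows, as ONE compiled statement (helper67)

`h67_core_of_rows` : the header of the core theorem (`p ≥ 5`, `p ∣ M`, `p² ∤ M`; `W` residually
modular of level `M` ⟹ of level `M / p`) with exactly TWO hypotheses left, both at the thin
level `(M' r, p)` (`M = M' p`, `r` the auxiliary prime, `A` a place over `p`) and both under the
contradiction hypothesis `¬ W.IsResiduallyModularOfLevel p M'`: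

* `h67_RowsStmt` (rows W6 + W7/W8/T8 of the (TR) chain, modular instances): there are node
  data `(Sg, Φ)` such that for every `p`-torsion, `p`-new, `a_ℓ(W)`-eigen class `y` of
  `J₀(M' r p)`, every Eisenstein pair `(z, w)` and every representative `(D, u)` of `y` fixed by
  the stabiliser of `w` in the inertia group: `h92_W6Out` and `h92_T8Out` hold for `u`;
* `h67_TailStmt` ((TOP-D) + tail + toric pull-back): if the class `π^* x` of a `p`-torsion
  eigenclass `x` of `J₀(M' p)` has a representative `(E'', u'')` at the thin level with all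
  residue orders of the first component divisible by `p`, then `π^* x` is toric.

Inside: `h67_core_of_backAll` (stage 1 + front + W0 case split + auxiliary prime) and
`h92_tr_chain_of_rows` (descent of the class to an `H`-fixed representative + the rows).
-/

set_option autoImplicit false
set_option synthInstance.maxHeartbeats 400000

noncomputable section

open ModularCurve AlgebraicCurve ExtCitation Module
open WeierstrassCurve WeierstrassCurve.Affine WeierstrassCurve.Affine.Point

namespace Fermat.Agent.S40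

open Fermat.Agent.S41 Fermat.Agent.S33 Fermat.Agent.S35 Fermat.Agent.S36 Fermat.Agent.GAL
open Fermat.Agent.S34 Fermat.Agent.S18

local notation "Qb" => AlgebraicClosure ℚ

/-- **The rows of the (TR) chain at the thin level `(M' r, p)`**: node data `(Sg, Φ)` such that
the outputs of W6 and of W7 + W8 + T8 hold for every representative `(D, u)`, fixed by the
stabiliser of `w` in the inertia group, of a `p`-torsion, `p`-new, `a_ℓ(W)`-eigen class. -/
def h67_RowsStmt (W : WeierstrassCurve ℤ) (M' p r : ℕ) [Fact p.Prime] [NeZero p] [NeZero M']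
    [NeZero r] (hpMr : ¬ p ∣ M' * r) (A : ValuationSubring Qb) (hA : A.LiesOverPrime p) : Prop :=
  ∃ (Sg : Finset (Place (IsLocalRing.ResidueField A)
      (modularFunctionFieldFullC (IsLocalRing.ResidueField A) (M' * r))))
    (Φ : Place (IsLocalRing.ResidueField A)
        (modularFunctionFieldFullC (IsLocalRing.ResidueField A) (M' * r)) →
      Place (IsLocalRing.ResidueField A)
        (modularFunctionFieldFullC (IsLocalRing.ResidueField A) (M' * r))),
    ∀ y : JZero (M' * r * p), p • y = 0 →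
      (∀ (ℓ : ℕ) (hℓ : ℓ.Prime), W.IsGoodPrimeFor ℓ → ¬ ℓ ∣ M' * r * p → ℓ ≠ p →
        heckeOperatorBar (M' * r * p) ⟨ℓ, hℓ⟩ y = W.apOfModel ℓ • y) →
      h67_Jnew (M' * r) p y →
      ∀ z w : Qb, A.valuation z = 1 → (∀ g ∈ A.inertiaSubgroupIn ℚ, g z = z) →
        (1 + w) ^ p = 1 + (p : Qb) * z →
        ∀ (D : Divisor.degZero (K := Qb) (F := modularFunctionFieldBar (M' * r * p)))
          (u : modularFunctionFieldBar (M' * r * p)),
          Pic0.mk D = y → u ≠ 0 → h69_lc (M' * r * p) u = 1 →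
          (∀ v : Place Qb (modularFunctionFieldBar (M' * r * p)),
            (p : ℤ) * (D : Divisor Qb (modularFunctionFieldBar (M' * r * p))) v = v.ord u) →
          (∀ g ∈ A.inertiaSubgroupIn ℚ, g w = w →
            arithmeticGalois (modularFunctionFieldFull (M' * r * p)) g •
              (D : Divisor Qb (modularFunctionFieldBar (M' * r * p))) = D) →
          (∀ g ∈ A.inertiaSubgroupIn ℚ, g w = w →
            arithmeticGalois (modularFunctionFieldFull (M' * r * p)) g • u = u) →
          h92_W6Out (M' * r) p hpMr A hA Sg Φ u ∧ h92_T8Out (M' * r) p hpMr A hA Sg Φ u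

/-- **The thin-level tail** ((TOP-D) + tail + toric pull-back): a `p`-torsion eigenclass `x` of
level `M' p` whose pull-back to the thin level has a representative with all residue orders of
the first component divisible by `p` has a toric pull-back. -/
def h67_TailStmt (W : WeierstrassCurve ℤ) (M' p r : ℕ) [Fact p.Prime] [NeZero p] [NeZero M']
    [NeZero r] (hpMr : ¬ p ∣ M' * r) (A : ValuationSubring Qb) (hA : A.LiesOverPrime p) : Prop :=
  ∀ x : JZero (M' * p), p • x = 0 →
    (∀ (ℓ : ℕ) (hℓ : ℓ.Prime), W.IsGoodPrimeFor ℓ → ¬ ℓ ∣ M' * p → ℓ ≠ p →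
      heckeOperatorBar (M' * p) ⟨ℓ, hℓ⟩ x = W.apOfModel ℓ • x) →
    (∃ (E'' : Divisor.degZero (K := Qb) (F := modularFunctionFieldBar (M' * r * p)))
      (u'' : modularFunctionFieldBar (M' * r * p)), u'' ≠ 0 ∧
      Pic0.mk E'' = h55_auxUp M' p r x ∧
      (∀ v : Place Qb (modularFunctionFieldBar (M' * r * p)),
        (p : ℤ) * (E'' : Divisor Qb (modularFunctionFieldBar (M' * r * p))) v = v.ord u'') ∧
      ∀ Q'' : Place (IsLocalRing.ResidueField A)
          (modularFunctionFieldFullC (IsLocalRing.ResidueField A) (M' * r)),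
        (p : ℤ) ∣ h43_rord (h60_R1 (M' * r) p hpMr A hA) Q'' u'') →
    h29_Toric (M' * r) p hpMr A hA p (h55_auxUp M' p r x)

/-- **(BACK) from the rows and the tail.** -/
theorem h67_back_of_rows (E : WeierstrassCurve ℚ) [E.IsElliptic] (W : WeierstrassCurve ℤ)
    (M' p r : ℕ) [Fact p.Prime] [NeZero p] [NeZero M'] [NeZero r] (hpMr : ¬ p ∣ M' * r)
    (A : ValuationSubring Qb) (hA : A.LiesOverPrime p)
    (hrows : h67_RowsStmt W M' p r hpMr A hA) (htail : h67_TailStmt W M' p r hpMr A hA) :
    h67_BackStmt E W M' p r hpMr A hA := by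
  intro ι ι'' hιι _ _ _ _ htors htors'' heig heig'' _ hnew'' P z w hz hzI hw hfix
  obtain ⟨Sg, Φ, hR⟩ := hrows
  have hTR : h92_TRProp (M' * r) p hpMr A hA (ι'' P) :=
    h92_tr_chain_of_rows (M' * r) p hpMr A hA w (ι'' P) (htors'' P) hfix Sg Φ
      (fun D u hD hu hlc hdiv hDfix hufix =>
        hR (ι'' P) (htors'' P) (fun ℓ hℓ hg hℓM hℓp => heig'' ℓ hℓ hg hℓM hℓp P) (hnew'' P)
          z w hz hzI hw D u hD hu hlc hdiv hDfix hufix)
  obtain ⟨E'', u'', hu'', hE'', hdiv'', hord⟩ := hTR
  rw [hιι P] at hE'' ⊢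
  exact htail (ι P) (htors P) (fun ℓ hℓ hg hℓM hℓp => heig ℓ hℓ hg hℓM hℓp P)
    ⟨E'', u'', hu'', hE'', hdiv'', fun Q'' => (hord Q'').1⟩

/-- **The core theorem from the open rows.**  Header of the core; hypotheses left: the rows
(`h67_RowsStmt`) and the thin-level tail (`h67_TailStmt`) for the auxiliary primes `r > B`,
`r ≡ 11 mod 12`, `r ∤ M' p`, `p ∤ r + 1` (`M = M' p`) and the places `A` over `p`, under the
contradiction hypothesis `¬ W.IsResiduallyModularOfLevel p M'`. -/
theorem h67_core_of_rows (E : WeierstrassCurve ℚ) [E.IsElliptic] {W : WeierstrassCurve ℤ}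
    (hW : W.IsIntegralModelOf E) {p M : ℕ} [Fact p.Prime] [NeZero p] (hp5 : 5 ≤ p)
    (hM : 0 < M) (hpM : p ∣ M) (hp2M : ¬ p ^ 2 ∣ M)
    (hirr : GaloisRepIsIrreducible (K := Qb) ℚ E p) (hE : h37_ESide E p) (B : ℕ)
    (hrows : ∀ (M' r : ℕ) [NeZero M'] [NeZero r], M = M' * p → ¬ p ∣ M' → r.Prime → B < r →
      r % 12 = 11 → ¬ r ∣ M' * p → ¬ p ∣ r + 1 →
      ∀ (hpMr : ¬ p ∣ M' * r) (A : ValuationSubring Qb) (hA : A.LiesOverPrime p),
        ¬ W.IsResiduallyModularOfLevel p M' → h67_RowsStmt W M' p r hpMr A hA)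
    (htail : ∀ (M' r : ℕ) [NeZero M'] [NeZero r], M = M' * p → ¬ p ∣ M' → r.Prime → B < r →
      r % 12 = 11 → ¬ r ∣ M' * p → ¬ p ∣ r + 1 →
      ∀ (hpMr : ¬ p ∣ M' * r) (A : ValuationSubring Qb) (hA : A.LiesOverPrime p),
        ¬ W.IsResiduallyModularOfLevel p M' → h67_TailStmt W M' p r hpMr A hA)
    (hmod : W.IsResiduallyModularOfLevel p M) :
    W.IsResiduallyModularOfLevel p (M / p) :=
  h67_core_of_backAll E hW hp5 hM hpM hp2M hirr hE B
    (fun M' r _ _ hMeq hpM' hr hBr hr12 hrMp hpr hpMr A hA hnot =>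
      h67_back_of_rows E W M' p r hpMr A hA
        (hrows M' r hMeq hpM' hr hBr hr12 hrMp hpr hpMr A hA hnot)
        (htail M' r hMeq hpM' hr hBr hr12 hrMp hpr hpMr A hA hnot))
    hmod

end Fermat.Agent.S40

end
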