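import Mathlib
import Fermat.Agent.S40.h31_T8Block
import Fermat.Agent.S40.h67_CoreOfRows

/-!
# S40 / S44: the rows statement `h67_RowsStmt` at the thin level, closed (helper31)

`h31_rows` : **`h67_RowsStmt W M' p r hpMr A hA`** for an auxiliary prime `r ≡ 11 mod 12` (the
`hrows` binder of `h67_core_of_rows`): node data from `h87_node_closed`, row W6 by
`h31_w6_closed`, rows W7 + W8 + T8 by `h31_t8_block` (ord-form route) with a Hecke prime `ℓ`
from `h54_hk_ne_level`.
-/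

set_option autoImplicit false
set_option synthInstance.maxHeartbeats 400000
set_option linter.style.haveILetI false

noncomputable section

open AlgebraicCurve ModularCurve Module ExtCitation
open WeierstrassCurve WeierstrassCurve.Affine WeierstrassCurve.Affine.Point

namespace Fermat.Agent.S40

open Fermat.Agent.S18 Fermat.Agent.S34 Fermat.Agent.S24 Fermat.Agent.S27 Fermat.Agent.S37
  Fermat.Agent.S36 Fermat.Agent.GAL Fermat.Agent.S41 Fermat.Agent.S33 Fermat.Agent.S35

local notation "Qb" => AlgebraicClosure ℚ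

set_option maxHeartbeats 3200000 in
/-- **The rows statement at the thin level** (the `hrows` binder of `h67_core_of_rows`): node
data from `h87_node_closed`, row W6 by `h31_w6_closed`, rows W7 + W8 + T8 by `h31_t8_block` with
a Hecke prime `ℓ` from `h54_hk_ne_level`. -/
theorem h31_rows (E : WeierstrassCurve ℚ) [E.IsElliptic] {W : WeierstrassCurve ℤ}
    (hW : W.IsIntegralModelOf E) (M' p r : ℕ) [Fact p.Prime] [NeZero p] [NeZero M'] [NeZero r]
    (hp5 : 5 ≤ p) (hirr : GaloisRepIsIrreducible (K := Qb) ℚ E p)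
    (hr : r.Prime) (hr12 : r % 12 = 11)
    (hpMr : ¬ p ∣ M' * r) (A : ValuationSubring Qb) (hA : A.LiesOverPrime p) :
    h67_RowsStmt W M' p r hpMr A hA := by
  classical
  have hpP : p.Prime := Fact.out
  have hp2 : p ≠ 2 := by omega
  haveI : CharP (IsLocalRing.ResidueField A) p := h19_residueField_charP A p hA
  haveI : IsAlgClosed (IsLocalRing.ResidueField A) := h19_residueField_isAlgClosed A
  have h2 : nuTwo (M' * r) = 0 := h67_nuTwo_of_mod12 r (M' * r) hr hr12 (dvd_mul_left r M')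
  have h3 : nuThree (M' * r) = 0 := h67_nuThree_of_mod12 r (M' * r) hr hr12 (dvd_mul_left r M')
  obtain ⟨Sg, hSg, n0, -, -, hnode⟩ := h87_node_closed (M' * r) p hpMr A hA (Or.inl hp5)
  refine ⟨Sg, h96_frobPerm (h84_isFrobChart_jk (M' * r) p hpMr A hA), ?_⟩
  intro y hy heig hnew z w hz hzI hw D u hD hu hlc hdiv hDfix hufix
  refine ⟨h31_w6_closed (M' * r) p hpMr A hA (Or.inl hp5) h2 h3 Sg hSg n0 hnode u hu D hdiv, ?_⟩
  obtain ⟨ℓ, hℓ, hℓN, hℓp, hgood, hna⟩ := h54_hk_ne_level E hW hpP hp2 hirr (M' * r * p)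
    (Nat.mul_ne_zero (Nat.mul_ne_zero (NeZero.ne M') (NeZero.ne r)) (NeZero.ne p))
  haveI : NeZero ℓ := ⟨hℓ.ne_zero⟩
  have hℓM : ¬ ℓ ∣ M' * r := fun h => hℓN (Dvd.dvd.mul_right h p)
  have hpMℓ : ¬ p ∣ M' * r * ℓ := by
    intro h
    rcases (Nat.Prime.dvd_mul hpP).1 h with h | h
    · exact hpMr h
    · exact hℓp ((Nat.prime_dvd_prime_iff_eq hpP hℓ).1 h).symm
  have hTℓ : heckeOperatorBar (M' * r * p) ⟨ℓ, hℓ⟩ (Pic0.mk D) =
      W.apOfModel ℓ • Pic0.mk D := by
    rw [hD]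
    exact heig ℓ hℓ hgood hℓN hℓp
  exact h31_t8_block (M' * r) p ℓ hp2 hpMr A hA (Or.inl hp5) h2 h3
    (h67_nuTwo_of_mod12 r (M' * r * ℓ) hr hr12 (Dvd.dvd.mul_right (dvd_mul_left r M') ℓ))
    (h67_nuThree_of_mod12 r (M' * r * ℓ) hr hr12 (Dvd.dvd.mul_right (dvd_mul_left r M') ℓ))
    hℓ hℓM hpMℓ Sg hSg n0 hnode (W.apOfModel ℓ) hna z w hz hzI hw D u hu hdiv hTℓ hDfix hufix

end Fermat.Agent.S40

end
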