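import Mathlib
import Fermat.Agent.S40.h23_EndInst
import Fermat.Agent.S27.h94_FISep

/-!
# S40, (AUX-DOWN): descent of `n ∣ div` along a covering of degree prime to `n`

* `h54_ord_dvd_descend` (generic, any characteristic): `F' / F` a finite separable extension of
  function fields over an algebraically closed field, `n` prime to `[F' : F]`, `g ∈ F` with
  `n ∣ ord_w g` at every place `w` of `F'`; then `n ∣ ord_v g` at every place `v` of `F`
  (`ord_w g = e(w | v) ord_v g` and `∑_{w | v} e(w | v) = [F' : F]`).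
* `h54_fb_ord_dvd_descend` : the modular instance `Fb(M r) / Fb(M)` in characteristic `p ∤ M r`
  (`r` a prime not dividing `M`, degree `r + 1`), in the coercion shape: `g` a Laurent series
  lying in both fields.
* `h54_fb_p_dvd_descend` : the case `n = p` with `p ∤ r + 1`.
-/

set_option autoImplicit false
set_option synthInstance.maxHeartbeats 400000

noncomputable section

open ModularCurve AlgebraicCurve IntermediateField

namespace Fermat.Agent.S40

open Fermat.Agent.S18 Fermat.Agent.S24 Fermat.Agent.S27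

local notation "Qb" => AlgebraicClosure ℚ

section Generic

variable {K F F' : Type*} [Field K] [Field F] [Field F'] [Algebra K F] [Algebra K F']
variable [IsAlgClosed K]
variable [Algebra F F'] [IsScalarTower K F F'] [FiniteDimensional F F'] [Algebra.IsSeparable F F']

/-- **Descent of divisibility** along a finite separable covering of degree prime to `n`. -/
theorem h54_ord_dvd_descend (hF : h73_IsFF K F) [HasPrincipalDivisors K F'] (n : ℕ)
    (hn : n.Coprime (Module.finrank F F')) (g : F)
    (h : ∀ w : Place K F', (n : ℤ) ∣ w.ord (algebraMap F F' g)) (v : Place K F) :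
    (n : ℤ) ∣ v.ord g := by
  classical
  have hsum := h94_sum_ramificationIndex_sep (F' := F') hF v
  have hw : ∀ w ∈ v.fiber F', (n : ℤ) ∣ (w.ramificationIndex F : ℤ) * v.ord g := by
    intro w hw
    have h1 := h w
    rw [Place.ord_restrict, Place.mem_fiber.mp hw] at h1
    exact h1
  have h2 : (n : ℤ) ∣ ∑ w ∈ v.fiber F', (w.ramificationIndex F : ℤ) * v.ord g :=
    Finset.dvd_sum hw
  rw [← Finset.sum_mul, hsum] at h2
  exact (Nat.Coprime.isCoprime hn).dvd_of_dvd_mul_left h2

end Generic

section Mod

variable (M r : ℕ) [NeZero M] [NeZero r] {p : ℕ} [Fact p.Prime] (A : ValuationSubring Qb)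
  (hA : A.LiesOverPrime p)

include hA

/-- **(AUX-DOWN), modular instance.**  `r` a prime not dividing `M`, `p ∤ M r`, `n` prime to
`r + 1`: a function of `Fb(M)` whose divisor on `Fb(M r)` is divisible by `n` has a divisor
divisible by `n` on `Fb(M)`. -/
theorem h54_fb_ord_dvd_descend (hpMr : ¬ p ∣ M * r) (hr : r.Prime) (hrM : ¬ r ∣ M) (n : ℕ)
    (hn : n.Coprime (r + 1)) (g : LaurentSeries (IsLocalRing.ResidueField A))
    (hg : g ∈ modularFunctionFieldFullC (IsLocalRing.ResidueField A) M)
    (hg'' : g ∈ modularFunctionFieldFullC (IsLocalRing.ResidueField A) (M * r))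
    (h : ∀ w : Place (IsLocalRing.ResidueField A)
      ↥(modularFunctionFieldFullC (IsLocalRing.ResidueField A) (M * r)),
      (n : ℤ) ∣ w.ord ⟨g, hg''⟩)
    (v : Place (IsLocalRing.ResidueField A)
      ↥(modularFunctionFieldFullC (IsLocalRing.ResidueField A) M)) :
    (n : ℤ) ∣ v.ord ⟨g, hg⟩ := by
  haveI : IsAlgClosed (IsLocalRing.ResidueField A) := h19_residueField_isAlgClosed A
  have hpM : ¬ p ∣ M := fun h => hpMr (Dvd.dvd.mul_right h r)
  letI := algebraAlong (h10_alphaC (IsLocalRing.ResidueField A) M r)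
  haveI := isScalarTower_along (h10_alphaC (IsLocalRing.ResidueField A) M r)
  haveI := h23_finite_alphaC M A hA r hpMr
  haveI := h23_separable_alphaC M A hA r hpMr
  haveI := h23_hpd_fb (M * r) A hA hpMr
  have hfr : Module.finrank ↥(modularFunctionFieldFullC (IsLocalRing.ResidueField A) M)
      ↥(modularFunctionFieldFullC (IsLocalRing.ResidueField A) (M * r)) = r + 1 :=
    h23_finrank_alphaC M A hA r hpMr hr hrM
  refine h54_ord_dvd_descend (h23_isFF_fb M A hA hpM) n (by rw [hfr]; exact hn) ⟨g, hg⟩
    (fun w => ?_) v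
  have hgg : algebraMap ↥(modularFunctionFieldFullC (IsLocalRing.ResidueField A) M)
      ↥(modularFunctionFieldFullC (IsLocalRing.ResidueField A) (M * r)) ⟨g, hg⟩ = ⟨g, hg''⟩ :=
    Subtype.ext (h10_coe_alphaC (IsLocalRing.ResidueField A) M r ⟨g, hg⟩)
  rw [hgg]
  exact h w

/-- **(AUX-DOWN)** for `n = p`: `p ∤ r + 1`.  This is the hypothesis `hdesc` of the descent of
the (TR) property from the auxiliary level `M r` to the level `M`. -/
theorem h54_fb_p_dvd_descend (hpMr : ¬ p ∣ M * r) (hr : r.Prime) (hrM : ¬ r ∣ M)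
    (hpr : ¬ p ∣ r + 1) (g : LaurentSeries (IsLocalRing.ResidueField A))
    (hg : g ∈ modularFunctionFieldFullC (IsLocalRing.ResidueField A) M)
    (hg'' : g ∈ modularFunctionFieldFullC (IsLocalRing.ResidueField A) (M * r))
    (h : ∀ w : Place (IsLocalRing.ResidueField A)
      ↥(modularFunctionFieldFullC (IsLocalRing.ResidueField A) (M * r)),
      (p : ℤ) ∣ w.ord ⟨g, hg''⟩)
    (v : Place (IsLocalRing.ResidueField A)
      ↥(modularFunctionFieldFullC (IsLocalRing.ResidueField A) M)) :
    (p : ℤ) ∣ v.ord ⟨g, hg⟩ :=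
  h54_fb_ord_dvd_descend M r A hA hpMr hr hrM p
    ((Nat.Prime.coprime_iff_not_dvd Fact.out).mpr hpr) g hg hg'' h v

end Mod

end Fermat.Agent.S40

end
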