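import Mathlib
import Fermat.Agent.S35.h98_BGlue

/-!
# S40, tail: the second component of a new class (C2-NEW)

For a `p`-new divisor class of `X₀(M p)` with Kummer function `u` (`m D = div u`): if the
reduction of `u` (suitably scaled) at one of the two valuations `R₁ = h60_R1`, `R₂ = h60_R2` is
an `m`-th power, then so is its reduction at the other one.

The proof is the residue-of-norm computation of S35 (`h98_NR_alpha`, `h98_NR_beta`): newness makes
`N_β u` a constant times an `m`-th power, and `red_M (N_β u) = red₂ u · ψ (red₁ u)` with `ψ` the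
coefficient Frobenius, a ring homomorphism.

* `h59_c2_gen` : the generic statement for two reduction data (binders of `h98_frob_toric_div`);
* `h59_c2_new` : the modular statement `R₁ ⟹ R₂`;
* `h59_c1_new` : the mirror `R₂ ⟹ R₁`.
-/

set_option autoImplicit false
set_option synthInstance.maxHeartbeats 400000
set_option linter.style.haveILetI false

noncomputable section

open ModularCurve AlgebraicCurve IntermediateField

namespace Fermat.Agent.S40

open Fermat.Agent.S34 Fermat.Agent.S18 Fermat.Agent.S37 Fermat.Agent.S24 Fermat.Agent.S35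

section Generic

variable {K F k Fb : Type*} [Field K] [Field F] [Algebra K F] [Field k] [Field Fb] [Algebra k Fb]
variable {E : Type*} [Field E] [Algebra K E]

/-- **(C2-NEW), generic form.**  `R`, `R'` two incomparable rank-one reduction data on `F`,
`RE` a reduction datum on `E`, `p : Div F → Div E` a push-forward with norm `Nn` whose reduction
is `red' f · φ (red f)`.  If `m D = div f`, `p D` is principal and `red (c f)` is an `m`-th
power, then some `red' (c' f)` is an `m`-th power. -/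
theorem h59_c2_gen [HasPrincipalDivisors K F]
    (R R' : h39_RedDatum K F k Fb) (RE : h39_RedDatum K E k Fb)
    (hinc : ¬ R.O ≤ R'.O ∧ ¬ R'.O ≤ R.O)
    (hrank : h39_RankOne R.A) (hrank' : h39_RankOne R'.A)
    (m : ℕ) (hm : m ≠ 0) (hroot : ∀ c : K, ∃ d : K, d ^ m = c)
    (hconstE : ∀ g : E, g ≠ 0 → (∀ v : Place K E, v.ord g = 0) → ∃ c : K, g = algebraMap K E c)
    (p : Divisor K F →+ Divisor K E) (Nn : F → E)
    (hN : ∀ f : F, f ≠ 0 → Nn f ≠ 0 ∧ ∀ D : Divisor K F, (∀ w, D w = w.ord f) →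
      ∀ v : Place K E, p D v = v.ord (Nn f))
    (φ : Fb →+* Fb)
    (hNR : ∀ f : F, R.redF f ≠ 0 → R'.redF f ≠ 0 →
      RE.redF (Nn f) = R'.redF f * φ (R.redF f))
    (D : Divisor K F) (f : F) (hf : f ≠ 0) (hD : ∀ v : Place K F, (m : ℤ) * D v = v.ord f)
    (hp : (p D).IsPrincipal)
    (c : K) (w : Fb) (hw : w ≠ 0) (h1 : R.redF (algebraMap K F c * f) = w ^ m) :
    ∃ (c' : K) (w' : Fb), c' ≠ 0 ∧ w' ≠ 0 ∧ R'.redF (algebraMap K F c' * f) = w' ^ m := by
  classical
  have hwm : w ^ m ≠ 0 := pow_ne_zero m hw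
  have hc : c ≠ 0 := by
    rintro rfl
    rw [map_zero, zero_mul, h39_redF_zero] at h1
    exact hwm h1.symm
  have hcf : R.redF (algebraMap K F c * f) ≠ 0 := by rw [h1]; exact hwm
  obtain ⟨c', hc', hc'f⟩ := h39_exists_scale_unit R' hf
  obtain ⟨d, hd⟩ := hroot c
  obtain ⟨d', hd'⟩ := hroot c'
  have hd0 : d ≠ 0 := by
    rintro rfl
    rw [zero_pow hm] at hd
    exact hc hd.symm
  have hd'0 : d' ≠ 0 := by
    rintro rfl
    rw [zero_pow hm] at hd'
    exact hc' hd'.symm
  obtain ⟨G, hG, hG'⟩ := h98_approx R R' hinc hrank hrank' d d' hd0 hd'0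
  have hG0 : G ≠ 0 := by
    rintro rfl
    rw [mul_zero, h39_redF_zero] at hG
    exact zero_ne_one hG
  set f' : F := f * G ^ m with hf'
  have hf'0 : f' ≠ 0 := mul_ne_zero hf (pow_ne_zero m hG0)
  have hf'1 : f' = (algebraMap K F c * f) * (algebraMap K F d⁻¹ * G) ^ m := by
    rw [hf', mul_pow, ← map_pow, inv_pow, hd, map_inv₀]
    have : algebraMap K F c ≠ 0 := (map_ne_zero _).mpr hc
    field_simp
  have hf'2 : f' = (algebraMap K F c' * f) * (algebraMap K F d'⁻¹ * G) ^ m := by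
    rw [hf', mul_pow, ← map_pow, inv_pow, hd', map_inv₀]
    have : algebraMap K F c' ≠ 0 := (map_ne_zero _).mpr hc'
    field_simp
  have hGO : algebraMap K F d⁻¹ * G ∈ R.O :=
    h39_mem_of_redF_ne_zero R (by rw [hG]; exact one_ne_zero)
  have hGO' : algebraMap K F d'⁻¹ * G ∈ R'.O :=
    h39_mem_of_redF_ne_zero R' (by rw [hG']; exact one_ne_zero)
  have hr : R.redF f' = w ^ m := by
    rw [hf'1, h39_redF_mul R (h39_mem_of_redF_ne_zero R hcf) (R.O.pow_mem hGO m),
      h39_redF_pow R hGO, hG, one_pow, mul_one, h1]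
  have hr' : R'.redF f' = R'.redF (algebraMap K F c' * f) := by
    rw [hf'2, h39_redF_mul R' (h39_mem_of_redF_ne_zero R' hc'f) (R'.O.pow_mem hGO' m),
      h39_redF_pow R' hGO', hG', one_pow, mul_one]
  have hrne : R.redF f' ≠ 0 := by rw [hr]; exact hwm
  have hr'ne : R'.redF f' ≠ 0 := by rw [hr']; exact hc'f
  -- the divisor of `f'`
  obtain ⟨DG, hDG, -⟩ := HasPrincipalDivisors.exists_divisor (K := K) G hG0
  have hDf' : ∀ v : Place K F, ((m : ℤ) • (D + DG)) v = v.ord f' := by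
    intro v
    have hpow : v.ord (G ^ m) = (m : ℤ) * v.ord G := by
      have := v.ord_zpow G (m : ℤ)
      simpa using this
    rw [hf', v.ord_mul hf (pow_ne_zero m hG0), hpow, ← hD v, ← hDG v]
    simp only [Finsupp.coe_smul, Finsupp.coe_add, Pi.smul_apply, Pi.add_apply, smul_eq_mul]
    ring
  -- the norm reduction is a constant times an `m`-th power
  have hφw : φ w ≠ 0 := (map_ne_zero φ).mpr hw
  have hred : RE.redF (Nn f') = R'.redF f' * φ w ^ m := by
    rw [hNR f' hrne hr'ne, hr, map_pow]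
  have hredne : RE.redF (Nn f') ≠ 0 := by
    rw [hred]
    exact mul_ne_zero hr'ne (pow_ne_zero m hφw)
  obtain ⟨h, hh0, hh⟩ := hp
  obtain ⟨hNG0, hNG⟩ := hN G hG0
  obtain ⟨-, hNf'⟩ := hN f' hf'0
  obtain ⟨a, g, ha, hg, hag⟩ := h98_norm_const RE m hconstE (Nn f') (h * Nn G)
    (mul_ne_zero hh0 hNG0) hredne (by
      intro v
      rw [← hNf' ((m : ℤ) • (D + DG)) hDf' v, v.ord_mul hh0 hNG0, ← hh v, ← hNG DG hDG v]
      simp only [map_zsmul, map_add, Finsupp.coe_smul, Finsupp.coe_add, Pi.smul_apply,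
        Pi.add_apply, smul_eq_mul])
  obtain ⟨b, hb⟩ := h98_root_res RE m hm hroot a
  have hb0 : b ≠ 0 := by
    rintro rfl
    rw [zero_pow hm] at hb
    exact ha hb.symm
  refine ⟨c', algebraMap k Fb b * g * (φ w)⁻¹, hc',
    mul_ne_zero (mul_ne_zero ((map_ne_zero _).mpr hb0) hg) (inv_ne_zero hφw), ?_⟩
  rw [← hr']
  have key : R'.redF f' * φ w ^ m = algebraMap k Fb a * g ^ m := by rw [← hred, hag]
  have hpm : φ w ^ m ≠ 0 := pow_ne_zero m hφw
  have e1 : (algebraMap k Fb b * g * (φ w)⁻¹) ^ m = algebraMap k Fb a * g ^ m * (φ w ^ m)⁻¹ := by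
    rw [mul_pow, mul_pow, inv_pow, ← (algebraMap k Fb).map_pow, hb]
  rw [e1, ← key, mul_assoc, mul_inv_cancel₀ hpm, mul_one]

end Generic

local notation "Qb" => AlgebraicClosure ℚ

section Mod

variable (M p : ℕ) [NeZero M] [NeZero p] [hp : Fact p.Prime] (hpM : ¬ p ∣ M)
  (A : ValuationSubring Qb) (hA : A.LiesOverPrime p)

/-- **(C2-NEW).**  For a `p`-new divisor `D` of `X₀(M p)` with `m D = div u`: if the first
reduction of `c₁ u` is an `m`-th power, then the second reduction of some `c₂ u` is an `m`-th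
power. -/
theorem h59_c2_new (m : ℕ) (hm : m ≠ 0)
    (D : Divisor Qb ↥(modularFunctionFieldBar (M * p))) (hnew : h67_DivNew M p D)
    (u : ↥(modularFunctionFieldBar (M * p))) (hu : u ≠ 0)
    (hdiv : ∀ v : Place Qb ↥(modularFunctionFieldBar (M * p)), (m : ℤ) * D v = v.ord u)
    (c₁ : Qb) (w₁ : ↥(modularFunctionFieldFullC (IsLocalRing.ResidueField A) M)) (hw₁ : w₁ ≠ 0)
    (h1 : (h60_R1 M p hpM A hA).redF
      (algebraMap Qb ↥(modularFunctionFieldBar (M * p)) c₁ * u) = w₁ ^ m) :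
    ∃ (c₂ : Qb) (w₂ : ↥(modularFunctionFieldFullC (IsLocalRing.ResidueField A) M)),
      c₂ ≠ 0 ∧ w₂ ≠ 0 ∧ (h60_R2 M p hpM A hA).redF
        (algebraMap Qb ↥(modularFunctionFieldBar (M * p)) c₂ * u) = w₂ ^ m := by
  obtain ⟨-, ⟨hβI, hβ⟩⟩ := hnew
  haveI : CharP (IsLocalRing.ResidueField A) p := h19_residueField_charP A p hA
  haveI : HasPrincipalDivisors Qb (modularFunctionFieldBar (M * p)) :=
    h88_hasPrincipalDivisors (M * p)
  have hRM := h54_isModRed M hpM A hA
  have hinc : ¬ (h60_R1 M p hpM A hA).O ≤ (h60_R2 M p hpM A hA).O ∧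
      ¬ (h60_R2 M p hpM A hA).O ≤ (h60_R1 M p hpM A hA).O := by
    obtain ⟨t, -, ht2O, hr1, hr2⟩ := h60_exists_sep M p hpM A hA
    exact h75_pair_inc_of_sep _ _ hr1 ht2O hr2
  have hrank₁ : h39_RankOne (h60_R1 M p hpM A hA).A := by
    rw [h60_R1_A]; exact h64_rankOne_h39 hp.out A hA
  have hrank₂ : h39_RankOne (h60_R2 M p hpM A hA).A := by
    rw [h60_R2_A]; exact h64_rankOne_h39 hp.out A hA
  exact h59_c2_gen (h60_R1 M p hpM A hA) (h60_R2 M p hpM A hA) (h54_redDatum M hpM A hA)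
    hinc hrank₁ hrank₂ m hm (fun c => IsAlgClosed.exists_pow_nat_eq c (Nat.pos_of_ne_zero hm))
    (fun g _ hord => by
      obtain ⟨c, hc⟩ := h70_const_of_ord_zero (h88_isFF M) g hord
      exact ⟨c, hc.symm⟩)
    (Divisor.pushforwardAlong (heckeBetaBar Qb M p) hβI)
    (fun f => @Algebra.norm (modularFunctionFieldBar M) (modularFunctionFieldBar (M * p)) _ _
        (algebraAlong (heckeBetaBar Qb M p)) f)
    (fun f hf => ⟨h98_norm_beta_ne M p f hf, fun D' hD' v => h98_push_beta M p hβI f hf D' hD' v⟩)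
    (h60_psi M (IsLocalRing.ResidueField A) (frobenius (IsLocalRing.ResidueField A) p))
    (fun f h1 h2 => h98_NR_beta M p hpM A hA hRM f h1 h2)
    D u hu hdiv hβ c₁ w₁ hw₁ h1

/-- **(C2-NEW), mirror.**  For a `p`-new divisor `D` of `X₀(M p)` with `m D = div u`: if the
second reduction of `c₂ u` is an `m`-th power, then the first reduction of some `c₁ u` is an
`m`-th power. -/
theorem h59_c1_new (m : ℕ) (hm : m ≠ 0)
    (D : Divisor Qb ↥(modularFunctionFieldBar (M * p))) (hnew : h67_DivNew M p D)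
    (u : ↥(modularFunctionFieldBar (M * p))) (hu : u ≠ 0)
    (hdiv : ∀ v : Place Qb ↥(modularFunctionFieldBar (M * p)), (m : ℤ) * D v = v.ord u)
    (c₂ : Qb) (w₂ : ↥(modularFunctionFieldFullC (IsLocalRing.ResidueField A) M)) (hw₂ : w₂ ≠ 0)
    (h2 : (h60_R2 M p hpM A hA).redF
      (algebraMap Qb ↥(modularFunctionFieldBar (M * p)) c₂ * u) = w₂ ^ m) :
    ∃ (c₁ : Qb) (w₁ : ↥(modularFunctionFieldFullC (IsLocalRing.ResidueField A) M)),
      c₁ ≠ 0 ∧ w₁ ≠ 0 ∧ (h60_R1 M p hpM A hA).redF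
        (algebraMap Qb ↥(modularFunctionFieldBar (M * p)) c₁ * u) = w₁ ^ m := by
  obtain ⟨⟨hαI, hα⟩, -⟩ := hnew
  haveI : CharP (IsLocalRing.ResidueField A) p := h19_residueField_charP A p hA
  haveI : HasPrincipalDivisors Qb (modularFunctionFieldBar (M * p)) :=
    h88_hasPrincipalDivisors (M * p)
  have hRM := h54_isModRed M hpM A hA
  have hinc : ¬ (h60_R2 M p hpM A hA).O ≤ (h60_R1 M p hpM A hA).O ∧
      ¬ (h60_R1 M p hpM A hA).O ≤ (h60_R2 M p hpM A hA).O := by
    obtain ⟨t, -, ht2O, hr1, hr2⟩ := h60_exists_sep M p hpM A hA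
    exact (h75_pair_inc_of_sep _ _ hr1 ht2O hr2).symm
  have hrank₁ : h39_RankOne (h60_R1 M p hpM A hA).A := by
    rw [h60_R1_A]; exact h64_rankOne_h39 hp.out A hA
  have hrank₂ : h39_RankOne (h60_R2 M p hpM A hA).A := by
    rw [h60_R2_A]; exact h64_rankOne_h39 hp.out A hA
  exact h59_c2_gen (h60_R2 M p hpM A hA) (h60_R1 M p hpM A hA) (h54_redDatum M hpM A hA)
    hinc hrank₂ hrank₁ m hm (fun c => IsAlgClosed.exists_pow_nat_eq c (Nat.pos_of_ne_zero hm))
    (fun g _ hord => by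
      obtain ⟨c, hc⟩ := h70_const_of_ord_zero (h88_isFF M) g hord
      exact ⟨c, hc.symm⟩)
    (Divisor.pushforwardAlong (heckeAlphaBar Qb M p) hαI)
    (fun f => @Algebra.norm (modularFunctionFieldBar M) (modularFunctionFieldBar (M * p)) _ _
        (algebraAlong (heckeAlphaBar Qb M p)) f)
    (fun f hf => ⟨h98_norm_alpha_ne M p f hf,
      fun D' hD' v => h98_push_alpha M p hαI f hf D' hD' v⟩)
    (h60_psi M (IsLocalRing.ResidueField A) (frobenius (IsLocalRing.ResidueField A) p))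
    (fun f h2 h1 => h98_NR_alpha M p hpM A hA hRM f h1 h2)
    D u hu hdiv hα c₂ w₂ hw₂ h2

end Mod

end Fermat.Agent.S40

end
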