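import Mathlib
import Fermat.Agent.S35.h27_NormFun
import Fermat.Agent.S34.h60_R1
import Fermat.Agent.S37.h87_RedData
import Fermat.Agent.S18.h60_Red
import Fermat.Agent.S18.h89_GaussCore

/-!
# S40, row (EIG) of the tail bridge (helper68)

Setting: `p ∤ M`, `A` a valuation ring of `ℚ̄` over `p`, `k = A/𝔪`, `ℓ` a prime, `ℓ ∤ M p`.
`O₁ = (h60_R1 M p _ A _).O` is the `q`-expansion valuation ring of `F(M p)` with residue field
`F̄(M)`, `RM` any reduction datum of `F(M)` with `h54_IsModRed M A RM`, `sp = reductionModL A M`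
the reduction map `J₀(M) → Pic⁰(F̄(M))` of the prelude, `r = placeReductionModL hRI`.
Only characteristic-zero norms and the expansion identity K1 (`h49_K1`, valid at every level)
are used: no Hecke correspondence in characteristic `p`.

* `h68_K1_red_series` : K1 reduced coefficientwise (series form, any residue characteristic);
* `h68_norm_beta_red` : for a unit `y` of the Gauss ring of `F(N)`, `N_α(β y)` is a unit of the
  Gauss ring and its reduction satisfies the reduced K1 identity;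
* `h68_hecke_rel` : `n E = div u`, `T_ℓ [E] = a [E]`  ⟹  `N_α(β u) = c · u^a · w^n`;
* `h68_eig_fun` : function level.  If `u ∈ O₁ˣ` and `N_α(β u) = c · u^a · w^n` at level `M p`,
  there is `w̄ ≠ 0` in `F̄(M)` with `red (N_α(β g)) = (red₁ u)^a · w̄^n` for every `g ∈ O(M)`
  with `red g = red₁ u` (norm at the levels `(M, M ℓ)`);
* `h68_compat` : `r_* div f = div (red f)` for units `f` of `O(M)` and any place reduction in
  the sense of the prelude;
* `h68_transfer`, `h68_ker` : from (CORR-w) on divisors (`r_* Z = 0 ⟹ r_* (T_ℓ Z) = 0` for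
  `Z` of degree `0`): `T_ℓ` preserves `ker sp`;
* `h68_eig_of_rel`, `h68_eig` : class level.  If `n D̄ = div (red₁ u)` then for every
  `y ∈ J₀(M)` with `sp y = m [D̄]`:  `sp (T_ℓ y) = (a m) [D̄]`;
* `h68_ker_bar`, `h68_eig_bar` : the same for `heckeOperatorBar _ ℓ`, `ℓ : Nat.Primes`.
-/

set_option autoImplicit false
set_option synthInstance.maxHeartbeats 400000
set_option linter.style.haveILetI false

noncomputable section

open ModularCurve AlgebraicCurve IntermediateField HahnSeries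

namespace Fermat.Agent.S40

open Fermat.Agent.S24 Fermat.Agent.S18 Fermat.Agent.S37 Fermat.Agent.S35 Fermat.Agent.S34

local notation "Qb" => AlgebraicClosure ℚ

section Gen

/-- In a valuation ring, an element whose `n`-th power is a unit is a unit. -/
theorem h68_unit_of_pow {F : Type*} [Field F] (O : ValuationSubring F) (x : F) (n : ℕ)
    (hn : n ≠ 0) (h1 : x ^ n ∈ O) (h2 : (x ^ n)⁻¹ ∈ O) : x ∈ O ∧ x⁻¹ ∈ O := by
  obtain ⟨m, rfl⟩ := Nat.exists_eq_succ_of_ne_zero hn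
  by_cases hx : x = 0
  · subst hx
    exact ⟨O.zero_mem, by rw [inv_zero]; exact O.zero_mem⟩
  have e1 : x⁻¹ = x ^ m * (x ^ (m + 1))⁻¹ := by
    rw [pow_succ, mul_inv, ← mul_assoc, mul_inv_cancel₀ (pow_ne_zero m hx), one_mul]
  have e2 : x = x⁻¹ ^ m * x ^ (m + 1) := by
    rw [inv_pow, pow_succ, ← mul_assoc, inv_mul_cancel₀ (pow_ne_zero m hx), one_mul]
  rcases O.mem_or_inv_mem x with h | h
  · exact ⟨h, by rw [e1]; exact O.mul_mem _ _ (pow_mem h m) h2⟩
  · have hx' : x ∈ O := by rw [e2]; exact O.mul_mem _ _ (pow_mem h m) h1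
    exact ⟨hx', h⟩

/-- Monoid homomorphisms between division rings commute with integer powers of nonzero
elements. -/
theorem h68_map_zpow {G H : Type*} [DivisionRing G] [DivisionRing H] (f : G →* H) {x : G}
    (hx : x ≠ 0) (m : ℤ) : f (x ^ m) = f x ^ m := by
  have h := congrArg Units.val (map_zpow (Units.map f) (Units.mk0 x hx) m)
  rw [Units.coe_map, Units.val_zpow_eq_zpow_val, Units.val_zpow_eq_zpow_val, Units.coe_map,
    Units.val_mk0] at h
  exact h

variable {K F k Fb : Type*} [Field K] [Field F] [Algebra K F] [Field k] [Field Fb] [Algebra k Fb]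

/-- The reduction of an integer power of a unit of `O`. -/
theorem h68_red_zpow (R : h39_RedDatum K F k Fb) {y : F} (hy0 : y ≠ 0) (hy : y ∈ R.O)
    (hy' : y⁻¹ ∈ R.O) (a : ℤ) :
    ∃ h : y ^ a ∈ R.O, R.red ⟨y ^ a, h⟩ = R.red ⟨y, hy⟩ ^ a := by
  let U : (R.O)ˣ := ⟨⟨y, hy⟩, ⟨y⁻¹, hy'⟩, Subtype.ext (mul_inv_cancel₀ hy0),
    Subtype.ext (inv_mul_cancel₀ hy0)⟩
  have h1 : (((U ^ a : (R.O)ˣ) : R.O) : F) = y ^ a := by
    have h := congrArg Units.val
      (map_zpow (Units.map ((R.O.subtype : R.O →+* F) : R.O →* F)) U a)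
    rw [Units.val_zpow_eq_zpow_val] at h
    exact h
  have h2 : R.red ((U ^ a : (R.O)ˣ) : R.O) = R.red ⟨y, hy⟩ ^ a := by
    have h := congrArg Units.val
      (map_zpow (Units.map ((R.red : R.O →+* Fb) : R.O →* Fb)) U a)
    rw [Units.val_zpow_eq_zpow_val] at h
    exact h
  have hmem : y ^ a ∈ R.O := by
    rw [← h1]
    exact ((U ^ a : (R.O)ˣ) : R.O).2
  refine ⟨hmem, ?_⟩
  rw [← h2]
  congr 1
  exact Subtype.ext h1.symm

end Gen

section Series

variable {K : Type*} [Field K] {A : ValuationSubring K}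

/-- **K1, reduced (series form).**  If `N(q^ℓ) = f(q^(ℓ²)) ∏_{b<ℓ} f(ζ^b q)` with `ζ` a unit of
`A`, `f` a unit of the Gauss ring, and some constant multiple of `N` a unit of the Gauss ring,
then `N` is a unit of the Gauss ring and `N̄(q^ℓ) = f̄(q^(ℓ²)) ∏_{b<ℓ} f̄(ζ̄^b q)`. -/
theorem h68_K1_red_series (ℓ : ℕ) [NeZero ℓ] (ζA : Aˣ) {Nf f : LaurentSeries K}
    (hid : qExpand K ℓ Nf = qExpand K ℓ (qExpand K ℓ f) *
      ∏ b ∈ Finset.range ℓ,
        h87_twist ((Units.map ((A.subtype : A →+* K) : A →* K) ζA) ^ b) f)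
    (hf : h19_InO A f) (hfne : h19_redFun f hf ≠ 0)
    (c : K) (hcN : h19_InO A (algebraMap K (LaurentSeries K) c * Nf))
    (hcNne : h19_redFun (algebraMap K (LaurentSeries K) c * Nf) hcN ≠ 0) :
    ∃ h : h19_InO A Nf, h19_redFun Nf h ≠ 0 ∧ qExpand _ ℓ (h19_redFun Nf h) =
      qExpand _ ℓ (qExpand _ ℓ (h19_redFun f hf)) *
        ∏ b ∈ Finset.range ℓ,
          h87_twist ((Units.map ((IsLocalRing.residue A : A →+* IsLocalRing.ResidueField A) :
            A →* IsLocalRing.ResidueField A) ζA) ^ b) (h19_redFun f hf) := by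
  -- the twisted factors
  have htw : ∀ b ∈ Finset.range ℓ,
      ∃ h : h19_InO A (h87_twist ((Units.map ((A.subtype : A →+* K) : A →* K) ζA) ^ b) f),
        h19_redFun (h87_twist ((Units.map ((A.subtype : A →+* K) : A →* K) ζA) ^ b) f) h =
          h87_twist ((Units.map ((IsLocalRing.residue A : A →+* IsLocalRing.ResidueField A) :
            A →* IsLocalRing.ResidueField A) ζA) ^ b) (h19_redFun f hf) := by
    intro b _
    obtain ⟨h, hred⟩ := h19_InO_twist (A := A) (ζA ^ b) hf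
    rw [map_pow] at h
    refine ⟨h, ?_⟩
    have h1 : h19_redFun (h87_twist ((Units.map ((A.subtype : A →+* K) : A →* K) ζA) ^ b) f) h =
        h87_twist (Units.map ((IsLocalRing.residue A : A →+* IsLocalRing.ResidueField A) :
          A →* IsLocalRing.ResidueField A) (ζA ^ b)) (h19_redFun f hf) := by
      rw [← hred]
      congr 1
    exact h1.trans (by rw [map_pow])
  obtain ⟨hP, hPred⟩ := h19_InO_prod (A := A) (Finset.range ℓ)
    (fun b : ℕ => h87_twist ((Units.map ((A.subtype : A →+* K) : A →* K) ζA) ^ b) f) _ htw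
  obtain ⟨hQ1, hQ1red⟩ := h19_InO_qExpand (A := A) ℓ hf
  obtain ⟨hQ, hQred⟩ := h19_InO_qExpand (A := A) ℓ hQ1
  rw [hQ1red] at hQred
  have hX' := h19_InO_mul hQ hP
  have hX'red := h19_redFun_mul _ _ hQ hP hX'
  rw [hQred, hPred] at hX'red
  have hX : h19_InO A (qExpand K ℓ Nf) := by
    rw [hid]
    exact hX'
  have hXred : h19_redFun (qExpand K ℓ Nf) hX =
      qExpand _ ℓ (qExpand _ ℓ (h19_redFun f hf)) *
        ∏ b ∈ Finset.range ℓ,
          h87_twist ((Units.map ((IsLocalRing.residue A : A →+* IsLocalRing.ResidueField A) :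
            A →* IsLocalRing.ResidueField A) ζA) ^ b) (h19_redFun f hf) := by
    rw [← hX'red]
    congr 1
  have hXne : h19_redFun (qExpand K ℓ Nf) hX ≠ 0 := by
    rw [hXred]
    refine mul_ne_zero ((map_ne_zero _).mpr ((map_ne_zero _).mpr hfne)) ?_
    rw [Finset.prod_ne_zero_iff]
    intro b _
    exact (map_ne_zero _).mpr hfne
  obtain ⟨h, hred⟩ := h19_InO_of_qExpand ℓ hX hXne c hcN hcNne
  refine ⟨h, ?_, ?_⟩
  · intro h0
    rw [h0, map_zero] at hred
    exact hXne hred.symm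
  · rw [hred, hXred]

end Series

section Level

/-- Scalability of the Gauss ring of `F(N)`, from a reduction datum whose ring is contained in
the Gauss ring. -/
theorem h68_scale_of_datum {N : ℕ} [NeZero N] {A : ValuationSubring Qb} {k Fb : Type*}
    [Field k] [Field Fb] [Algebra k Fb]
    (R : h39_RedDatum Qb ↥(modularFunctionFieldBar N) k Fb)
    (hmem : ∀ f : modularFunctionFieldBar N, f ∈ R.O → h19_InO A (f : LaurentSeries Qb))
    (f : modularFunctionFieldBar N) (hf : f ≠ 0) :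
    ∃ c : Qb, ∃ h : h19_InO A (algebraMap Qb (LaurentSeries Qb) c * (f : LaurentSeries Qb)),
      h19_redFun _ h ≠ 0 := by
  obtain ⟨c, hc0, hcO, hcinvO⟩ := R.exists_scale f hf
  have h1 := hmem _ hcO
  have h2 := hmem _ hcinvO
  have hne : algebraMap Qb (modularFunctionFieldBar N) c * f ≠ 0 :=
    mul_ne_zero ((map_ne_zero _).mpr hc0) hf
  have h3 : ((algebraMap Qb (modularFunctionFieldBar N) c * f : modularFunctionFieldBar N) :
      LaurentSeries Qb) * (((algebraMap Qb (modularFunctionFieldBar N) c * f)⁻¹ :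
      modularFunctionFieldBar N) : LaurentSeries Qb) = 1 := by
    rw [← IntermediateField.coe_mul, mul_inv_cancel₀ hne]
    rfl
  rw [h27_coe_const_mul] at h1 h3
  exact ⟨c, h1, h27_redFun_ne_zero_of_inv _ _ h1 h2 h3⟩

/-- **The norm of `β y` for a unit `y` of the Gauss ring** (level `N`, auxiliary prime
`ℓ ∤ N`; no hypothesis on the residue characteristic): `N_α(β y)` is a unit of the Gauss ring
and its reduction satisfies the reduced K1 identity. -/
theorem h68_norm_beta_red (N : ℕ) [NeZero N] (ℓ : ℕ) [NeZero ℓ] (hℓ : ℓ.Prime) (hℓN : ¬ ℓ ∣ N)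
    (A : ValuationSubring Qb) (ζA : Aˣ)
    (hζ : IsPrimitiveRoot (Units.map ((A.subtype : A →+* Qb) : A →* Qb) ζA) ℓ)
    (hscale : ∀ f : modularFunctionFieldBar N, f ≠ 0 → ∃ c : Qb,
      ∃ h : h19_InO A (algebraMap Qb (LaurentSeries Qb) c * (f : LaurentSeries Qb)),
        h19_redFun _ h ≠ 0)
    (y : modularFunctionFieldBar N)
    (hy : h19_InO A (y : LaurentSeries Qb)) (hyne : h19_redFun _ hy ≠ 0) :
    letI := algebraAlong (heckeAlphaBar Qb N ℓ)
    ∃ h : h19_InO A ((Algebra.norm (modularFunctionFieldBar N) (heckeBetaBar Qb N ℓ y) :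
        modularFunctionFieldBar N) : LaurentSeries Qb),
      h19_redFun _ h ≠ 0 ∧ qExpand _ ℓ (h19_redFun _ h) =
        qExpand _ ℓ (qExpand _ ℓ (h19_redFun _ hy)) *
          ∏ b ∈ Finset.range ℓ,
            h87_twist ((Units.map ((IsLocalRing.residue A : A →+* IsLocalRing.ResidueField A) :
              A →* IsLocalRing.ResidueField A) ζA) ^ b) (h19_redFun _ hy) := by
  letI := algebraAlong (heckeAlphaBar Qb N ℓ)
  have hid := h49_K1 N ℓ hℓ hℓN _ hζ y
  have hy0 : y ≠ 0 := by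
    intro h0
    exact hyne (h27_redFun_eq_zero _ hy (by rw [h0]; rfl))
  have hfin : Module.finrank (modularFunctionFieldBar N) (modularFunctionFieldBar (N * ℓ))
      = ℓ + 1 := h19_DEG N ℓ hℓ hℓN
  haveI : FiniteDimensional (modularFunctionFieldBar N) (modularFunctionFieldBar (N * ℓ)) :=
    Module.finite_of_finrank_pos (by rw [hfin]; omega)
  have hN0 : Algebra.norm (modularFunctionFieldBar N) (heckeBetaBar Qb N ℓ y) ≠ 0 := by
    intro h0
    exact hy0 ((map_eq_zero _).mp (Algebra.norm_eq_zero_iff.mp h0))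
  obtain ⟨Nf, hNf⟩ : ∃ x : modularFunctionFieldBar N,
      x = Algebra.norm (modularFunctionFieldBar N) (heckeBetaBar Qb N ℓ y) := ⟨_, rfl⟩
  rw [← hNf] at hid hN0 ⊢
  obtain ⟨c, hcN, hcNne⟩ := hscale Nf hN0
  exact h68_K1_red_series ℓ ζA hid hy hyne c hcN hcNne

end Level

section HeckeRel

/-- **The Hecke eigen-relation on functions.**  If `n E = div u` and `T_ℓ [E] = a [E]` in
`J₀(N)`, then `N_α(β u) = c · u^a · w^n` for a constant `c ≠ 0` and a function `w ≠ 0`. -/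
theorem h68_hecke_rel (N : ℕ) [NeZero N] ℓ [NeZero ℓ] (n : ℕ) (a : ℤ)
    (E : Divisor.degZero (K := Qb) (F := modularFunctionFieldBar N))
    (u : modularFunctionFieldBar N) (hu : u ≠ 0)
    (hE : ∀ v : Place Qb (modularFunctionFieldBar N),
      (n : ℤ) * (E : Divisor Qb (modularFunctionFieldBar N)) v = v.ord u)
    (hT : heckeOperatorAlong Qb N ℓ (Pic0.mk E) = a • Pic0.mk E) :
    letI := algebraAlong (heckeAlphaBar Qb N ℓ)
    ∃ (c : Qb) (w : modularFunctionFieldBar N), c ≠ 0 ∧ w ≠ 0 ∧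
      Algebra.norm (modularFunctionFieldBar N) (heckeBetaBar Qb N ℓ u)
        = algebraMap Qb (modularFunctionFieldBar N) c * u ^ a * w ^ n := by
  haveI := h88_hasPrincipalDivisors (N * ℓ)
  letI := algebraAlong (heckeAlphaBar Qb N ℓ)
  have hα : (heckeAlphaBar Qb N ℓ).toRingHom.IsIntegral := h88_alphaIntegral N ℓ
  have hβ : (heckeBetaBar Qb N ℓ).toRingHom.IsIntegral := h88_betaIntegral N ℓ
  have hFI := h87_FI_beta N ℓ
  have hfin := h88_finiteAlong_alpha N ℓ
  have hNF := h87_NF_alpha N ℓ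
  haveI : Module.Finite (modularFunctionFieldBar N) (modularFunctionFieldBar (N * ℓ)) :=
    hfin
  rw [heckeOperatorAlong_eq hα hβ hFI hfin hNF] at hT
  -- the class equation, on divisors
  have h1 : Pic0.mk (Pic0.degZeroCorrespondence (heckeBetaBar Qb N ℓ)
      (heckeAlphaBar Qb N ℓ) hβ hα hFI E - a • E) = 0 := by
    have h0 : heckePic0Bar hα hβ hFI hfin hNF (Pic0.mk E) =
        Pic0.mk (Pic0.degZeroCorrespondence (heckeBetaBar Qb N ℓ)
          (heckeAlphaBar Qb N ℓ) hβ hα hFI E) := rfl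
    rw [h0] at hT
    have h2 : Pic0.mk (Pic0.degZeroCorrespondence (heckeBetaBar Qb N ℓ)
        (heckeAlphaBar Qb N ℓ) hβ hα hFI E - a • E) =
        Pic0.mk (Pic0.degZeroCorrespondence (heckeBetaBar Qb N ℓ)
          (heckeAlphaBar Qb N ℓ) hβ hα hFI E) - a • Pic0.mk E := rfl
    rw [h2]
    exact sub_eq_zero.mpr hT
  rw [h87_mk_eq_zero_iff] at h1
  obtain ⟨w, hw0, hw⟩ := h1
  -- the divisor of the norm
  have hnorm : ∀ v : Place Qb (modularFunctionFieldBar N),
      v.ord (Algebra.norm (modularFunctionFieldBar N) (heckeBetaBar Qb N ℓ u))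
        = a * v.ord u + n * v.ord w := by
    intro v
    have hnE : ∀ P, (n • (E : Divisor Qb (modularFunctionFieldBar N))) P = P.ord u := by
      intro P
      rw [Finsupp.smul_apply, nsmul_eq_mul]
      exact hE P
    have h2 := h87_correspondence_isDiv (heckeBetaBar Qb N ℓ)
      (heckeAlphaBar Qb N ℓ) hβ hα hfin hNF hu hnE v
    rw [map_nsmul, Finsupp.smul_apply, nsmul_eq_mul] at h2
    have h3 := hw v
    rw [AddSubgroup.coe_sub, Finsupp.sub_apply, Pic0.coe_degZeroCorrespondence,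
      AddSubgroup.coe_zsmul, Finsupp.smul_apply, smul_eq_mul] at h3
    rw [← h2, ← hE v, ← h3]
    ring
  have hNu0 : Algebra.norm (modularFunctionFieldBar N) (heckeBetaBar Qb N ℓ u) ≠ 0 := by
    intro h0
    exact hu ((map_eq_zero _).mp (Algebra.norm_eq_zero_iff.mp h0))
  obtain ⟨Nu, hNu⟩ : ∃ x : modularFunctionFieldBar N,
      x = Algebra.norm (modularFunctionFieldBar N) (heckeBetaBar Qb N ℓ u) := ⟨_, rfl⟩
  rw [← hNu] at hnorm hNu0 ⊢
  have hd0 : u ^ a * w ^ n ≠ 0 := mul_ne_zero (zpow_ne_zero a hu) (pow_ne_zero n hw0)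
  have hgord : ∀ v : Place Qb (modularFunctionFieldBar N),
      v.ord (Nu * (u ^ a * w ^ n)⁻¹) = 0 := by
    intro v
    rw [v.ord_mul hNu0 (inv_ne_zero hd0), v.ord_inv,
      v.ord_mul (zpow_ne_zero a hu) (pow_ne_zero n hw0), v.ord_zpow, h60_ord_pow, hnorm v]
    ring
  obtain ⟨c, hc⟩ := h70_const_of_ord_zero (h88_isFF N) _ hgord
  refine ⟨c, w, ?_, hw0, ?_⟩
  · rintro rfl
    rw [map_zero] at hc
    exact mul_ne_zero hNu0 (inv_ne_zero hd0) hc.symm
  · rw [mul_assoc, hc, inv_mul_cancel_right₀ hd0]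

end HeckeRel

section EigFun

variable (M p : ℕ) [NeZero M] [NeZero p] [Fact p.Prime] (hpM : ¬ p ∣ M)
  (A : ValuationSubring Qb) (hA : A.LiesOverPrime p)

/-- `red₁` (level `M p`) in terms of the series reduction. -/
theorem h68_R1_redFun (f : modularFunctionFieldBar (M * p))
    (hf : f ∈ (h60_R1 M p hpM A hA).O) (h : h19_InO A (f : LaurentSeries Qb)) :
    h19_redFun _ h = ((((h60_R1 M p hpM A hA).red ⟨f, hf⟩ :
      ↥(modularFunctionFieldFullC (IsLocalRing.ResidueField A) M)) :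
        LaurentSeries (IsLocalRing.ResidueField A))) := by
  obtain ⟨y₁, y₂, hy, e⟩ := id h
  exact h19_redFun_eq _ h y₁ y₂ hy e _ (h60_R1_red_eq M p hpM A hA f hf y₁ y₂ e)

omit [NeZero p] [Fact p.Prime] in
/-- The reduction at level `M` in terms of the series reduction. -/
theorem h68_RM_redFun
    {RM : h39_RedDatum Qb ↥(modularFunctionFieldBar M) (IsLocalRing.ResidueField A)
      ↥(modularFunctionFieldFullC (IsLocalRing.ResidueField A) M)}
    (hRM : h54_IsModRed M A RM) (f : modularFunctionFieldBar M)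
    (hf : f ∈ RM.O) (h : h19_InO A (f : LaurentSeries Qb)) :
    h19_redFun _ h = (((RM.red ⟨f, hf⟩ :
      ↥(modularFunctionFieldFullC (IsLocalRing.ResidueField A) M)) :
        LaurentSeries (IsLocalRing.ResidueField A))) := by
  obtain ⟨y₁, y₂, hy, e⟩ := id h
  exact h19_redFun_eq _ h y₁ y₂ hy e _ (hRM.red_eq f hf y₁ y₂ e)

omit [NeZero p] [Fact p.Prime] in
/-- At the good level `M`: the norm `N_α(β g)` of a unit `g` of the valuation ring is a unit
of the valuation ring. -/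
theorem h68_norm_beta_unit (ℓ : ℕ) [NeZero ℓ] (hℓ : ℓ.Prime) (hℓM : ¬ ℓ ∣ M)
    {RM : h39_RedDatum Qb ↥(modularFunctionFieldBar M) (IsLocalRing.ResidueField A)
      ↥(modularFunctionFieldFullC (IsLocalRing.ResidueField A) M)}
    (hRM : h54_IsModRed M A RM) (g : modularFunctionFieldBar M) (hg : g ∈ RM.O)
    (hgne : RM.red ⟨g, hg⟩ ≠ 0) :
    ∃ hN : (letI := algebraAlong (heckeAlphaBar Qb M ℓ);
        Algebra.norm (modularFunctionFieldBar M) (heckeBetaBar Qb M ℓ g)) ∈ RM.O,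
      RM.red ⟨_, hN⟩ ≠ 0 := by
  obtain ⟨ζA, -, hζ⟩ := h87_exists_zeta A ℓ
  have hgIn : h19_InO A (g : LaurentSeries Qb) := (hRM.mem_iff g).mp hg
  have hgRed := h68_RM_redFun M A hRM g hg hgIn
  have hgneS : h19_redFun _ hgIn ≠ 0 := by
    rw [hgRed]
    intro h0
    exact hgne (Subtype.ext h0)
  obtain ⟨hN, hNne, -⟩ := h68_norm_beta_red M ℓ hℓ hℓM A ζA hζ
    (h68_scale_of_datum RM (fun f hf => (hRM.mem_iff f).mp hf)) g hgIn hgneS
  have hNO := (hRM.mem_iff _).mpr hN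
  refine ⟨hNO, ?_⟩
  intro h0
  apply hNne
  rw [h68_RM_redFun M A hRM _ hNO hN, h0]
  rfl

set_option maxHeartbeats 1000000 in
/-- **(EIG), function level.**  Level `M p` (`p ∤ M`, `A` over `p`), `ℓ ∤ M p`.  Let `u` be a
unit of the `q`-expansion valuation ring `O₁` of `F(M p)` satisfying the eigen-relation
`N_α(β u) = c · u^a · w^n` (`n ≠ 0`).  Then there is `w̄ ≠ 0` in `F̄(M)` such that for every
`g ∈ O(M)` with `red g = red₁ u`:  `red (N_α(β g)) = (red₁ u)^a · w̄^n`  (norm and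
degeneracy maps at the levels `(M, M ℓ)`). -/
theorem h68_eig_fun (ℓ : ℕ) [NeZero ℓ] (hℓ : ℓ.Prime) (hℓMp : ¬ ℓ ∣ M * p)
    {RM : h39_RedDatum Qb ↥(modularFunctionFieldBar M) (IsLocalRing.ResidueField A)
      ↥(modularFunctionFieldFullC (IsLocalRing.ResidueField A) M)}
    (hRM : h54_IsModRed M A RM)
    (u : modularFunctionFieldBar (M * p)) (hu : u ∈ (h60_R1 M p hpM A hA).O)
    (hune : (h60_R1 M p hpM A hA).red ⟨u, hu⟩ ≠ 0)
    (a : ℤ) (n : ℕ) (hn : n ≠ 0) (c : Qb) (w : modularFunctionFieldBar (M * p))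
    (hrel : (letI := algebraAlong (heckeAlphaBar Qb (M * p) ℓ);
      Algebra.norm (modularFunctionFieldBar (M * p)) (heckeBetaBar Qb (M * p) ℓ u))
        = algebraMap Qb (modularFunctionFieldBar (M * p)) c * u ^ a * w ^ n) :
    ∃ wb : modularFunctionFieldFullC (IsLocalRing.ResidueField A) M, wb ≠ 0 ∧
      ∀ (g : modularFunctionFieldBar M) (hg : g ∈ RM.O),
        RM.red ⟨g, hg⟩ = (h60_R1 M p hpM A hA).red ⟨u, hu⟩ →
        ∃ hN : (letI := algebraAlong (heckeAlphaBar Qb M ℓ);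
            Algebra.norm (modularFunctionFieldBar M) (heckeBetaBar Qb M ℓ g)) ∈ RM.O,
          RM.red ⟨_, hN⟩ = (h60_R1 M p hpM A hA).red ⟨u, hu⟩ ^ a * wb ^ n := by
  obtain ⟨ζA, -, hζ⟩ := h87_exists_zeta A ℓ
  -- level `M p`
  have huIn : h19_InO A (u : LaurentSeries Qb) := (h60_R1_mem_iff M p hpM A hA u).mp hu
  have huRed := h68_R1_redFun M p hpM A hA u hu huIn
  have huneS : h19_redFun _ huIn ≠ 0 := by
    rw [huRed]
    intro h0
    exact hune (Subtype.ext h0)
  have hu0 : u ≠ 0 := by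
    rintro rfl
    apply hune
    exact map_zero (h60_R1 M p hpM A hA).red
  have hnb := h68_norm_beta_red (M * p) ℓ hℓ hℓMp A ζA hζ
    (h68_scale_of_datum (h60_R1 M p hpM A hA)
      (fun f hf => (h60_R1_mem_iff M p hpM A hA f).mp hf)) u huIn huneS
  obtain ⟨N1, hN1def⟩ : ∃ x : modularFunctionFieldBar (M * p),
      x = (letI := algebraAlong (heckeAlphaBar Qb (M * p) ℓ);
        Algebra.norm (modularFunctionFieldBar (M * p)) (heckeBetaBar Qb (M * p) ℓ u)) :=
    ⟨_, rfl⟩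
  rw [← hN1def] at hrel hnb
  obtain ⟨hN1, hN1ne, hN1id⟩ := hnb
  have hN1O : N1 ∈ (h60_R1 M p hpM A hA).O := (h60_R1_mem_iff M p hpM A hA N1).mpr hN1
  have hN1Red := h68_R1_redFun M p hpM A hA N1 hN1O hN1
  have hN1ne' : (h60_R1 M p hpM A hA).red ⟨N1, hN1O⟩ ≠ 0 := by
    intro h0
    apply hN1ne
    rw [hN1Red, h0]
    rfl
  -- the `n`-th root of the constant
  obtain ⟨c1, hc1⟩ := IsAlgClosed.exists_pow_nat_eq c (Nat.pos_of_ne_zero hn)
  have hua0 : u ^ a ≠ 0 := zpow_ne_zero a hu0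
  have hw1pow : (algebraMap Qb (modularFunctionFieldBar (M * p)) c1 * w) ^ n
      = N1 * (u ^ a)⁻¹ := by
    rw [mul_pow, ← map_pow, hc1, hrel]
    field_simp
  -- units of `O₁`
  have hu' : u⁻¹ ∈ (h60_R1 M p hpM A hA).O :=
    h89_inv_mem_of_red_ne_zero (h60_R1 M p hpM A hA) hu hune
  have hN1' : N1⁻¹ ∈ (h60_R1 M p hpM A hA).O :=
    h89_inv_mem_of_red_ne_zero (h60_R1 M p hpM A hA) hN1O hN1ne'
  obtain ⟨huaO, huaRed⟩ := h68_red_zpow (h60_R1 M p hpM A hA) hu0 hu hu' a
  obtain ⟨huaO', huaRed'⟩ := h68_red_zpow (h60_R1 M p hpM A hA) hu0 hu hu' (-a)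
  rw [zpow_neg] at huaO'
  have hw1n : (algebraMap Qb (modularFunctionFieldBar (M * p)) c1 * w) ^ n
      ∈ (h60_R1 M p hpM A hA).O := by
    rw [hw1pow]
    exact (h60_R1 M p hpM A hA).O.mul_mem _ _ hN1O huaO'
  have hw1n' : ((algebraMap Qb (modularFunctionFieldBar (M * p)) c1 * w) ^ n)⁻¹
      ∈ (h60_R1 M p hpM A hA).O := by
    rw [hw1pow, mul_inv, inv_inv]
    exact (h60_R1 M p hpM A hA).O.mul_mem _ _ hN1' huaO
  obtain ⟨hw1O, hw1O'⟩ := h68_unit_of_pow (h60_R1 M p hpM A hA).O _ n hn hw1n hw1n'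
  -- `N1 = u^a * w1^n` in `O₁`
  have hprod : (⟨N1, hN1O⟩ : (h60_R1 M p hpM A hA).O) =
      ⟨u ^ a, huaO⟩ * ⟨algebraMap Qb (modularFunctionFieldBar (M * p)) c1 * w, hw1O⟩ ^ n := by
    apply Subtype.ext
    show N1 = u ^ a * (algebraMap Qb (modularFunctionFieldBar (M * p)) c1 * w) ^ n
    rw [hw1pow, mul_comm N1, ← mul_assoc, mul_inv_cancel₀ hua0, one_mul]
  have hredN1 : (h60_R1 M p hpM A hA).red ⟨N1, hN1O⟩ =
      (h60_R1 M p hpM A hA).red ⟨u, hu⟩ ^ a *
        (h60_R1 M p hpM A hA).red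
          ⟨algebraMap Qb (modularFunctionFieldBar (M * p)) c1 * w, hw1O⟩ ^ n := by
    rw [hprod, map_mul, map_pow, huaRed]
  refine ⟨(h60_R1 M p hpM A hA).red
    ⟨algebraMap Qb (modularFunctionFieldBar (M * p)) c1 * w, hw1O⟩, ?_, ?_⟩
  · intro h0
    apply hN1ne'
    rw [hredN1, h0, zero_pow hn, mul_zero]
  · intro g hg hgred
    -- level `M`
    have hℓM : ¬ ℓ ∣ M := fun h => hℓMp (Dvd.dvd.mul_right h p)
    have hgIn : h19_InO A (g : LaurentSeries Qb) := (hRM.mem_iff g).mp hg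
    have hgRed := h68_RM_redFun M A hRM g hg hgIn
    have hgeq : h19_redFun _ hgIn = h19_redFun _ huIn := by
      rw [hgRed, huRed, hgred]
    have hgne : h19_redFun _ hgIn ≠ 0 := by
      rw [hgeq]
      exact huneS
    obtain ⟨hN2, hN2ne, hN2id⟩ := h68_norm_beta_red M ℓ hℓ hℓM A ζA hζ
      (h68_scale_of_datum RM (fun f hf => (hRM.mem_iff f).mp hf)) g hgIn hgne
    have hN2O := (hRM.mem_iff _).mpr hN2
    refine ⟨hN2O, ?_⟩
    apply Subtype.ext
    rw [← h68_RM_redFun M A hRM _ hN2O hN2, ← hredN1, ← hN1Red]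
    apply qExpand_injective ℓ
    rw [hN2id, hN1id, hgeq]

end EigFun

section EigPic

set_option maxHeartbeats 1000000 in
/-- **Compatibility of a place reduction (in the sense of the prelude) with divisors of units
of the valuation ring** at a good level `M`: `r_* div f = div (red f)`. -/
theorem h68_compat (M : ℕ) [NeZero M] (A : ValuationSubring Qb)
    {RM : h39_RedDatum Qb ↥(modularFunctionFieldBar M) (IsLocalRing.ResidueField A)
      ↥(modularFunctionFieldFullC (IsLocalRing.ResidueField A) M)}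
    (hRM : h54_IsModRed M A RM)
    {r : Place Qb (modularFunctionFieldBar M) →
      Place (IsLocalRing.ResidueField A)
        (modularFunctionFieldFullC (IsLocalRing.ResidueField A) M)}
    (hr : IsPlaceReductionModL A M r)
    (hgen : PrincipalGeneratedByIntegral A (IsLocalRing.residue A) M)
    (f : modularFunctionFieldBar M) (hf : f ∈ RM.O) (hfne : RM.red ⟨f, hf⟩ ≠ 0)
    (D : Divisor Qb (modularFunctionFieldBar M)) (hD : ∀ P, D P = P.ord f)
    (Q : Place (IsLocalRing.ResidueField A)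
      (modularFunctionFieldFullC (IsLocalRing.ResidueField A) M)) :
    Finsupp.mapDomain r D Q = Q.ord (RM.red ⟨f, hf⟩) := by
  have hf0 : f ≠ 0 := by
    rintro rfl
    exact hfne (map_zero RM.red)
  have hDprin : D ∈ Divisor.principal (K := Qb) (F := modularFunctionFieldBar M) :=
    ⟨f, hf0, hD⟩
  obtain ⟨y₁, h₁, y₂, h₂, D₁, D₂, hD₁, hD₂, hE⟩ := h60_exists_pair hgen hDprin
  have hm1 : h60_up y₁ h₁ ∈ RM.O := hRM.mem_of_integral _ y₁ rfl
  have hm2 : h60_up y₂ h₂ ∈ RM.O := hRM.mem_of_integral _ y₂ rfl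
  have hr1 : RM.red ⟨h60_up y₁ h₁, hm1⟩ = h60_dn y₁ h₁ :=
    Subtype.ext (hRM.red_of_integral _ y₁ rfl hm1)
  have hr2 : RM.red ⟨h60_up y₂ h₂, hm2⟩ = h60_dn y₂ h₂ :=
    Subtype.ext (hRM.red_of_integral _ y₂ rfl hm2)
  have hu1 := h60_up_ne_zero y₁ h₁
  have hu2 := h60_up_ne_zero y₂ h₂
  -- the ratio is a constant
  have hgord : ∀ P : Place Qb (modularFunctionFieldBar M),
      P.ord (f * h60_up y₂ h₂ * (h60_up y₁ h₁)⁻¹) = 0 := by
    intro P
    have h3 := congrArg (fun E : Divisor Qb (modularFunctionFieldBar M) => E P) hE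
    simp only [Finsupp.sub_apply, hD, hD₁, hD₂] at h3
    rw [P.ord_mul (mul_ne_zero hf0 hu2) (inv_ne_zero hu1), P.ord_mul hf0 hu2, P.ord_inv, h3]
    ring
  obtain ⟨c, hc⟩ := h70_const_of_ord_zero (h88_isFF M) _ hgord
  have hinv1 : (h60_up y₁ h₁)⁻¹ ∈ RM.O :=
    h89_inv_mem_of_red_ne_zero RM hm1 (by rw [hr1]; exact h60_dn_ne_zero y₁ h₁)
  have hcO : algebraMap Qb (modularFunctionFieldBar M) c ∈ RM.O := by
    rw [hc]
    exact RM.O.mul_mem _ _ (RM.O.mul_mem _ _ hf hm2) hinv1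
  have hcA : c ∈ RM.A := (RM.mem_iff c).mpr hcO
  have heq : (⟨f, hf⟩ : RM.O) * ⟨h60_up y₂ h₂, hm2⟩
      = ⟨algebraMap Qb (modularFunctionFieldBar M) c, hcO⟩ * ⟨h60_up y₁ h₁, hm1⟩ := by
    apply Subtype.ext
    show f * h60_up y₂ h₂ = algebraMap Qb (modularFunctionFieldBar M) c * h60_up y₁ h₁
    rw [hc, inv_mul_cancel_right₀ hu1]
  have hredeq := congrArg RM.red heq
  rw [map_mul, map_mul, hr1, hr2, RM.red_algebraMap c hcA hcO] at hredeq
  have hconst0 : algebraMap (IsLocalRing.ResidueField A)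
      (modularFunctionFieldFullC (IsLocalRing.ResidueField A) M) (RM.res ⟨c, hcA⟩) ≠ 0 := by
    intro h0
    rw [h0, zero_mul] at hredeq
    exact mul_ne_zero hfne (h60_dn_ne_zero y₂ h₂) hredeq
  have hordeq := congrArg Q.ord hredeq
  rw [Q.ord_mul hfne (h60_dn_ne_zero _ _), Q.ord_mul hconst0 (h60_dn_ne_zero _ _),
    h60_ord_algebraMap, zero_add] at hordeq
  have e1 := hr.2 y₁ h₁.1 h₁.2.1 h₁.2.2 D₁ hD₁ Q
  have e2 := hr.2 y₂ h₂.1 h₂.2.1 h₂.2.2 D₂ hD₂ Q
  rw [hE, Finsupp.mapDomain_sub, Finsupp.sub_apply, e1, e2]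
  have h4 : Q.ord (RM.red ⟨f, hf⟩) = Q.ord (h60_dn y₁ h₁) - Q.ord (h60_dn y₂ h₂) := by
    linarith
  rw [h4]
  rfl

set_option maxHeartbeats 1000000 in
/-- **Transfer along the Hecke correspondence.**  Good level `M`, `ℓ ∤ M`, (CORR-w) on
divisors.  If `D` has degree `0` and `n · r_* D = div (red g)` for a unit `g` of the valuation
ring, then `N_α(β g)` is a unit of the valuation ring and
`n · r_* (T_ℓ D) = div (red (N_α(β g)))`. -/
theorem h68_transfer (M : ℕ) [NeZero M] (A : ValuationSubring Qb)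
    (hRI : ReductionInputsModL A M)
    {RM : h39_RedDatum Qb ↥(modularFunctionFieldBar M) (IsLocalRing.ResidueField A)
      ↥(modularFunctionFieldFullC (IsLocalRing.ResidueField A) M)}
    (hRM : h54_IsModRed M A RM)
    ℓ [NeZero ℓ] (hℓ : ℓ.Prime) (hℓM : ¬ ℓ ∣ M)
    (hcorr : haveI := h88_hasPrincipalDivisors (M * ℓ)
      ∀ Z : Divisor Qb (modularFunctionFieldBar M),
        Z ∈ Divisor.degZero (K := Qb) (F := modularFunctionFieldBar M) →
        Finsupp.mapDomain (placeReductionModL hRI) Z = 0 →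
        Finsupp.mapDomain (placeReductionModL hRI)
          (heckeDivBar (h88_alphaIntegral M ℓ) (h88_betaIntegral M ℓ) Z) = 0)
    (D : Divisor Qb (modularFunctionFieldBar M))
    (hD : D ∈ Divisor.degZero (K := Qb) (F := modularFunctionFieldBar M)) (n : ℕ)
    (g : modularFunctionFieldBar M) (hg : g ∈ RM.O) (hgne : RM.red ⟨g, hg⟩ ≠ 0)
    (hDg : ∀ Q : Place (IsLocalRing.ResidueField A)
        (modularFunctionFieldFullC (IsLocalRing.ResidueField A) M),
      (n : ℤ) * Finsupp.mapDomain (placeReductionModL hRI) D Q = Q.ord (RM.red ⟨g, hg⟩)) :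
    haveI := h88_hasPrincipalDivisors (M * ℓ)
    ∃ hN : (letI := algebraAlong (heckeAlphaBar Qb M ℓ);
        Algebra.norm (modularFunctionFieldBar M) (heckeBetaBar Qb M ℓ g)) ∈ RM.O,
      RM.red ⟨_, hN⟩ ≠ 0 ∧
      ∀ Q : Place (IsLocalRing.ResidueField A)
          (modularFunctionFieldFullC (IsLocalRing.ResidueField A) M),
        (n : ℤ) * Finsupp.mapDomain (placeReductionModL hRI)
          (heckeDivBar (h88_alphaIntegral M ℓ) (h88_betaIntegral M ℓ) D) Q
          = Q.ord (RM.red ⟨_, hN⟩) := by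
  haveI := h88_hasPrincipalDivisors (M * ℓ)
  haveI := h88_hasPrincipalDivisors M
  have hα : (heckeAlphaBar Qb M ℓ).toRingHom.IsIntegral := h88_alphaIntegral M ℓ
  have hβ : (heckeBetaBar Qb M ℓ).toRingHom.IsIntegral := h88_betaIntegral M ℓ
  have hfin := h88_finiteAlong_alpha M ℓ
  have hNF := h87_NF_alpha M ℓ
  have hr := isPlaceReductionModL_placeReductionModL hRI
  have hgen : PrincipalGeneratedByIntegral A (IsLocalRing.residue A) M := hRI.choose_spec.2
  have hg0 : g ≠ 0 := by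
    rintro rfl
    exact hgne (map_zero RM.red)
  obtain ⟨Dg, hDgdiv, hDgdeg⟩ := HasPrincipalDivisors.exists_divisor (K := Qb) g hg0
  -- the divisor `Z = n D - div g` has degree zero and reduces to zero
  have hZdeg : (n • D - Dg) ∈ Divisor.degZero (K := Qb) (F := modularFunctionFieldBar M) := by
    rw [Divisor.mem_degZero, map_sub, map_nsmul, Divisor.mem_degZero.mp hD, hDgdeg]
    simp
  have hZred : Finsupp.mapDomain (placeReductionModL hRI) (n • D - Dg) = 0 := by
    ext Q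
    rw [Finsupp.mapDomain_sub, Finsupp.sub_apply, ← Finsupp.mapDomain.addMonoidHom_apply,
      map_nsmul, Finsupp.mapDomain.addMonoidHom_apply, Finsupp.smul_apply, nsmul_eq_mul,
      hDg Q, h68_compat M A hRM hr hgen g hg hgne Dg hDgdiv Q, Finsupp.zero_apply, sub_self]
  have hTZ := hcorr _ hZdeg hZred
  rw [map_sub, map_nsmul, Finsupp.mapDomain_sub, sub_eq_zero] at hTZ
  -- the norm
  obtain ⟨hN, hNne⟩ := h68_norm_beta_unit M A ℓ hℓ hℓM hRM g hg hgne
  refine ⟨hN, hNne, fun Q => ?_⟩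
  have hTDg : ∀ P : Place Qb (modularFunctionFieldBar M),
      heckeDivBar hα hβ Dg P =
        P.ord (letI := algebraAlong (heckeAlphaBar Qb M ℓ);
          Algebra.norm (modularFunctionFieldBar M) (heckeBetaBar Qb M ℓ g)) :=
    fun P => h87_correspondence_isDiv (heckeBetaBar Qb M ℓ) (heckeAlphaBar Qb M ℓ)
      hβ hα hfin hNF hg0 hDgdiv P
  have h7 := DFunLike.congr_fun hTZ Q
  rw [← Finsupp.mapDomain.addMonoidHom_apply, map_nsmul, Finsupp.mapDomain.addMonoidHom_apply,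
    Finsupp.smul_apply, nsmul_eq_mul,
    h68_compat M A hRM hr hgen _ hN hNne _ hTDg Q] at h7
  exact h7

/-- **(CORR-w), class level from the divisor level.**  If the Hecke correspondence `T_ℓ`
preserves the divisors of degree `0` with zero reduction, then `T_ℓ` preserves the kernel of
the reduction map `J₀(M) → Pic⁰(F̄(M))`. -/
theorem h68_ker (M : ℕ) [NeZero M] (A : ValuationSubring Qb)
    (hRI : ReductionInputsModL A M)
    {RM : h39_RedDatum Qb ↥(modularFunctionFieldBar M) (IsLocalRing.ResidueField A)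
      ↥(modularFunctionFieldFullC (IsLocalRing.ResidueField A) M)}
    (hRM : h54_IsModRed M A RM)
    ℓ [NeZero ℓ] (hℓ : ℓ.Prime) (hℓM : ¬ ℓ ∣ M)
    (hcorr : haveI := h88_hasPrincipalDivisors (M * ℓ)
      ∀ Z : Divisor Qb (modularFunctionFieldBar M),
        Z ∈ Divisor.degZero (K := Qb) (F := modularFunctionFieldBar M) →
        Finsupp.mapDomain (placeReductionModL hRI) Z = 0 →
        Finsupp.mapDomain (placeReductionModL hRI)
          (heckeDivBar (h88_alphaIntegral M ℓ) (h88_betaIntegral M ℓ) Z) = 0)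
    (z : JZero M) (hz : reductionModL A M z = 0) :
    reductionModL A M (heckeOperatorAlong Qb M ℓ z) = 0 := by
  haveI := h88_hasPrincipalDivisors (M * ℓ)
  have hα : (heckeAlphaBar Qb M ℓ).toRingHom.IsIntegral := h88_alphaIntegral M ℓ
  have hβ : (heckeBetaBar Qb M ℓ).toRingHom.IsIntegral := h88_betaIntegral M ℓ
  have hFI := h87_FI_beta M ℓ
  have hfin := h88_finiteAlong_alpha M ℓ
  have hNF := h87_NF_alpha M ℓ
  have hr := isPlaceReductionModL_placeReductionModL hRI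
  obtain ⟨D, rfl⟩ := Pic0.mk_surjective z
  rw [reductionModL_mk hRI D, h87_mk_eq_zero_iff] at hz
  obtain ⟨hb, hhb0, hhb⟩ := hz
  obtain ⟨⟨g, hg⟩, hgred⟩ := RM.red_surjective hb
  have hgne : RM.red ⟨g, hg⟩ ≠ 0 := by
    rw [hgred]
    exact hhb0
  obtain ⟨hN, hNne, hNdiv⟩ := h68_transfer M A hRI hRM ℓ hℓ hℓM hcorr
    (D : Divisor Qb (modularFunctionFieldBar M)) D.2 1 g hg hgne (fun Q => by
      have h3 := hhb Q
      rw [coe_reductionDegZeroAlong] at h3
      rw [Nat.cast_one, one_mul, h3, hgred])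
  rw [heckeOperatorAlong_eq hα hβ hFI hfin hNF]
  have h5 : heckePic0Bar hα hβ hFI hfin hNF (Pic0.mk D) =
      Pic0.mk (Pic0.degZeroCorrespondence (heckeBetaBar Qb M ℓ)
        (heckeAlphaBar Qb M ℓ) hβ hα hFI D) := rfl
  rw [h5, reductionModL_mk hRI, h87_mk_eq_zero_iff]
  refine ⟨_, hNne, fun Q => ?_⟩
  rw [coe_reductionDegZeroAlong, Pic0.coe_degZeroCorrespondence]
  have h6 := hNdiv Q
  rw [Nat.cast_one, one_mul] at h6
  exact h6

set_option maxHeartbeats 1000000 in
/-- **(EIG), class level, from the function-level eigen-relation.**  Level `M p` (`p ∤ M`,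
`A` over `p`), `ℓ ∤ M p`.  Data at level `M p`: a unit `u` of the `q`-expansion valuation
ring `O₁` with `N_α(β u) = c · u^a · w^n` (`n ≠ 0`); a divisor `D̄` of degree `0` of `F̄(M)`
with `n D̄ = div (red₁ u)`.  Input at level `M`: the weak Hecke compatibility (CORR-w) of the
place reduction.  Conclusion: for every `y ∈ J₀(M)` with `sp y = m [D̄]`:
`sp (T_ℓ y) = (a m) [D̄]`. -/
theorem h68_eig_of_rel (M p : ℕ) [NeZero M] [NeZero p] [Fact p.Prime] (hpM : ¬ p ∣ M)
    (A : ValuationSubring Qb) (hA : A.LiesOverPrime p)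
    (hRI : ReductionInputsModL A M)
    {RM : h39_RedDatum Qb ↥(modularFunctionFieldBar M) (IsLocalRing.ResidueField A)
      ↥(modularFunctionFieldFullC (IsLocalRing.ResidueField A) M)}
    (hRM : h54_IsModRed M A RM)
    ℓ [NeZero ℓ] (hℓ : ℓ.Prime) (hℓMp : ¬ ℓ ∣ M * p)
    (u : modularFunctionFieldBar (M * p)) (hu : u ∈ (h60_R1 M p hpM A hA).O)
    (hune : (h60_R1 M p hpM A hA).red ⟨u, hu⟩ ≠ 0)
    (n : ℕ) (hn : n ≠ 0) (a : ℤ) (c : Qb) (w : modularFunctionFieldBar (M * p))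
    (hrel : (letI := algebraAlong (heckeAlphaBar Qb (M * p) ℓ);
      Algebra.norm (modularFunctionFieldBar (M * p)) (heckeBetaBar Qb (M * p) ℓ u))
        = algebraMap Qb (modularFunctionFieldBar (M * p)) c * u ^ a * w ^ n)
    (Db : Divisor.degZero (K := IsLocalRing.ResidueField A)
      (F := modularFunctionFieldFullC (IsLocalRing.ResidueField A) M))
    (hDb : ∀ Q : Place (IsLocalRing.ResidueField A)
        (modularFunctionFieldFullC (IsLocalRing.ResidueField A) M),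
      (n : ℤ) * (Db : Divisor (IsLocalRing.ResidueField A)
        (modularFunctionFieldFullC (IsLocalRing.ResidueField A) M)) Q
        = Q.ord ((h60_R1 M p hpM A hA).red ⟨u, hu⟩))
    (hcorr : haveI := h88_hasPrincipalDivisors (M * ℓ)
      ∀ Z : Divisor Qb (modularFunctionFieldBar M),
        Z ∈ Divisor.degZero (K := Qb) (F := modularFunctionFieldBar M) →
        Finsupp.mapDomain (placeReductionModL hRI) Z = 0 →
        Finsupp.mapDomain (placeReductionModL hRI)
          (heckeDivBar (h88_alphaIntegral M ℓ) (h88_betaIntegral M ℓ) Z) = 0)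
    (y : JZero M) (m : ℤ) (hy : reductionModL A M y = m • Pic0.mk Db) :
    reductionModL A M (heckeOperatorAlong Qb M ℓ y) = (a * m) • Pic0.mk Db := by
  haveI := h88_hasPrincipalDivisors (M * ℓ)
  have hℓM : ¬ ℓ ∣ M := fun h => hℓMp (Dvd.dvd.mul_right h p)
  have hα : (heckeAlphaBar Qb M ℓ).toRingHom.IsIntegral := h88_alphaIntegral M ℓ
  have hβ : (heckeBetaBar Qb M ℓ).toRingHom.IsIntegral := h88_betaIntegral M ℓ
  have hFI := h87_FI_beta M ℓ
  have hfin := h88_finiteAlong_alpha M ℓ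
  have hNF := h87_NF_alpha M ℓ
  have hr := isPlaceReductionModL_placeReductionModL hRI
  -- function-level input
  obtain ⟨wb, hwb, key⟩ :=
    h68_eig_fun M p hpM A hA ℓ hℓ hℓMp hRM u hu hune a n hn c w hrel
  -- the class `y`
  obtain ⟨D, rfl⟩ := Pic0.mk_surjective y
  rw [reductionModL_mk hRI D] at hy
  have hy' : Pic0.mk (reductionDegZeroAlong (placeReductionModL hRI) hr.1 D - m • Db) = 0 := by
    have h2 : Pic0.mk (reductionDegZeroAlong (placeReductionModL hRI) hr.1 D - m • Db)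
        = Pic0.mk (reductionDegZeroAlong (placeReductionModL hRI) hr.1 D)
          - m • Pic0.mk Db := rfl
    rw [h2]
    exact sub_eq_zero.mpr hy
  rw [h87_mk_eq_zero_iff] at hy'
  obtain ⟨hb, hhb0, hhb⟩ := hy'
  have hhb' : ∀ Q : Place (IsLocalRing.ResidueField A)
      (modularFunctionFieldFullC (IsLocalRing.ResidueField A) M),
      Finsupp.mapDomain (placeReductionModL hRI) (D : Divisor Qb (modularFunctionFieldBar M)) Q
        = m * (Db : Divisor (IsLocalRing.ResidueField A)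
          (modularFunctionFieldFullC (IsLocalRing.ResidueField A) M)) Q + Q.ord hb := by
    intro Q
    have h3 := hhb Q
    rw [AddSubgroup.coe_sub, Finsupp.sub_apply, coe_reductionDegZeroAlong,
      AddSubgroup.coe_zsmul, Finsupp.smul_apply, smul_eq_mul] at h3
    linarith
  -- lifts of `red₁ u` and of `hb`
  obtain ⟨⟨g1, hg1⟩, hg1red⟩ := RM.red_surjective ((h60_R1 M p hpM A hA).red ⟨u, hu⟩)
  obtain ⟨⟨g2, hg2⟩, hg2red⟩ := RM.red_surjective hb
  have hg1ne : RM.red ⟨g1, hg1⟩ ≠ 0 := by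
    rw [hg1red]
    exact hune
  have hg2ne : RM.red ⟨g2, hg2⟩ ≠ 0 := by
    rw [hg2red]
    exact hhb0
  have hg10 : g1 ≠ 0 := by
    rintro rfl
    exact hg1ne (map_zero RM.red)
  have hg20 : g2 ≠ 0 := by
    rintro rfl
    exact hg2ne (map_zero RM.red)
  have hg1' := h89_inv_mem_of_red_ne_zero RM hg1 hg1ne
  obtain ⟨hg1m, hg1mred⟩ := h68_red_zpow RM hg10 hg1 hg1' m
  have hgO : g1 ^ m * g2 ^ n ∈ RM.O := RM.O.mul_mem _ _ hg1m (pow_mem hg2 n)
  have hgred : RM.red ⟨g1 ^ m * g2 ^ n, hgO⟩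
      = (h60_R1 M p hpM A hA).red ⟨u, hu⟩ ^ m * hb ^ n := by
    have h3 : (⟨g1 ^ m * g2 ^ n, hgO⟩ : RM.O) = ⟨g1 ^ m, hg1m⟩ * ⟨g2, hg2⟩ ^ n := rfl
    rw [h3, map_mul, map_pow, hg1mred, hg1red, hg2red]
  have hgredne : RM.red ⟨g1 ^ m * g2 ^ n, hgO⟩ ≠ 0 := by
    rw [hgred]
    exact mul_ne_zero (zpow_ne_zero m hune) (pow_ne_zero n hhb0)
  -- transfer along the correspondence
  obtain ⟨hN, hNne, hNdiv⟩ := h68_transfer M A hRI hRM ℓ hℓ hℓM hcorr
    (D : Divisor Qb (modularFunctionFieldBar M)) D.2 n _ hgO hgredne (fun Q => by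
      rw [hhb' Q, hgred, Q.ord_mul (zpow_ne_zero m hune) (pow_ne_zero n hhb0), Q.ord_zpow,
        h60_ord_pow, ← hDb Q]
      ring)
  -- the norms
  obtain ⟨hN1, hN1red⟩ := key g1 hg1 hg1red
  obtain ⟨hN2, hN2ne⟩ := h68_norm_beta_unit M A ℓ hℓ hℓM hRM g2 hg2 hg2ne
  letI := algebraAlong (heckeAlphaBar Qb M ℓ)
  haveI : Module.Finite (modularFunctionFieldBar M) (modularFunctionFieldBar (M * ℓ)) :=
    hfin
  have hN1ne : RM.red ⟨_, hN1⟩ ≠ 0 := by
    rw [hN1red]
    exact mul_ne_zero (zpow_ne_zero a hune) (pow_ne_zero n hwb)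
  have hN10 : Algebra.norm (modularFunctionFieldBar M) (heckeBetaBar Qb M ℓ g1) ≠ 0 := by
    intro h0
    exact hg10 ((map_eq_zero _).mp (Algebra.norm_eq_zero_iff.mp h0))
  have hN1' := h89_inv_mem_of_red_ne_zero RM hN1 hN1ne
  obtain ⟨hN1m, hN1mred⟩ := h68_red_zpow RM hN10 hN1 hN1' m
  have hNgO : Algebra.norm (modularFunctionFieldBar M) (heckeBetaBar Qb M ℓ g1) ^ m *
      Algebra.norm (modularFunctionFieldBar M) (heckeBetaBar Qb M ℓ g2) ^ n ∈ RM.O :=
    RM.O.mul_mem _ _ hN1m (pow_mem hN2 n)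
  have hNgred : RM.red ⟨_, hNgO⟩ =
      ((h60_R1 M p hpM A hA).red ⟨u, hu⟩ ^ a * wb ^ n) ^ m * RM.red ⟨_, hN2⟩ ^ n := by
    have h3 : (⟨_, hNgO⟩ : RM.O) = ⟨_, hN1m⟩ * ⟨_, hN2⟩ ^ n := rfl
    rw [h3, map_mul, map_pow, hN1mred, hN1red]
  have hnormg : Algebra.norm (modularFunctionFieldBar M)
      (heckeBetaBar Qb M ℓ (g1 ^ m * g2 ^ n)) =
      Algebra.norm (modularFunctionFieldBar M) (heckeBetaBar Qb M ℓ g1) ^ m *
        Algebra.norm (modularFunctionFieldBar M) (heckeBetaBar Qb M ℓ g2) ^ n := by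
    rw [map_mul, map_zpow₀, map_pow, map_mul, map_pow,
      h68_map_zpow _ ((map_ne_zero _).mpr hg10)]
  have hNred : RM.red ⟨_, hN⟩ =
      ((h60_R1 M p hpM A hA).red ⟨u, hu⟩ ^ a * wb ^ n) ^ m * RM.red ⟨_, hN2⟩ ^ n := by
    rw [← hNgred]
    congr 1
    exact Subtype.ext hnormg
  -- conclusion
  rw [heckeOperatorAlong_eq hα hβ hFI hfin hNF]
  have h5 : heckePic0Bar hα hβ hFI hfin hNF (Pic0.mk D) =
      Pic0.mk (Pic0.degZeroCorrespondence (heckeBetaBar Qb M ℓ)
        (heckeAlphaBar Qb M ℓ) hβ hα hFI D) := rfl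
  rw [h5, reductionModL_mk hRI, ← sub_eq_zero]
  have h6 : Pic0.mk (reductionDegZeroAlong (placeReductionModL hRI) hr.1
        (Pic0.degZeroCorrespondence (heckeBetaBar Qb M ℓ)
          (heckeAlphaBar Qb M ℓ) hβ hα hFI D)) - (a * m) • Pic0.mk Db
      = Pic0.mk (reductionDegZeroAlong (placeReductionModL hRI) hr.1
        (Pic0.degZeroCorrespondence (heckeBetaBar Qb M ℓ)
          (heckeAlphaBar Qb M ℓ) hβ hα hFI D) - (a * m) • Db) := rfl
  rw [h6, h87_mk_eq_zero_iff]
  refine ⟨wb ^ m * RM.red ⟨_, hN2⟩, mul_ne_zero (zpow_ne_zero m hwb) hN2ne, fun Q => ?_⟩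
  rw [AddSubgroup.coe_sub, Finsupp.sub_apply, coe_reductionDegZeroAlong,
    AddSubgroup.coe_zsmul, Finsupp.smul_apply, smul_eq_mul, Pic0.coe_degZeroCorrespondence,
    Q.ord_mul (zpow_ne_zero m hwb) hN2ne, Q.ord_zpow]
  have h7 := hNdiv Q
  rw [hNred, Q.ord_mul (zpow_ne_zero m (mul_ne_zero (zpow_ne_zero a hune) (pow_ne_zero n hwb)))
      (pow_ne_zero n hN2ne), Q.ord_zpow,
    Q.ord_mul (zpow_ne_zero a hune) (pow_ne_zero n hwb), Q.ord_zpow, h60_ord_pow, h60_ord_pow,
    ← hDb Q] at h7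
  have hn' : (n : ℤ) ≠ 0 := Int.natCast_ne_zero.mpr hn
  have h8 : (n : ℤ) * Finsupp.mapDomain (placeReductionModL hRI)
      (Divisor.correspondence (heckeBetaBar Qb M ℓ) (heckeAlphaBar Qb M ℓ) hβ hα
        (D : Divisor Qb (modularFunctionFieldBar M))) Q
      = (n : ℤ) * (a * m * (Db : Divisor (IsLocalRing.ResidueField A)
          (modularFunctionFieldFullC (IsLocalRing.ResidueField A) M)) Q
        + (m * Q.ord wb + Q.ord (RM.red ⟨_, hN2⟩))) := by
    rw [show Divisor.correspondence (heckeBetaBar Qb M ℓ) (heckeAlphaBar Qb M ℓ)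
      hβ hα (D : Divisor Qb (modularFunctionFieldBar M)) = heckeDivBar hα hβ
        (D : Divisor Qb (modularFunctionFieldBar M)) from rfl, h7]
    ring
  have h9 := mul_left_cancel₀ hn' h8
  rw [h9]
  ring

/-- **(EIG), class level.**  Level `M p` (`p ∤ M`, `A` over `p`), `ℓ ∤ M p`.
Data at level `M p`: a class `[E] ∈ J₀(M p)` with `n E = div u` (`n ≠ 0`, `u` a unit of the
`q`-expansion valuation ring `O₁`), `T_ℓ [E] = a [E]`; a divisor `D̄` of degree `0` of
`F̄(M)` with `n D̄ = div (red₁ u)`.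
Input at level `M`: the weak Hecke compatibility (CORR-w) of the place reduction.
Conclusion: for every `y ∈ J₀(M)` with `sp y = m [D̄]`:  `sp (T_ℓ y) = (a m) [D̄]`. -/
theorem h68_eig (M p : ℕ) [NeZero M] [NeZero p] [Fact p.Prime] (hpM : ¬ p ∣ M)
    (A : ValuationSubring Qb) (hA : A.LiesOverPrime p)
    (hRI : ReductionInputsModL A M)
    {RM : h39_RedDatum Qb ↥(modularFunctionFieldBar M) (IsLocalRing.ResidueField A)
      ↥(modularFunctionFieldFullC (IsLocalRing.ResidueField A) M)}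
    (hRM : h54_IsModRed M A RM)
    (ℓ : ℕ) [NeZero ℓ] (hℓ : ℓ.Prime) (hℓMp : ¬ ℓ ∣ M * p)
    (E : Divisor.degZero (K := Qb) (F := modularFunctionFieldBar (M * p)))
    (u : modularFunctionFieldBar (M * p)) (hu : u ∈ (h60_R1 M p hpM A hA).O)
    (hune : (h60_R1 M p hpM A hA).red ⟨u, hu⟩ ≠ 0)
    (n : ℕ) (hn : n ≠ 0)
    (hE : ∀ v : Place Qb (modularFunctionFieldBar (M * p)),
      (n : ℤ) * (E : Divisor Qb (modularFunctionFieldBar (M * p))) v = v.ord u)
    (a : ℤ) (hT : heckeOperatorAlong Qb (M * p) ℓ (Pic0.mk E) = a • Pic0.mk E)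
    (Db : Divisor.degZero (K := IsLocalRing.ResidueField A)
      (F := modularFunctionFieldFullC (IsLocalRing.ResidueField A) M))
    (hDb : ∀ Q : Place (IsLocalRing.ResidueField A)
        (modularFunctionFieldFullC (IsLocalRing.ResidueField A) M),
      (n : ℤ) * (Db : Divisor (IsLocalRing.ResidueField A)
        (modularFunctionFieldFullC (IsLocalRing.ResidueField A) M)) Q
        = Q.ord ((h60_R1 M p hpM A hA).red ⟨u, hu⟩))
    (hcorr : haveI := h88_hasPrincipalDivisors (M * ℓ)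
      ∀ Z : Divisor Qb (modularFunctionFieldBar M),
        Z ∈ Divisor.degZero (K := Qb) (F := modularFunctionFieldBar M) →
        Finsupp.mapDomain (placeReductionModL hRI) Z = 0 →
        Finsupp.mapDomain (placeReductionModL hRI)
          (heckeDivBar (h88_alphaIntegral M ℓ) (h88_betaIntegral M ℓ) Z) = 0)
    (y : JZero M) (m : ℤ) (hy : reductionModL A M y = m • Pic0.mk Db) :
    reductionModL A M (heckeOperatorAlong Qb M ℓ y) = (a * m) • Pic0.mk Db := by
  have hu0 : u ≠ 0 := by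
    rintro rfl
    exact hune (map_zero (h60_R1 M p hpM A hA).red)
  obtain ⟨c, w, -, -, hrel⟩ := h68_hecke_rel (M * p) ℓ n a E u hu0 hE hT
  exact h68_eig_of_rel M p hpM A hA hRI hRM ℓ hℓ hℓMp u hu hune n hn a c w hrel Db hDb hcorr
    y m hy

/-- `h68_ker` for the Hecke operators `heckeOperatorBar M ℓ` (`ℓ : Nat.Primes`). -/
theorem h68_ker_bar (M : ℕ) [NeZero M] (A : ValuationSubring Qb)
    (hRI : ReductionInputsModL A M)
    {RM : h39_RedDatum Qb ↥(modularFunctionFieldBar M) (IsLocalRing.ResidueField A)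
      ↥(modularFunctionFieldFullC (IsLocalRing.ResidueField A) M)}
    (hRM : h54_IsModRed M A RM)
    (ℓ : Nat.Primes) (hℓM : ¬ (ℓ : ℕ) ∣ M)
    (hcorr : haveI : NeZero (ℓ : ℕ) := ⟨ℓ.2.ne_zero⟩
      haveI := h88_hasPrincipalDivisors (M * (ℓ : ℕ))
      ∀ Z : Divisor Qb (modularFunctionFieldBar M),
        Z ∈ Divisor.degZero (K := Qb) (F := modularFunctionFieldBar M) →
        Finsupp.mapDomain (placeReductionModL hRI) Z = 0 →
        Finsupp.mapDomain (placeReductionModL hRI)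
          (heckeDivBar (h88_alphaIntegral M (ℓ : ℕ)) (h88_betaIntegral M (ℓ : ℕ)) Z) = 0)
    (z : JZero M) (hz : reductionModL A M z = 0) :
    reductionModL A M (heckeOperatorBar M ℓ z) = 0 :=
  haveI : NeZero (ℓ : ℕ) := ⟨ℓ.2.ne_zero⟩
  h68_ker M A hRI hRM (ℓ : ℕ) ℓ.2 hℓM hcorr z hz

/-- `h68_eig` for the Hecke operators `heckeOperatorBar _ ℓ` (`ℓ : Nat.Primes`): the shape
consumed by the bridge (`hgen` of `h77_bridge_words` is the case `m = 1`, `hker` is
`h68_ker_bar`). -/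
theorem h68_eig_bar (M p : ℕ) [NeZero M] [NeZero p] [Fact p.Prime] (hpM : ¬ p ∣ M)
    (A : ValuationSubring Qb) (hA : A.LiesOverPrime p)
    (hRI : ReductionInputsModL A M)
    {RM : h39_RedDatum Qb ↥(modularFunctionFieldBar M) (IsLocalRing.ResidueField A)
      ↥(modularFunctionFieldFullC (IsLocalRing.ResidueField A) M)}
    (hRM : h54_IsModRed M A RM)
    (ℓ : Nat.Primes) (hℓMp : ¬ (ℓ : ℕ) ∣ M * p)
    (E : Divisor.degZero (K := Qb) (F := modularFunctionFieldBar (M * p)))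
    (u : modularFunctionFieldBar (M * p)) (hu : u ∈ (h60_R1 M p hpM A hA).O)
    (hune : (h60_R1 M p hpM A hA).red ⟨u, hu⟩ ≠ 0)
    (n : ℕ) (hn : n ≠ 0)
    (hE : ∀ v : Place Qb (modularFunctionFieldBar (M * p)),
      (n : ℤ) * (E : Divisor Qb (modularFunctionFieldBar (M * p))) v = v.ord u)
    (a : ℤ) (hT : heckeOperatorBar (M * p) ℓ (Pic0.mk E) = a • Pic0.mk E)
    (Db : Divisor.degZero (K := IsLocalRing.ResidueField A)
      (F := modularFunctionFieldFullC (IsLocalRing.ResidueField A) M))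
    (hDb : ∀ Q : Place (IsLocalRing.ResidueField A)
        (modularFunctionFieldFullC (IsLocalRing.ResidueField A) M),
      (n : ℤ) * (Db : Divisor (IsLocalRing.ResidueField A)
        (modularFunctionFieldFullC (IsLocalRing.ResidueField A) M)) Q
        = Q.ord ((h60_R1 M p hpM A hA).red ⟨u, hu⟩))
    (hcorr : haveI : NeZero (ℓ : ℕ) := ⟨ℓ.2.ne_zero⟩
      haveI := h88_hasPrincipalDivisors (M * (ℓ : ℕ))
      ∀ Z : Divisor Qb (modularFunctionFieldBar M),
        Z ∈ Divisor.degZero (K := Qb) (F := modularFunctionFieldBar M) →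
        Finsupp.mapDomain (placeReductionModL hRI) Z = 0 →
        Finsupp.mapDomain (placeReductionModL hRI)
          (heckeDivBar (h88_alphaIntegral M (ℓ : ℕ)) (h88_betaIntegral M (ℓ : ℕ)) Z) = 0)
    (y : JZero M) (m : ℤ) (hy : reductionModL A M y = m • Pic0.mk Db) :
    reductionModL A M (heckeOperatorBar M ℓ y) = (a * m) • Pic0.mk Db :=
  haveI : NeZero (ℓ : ℕ) := ⟨ℓ.2.ne_zero⟩
  h68_eig M p hpM A hA hRI hRM (ℓ : ℕ) ℓ.2 hℓMp E u hu hune n hn hE a hT Db hDb hcorr y m hy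

end EigPic

end Fermat.Agent.S40

end
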