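import Mathlib
import Fermat.Agent.S37.h87_RedPic
import Fermat.Agent.S37.h87_Decomp
import Fermat.Agent.S37.h39_RedInputs
import Fermat.Agent.S37.h89_EFF
import Fermat.Agent.S37.h88_HICore
import Fermat.Agent.S54.Frob
import Fermat.Agent.S27.FrobZeta
import Fermat.Agent.S27.FrobPer
import Fermat.Agent.S27.h14_ValFamP
import Fermat.Agent.S19.h14_Inert
import Fermat.Agent.S17.h56_DivJZero
import Fermat.Agent.S17.h83_Smooth
import Fermat.Agent.S40.h2_GalTrick

/-!
# G40 (BRIDGE), row (BR1) = (alpha) (helper34): the Galois trick at a good level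

Level `N`, a prime `p ∤ N`, `A` a valuation ring of `ℚ̄` over `p` carrying the prelude's reduction
inputs (`ReductionInputsModL A N`; true at charted levels, `h39_reductionInputsModL`),
`k` its residue field, `sp := reductionModL A N : J₀(N)(ℚ̄) → Pic⁰(F̄(N))`.

* `h34_reductionAlong_galois` : `sp (σ • x) = h87_coeffAut N τ • sp x` for EVERY automorphism `σ`
  of `ℚ̄` preserving `A` and inducing `τ` on `k` (the proof of S37's `h87_rho_galois`, without the
  auxiliary level).
* `h34_toSemi` : the bridge from the prelude's `SemilinearAut` to S27's `h57_SemiAut`, compatible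
  with the actions on places, divisors and `Pic⁰`.
* `h34_coeffAut_periodic`, `h34_coeffAut_isFrob` : the coefficientwise Frobenius is a periodic
  Frobenius structure of `F̄(N)`.
* `h34_galois_periodic` : every class of `J₀(N)(ℚ̄)` is fixed by a positive power of any Galois
  automorphism.
* `h34_exists_frob_fix` : **the Frobenius datum of a class** `y`: a Galois automorphism `s` with
  `s • y = y` and an additive endomorphism `Φ` of `Pic⁰(F̄(N))` with FINITELY many fixed points
  and `sp ∘ s = Φ ∘ sp` (S27 `h73_finite_inv_class`).  This is the input `(s, Φ, hsp, hfin, hy)`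
  of `h2_gal_trick` / `h2_bridge_core`.
* `h34_star` : an endomorphism `t` of `J₀(N)(ℚ̄)` commuting with Galois and killing the `p`-power
  torsion satisfies `h' • sp (t y) = 0` for some `h'` prime to `p`, for EVERY class `y`.
* `h34_star_tors` : hence `sp (t y) = 0` as soon as it is `p`-power torsion.
-/

set_option autoImplicit false
set_option synthInstance.maxHeartbeats 400000

noncomputable section

open ModularCurve AlgebraicCurve IntermediateField HahnSeries

namespace Fermat.Agent.S40

open Fermat.Agent.S37 Fermat.Agent.S27 Fermat.Agent.S18 Fermat.Agent.S17 Fermat.Agent.S24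

local notation "Qb" => AlgebraicClosure ℚ

/-! ### The bridge between the two semilinear formalisms -/

section Bridge

variable {K F : Type*} [Field K] [Field F] [Algebra K F]

/-- A semilinear automorphism in the prelude's sense, as an element of S27's `h57_SemiAut`. -/
def h34_toSemi (g : SemilinearAut K F) : h57_SemiAut K F :=
  ⟨SemilinearAut.toRingAut g, h57_mem_semiAut_of_map (SemilinearAut.baseAut g)
    (SemilinearAut.baseAut g).surjective (fun c => SemilinearAut.commutes g c)⟩

theorem h34_toSemi_coe (g : SemilinearAut K F) :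
    ((h34_toSemi g : h57_SemiAut K F) : F ≃+* F) = SemilinearAut.toRingAut g := rfl

theorem h34_toSemi_smul_place (g : SemilinearAut K F) (v : Place K F) :
    h34_toSemi g • v = g • v := by
  apply Place.ext
  ext x
  rw [h57_smul_toValuationSubring, SemilinearAut.smul_toValuationSubring,
    ValuationSubring.mem_pointwise_smul_iff_inv_smul_mem,
    ValuationSubring.mem_pointwise_smul_iff_inv_smul_mem]
  rfl

theorem h34_toSemi_smul_divisor (g : SemilinearAut K F) (D : Divisor K F) :
    h34_toSemi g • D = g • D := by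
  show Finsupp.mapDomain (fun v : Place K F => h34_toSemi g • v) D
    = Finsupp.mapDomain (fun v : Place K F => g • v) D
  exact congrArg (fun f : Place K F → Place K F => Finsupp.mapDomain f D)
    (funext fun v => h34_toSemi_smul_place g v)

theorem h34_toSemi_smul_pic0 (g : SemilinearAut K F) (c : Pic0 K F) :
    h34_toSemi g • c = g • c := by
  obtain ⟨D, rfl⟩ := Pic0.mk_surjective c
  rw [h57_smul_mk, SemilinearAut.pic0_smul_mk]
  refine congrArg Pic0.mk (Subtype.ext ?_)
  rw [h57_coe_degZeroSMulHom, SemilinearAut.coe_degZeroSMulHom]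
  exact h34_toSemi_smul_divisor g D

end Bridge

/-! ### Galois equivariance of the prelude's reduction map -/

section Galois

variable (N : ℕ) [NeZero N] {k : Type*} [Field k] (A : ValuationSubring Qb) (π : A →+* k)

/-- **Galois compatibility of the place reduction** on divisors of degree `0`: if `σ` preserves
`A` (acting on it by `sA`) and induces `τ` on `k`, then `r_* (σ D) = τ (r_* D)`. -/
theorem h34_mapDomain_galois
    (r : Place Qb (modularFunctionFieldBar N) → Place k (modularFunctionFieldFullC k N))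
    (hr : IsPlaceReductionAlong A π N r)
    [HasPrincipalDivisors Qb (modularFunctionFieldBar N)]
    (hdegF : ∀ P : Place Qb (modularFunctionFieldBar N), P.deg = 1)
    (hdegFb : ∀ Q : Place k (modularFunctionFieldFullC k N), Q.deg = 1)
    (heff : ∃ n₀ : ℤ, ∀ D : Divisor Qb (modularFunctionFieldBar N), n₀ ≤ Divisor.degree D →
      ∃ f : modularFunctionFieldBar N, f ≠ 0 ∧
        ∀ P : Place Qb (modularFunctionFieldBar N), 0 ≤ D P + P.ord f)
    (hgen : PrincipalGeneratedByIntegral A π N)
    (σ : Qb ≃ₐ[ℚ] Qb) (sA : A →+* A) (τ : k ≃+* k)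
    (hσ : ∀ a : A, A.subtype (sA a) = σ (A.subtype a)) (hτ : ∀ a : A, π (sA a) = τ (π a))
    (D : Divisor Qb (modularFunctionFieldBar N)) (hD : Divisor.degree D = 0) :
    Finsupp.mapDomain r (arithmeticGalois (modularFunctionFieldFull N) σ • D)
      = h87_coeffAut (k := k) N τ • Finsupp.mapDomain r D := by
  have hρ := h87_posHom_mapDomain r hr.1
  have h₁ := (h87_posHom_smul (arithmeticGalois (modularFunctionFieldFull N) σ)).comp hρ
  have h₂ := hρ.comp (h87_posHom_smul (h87_coeffAut (k := k) N τ))
  refine h87_bounded_hom_gen hdegF hdegFb heff _ _ _ _ h₁ h₂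
    (integralPrincipalDivisors A π N) hgen ?_ D hD
  rintro E ⟨y, hy, hyk, hne, hE⟩
  ext Q
  have e1 : coeffMap A.subtype (coeffMap sA y)
      = coeffMap (σ : Qb →+* Qb) (coeffMap A.subtype y) := by
    rw [coeffMap_coeffMap, coeffMap_coeffMap]
    exact coeffMap_congr (RingHom.ext fun a => hσ a) y
  have e2 : coeffMap π (coeffMap sA y) = coeffMap (τ : k →+* k) (coeffMap π y) := by
    rw [coeffMap_coeffMap, coeffMap_coeffMap]
    exact coeffMap_congr (RingHom.ext fun a => hτ a) y
  have hy' : coeffMap A.subtype (coeffMap sA y) ∈ modularFunctionFieldBar N := by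
    rw [e1]
    exact coeffMap_mem_laurentBaseChange _ hy
  have hyk' : coeffMap π (coeffMap sA y) ∈ modularFunctionFieldFullC k N := by
    rw [e2]
    exact h87_coeffMap_mem_fullC N _ hyk
  have hne' : coeffMap π (coeffMap sA y) ≠ 0 := by
    rw [e2]
    exact h87_coeffMap_ne_zero _ τ.injective hne
  have hE' : ∀ P, (arithmeticGalois (modularFunctionFieldFull N) σ • E) P
      = P.ord (⟨coeffMap A.subtype (coeffMap sA y), hy'⟩ : modularFunctionFieldBar N) := by
    intro P
    rw [h87_smul_isDiv _ hE P]
    congr 1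
    apply Subtype.ext
    rw [coe_arithmeticGalois_smul]
    exact e1.symm
  have h1 := hr.2 (coeffMap sA y) hy' hyk' hne' _ hE' Q
  have h2 := fun Q => hr.2 y hy hyk hne E hE Q
  have h3 := h87_smul_isDiv (h87_coeffAut (k := k) N τ) h2 Q
  refine h1.trans (Eq.trans ?_ h3.symm)
  congr 1
  apply Subtype.ext
  rw [h87_coe_coeffAut_smul]
  exact e2

/-- **Galois compatibility of the prelude's reduction map** `reductionAlong A π N` for every
automorphism `σ` of `ℚ̄` preserving `A` and inducing `τ` on `k`. -/
theorem h34_reductionAlong_galois (h : ReductionInputsAlong A π N)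
    [HasPrincipalDivisors Qb (modularFunctionFieldBar N)]
    (hdegF : ∀ P : Place Qb (modularFunctionFieldBar N), P.deg = 1)
    (hdegFb : ∀ Q : Place k (modularFunctionFieldFullC k N), Q.deg = 1)
    (heff : ∃ n₀ : ℤ, ∀ D : Divisor Qb (modularFunctionFieldBar N), n₀ ≤ Divisor.degree D →
      ∃ f : modularFunctionFieldBar N, f ≠ 0 ∧
        ∀ P : Place Qb (modularFunctionFieldBar N), 0 ≤ D P + P.ord f)
    (σ : Qb ≃ₐ[ℚ] Qb) (sA : A →+* A) (τ : k ≃+* k)
    (hσ : ∀ a : A, A.subtype (sA a) = σ (A.subtype a)) (hτ : ∀ a : A, π (sA a) = τ (π a))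
    (x : JZero N) :
    reductionAlong A π N (σ • x) = h87_coeffAut (k := k) N τ • reductionAlong A π N x := by
  obtain ⟨D, rfl⟩ := Pic0.mk_surjective x
  have hdeg0 := Divisor.mem_degZero.mp D.2
  have key := h34_mapDomain_galois N A π h.choose h.choose_spec.1 hdegF hdegFb heff
    h.choose_spec.2 σ sA τ hσ hτ (D : Divisor Qb (modularFunctionFieldBar N)) hdeg0
  rw [galois_smul_pic0_def, SemilinearAut.pic0_smul_mk, reductionAlong_mk h, reductionAlong_mk h,
    SemilinearAut.pic0_smul_mk]
  refine h87_mk_congr ?_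
  rw [SemilinearAut.coe_degZeroSMulHom, coe_reductionDegZeroAlong, coe_reductionDegZeroAlong,
    SemilinearAut.coe_degZeroSMulHom]
  exact key

end Galois

/-! ### The bridge is multiplicative -/

section BridgePow

variable {K F : Type*} [Field K] [Field F] [Algebra K F]

theorem h34_toSemi_mul (g h : SemilinearAut K F) :
    h34_toSemi (g * h) = h34_toSemi g * h34_toSemi h :=
  Subtype.ext (SemilinearAut.toRingAut_mul g h)

theorem h34_toSemi_one : h34_toSemi (1 : SemilinearAut K F) = 1 :=
  Subtype.ext (SemilinearAut.toRingAut_one (K := K) (F := F))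

theorem h34_toSemi_pow (g : SemilinearAut K F) (n : ℕ) :
    h34_toSemi (g ^ n) = h34_toSemi g ^ n := by
  induction n with
  | zero => rw [pow_zero, pow_zero, h34_toSemi_one]
  | succ n ih => rw [pow_succ, pow_succ, h34_toSemi_mul, ih]

end BridgePow

/-! ### Frobenius structures of the reduced modular function field -/

section Frob

variable (N : ℕ) [NeZero N] {k : Type*} [Field k]

omit [NeZero N] in
/-- a coefficient map fixing `x` has all its powers fixing `x` -/
theorem h34_coeffMap_pow_mul_fix (τ : k ≃+* k) (n m : ℕ) (x : LaurentSeries k)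
    (h : coeffMap ((τ ^ n : k ≃+* k) : k →+* k) x = x) :
    coeffMap ((τ ^ (n * m) : k ≃+* k) : k →+* k) x = x := by
  induction m with
  | zero =>
    rw [Nat.mul_zero, pow_zero]
    exact (coeffMap_congr (RingHom.ext fun _ => rfl) x).trans (coeffMap_id x)
  | succ m ih =>
    have e : coeffMap ((τ ^ (n * (m + 1)) : k ≃+* k) : k →+* k) x
        = coeffMap ((τ ^ (n * m) : k ≃+* k) : k →+* k)
            (coeffMap ((τ ^ n : k ≃+* k) : k →+* k) x) := by
      rw [coeffMap_coeffMap, Nat.mul_succ, _root_.pow_add]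
      exact coeffMap_congr (RingHom.ext fun _ => rfl) x
    rw [e, h, ih]

/-- **Periodicity of the coefficientwise action** on the reduced modular function field, when
every element of `k` is fixed by a positive power of `τ`. -/
theorem h34_coeffAut_periodic (τ : k ≃+* k)
    (hτ : ∀ a : k, ∃ n : ℕ, 0 < n ∧ (τ ^ n : k ≃+* k) a = a) :
    h73_Periodic (h34_toSemi (h87_coeffAut (k := k) N τ)) := by
  have key : ∀ x : LaurentSeries k, x ∈ modularFunctionFieldFullC k N →
      ∃ n : ℕ, 0 < n ∧ coeffMap ((τ ^ n : k ≃+* k) : k →+* k) x = x := by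
    intro x hx
    rw [modularFunctionFieldFullC] at hx
    induction hx using IntermediateField.adjoin_induction with
    | mem y hy =>
        obtain ⟨d, hne, hdvd, rfl⟩ := hy
        have := hne
        exact ⟨1, one_pos, by rw [coeffMap_qExpand, coeffMap_jqModC]⟩
    | algebraMap c =>
        obtain ⟨n, hn, hc⟩ := hτ c
        refine ⟨n, hn, ?_⟩
        rw [coeffMap_algebraMap]
        exact congrArg _ hc
    | add y z _ _ hy hz =>
        obtain ⟨n, hn, h1⟩ := hy
        obtain ⟨m, hm, h2⟩ := hz
        refine ⟨n * m, Nat.mul_pos hn hm, ?_⟩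
        rw [map_add, h34_coeffMap_pow_mul_fix τ n m y h1]
        have h3 := h34_coeffMap_pow_mul_fix τ m n z h2
        rw [mul_comm] at h3
        rw [h3]
    | inv y _ hy =>
        obtain ⟨n, hn, h1⟩ := hy
        exact ⟨n, hn, by rw [map_inv₀, h1]⟩
    | mul y z _ _ hy hz =>
        obtain ⟨n, hn, h1⟩ := hy
        obtain ⟨m, hm, h2⟩ := hz
        refine ⟨n * m, Nat.mul_pos hn hm, ?_⟩
        rw [map_mul, h34_coeffMap_pow_mul_fix τ n m y h1]
        have h3 := h34_coeffMap_pow_mul_fix τ m n z h2
        rw [mul_comm] at h3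
        rw [h3]
  intro f
  obtain ⟨n, hn, h⟩ := key (f : LaurentSeries k) f.2
  refine ⟨n, hn, ?_⟩
  rw [← h34_toSemi_pow, ← map_pow]
  exact Subtype.ext h

/-- the coefficientwise action of the Frobenius of `k` is a Frobenius structure -/
theorem h34_coeffAut_isFrob (p : ℕ) [Fact p.Prime] [CharP k p] [PerfectRing k p] :
    h57_IsFrob p (h34_toSemi (h87_coeffAut (k := k) N (frobeniusEquiv k p))) := by
  intro c
  show h87_coeffRingAut N (frobeniusEquiv k p) (algebraMap k (modularFunctionFieldFullC k N) c)
    = algebraMap k (modularFunctionFieldFullC k N) (c ^ p)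
  rw [h87_coeffRingAut_algebraMap, frobeniusEquiv_def]

omit [NeZero N] in
theorem h34_frobeniusEquiv_pow_apply (p : ℕ) [Fact p.Prime] [CharP k p] [PerfectRing k p]
    (n : ℕ) (a : k) : (frobeniusEquiv k p ^ n : k ≃+* k) a = a ^ (p ^ n) := by
  induction n generalizing a with
  | zero => simp
  | succ n ih =>
    rw [pow_succ, RingAut.mul_apply, frobeniusEquiv_def, ih, ← pow_mul, ← pow_succ']

end Frob

/-! ### The residue field of a valuation ring of `ℚ̄` over `p` -/

/-- every element of the residue field of `A` over `p` lies in a finite field -/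
theorem h34_residue_pow (p : ℕ) [Fact p.Prime] (A : ValuationSubring Qb)
    (hA : A.LiesOverPrime p) (b : IsLocalRing.ResidueField A) :
    ∃ n : ℕ, 0 < n ∧ b ^ (p ^ n) = b := by
  have := h19_residueField_charP A p hA
  let _ : Algebra (ZMod p) (IsLocalRing.ResidueField A) := ZMod.algebra _ p
  obtain ⟨q, hq0, hq⟩ := Fermat.Agent.S19.h14_residue_algebraic (ℓ := p) A b
  refine h14_pow_card_of_isAlgebraic_zmod p b ⟨q.map (Int.castRingHom (ZMod p)), hq0, ?_⟩
  rw [Polynomial.aeval_def, Polynomial.eval₂_map]
  have e : (algebraMap (ZMod p) (IsLocalRing.ResidueField A)).comp (Int.castRingHom (ZMod p))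
      = Int.castRingHom (IsLocalRing.ResidueField A) := RingHom.ext_int _ _
  rw [e]
  exact hq

/-! ### Periodicity of the Galois action in characteristic zero -/

/-- every class of `J₀(N)(ℚ̄)` is fixed by a positive power of any Galois automorphism -/
theorem h34_galois_periodic (N : ℕ) [NeZero N] (σ : Qb ≃ₐ[ℚ] Qb) (y : JZero N) :
    ∃ j : ℕ, 0 < j ∧ σ ^ j • y = y := by
  obtain ⟨E, hE, hE'⟩ := h83_smooth N y
  have hgal : IsGalois ℚ Qb := Fermat.Agent.S54.isGaloisQbar
  have hidx : E.fixingSubgroup.index ≠ 0 := by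
    rw [← IntermediateField.finrank_eq_fixingSubgroup_index]
    exact Module.finrank_pos.ne'
  obtain ⟨n, hn, -, hmem⟩ := Subgroup.exists_pow_mem_of_index_ne_zero hidx σ
  exact ⟨n, hn, hE' _ hmem⟩

/-! ### The Frobenius datum of a class -/

section Star

variable (N p : ℕ) [NeZero N] [Fact p.Prime] (hpN : ¬ p ∣ N) (A : ValuationSubring Qb)
  (hA : A.LiesOverPrime p)

include hpN hA in
/-- **(BR1), Frobenius datum.**  For every class `y` of `J₀(N)(ℚ̄)` (`p ∤ N`, reduction inputs at
`A | p`) there are a Galois automorphism `s` fixing `y` and an additive endomorphism `Φ` of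
`Pic⁰` of the reduced function field with finitely many fixed points such that
`reductionModL A N ∘ s = Φ ∘ reductionModL A N`. -/
theorem h34_exists_frob_fix (hRI : ReductionInputsModL A N) (y : JZero N) :
    ∃ (s : Qb ≃ₐ[ℚ] Qb) (Φ : JZeroC (IsLocalRing.ResidueField A) N →+
        JZeroC (IsLocalRing.ResidueField A) N),
      s • y = y ∧ (∀ z : JZero N, reductionModL A N (s • z) = Φ (reductionModL A N z)) ∧
      Finite {c : JZeroC (IsLocalRing.ResidueField A) N // Φ c = c} := by
  have hp : p.Prime := Fact.out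
  have := h19_residueField_charP A p hA
  have := h19_residueField_isAlgClosed A
  obtain ⟨hPD, hdegF, hdegFb⟩ := h39_level_facts N hpN A hA
  have heff := h89_EFF (h88_isFF N)
  -- a Frobenius element
  obtain ⟨σ, hσ⟩ := Fermat.Agent.S54.exists_isFrobeniusAt_of_liesOverPrime A p hp hA
  obtain ⟨sA, hsA, hsAres⟩ := h87_frobenius_lift A p σ hσ
  have hτ : ∀ a : A, IsLocalRing.residue A (sA a)
      = frobeniusEquiv (IsLocalRing.ResidueField A) p (IsLocalRing.residue A a) := by
    intro a
    rw [frobeniusEquiv_def]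
    exact hsAres a
  have hsp1 : ∀ z : JZero N, reductionModL A N (σ • z)
      = h87_coeffAut (k := IsLocalRing.ResidueField A) N
          (frobeniusEquiv (IsLocalRing.ResidueField A) p) • reductionModL A N z :=
    fun z => h34_reductionAlong_galois N A (IsLocalRing.residue A) hRI hdegF hdegFb heff σ sA
      (frobeniusEquiv (IsLocalRing.ResidueField A) p) hsA hτ z
  -- the Frobenius structure of the reduced field
  set g : h57_SemiAut (IsLocalRing.ResidueField A)
      (modularFunctionFieldFullC (IsLocalRing.ResidueField A) N) :=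
    h34_toSemi (h87_coeffAut (k := IsLocalRing.ResidueField A) N
      (frobeniusEquiv (IsLocalRing.ResidueField A) p)) with hg
  have hfrob : h57_IsFrob p g := h34_coeffAut_isFrob N p
  have hper : h73_Periodic g := by
    refine h34_coeffAut_periodic N _ fun a => ?_
    obtain ⟨n, hn, ha⟩ := h34_residue_pow p A hA a
    exact ⟨n, hn, by rw [h34_frobeniusEquiv_pow_apply, ha]⟩
  have hxk := h39_weakChart_isChart_red (h39_modRed N hpN A hA) (h39_modRed_weakChart_j N hpN A hA)
  obtain ⟨P⟩ := h7_exists_place hxk
  obtain ⟨n₂, hn₂, hP⟩ := h73_place_periodic hxk g hper P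
  obtain ⟨j₁, hj₁, hy⟩ := h34_galois_periodic N σ y
  -- the common power
  have hyj : σ ^ (j₁ * n₂) • y = y := by
    rw [pow_mul]
    have : ∀ m : ℕ, (σ ^ j₁) ^ m • y = y := by
      intro m
      induction m with
      | zero => rw [pow_zero, one_smul]
      | succ m ih => rw [pow_succ, mul_smul, hy, ih]
    exact this n₂
  have hPj : g ^ (j₁ * n₂) • P = P := by
    rw [mul_comm, pow_mul]
    exact h73_pow_smul_fixed (g ^ n₂) P hP j₁
  have hfin : Finite {c : JZeroC (IsLocalRing.ResidueField A) N // g ^ (j₁ * n₂) • c = c} :=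
    h73_finite_inv_class hxk (Nat.mul_pos hj₁ hn₂) (g ^ (j₁ * n₂)) (hfrob.pow (j₁ * n₂))
      (hper.pow (j₁ * n₂)) P hPj
  -- equivariance for the power
  have hspj : ∀ (m : ℕ) (z : JZero N), reductionModL A N (σ ^ m • z)
      = g ^ m • reductionModL A N z := by
    intro m
    induction m with
    | zero =>
      intro z
      rw [pow_zero, pow_zero, one_smul, one_smul]
    | succ m ih =>
      intro z
      rw [pow_succ', mul_smul, hsp1, ih, pow_succ', mul_smul, hg, h34_toSemi_smul_pic0]
  exact ⟨σ ^ (j₁ * n₂),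
    DistribSMul.toAddMonoidHom (JZeroC (IsLocalRing.ResidueField A) N) (g ^ (j₁ * n₂)),
    hyj, fun z => hspj (j₁ * n₂) z, hfin⟩

include hpN hA in
/-- **(BR1) = (alpha), the Galois trick at the level `N`.**  An endomorphism `t` of
`J₀(N)(ℚ̄)` commuting with the Galois action and killing the `p`-power torsion maps EVERY class
into classes whose reduction at `A | p` is killed by an integer prime to `p`. -/
theorem h34_star (hRI : ReductionInputsModL A N) (t : JZero N →+ JZero N)
    (hkill : ∀ (a : ℕ) (w : JZero N), p ^ a • w = 0 → t w = 0)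
    (hgal : ∀ (σ : Qb ≃ₐ[ℚ] Qb) (z : JZero N), t (σ • z) = σ • t z) (y : JZero N) :
    ∃ h' : ℕ, 0 < h' ∧ ¬ p ∣ h' ∧ h' • reductionModL A N (t y) = 0 := by
  obtain ⟨s, Φ, hy, hsp, hfin⟩ := h34_exists_frob_fix N p hpN A hA hRI y
  exact h2_gal_trick p Fact.out (reductionModL A N) t
    (DistribSMul.toAddMonoidHom (JZero N) s) Φ (fun z => hgal s z) hsp hfin
    (fun a y => h56_jzero_divisible N (p ^ a) (pow_ne_zero a (Fact.out : p.Prime).ne_zero) y)
    hkill y hy

include hpN hA in
/-- **(BR1), `p`-primary form**: if moreover the reduction of `t y` is `p`-power torsion, it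
vanishes. -/
theorem h34_star_tors (hRI : ReductionInputsModL A N) (t : JZero N →+ JZero N)
    (hkill : ∀ (a : ℕ) (w : JZero N), p ^ a • w = 0 → t w = 0)
    (hgal : ∀ (σ : Qb ≃ₐ[ℚ] Qb) (z : JZero N), t (σ • z) = σ • t z) (y : JZero N)
    (b : ℕ) (hb : p ^ b • reductionModL A N (t y) = 0) : reductionModL A N (t y) = 0 := by
  obtain ⟨h', -, hh', hzero⟩ := h34_star N p hpN A hA hRI t hkill hgal y
  have hcop : Nat.Coprime (p ^ b) h' :=
    Nat.Coprime.pow_left b ((Nat.Prime.coprime_iff_not_dvd Fact.out).mpr hh')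
  have h1 : ((p ^ b : ℕ) : ℤ) • reductionModL A N (t y) = 0 := by
    rw [natCast_zsmul]; exact hb
  have h2 : ((h' : ℕ) : ℤ) • reductionModL A N (t y) = 0 := by
    rw [natCast_zsmul]; exact hzero
  obtain ⟨u, v, huv⟩ : IsCoprime ((p ^ b : ℕ) : ℤ) ((h' : ℕ) : ℤ) :=
    Nat.isCoprime_iff_coprime.mpr hcop
  calc reductionModL A N (t y) = (1 : ℤ) • reductionModL A N (t y) := (one_zsmul _).symm
    _ = (u * ((p ^ b : ℕ) : ℤ) + v * ((h' : ℕ) : ℤ)) • reductionModL A N (t y) := by rw [huv]
    _ = u • (((p ^ b : ℕ) : ℤ) • reductionModL A N (t y))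
          + v • (((h' : ℕ) : ℤ) • reductionModL A N (t y)) := by
        rw [add_zsmul, mul_zsmul, mul_zsmul]
    _ = 0 := by rw [h1, h2, smul_zero, smul_zero, add_zero]

end Star

end Fermat.Agent.S40
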