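import Mathlib
import Fermat.Agent.S40.h2_GalTrick

/-!
# S40 / (BRIDGE), row (BR4): the conclusion, in "Hecke word" form (helper77).  Mathlib only
(plus the landed Galois trick `h2_gal_trick`).

The Hecke operators `T_ℓ` on `J₀(M')(ℚ̄)` are NOT known to commute on main
(`HeckeOperatorsCommuteBar` is a hypothesis of the prelude), so "`P₀(T)` acting on `J`" has to
be a fixed non-commutative word.  We package a word together with its value under every
commutative evaluation as an element of a subring of a product ring generated by the tuples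
of generators.

* `h77_words TJ a`          : the subring of `End J × ℤ` generated by the pairs `(T_ℓ, a_ℓ)`.
* `h77_words3 TJ a τ`       : the subring of `(End J × ℤ) × 𝕋` generated by `((T_ℓ, a_ℓ), τ_ℓ)`,
                              `𝕋` a commutative ring (the Hecke algebra of the lattice).
* `h77_exists_word_of_poly` : every Hecke polynomial `P₀` has a word whose commutative
                              components are `P₀(a)` and `P₀(τ)`.
* `h77_words3_rel`          : a relation `R φ z` between the lattice and `J` which is additive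
                              and Hecke stable is stable under words.
* `h77_word_kills`          : hence a word with `P₀(τ) = 0` kills every `z` related to a
                              lattice element, if `R 0 z → z = 0`.
* `h77_words_eig`           : `sp (w.1 y) = w.2 • sp y` if `T_ℓ (ker sp) ⊆ ker sp` and
                              `sp (T_ℓ y) = a_ℓ • sp y`.
* `h77_words_comm`          : a word commutes with every additive map commuting with the `T_ℓ`.
* `h77_bridge_words`        : **(BR4)** the conclusion `sp y = 0`.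
-/

set_option autoImplicit false

namespace Fermat.Agent.S40

section Words

variable {ι J Jb : Type*} [AddCommGroup J] [AddCommGroup Jb]

/-- The subring of `End J × ℤ` generated by the pairs `(T_ℓ, a_ℓ)`: "Hecke words with their
eigenvalue". -/
def h77_words (TJ : ι → Module.End ℤ J) (a : ι → ℤ) : Subring (Module.End ℤ J × ℤ) :=
  Subring.closure (Set.range fun ℓ => (TJ ℓ, a ℓ))

/-- The subring of `(End J × ℤ) × 𝕋` generated by the triples `((T_ℓ, a_ℓ), τ_ℓ)`. -/
def h77_words3 {𝕋 : Type*} [CommRing 𝕋] (TJ : ι → Module.End ℤ J) (a : ι → ℤ) (τ : ι → 𝕋) :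
    Subring ((Module.End ℤ J × ℤ) × 𝕋) :=
  Subring.closure (Set.range fun ℓ => ((TJ ℓ, a ℓ), τ ℓ))

theorem h77_words3_fst {𝕋 : Type*} [CommRing 𝕋] (TJ : ι → Module.End ℤ J) (a : ι → ℤ)
    (τ : ι → 𝕋) {w : (Module.End ℤ J × ℤ) × 𝕋} (hw : w ∈ h77_words3 TJ a τ) :
    w.1 ∈ h77_words TJ a := by
  induction hw using Subring.closure_induction with
  | mem x hx =>
    obtain ⟨ℓ, rfl⟩ := hx
    exact Subring.subset_closure ⟨ℓ, rfl⟩
  | zero => exact Subring.zero_mem _
  | one => exact Subring.one_mem _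
  | add x y _ _ hx hy => exact Subring.add_mem _ hx hy
  | neg x _ hx => exact Subring.neg_mem _ hx
  | mul x y _ _ hx hy => exact Subring.mul_mem _ hx hy

/-- Every Hecke polynomial has a word with the prescribed commutative components. -/
theorem h77_exists_word_of_poly {𝕋 : Type*} [CommRing 𝕋] (TJ : ι → Module.End ℤ J)
    (a : ι → ℤ) (τ : ι → 𝕋) (P₀ : MvPolynomial ι ℤ) :
    ∃ w ∈ h77_words3 TJ a τ, w.1.2 = MvPolynomial.aeval a P₀ ∧
      w.2 = MvPolynomial.aeval τ P₀ := by
  induction P₀ using MvPolynomial.induction_on with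
  | C n =>
    refine ⟨((n : Module.End ℤ J × ℤ), (n : 𝕋)), ?_, ?_, ?_⟩
    · have h : (((n : Module.End ℤ J × ℤ), (n : 𝕋)) : (Module.End ℤ J × ℤ) × 𝕋) =
          ((n : ℤ) : (Module.End ℤ J × ℤ) × 𝕋) := rfl
      rw [h]
      exact intCast_mem _ n
    · rw [MvPolynomial.aeval_C]
      rfl
    · rw [MvPolynomial.aeval_C, algebraMap_int_eq, eq_intCast]
  | add P Q hP hQ =>
    obtain ⟨w, hw, h1, h2⟩ := hP
    obtain ⟨w', hw', h1', h2'⟩ := hQ
    refine ⟨w + w', Subring.add_mem _ hw hw', ?_, ?_⟩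
    · rw [map_add, ← h1, ← h1']
      rfl
    · rw [map_add, ← h2, ← h2']
      rfl
  | mul_X P ℓ hP =>
    obtain ⟨w, hw, h1, h2⟩ := hP
    refine ⟨w * ((TJ ℓ, a ℓ), τ ℓ), Subring.mul_mem _ hw (Subring.subset_closure ⟨ℓ, rfl⟩), ?_, ?_⟩
    · rw [map_mul, MvPolynomial.aeval_X, ← h1]
      rfl
    · rw [map_mul, MvPolynomial.aeval_X, ← h2]
      rfl

/-- A relation between a Hecke lattice `Λ` and `J` which is additive and Hecke stable is stable
under Hecke words. -/
theorem h77_words3_rel {Λ 𝕋 : Type*} [AddCommGroup Λ] [CommRing 𝕋]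
    (act : 𝕋 →+* Module.End ℤ Λ)
    (TJ : ι → Module.End ℤ J) (a : ι → ℤ) (τ : ι → 𝕋)
    (R : Λ → J → Prop) (hR0 : R 0 0)
    (hRadd : ∀ φ φ' z z', R φ z → R φ' z' → R (φ + φ') (z + z'))
    (hRneg : ∀ φ z, R φ z → R (-φ) (-z))
    (hRhecke : ∀ ℓ φ z, R φ z → R (act (τ ℓ) φ) (TJ ℓ z))
    {w : (Module.End ℤ J × ℤ) × 𝕋} (hw : w ∈ h77_words3 TJ a τ) :
    ∀ φ z, R φ z → R (act w.2 φ) (w.1.1 z) := by
  induction hw using Subring.closure_induction with
  | mem x hx =>
    obtain ⟨ℓ, rfl⟩ := hx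
    intro φ z h
    exact hRhecke ℓ φ z h
  | zero =>
    intro φ z _
    have h1 : act (0 : (Module.End ℤ J × ℤ) × 𝕋).2 φ = 0 := by
      show act 0 φ = 0
      rw [map_zero, LinearMap.zero_apply]
    have h2 : ((0 : (Module.End ℤ J × ℤ) × 𝕋).1.1 : Module.End ℤ J) z = 0 := rfl
    rw [h1, h2]
    exact hR0
  | one =>
    intro φ z h
    have h1 : act (1 : (Module.End ℤ J × ℤ) × 𝕋).2 φ = φ := by
      show act 1 φ = φ
      rw [map_one, Module.End.one_apply]
    have h2 : ((1 : (Module.End ℤ J × ℤ) × 𝕋).1.1 : Module.End ℤ J) z = z := rfl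
    rw [h1, h2]
    exact h
  | add x y _ _ hx hy =>
    intro φ z h
    have h1 : act (x + y).2 φ = act x.2 φ + act y.2 φ := by
      show act (x.2 + y.2) φ = _
      rw [map_add, LinearMap.add_apply]
    have h2 : ((x + y).1.1 : Module.End ℤ J) z = x.1.1 z + y.1.1 z := rfl
    rw [h1, h2]
    exact hRadd _ _ _ _ (hx φ z h) (hy φ z h)
  | neg x _ hx =>
    intro φ z h
    have h1 : act (-x).2 φ = -(act x.2 φ) := by
      show act (-x.2) φ = _
      rw [map_neg, LinearMap.neg_apply]
    have h2 : ((-x).1.1 : Module.End ℤ J) z = -(x.1.1 z) := rfl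
    rw [h1, h2]
    exact hRneg _ _ (hx φ z h)
  | mul x y _ _ hx hy =>
    intro φ z h
    have h1 : act (x * y).2 φ = act x.2 (act y.2 φ) := by
      show act (x.2 * y.2) φ = _
      rw [map_mul, Module.End.mul_apply]
    have h2 : ((x * y).1.1 : Module.End ℤ J) z = x.1.1 (y.1.1 z) := rfl
    rw [h1, h2]
    exact hx _ _ (hy φ z h)

/-- A word whose lattice component vanishes kills every element of `J` related to a lattice
element. -/
theorem h77_word_kills {Λ 𝕋 : Type*} [AddCommGroup Λ] [CommRing 𝕋]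
    (act : 𝕋 →+* Module.End ℤ Λ)
    (TJ : ι → Module.End ℤ J) (a : ι → ℤ) (τ : ι → 𝕋)
    (R : Λ → J → Prop) (hR0 : R 0 0)
    (hRadd : ∀ φ φ' z z', R φ z → R φ' z' → R (φ + φ') (z + z'))
    (hRneg : ∀ φ z, R φ z → R (-φ) (-z))
    (hRhecke : ∀ ℓ φ z, R φ z → R (act (τ ℓ) φ) (TJ ℓ z))
    (hRzero : ∀ z, R 0 z → z = 0)
    {w : (Module.End ℤ J × ℤ) × 𝕋} (hw : w ∈ h77_words3 TJ a τ) (hw0 : w.2 = 0)
    (z : J) (hz : ∃ φ, R φ z) : w.1.1 z = 0 := by
  obtain ⟨φ, hφ⟩ := hz
  have h := h77_words3_rel act TJ a τ R hR0 hRadd hRneg hRhecke hw φ z hφ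
  rw [hw0, map_zero, LinearMap.zero_apply] at h
  exact hRzero _ h

/-- Eigen-relations propagate from the generators to words, as soon as the kernel of `sp` is
stable under the generators. -/
theorem h77_words_eig (sp : J →+ Jb) (TJ : ι → Module.End ℤ J) (a : ι → ℤ)
    (hker : ∀ ℓ (z : J), sp z = 0 → sp (TJ ℓ z) = 0)
    (y : J) (hgen : ∀ ℓ, sp (TJ ℓ y) = a ℓ • sp y)
    {w : Module.End ℤ J × ℤ} (hw : w ∈ h77_words TJ a) :
    sp (w.1 y) = w.2 • sp y := by
  have key : ∀ (y' : J) (m : ℤ), sp y' = m • sp y → sp (w.1 y') = (w.2 * m) • sp y := by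
    induction hw using Subring.closure_induction with
    | mem x hx =>
      obtain ⟨ℓ, rfl⟩ := hx
      intro y' m hy'
      have h0 : sp (y' - m • y) = 0 := by
        rw [map_sub, map_zsmul, hy', sub_self]
      have h1 := hker ℓ _ h0
      rw [map_sub, map_sub, sub_eq_zero, map_zsmul, map_zsmul, hgen ℓ] at h1
      show sp (TJ ℓ y') = (a ℓ * m) • sp y
      rw [h1, smul_smul, mul_comm]
    | zero =>
      intro y' m _
      show sp ((0 : Module.End ℤ J) y') = ((0 : ℤ) * m) • sp y
      rw [LinearMap.zero_apply, map_zero, zero_mul, zero_smul]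
    | one =>
      intro y' m hy'
      show sp ((1 : Module.End ℤ J) y') = ((1 : ℤ) * m) • sp y
      rw [Module.End.one_apply, one_mul, hy']
    | add x z _ _ hx hz =>
      intro y' m hy'
      show sp ((x.1 + z.1) y') = ((x.2 + z.2) * m) • sp y
      rw [LinearMap.add_apply, map_add, hx y' m hy', hz y' m hy', ← add_smul, add_mul]
    | neg x _ hx =>
      intro y' m hy'
      show sp ((-x.1) y') = ((-x.2) * m) • sp y
      rw [LinearMap.neg_apply, map_neg, hx y' m hy', neg_mul, neg_smul]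
    | mul x z _ _ hx hz =>
      intro y' m hy'
      show sp ((x.1 * z.1) y') = ((x.2 * z.2) * m) • sp y
      rw [Module.End.mul_apply, hx (z.1 y') (z.2 * m) (hz y' m hy'), mul_assoc]
  have := key y 1 (one_smul ℤ _).symm
  rwa [mul_one] at this

/-- A word commutes with every additive map commuting with the generators. -/
theorem h77_words_comm (TJ : ι → Module.End ℤ J) (a : ι → ℤ) (s : J →+ J)
    (hTs : ∀ ℓ (z : J), TJ ℓ (s z) = s (TJ ℓ z))
    {w : Module.End ℤ J × ℤ} (hw : w ∈ h77_words TJ a) :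
    ∀ z : J, w.1 (s z) = s (w.1 z) := by
  induction hw using Subring.closure_induction with
  | mem x hx =>
    obtain ⟨ℓ, rfl⟩ := hx
    exact hTs ℓ
  | zero =>
    intro z
    show (0 : Module.End ℤ J) (s z) = s ((0 : Module.End ℤ J) z)
    rw [LinearMap.zero_apply, LinearMap.zero_apply, map_zero]
  | one =>
    intro z
    show (1 : Module.End ℤ J) (s z) = s ((1 : Module.End ℤ J) z)
    rw [Module.End.one_apply, Module.End.one_apply]
  | add x y _ _ hx hy =>
    intro z
    show (x.1 + y.1) (s z) = s ((x.1 + y.1) z)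
    rw [LinearMap.add_apply, LinearMap.add_apply, hx z, hy z, map_add]
  | neg x _ hx =>
    intro z
    show (-x.1) (s z) = s ((-x.1) z)
    rw [LinearMap.neg_apply, LinearMap.neg_apply, hx z, map_neg]
  | mul x y _ _ hx hy =>
    intro z
    show (x.1 * y.1) (s z) = s ((x.1 * y.1) z)
    rw [Module.End.mul_apply, Module.End.mul_apply, hy z, hx (y.1 z)]

/-- **(BR4), the conclusion of (BRIDGE) in word form.**  `c = sp y` is `p`-torsion and an
eigenclass of the `T_ℓ` (through `sp`), the word `w` kills the `p`-power torsion of `J` and its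
eigenvalue `w.2` is prime to `p`, `y` is fixed by `s` lying over `Φ` with finitely many fixed
points, `J` is `p`-divisible: then `c = 0`. -/
theorem h77_bridge_words (p : ℕ) (hp : p.Prime) (sp : J →+ Jb)
    (TJ : ι → Module.End ℤ J) (a : ι → ℤ)
    (hker : ∀ ℓ (z : J), sp z = 0 → sp (TJ ℓ z) = 0)
    (w : Module.End ℤ J × ℤ) (hw : w ∈ h77_words TJ a) (hθ : ¬ (p : ℤ) ∣ w.2)
    (hkill : ∀ (n : ℕ) (z : J), p ^ n • z = 0 → w.1 z = 0)
    (s : J →+ J) (Φ : Jb →+ Jb)
    (hTs : ∀ ℓ (z : J), TJ ℓ (s z) = s (TJ ℓ z))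
    (hsp : ∀ z : J, sp (s z) = Φ (sp z))
    (hfin : Finite {c : Jb // Φ c = c})
    (hdiv : ∀ (n : ℕ) (y : J), ∃ y' : J, p ^ n • y' = y)
    (y : J) (hy : s y = y) (hpy : p • sp y = 0)
    (hgen : ∀ ℓ, sp (TJ ℓ y) = a ℓ • sp y) :
    sp y = 0 := by
  obtain ⟨h', -, hh', hzero⟩ := h2_gal_trick p hp sp (w.1 : J →ₗ[ℤ] J).toAddMonoidHom s Φ
    (fun z => h77_words_comm TJ a s hTs hw z) hsp hfin hdiv hkill y hy
  have heig : sp (w.1 y) = w.2 • sp y := h77_words_eig sp TJ a hker y hgen hw
  have hzero' : h' • (w.2 • sp y) = 0 := by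
    rw [← heig]
    exact hzero
  have hcop : IsCoprime ((h' : ℤ) * w.2) (p : ℤ) := by
    have hp' : Prime (p : ℤ) := Nat.prime_iff_prime_int.mp hp
    refine IsCoprime.symm ?_
    rw [hp'.coprime_iff_not_dvd]
    intro hdvd
    rcases hp'.dvd_or_dvd hdvd with h1 | h1
    · exact hh' (Int.natCast_dvd_natCast.mp h1)
    · exact hθ h1
  obtain ⟨u, v, huv⟩ := hcop
  have h1 : ((h' : ℤ) * w.2) • sp y = 0 := by
    rw [mul_smul, natCast_zsmul]
    exact hzero'
  have h2 : (p : ℤ) • sp y = 0 := by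
    rw [natCast_zsmul]
    exact hpy
  have h3 : (1 : ℤ) • sp y = 0 := by
    rw [← huv, add_smul, mul_smul u, mul_smul v, h1, h2, smul_zero, smul_zero, add_zero]
  rwa [one_smul] at h3

end Words

end Fermat.Agent.S40
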