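import Mathlib
import Fermat.Agent.S40.h77_BridgeWords

/-!
# S40 / (BRIDGE), row (BR4): adapter from non-commutative Hecke polynomials to Hecke words
(helper77).  Mathlib only (plus `h77_BridgeWords`).

The Hecke side (row (HK-P0)) delivers `P₀ : FreeAlgebra ℤ ι` evaluated with `FreeAlgebra.lift ℤ`
in `End J` and in `ℤ`.  Such a pair of evaluations is a Hecke word in the sense of `h77_words`.

* `h77_words_of_free`  : `(lift TJ P, lift a P) ∈ h77_words TJ a`.
* `h77_bridge_free`    : **(BR4)** with `P₀ : FreeAlgebra ℤ ι`.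
-/

set_option autoImplicit false

namespace Fermat.Agent.S40

section Free

variable {ι J Jb : Type*} [AddCommGroup J] [AddCommGroup Jb]

/-- The two evaluations of a non-commutative polynomial form a Hecke word. -/
theorem h77_words_of_free (TJ : ι → Module.End ℤ J) (a : ι → ℤ) (P : FreeAlgebra ℤ ι) :
    (FreeAlgebra.lift ℤ TJ P, FreeAlgebra.lift ℤ a P) ∈ h77_words TJ a := by
  induction P using FreeAlgebra.induction with
  | grade0 n =>
    have h : ((FreeAlgebra.lift ℤ TJ (algebraMap ℤ (FreeAlgebra ℤ ι) n),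
        FreeAlgebra.lift ℤ a (algebraMap ℤ (FreeAlgebra ℤ ι) n)) : Module.End ℤ J × ℤ) =
        ((n : ℤ) : Module.End ℤ J × ℤ) := by
      rw [AlgHom.commutes, AlgHom.commutes, algebraMap_int_eq, algebraMap_int_eq, eq_intCast,
        eq_intCast]
      rfl
    rw [h]
    exact intCast_mem _ n
  | grade1 ℓ =>
    rw [FreeAlgebra.lift_ι_apply, FreeAlgebra.lift_ι_apply]
    exact Subring.subset_closure ⟨ℓ, rfl⟩
  | add x y hx hy =>
    rw [map_add, map_add]
    exact Subring.add_mem _ hx hy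
  | mul x y hx hy =>
    rw [map_mul, map_mul]
    exact Subring.mul_mem _ hx hy

/-- **(BR4), the conclusion of (BRIDGE), for a non-commutative Hecke polynomial `P₀`.**
`c = sp y` is `p`-torsion and an eigenclass of the `T_ℓ` (through `sp`), `P₀(T)` kills the
`p`-power torsion of `J` and `P₀(a)` is prime to `p`, `y` is fixed by `s` lying over `Φ` with
finitely many fixed points, `J` is `p`-divisible: then `c = 0`. -/
theorem h77_bridge_free (p : ℕ) (hp : p.Prime) (sp : J →+ Jb)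
    (TJ : ι → Module.End ℤ J) (a : ι → ℤ)
    (hker : ∀ ℓ (z : J), sp z = 0 → sp (TJ ℓ z) = 0)
    (P₀ : FreeAlgebra ℤ ι) (hθ : ¬ (p : ℤ) ∣ FreeAlgebra.lift ℤ a P₀)
    (hkill : ∀ (n : ℕ) (z : J), p ^ n • z = 0 → FreeAlgebra.lift ℤ TJ P₀ z = 0)
    (s : J →+ J) (Φ : Jb →+ Jb)
    (hTs : ∀ ℓ (z : J), TJ ℓ (s z) = s (TJ ℓ z))
    (hsp : ∀ z : J, sp (s z) = Φ (sp z))
    (hfin : Finite {c : Jb // Φ c = c})
    (hdiv : ∀ (n : ℕ) (y : J), ∃ y' : J, p ^ n • y' = y)
    (y : J) (hy : s y = y) (hpy : p • sp y = 0)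
    (hgen : ∀ ℓ, sp (TJ ℓ y) = a ℓ • sp y) :
    sp y = 0 :=
  h77_bridge_words p hp sp TJ a hker (FreeAlgebra.lift ℤ TJ P₀, FreeAlgebra.lift ℤ a P₀)
    (h77_words_of_free TJ a P₀) hθ hkill s Φ hTs hsp hfin hdiv y hy hpy hgen

end Free

end Fermat.Agent.S40
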