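import Mathlib
import Fermat.Agent.S40.h77_BridgeFree
import Fermat.Agent.S27.h64_SpecRed
import Fermat.Agent.S18.h60_Top
import Fermat.Agent.S18.RR_Riemann
import Fermat.Agent.S37.h60_RedInputs

/-!
# S40 / (BRIDGE), row (BR4): the tail in the shape consumed by (TRIV ⇒ TORIC) (helper77)

* `h77_bridge_star`        : (BR4) with the conclusion of (STAR) as a hypothesis
                             (`m • sp (P₀(T) y) = 0` for some `m` prime to `p`).
* `h77_exists_degZero_of_dvd` : a function all of whose orders are divisible by `m` has divisor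
                             `m • D` with `D` of degree `0` (chart).
* `h77_nsmul_mk_eq_zero`   : then `m • [D] = 0`.
* `h77_pth_of_class_zero`  : if moreover `[D] = 0` the function is an `m`-th power
                             (constants are algebraically closed).
* `h77_bridge_tail`        : generic: `ū` with `div ū ∈ p Div`, whose class `[(1/p) div ū]` is an
                             eigenclass through a lift, is a `p`-th power.
* `h77_bridge_mod`         : the same at level `M`, `p ∤ M`, for the prelude's `reductionModL`.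
-/

set_option autoImplicit false
set_option synthInstance.maxHeartbeats 400000

noncomputable section

open AlgebraicCurve ModularCurve

namespace Fermat.Agent.S40

open Fermat.Agent.S18 Fermat.Agent.S27 Fermat.Agent.S37

section Star

variable {ι J Jb : Type*} [AddCommGroup J] [AddCommGroup Jb]

/-- **(BR4) in (STAR) form.**  `c = sp y` is `p`-torsion and an eigenclass of the `T_ℓ` (through
`sp`), `P₀(a)` is prime to `p`, and `sp (P₀(T) y)` is killed by some `m` prime to `p` (this is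
the conclusion of (STAR)): then `c = 0`. -/
theorem h77_bridge_star (p : ℕ) (hp : p.Prime) (sp : J →+ Jb)
    (TJ : ι → Module.End ℤ J) (a : ι → ℤ)
    (hker : ∀ ℓ (z : J), sp z = 0 → sp (TJ ℓ z) = 0)
    (P₀ : FreeAlgebra ℤ ι) (hθ : ¬ (p : ℤ) ∣ FreeAlgebra.lift ℤ a P₀)
    (y : J) (hstar : ∃ m : ℕ, ¬ p ∣ m ∧ m • sp (FreeAlgebra.lift ℤ TJ P₀ y) = 0)
    (hpy : p • sp y = 0)
    (hgen : ∀ ℓ, sp (TJ ℓ y) = a ℓ • sp y) :
    sp y = 0 := by
  obtain ⟨h', hh', hzero⟩ := hstar
  have heig : sp (FreeAlgebra.lift ℤ TJ P₀ y) = FreeAlgebra.lift ℤ a P₀ • sp y :=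
    h77_words_eig sp TJ a hker y hgen (h77_words_of_free TJ a P₀)
  have hzero' : h' • (FreeAlgebra.lift ℤ a P₀ • sp y) = 0 := by
    rw [← heig]
    exact hzero
  have hcop : IsCoprime ((h' : ℤ) * FreeAlgebra.lift ℤ a P₀) (p : ℤ) := by
    have hp' : Prime (p : ℤ) := Nat.prime_iff_prime_int.mp hp
    refine IsCoprime.symm ?_
    rw [hp'.coprime_iff_not_dvd]
    intro hdvd
    rcases hp'.dvd_or_dvd hdvd with h1 | h1
    · exact hh' (Int.natCast_dvd_natCast.mp h1)
    · exact hθ h1
  obtain ⟨u, v, huv⟩ := hcop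
  have h1 : ((h' : ℤ) * FreeAlgebra.lift ℤ a P₀) • sp y = 0 := by
    rw [mul_smul, natCast_zsmul]
    exact hzero'
  have h2 : (p : ℤ) • sp y = 0 := by
    rw [natCast_zsmul]
    exact hpy
  have h3 : (1 : ℤ) • sp y = 0 := by
    rw [← huv, add_smul, mul_smul u, mul_smul v, h1, h2, smul_zero, smul_zero, add_zero]
  rwa [one_smul] at h3

end Star

section Tail

variable {K F : Type*} [Field K] [Field F] [Algebra K F]

/-- A nonzero function all of whose orders are divisible by `m ≠ 0` has divisor `m • D` with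
`D` of degree zero. -/
theorem h77_exists_degZero_of_dvd [IsAlgClosed K] {x : F} (hx : h75_IsChart K x) (m : ℕ)
    (hm : m ≠ 0)
    (u : F) (hu : u ≠ 0) (hdvd : ∀ P : Place K F, (m : ℤ) ∣ P.ord u) :
    ∃ D : Divisor.degZero (K := K) (F := F),
      ∀ v : Place K F, (m : ℤ) * (D : Divisor K F) v = v.ord u := by
  have := h75_hasPrincipalDivisors hx
  obtain ⟨D, hD⟩ := h60_exists_divisor_of_dvd u hu m hdvd
  have hdeg : Divisor.degree ((m : ℤ) • D) = 0 := by
    refine h7_degree_div hx hu ((m : ℤ) • D) (fun v => ?_)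
    rw [Finsupp.smul_apply, smul_eq_mul, hD v]
  rw [map_zsmul, smul_eq_mul] at hdeg
  have hD0 : Divisor.degree D = 0 := by
    rcases mul_eq_zero.mp hdeg with h | h
    · exact absurd (Int.natCast_eq_zero.mp h) hm
    · exact h
  exact ⟨⟨D, hD0⟩, fun v => (hD v).symm⟩

/-- The class of `(1/m) div u` is `m`-torsion. -/
theorem h77_nsmul_mk_eq_zero (m : ℕ) (u : F) (hu : u ≠ 0)
    (D : Divisor.degZero (K := K) (F := F))
    (hD : ∀ v : Place K F, (m : ℤ) * (D : Divisor K F) v = v.ord u) :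
    m • (Pic0.mk D : Pic0 K F) = 0 := by
  have h1 : m • (Pic0.mk D : Pic0 K F) = Pic0.mk (m • D) := rfl
  rw [h1]
  refine (QuotientAddGroup.eq_zero_iff _).mpr ?_
  rw [AddSubgroup.mem_addSubgroupOf]
  refine ⟨u, hu, fun v => ?_⟩
  rw [← hD v]
  simp

/-- If the class of `(1/m) div u` vanishes, then `u` is an `m`-th power (the constants are
algebraically closed). -/
theorem h77_pth_of_class_zero [IsAlgClosed K] {x : F} (hx : h75_IsChart K x) (m : ℕ)
    (hm : m ≠ 0) (u : F) (hu : u ≠ 0) (D : Divisor.degZero (K := K) (F := F))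
    (hD : ∀ v : Place K F, (m : ℤ) * (D : Divisor K F) v = v.ord u)
    (h0 : (Pic0.mk D : Pic0 K F) = 0) : ∃ w : F, w ≠ 0 ∧ u = w ^ m := by
  have hprin : (D : Divisor K F) ∈ Divisor.principal (K := K) (F := F) := by
    have := (QuotientAddGroup.eq_zero_iff _).mp h0
    exact AddSubgroup.mem_addSubgroupOf.mp this
  obtain ⟨f, hf, hDf⟩ := hprin
  have hfm : (f ^ m)⁻¹ ≠ 0 := inv_ne_zero (pow_ne_zero m hf)
  have hg : ∀ P : Place K F, P.ord (u * (f ^ m)⁻¹) = 0 := by
    intro P
    rw [P.ord_mul hu hfm, P.ord_inv, ← zpow_natCast, P.ord_zpow, ← hD P, hDf P]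
    ring
  obtain ⟨c, hc⟩ := h64_const_of_ord_eq_zero hx _ hg
  obtain ⟨l, hl⟩ := IsAlgClosed.exists_pow_nat_eq c (Nat.pos_of_ne_zero hm)
  have hu' : u = algebraMap K F c * f ^ m := by
    rw [← hc, mul_assoc, inv_mul_cancel₀ (pow_ne_zero m hf), mul_one]
  have hc0 : c ≠ 0 := by
    rintro rfl
    rw [map_zero, zero_mul] at hu'
    exact hu hu'
  have hl0 : l ≠ 0 := by
    rintro rfl
    rw [zero_pow hm] at hl
    exact hc0 hl.symm
  refine ⟨algebraMap K F l * f, mul_ne_zero ?_ hf, ?_⟩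
  · rw [Ne, map_eq_zero]
    exact hl0
  · rw [mul_pow, ← map_pow, hl]
    exact hu'

/-- **(BR4), the tail, generic.**  `ū` is a nonzero function on the special fibre with
`div ū = p • D̄`; the class `[D̄]` lifts to `y` and is an eigenclass through this lift; (STAR)
holds for `P₀(T)`; `P₀(a)` is prime to `p`.  Then `ū` is a `p`-th power. -/
theorem h77_bridge_tail [IsAlgClosed K] {x : F} (hx : h75_IsChart K x)
    {ι J : Type*} [AddCommGroup J] (p : ℕ) (hp : p.Prime) (sp : J →+ Pic0 K F)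
    (TJ : ι → Module.End ℤ J) (a : ι → ℤ)
    (hker : ∀ ℓ (z : J), sp z = 0 → sp (TJ ℓ z) = 0)
    (P₀ : FreeAlgebra ℤ ι) (hθ : ¬ (p : ℤ) ∣ FreeAlgebra.lift ℤ a P₀)
    (hstar : ∀ y : J, ∃ m : ℕ, ¬ p ∣ m ∧ m • sp (FreeAlgebra.lift ℤ TJ P₀ y) = 0)
    (u : F) (hu : u ≠ 0) (D : Divisor.degZero (K := K) (F := F))
    (hD : ∀ v : Place K F, (p : ℤ) * (D : Divisor K F) v = v.ord u)
    (y : J) (hy : sp y = Pic0.mk D)
    (hgen : ∀ ℓ, sp (TJ ℓ y) = a ℓ • sp y) :
    ∃ w : F, w ≠ 0 ∧ u = w ^ p := by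
  have hpy : p • sp y = 0 := by
    rw [hy]
    exact h77_nsmul_mk_eq_zero p u hu D hD
  have h0 : sp y = 0 := h77_bridge_star p hp sp TJ a hker P₀ hθ y (hstar y) hpy hgen
  rw [hy] at h0
  exact h77_pth_of_class_zero hx p hp.ne_zero u hu D hD h0

end Tail

section Modular

local notation "Qb" => AlgebraicClosure ℚ

/-- The special fibre of level `M` at `A` has a chart (the reduction of `j`), at every level
prime to the residue characteristic. -/
theorem h77_exists_chart_fb (M : ℕ) [NeZero M] {p : ℕ} [Fact p.Prime] (hpM : ¬ p ∣ M)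
    (A : ValuationSubring Qb) (hA : A.LiesOverPrime p) :
    ∃ x : ↥(modularFunctionFieldFullC (IsLocalRing.ResidueField A) M),
      h75_IsChart (IsLocalRing.ResidueField A) x :=
  ⟨_, h39_weakChart_isChart_red (h39_modRed M hpM A hA) (h39_modRed_weakChart_j M hpM A hA)⟩

/-- **(BR4), the tail at level `M`** (`p ∤ M`, `A` over `p`, `sp` the prelude's reduction
`JZero M → Pic⁰` of the special fibre).  Hypotheses, each delivered by one row of (BRIDGE):
`hker` (CORR-w), `P₀`/`hθ` (HK-P0), `hstar` (STAR), `hgen` (SP-ONTO + EIG).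
Conclusion: a function `ū` on the special fibre with `div ū ∈ p Div` is a `p`-th power. -/
theorem h77_bridge_mod (M : ℕ) [NeZero M] {p : ℕ} [Fact p.Prime] (hpM : ¬ p ∣ M)
    (A : ValuationSubring Qb) (hA : A.LiesOverPrime p)
    {ι : Type*} (TJ : ι → Module.End ℤ (JZero M)) (a : ι → ℤ)
    (hker : ∀ ℓ (z : JZero M), reductionModL A M z = 0 → reductionModL A M (TJ ℓ z) = 0)
    (P₀ : FreeAlgebra ℤ ι) (hθ : ¬ (p : ℤ) ∣ FreeAlgebra.lift ℤ a P₀)
    (hstar : ∀ y : JZero M, ∃ m : ℕ, ¬ p ∣ m ∧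
      m • reductionModL A M (FreeAlgebra.lift ℤ TJ P₀ y) = 0)
    (u : ↥(modularFunctionFieldFullC (IsLocalRing.ResidueField A) M)) (hu : u ≠ 0)
    (hdvd : ∀ Q : Place (IsLocalRing.ResidueField A)
      ↥(modularFunctionFieldFullC (IsLocalRing.ResidueField A) M), (p : ℤ) ∣ Q.ord u)
    (hgen : ∀ (D : Divisor.degZero (K := IsLocalRing.ResidueField A)
        (F := ↥(modularFunctionFieldFullC (IsLocalRing.ResidueField A) M))),
      (∀ v, (p : ℤ) * (D : Divisor (IsLocalRing.ResidueField A)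
        ↥(modularFunctionFieldFullC (IsLocalRing.ResidueField A) M)) v = v.ord u) →
      ∃ y : JZero M, reductionModL A M y = Pic0.mk D ∧
        ∀ ℓ, reductionModL A M (TJ ℓ y) = a ℓ • reductionModL A M y) :
    ∃ w : ↥(modularFunctionFieldFullC (IsLocalRing.ResidueField A) M), w ≠ 0 ∧ u = w ^ p := by
  have hp : p.Prime := Fact.out
  have : IsAlgClosed (IsLocalRing.ResidueField A) := h19_residueField_isAlgClosed A
  obtain ⟨x, hx⟩ := h77_exists_chart_fb M hpM A hA
  obtain ⟨D, hD⟩ := h77_exists_degZero_of_dvd hx p hp.ne_zero u hu hdvd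
  obtain ⟨y, hy, hgen'⟩ := hgen D hD
  exact h77_bridge_tail hx p hp (reductionModL A M) TJ a hker P₀ hθ hstar u hu D hD y hy hgen'

end Modular

end Fermat.Agent.S40

end
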