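import Mathlib
import Fermat.Agent.S40.h34_BridgeStar
import Fermat.Agent.S40.h67_HkP0
import Fermat.Agent.S40.h77_BridgeTail
import Fermat.Agent.S37.h60_RedInputs

/-!
# G40 (BRIDGE), row T10: (BR1) in the consumer shape, and T10 with (BR1) + (HK-P0) discharged

* `h34_hstar_free` : `h34_star` for `t := FreeAlgebra.lift ℤ TJ P₀`, literally the hypothesis
  `hstar` of `h77_bridge_mod`.
* `h34_hstar_hk` : the same for helper67's Hecke polynomials (`h67_TJ`, `h67_evJ`) at a charted
  level; the Galois equivariance is `h67_evJ_galois`.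
* `h34_bridge_hk` : `h77_bridge_mod` for helper67's Hecke polynomials at a charted level with
  `hstar` discharged: what remains is `hker` (CORR-w), `hgen` (SP-ONTO + EIG) and the divisibility
  of the divisor of `u`.
-/

set_option autoImplicit false

noncomputable section

open ModularCurve AlgebraicCurve

namespace Fermat.Agent.S40

open Fermat.Agent.S37

local notation "Qb" => AlgebraicClosure ℚ

/-- **(BR1) in the shape of `hstar` of `h77_bridge_mod`**, for any family `TJ` of endomorphisms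
of `J₀(M)(ℚ̄)`: if the Hecke word `P₀(TJ)` commutes with Galois and kills the `p`-power torsion,
the reduction of `P₀(TJ) y` is killed by an integer prime to `p`, for every class `y`. -/
theorem h34_hstar_free (M : ℕ) [NeZero M] {p : ℕ} [Fact p.Prime] (hpM : ¬ p ∣ M)
    (A : ValuationSubring Qb) (hA : A.LiesOverPrime p) (hRI : ReductionInputsModL A M)
    {ι : Type*} (TJ : ι → Module.End ℤ (JZero M)) (P₀ : FreeAlgebra ℤ ι)
    (hkill : ∀ (k : ℕ) (z : JZero M), p ^ k • z = 0 → FreeAlgebra.lift ℤ TJ P₀ z = 0)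
    (hgal : ∀ (σ : Qb ≃ₐ[ℚ] Qb) (z : JZero M),
      FreeAlgebra.lift ℤ TJ P₀ (σ • z) = σ • FreeAlgebra.lift ℤ TJ P₀ z) (y : JZero M) :
    ∃ m : ℕ, ¬ p ∣ m ∧ m • reductionModL A M (FreeAlgebra.lift ℤ TJ P₀ y) = 0 := by
  obtain ⟨m, -, hm, h⟩ := h34_star M p hpM A hA hRI
    ((FreeAlgebra.lift ℤ TJ P₀ : Module.End ℤ (JZero M)).toAddMonoidHom) hkill hgal y
  exact ⟨m, hm, h⟩

/-- **(BR1) for helper67's Hecke polynomials** at a charted level `M` prime to `p`: literally
`hstar` of `h77_bridge_mod` with `TJ := h67_TJ M good`. -/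
theorem h34_hstar_hk (M : ℕ) [NeZero M] {p : ℕ} [Fact p.Prime] (hpM : ¬ p ∣ M)
    (A : ValuationSubring Qb) (hA : A.LiesOverPrime p) (hch : 5 ≤ p ∨ 2 ∣ M ∨ 3 ∣ M)
    (good : ℕ → Prop) (P₀ : FreeAlgebra ℤ (h67_Good good))
    (hkill : ∀ (k : ℕ) (z : JZero M), p ^ k • z = 0 → h67_evJ M good P₀ z = 0) (y : JZero M) :
    ∃ m : ℕ, ¬ p ∣ m ∧
      m • reductionModL A M (FreeAlgebra.lift ℤ (h67_TJ M good) P₀ y) = 0 :=
  h34_hstar_free M hpM A hA (h60_redInputs M hpM A hA hch) (h67_TJ M good) P₀ hkill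
    (fun σ z => h67_evJ_galois M good P₀ σ z) y

/-- **T10 with (BR1) and the shape of (HK-P0) plugged in.**  Level `M` prime to `p`, charted;
`P₀` a Hecke polynomial killing the `p`-power torsion of `J₀(M)(ℚ̄)` with `p ∤ P₀(a)`.  If the
good Hecke operators preserve the kernel of the reduction (CORR-w) and every class `D` with
`p D = div u` lifts to an `a`-eigenclass modulo the kernel of the reduction (SP-ONTO + EIG), then
a function `u` of the reduced curve whose divisor is divisible by `p` is a `p`-th power. -/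
theorem h34_bridge_hk (M : ℕ) [NeZero M] {p : ℕ} [Fact p.Prime] (hpM : ¬ p ∣ M)
    (A : ValuationSubring Qb) (hA : A.LiesOverPrime p) (hch : 5 ≤ p ∨ 2 ∣ M ∨ 3 ∣ M)
    (good : ℕ → Prop) (a : ℕ → ℤ)
    (hker : ∀ (ℓ : h67_Good good) (z : JZero M), reductionModL A M z = 0 →
      reductionModL A M (h67_TJ M good ℓ z) = 0)
    (P₀ : FreeAlgebra ℤ (h67_Good good))
    (hkill : ∀ (k : ℕ) (z : JZero M), p ^ k • z = 0 → h67_evJ M good P₀ z = 0)
    (hθ : ¬ (p : ℤ) ∣ h67_evZ good a P₀)
    (u : ↥(modularFunctionFieldFullC (IsLocalRing.ResidueField A) M)) (hu : u ≠ 0)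
    (hdvd : ∀ Q : Place (IsLocalRing.ResidueField A)
      ↥(modularFunctionFieldFullC (IsLocalRing.ResidueField A) M), (p : ℤ) ∣ Q.ord u)
    (hgen : ∀ (D : Divisor.degZero (K := IsLocalRing.ResidueField A)
        (F := ↥(modularFunctionFieldFullC (IsLocalRing.ResidueField A) M))),
      (∀ v, (p : ℤ) * (D : Divisor (IsLocalRing.ResidueField A)
        ↥(modularFunctionFieldFullC (IsLocalRing.ResidueField A) M)) v = v.ord u) →
      ∃ y : JZero M, reductionModL A M y = Pic0.mk D ∧
        ∀ ℓ : h67_Good good,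
          reductionModL A M (h67_TJ M good ℓ y) = a ℓ.1 • reductionModL A M y) :
    ∃ w : ↥(modularFunctionFieldFullC (IsLocalRing.ResidueField A) M), w ≠ 0 ∧ u = w ^ p :=
  h77_bridge_mod M hpM A hA (h67_TJ M good) (fun ℓ => a ℓ.1) hker P₀ hθ
    (h34_hstar_hk M hpM A hA hch good P₀ hkill) u hu hdvd hgen

end Fermat.Agent.S40

end
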