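import Mathlib
import Fermat.Agent.GAL.h67_CorrPrincipal
import Fermat.Agent.S37.h87_RedData
import Fermat.Agent.S40.h79_RedUniq
import Fermat.Agent.S40.h77_BridgeTail

/-!
# S40 / (BRIDGE): from the function-level eigen-relation to `hgen` (helper77)

`(EIG-COR)`: let `r` be the place reduction of level `M`, `ū` a nonzero function on the special
fibre with `div ū = p • D̄`, `D_y` a divisor of degree `0` with `r_* D_y = D̄`, `g` a function of
level `M` with `r_* div g = div ū`, and suppose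
`r_* div (N_α (β g)) = a • div ū + p • div w̄` (the function-level eigen-relation (EIG-f)).  If
`r_* Z = 0 ⟹ r_* (T_ℓ Z) = 0` on divisors of degree `0` (the divisor form of (CORR-w)), then
`sp (T_ℓ [D_y]) = a • sp [D_y]`.

* `h77_eig_div`  : the finsupp algebra.
* `h77_eig_pic0` : generic correspondences (Prelude `Pic0.correspondence`).
* `h77_eig_mod`  : level `M`, `T_ℓ = heckeOperatorBar M ℓ`, `sp = reductionModL A M`.
* `h77_hgen_mod` : the hypothesis `hgen` of `h77_bridge_mod`.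
-/

set_option autoImplicit false
set_option synthInstance.maxHeartbeats 400000

noncomputable section

open AlgebraicCurve ModularCurve

namespace Fermat.Agent.S40

open Fermat.Agent.S18 Fermat.Agent.S24 Fermat.Agent.S27 Fermat.Agent.S37 Fermat.Agent.GAL

section Algebra

/-- The finsupp algebra of (EIG-COR). -/
theorem h77_eig_div {ι κ : Type*} (T : (ι →₀ ℤ) →+ (ι →₀ ℤ)) (ρ : (ι →₀ ℤ) →+ (κ →₀ ℤ))
    (deg : (ι →₀ ℤ) →+ ℤ)
    (hcorr : ∀ Z, deg Z = 0 → ρ Z = 0 → ρ (T Z) = 0)
    (p : ℕ) (Dy G : ι →₀ ℤ) (Db : κ →₀ ℤ)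
    (hDy0 : deg Dy = 0) (hG0 : deg G = 0)
    (hDy : ρ Dy = Db) (hG : ρ G = (p : ℤ) • Db) :
    (p : ℤ) • ρ (T Dy) = ρ (T G) := by
  have h0 : deg ((p : ℤ) • Dy - G) = 0 := by
    rw [map_sub, map_zsmul, hDy0, hG0, smul_zero, sub_zero]
  have h1 : ρ ((p : ℤ) • Dy - G) = 0 := by
    rw [map_sub, map_zsmul, hDy, hG, sub_self]
  have h2 := hcorr _ h0 h1
  rw [map_sub, map_zsmul, map_sub, map_zsmul, sub_eq_zero] at h2
  exact h2

end Algebra

section Generic

variable {K F F' k Fb : Type*} [Field K] [Field F] [Field F'] [Algebra K F] [Algebra K F']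
  [Field k] [Field Fb] [Algebra k Fb]

/-- **(EIG-COR), generic.** -/
theorem h77_eig_pic0 [HasPrincipalDivisors K F] [HasPrincipalDivisors K F']
    [HasPrincipalDivisors k Fb]
    (φ ψ : F →ₐ[K] F') (hφ : φ.toRingHom.IsIntegral) (hψ : ψ.toRingHom.IsIntegral)
    (hFI : FundamentalIdentityAlong K φ hφ) (hfin : FiniteAlong K ψ)
    (hN : NormFormulaAlong K ψ hfin)
    (r : Place K F → Place k Fb)
    (sp : Pic0 K F →+ Pic0 k Fb)
    (hsp : ∀ (D : Divisor.degZero (K := K) (F := F)) (Db : Divisor.degZero (K := k) (F := Fb)),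
      Finsupp.mapDomain r (D : Divisor K F) = (Db : Divisor k Fb) → sp (Pic0.mk D) = Pic0.mk Db)
    (hcorr : ∀ Z : Divisor K F, Divisor.degree Z = 0 → Finsupp.mapDomain r Z = 0 →
      Finsupp.mapDomain r (Divisor.correspondence φ ψ hφ hψ Z) = 0)
    (p : ℕ) (hp : p ≠ 0) (a : ℤ) (g : F) (hg : g ≠ 0) (ub wb : Fb) (hwb : wb ≠ 0)
    (hgred : ∀ G : Divisor K F, (∀ v, G v = v.ord g) →
      ∀ Q, Finsupp.mapDomain r G Q = Q.ord ub)
    (hnorm : ∀ G' : Divisor K F, (∀ v, G' v = v.ord (h67_normAlong ψ (φ g))) →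
      ∀ Q, Finsupp.mapDomain r G' Q = a * Q.ord ub + p * Q.ord wb)
    (Dy : Divisor.degZero (K := K) (F := F)) (Db : Divisor.degZero (K := k) (F := Fb))
    (hDb : ∀ Q, (p : ℤ) * (Db : Divisor k Fb) Q = Q.ord ub)
    (hDy : Finsupp.mapDomain r (Dy : Divisor K F) = (Db : Divisor k Fb)) :
    sp (Pic0.correspondence φ ψ hφ hψ hFI hfin hN (Pic0.mk Dy)) = a • sp (Pic0.mk Dy) := by
  obtain ⟨G, hG, hG0⟩ := HasPrincipalDivisors.exists_divisor (K := K) g hg
  obtain ⟨W, hW, hW0⟩ := HasPrincipalDivisors.exists_divisor (K := k) wb hwb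
  have hGred : Finsupp.mapDomain r G = (p : ℤ) • (Db : Divisor k Fb) := by
    ext Q
    rw [hgred G hG Q, Finsupp.smul_apply, smul_eq_mul, hDb Q]
  have hkey := h77_eig_div (Divisor.correspondence φ ψ hφ hψ) (Finsupp.mapDomain.addMonoidHom r)
    Divisor.degree hcorr p (Dy : Divisor K F) G (Db : Divisor k Fb) Dy.2 hG0 hDy hGred
  have hTG : ∀ v : Place K F,
      Divisor.correspondence φ ψ hφ hψ G v = v.ord (h67_normAlong ψ (φ g)) :=
    fun v => h67_correspondence_principal φ ψ hφ hψ hfin hN hg hG v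
  have hTDy : Finsupp.mapDomain r (Divisor.correspondence φ ψ hφ hψ (Dy : Divisor K F)) =
      a • (Db : Divisor k Fb) + W := by
    ext Q
    have h1 := congrArg (fun D : Divisor k Fb => D Q) hkey
    simp only [Finsupp.mapDomain.addMonoidHom_apply, Finsupp.smul_apply, smul_eq_mul] at h1
    rw [hnorm _ hTG Q, ← hDb Q] at h1
    rw [Finsupp.add_apply, Finsupp.smul_apply, smul_eq_mul, hW Q]
    have hp' : (p : ℤ) ≠ 0 := Int.natCast_ne_zero.mpr hp
    apply mul_left_cancel₀ hp'
    rw [h1]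
    ring
  have h2 : sp (Pic0.mk Dy) = Pic0.mk Db := hsp Dy Db hDy
  have h3 : sp (Pic0.mk (Pic0.degZeroCorrespondence φ ψ hφ hψ hFI Dy)) =
      Pic0.mk (a • Db + ⟨W, hW0⟩) := by
    refine hsp _ _ ?_
    rw [Pic0.coe_degZeroCorrespondence, hTDy]
    rfl
  have h4 : (Pic0.mk (⟨W, hW0⟩ : Divisor.degZero (K := k) (F := Fb)) : Pic0 k Fb) = 0 := by
    refine (QuotientAddGroup.eq_zero_iff _).mpr ?_
    rw [AddSubgroup.mem_addSubgroupOf]
    exact ⟨wb, hwb, hW⟩
  rw [Pic0.correspondence_mk, h3, h2, Pic0.mk_add, h4, add_zero]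
  rfl

end Generic

section Modular

local notation "Qb" => AlgebraicClosure ℚ

variable (M : ℕ) [NeZero M] {p : ℕ} [Fact p.Prime] (hpM : ¬ p ∣ M)
  (A : ValuationSubring Qb) (hA : A.LiesOverPrime p)

include hpM hA in
/-- `reductionModL` on the class of a divisor, for any degree-zero representative of the
reduced divisor. -/
theorem h77_sp_mk (hch : 5 ≤ p ∨ 2 ∣ M ∨ 3 ∣ M)
    {r : Place Qb (modularFunctionFieldBar M) →
      Place (IsLocalRing.ResidueField A) (modularFunctionFieldFullC (IsLocalRing.ResidueField A) M)}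
    (hr : IsPlaceReductionModL A M r)
    (D : Divisor.degZero (K := Qb) (F := modularFunctionFieldBar M))
    (Db : Divisor.degZero (K := IsLocalRing.ResidueField A)
      (F := modularFunctionFieldFullC (IsLocalRing.ResidueField A) M))
    (h : Finsupp.mapDomain r (D : Divisor Qb (modularFunctionFieldBar M)) =
      (Db : Divisor (IsLocalRing.ResidueField A)
        (modularFunctionFieldFullC (IsLocalRing.ResidueField A) M))) :
    reductionModL A M (Pic0.mk D) = Pic0.mk Db := by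
  rw [h79_reductionModL_mk hpM hA hch hr D]
  congr 1
  exact Subtype.ext h

/-- **(EIG-COR) at level `M`.**  `hcorr` is the divisor form of (CORR-w) at `(M, M ℓ)`, `heigf`
the function-level eigen-relation (EIG-f) for every lift `g` of `ū`. -/
theorem h77_eig_mod (hch : 5 ≤ p ∨ 2 ∣ M ∨ 3 ∣ M) (ℓ : ℕ) [NeZero ℓ]
    [HasPrincipalDivisors Qb (modularFunctionFieldBar (M * ℓ))]
    {r : Place Qb (modularFunctionFieldBar M) →
      Place (IsLocalRing.ResidueField A) (modularFunctionFieldFullC (IsLocalRing.ResidueField A) M)}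
    (hr : IsPlaceReductionModL A M r)
    (hcorr : ∀ Z : Divisor Qb (modularFunctionFieldBar M), Divisor.degree Z = 0 →
      Finsupp.mapDomain r Z = 0 →
      Finsupp.mapDomain r (heckeDivBar (h88_alphaIntegral M ℓ) (h88_betaIntegral M ℓ) Z) = 0)
    (a : ℤ) (ub : ↥(modularFunctionFieldFullC (IsLocalRing.ResidueField A) M)) (hub : ub ≠ 0)
    (heigf : ∀ g : ↥(modularFunctionFieldBar M), g ∈ (h39_modRed M hpM A hA).O →
      (h39_modRed M hpM A hA).redF g = ub →
      ∃ wb : ↥(modularFunctionFieldFullC (IsLocalRing.ResidueField A) M), wb ≠ 0 ∧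
        h67_normAlong (heckeAlphaBar Qb M ℓ) (heckeBetaBar Qb M ℓ g) ∈ (h39_modRed M hpM A hA).O ∧
        (h39_modRed M hpM A hA).redF (h67_normAlong (heckeAlphaBar Qb M ℓ) (heckeBetaBar Qb M ℓ g))
          = ub ^ a * wb ^ p)
    (Db : Divisor.degZero (K := IsLocalRing.ResidueField A)
      (F := modularFunctionFieldFullC (IsLocalRing.ResidueField A) M))
    (hDb : ∀ Q, (p : ℤ) * (Db : Divisor (IsLocalRing.ResidueField A)
      (modularFunctionFieldFullC (IsLocalRing.ResidueField A) M)) Q = Q.ord ub)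
    (Dy : Divisor.degZero (K := Qb) (F := modularFunctionFieldBar M))
    (hDy : Finsupp.mapDomain r (Dy : Divisor Qb (modularFunctionFieldBar M)) =
      (Db : Divisor (IsLocalRing.ResidueField A)
        (modularFunctionFieldFullC (IsLocalRing.ResidueField A) M))) :
    reductionModL A M (heckeOperatorAlong Qb M ℓ (Pic0.mk Dy)) =
      a • reductionModL A M (Pic0.mk Dy) := by
  have hp : p.Prime := Fact.out
  have hk : IsAlgClosed (IsLocalRing.ResidueField A) := h19_residueField_isAlgClosed A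
  obtain ⟨x, hx⟩ := h60_exists_chart M hpM A hA hch
  obtain ⟨S⟩ := h39_nonempty_placeRed_of_chart (h39_modRed M hpM A hA) hx
  have hrS : r = S.r0 := h79_placeRed_eq M hpM A hA S hr
  obtain ⟨xb, hxb⟩ := h77_exists_chart_fb M hpM A hA
  have hPb : HasPrincipalDivisors (IsLocalRing.ResidueField A)
      ↥(modularFunctionFieldFullC (IsLocalRing.ResidueField A) M) := h75_hasPrincipalDivisors hxb
  have hP : HasPrincipalDivisors Qb ↥(modularFunctionFieldBar M) := h88_hasPrincipalDivisors M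
  -- a lift of `ū`
  obtain ⟨⟨g, hgO⟩, hg⟩ := (h39_modRed M hpM A hA).red_surjective ub
  have hgF : (h39_modRed M hpM A hA).redF g = ub := by
    rw [(h39_modRed M hpM A hA).redF_of_mem hgO]
    exact hg
  have hg0 : g ≠ 0 := by
    rintro rfl
    have : (h39_modRed M hpM A hA).red ⟨0, hgO⟩ = 0 := map_zero _
    rw [this] at hg
    exact hub hg.symm
  obtain ⟨wb, hwb, hNO, hNred⟩ := heigf g hgO hgF
  have hNred' : (h39_modRed M hpM A hA).red
      ⟨h67_normAlong (heckeAlphaBar Qb M ℓ) (heckeBetaBar Qb M ℓ g), hNO⟩ = ub ^ a * wb ^ p := by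
    rw [← (h39_modRed M hpM A hA).redF_of_mem hNO]
    exact hNred
  have hua : ub ^ a ≠ 0 := zpow_ne_zero a hub
  have hwp : wb ^ p ≠ 0 := pow_ne_zero p hwb
  have key := h77_eig_pic0 (heckeBetaBar Qb M ℓ) (heckeAlphaBar Qb M ℓ) (h88_betaIntegral M ℓ)
    (h88_alphaIntegral M ℓ) (h87_FI_beta M ℓ) (h88_finiteAlong_alpha M ℓ) (h87_NF_alpha M ℓ)
    r (reductionModL A M) (fun D Db' h => h77_sp_mk M hpM A hA hch hr D Db' h) hcorr p hp.ne_zero a
    g hg0 ub wb hwb
    (fun G hG Q => by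
      rw [hrS, S.compat g hgO (by rw [hg]; exact hub) G hG Q, hg])
    (fun G' hG' Q => by
      rw [hrS, S.compat _ hNO (by rw [hNred']; exact mul_ne_zero hua hwp) G' hG' Q, hNred',
        Q.ord_mul hua hwp, Q.ord_zpow, ← zpow_natCast wb p, Q.ord_zpow])
    Dy Db hDb hDy
  rw [heckeOperatorAlong_eq (h88_alphaIntegral M ℓ) (h88_betaIntegral M ℓ) (h87_FI_beta M ℓ)
    (h88_finiteAlong_alpha M ℓ) (h87_NF_alpha M ℓ)]
  exact key

include hpM hA in
/-- **`hgen` of `h77_bridge_mod`**: one lift `y` of the class `[D̄]` (the class of any divisor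
lifting `D̄` place by place) which is an eigenclass through `sp` for every `ℓ`. -/
theorem h77_hgen_mod (hch : 5 ≤ p ∨ 2 ∣ M ∨ 3 ∣ M)
    {r : Place Qb (modularFunctionFieldBar M) →
      Place (IsLocalRing.ResidueField A) (modularFunctionFieldFullC (IsLocalRing.ResidueField A) M)}
    (hr : IsPlaceReductionModL A M r)
    {ι : Type*} (TJ : ι → Module.End ℤ (JZero M)) (a : ι → ℤ)
    (D : Divisor.degZero (K := IsLocalRing.ResidueField A)
      (F := modularFunctionFieldFullC (IsLocalRing.ResidueField A) M))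
    (heig : ∀ (ℓ : ι) (Dy : Divisor.degZero (K := Qb) (F := modularFunctionFieldBar M)),
      Finsupp.mapDomain r (Dy : Divisor Qb (modularFunctionFieldBar M)) =
        (D : Divisor (IsLocalRing.ResidueField A)
          (modularFunctionFieldFullC (IsLocalRing.ResidueField A) M)) →
      reductionModL A M (TJ ℓ (Pic0.mk Dy)) = a ℓ • reductionModL A M (Pic0.mk Dy)) :
    ∃ y : JZero M, reductionModL A M y = Pic0.mk D ∧
      ∀ ℓ, reductionModL A M (TJ ℓ y) = a ℓ • reductionModL A M y := by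
  obtain ⟨Dy, hDy, hdeg⟩ := h79_exists_lift_degZero M hpM A hA hch hr
    (D : Divisor (IsLocalRing.ResidueField A)
      (modularFunctionFieldFullC (IsLocalRing.ResidueField A) M))
  have hDy0 : Dy ∈ Divisor.degZero (K := Qb) (F := modularFunctionFieldBar M) := by
    rw [Divisor.mem_degZero, hdeg]
    exact D.2
  exact ⟨Pic0.mk ⟨Dy, hDy0⟩, h77_sp_mk M hpM A hA hch hr ⟨Dy, hDy0⟩ D hDy,
    fun ℓ => heig ℓ ⟨Dy, hDy0⟩ hDy⟩

end Modular

end Fermat.Agent.S40

end
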