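import Mathlib
import Fermat.Agent.S40.h77_EigCor
import Fermat.Agent.S40.h34_BridgeStarMod
import Fermat.Agent.S40.h2_RedHecke
import Fermat.Agent.S40.h2_RedHeckeDiv

/-!
# S40 / (BRIDGE): the exit theorem of T10 with every landed row plugged in (helper77)

`h77_t10_of_corr` : level `M` prime to `p`, charted.  Inputs still open: the divisor form of
(CORR-w) (`hcorr`) and the function-level eigen-relation (EIG-f) (`heigf`).  Everything else
((STAR), (HK-P0) shape, (CORR-w) on classes, (SP-ONTO), (EIG-COR), (BR4)) is inside.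

`h77_t10` : the same with `hcorr` discharged by `h2_red_hecke_div`: the ONLY hypotheses left are
the Hecke polynomial `P₀` (from `h67_hkP0_W`), `div ū ∈ p Div` and (EIG-f).
-/

set_option autoImplicit false
set_option synthInstance.maxHeartbeats 400000

noncomputable section

open AlgebraicCurve ModularCurve

namespace Fermat.Agent.S40

open Fermat.Agent.S18 Fermat.Agent.S24 Fermat.Agent.S27 Fermat.Agent.S37 Fermat.Agent.GAL

local notation "Qb" => AlgebraicClosure ℚ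

/-- **T10 (BRIDGE), exit theorem, modulo the divisor form of (CORR-w) and (EIG-f).** -/
theorem h77_t10_of_corr (M : ℕ) [NeZero M] {p : ℕ} [Fact p.Prime] (hpM : ¬ p ∣ M)
    (A : ValuationSubring Qb) (hA : A.LiesOverPrime p) (hch : 5 ≤ p ∨ 2 ∣ M ∨ 3 ∣ M)
    (good : ℕ → Prop) (hgp : ¬ good p) (a : ℕ → ℤ)
    (P₀ : FreeAlgebra ℤ (h67_Good good))
    (hkill : ∀ (k : ℕ) (z : JZero M), p ^ k • z = 0 → h67_evJ M good P₀ z = 0)
    (hθ : ¬ (p : ℤ) ∣ h67_evZ good a P₀)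
    (u : ↥(modularFunctionFieldFullC (IsLocalRing.ResidueField A) M)) (hu : u ≠ 0)
    (hdvd : ∀ Q : Place (IsLocalRing.ResidueField A)
      ↥(modularFunctionFieldFullC (IsLocalRing.ResidueField A) M), (p : ℤ) ∣ Q.ord u)
    (hcorr : ∀ (ℓ : h67_Good good) [NeZero ℓ.1]
      [HasPrincipalDivisors Qb (modularFunctionFieldBar (M * ℓ.1))]
      (r : Place Qb (modularFunctionFieldBar M) →
        Place (IsLocalRing.ResidueField A)
          (modularFunctionFieldFullC (IsLocalRing.ResidueField A) M)),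
      IsPlaceReductionModL A M r →
      ∀ Z : Divisor Qb (modularFunctionFieldBar M), Divisor.degree Z = 0 →
        Finsupp.mapDomain r Z = 0 →
        Finsupp.mapDomain r
          (heckeDivBar (h88_alphaIntegral M ℓ.1) (h88_betaIntegral M ℓ.1) Z) = 0)
    (heigf : ∀ (ℓ : h67_Good good) [NeZero ℓ.1] (g : ↥(modularFunctionFieldBar M)),
      g ∈ (h39_modRed M hpM A hA).O → (h39_modRed M hpM A hA).redF g = u →
      ∃ wb : ↥(modularFunctionFieldFullC (IsLocalRing.ResidueField A) M), wb ≠ 0 ∧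
        h67_normAlong (heckeAlphaBar Qb M ℓ.1) (heckeBetaBar Qb M ℓ.1 g) ∈
          (h39_modRed M hpM A hA).O ∧
        (h39_modRed M hpM A hA).redF
          (h67_normAlong (heckeAlphaBar Qb M ℓ.1) (heckeBetaBar Qb M ℓ.1 g))
          = u ^ (a ℓ.1) * wb ^ p) :
    ∃ w : ↥(modularFunctionFieldFullC (IsLocalRing.ResidueField A) M), w ≠ 0 ∧ u = w ^ p := by
  have hp : p.Prime := Fact.out
  obtain ⟨r, hr⟩ := h60_exists_placeReduction M hpM A hA hch
  refine h34_bridge_hk M hpM A hA hch good a ?_ P₀ hkill hθ u hu hdvd ?_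
  · intro ℓ z hz
    have hℓp : ℓ.1 ≠ p := fun h => hgp (h ▸ ℓ.2.2)
    have hpℓ : ¬ p ∣ M * ((⟨ℓ.1, ℓ.2.1⟩ : Nat.Primes) : ℕ) := by
      intro h
      rcases hp.dvd_mul.mp h with h1 | h1
      · exact hpM h1
      · exact hℓp ((Nat.prime_dvd_prime_iff_eq hp ℓ.2.1).mp h1).symm
    exact h2_red_heckeBar_ker M ⟨ℓ.1, ℓ.2.1⟩ hpℓ A hA hch z hz
  · intro D hD
    refine h77_hgen_mod M hpM A hA hch hr (h67_TJ M good) (fun ℓ => a ℓ.1) D ?_
    intro ℓ Dy hDy
    have : NeZero ℓ.1 := ⟨ℓ.2.1.ne_zero⟩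
    have := h88_hasPrincipalDivisors (M * ℓ.1)
    exact h77_eig_mod M hpM A hA hch ℓ.1 hr (hcorr ℓ r hr) (a ℓ.1) u hu (heigf ℓ) D hD Dy hDy

/-- **T10 (BRIDGE), exit theorem.**  Level `M` prime to `p`, charted; `P₀` a Hecke polynomial in
the good operators killing the `p`-power torsion of `J₀(M)(ℚ̄)` with `p ∤ P₀(a)` (row (HK-P0));
`ū ≠ 0` a function on the special fibre with `div ū ∈ p Div`; (EIG-f): for every good `ℓ` and
every lift `g` of `ū`, `red (N_α (β g)) = ū ^ a_ℓ * w̄ ^ p`.  Then `ū` is a `p`-th power. -/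
theorem h77_t10 (M : ℕ) [NeZero M] {p : ℕ} [Fact p.Prime] (hpM : ¬ p ∣ M)
    (A : ValuationSubring Qb) (hA : A.LiesOverPrime p) (hch : 5 ≤ p ∨ 2 ∣ M ∨ 3 ∣ M)
    (good : ℕ → Prop) (hgp : ¬ good p) (a : ℕ → ℤ)
    (P₀ : FreeAlgebra ℤ (h67_Good good))
    (hkill : ∀ (k : ℕ) (z : JZero M), p ^ k • z = 0 → h67_evJ M good P₀ z = 0)
    (hθ : ¬ (p : ℤ) ∣ h67_evZ good a P₀)
    (u : ↥(modularFunctionFieldFullC (IsLocalRing.ResidueField A) M)) (hu : u ≠ 0)
    (hdvd : ∀ Q : Place (IsLocalRing.ResidueField A)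
      ↥(modularFunctionFieldFullC (IsLocalRing.ResidueField A) M), (p : ℤ) ∣ Q.ord u)
    (heigf : ∀ (ℓ : h67_Good good) [NeZero ℓ.1] (g : ↥(modularFunctionFieldBar M)),
      g ∈ (h39_modRed M hpM A hA).O → (h39_modRed M hpM A hA).redF g = u →
      ∃ wb : ↥(modularFunctionFieldFullC (IsLocalRing.ResidueField A) M), wb ≠ 0 ∧
        h67_normAlong (heckeAlphaBar Qb M ℓ.1) (heckeBetaBar Qb M ℓ.1 g) ∈
          (h39_modRed M hpM A hA).O ∧
        (h39_modRed M hpM A hA).redF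
          (h67_normAlong (heckeAlphaBar Qb M ℓ.1) (heckeBetaBar Qb M ℓ.1 g))
          = u ^ (a ℓ.1) * wb ^ p) :
    ∃ w : ↥(modularFunctionFieldFullC (IsLocalRing.ResidueField A) M), w ≠ 0 ∧ u = w ^ p := by
  have hp : p.Prime := Fact.out
  refine h77_t10_of_corr M hpM A hA hch good hgp a P₀ hkill hθ u hu hdvd ?_ heigf
  intro ℓ _ _ r hr Z hZ0 hZ
  have hℓp : ℓ.1 ≠ p := fun h => hgp (h ▸ ℓ.2.2)
  have hpℓ : ¬ p ∣ M * ℓ.1 := by
    intro h
    rcases hp.dvd_mul.mp h with h1 | h1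
    · exact hpM h1
    · exact hℓp ((Nat.prime_dvd_prime_iff_eq hp ℓ.2.1).mp h1).symm
  exact h2_red_hecke_div M ℓ.1 hpℓ A hA hch r hr (h88_alphaIntegral M ℓ.1)
    (h88_betaIntegral M ℓ.1) Z hZ0 hZ

end Fermat.Agent.S40

end
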