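import Mathlib
import Fermat.Agent.S33.h10_N1Glue
import Fermat.Agent.S35.h60_ToricBridge
import Fermat.Agent.S18.h64_RankOneW

/-!
# S40, row T9b / R10 (TRIV ⟹ TORIC)  (helper84)

If a class `x` has a representative `E` with `m E = div u` such that, up to constants, the
reductions of `u` at the two valuations are `m`-th powers, then `x` is toric for the exponent `m`.

* `h84_red_twist` : one-sided computation. If `red (c u) = w ^ m`, `e ^ m = c`, `red a = w⁻¹` and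
  `W = e a (1 + π s)` with `π` a non-unit constant and `s ∈ O`, then `red (u W ^ m) = 1`.
* `h84_triv_glue` : for two reduction data with the same rank-one constants and a separating
  element (two-valuation approximation `h10_glue`), there is `W ≠ 0` with
  `red₁ (u W ^ m) = 1 = red₂ (u W ^ m)`.
* `h84_triv_toric_generic` : the same on the level of divisors: `E' = E + div W`, `u' = u W ^ m`.
* `h84_triv_toric` : level `M p`, the pair `h60_R1`, `h60_R2`: the class is `h29_Toric` for `m`.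
* `h84_triv_toric_pair` : the same, stated with `h60_pair`.
-/

set_option autoImplicit false
set_option synthInstance.maxHeartbeats 400000

noncomputable section

open ModularCurve AlgebraicCurve

namespace Fermat.Agent.S40

open Fermat.Agent.S18 Fermat.Agent.S37 Fermat.Agent.S34 Fermat.Agent.S35 Fermat.Agent.S33

local notation "Qb" => AlgebraicClosure ℚ

section Generic

variable {K F k Fb : Type*} [Field K] [Field F] [Algebra K F] [Field k] [Field Fb] [Algebra k Fb]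

/-- One-sided computation: if `red (c u) = w ^ m`, `e ^ m = c`, `red a = w⁻¹` and
`W = e a (1 + π s)` with `π` a non-unit constant and `s ∈ O`, then `red (u W ^ m) = 1`. -/
theorem h84_red_twist (R : h39_RedDatum K F k Fb) (m : ℕ) (u a s W : F) (c e π : K) (w : Fb)
    (hw : w ≠ 0) (h : R.redF (algebraMap K F c * u) = w ^ m) (he : e ^ m = c)
    (ha : a ∈ R.O) (hra : R.redF a = w⁻¹) (hπA : π ∈ R.A) (hπ : π⁻¹ ∉ R.A) (hs : s ∈ R.O)
    (hW : W = algebraMap K F e * a * (1 + algebraMap K F π * s)) :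
    R.redF (u * W ^ m) = 1 := by
  have hcu : algebraMap K F c * u ∈ R.O :=
    h39_mem_of_redF_ne_zero R (by rw [h]; exact pow_ne_zero m hw)
  have hπO : algebraMap K F π ∈ R.O := (R.mem_iff π).mp hπA
  have hπr : R.redF (algebraMap K F π) = 0 := by
    rw [h39_redF_algebraMap R hπA, (h39_resK_eq_zero_iff R hπA).mpr (Or.inr hπ), map_zero]
  have hπs : algebraMap K F π * s ∈ R.O := R.O.mul_mem _ _ hπO hs
  have h1 : 1 + algebraMap K F π * s ∈ R.O := R.O.add_mem _ _ R.O.one_mem hπs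
  have hr1 : R.redF (1 + algebraMap K F π * s) = 1 := by
    rw [h39_redF_add R R.O.one_mem hπs, h39_redF_one, h39_redF_mul R hπO hs, hπr, zero_mul,
      add_zero]
  have hb : a * (1 + algebraMap K F π * s) ∈ R.O := R.O.mul_mem _ _ ha h1
  have heq : u * W ^ m = (algebraMap K F c * u) * (a * (1 + algebraMap K F π * s)) ^ m := by
    rw [hW, ← he, map_pow, mul_assoc (algebraMap K F e), mul_pow]
    ring
  rw [heq, h39_redF_mul R hcu (R.O.pow_mem hb m), h39_redF_pow R hb, h39_redF_mul R ha h1, h, hra,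
    hr1, mul_one, ← mul_pow, mul_inv_cancel₀ hw, one_pow]

variable {Fb₁ Fb₂ : Type*} [Field Fb₁] [Algebra k Fb₁] [Field Fb₂] [Algebra k Fb₂]
  (R₁ : h39_RedDatum K F k Fb₁) (R₂ : h39_RedDatum K F k Fb₂)

/-- **Glue.** Two reduction data with the same rank-one constants and a separating element; if
the reductions of `c₁ u` and `c₂ u` are `m`-th powers of nonzero elements, then some `W ≠ 0` has
`red₁ (u W ^ m) = 1 = red₂ (u W ^ m)`. -/
theorem h84_triv_glue (hA : R₁.A = R₂.A) (hrk : h39_RankOne R₁.A)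
    (hsep : ∃ t : F, t ∈ R₁.O ∧ t ∈ R₂.O ∧ R₁.redF t = 1 ∧ R₂.redF t = 0)
    (π : K) (hπ0 : π ≠ 0) (hπA : π ∈ R₁.A) (hπ : π⁻¹ ∉ R₁.A)
    (m : ℕ) (hm : m ≠ 0) (hroot : ∀ c : K, ∃ d : K, d ^ m = c)
    (u : F) (c₁ c₂ : K) (w₁ : Fb₁) (w₂ : Fb₂) (hw₁ : w₁ ≠ 0) (hw₂ : w₂ ≠ 0)
    (h₁ : R₁.redF (algebraMap K F c₁ * u) = w₁ ^ m)
    (h₂ : R₂.redF (algebraMap K F c₂ * u) = w₂ ^ m) :
    ∃ W : F, W ≠ 0 ∧ R₁.redF (u * W ^ m) = 1 ∧ R₂.redF (u * W ^ m) = 1 := by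
  obtain ⟨e₁, he₁⟩ := hroot c₁
  obtain ⟨e₂, he₂⟩ := hroot c₂
  obtain ⟨a₁, ha₁, hra₁⟩ := h39_redF_surjective R₁ w₁⁻¹
  obtain ⟨a₂, ha₂, hra₂⟩ := h39_redF_surjective R₂ w₂⁻¹
  have hc₁ : c₁ ≠ 0 := by
    rintro rfl
    rw [map_zero, zero_mul, h39_redF_zero] at h₁
    exact pow_ne_zero m hw₁ h₁.symm
  have hc₂ : c₂ ≠ 0 := by
    rintro rfl
    rw [map_zero, zero_mul, h39_redF_zero] at h₂
    exact pow_ne_zero m hw₂ h₂.symm
  have hez₁ : e₁ ≠ 0 := by
    rintro rfl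
    rw [zero_pow hm] at he₁
    exact hc₁ he₁.symm
  have hez₂ : e₂ ≠ 0 := by
    rintro rfl
    rw [zero_pow hm] at he₂
    exact hc₂ he₂.symm
  have haz₁ : a₁ ≠ 0 := by
    rintro rfl
    rw [h39_redF_zero] at hra₁
    exact inv_ne_zero hw₁ hra₁.symm
  have haz₂ : a₂ ≠ 0 := by
    rintro rfl
    rw [h39_redF_zero] at hra₂
    exact inv_ne_zero hw₂ hra₂.symm
  have hG₁ : algebraMap K F e₁ * a₁ ≠ 0 := mul_ne_zero ((map_ne_zero _).mpr hez₁) haz₁
  have hG₂ : algebraMap K F e₂ * a₂ ≠ 0 := mul_ne_zero ((map_ne_zero _).mpr hez₂) haz₂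
  obtain ⟨W, ⟨s₁, hs₁, hW₁⟩, ⟨s₂, hs₂, hW₂⟩⟩ :=
    h10_glue R₁ R₂ hA hrk hsep _ _ hG₁ hG₂ hπ0
  have r1 := h84_red_twist R₁ m u a₁ s₁ W c₁ e₁ π w₁ hw₁ h₁ he₁ ha₁ hra₁ hπA hπ hs₁ hW₁
  have r2 := h84_red_twist R₂ m u a₂ s₂ W c₂ e₂ π w₂ hw₂ h₂ he₂ ha₂ hra₂ (hA ▸ hπA) (hA ▸ hπ)
    hs₂ hW₂
  refine ⟨W, ?_, r1, r2⟩
  rintro rfl
  rw [zero_pow hm, mul_zero, h39_redF_zero] at r1
  exact zero_ne_one r1

/-- **TRIV ⟹ TORIC, generic divisor form.** `m E = div u` and the reductions of `c₁ u`, `c₂ u` are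
`m`-th powers of nonzero elements: then the class of `E` has a representative `E'` with
`m E' = div u'` and `red₁ u' = 1 = red₂ u'`. -/
theorem h84_triv_toric_generic [HasPrincipalDivisors K F]
    (hA : R₁.A = R₂.A) (hrk : h39_RankOne R₁.A)
    (hsep : ∃ t : F, t ∈ R₁.O ∧ t ∈ R₂.O ∧ R₁.redF t = 1 ∧ R₂.redF t = 0)
    (π : K) (hπ0 : π ≠ 0) (hπA : π ∈ R₁.A) (hπ : π⁻¹ ∉ R₁.A)
    (m : ℕ) (hm : m ≠ 0) (hroot : ∀ c : K, ∃ d : K, d ^ m = c)
    (E : Divisor.degZero (K := K) (F := F)) (u : F) (hu : u ≠ 0)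
    (hdiv : ∀ v : Place K F, (m : ℤ) * (E : Divisor K F) v = v.ord u)
    (c₁ c₂ : K) (w₁ : Fb₁) (w₂ : Fb₂) (hw₁ : w₁ ≠ 0) (hw₂ : w₂ ≠ 0)
    (h₁ : R₁.redF (algebraMap K F c₁ * u) = w₁ ^ m)
    (h₂ : R₂.redF (algebraMap K F c₂ * u) = w₂ ^ m) :
    ∃ (E' : Divisor.degZero (K := K) (F := F)) (u' : F), u' ≠ 0 ∧ Pic0.mk E' = Pic0.mk E ∧
      (∀ v : Place K F, (m : ℤ) * (E' : Divisor K F) v = v.ord u') ∧
      R₁.redF u' = 1 ∧ R₂.redF u' = 1 := by
  obtain ⟨W, hW0, r1, r2⟩ :=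
    h84_triv_glue R₁ R₂ hA hrk hsep π hπ0 hπA hπ m hm hroot u c₁ c₂ w₁ w₂ hw₁ hw₂ h₁ h₂
  obtain ⟨Dg, hDg, hdeg⟩ := HasPrincipalDivisors.exists_divisor (K := K) W hW0
  have hWm : W ^ m ≠ 0 := pow_ne_zero _ hW0
  refine ⟨E + ⟨Dg, Divisor.mem_degZero.mpr hdeg⟩, u * W ^ m, mul_ne_zero hu hWm, ?_, ?_, r1, r2⟩
  · apply QuotientAddGroup.eq.mpr
    rw [AddSubgroup.mem_addSubgroupOf]
    have h4 : ((-(E + ⟨Dg, Divisor.mem_degZero.mpr hdeg⟩) + E :
        Divisor.degZero (K := K) (F := F)) : Divisor K F) = -Dg := by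
      push_cast
      abel
    rw [h4]
    exact ⟨W⁻¹, inv_ne_zero hW0, fun v => by rw [Finsupp.neg_apply, hDg v, v.ord_inv]⟩
  · intro v
    have hpow : v.ord (W ^ m) = (m : ℤ) * v.ord W := by
      rw [← zpow_natCast]
      exact v.ord_zpow W _
    have hE0 : ((E + ⟨Dg, Divisor.mem_degZero.mpr hdeg⟩ :
        Divisor.degZero (K := K) (F := F)) : Divisor K F) v
        = (E : Divisor K F) v + v.ord W := by
      push_cast
      rw [Pi.add_apply, hDg v]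
    rw [hE0, v.ord_mul hu hWm, hpow, ← hdiv v]
    ring

end Generic

section Modular

variable (M p : ℕ) [NeZero M] [NeZero p] [Fact p.Prime] (hpM : ¬ p ∣ M)
  (A : ValuationSubring Qb) (hA : A.LiesOverPrime p)

/-- **T9b / R10 (TRIV ⟹ TORIC)** at level `M p`.  If `m E = div u`, `[E] = x`, and for constants
`c₁, c₂` the reductions `red₁ (c₁ u)`, `red₂ (c₂ u)` are `m`-th powers of nonzero functions, then
`x` is toric for the exponent `m`. -/
theorem h84_triv_toric (m : ℕ) (hm : m ≠ 0) (x : JZero (M * p))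
    (E : Divisor.degZero (K := Qb) (F := modularFunctionFieldBar (M * p)))
    (u : ↥(modularFunctionFieldBar (M * p))) (hu : u ≠ 0) (hx : Pic0.mk E = x)
    (hdiv : ∀ v : Place Qb ↥(modularFunctionFieldBar (M * p)),
      (m : ℤ) * (E : Divisor Qb ↥(modularFunctionFieldBar (M * p))) v = v.ord u)
    (c₁ c₂ : Qb) (w₁ w₂ : ↥(modularFunctionFieldFullC (IsLocalRing.ResidueField A) M))
    (hw₁ : w₁ ≠ 0) (hw₂ : w₂ ≠ 0)
    (h₁ : (h60_R1 M p hpM A hA).redF
      (algebraMap Qb ↥(modularFunctionFieldBar (M * p)) c₁ * u) = w₁ ^ m)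
    (h₂ : (h60_R2 M p hpM A hA).redF
      (algebraMap Qb ↥(modularFunctionFieldBar (M * p)) c₂ * u) = w₂ ^ m) :
    h29_Toric M p hpM A hA m x := by
  have hp : p.Prime := Fact.out
  have hPD : HasPrincipalDivisors Qb ↥(modularFunctionFieldBar (M * p)) :=
    h88_hasPrincipalDivisors (M * p)
  set R1 := h60_R1 M p hpM A hA with hR1
  set R2 := h60_R2 M p hpM A hA with hR2
  have hR1A : R1.A = A := h60_R1_A M p hpM A hA
  have hR2A : R2.A = A := h60_R2_A M p hpM A hA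
  have hrk : h39_RankOne R1.A := by
    rw [hR1A]
    exact h64_rankOne_h39 hp A hA
  have hp0 : (p : Qb) ≠ 0 := Nat.cast_ne_zero.mpr hp.ne_zero
  have hpA : (p : Qb) ∈ A := ValuationSubring.nonunits_subset hA
  have hpinv : (p : Qb)⁻¹ ∉ A :=
    ((ValuationSubring.mem_nonunits_iff_or A).mp hA).resolve_left hp0
  have hpA1 : (p : Qb) ∈ R1.A := by
    rw [hR1A]
    exact hpA
  have hpinv1 : (p : Qb)⁻¹ ∉ R1.A := by
    rw [hR1A]
    exact hpinv
  obtain ⟨E', u', hu', hE', hdiv', r1, r2⟩ :=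
    h84_triv_toric_generic R1 R2 (hR1A.trans hR2A.symm) hrk (h60_exists_sep M p hpM A hA)
      (p : Qb) hp0 hpA1 hpinv1 m hm
      (fun c => IsAlgClosed.exists_pow_nat_eq c (Nat.pos_of_ne_zero hm)) E u hu hdiv
      c₁ c₂ w₁ w₂ hw₁ hw₂ h₁ h₂
  refine (h60_toric_iff M p hpM A hA m x).mpr ⟨E', u', hu', hE'.trans hx, hdiv', fun i => ?_⟩
  fin_cases i
  · exact (h60_red_one_iff R1 u').mpr
      ⟨h39_mem_of_redF_ne_zero R1 (by rw [r1]; exact one_ne_zero), r1⟩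
  · exact (h60_red_one_iff R2 u').mpr
      ⟨h39_mem_of_redF_ne_zero R2 (by rw [r2]; exact one_ne_zero), r2⟩

/-- **T9b / R10**, stated with the pair `h60_pair`. -/
theorem h84_triv_toric_pair (m : ℕ) (hm : m ≠ 0) (x : JZero (M * p))
    (E : Divisor.degZero (K := Qb) (F := modularFunctionFieldBar (M * p)))
    (u : ↥(modularFunctionFieldBar (M * p))) (hu : u ≠ 0) (hx : Pic0.mk E = x)
    (hdiv : ∀ v : Place Qb ↥(modularFunctionFieldBar (M * p)),
      (m : ℤ) * (E : Divisor Qb ↥(modularFunctionFieldBar (M * p))) v = v.ord u)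
    (c : Fin 2 → Qb) (w : Fin 2 → ↥(modularFunctionFieldFullC (IsLocalRing.ResidueField A) M))
    (hw : ∀ i, w i ≠ 0)
    (h : ∀ i, (h60_pair M p hpM A hA i).redF
      (algebraMap Qb ↥(modularFunctionFieldBar (M * p)) (c i) * u) = w i ^ m) :
    h29_Toric M p hpM A hA m x :=
  h84_triv_toric M p hpM A hA m hm x E u hu hx hdiv (c 0) (c 1) (w 0) (w 1) (hw 0) (hw 1)
    (h 0) (h 1)

end Modular

end Fermat.Agent.S40

end
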