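import Mathlib
import Fermat.Agent.S40.h77_T10
import Fermat.Agent.S40.h68_Eig
import Fermat.Agent.S40.h67_EigChar0
import Fermat.Agent.S40.h59_NewC2
import Fermat.Agent.S40.h84_TrivToric
import Fermat.Agent.S40.h45_PNewTop
import Fermat.Agent.S40.h43_TailPt

/-!
# S40, the (TAIL) at the level `M p`

`x = [E] ∈ J₀(M p)(ℚ̄)` with `p E = div u`, an eigenclass for the good Hecke operators, `p`-new,
and such that the first reduction `ū₁ = red₁ (c₁ u)` has a divisor divisible by `p`.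
If the eigensystem does not occur at the level `M` (in the form: a Hecke word `P₀` kills
`J₀(M)[p^∞]` and its value at the eigenvalues is prime to `p`), then `x` is toric.

Chain (all rows on main):
`T_ℓ x = a_ℓ x` ⟹ `N_α(β u) = c u^{a_ℓ} w^p` (`h67_eig_char0_bar`) ⟹ (EIG-f) (`h68_eig_fun`)
⟹ `ū₁ = w₁^p` ((BRIDGE) `h77_t10`) ⟹ `red₂ (c₂ u) = w₂^p` ((C2-NEW) `h59_c2_new`)
⟹ toric (`h84_triv_toric`).

* `h54_tail_gen` : for an arbitrary set of good primes and eigenvalues;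
* `h54_tail` : for an integral Weierstrass model `W`, from `¬ W.IsResiduallyModularOfLevel p M`.
-/

set_option autoImplicit false
set_option synthInstance.maxHeartbeats 400000

noncomputable section

open AlgebraicCurve ModularCurve

namespace Fermat.Agent.S40

open Fermat.Agent.S18 Fermat.Agent.S24 Fermat.Agent.S27 Fermat.Agent.S37 Fermat.Agent.GAL
open Fermat.Agent.S33 Fermat.Agent.S34 Fermat.Agent.S35 Fermat.Agent.S36

local notation "Qb" => AlgebraicClosure ℚ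

section tail

variable (M p : ℕ) [NeZero M] [NeZero p] [Fact p.Prime] (hpM : ¬ p ∣ M)
  (A : ValuationSubring Qb) (hA : A.LiesOverPrime p)

/-- **(TAIL), generic form.** -/
theorem h54_tail_gen (hch : 5 ≤ p ∨ 2 ∣ M ∨ 3 ∣ M)
    (good : ℕ → Prop) (hgM : ∀ ℓ : ℕ, good ℓ → ¬ ℓ ∣ M) (hgp : ¬ good p) (a : ℕ → ℤ)
    (P₀ : FreeAlgebra ℤ (h67_Good good))
    (hkill : ∀ (k : ℕ) (z : JZero M), p ^ k • z = 0 → h67_evJ M good P₀ z = 0)
    (hθ : ¬ (p : ℤ) ∣ h67_evZ good a P₀)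
    (x : JZero (M * p))
    (E : Divisor.degZero (K := Qb) (F := modularFunctionFieldBar (M * p)))
    (hxE : Pic0.mk E = x)
    (hnew : h67_DivNew M p (E : Divisor Qb (modularFunctionFieldBar (M * p))))
    (u : modularFunctionFieldBar (M * p)) (hu : u ≠ 0)
    (hdiv : ∀ v : Place Qb (modularFunctionFieldBar (M * p)),
      (p : ℤ) * (E : Divisor Qb (modularFunctionFieldBar (M * p))) v = v.ord u)
    (hT : ∀ ℓ : h67_Good good, heckeOperatorBar (M * p) ⟨ℓ.1, ℓ.2.1⟩ x = a ℓ.1 • x)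
    (c₁ : Qb)
    (hc₁u : algebraMap Qb (modularFunctionFieldBar (M * p)) c₁ * u ∈ (h60_R1 M p hpM A hA).O)
    (hne : (h60_R1 M p hpM A hA).redF
      (algebraMap Qb (modularFunctionFieldBar (M * p)) c₁ * u) ≠ 0)
    (hdvd : ∀ Q : Place (IsLocalRing.ResidueField A)
      ↥(modularFunctionFieldFullC (IsLocalRing.ResidueField A) M),
      (p : ℤ) ∣ Q.ord ((h60_R1 M p hpM A hA).redF
        (algebraMap Qb (modularFunctionFieldBar (M * p)) c₁ * u))) :
    h29_Toric M p hpM A hA p x := by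
  have hp : p.Prime := Fact.out
  have hc₁ : c₁ ≠ 0 := by
    rintro rfl
    apply hne
    rw [map_zero, zero_mul]
    exact h39_redF_zero _
  have hu10 : algebraMap Qb (modularFunctionFieldBar (M * p)) c₁ * u ≠ 0 :=
    mul_ne_zero ((map_ne_zero _).mpr hc₁) hu
  have hdiv1 : ∀ v : Place Qb (modularFunctionFieldBar (M * p)),
      (p : ℤ) * (E : Divisor Qb (modularFunctionFieldBar (M * p))) v =
        v.ord (algebraMap Qb (modularFunctionFieldBar (M * p)) c₁ * u) := by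
    intro v
    rw [hdiv v, v.ord_mul ((map_ne_zero _).mpr hc₁) hu, h35_ord_algebraMap, zero_add]
  have hred : (h60_R1 M p hpM A hA).redF
      (algebraMap Qb (modularFunctionFieldBar (M * p)) c₁ * u) =
      (h60_R1 M p hpM A hA).red ⟨_, hc₁u⟩ := (h60_R1 M p hpM A hA).redF_of_mem hc₁u
  have hune : (h60_R1 M p hpM A hA).red ⟨_, hc₁u⟩ ≠ 0 := by
    rw [← hred]
    exact hne
  -- (EIG-f)
  have heigf : ∀ (ℓ : h67_Good good) [NeZero ℓ.1] (g : ↥(modularFunctionFieldBar M)),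
      g ∈ (h39_modRed M hpM A hA).O →
      (h39_modRed M hpM A hA).redF g = (h60_R1 M p hpM A hA).redF
        (algebraMap Qb (modularFunctionFieldBar (M * p)) c₁ * u) →
      ∃ wb : ↥(modularFunctionFieldFullC (IsLocalRing.ResidueField A) M), wb ≠ 0 ∧
        h67_normAlong (heckeAlphaBar Qb M ℓ.1) (heckeBetaBar Qb M ℓ.1 g) ∈
          (h39_modRed M hpM A hA).O ∧
        (h39_modRed M hpM A hA).redF
          (h67_normAlong (heckeAlphaBar Qb M ℓ.1) (heckeBetaBar Qb M ℓ.1 g))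
          = (h60_R1 M p hpM A hA).redF
              (algebraMap Qb (modularFunctionFieldBar (M * p)) c₁ * u) ^ (a ℓ.1) * wb ^ p := by
    intro ℓ _ g hg hgred
    have hℓp : ℓ.1 ≠ p := fun h => hgp (h ▸ ℓ.2.2)
    have hℓMp : ¬ ℓ.1 ∣ M * p := by
      intro h
      rcases (Nat.Prime.dvd_mul ℓ.2.1).1 h with h1 | h1
      · exact hgM ℓ.1 ℓ.2.2 h1
      · exact hℓp ((Nat.prime_dvd_prime_iff_eq ℓ.2.1 hp).1 h1)
    have hTℓ : heckeOperatorBar (M * p) ⟨ℓ.1, ℓ.2.1⟩ (Pic0.mk E) = a ℓ.1 • Pic0.mk E := by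
      rw [hxE]
      exact hT ℓ
    obtain ⟨c, w, -, -, hrel⟩ := h67_eig_char0_bar (M * p) ℓ.1 ℓ.2.1 p E _ hu10 hdiv1 (a ℓ.1) hTℓ
    obtain ⟨wb, hwb0, hall⟩ := h68_eig_fun M p hpM A hA ℓ.1 ℓ.2.1 hℓMp
      (h39_modRed_spec M hpM A hA) _ hc₁u hune (a ℓ.1) p hp.ne_zero c w hrel
    obtain ⟨hN, hNred⟩ := hall g hg (by
      rw [← (h39_modRed M hpM A hA).redF_of_mem hg, hgred, hred])
    refine ⟨wb, hwb0, hN, ?_⟩
    rw [hred]
    exact ((h39_modRed M hpM A hA).redF_of_mem hN).trans hNred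
  -- (BRIDGE)
  obtain ⟨w₁, hw₁0, hw₁⟩ := h77_t10 M hpM A hA hch good hgp a P₀ hkill hθ _ hne hdvd heigf
  -- (C2-NEW)
  obtain ⟨c₂, w₂, -, hw₂0, h2⟩ := h59_c2_new M p hpM A hA p hp.ne_zero
    (E : Divisor Qb (modularFunctionFieldBar (M * p))) hnew _ hu10 hdiv1 1 w₁ hw₁0 (by
      rw [map_one, one_mul]
      exact hw₁)
  -- (TRIV ⟹ TORIC)
  exact h84_triv_toric M p hpM A hA p hp.ne_zero x E u hu hxE hdiv c₁ (c₂ * c₁) w₁ w₂ hw₁0 hw₂0
    hw₁ (by
      rw [map_mul, mul_assoc]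
      exact h2)

/-- **(TAIL) for a Weierstrass model.**  If `W` is NOT residually modular of level `M` at `p`,
then every `a_ℓ(W)`-eigenclass `x = [E]` of `J₀(M p)` with `p E = div u` whose first reduction
`red₁ (c₁ u)` has a divisor divisible by `p` is toric. -/
theorem h54_tail (hch : 5 ≤ p ∨ 2 ∣ M ∨ 3 ∣ M) (W : WeierstrassCurve ℤ)
    (hnot : ¬ W.IsResiduallyModularOfLevel p M)
    (x : JZero (M * p))
    (E : Divisor.degZero (K := Qb) (F := modularFunctionFieldBar (M * p)))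
    (hxE : Pic0.mk E = x)
    (u : modularFunctionFieldBar (M * p)) (hu : u ≠ 0)
    (hdiv : ∀ v : Place Qb (modularFunctionFieldBar (M * p)),
      (p : ℤ) * (E : Divisor Qb (modularFunctionFieldBar (M * p))) v = v.ord u)
    (hT : ∀ (ℓ : ℕ) (hℓ : ℓ.Prime), W.IsGoodPrimeFor ℓ → ¬ ℓ ∣ M * p → ℓ ≠ p →
      heckeOperatorBar (M * p) ⟨ℓ, hℓ⟩ x = W.apOfModel ℓ • x)
    (c₁ : Qb)
    (hc₁u : algebraMap Qb (modularFunctionFieldBar (M * p)) c₁ * u ∈ (h60_R1 M p hpM A hA).O)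
    (hne : (h60_R1 M p hpM A hA).redF
      (algebraMap Qb (modularFunctionFieldBar (M * p)) c₁ * u) ≠ 0)
    (hdvd : ∀ Q : Place (IsLocalRing.ResidueField A)
      ↥(modularFunctionFieldFullC (IsLocalRing.ResidueField A) M),
      (p : ℤ) ∣ Q.ord ((h60_R1 M p hpM A hA).redF
        (algebraMap Qb (modularFunctionFieldBar (M * p)) c₁ * u))) :
    h29_Toric M p hpM A hA p x := by
  have hp : p.Prime := Fact.out
  obtain ⟨P₀, hkill, hθ⟩ := h67_hkP0_W W M p (h83_h75_genus_jbar M) hnot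
  have hx : p • x = 0 := by
    rw [← hxE, ← h87_mk_nsmul, h87_mk_eq_zero_iff]
    refine ⟨u, hu, fun v => ?_⟩
    rw [← hdiv v, AddSubgroup.coe_nsmul, Finsupp.smul_apply, nsmul_eq_mul]
  obtain ⟨-, hα, hβ⟩ := h45_pnew_of_not_resmod W hnot x hx hT
  rw [← hxE] at hα hβ
  have hnew : h67_DivNew M p (E : Divisor Qb (modularFunctionFieldBar (M * p))) :=
    h67_divNew_intro (h88_alphaIntegral M p) (h88_betaIntegral M p)
      ((h52_pushAlpha_eq_zero_iff M p E).mp hα) ((h52_pushBeta_eq_zero_iff M p E).mp hβ)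
  refine h54_tail_gen M p hpM A hA hch (fun ℓ => W.IsGoodPrimeFor ℓ ∧ ¬ ℓ ∣ M ∧ ℓ ≠ p)
    (fun ℓ h => h.2.1) (fun h => h.2.2 rfl) (fun ℓ => W.apOfModel ℓ) P₀ hkill hθ x E hxE hnew
    u hu hdiv (fun ℓ => hT ℓ.1 ℓ.2.1 ℓ.2.2.1 ?_ ℓ.2.2.2.2) c₁ hc₁u hne hdvd
  intro h
  rcases (Nat.Prime.dvd_mul ℓ.2.1).1 h with h1 | h1
  · exact ℓ.2.2.2.1 h1
  · exact ℓ.2.2.2.2 ((Nat.prime_dvd_prime_iff_eq ℓ.2.1 hp).1 h1)

/-- **(TAIL)**, in the normalised-residue-order vocabulary `h43_rord` (the output shape of the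
(TR) chain after the descent to the level `M`): no scaling constant in the hypotheses. -/
theorem h54_tail_rord (hch : 5 ≤ p ∨ 2 ∣ M ∨ 3 ∣ M) (W : WeierstrassCurve ℤ)
    (hnot : ¬ W.IsResiduallyModularOfLevel p M)
    (x : JZero (M * p))
    (E : Divisor.degZero (K := Qb) (F := modularFunctionFieldBar (M * p)))
    (hxE : Pic0.mk E = x)
    (u : modularFunctionFieldBar (M * p)) (hu : u ≠ 0)
    (hdiv : ∀ v : Place Qb (modularFunctionFieldBar (M * p)),
      (p : ℤ) * (E : Divisor Qb (modularFunctionFieldBar (M * p))) v = v.ord u)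
    (hT : ∀ (ℓ : ℕ) (hℓ : ℓ.Prime), W.IsGoodPrimeFor ℓ → ¬ ℓ ∣ M * p → ℓ ≠ p →
      heckeOperatorBar (M * p) ⟨ℓ, hℓ⟩ x = W.apOfModel ℓ • x)
    (hdvd : ∀ Q : Place (IsLocalRing.ResidueField A)
      ↥(modularFunctionFieldFullC (IsLocalRing.ResidueField A) M),
      (p : ℤ) ∣ h43_rord (h60_R1 M p hpM A hA) Q u) :
    h29_Toric M p hpM A hA p x := by
  obtain ⟨c₁, -, hunit, -⟩ := h43_rred_spec (h60_R1 M p hpM A hA) hu
  exact h54_tail M p hpM A hA hch W hnot x E hxE u hu hdiv hT c₁ hunit.2.1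
    (h43_redF_unit_ne_zero _ hunit) (fun Q => by
      rw [← h43_rord_eq _ Q hunit]
      exact hdvd Q)

end tail

end Fermat.Agent.S40

end
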