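import Mathlib
import Fermat.Agent.S35.h29_ToricPair

/-!
# S40/S44, rows TOP-C (C4) / (RED-LVL) / (SWAP-LVL): the two reductions at level `M p` and at a
# multiple level `M' p` (`M ∣ M'`, `p ∤ M'`), and preservation of toric classes by pull-back

Everything is stated at the level of COERCIONS to `q`-expansions: `f : F(M p)`, `g : F(M' p)`
with the same `q`-expansion.  No level cast `(M p) r = (M r) p` appears anywhere.

* `h32_bar_le` : `F(M) ≤ F(M')` for `M ∣ M'`;
* `h32_w_lvl` (**SWAP-INCL**) : the swaps (Atkin–Lehner at `p`) at the two levels agree on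
  `q`-expansions;
* `h32_R1_lvl`, `h32_R2_lvl` : the valuation rings `O₁`, `O₂` and the reductions `red₁`, `red₂`
  at the two levels agree on `q`-expansions;
* `h32_toric_of_rep` : a class of level `M' p` with a representative `(E'', u'')`, `m E'' = div u''`,
  where `u''` has the `q`-expansion of a toric datum `u` of level `M p`, is toric;
* `h32_toric_pull` : `h29_Toric M p … m x → h29_Toric M' p … m (π^* x)` for the pull-back along ANY
  `q`-expansion-preserving embedding `F(M p) → F(M' p)`.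
-/

set_option autoImplicit false
set_option synthInstance.maxHeartbeats 400000

noncomputable section

open ModularCurve AlgebraicCurve IntermediateField

namespace Fermat.Agent.S40

open Fermat.Agent.S34 Fermat.Agent.S37 Fermat.Agent.S24 Fermat.Agent.S18 Fermat.Agent.S35

local notation "Qb" => AlgebraicClosure ℚ

/-- `F(M) ≤ F(M')` inside `ℚ̄((q))` for `M ∣ M'`. -/
theorem h32_bar_le {M M' : ℕ} [NeZero M] [NeZero M'] (h : M ∣ M') :
    modularFunctionFieldBar M ≤ modularFunctionFieldBar M' := by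
  obtain ⟨c, rfl⟩ := h
  have : NeZero c := ⟨fun h0 => NeZero.ne (M * c) (by rw [h0, mul_zero])⟩
  intro x hx
  have h1 := (heckeAlphaBar Qb M c ⟨x, hx⟩).2
  rwa [coe_heckeAlphaBar] at h1

section Lvl

variable (M M' p : ℕ) [NeZero M] [NeZero M'] [NeZero p] [hpf : Fact p.Prime]
  (hMM' : M ∣ M') (hpM : ¬ p ∣ M) (hpM' : ¬ p ∣ M')

include hMM' in
/-- **SWAP-INCL.** The swaps `w` of `F(M p)` and `w'` of `F(M' p)` agree on `q`-expansions:
if `g ∈ F(M' p)` has the `q`-expansion of `f ∈ F(M p)`, then `w' g` has the `q`-expansion of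
`w f`. -/
theorem h32_w_lvl (f : ↥(modularFunctionFieldBar (M * p)))
    (g : ↥(modularFunctionFieldBar (M' * p)))
    (hfg : (g : LaurentSeries Qb) = (f : LaurentSeries Qb)) :
    ((h60_w M' p hpM' g : ↥(modularFunctionFieldBar (M' * p))) : LaurentSeries Qb)
      = ((h60_w M p hpM f : ↥(modularFunctionFieldBar (M * p))) : LaurentSeries Qb) := by
  obtain ⟨c, rfl⟩ := h60_powerBasis M p hpf.out hpM f
  set c' : Fin (p + 1) → ↥(modularFunctionFieldBar M') :=
    fun i => ⟨((c i : ↥(modularFunctionFieldBar M)) : LaurentSeries Qb),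
      h32_bar_le hMM' (c i).2⟩ with hc'
  have hg : g = h60_comb M' p c' := by
    apply Subtype.ext
    rw [hfg, h60_coe_comb, h60_coe_comb]
  rw [hg]
  unfold h60_w
  rw [h60_coe_swap_comb, h60_coe_swap_comb]

set_option maxHeartbeats 1600000 in
/-- **(RED-LVL) for `R₁`** (no divisibility between `M` and `M'` is needed here). If `g ∈ F(M' p)` has the `q`-expansion of `f ∈ F(M p)`, then
`g ∈ O₁'' ↔ f ∈ O₁` and `red₁'' g`, `red₁ f` have the same `q`-expansion. -/
theorem h32_R1_lvl (A : ValuationSubring Qb) (hA : A.LiesOverPrime p)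
    (f : ↥(modularFunctionFieldBar (M * p))) (g : ↥(modularFunctionFieldBar (M' * p)))
    (hfg : (g : LaurentSeries Qb) = (f : LaurentSeries Qb)) :
    (g ∈ (h60_R1 M' p hpM' A hA).O ↔ f ∈ (h60_R1 M p hpM A hA).O) ∧
      (((h60_R1 M' p hpM' A hA).redF g :
          ↥(modularFunctionFieldFullC (IsLocalRing.ResidueField A) M')) :
            LaurentSeries (IsLocalRing.ResidueField A))
        = (((h60_R1 M p hpM A hA).redF f :
          ↥(modularFunctionFieldFullC (IsLocalRing.ResidueField A) M)) :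
            LaurentSeries (IsLocalRing.ResidueField A)) := by
  have hiff : g ∈ (h60_R1 M' p hpM' A hA).O ↔ f ∈ (h60_R1 M p hpM A hA).O := by
    rw [h60_R1_mem_iff_Os, h60_R1_mem_iff_Os, hfg]
  refine ⟨hiff, ?_⟩
  by_cases hf : f ∈ (h60_R1 M p hpM A hA).O
  · have hg : g ∈ (h60_R1 M' p hpM' A hA).O := hiff.mpr hf
    have key : ∀ s t : h60_Os A, (s : LaurentSeries Qb) = (t : LaurentSeries Qb) →
        h60_rs A s = h60_rs A t := fun s t h => congrArg (h60_rs A) (Subtype.ext h)
    have e1 : (((h60_R1 M' p hpM' A hA).redF g :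
          ↥(modularFunctionFieldFullC (IsLocalRing.ResidueField A) M')) :
            LaurentSeries (IsLocalRing.ResidueField A))
        = h60_rs A ⟨(g : LaurentSeries Qb), (h60_R1_mem_iff_Os M' p hpM' A hA g).mp hg⟩ := by
      rw [(h60_R1 M' p hpM' A hA).redF_of_mem hg]
      exact h60_R1_coe_red M' p hpM' A hA g hg
    have e2 : (((h60_R1 M p hpM A hA).redF f :
          ↥(modularFunctionFieldFullC (IsLocalRing.ResidueField A) M)) :
            LaurentSeries (IsLocalRing.ResidueField A))
        = h60_rs A ⟨(f : LaurentSeries Qb), (h60_R1_mem_iff_Os M p hpM A hA f).mp hf⟩ := by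
      rw [(h60_R1 M p hpM A hA).redF_of_mem hf]
      exact h60_R1_coe_red M p hpM A hA f hf
    exact e1.trans ((key _ _ hfg).trans e2.symm)
  · have hg : g ∉ (h60_R1 M' p hpM' A hA).O := fun h => hf (hiff.mp h)
    have e1 : (h60_R1 M' p hpM' A hA).redF g = 0 := h62_redF_of_not_mem _ hg
    have e2 : (h60_R1 M p hpM A hA).redF f = 0 := h62_redF_of_not_mem _ hf
    have e1' : (((h60_R1 M' p hpM' A hA).redF g :
          ↥(modularFunctionFieldFullC (IsLocalRing.ResidueField A) M')) :
            LaurentSeries (IsLocalRing.ResidueField A)) = 0 := by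
      rw [e1]; rfl
    have e2' : (((h60_R1 M p hpM A hA).redF f :
          ↥(modularFunctionFieldFullC (IsLocalRing.ResidueField A) M)) :
            LaurentSeries (IsLocalRing.ResidueField A)) = 0 := by
      rw [e2]; rfl
    exact e1'.trans e2'.symm

include hMM' in
/-- **(RED-LVL) for `R₂ = R₁ ∘ w`.** -/
theorem h32_R2_lvl (A : ValuationSubring Qb) (hA : A.LiesOverPrime p)
    (f : ↥(modularFunctionFieldBar (M * p))) (g : ↥(modularFunctionFieldBar (M' * p)))
    (hfg : (g : LaurentSeries Qb) = (f : LaurentSeries Qb)) :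
    (g ∈ (h60_R2 M' p hpM' A hA).O ↔ f ∈ (h60_R2 M p hpM A hA).O) ∧
      (((h60_R2 M' p hpM' A hA).redF g :
          ↥(modularFunctionFieldFullC (IsLocalRing.ResidueField A) M')) :
            LaurentSeries (IsLocalRing.ResidueField A))
        = (((h60_R2 M p hpM A hA).redF f :
          ↥(modularFunctionFieldFullC (IsLocalRing.ResidueField A) M)) :
            LaurentSeries (IsLocalRing.ResidueField A)) := by
  have h := h32_R1_lvl M M' p hpM hpM' A hA (h60_w M p hpM f) (h60_w M' p hpM' g)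
    (h32_w_lvl M M' p hMM' hpM hpM' f g hfg)
  rw [h60_R2_mem_iff, h60_R2_mem_iff, h60_R2_redF, h60_R2_redF]
  exact h

/-- `red = 1` transfers between the two levels (for `R₁`). -/
theorem h32_R1_one_lvl (A : ValuationSubring Qb) (hA : A.LiesOverPrime p)
    (f : ↥(modularFunctionFieldBar (M * p))) (g : ↥(modularFunctionFieldBar (M' * p)))
    (hfg : (g : LaurentSeries Qb) = (f : LaurentSeries Qb))
    (hf : f ∈ (h60_R1 M p hpM A hA).O ∧ (h60_R1 M p hpM A hA).redF f = 1) :
    g ∈ (h60_R1 M' p hpM' A hA).O ∧ (h60_R1 M' p hpM' A hA).redF g = 1 := by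
  obtain ⟨h1, h2⟩ := h32_R1_lvl M M' p hpM hpM' A hA f g hfg
  refine ⟨h1.mpr hf.1, Subtype.ext ?_⟩
  rw [h2, hf.2]
  rfl

include hMM' in
/-- **(C4), representative form.** Let `(E, u)` be a toric datum of level `M p` (as in
`h29_Toric`), and let `y` be a class of level `M' p` with a representative `E''`,
`m E'' = div u''`, where `u''` has the `q`-expansion of `u`.  Then `y` is toric. -/
theorem h32_toric_of_rep (A : ValuationSubring Qb) (hA : A.LiesOverPrime p) (m : ℕ)
    (u : ↥(modularFunctionFieldBar (M * p)))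
    (h1 : u ∈ (h60_R1 M p hpM A hA).O ∧ (h60_R1 M p hpM A hA).redF u = 1)
    (h2 : ∀ (a b : ℤ) (h : (p : ℤ) * a - (M : ℤ) * b = 1),
      h49_swapF h h78_iota hpf.out u ∈ (h60_R1 M p hpM A hA).O ∧
        (h60_R1 M p hpM A hA).redF (h49_swapF h h78_iota hpf.out u) = 1)
    (y : JZero (M' * p))
    (E'' : Divisor.degZero (K := Qb) (F := modularFunctionFieldBar (M' * p)))
    (u'' : ↥(modularFunctionFieldBar (M' * p))) (hu'' : u'' ≠ 0) (hy : Pic0.mk E'' = y)
    (hdiv : ∀ v : Place Qb (modularFunctionFieldBar (M' * p)),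
      (m : ℤ) * (E'' : Divisor Qb (modularFunctionFieldBar (M' * p))) v = v.ord u'')
    (hcoe : (u'' : LaurentSeries Qb) = (u : LaurentSeries Qb)) :
    h29_Toric M' p hpM' A hA m y := by
  refine ⟨E'', u'', hu'', hy, hdiv, h32_R1_one_lvl M M' p hpM hpM' A hA u u'' hcoe h1,
    fun a b hab => ?_⟩
  rw [h29_swapF_eq_w M' p hpM' hab]
  obtain ⟨a0, b0, hab0⟩ := h49_exists_bezout
    ((Nat.Prime.coprime_iff_not_dvd hpf.out).mpr hpM)
  have h3 := h2 a0 b0 hab0
  rw [h29_swapF_eq_w M p hpM hab0] at h3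
  exact h32_R1_one_lvl M M' p hpM hpM' A hA (h60_w M p hpM u) (h60_w M' p hpM' u'')
    (h32_w_lvl M M' p hMM' hpM hpM' u u'' hcoe) h3

include hMM' in
/-- **(C4): toric classes are preserved by pull-back to a multiple level.**  For ANY
`q`-expansion-preserving embedding `ι : F(M p) → F(M' p)` (`M ∣ M'`, `p ∤ M'`), the pull-back
`π^* = h87_pullPic0 ι` maps the toric classes of level `(M, p)` to toric classes of level
`(M', p)`. -/
theorem h32_toric_pull [HasPrincipalDivisors Qb ↥(modularFunctionFieldBar (M' * p))]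
    (ι : ↥(modularFunctionFieldBar (M * p)) →ₐ[Qb] ↥(modularFunctionFieldBar (M' * p)))
    (hcoe : ∀ f : ↥(modularFunctionFieldBar (M * p)),
      ((ι f : ↥(modularFunctionFieldBar (M' * p))) : LaurentSeries Qb) = (f : LaurentSeries Qb))
    (hι : ι.toRingHom.IsIntegral) (hFI : FundamentalIdentityAlong Qb ι hι)
    (A : ValuationSubring Qb) (hA : A.LiesOverPrime p) (m : ℕ) (x : JZero (M * p))
    (hx : h29_Toric M p hpM A hA m x) :
    h29_Toric M' p hpM' A hA m (h87_pullPic0 ι hι hFI x) := by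
  obtain ⟨E, u, hu, hE, hdiv, h1, h2⟩ := hx
  refine h32_toric_of_rep M M' p hMM' hpM hpM' A hA m u h1 h2 _
    (h87_pullDegZero ι hι hFI E) (ι u) ((map_ne_zero ι).mpr hu) ?_ ?_ (hcoe u)
  · rw [← hE, h87_pullPic0_mk]
  · intro W
    have h3 : ∀ P : Place Qb ↥(modularFunctionFieldBar (M * p)),
        ((m : ℤ) • (E : Divisor Qb ↥(modularFunctionFieldBar (M * p)))) P = P.ord u := by
      intro P
      rw [← hdiv P]
      simp
    have h4 := h87_pullbackAlong_isDiv ι hι h3 W
    rw [← h4, h87_coe_pullDegZero, map_zsmul]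
    simp

end Lvl

end Fermat.Agent.S40

end
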