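import Mathlib
import Fermat.Agent.S40.h32_ToricLvl
import Fermat.Agent.S40.h55_AuxUpCast
import Fermat.Agent.S40.h92_RepShift
import Fermat.Agent.S18.h54_ModLevel
import Fermat.Agent.S27.h64_SpecRed

/-!
# S40 / S44, the thin-level tail (helper77): adapters

Levels `M p` and `(M r) p` (`p ∤ M r`), `A` over `p`, `R₁ = h60_R1 M p`, `R₁'' = h60_R1 (M r) p`.

* `h77_toric_auxUp` : toric classes of level `(M, p)` are mapped to toric classes of level
  `(M r, p)` by the auxiliary level map `h55_auxUp`.
* `h77_isRUnit_lvl` : units of `R₁` stay units of `R₁''` (same `q`-expansion).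
* `h77_rord_auxIncl` : the normalised residue order of `h55_auxIncl u` at the thin level is the
  order of the reduction of `c u` (any unit scaling `c u` at level `(M, p)`), read at the thin
  level.
* `h77_tail_thin_of` : the thin-level tail with the two missing rows (descent `hdesc`, tail at
  level `(M, p)` `htail`) as hypotheses: (TR-MAIN) for ONE representative of `h55_auxUp x`
  implies that `h55_auxUp x` is toric.
-/

set_option autoImplicit false
set_option synthInstance.maxHeartbeats 400000

noncomputable section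

open AlgebraicCurve ModularCurve IntermediateField

namespace Fermat.Agent.S40

open Fermat.Agent.S18 Fermat.Agent.S24 Fermat.Agent.S27 Fermat.Agent.S37 Fermat.Agent.S34
  Fermat.Agent.S35

local notation "Qb" => AlgebraicClosure ℚ

section Thin

variable (M p r : ℕ) [NeZero M] [NeZero p] [NeZero r] [hpf : Fact p.Prime]
  (hpM : ¬ p ∣ M) (hpMr : ¬ p ∣ M * r)
  (A : ValuationSubring Qb) (hA : A.LiesOverPrime p)

/-- **(C4), class form for `h55_auxUp`.** Toric classes of level `(M, p)` go to toric classes of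
level `(M r, p)` under the auxiliary level map. -/
theorem h77_toric_auxUp (m : ℕ) (x : JZero (M * p)) (hx : h29_Toric M p hpM A hA m x) :
    h29_Toric (M * r) p hpMr A hA m (h55_auxUp M p r x) := by
  obtain ⟨E, u, hu, hE, hdiv, h1, h2⟩ := hx
  obtain ⟨E'', hE'', hdiv''⟩ := h55_auxUp_rep M p r E (m : ℤ) u hdiv
  exact h32_toric_of_rep M (M * r) p (Dvd.intro r rfl) hpM hpMr A hA m u h1 h2 _ E''
    (h55_auxIncl M p r u) ((map_ne_zero _).mpr hu) (by rw [← hE, hE'']) hdiv''
    (h55_coe_auxIncl M p r u)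

/-- Units of `R₁` at level `(M, p)` are units of `R₁''` at level `(M r, p)` (same
`q`-expansion). -/
theorem h77_isRUnit_lvl (f : ↥(modularFunctionFieldBar (M * p)))
    (g : ↥(modularFunctionFieldBar (M * r * p)))
    (hfg : (g : LaurentSeries Qb) = (f : LaurentSeries Qb))
    (hf : h43_IsRUnit (h60_R1 M p hpM A hA) f) :
    h43_IsRUnit (h60_R1 (M * r) p hpMr A hA) g := by
  obtain ⟨hf0, hfO, hfi⟩ := hf
  refine ⟨?_, ?_, ?_⟩
  · intro hg0
    apply hf0
    apply Subtype.ext
    rw [← hfg, hg0, ZeroMemClass.coe_zero, ZeroMemClass.coe_zero]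
  · exact (h32_R1_lvl M (M * r) p hpM hpMr A hA f g hfg).1.mpr hfO
  · refine (h32_R1_lvl M (M * r) p hpM hpMr A hA f⁻¹ g⁻¹ ?_).1.mpr hfi
    rw [IntermediateField.coe_inv, IntermediateField.coe_inv, hfg]

/-- The normalised residue order of `h55_auxIncl u` at the thin level, computed through a unit
scaling at level `(M, p)`. -/
theorem h77_rord_auxIncl (u : ↥(modularFunctionFieldBar (M * p))) (c : Qb)
    (hc : h43_IsRUnit (h60_R1 M p hpM A hA)
      (algebraMap Qb ↥(modularFunctionFieldBar (M * p)) c * u))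
    (Q'' : Place (IsLocalRing.ResidueField A)
      ↥(modularFunctionFieldFullC (IsLocalRing.ResidueField A) (M * r))) :
    h43_rord (h60_R1 (M * r) p hpMr A hA) Q'' (h55_auxIncl M p r u)
      = Q''.ord (⟨(((h60_R1 M p hpM A hA).redF
            (algebraMap Qb ↥(modularFunctionFieldBar (M * p)) c * u) :
            ↥(modularFunctionFieldFullC (IsLocalRing.ResidueField A) M)) :
            LaurentSeries (IsLocalRing.ResidueField A)),
          full_degeneracyC_le (IsLocalRing.ResidueField A) (dvd_mul_right M r)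
            ((h60_R1 M p hpM A hA).redF
              (algebraMap Qb ↥(modularFunctionFieldBar (M * p)) c * u)).2⟩ :
          ↥(modularFunctionFieldFullC (IsLocalRing.ResidueField A) (M * r))) := by
  have hcoe : (((algebraMap Qb ↥(modularFunctionFieldBar (M * r * p)) c * h55_auxIncl M p r u :
      ↥(modularFunctionFieldBar (M * r * p))) : LaurentSeries Qb))
      = ((algebraMap Qb ↥(modularFunctionFieldBar (M * p)) c * u :
      ↥(modularFunctionFieldBar (M * p))) : LaurentSeries Qb) := by
    have h1 : algebraMap Qb ↥(modularFunctionFieldBar (M * r * p)) c * h55_auxIncl M p r u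
        = h55_auxIncl M p r (algebraMap Qb ↥(modularFunctionFieldBar (M * p)) c * u) := by
      rw [map_mul, AlgHom.commutes]
    rw [h1, h55_coe_auxIncl]
  have hu'' := h77_isRUnit_lvl M p r hpM hpMr A hA _ _ hcoe hc
  rw [h43_rord_eq (h60_R1 (M * r) p hpMr A hA) Q'' hu'']
  congr 1
  apply Subtype.ext
  exact (h32_R1_lvl M (M * r) p hpM hpMr A hA _ _ hcoe).2

set_option maxHeartbeats 1600000 in
/-- **The thin-level tail, modulo two rows.**  `x` a `p`-torsion class of level `(M, p)`.
Hypotheses: `hdesc` (TOP-D, descent of `p ∣ ord` from `F̄(M r)` to `F̄(M)`), `htail` (the tail at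
level `(M, p)`: `p ∣ ord_Q red₁ (c₁ u)` for all `Q` implies `x` toric), and (TR-MAIN) `hTR` for ONE
representative `(E'', u'')` of `h55_auxUp x` at the thin level.  Then `h55_auxUp x` is toric. -/
theorem h77_tail_thin_of (x : JZero (M * p)) (hpx : p • x = 0)
    (hdesc : ∀ (g : LaurentSeries (IsLocalRing.ResidueField A))
      (hg : g ∈ modularFunctionFieldFullC (IsLocalRing.ResidueField A) M),
      (∀ w : Place (IsLocalRing.ResidueField A)
          ↥(modularFunctionFieldFullC (IsLocalRing.ResidueField A) (M * r)),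
        (p : ℤ) ∣ w.ord ⟨g, full_degeneracyC_le (IsLocalRing.ResidueField A)
          (dvd_mul_right M r) hg⟩) →
      ∀ v : Place (IsLocalRing.ResidueField A)
          ↥(modularFunctionFieldFullC (IsLocalRing.ResidueField A) M), (p : ℤ) ∣ v.ord ⟨g, hg⟩)
    (htail : ∀ (E : Divisor.degZero (K := Qb) (F := modularFunctionFieldBar (M * p)))
      (_ : Pic0.mk E = x) (u : ↥(modularFunctionFieldBar (M * p))) (_ : u ≠ 0)
      (_ : ∀ v : Place Qb (modularFunctionFieldBar (M * p)),
        (p : ℤ) * (E : Divisor Qb (modularFunctionFieldBar (M * p))) v = v.ord u)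
      (c₁ : Qb)
      (_ : algebraMap Qb ↥(modularFunctionFieldBar (M * p)) c₁ * u ∈ (h60_R1 M p hpM A hA).O)
      (_ : (h60_R1 M p hpM A hA).redF
        (algebraMap Qb ↥(modularFunctionFieldBar (M * p)) c₁ * u) ≠ 0)
      (_ : ∀ Q : Place (IsLocalRing.ResidueField A)
          ↥(modularFunctionFieldFullC (IsLocalRing.ResidueField A) M),
        (p : ℤ) ∣ Q.ord ((h60_R1 M p hpM A hA).redF
          (algebraMap Qb ↥(modularFunctionFieldBar (M * p)) c₁ * u))),
      h29_Toric M p hpM A hA p x)
    (hTR : ∃ (E'' : Divisor.degZero (K := Qb) (F := modularFunctionFieldBar (M * r * p)))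
      (u'' : ↥(modularFunctionFieldBar (M * r * p))), u'' ≠ 0 ∧
      Pic0.mk E'' = h55_auxUp M p r x ∧
      (∀ v : Place Qb (modularFunctionFieldBar (M * r * p)),
        (p : ℤ) * (E'' : Divisor Qb (modularFunctionFieldBar (M * r * p))) v = v.ord u'') ∧
      ∀ Q'' : Place (IsLocalRing.ResidueField A)
          ↥(modularFunctionFieldFullC (IsLocalRing.ResidueField A) (M * r)),
        (p : ℤ) ∣ h43_rord (h60_R1 (M * r) p hpMr A hA) Q'' u'') :
    h29_Toric (M * r) p hpMr A hA p (h55_auxUp M p r x) := by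
  obtain ⟨E, rfl⟩ := Pic0.mk_surjective x
  -- a function `u` with `div u = p E`
  have h1 : p • (Pic0.mk E : Pic0 Qb (modularFunctionFieldBar (M * p))) = Pic0.mk (p • E) := rfl
  rw [h1] at hpx
  have hprin := AddSubgroup.mem_addSubgroupOf.mp ((QuotientAddGroup.eq_zero_iff _).mp hpx)
  obtain ⟨u, hu, hdivu⟩ := hprin
  have hdiv : ∀ v : Place Qb (modularFunctionFieldBar (M * p)),
      (p : ℤ) * (E : Divisor Qb (modularFunctionFieldBar (M * p))) v = v.ord u := by
    intro v
    rw [← hdivu v]
    simp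
  -- the pulled-back representative at the thin level
  obtain ⟨E₂, hE₂, hdiv₂⟩ := h55_auxUp_rep M p r E (p : ℤ) u hdiv
  obtain ⟨E'', u'', hu'', hE'', hdiv'', hdvd''⟩ := hTR
  have hcls : (Pic0.mk E₂ : Pic0 Qb (modularFunctionFieldBar (M * r * p))) = Pic0.mk E'' := by
    rw [hE'', hE₂]
  have hprin2 := AddSubgroup.mem_addSubgroupOf.mp ((QuotientAddGroup.eq (s :=
    (Divisor.principal (K := Qb) (F := modularFunctionFieldBar (M * r * p))).addSubgroupOf
      (Divisor.degZero (K := Qb) (F := modularFunctionFieldBar (M * r * p))))).mp hcls)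
  obtain ⟨g, hg, hgE⟩ := hprin2
  have hrel : ∀ v : Place Qb (modularFunctionFieldBar (M * r * p)),
      (E'' : Divisor Qb (modularFunctionFieldBar (M * r * p))) v
        = (E₂ : Divisor Qb (modularFunctionFieldBar (M * r * p))) v + v.ord g := by
    intro v
    rw [← hgE v]
    simp
  have hconst : ∀ f : ↥(modularFunctionFieldBar (M * r * p)), f ≠ 0 →
      (∀ v : Place Qb (modularFunctionFieldBar (M * r * p)), v.ord f = 0) →
      ∃ c : Qb, f = algebraMap Qb ↥(modularFunctionFieldBar (M * r * p)) c :=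
    fun f _ h => h64_const_of_ord_eq_zero (h54_isChart_jbar (M * r * p)) f h
  have hu₂ : h55_auxIncl M p r u ≠ 0 := (map_ne_zero _).mpr hu
  have hdvd₂ : ∀ Q'' : Place (IsLocalRing.ResidueField A)
      ↥(modularFunctionFieldFullC (IsLocalRing.ResidueField A) (M * r)),
      (p : ℤ) ∣ h43_rord (h60_R1 (M * r) p hpMr A hA) Q'' (h55_auxIncl M p r u) := fun Q'' =>
    (h92_rord_dvd_rep (h60_R1 (M * r) p hpMr A hA) Q'' hconst p
      (E'' : Divisor Qb (modularFunctionFieldBar (M * r * p)))
      (E₂ : Divisor Qb (modularFunctionFieldBar (M * r * p))) hu'' hu₂ hg hdiv'' hdiv₂ hrel).mp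
      (hdvd'' Q'')
  -- unit scaling at level `(M, p)` and descent
  obtain ⟨c, -, hcu, -⟩ := h43_rred_spec (h60_R1 M p hpM A hA) hu
  have hdvd : ∀ Q : Place (IsLocalRing.ResidueField A)
      ↥(modularFunctionFieldFullC (IsLocalRing.ResidueField A) M),
      (p : ℤ) ∣ Q.ord ((h60_R1 M p hpM A hA).redF
        (algebraMap Qb ↥(modularFunctionFieldBar (M * p)) c * u)) := by
    intro Q
    exact hdesc _ ((h60_R1 M p hpM A hA).redF
        (algebraMap Qb ↥(modularFunctionFieldBar (M * p)) c * u)).2
      (fun w => by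
        rw [← h77_rord_auxIncl M p r hpM hpMr A hA u c hcu w]
        exact hdvd₂ w) Q
  have htor := htail E rfl u hu hdiv c hcu.2.1 (h43_redF_unit_ne_zero _ hcu) hdvd
  exact h77_toric_auxUp M p r hpM hpMr A hA p _ htor

end Thin

end Fermat.Agent.S40

end
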