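import Mathlib
import Fermat.Agent.S40.h77_TailThin
import Fermat.Agent.S40.h54_Tail
import Fermat.Agent.S40.h54_AuxDown

/-!
# S40 / S44, the thin-level tail, closed (helper77)

`h77_tail_thin` : levels `(M, p)` and `(M r, p)`, `r` a prime not dividing `M`, `p ∤ M r`,
`p ∤ r + 1`, `M` charted; `W` NOT residually modular of level `M` at `p`; `x` a `p`-torsion
`a_ℓ(W)`-eigenclass of `J₀(M p)`.  If (TR-MAIN) holds for ONE representative `(E'', u'')` of the
class `h55_auxUp x` at the thin level `(M r, p)` (first component: `p ∣ h43_rord R₁'' Q'' u''` for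
every place `Q''` of `F̄(M r)`), then `h55_auxUp x` is toric at level `(M r, p)`.

This is the composition (change of representative) + (TOP-D descent, `h54_fb_p_dvd_descend`)
+ (tail at level `(M, p)`, `h54_tail` = BRIDGE + C2-NEW + TRIV ⟹ TORIC) + (C4, toric classes
pull back, `h77_toric_auxUp`), i.e. the step of the core that contradicts the clause
`¬ h29_Toric (M r) p .. (φ x)` of `h67_front_peu` at `φ = h55_auxUp ∘ ι`.
-/

set_option autoImplicit false
set_option synthInstance.maxHeartbeats 400000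

noncomputable section

open AlgebraicCurve ModularCurve IntermediateField

namespace Fermat.Agent.S40

open Fermat.Agent.S18 Fermat.Agent.S24 Fermat.Agent.S27 Fermat.Agent.S37 Fermat.Agent.S34
  Fermat.Agent.S35

local notation "Qb" => AlgebraicClosure ℚ

/-- **The thin-level tail.** -/
theorem h77_tail_thin (M p r : ℕ) [NeZero M] [NeZero p] [NeZero r] [Fact p.Prime]
    (hpM : ¬ p ∣ M) (hpMr : ¬ p ∣ M * r) (hr : r.Prime) (hrM : ¬ r ∣ M) (hpr : ¬ p ∣ r + 1)
    (hch : 5 ≤ p ∨ 2 ∣ M ∨ 3 ∣ M)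
    (A : ValuationSubring Qb) (hA : A.LiesOverPrime p)
    (W : WeierstrassCurve ℤ) (hnot : ¬ W.IsResiduallyModularOfLevel p M)
    (x : JZero (M * p)) (hpx : p • x = 0)
    (hT : ∀ (ℓ : ℕ) (hℓ : ℓ.Prime), W.IsGoodPrimeFor ℓ → ¬ ℓ ∣ M * p → ℓ ≠ p →
      heckeOperatorBar (M * p) ⟨ℓ, hℓ⟩ x = W.apOfModel ℓ • x)
    (hTR : ∃ (E'' : Divisor.degZero (K := Qb) (F := modularFunctionFieldBar (M * r * p)))
      (u'' : ↥(modularFunctionFieldBar (M * r * p))), u'' ≠ 0 ∧
      Pic0.mk E'' = h55_auxUp M p r x ∧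
      (∀ v : Place Qb (modularFunctionFieldBar (M * r * p)),
        (p : ℤ) * (E'' : Divisor Qb (modularFunctionFieldBar (M * r * p))) v = v.ord u'') ∧
      ∀ Q'' : Place (IsLocalRing.ResidueField A)
          ↥(modularFunctionFieldFullC (IsLocalRing.ResidueField A) (M * r)),
        (p : ℤ) ∣ h43_rord (h60_R1 (M * r) p hpMr A hA) Q'' u'') :
    h29_Toric (M * r) p hpMr A hA p (h55_auxUp M p r x) :=
  h77_tail_thin_of M p r hpM hpMr A hA x hpx
    (fun g hg h v => h54_fb_p_dvd_descend M r A hA hpMr hr hrM hpr g hg _ h v)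
    (fun E hxE u hu hdiv c₁ hc₁u hne hdvd =>
      h54_tail M p hpM A hA hch W hnot x E hxE u hu hdiv hT c₁ hc₁u hne hdvd)
    hTR

/-- **The thin-level tail, contrapositive form for the core**: if `h55_auxUp x` is NOT toric at
the thin level, then NO representative of `h55_auxUp x` satisfies (TR-MAIN). -/
theorem h77_tail_thin_not (M p r : ℕ) [NeZero M] [NeZero p] [NeZero r] [Fact p.Prime]
    (hpM : ¬ p ∣ M) (hpMr : ¬ p ∣ M * r) (hr : r.Prime) (hrM : ¬ r ∣ M) (hpr : ¬ p ∣ r + 1)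
    (hch : 5 ≤ p ∨ 2 ∣ M ∨ 3 ∣ M)
    (A : ValuationSubring Qb) (hA : A.LiesOverPrime p)
    (W : WeierstrassCurve ℤ) (hnot : ¬ W.IsResiduallyModularOfLevel p M)
    (x : JZero (M * p)) (hpx : p • x = 0)
    (hT : ∀ (ℓ : ℕ) (hℓ : ℓ.Prime), W.IsGoodPrimeFor ℓ → ¬ ℓ ∣ M * p → ℓ ≠ p →
      heckeOperatorBar (M * p) ⟨ℓ, hℓ⟩ x = W.apOfModel ℓ • x)
    (hntor : ¬ h29_Toric (M * r) p hpMr A hA p (h55_auxUp M p r x))
    (E'' : Divisor.degZero (K := Qb) (F := modularFunctionFieldBar (M * r * p)))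
    (u'' : ↥(modularFunctionFieldBar (M * r * p))) (hu'' : u'' ≠ 0)
    (hE'' : Pic0.mk E'' = h55_auxUp M p r x)
    (hdiv'' : ∀ v : Place Qb (modularFunctionFieldBar (M * r * p)),
      (p : ℤ) * (E'' : Divisor Qb (modularFunctionFieldBar (M * r * p))) v = v.ord u'') :
    ∃ Q'' : Place (IsLocalRing.ResidueField A)
        ↥(modularFunctionFieldFullC (IsLocalRing.ResidueField A) (M * r)),
      ¬ (p : ℤ) ∣ h43_rord (h60_R1 (M * r) p hpMr A hA) Q'' u'' := by
  by_contra hcon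
  exact hntor (h77_tail_thin M p r hpM hpMr hr hrM hpr hch A hA W hnot x hpx hT
    ⟨E'', u'', hu'', hE'', hdiv'', fun Q'' => by_contra fun h => hcon ⟨Q'', h⟩⟩)

end Fermat.Agent.S40

end
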