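import Mathlib
import Fermat.Agent.S40.h31_RowsB
import Fermat.Agent.S40.h77_TailThinTop

/-!
# S40 / S44: the core theorem, assembled through the ord-form route (helper31)

`h31_core` has the frozen header of the core theorem of the S44 top (`h37_core`, the `hcore`
binder of `h30_S44_light_of_h37core`): for a prime `p ≥ 5`, `p ∥ M`, an elliptic curve `E / ℚ`
with integral model `W`, irreducible mod-`p` representation and the E-side hypothesis
`h37_ESide E p`, residual modularity of level `M` implies residual modularity of level `M / p`.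

Proof: `h67_core_of_rows` (helper67) with the rows `h31_rows` (W6 + W7 + W8 + T8, ord-form
route) and the thin-level tail `h77_tail_thin` (helper77).
-/

set_option autoImplicit false
set_option synthInstance.maxHeartbeats 400000

noncomputable section

open AlgebraicCurve ModularCurve
open WeierstrassCurve WeierstrassCurve.Affine WeierstrassCurve.Affine.Point

namespace Fermat.Agent.S40

/-- **The core theorem of S44** (ord-form assembly). -/
theorem h31_core (E : WeierstrassCurve ℚ) [E.IsElliptic] {W : WeierstrassCurve ℤ}
    (hW : W.IsIntegralModelOf E) {p M : ℕ} (hp : p.Prime) (hp5 : 5 ≤ p) (hM : 0 < M)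
    (hpM : p ∣ M) (hp2M : ¬ p ^ 2 ∣ M)
    (hirr : GaloisRepIsIrreducible (K := AlgebraicClosure ℚ) ℚ E p)
    (hE : h37_ESide E p) (hmod : W.IsResiduallyModularOfLevel p M) :
    W.IsResiduallyModularOfLevel p (M / p) := by
  have : Fact p.Prime := Fact.mk hp
  have : NeZero p := ⟨hp.ne_zero⟩
  refine h67_core_of_rows E hW hp5 hM hpM hp2M hirr hE 0 ?_ ?_ hmod
  · intro M' r _ _ hMeq hpM' hr hBr hr12 hrMp hpr hpMr A hA hnot
    exact h31_rows E hW M' p r hp5 hirr hr hr12 hpMr A hA
  · intro M' r _ _ hMeq hpM' hr hBr hr12 hrMp hpr hpMr A hA hnot x hpx hT hTR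
    exact h77_tail_thin M' p r hpM' hpMr hr (fun h => hrMp (Dvd.dvd.mul_right h p)) hpr
      (Or.inl hp5) A hA W hnot x hpx hT hTR

end Fermat.Agent.S40

end
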