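import Mathlib
import Fermat.Agent.S40.h55_AuxUpCast
import Fermat.Agent.S40.h32_ToricLvl

/-!
# S40/S44, row TOP-C (C4): the auxiliary level map `h55_auxUp` preserves toric classes

`h32_auxUp_toric` : `h29_Toric M p … m x → h29_Toric (M * r) p … m (h55_auxUp M p r x)`
(`r` ANY positive integer with `p ∤ M r`; `m` any exponent).

`h32_aux_package` : helper55's one-stop statement `h55_aux_package` with the toric clause added.
-/

set_option autoImplicit false
set_option synthInstance.maxHeartbeats 400000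

noncomputable section

open ModularCurve AlgebraicCurve

namespace Fermat.Agent.S40

open Fermat.Agent.S34 Fermat.Agent.S37 Fermat.Agent.S35

local notation "Qb" => AlgebraicClosure ℚ
local notation "Γℚ" => (AlgebraicClosure ℚ ≃ₐ[ℚ] AlgebraicClosure ℚ)

/-- **TOP-C (C4).** The auxiliary level map `J₀(M p) → J₀((M r) p)` maps the toric classes of
level `(M, p)` at `A` (exponent `m`) to toric classes of level `(M r, p)` at `A`. -/
theorem h32_auxUp_toric (M p r : ℕ) [NeZero M] [NeZero p] [NeZero r] [Fact p.Prime]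
    (hpM : ¬ p ∣ M) (hpMr : ¬ p ∣ M * r) (A : ValuationSubring Qb) (hA : A.LiesOverPrime p)
    (m : ℕ) (x : JZero (M * p)) (hx : h29_Toric M p hpM A hA m x) :
    h29_Toric (M * r) p hpMr A hA m (h55_auxUp M p r x) := by
  obtain ⟨E, u, hu, hE, hdiv, h1, h2⟩ := hx
  obtain ⟨D'', hD, hW⟩ := h55_auxUp_rep M p r E (m : ℤ) u hdiv
  refine h32_toric_of_rep M (M * r) p (dvd_mul_right M r) hpM hpMr A hA m u h1 h2 _ D''
    (h55_auxIncl M p r u) ((map_ne_zero (h55_auxIncl M p r)).mpr hu) ?_ hW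
    (h55_coe_auxIncl M p r u)
  rw [← hE, hD]

/-- **TOP-C (AUX-UP), one statement, with the toric clause.**  For primes `p ∤ M` and `r ∤ M p`
the auxiliary level map `φ = h55_auxUp M p r : J₀(M p) → J₀((M r) p)` is injective on torsion,
Galois-equivariant, commutes with `T_ℓ` on `m`-torsion (`ℓ ∤ M p r m`), preserves `p`-new torsion
classes and toric classes (at every `A` over `p`, every exponent). -/
theorem h32_aux_package (M p r : ℕ) [NeZero M] [NeZero p] [NeZero r] [Fact p.Prime]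
    (hpM : ¬ p ∣ M) (hr : r.Prime) (hrMp : ¬ r ∣ M * p) (hpMr : ¬ p ∣ M * r) :
    ∃ φ : JZero (M * p) →+ JZero (M * r * p),
      (∀ n : ℕ, 0 < n → ∀ x : JZero (M * p), n • x = 0 → φ x = 0 → x = 0) ∧
      (∀ (σ : Γℚ) (x : JZero (M * p)), φ (σ • x) = σ • φ x) ∧
      (∀ (m : ℕ) (ℓ : Nat.Primes), ¬ (ℓ : ℕ) ∣ M * p * r * m → ∀ x : JZero (M * p), m • x = 0 →
        heckeOperatorBar (M * r * p) ℓ (φ x) = φ (heckeOperatorBar (M * p) ℓ x)) ∧
      (∀ n : ℕ, 0 < n → ∀ x : JZero (M * p), n • x = 0 → h67_Jnew M p x →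
        h67_Jnew (M * r) p (φ x)) ∧
      (∀ (A : ValuationSubring Qb) (hA : A.LiesOverPrime p) (m : ℕ) (x : JZero (M * p)),
        h29_Toric M p hpM A hA m x → h29_Toric (M * r) p hpMr A hA m (φ x)) :=
  ⟨h55_auxUp M p r,
    fun n hn x hx h0 => h55_auxUp_inj M p r hr hrMp n hn x hx h0,
    h55_auxUp_smul M p r,
    fun m ℓ hℓ x hx => h55_auxUp_hecke M p r m ℓ hℓ x hx,
    fun n hn x hx hnew =>
      h55_auxUp_new M p r (Fact.out : p.Prime) hpM hr hrMp n hn x hx hnew,
    fun A hA m x hx => h32_auxUp_toric M p r hpM hpMr A hA m x hx⟩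

end Fermat.Agent.S40

end
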