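import Mathlib
import Fermat.Agent.S40.h92_TRFront
import Fermat.Agent.S40.h55_AuxUpCast
import Fermat.Agent.S40.h32_ToricLvl

/-!
# S40/S44, row TOP-D (AUX-DOWN), row O7: (TR-MAIN) descends from level `(M r, p)` to level `(M, p)`

`h32_trProp_descend` : if the class `h55_auxUp M p r x` of level `(M r) p` satisfies the
conclusion `h92_TRProp` of (TR-MAIN), then so does the `p`-torsion class `x` of level `M p`.

The only input which is not a formal consequence of the `q`-expansion description of the two
reduction data (`h32_R1_lvl`, `h32_R2_lvl`) is the descent of `p`-divisibility of divisors along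
the residue-field extension `Fb(M) ⊆ Fb(M r)` (degree `r + 1`, prime to `p`); it is the
hypothesis `hdesc`.
-/

set_option autoImplicit false
set_option synthInstance.maxHeartbeats 400000
set_option linter.unusedSectionVars false

noncomputable section

open ModularCurve AlgebraicCurve

namespace Fermat.Agent.S40

open Fermat.Agent.S34 Fermat.Agent.S37 Fermat.Agent.S35 Fermat.Agent.S18

local notation "Qb" => AlgebraicClosure ℚ

section Descend

variable (M p r : ℕ) [NeZero M] [NeZero p] [NeZero r] [hpf : Fact p.Prime]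
  (hpM : ¬ p ∣ M) (hpMr : ¬ p ∣ M * r) (A : ValuationSubring Qb) (hA : A.LiesOverPrime p)

/-- A unit of `R` at level `(M, p)` stays a unit at level `(M r, p)`, generic form: `R`, `R''`
two reduction data whose valuation rings correspond under `f ↦ g` (same `q`-expansion). -/
theorem h32_isRUnit_lvl
    (R : h39_RedDatum Qb ↥(modularFunctionFieldBar (M * p)) (IsLocalRing.ResidueField A)
      ↥(modularFunctionFieldFullC (IsLocalRing.ResidueField A) M))
    (R'' : h39_RedDatum Qb ↥(modularFunctionFieldBar (M * r * p)) (IsLocalRing.ResidueField A)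
      ↥(modularFunctionFieldFullC (IsLocalRing.ResidueField A) (M * r)))
    (hmem : ∀ (f : ↥(modularFunctionFieldBar (M * p)))
      (g : ↥(modularFunctionFieldBar (M * r * p))),
      (g : LaurentSeries Qb) = (f : LaurentSeries Qb) → (g ∈ R''.O ↔ f ∈ R.O))
    (f : ↥(modularFunctionFieldBar (M * p))) (hf : h43_IsRUnit R f) :
    h43_IsRUnit R'' (h55_auxIncl M p r f) := by
  refine ⟨(map_ne_zero (h55_auxIncl M p r)).mpr hf.1,
    (hmem f _ (h55_coe_auxIncl M p r f)).mpr hf.2.1, ?_⟩
  rw [← map_inv₀]
  exact (hmem f⁻¹ _ (h55_coe_auxIncl M p r f⁻¹)).mpr hf.2.2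

set_option maxHeartbeats 3200000 in
/-- The descent step for one reduction datum, generic form. -/
theorem h32_rord_descend
    (R : h39_RedDatum Qb ↥(modularFunctionFieldBar (M * p)) (IsLocalRing.ResidueField A)
      ↥(modularFunctionFieldFullC (IsLocalRing.ResidueField A) M))
    (R'' : h39_RedDatum Qb ↥(modularFunctionFieldBar (M * r * p)) (IsLocalRing.ResidueField A)
      ↥(modularFunctionFieldFullC (IsLocalRing.ResidueField A) (M * r)))
    (hlvl : ∀ (f : ↥(modularFunctionFieldBar (M * p)))
      (g : ↥(modularFunctionFieldBar (M * r * p))),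
      (g : LaurentSeries Qb) = (f : LaurentSeries Qb) →
        (g ∈ R''.O ↔ f ∈ R.O) ∧
        ((R''.redF g : ↥(modularFunctionFieldFullC (IsLocalRing.ResidueField A) (M * r))) :
            LaurentSeries (IsLocalRing.ResidueField A))
          = ((R.redF f : ↥(modularFunctionFieldFullC (IsLocalRing.ResidueField A) M)) :
            LaurentSeries (IsLocalRing.ResidueField A)))
    (hdesc : ∀ (g : LaurentSeries (IsLocalRing.ResidueField A))
      (hg : g ∈ modularFunctionFieldFullC (IsLocalRing.ResidueField A) M)
      (hg'' : g ∈ modularFunctionFieldFullC (IsLocalRing.ResidueField A) (M * r)),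
      (∀ w : Place (IsLocalRing.ResidueField A)
          ↥(modularFunctionFieldFullC (IsLocalRing.ResidueField A) (M * r)),
        (p : ℤ) ∣ w.ord ⟨g, hg''⟩) →
      ∀ v : Place (IsLocalRing.ResidueField A)
          ↥(modularFunctionFieldFullC (IsLocalRing.ResidueField A) M),
        (p : ℤ) ∣ v.ord ⟨g, hg⟩)
    (u : ↥(modularFunctionFieldBar (M * p))) (hu : u ≠ 0)
    (h : ∀ Q'' : Place (IsLocalRing.ResidueField A)
        ↥(modularFunctionFieldFullC (IsLocalRing.ResidueField A) (M * r)),
      (p : ℤ) ∣ h43_rord R'' Q'' (h55_auxIncl M p r u))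
    (Q : Place (IsLocalRing.ResidueField A)
      ↥(modularFunctionFieldFullC (IsLocalRing.ResidueField A) M)) :
    (p : ℤ) ∣ h43_rord R Q u := by
  obtain ⟨c, -, hunit, -⟩ := h43_rred_spec R hu
  have hunit'' : h43_IsRUnit R''
      (algebraMap Qb ↥(modularFunctionFieldBar (M * r * p)) c * h55_auxIncl M p r u) := by
    have h1 := h32_isRUnit_lvl M p r A R R'' (fun f g hfg => (hlvl f g hfg).1) _ hunit
    rwa [map_mul, AlgHom.commutes] at h1
  have hcoe : ((R''.redF (algebraMap Qb ↥(modularFunctionFieldBar (M * r * p)) c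
        * h55_auxIncl M p r u) :
        ↥(modularFunctionFieldFullC (IsLocalRing.ResidueField A) (M * r))) :
          LaurentSeries (IsLocalRing.ResidueField A))
      = ((R.redF (algebraMap Qb ↥(modularFunctionFieldBar (M * p)) c * u) :
        ↥(modularFunctionFieldFullC (IsLocalRing.ResidueField A) M)) :
          LaurentSeries (IsLocalRing.ResidueField A)) := by
    refine (hlvl _ _ ?_).2
    have h2 := h55_coe_auxIncl M p r (algebraMap Qb ↥(modularFunctionFieldBar (M * p)) c * u)
    rwa [map_mul, AlgHom.commutes] at h2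
  rw [h43_rord_eq R Q hunit]
  have key := hdesc
    ((R.redF (algebraMap Qb ↥(modularFunctionFieldBar (M * p)) c * u) :
        ↥(modularFunctionFieldFullC (IsLocalRing.ResidueField A) M)) :
          LaurentSeries (IsLocalRing.ResidueField A))
    (R.redF (algebraMap Qb ↥(modularFunctionFieldBar (M * p)) c * u)).2
    (by rw [← hcoe]; exact (R''.redF _).2)
    (fun w => by
      have h3 := h w
      rw [h43_rord_eq R'' w hunit''] at h3
      have h4 : (⟨((R.redF (algebraMap Qb ↥(modularFunctionFieldBar (M * p)) c * u) :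
          ↥(modularFunctionFieldFullC (IsLocalRing.ResidueField A) M)) :
            LaurentSeries (IsLocalRing.ResidueField A)), by rw [← hcoe]; exact (R''.redF _).2⟩ :
          ↥(modularFunctionFieldFullC (IsLocalRing.ResidueField A) (M * r)))
          = R''.redF (algebraMap Qb ↥(modularFunctionFieldBar (M * r * p)) c
              * h55_auxIncl M p r u) := Subtype.ext hcoe.symm
      rw [h4]
      exact h3) Q
  exact key

/-- **O7 = TOP-D (AUX-DOWN), one call.**  (TR-MAIN) at level `(M r, p)` for the pulled-back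
class `h55_auxUp M p r x` gives (TR-MAIN) at level `(M, p)` for the `p`-torsion class `x`.
`hdesc` is the descent of `p`-divisibility of divisors along `Fb(M) ⊆ Fb(M r)`. -/
theorem h32_trProp_descend
    (hdesc : ∀ (g : LaurentSeries (IsLocalRing.ResidueField A))
      (hg : g ∈ modularFunctionFieldFullC (IsLocalRing.ResidueField A) M)
      (hg'' : g ∈ modularFunctionFieldFullC (IsLocalRing.ResidueField A) (M * r)),
      (∀ w : Place (IsLocalRing.ResidueField A)
          ↥(modularFunctionFieldFullC (IsLocalRing.ResidueField A) (M * r)),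
        (p : ℤ) ∣ w.ord ⟨g, hg''⟩) →
      ∀ v : Place (IsLocalRing.ResidueField A)
          ↥(modularFunctionFieldFullC (IsLocalRing.ResidueField A) M),
        (p : ℤ) ∣ v.ord ⟨g, hg⟩)
    (x : JZero (M * p)) (hx : p • x = 0)
    (h : h92_TRProp (M * r) p hpMr A hA (h55_auxUp M p r x)) :
    h92_TRProp M p hpM A hA x := by
  obtain ⟨E, u, hu, hE, hdiv⟩ := h92_exists_rep M p x hx
  obtain ⟨D'', hD, hW⟩ := h55_auxUp_rep M p r E (p : ℤ) u hdiv
  have hu'' : h55_auxIncl M p r u ≠ 0 := (map_ne_zero (h55_auxIncl M p r)).mpr hu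
  have key := h92_TRProp_rep (M * r) p hpMr A hA h D'' (h55_auxIncl M p r u) hu''
    (by rw [← hD, hE]) hW
  refine ⟨E, u, hu, hE, hdiv, fun Q => ⟨?_, ?_⟩⟩
  · exact h32_rord_descend M p r A (h60_R1 M p hpM A hA) (h60_R1 (M * r) p hpMr A hA)
      (fun f g hfg => h32_R1_lvl M (M * r) p hpM hpMr A hA f g hfg) hdesc u hu
      (fun Q'' => (key Q'').1) Q
  · exact h32_rord_descend M p r A (h60_R2 M p hpM A hA) (h60_R2 (M * r) p hpMr A hA)
      (fun f g hfg => h32_R2_lvl M (M * r) p (dvd_mul_right M r) hpM hpMr A hA f g hfg) hdesc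
      u hu (fun Q'' => (key Q'').2) Q

end Descend

end Fermat.Agent.S40

end
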