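import Mathlib
import Fermat.Agent.S40.h32_TRDescend
import Fermat.Agent.S40.h54_AuxDown

/-!
# S40/S44, row O7 = TOP-D (AUX-DOWN), closed form

`h32_trProp_descend_closed` : for a prime `r ∤ M` with `p ∤ M r` and `p ∤ r + 1`, (TR-MAIN) at
level `(M r, p)` for the pulled-back class `h55_auxUp M p r x` gives (TR-MAIN) at level `(M, p)`
for the `p`-torsion class `x`.  No hypothesis left: `h32_trProp_descend` with
`hdesc := h54_fb_p_dvd_descend`.

`h32_rord_descend_R1_closed` : the first-component form for ONE representative (the shape of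
the thin-level tail).
-/

set_option autoImplicit false
set_option synthInstance.maxHeartbeats 400000

noncomputable section

open ModularCurve AlgebraicCurve

namespace Fermat.Agent.S40

open Fermat.Agent.S34 Fermat.Agent.S37 Fermat.Agent.S35 Fermat.Agent.S18

local notation "Qb" => AlgebraicClosure ℚ

/-- **O7 = TOP-D (AUX-DOWN), closed.** -/
theorem h32_trProp_descend_closed (M p r : ℕ) [NeZero M] [NeZero p] [NeZero r] [Fact p.Prime]
    (hpM : ¬ p ∣ M) (hpMr : ¬ p ∣ M * r) (hr : r.Prime) (hrM : ¬ r ∣ M) (hpr : ¬ p ∣ r + 1)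
    (A : ValuationSubring Qb) (hA : A.LiesOverPrime p)
    (x : JZero (M * p)) (hx : p • x = 0)
    (h : h92_TRProp (M * r) p hpMr A hA (h55_auxUp M p r x)) :
    h92_TRProp M p hpM A hA x :=
  h32_trProp_descend M p r hpM hpMr A hA
    (fun g hg hg'' hw v => h54_fb_p_dvd_descend M r A hA hpMr hr hrM hpr g hg hg'' hw v) x hx h

/-- **TOP-D, first component, one representative, closed.**  If `u` is a nonzero function of
level `M p` and all residue orders of `h55_auxIncl u` along the first component at the thin
level `(M r, p)` are divisible by `p`, then all residue orders of `u` along the first component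
at level `(M, p)` are divisible by `p`. -/
theorem h32_rord_descend_R1_closed (M p r : ℕ) [NeZero M] [NeZero p] [NeZero r] [Fact p.Prime]
    (hpM : ¬ p ∣ M) (hpMr : ¬ p ∣ M * r) (hr : r.Prime) (hrM : ¬ r ∣ M) (hpr : ¬ p ∣ r + 1)
    (A : ValuationSubring Qb) (hA : A.LiesOverPrime p)
    (u : ↥(modularFunctionFieldBar (M * p))) (hu : u ≠ 0)
    (h : ∀ Q'' : Place (IsLocalRing.ResidueField A)
        ↥(modularFunctionFieldFullC (IsLocalRing.ResidueField A) (M * r)),
      (p : ℤ) ∣ h43_rord (h60_R1 (M * r) p hpMr A hA) Q'' (h55_auxIncl M p r u))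
    (Q : Place (IsLocalRing.ResidueField A)
      ↥(modularFunctionFieldFullC (IsLocalRing.ResidueField A) M)) :
    (p : ℤ) ∣ h43_rord (h60_R1 M p hpM A hA) Q u :=
  h32_rord_descend M p r A (h60_R1 M p hpM A hA) (h60_R1 (M * r) p hpMr A hA)
    (fun f g hfg => h32_R1_lvl M (M * r) p hpM hpMr A hA f g hfg)
    (fun g hg hg'' hw v => h54_fb_p_dvd_descend M r A hA hpMr hr hrM hpr g hg hg'' hw v)
    u hu h Q

end Fermat.Agent.S40

end
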