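import Mathlib
import Fermat.Agent.S37.h87_Kron
import Fermat.Agent.S18.h19_RedAbs

/-!
# G40 (BRIDGE), row B5 (EIG): the K1 product reduces coefficientwise, for ratios

`h34_k1prod ℓ c f := f(q^(ℓ²)) · ∏_{b<ℓ} f(c^b q)` is the right-hand side of the norm formula K1
(`h49_K1`: `N_α(β f)(q^ℓ) = f(q^(ℓ²)) ∏_b f(ζ^b q)`).  It is multiplicative, commutes with
coefficient maps, and for a primitive `ℓ`-th root of unity `c` in a domain it is a series in
`q^ℓ`.

* `h34_k1_rep` : if `f = y₁ / y₂` with `A`-integral series `y₁, y₂` (`ȳ₂ ≠ 0`) and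
  `W(q^ℓ) = h34_k1prod ℓ ζ f`, then `W = z₁ / z₂` with `A`-integral `z₁, z₂`, `z̄₂ ≠ 0`, and
  `z_i(q^ℓ) = h34_k1prod ℓ ζ y_i`.
* `h34_k1_red` : in the language of `h19_InO` / `h19_redFun` (S18): `W` is in the Gauss ring and
  `(red W)(q^ℓ) = (red f)(q^(ℓ²)) ∏_b (red f)(ζ̄^b q)`.
-/

set_option autoImplicit false

noncomputable section

open ModularCurve HahnSeries

namespace Fermat.Agent.S40

open Fermat.Agent.S37 Fermat.Agent.S18

section Prod

variable {R S : Type*} [CommRing R] [CommRing S]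

/-- The K1 product `f(q^(ℓ²)) · ∏_{b<ℓ} f(c^b q)`. -/
def h34_k1prod (ℓ : ℕ) [NeZero ℓ] (c : Rˣ) (f : LaurentSeries R) : LaurentSeries R :=
  qExpand R ℓ (qExpand R ℓ f) * ∏ b ∈ Finset.range ℓ, h87_twist (c ^ b) f

theorem h34_k1prod_def (ℓ : ℕ) [NeZero ℓ] (c : Rˣ) (f : LaurentSeries R) :
    h34_k1prod ℓ c f
      = qExpand R ℓ (qExpand R ℓ f) * ∏ b ∈ Finset.range ℓ, h87_twist (c ^ b) f := rfl

theorem h34_k1prod_mul (ℓ : ℕ) [NeZero ℓ] (c : Rˣ) (f g : LaurentSeries R) :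
    h34_k1prod ℓ c (f * g) = h34_k1prod ℓ c f * h34_k1prod ℓ c g := by
  unfold h34_k1prod
  simp only [map_mul, Finset.prod_mul_distrib]
  ring

theorem h34_k1prod_one (ℓ : ℕ) [NeZero ℓ] (c : Rˣ) :
    h34_k1prod ℓ c (1 : LaurentSeries R) = 1 := by
  unfold h34_k1prod
  simp only [map_one, Finset.prod_const_one, mul_one]

theorem h34_coeffMap_k1prod (φ : R →+* S) (ℓ : ℕ) [NeZero ℓ] (c : Rˣ) (f : LaurentSeries R) :
    coeffMap φ (h34_k1prod ℓ c f)
      = h34_k1prod ℓ (Units.map (φ : R →* S) c) (coeffMap φ f) := by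
  unfold h34_k1prod
  rw [map_mul, coeffMap_qExpand, coeffMap_qExpand, map_prod]
  congr 1
  refine Finset.prod_congr rfl fun b _ => ?_
  rw [h87_coeffMap_twist, map_pow]

/-- Shifting the index of the twist product by one does not change it when `c ^ ℓ = 1`. -/
theorem h34_prod_twist_shift (ℓ : ℕ) [NeZero ℓ] (c : Rˣ) (hc : c ^ ℓ = 1)
    (f : LaurentSeries R) :
    ∏ b ∈ Finset.range ℓ, h87_twist (c ^ (b + 1)) f
      = ∏ b ∈ Finset.range ℓ, h87_twist (c ^ b) f := by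
  obtain ⟨n, rfl⟩ := Nat.exists_eq_succ_of_ne_zero (NeZero.ne ℓ)
  have h1 : ∏ b ∈ Finset.range (n + 1), h87_twist (c ^ (b + 1)) f
      = (∏ b ∈ Finset.range n, h87_twist (c ^ (b + 1)) f) * h87_twist (c ^ (n + 1)) f :=
    Finset.prod_range_succ _ n
  have h2 : ∏ b ∈ Finset.range (n + 1), h87_twist (c ^ b) f
      = (∏ b ∈ Finset.range n, h87_twist (c ^ (b + 1)) f) * h87_twist (c ^ 0) f :=
    Finset.prod_range_succ' (fun b => h87_twist (c ^ b) f) n
  rw [h1, h2, hc, pow_zero]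

/-- The K1 product is invariant under the twist by `c` when `c ^ ℓ = 1`. -/
theorem h34_twist_k1prod (ℓ : ℕ) [NeZero ℓ] (c : Rˣ) (hc : c ^ ℓ = 1) (f : LaurentSeries R) :
    h87_twist c (h34_k1prod ℓ c f) = h34_k1prod ℓ c f := by
  unfold h34_k1prod
  rw [map_mul]
  congr 1
  · ext n
    rw [h87_twist_coeff]
    by_cases hn : (ℓ : ℤ) ∣ n
    · obtain ⟨m, rfl⟩ := hn
      have h1 : (c ^ ((ℓ : ℤ) * m) : Rˣ) = 1 := by
        rw [zpow_mul, zpow_natCast, hc, one_zpow]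
      rw [h1, Units.val_one, one_mul]
    · rw [qExpand_coeff_of_not_dvd ℓ _ hn, mul_zero]
  · rw [map_prod]
    have h1 : ∀ b ∈ Finset.range ℓ,
        h87_twist c (h87_twist (c ^ b) f) = h87_twist (c ^ (b + 1)) f := by
      intro b _
      rw [← h87_twist_mul, ← pow_succ']
    rw [Finset.prod_congr rfl h1]
    exact h34_prod_twist_shift ℓ c hc f

/-- For a primitive `ℓ`-th root of unity `c` of a domain, the K1 product is a series in `q^ℓ`. -/
theorem h34_exists_k1prod_eq [IsDomain R] (ℓ : ℕ) [NeZero ℓ] (c : Rˣ) (hc : c ^ ℓ = 1)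
    (hprim : ∀ n : ℤ, ¬ (ℓ : ℤ) ∣ n → ((c ^ n : Rˣ) : R) ≠ 1) (y : LaurentSeries R) :
    ∃ z : LaurentSeries R, qExpand R ℓ z = h34_k1prod ℓ c y :=
  h87_exists_qExpand_of_twist_eq ℓ c (fun n hn r hr => by
    rcases mul_eq_zero.mp hr with h | h
    · exact absurd (sub_eq_zero.mp h) (hprim n hn)
    · exact h) _ (h34_twist_k1prod ℓ c hc y)

end Prod

section Field

variable {k : Type*} [Field k]

theorem h34_twist_injective (c : kˣ) : Function.Injective (h87_twist c) := by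
  intro f g h
  ext n
  have h1 := congrArg (fun x => x.coeff n) h
  simp only [h87_twist_coeff] at h1
  exact (Units.mul_right_inj _).mp h1

theorem h34_k1prod_ne_zero (ℓ : ℕ) [NeZero ℓ] (c : kˣ) {f : LaurentSeries k} (hf : f ≠ 0) :
    h34_k1prod ℓ c f ≠ 0 := by
  unfold h34_k1prod
  refine mul_ne_zero ?_ (Finset.prod_ne_zero_iff.mpr fun b _ => ?_)
  · intro h
    exact hf (qExpand_injective (R := k) ℓ
      (qExpand_injective (R := k) ℓ (h.trans (by rw [map_zero, map_zero]))))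
  · intro h
    exact hf (h34_twist_injective (c ^ b) (h.trans (map_zero _).symm))

end Field

section Red

variable {K : Type*} [Field K] (A : ValuationSubring K) (ℓ : ℕ) [NeZero ℓ] (ζ : Aˣ)

/-- **The K1 product of a ratio of integral series.**  If `f = y₁ / y₂` with `A`-integral series
(`ȳ₂ ≠ 0`) and `W(q^ℓ)` is the K1 product of `f`, then `W = z₁ / z₂` with `A`-integral series
`z₁, z₂`, `z̄₂ ≠ 0`, and `z_i(q^ℓ)` is the K1 product of `y_i`. -/
theorem h34_k1_rep (hζ : ζ ^ ℓ = 1)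
    (hprim : ∀ n : ℤ, ¬ (ℓ : ℤ) ∣ n → ((ζ ^ n : Aˣ) : A) ≠ 1)
    (f W : LaurentSeries K)
    (hW : qExpand K ℓ W = h34_k1prod ℓ (Units.map ((A.subtype : A →+* K) : A →* K) ζ) f)
    (y₁ y₂ : LaurentSeries A) (hy₂ : coeffMap (IsLocalRing.residue A) y₂ ≠ 0)
    (hy : f * coeffMap A.subtype y₂ = coeffMap A.subtype y₁) :
    ∃ z₁ z₂ : LaurentSeries A, coeffMap (IsLocalRing.residue A) z₂ ≠ 0 ∧
      W * coeffMap A.subtype z₂ = coeffMap A.subtype z₁ ∧
      qExpand A ℓ z₁ = h34_k1prod ℓ ζ y₁ ∧ qExpand A ℓ z₂ = h34_k1prod ℓ ζ y₂ := by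
  obtain ⟨z₁, hz₁⟩ := h34_exists_k1prod_eq ℓ ζ hζ hprim y₁
  obtain ⟨z₂, hz₂⟩ := h34_exists_k1prod_eq ℓ ζ hζ hprim y₂
  refine ⟨z₁, z₂, ?_, ?_, hz₁, hz₂⟩
  · intro h
    have h1 : qExpand (IsLocalRing.ResidueField A) ℓ (coeffMap (IsLocalRing.residue A) z₂) = 0 := by
      rw [h, map_zero]
    rw [← coeffMap_qExpand, hz₂, h34_coeffMap_k1prod] at h1
    exact h34_k1prod_ne_zero ℓ _ hy₂ h1
  · apply qExpand_injective (R := K) ℓ
    rw [map_mul, hW, ← coeffMap_qExpand, ← coeffMap_qExpand, hz₂, hz₁, h34_coeffMap_k1prod,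
      h34_coeffMap_k1prod, ← h34_k1prod_mul, hy]

/-- **The K1 product reduces coefficientwise** (S18 language).  If `f` lies in the Gauss ring
`h19_InO A` and `W(q^ℓ) = f(q^(ℓ²)) ∏_{b<ℓ} f(ζ^b q)` for a primitive `ℓ`-th root of unity `ζ` of
`A`, then `W` lies in the Gauss ring and
`(red W)(q^ℓ) = (red f)(q^(ℓ²)) ∏_{b<ℓ} (red f)(ζ̄^b q)`. -/
theorem h34_k1_red (hζ : ζ ^ ℓ = 1)
    (hprim : ∀ n : ℤ, ¬ (ℓ : ℤ) ∣ n → ((ζ ^ n : Aˣ) : A) ≠ 1)
    (f W : LaurentSeries K) (hf : h19_InO A f)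
    (hW : qExpand K ℓ W = qExpand K ℓ (qExpand K ℓ f) *
      ∏ b ∈ Finset.range ℓ, h87_twist ((Units.map ((A.subtype : A →+* K) : A →* K) ζ) ^ b) f) :
    ∃ hWO : h19_InO A W,
      qExpand (IsLocalRing.ResidueField A) ℓ (h19_redFun W hWO)
        = qExpand (IsLocalRing.ResidueField A) ℓ
            (qExpand (IsLocalRing.ResidueField A) ℓ (h19_redFun f hf)) *
          ∏ b ∈ Finset.range ℓ,
            h87_twist ((Units.map ((IsLocalRing.residue A : A →+* IsLocalRing.ResidueField A) :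
              A →* IsLocalRing.ResidueField A) ζ) ^ b) (h19_redFun f hf) := by
  obtain ⟨y₁, y₂, hy₂, hy⟩ := id hf
  obtain ⟨z₁, z₂, hz₂, hWz, hz₁e, hz₂e⟩ := h34_k1_rep A ℓ ζ hζ hprim f W hW y₁ y₂ hy₂ hy
  refine ⟨⟨z₁, z₂, hz₂, hWz⟩, ?_⟩
  have hf' := h19_redFun_spec f hf y₁ y₂ hy
  have hW' := h19_redFun_spec W ⟨z₁, z₂, hz₂, hWz⟩ z₁ z₂ hWz
  have e1 : qExpand (IsLocalRing.ResidueField A) ℓ (coeffMap (IsLocalRing.residue A) z₁)
      = h34_k1prod ℓ (Units.map ((IsLocalRing.residue A : A →+* IsLocalRing.ResidueField A) :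
          A →* IsLocalRing.ResidueField A) ζ) (coeffMap (IsLocalRing.residue A) y₁) := by
    rw [← coeffMap_qExpand, hz₁e, h34_coeffMap_k1prod]
  have e2 : qExpand (IsLocalRing.ResidueField A) ℓ (coeffMap (IsLocalRing.residue A) z₂)
      = h34_k1prod ℓ (Units.map ((IsLocalRing.residue A : A →+* IsLocalRing.ResidueField A) :
          A →* IsLocalRing.ResidueField A) ζ) (coeffMap (IsLocalRing.residue A) y₂) := by
    rw [← coeffMap_qExpand, hz₂e, h34_coeffMap_k1prod]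
  have hne : h34_k1prod ℓ (Units.map ((IsLocalRing.residue A : A →+* IsLocalRing.ResidueField A) :
      A →* IsLocalRing.ResidueField A) ζ) (coeffMap (IsLocalRing.residue A) y₂) ≠ 0 :=
    h34_k1prod_ne_zero ℓ _ hy₂
  have h3 := congrArg (qExpand (IsLocalRing.ResidueField A) ℓ) hW'
  rw [map_mul, e1, e2, ← hf', h34_k1prod_mul] at h3
  exact mul_right_cancel₀ hne h3

/-- `h34_k1_red` for `ζ : Aˣ` whose image in `K` is a primitive `ℓ`-th root of unity (the shape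
produced by S37 `h87_exists_zeta` and consumed by `h49_K1`). -/
theorem h34_k1_red_prim
    (hprimK : IsPrimitiveRoot (Units.map ((A.subtype : A →+* K) : A →* K) ζ) ℓ)
    (f W : LaurentSeries K) (hf : h19_InO A f)
    (hW : qExpand K ℓ W = qExpand K ℓ (qExpand K ℓ f) *
      ∏ b ∈ Finset.range ℓ, h87_twist ((Units.map ((A.subtype : A →+* K) : A →* K) ζ) ^ b) f) :
    ∃ hWO : h19_InO A W,
      qExpand (IsLocalRing.ResidueField A) ℓ (h19_redFun W hWO)
        = qExpand (IsLocalRing.ResidueField A) ℓ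
            (qExpand (IsLocalRing.ResidueField A) ℓ (h19_redFun f hf)) *
          ∏ b ∈ Finset.range ℓ,
            h87_twist ((Units.map ((IsLocalRing.residue A : A →+* IsLocalRing.ResidueField A) :
              A →* IsLocalRing.ResidueField A) ζ) ^ b) (h19_redFun f hf) := by
  have hinj : Function.Injective (Units.map ((A.subtype : A →+* K) : A →* K)) :=
    Units.map_injective (f := ((A.subtype : A →+* K) : A →* K)) Subtype.val_injective
  have hζ : ζ ^ ℓ = 1 := by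
    apply hinj
    rw [map_pow, hprimK.pow_eq_one, map_one]
  have hprim : ∀ n : ℤ, ¬ (ℓ : ℤ) ∣ n → ((ζ ^ n : Aˣ) : A) ≠ 1 := by
    intro n hn h
    apply hn
    have h1 : ζ ^ n = 1 := Units.ext h
    have h2 : (Units.map ((A.subtype : A →+* K) : A →* K) ζ) ^ n = 1 := by
      rw [← map_zpow, h1, map_one]
    exact (hprimK.zpow_eq_one_iff_dvd n).mp h2
  exact h34_k1_red A ℓ ζ hζ hprim f W hf hW

end Red

end Fermat.Agent.S40

end
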