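import Mathlib
import Fermat.Agent.S40.h67_CoreOfRows
import Fermat.Agent.S40.h77_TailThinTop

/-!
# S40 / S44 (G40): the core theorem with the thin-level tail discharged (helper77)

* `h77_tailStmt` : helper67's `h67_TailStmt` (the second open hypothesis of `h67_core_of_rows`)
  is `h77_tail_thin`.
* `h77_core_of_TRrows` : the core theorem (header of `h37_core`, with `[Fact p.Prime]`) with
  exactly ONE hypothesis left: the rows `h67_RowsStmt` of the (TR) chain at the thin level.
-/

set_option autoImplicit false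
set_option synthInstance.maxHeartbeats 400000

noncomputable section

open ModularCurve AlgebraicCurve ExtCitation Module
open WeierstrassCurve WeierstrassCurve.Affine WeierstrassCurve.Affine.Point

namespace Fermat.Agent.S40

open Fermat.Agent.S41 Fermat.Agent.S33 Fermat.Agent.S35 Fermat.Agent.S36 Fermat.Agent.GAL
open Fermat.Agent.S34 Fermat.Agent.S18

local notation "Qb" => AlgebraicClosure ℚ

/-- **The thin-level tail statement of the core** is `h77_tail_thin`. -/
theorem h77_tailStmt (W : WeierstrassCurve ℤ) (M' p r : ℕ) [Fact p.Prime] [NeZero p] [NeZero M']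
    [NeZero r] (hch : 5 ≤ p ∨ 2 ∣ M' ∨ 3 ∣ M') (hpM' : ¬ p ∣ M') (hr : r.Prime)
    (hrMp : ¬ r ∣ M' * p) (hpr : ¬ p ∣ r + 1) (hpMr : ¬ p ∣ M' * r)
    (A : ValuationSubring Qb) (hA : A.LiesOverPrime p)
    (hnot : ¬ W.IsResiduallyModularOfLevel p M') : h67_TailStmt W M' p r hpMr A hA :=
  fun x hpx hT hTR =>
    h77_tail_thin M' p r hpM' hpMr hr (fun h => hrMp (Dvd.dvd.mul_right h p)) hpr hch A hA W hnot
      x hpx hT hTR

/-- **The core theorem from the rows of the (TR) chain alone.** -/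
theorem h77_core_of_TRrows (E : WeierstrassCurve ℚ) [E.IsElliptic] {W : WeierstrassCurve ℤ}
    (hW : W.IsIntegralModelOf E) {p M : ℕ} [Fact p.Prime] [NeZero p] (hp5 : 5 ≤ p)
    (hM : 0 < M) (hpM : p ∣ M) (hp2M : ¬ p ^ 2 ∣ M)
    (hirr : GaloisRepIsIrreducible (K := Qb) ℚ E p) (hE : h37_ESide E p) (B : ℕ)
    (hrows : ∀ (M' r : ℕ) [NeZero M'] [NeZero r], M = M' * p → ¬ p ∣ M' → r.Prime → B < r →
      r % 12 = 11 → ¬ r ∣ M' * p → ¬ p ∣ r + 1 →
      ∀ (hpMr : ¬ p ∣ M' * r) (A : ValuationSubring Qb) (hA : A.LiesOverPrime p),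
        ¬ W.IsResiduallyModularOfLevel p M' → h67_RowsStmt W M' p r hpMr A hA)
    (hmod : W.IsResiduallyModularOfLevel p M) :
    W.IsResiduallyModularOfLevel p (M / p) :=
  h67_core_of_rows E hW hp5 hM hpM hp2M hirr hE B hrows
    (fun M' r _ _ _ hpM' hr _ _ hrMp hpr hpMr A hA hnot =>
      h77_tailStmt W M' p r (Or.inl hp5) hpM' hr hrMp hpr hpMr A hA hnot)
    hmod

end Fermat.Agent.S40

end
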