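import Mathlib
import Fermat.Agent.S40.h50_W7Plug
import Fermat.Agent.S40.h67_W6Row

/-!
# S40 / (TR) row W7 at the charted level, closed (helper50)

Level `M p` (`p ∤ M` an odd prime, `5 ≤ p ∨ 2 ∣ M ∨ 3 ∣ M`, no elliptic points at level `M`),
`A` over `p`, the W9 binder block `(Sg, hSg, n0, hnode)` of `h87_node_closed`, an arbitrary W0 pair
`(z, w)`.

* `h50_w7_closed` : the conclusion of `h50_w7_plug` (jets `g, J1, J2` with the package of
  `h11_jet_chart`, and row W7 for EVERY datum in the `hW7` shape of `h12_ej_gen`) with the node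
  functions taken from the count instance `h67_cnt_block`: no open input.
-/

set_option autoImplicit false
set_option synthInstance.maxHeartbeats 400000

noncomputable section

open AlgebraicCurve ModularCurve Module

namespace Fermat.Agent.S40

open Fermat.Agent.S18 Fermat.Agent.S34 Fermat.Agent.S24 Fermat.Agent.S27 Fermat.Agent.S37
  Fermat.Agent.S36

local notation "Qb" => AlgebraicClosure ℚ

section W7Closed

variable (M p : ℕ) [NeZero M] [NeZero p] [Fact p.Prime] (hp2 : p ≠ 2) (hpM : ¬ p ∣ M)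
  (A : ValuationSubring Qb) (hA : A.LiesOverPrime p)
  [CharP (IsLocalRing.ResidueField A) p] [IsAlgClosed (IsLocalRing.ResidueField A)]
  (Sg : Finset (Place (IsLocalRing.ResidueField A)
    ↥(modularFunctionFieldFullC (IsLocalRing.ResidueField A) M)))
  (hSg : ∀ Q ∈ Sg, Q ≠ h11_placeInftyC (IsLocalRing.ResidueField A) M ∧
    h96_frobPerm (h84_isFrobChart_jk M p hpM A hA) Q ≠
      h11_placeInftyC (IsLocalRing.ResidueField A) M ∧
    h96_frobPerm (h84_isFrobChart_jk M p hpM A hA)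
      (h96_frobPerm (h84_isFrobChart_jk M p hpM A hA) Q) = Q)
  (n0 : ℕ)
  (hnode : ∀ n, n0 ≤ n → ∀ a : ↥(modularFunctionFieldFullC (IsLocalRing.ResidueField A) M) ×
      ↥(modularFunctionFieldFullC (IsLocalRing.ResidueField A) M),
    a ∈ h51_Rd (h87_D M p hpM A hA) (n • h87_D0 M p hpM) ↔
      (a ∈ h20_P (h11_placeInftyC (IsLocalRing.ResidueField A) M) n ∧
        ∀ Q ∈ Sg, ∃ c : IsLocalRing.ResidueField A,
          h39_Val (h96_frobPerm (h84_isFrobChart_jk M p hpM A hA) Q) a.1 c ∧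
            h39_Val Q a.2 c))

include hp2 hSg hnode in
set_option maxHeartbeats 3200000 in
/-- **Row W7 at the charted level, closed**: every datum, every W0 pair. -/
theorem h50_w7_closed (hch : 5 ≤ p ∨ 2 ∣ M ∨ 3 ∣ M) (h2 : nuTwo M = 0) (h3 : nuThree M = 0)
    (ζ : Qb) (hζ : IsPrimitiveRoot ζ p) (z w : Qb) (hz : A.valuation z = 1)
    (hzI : ∀ g ∈ (A.inertiaSubgroupIn ℚ), g z = z) (hw : (1 + w) ^ p = 1 + (p : Qb) * z) :
    ∃ (g : Fin p → ↥(A.inertiaSubgroupIn ℚ))
      (J1 : ↥(h25_SH (h60_R1 M p hpM A hA) (h25_rho (M * p) (A.inertiaSubgroupIn ℚ))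
          (algebraMap Qb ↥(modularFunctionFieldBar (M * p)) w)) →+*
        TrivSqZeroExt ↥(modularFunctionFieldFullC (IsLocalRing.ResidueField A) M)
          ↥(modularFunctionFieldFullC (IsLocalRing.ResidueField A) M))
      (J2 : ↥(h25_SH (h60_R2 M p hpM A hA) (h25_rho (M * p) (A.inertiaSubgroupIn ℚ))
          (algebraMap Qb ↥(modularFunctionFieldBar (M * p)) w)) →+*
        TrivSqZeroExt ↥(modularFunctionFieldFullC (IsLocalRing.ResidueField A) M)
          ↥(modularFunctionFieldFullC (IsLocalRing.ResidueField A) M)),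
      (((Function.Injective fun i => h25_rho (M * p) (A.inertiaSubgroupIn ℚ) (g i)
          (algebraMap Qb ↥(modularFunctionFieldBar (M * p)) w)) ∧
        (∀ γ : ↥(A.inertiaSubgroupIn ℚ), ∃ i,
          h25_rho (M * p) (A.inertiaSubgroupIn ℚ) γ
              (algebraMap Qb ↥(modularFunctionFieldBar (M * p)) w) =
            h25_rho (M * p) (A.inertiaSubgroupIn ℚ) (g i)
              (algebraMap Qb ↥(modularFunctionFieldBar (M * p)) w)) ∧
        ∀ i : Fin p, (g i : Qb ≃ₐ[ℚ] Qb) (1 + w) = ζ ^ (i : ℕ) * (1 + w)) ∧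
      -- (Je)
      ((∀ f, J1 f = h25_jetFun (h60_R1 M p hpM A hA) (h25_rho (M * p) (A.inertiaSubgroupIn ℚ)) p
          (algebraMap Qb ↥(modularFunctionFieldBar (M * p)) w) g
          (f : ↥(modularFunctionFieldBar (M * p)))) ∧
        (∀ f, J2 f = h25_jetFun (h60_R2 M p hpM A hA) (h25_rho (M * p) (A.inertiaSubgroupIn ℚ)) p
          (algebraMap Qb ↥(modularFunctionFieldBar (M * p)) w) g
          (f : ↥(modularFunctionFieldBar (M * p))))) ∧
      -- (Ja)
      ((∀ f : ↥(h25_SH (h60_R1 M p hpM A hA) (h25_rho (M * p) (A.inertiaSubgroupIn ℚ))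
            (algebraMap Qb ↥(modularFunctionFieldBar (M * p)) w)),
          (f : ↥(modularFunctionFieldBar (M * p))) ∈ h69_F0 (M * p) (A.inertiaSubgroupIn ℚ) →
          J1 f = TrivSqZeroExt.inl
            ((h60_R1 M p hpM A hA).redF (f : ↥(modularFunctionFieldBar (M * p))))) ∧
        (∀ f : ↥(h25_SH (h60_R2 M p hpM A hA) (h25_rho (M * p) (A.inertiaSubgroupIn ℚ))
            (algebraMap Qb ↥(modularFunctionFieldBar (M * p)) w)),
          (f : ↥(modularFunctionFieldBar (M * p))) ∈ h69_F0 (M * p) (A.inertiaSubgroupIn ℚ) →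
          J2 f = TrivSqZeroExt.inl
            ((h60_R2 M p hpM A hA).redF (f : ↥(modularFunctionFieldBar (M * p)))))) ∧
      -- (Jb)
      ((∃ hwS, J1 ⟨algebraMap Qb ↥(modularFunctionFieldBar (M * p)) w, hwS⟩ =
          TrivSqZeroExt.inr 1) ∧
        (∃ hwS, J2 ⟨algebraMap Qb ↥(modularFunctionFieldBar (M * p)) w, hwS⟩ =
          TrivSqZeroExt.inr 1)) ∧
      -- (Jc)
      ((∀ f, (J1 f).fst = (h60_R1 M p hpM A hA).redF (f : ↥(modularFunctionFieldBar (M * p)))) ∧
        (∀ f, (J2 f).fst = (h60_R2 M p hpM A hA).redF (f : ↥(modularFunctionFieldBar (M * p))))) ∧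
      -- the expansion hypothesis
      h38_HJet (h60_R1 M p hpM A hA) (h60_R2 M p hpM A hA) (h87_D0 M p hpM)
        (h25_SH (h60_R1 M p hpM A hA) (h25_rho (M * p) (A.inertiaSubgroupIn ℚ))
          (algebraMap Qb ↥(modularFunctionFieldBar (M * p)) w))
        (h25_SH (h60_R2 M p hpM A hA) (h25_rho (M * p) (A.inertiaSubgroupIn ℚ))
          (algebraMap Qb ↥(modularFunctionFieldBar (M * p)) w)) J1 J2 ∧
      -- (Jd)
      (∃ (hηS : algebraMap Qb ↥(modularFunctionFieldBar (M * p)) ((p : Qb) / w ^ p) ∈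
            h25_SH (h60_R2 M p hpM A hA) (h25_rho (M * p) (A.inertiaSubgroupIn ℚ))
              (algebraMap Qb ↥(modularFunctionFieldBar (M * p)) w))
          (_ : (algebraMap Qb ↥(modularFunctionFieldBar (M * p)) ((p : Qb) / w ^ p))⁻¹ ∈
            h25_SH (h60_R2 M p hpM A hA) (h25_rho (M * p) (A.inertiaSubgroupIn ℚ))
              (algebraMap Qb ↥(modularFunctionFieldBar (M * p)) w)),
          (J2 ⟨algebraMap Qb ↥(modularFunctionFieldBar (M * p)) ((p : Qb) / w ^ p), hηS⟩).fst =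
              algebraMap (IsLocalRing.ResidueField A)
                ↥(modularFunctionFieldFullC (IsLocalRing.ResidueField A) M)
                ((h60_R2 M p hpM A hA).resK z)⁻¹ ∧
            h38_IsOm J2 ⟨algebraMap Qb ↥(modularFunctionFieldBar (M * p)) ((p : Qb) / w ^ p), hηS⟩
              (algebraMap (IsLocalRing.ResidueField A)
                ↥(modularFunctionFieldFullC (IsLocalRing.ResidueField A) M)
                ((h60_R2 M p hpM A hA).resK z)⁻¹)) ∧
      ((h60_R2 M p hpM A hA).resK z)⁻¹ ≠ 0) ∧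
      ∀ (u1 u2 : ↥(modularFunctionFieldBar (M * p))) (hu1 : u1 ∈ (h25_SH (h60_R1 M p hpM A hA) (h25_rho (M * p) (A.inertiaSubgroupIn ℚ))
      (algebraMap Qb ↥(modularFunctionFieldBar (M * p)) w))) (_ : u1⁻¹ ∈ (h25_SH (h60_R1 M p hpM A hA) (h25_rho (M * p) (A.inertiaSubgroupIn ℚ))
      (algebraMap Qb ↥(modularFunctionFieldBar (M * p)) w))) (hu2 : u2 ∈ (h25_SH (h60_R2 M p hpM A hA) (h25_rho (M * p) (A.inertiaSubgroupIn ℚ))
      (algebraMap Qb ↥(modularFunctionFieldBar (M * p)) w)))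
        (_ : u2⁻¹ ∈ (h25_SH (h60_R2 M p hpM A hA) (h25_rho (M * p) (A.inertiaSubgroupIn ℚ))
      (algebraMap Qb ↥(modularFunctionFieldBar (M * p)) w))) (κ' : ℤ), u1 ≠ 0 → u1 = algebraMap Qb ↥(modularFunctionFieldBar (M * p)) (p : Qb) ^ κ' * u2 →
        (∀ v : Place Qb ↥(modularFunctionFieldBar (M * p)), (p : ℤ) ∣ v.ord u1) →
        ∃ Γ₁ Γ₂ : (IsLocalRing.ResidueField A),
          h38_IsOm J1 ⟨u1, hu1⟩ (algebraMap (IsLocalRing.ResidueField A) ↥(modularFunctionFieldFullC (IsLocalRing.ResidueField A) M) Γ₁) ∧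
          h38_IsOm J2 ⟨u2, hu2⟩ (algebraMap (IsLocalRing.ResidueField A) ↥(modularFunctionFieldFullC (IsLocalRing.ResidueField A) M) Γ₂) ∧
          ∀ ν : {Q // Q ∈ Sg}, Γ₂ - Γ₁ =
            (((h96_frobPerm (h84_isFrobChart_jk M p hpM A hA) ν.1).ord ((h60_R1 M p hpM A hA).redF u1) - κ' : ℤ) : (IsLocalRing.ResidueField A)) * ((h60_R2 M p hpM A hA).resK z)⁻¹ := by
  obtain ⟨T, hT⟩ := h67_cnt_exists_T M p hpM A hA hch
  exact h50_w7_plug_of_count M p hp2 hpM A hA Sg hSg n0 hnode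
    (h67_cnt_block M p hpM A hA hch h2 h3 Sg hSg n0 hnode T hT) (fun _ hf => hf) ζ hζ z w hz hzI
    hw

end W7Closed

end Fermat.Agent.S40

end
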