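import Mathlib
import Fermat.Agent.S40.h67_CoreOfRows
import Fermat.Agent.S40.h31_W6Out
import Fermat.Agent.S40.h23_EndT8

/-!
# S40/S44 (G40): the rows statement `h67_RowsStmt` from the two row outputs (helper37)

Glue for the top file `h37_Core`: the node data `(Sg, Φ)` of `h67_RowsStmt` are taken ONCE from
`h87_node_closed` at the thin level `(M' r, p)` (`Φ = h96_frobPerm (h84_isFrobChart_jk ..)`), and
the two conjuncts are the two open rows, each stated UNDER the node block.  All statements carry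
the instance binders `[CharP k p] [IsAlgClosed k]` (`k` the residue field of `A`), discharged at
the top by `h19_residueField_charP A p hA`, `h19_residueField_isAlgClosed A`:

* `h37_NodeBlock M p hpM A hA Sg n0` : the W9 binder block = the conclusion of `h87_node_closed`
  for the node set `Sg` and the threshold `n0`;
* `h37_rows_of` : `h67_RowsStmt` from `hW6` (the output `h92_W6Out` for every `(E, u)` with
  `p E = div u`) and `hT8` (the output `h92_T8Out` for every representative of a `p`-torsion,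
  `p`-new eigenclass fixed by the stabiliser of `w`);
* `h37_rows_of_count` : the same with `hW6` replaced by an instance of the count hypotheses
  `h81_CountHyp` (row (S1)), through `h31_w6_out_of_count`;
* `h37_rows_of_ord` : the same with `hT8` replaced by the inputs of the ord-form of row T8
  (`h23_T8Out_of_E2_image`): a Hecke prime `ℓ` with `p ∤ ℓ + 1 - a_ℓ(W)`, the statement (E2) at the
  node places `Φ '' Sg` (`hE2`) and the pairwise congruence of the node orders (`hW7`, the (TR*)
  consequence of row W7).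
-/

set_option autoImplicit false
set_option synthInstance.maxHeartbeats 400000

noncomputable section

open ModularCurve AlgebraicCurve ExtCitation Module
open WeierstrassCurve WeierstrassCurve.Affine WeierstrassCurve.Affine.Point

namespace Fermat.Agent.S40

open Fermat.Agent.S41 Fermat.Agent.S33 Fermat.Agent.S35 Fermat.Agent.S36 Fermat.Agent.GAL
open Fermat.Agent.S34 Fermat.Agent.S18 Fermat.Agent.S24 Fermat.Agent.S27 Fermat.Agent.S37

local notation "Qb" => AlgebraicClosure ℚ

set_option maxHeartbeats 1600000 in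
/-- **The W9 node block**: the conclusion of `h87_node_closed` for a node set `Sg` and a
threshold `n0` at the level `(M, p)`. -/
def h37_NodeBlock (M p : ℕ) [NeZero M] [NeZero p] [Fact p.Prime] (hpM : ¬ p ∣ M)
    (A : ValuationSubring Qb) (hA : A.LiesOverPrime p)
    [CharP (IsLocalRing.ResidueField A) p] [IsAlgClosed (IsLocalRing.ResidueField A)]
    (Sg : Finset (Place (IsLocalRing.ResidueField A)
      ↥(modularFunctionFieldFullC (IsLocalRing.ResidueField A) M))) (n0 : ℕ) : Prop :=
  (∀ Q ∈ Sg, Q ≠ h11_placeInftyC (IsLocalRing.ResidueField A) M ∧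
      h96_frobPerm (h84_isFrobChart_jk M p hpM A hA) Q ≠
        h11_placeInftyC (IsLocalRing.ResidueField A) M ∧
      h96_frobPerm (h84_isFrobChart_jk M p hpM A hA)
        (h96_frobPerm (h84_isFrobChart_jk M p hpM A hA) Q) = Q) ∧
    2 * h75_genus Qb (h59_jbar (M * p)) ≤ n0 ∧
    2 * h75_genus (IsLocalRing.ResidueField A) (h54_jk (IsLocalRing.ResidueField A) M) +
      Sg.card ≤ n0 ∧
    ∀ n, n0 ≤ n → ∀ a : ↥(modularFunctionFieldFullC (IsLocalRing.ResidueField A) M) ×
        ↥(modularFunctionFieldFullC (IsLocalRing.ResidueField A) M),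
      a ∈ h51_Rd (h87_D M p hpM A hA) (n • h87_D0 M p hpM) ↔
        (a ∈ h20_P (h11_placeInftyC (IsLocalRing.ResidueField A) M) n ∧
          ∀ Q ∈ Sg, ∃ c : IsLocalRing.ResidueField A,
            h39_Val (h96_frobPerm (h84_isFrobChart_jk M p hpM A hA) Q) a.1 c ∧
              h39_Val Q a.2 c)

set_option maxHeartbeats 1600000 in
/-- The node block exists at every charted level. -/
theorem h37_nodeBlock_exists (M p : ℕ) [NeZero M] [NeZero p] [Fact p.Prime] (hpM : ¬ p ∣ M)
    (A : ValuationSubring Qb) (hA : A.LiesOverPrime p)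
    [CharP (IsLocalRing.ResidueField A) p] [IsAlgClosed (IsLocalRing.ResidueField A)]
    (hch : 5 ≤ p ∨ 2 ∣ M ∨ 3 ∣ M) :
    ∃ (Sg : Finset (Place (IsLocalRing.ResidueField A)
      ↥(modularFunctionFieldFullC (IsLocalRing.ResidueField A) M))) (n0 : ℕ),
      h37_NodeBlock M p hpM A hA Sg n0 := by
  obtain ⟨Sg, hSg, n0, h1, h2, hnode⟩ := h87_node_closed M p hpM A hA hch
  exact ⟨Sg, n0, And.intro hSg (And.intro h1 (And.intro h2 hnode))⟩

set_option maxHeartbeats 1600000 in
/-- **The rows statement from the two row outputs under the node block.** -/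
theorem h37_rows_of (W : WeierstrassCurve ℤ) (M' p r : ℕ) [Fact p.Prime] [NeZero p] [NeZero M']
    [NeZero r] (hch : 5 ≤ p ∨ 2 ∣ M' * r ∨ 3 ∣ M' * r) (hpMr : ¬ p ∣ M' * r)
    (A : ValuationSubring Qb) (hA : A.LiesOverPrime p)
    [CharP (IsLocalRing.ResidueField A) p] [IsAlgClosed (IsLocalRing.ResidueField A)]
    (hW6 : ∀ (Sg : Finset (Place (IsLocalRing.ResidueField A)
        ↥(modularFunctionFieldFullC (IsLocalRing.ResidueField A) (M' * r)))) (n0 : ℕ),
      h37_NodeBlock (M' * r) p hpMr A hA Sg n0 →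
      ∀ (u : ↥(modularFunctionFieldBar (M' * r * p))), u ≠ 0 →
      ∀ (E : Divisor Qb ↥(modularFunctionFieldBar (M' * r * p))),
        (∀ P : Place Qb ↥(modularFunctionFieldBar (M' * r * p)), (p : ℤ) * E P = P.ord u) →
        h92_W6Out (M' * r) p hpMr A hA Sg
          (h96_frobPerm (h84_isFrobChart_jk (M' * r) p hpMr A hA)) u)
    (hT8 : ∀ (Sg : Finset (Place (IsLocalRing.ResidueField A)
        ↥(modularFunctionFieldFullC (IsLocalRing.ResidueField A) (M' * r)))) (n0 : ℕ),
      h37_NodeBlock (M' * r) p hpMr A hA Sg n0 →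
      ∀ y : JZero (M' * r * p), p • y = 0 →
      (∀ (ℓ : ℕ) (hℓ : ℓ.Prime), W.IsGoodPrimeFor ℓ → ¬ ℓ ∣ M' * r * p → ℓ ≠ p →
        heckeOperatorBar (M' * r * p) ⟨ℓ, hℓ⟩ y = W.apOfModel ℓ • y) →
      h67_Jnew (M' * r) p y →
      ∀ z w : Qb, A.valuation z = 1 → (∀ g ∈ A.inertiaSubgroupIn ℚ, g z = z) →
        (1 + w) ^ p = 1 + (p : Qb) * z →
        ∀ (D : Divisor.degZero (K := Qb) (F := modularFunctionFieldBar (M' * r * p)))
          (u : modularFunctionFieldBar (M' * r * p)),
          Pic0.mk D = y → u ≠ 0 → h69_lc (M' * r * p) u = 1 →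
          (∀ v : Place Qb (modularFunctionFieldBar (M' * r * p)),
            (p : ℤ) * (D : Divisor Qb (modularFunctionFieldBar (M' * r * p))) v = v.ord u) →
          (∀ g ∈ A.inertiaSubgroupIn ℚ, g w = w →
            arithmeticGalois (modularFunctionFieldFull (M' * r * p)) g •
              (D : Divisor Qb (modularFunctionFieldBar (M' * r * p))) = D) →
          (∀ g ∈ A.inertiaSubgroupIn ℚ, g w = w →
            arithmeticGalois (modularFunctionFieldFull (M' * r * p)) g • u = u) →
          h92_T8Out (M' * r) p hpMr A hA Sg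
            (h96_frobPerm (h84_isFrobChart_jk (M' * r) p hpMr A hA)) u) :
    h67_RowsStmt W M' p r hpMr A hA := by
  obtain ⟨Sg, n0, hblock⟩ := h37_nodeBlock_exists (M' * r) p hpMr A hA hch
  unfold h67_RowsStmt
  refine ⟨Sg, h96_frobPerm (h84_isFrobChart_jk (M' * r) p hpMr A hA), ?_⟩
  intro y hpy hTy hnew z w hz hzI hw D u hD hu hlc hdiv hDfix hufix
  exact ⟨hW6 Sg n0 hblock u hu _ hdiv,
    hT8 Sg n0 hblock y hpy hTy hnew z w hz hzI hw D u hD hu hlc hdiv hDfix hufix⟩

set_option maxHeartbeats 1600000 in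
/-- **The rows statement from the count instance (S1) and the row T8.** -/
theorem h37_rows_of_count (W : WeierstrassCurve ℤ) (M' p r : ℕ) [Fact p.Prime] [NeZero p]
    [NeZero M'] [NeZero r] (hch : 5 ≤ p ∨ 2 ∣ M' * r ∨ 3 ∣ M' * r) (hpMr : ¬ p ∣ M' * r)
    (A : ValuationSubring Qb) (hA : A.LiesOverPrime p)
    [CharP (IsLocalRing.ResidueField A) p] [IsAlgClosed (IsLocalRing.ResidueField A)]
    (hcount : ∀ (Sg : Finset (Place (IsLocalRing.ResidueField A)
        ↥(modularFunctionFieldFullC (IsLocalRing.ResidueField A) (M' * r)))) (n0 : ℕ),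
      h37_NodeBlock (M' * r) p hpMr A hA Sg n0 →
      ∃ (B F0 : Subring ↥(modularFunctionFieldBar (M' * r * p)))
        (T : Finset (Place (IsLocalRing.ResidueField A)
          ↥(modularFunctionFieldFullC (IsLocalRing.ResidueField A) (M' * r))))
        (u0 : ↥(modularFunctionFieldBar (M' * r * p))) (C : ℤ),
        h81_CountHyp (h60_R1 (M' * r) p hpMr A hA) (h60_R2 (M' * r) p hpMr A hA)
          (h87_D (M' * r) p hpMr A hA) (h87_D0 (M' * r) p hpMr)
          (h11_placeInftyC (IsLocalRing.ResidueField A) (M' * r)) Sg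
          (h96_frobPerm (h84_isFrobChart_jk (M' * r) p hpMr A hA)) B F0 T (p : Qb) u0 C)
    (hT8 : ∀ (Sg : Finset (Place (IsLocalRing.ResidueField A)
        ↥(modularFunctionFieldFullC (IsLocalRing.ResidueField A) (M' * r)))) (n0 : ℕ),
      h37_NodeBlock (M' * r) p hpMr A hA Sg n0 →
      ∀ y : JZero (M' * r * p), p • y = 0 →
      (∀ (ℓ : ℕ) (hℓ : ℓ.Prime), W.IsGoodPrimeFor ℓ → ¬ ℓ ∣ M' * r * p → ℓ ≠ p →
        heckeOperatorBar (M' * r * p) ⟨ℓ, hℓ⟩ y = W.apOfModel ℓ • y) →
      h67_Jnew (M' * r) p y →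
      ∀ z w : Qb, A.valuation z = 1 → (∀ g ∈ A.inertiaSubgroupIn ℚ, g z = z) →
        (1 + w) ^ p = 1 + (p : Qb) * z →
        ∀ (D : Divisor.degZero (K := Qb) (F := modularFunctionFieldBar (M' * r * p)))
          (u : modularFunctionFieldBar (M' * r * p)),
          Pic0.mk D = y → u ≠ 0 → h69_lc (M' * r * p) u = 1 →
          (∀ v : Place Qb (modularFunctionFieldBar (M' * r * p)),
            (p : ℤ) * (D : Divisor Qb (modularFunctionFieldBar (M' * r * p))) v = v.ord u) →
          (∀ g ∈ A.inertiaSubgroupIn ℚ, g w = w →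
            arithmeticGalois (modularFunctionFieldFull (M' * r * p)) g •
              (D : Divisor Qb (modularFunctionFieldBar (M' * r * p))) = D) →
          (∀ g ∈ A.inertiaSubgroupIn ℚ, g w = w →
            arithmeticGalois (modularFunctionFieldFull (M' * r * p)) g • u = u) →
          h92_T8Out (M' * r) p hpMr A hA Sg
            (h96_frobPerm (h84_isFrobChart_jk (M' * r) p hpMr A hA)) u) :
    h67_RowsStmt W M' p r hpMr A hA := by
  refine h37_rows_of W M' p r hch hpMr A hA ?_ hT8
  intro Sg n0 hblock u hu E hE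
  obtain ⟨B, F0, T, u0, C, H⟩ := hcount Sg n0 hblock
  exact h31_w6_out_of_count (M' * r) p hpMr A hA Sg hblock.1 n0 hblock.2.2.2 H u hu E hE

set_option maxHeartbeats 1600000 in
/-- **The rows statement from the count instance (S1), (E2) at the nodes and (TR*)** (ord-form
of row T8). -/
theorem h37_rows_of_ord (W : WeierstrassCurve ℤ) (M' p r : ℕ) [Fact p.Prime] [NeZero p]
    [NeZero M'] [NeZero r] (hch : 5 ≤ p ∨ 2 ∣ M' * r ∨ 3 ∣ M' * r) (hpMr : ¬ p ∣ M' * r)
    (A : ValuationSubring Qb) (hA : A.LiesOverPrime p)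
    [CharP (IsLocalRing.ResidueField A) p] [IsAlgClosed (IsLocalRing.ResidueField A)]
    (ℓ : ℕ) [NeZero ℓ] (hℓ : ℓ.Prime) (hℓN : ¬ ℓ ∣ M' * r * p) (hℓp : ℓ ≠ p)
    (hgood : W.IsGoodPrimeFor ℓ) (ha : ¬ (p : ℤ) ∣ (ℓ : ℤ) + 1 - W.apOfModel ℓ)
    (hpMℓ : ¬ p ∣ M' * r * ℓ)
    (hcount : ∀ (Sg : Finset (Place (IsLocalRing.ResidueField A)
        ↥(modularFunctionFieldFullC (IsLocalRing.ResidueField A) (M' * r)))) (n0 : ℕ),
      h37_NodeBlock (M' * r) p hpMr A hA Sg n0 →
      ∃ (B F0 : Subring ↥(modularFunctionFieldBar (M' * r * p)))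
        (T : Finset (Place (IsLocalRing.ResidueField A)
          ↥(modularFunctionFieldFullC (IsLocalRing.ResidueField A) (M' * r))))
        (u0 : ↥(modularFunctionFieldBar (M' * r * p))) (C : ℤ),
        h81_CountHyp (h60_R1 (M' * r) p hpMr A hA) (h60_R2 (M' * r) p hpMr A hA)
          (h87_D (M' * r) p hpMr A hA) (h87_D0 (M' * r) p hpMr)
          (h11_placeInftyC (IsLocalRing.ResidueField A) (M' * r)) Sg
          (h96_frobPerm (h84_isFrobChart_jk (M' * r) p hpMr A hA)) B F0 T (p : Qb) u0 C)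
    (hE2 : ∀ (Sg : Finset (Place (IsLocalRing.ResidueField A)
        ↥(modularFunctionFieldFullC (IsLocalRing.ResidueField A) (M' * r)))) (n0 : ℕ),
      h37_NodeBlock (M' * r) p hpMr A hA Sg n0 →
      letI := algebraAlong (h10_alphaC (IsLocalRing.ResidueField A) (M' * r) ℓ)
      haveI := isScalarTower_along (h10_alphaC (IsLocalRing.ResidueField A) (M' * r) ℓ)
      haveI := h23_finite_alphaC (M' * r) A hA ℓ hpMℓ
      (∀ w : Place (IsLocalRing.ResidueField A)
          ↥(modularFunctionFieldFullC (IsLocalRing.ResidueField A) (M' * r * ℓ)),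
        w.restrict ↥(modularFunctionFieldFullC (IsLocalRing.ResidueField A) (M' * r)) ∈
            (h96_frobPerm (h84_isFrobChart_jk (M' * r) p hpMr A hA)) ''
              (↑Sg : Set (Place (IsLocalRing.ResidueField A)
                ↥(modularFunctionFieldFullC (IsLocalRing.ResidueField A) (M' * r)))) →
          w.ramificationIndex
            ↥(modularFunctionFieldFullC (IsLocalRing.ResidueField A) (M' * r)) = 1) ∧
      (∀ w : Place (IsLocalRing.ResidueField A)
          ↥(modularFunctionFieldFullC (IsLocalRing.ResidueField A) (M' * r * ℓ)),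
        w.restrict ↥(modularFunctionFieldFullC (IsLocalRing.ResidueField A) (M' * r)) ∈
            (h96_frobPerm (h84_isFrobChart_jk (M' * r) p hpMr A hA)) ''
              (↑Sg : Set (Place (IsLocalRing.ResidueField A)
                ↥(modularFunctionFieldFullC (IsLocalRing.ResidueField A) (M' * r)))) →
          ∃ ν₂ ∈ (h96_frobPerm (h84_isFrobChart_jk (M' * r) p hpMr A hA)) ''
              (↑Sg : Set (Place (IsLocalRing.ResidueField A)
                ↥(modularFunctionFieldFullC (IsLocalRing.ResidueField A) (M' * r)))),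
            ∀ g : ↥(modularFunctionFieldFullC (IsLocalRing.ResidueField A) (M' * r)),
              w.ord (h2_betaC (IsLocalRing.ResidueField A) (M' * r) ℓ g) = ν₂.ord g))
    (hW7 : ∀ (Sg : Finset (Place (IsLocalRing.ResidueField A)
        ↥(modularFunctionFieldFullC (IsLocalRing.ResidueField A) (M' * r)))) (n0 : ℕ),
      h37_NodeBlock (M' * r) p hpMr A hA Sg n0 →
      ∀ y : JZero (M' * r * p), p • y = 0 →
      (∀ (ℓ : ℕ) (hℓ : ℓ.Prime), W.IsGoodPrimeFor ℓ → ¬ ℓ ∣ M' * r * p → ℓ ≠ p →
        heckeOperatorBar (M' * r * p) ⟨ℓ, hℓ⟩ y = W.apOfModel ℓ • y) →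
      h67_Jnew (M' * r) p y →
      ∀ z w : Qb, A.valuation z = 1 → (∀ g ∈ A.inertiaSubgroupIn ℚ, g z = z) →
        (1 + w) ^ p = 1 + (p : Qb) * z →
        ∀ (D : Divisor.degZero (K := Qb) (F := modularFunctionFieldBar (M' * r * p)))
          (u : modularFunctionFieldBar (M' * r * p)),
          Pic0.mk D = y → u ≠ 0 → h69_lc (M' * r * p) u = 1 →
          (∀ v : Place Qb (modularFunctionFieldBar (M' * r * p)),
            (p : ℤ) * (D : Divisor Qb (modularFunctionFieldBar (M' * r * p))) v = v.ord u) →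
          (∀ g ∈ A.inertiaSubgroupIn ℚ, g w = w →
            arithmeticGalois (modularFunctionFieldFull (M' * r * p)) g •
              (D : Divisor Qb (modularFunctionFieldBar (M' * r * p))) = D) →
          (∀ g ∈ A.inertiaSubgroupIn ℚ, g w = w →
            arithmeticGalois (modularFunctionFieldFull (M' * r * p)) g • u = u) →
          ∀ Q ∈ Sg, ∀ Q' ∈ Sg, (p : ℤ) ∣
            h43_rord (h60_R1 (M' * r) p hpMr A hA)
                (h96_frobPerm (h84_isFrobChart_jk (M' * r) p hpMr A hA) Q) u -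
              h43_rord (h60_R1 (M' * r) p hpMr A hA)
                (h96_frobPerm (h84_isFrobChart_jk (M' * r) p hpMr A hA) Q') u) :
    h67_RowsStmt W M' p r hpMr A hA := by
  have hℓM : ¬ ℓ ∣ M' * r := fun h => hℓN (Dvd.dvd.mul_right h p)
  refine h37_rows_of_count W M' p r hch hpMr A hA hcount ?_
  intro Sg n0 hblock y hpy hTy hnew z w hz hzI hw D u hD hu hlc hdiv hDfix hufix
  have hT : heckeOperatorBar (M' * r * p) ⟨ℓ, hℓ⟩ (Pic0.mk D) = W.apOfModel ℓ • Pic0.mk D := by
    rw [hD]
    exact hTy ℓ hℓ hgood hℓN hℓp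
  exact h23_T8Out_of_E2_image (M' * r) p hpMr A hA ℓ hpMℓ hℓ hℓM Sg
    (h96_frobPerm (h84_isFrobChart_jk (M' * r) p hpMr A hA))
    (hE2 Sg n0 hblock).1 (hE2 Sg n0 hblock).2 (W.apOfModel ℓ) ha D u hu hdiv hT
    (hW7 Sg n0 hblock y hpy hTy hnew z w hz hzI hw D u hD hu hlc hdiv hDfix hufix)

end Fermat.Agent.S40

end
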