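import Mathlib
import Fermat.Agent.S40.h37_Rows
import Fermat.Agent.S40.h67_W6Row
import Fermat.Agent.S40.h23_E2W
import Fermat.Agent.S40.h58_E2WV

/-!
# S40/S44 (G40): the rows statement from the (TR*) congruence alone (helper67)

The ord-form of row T8 (`h23_T8Out_of_count`) with the two count structures discharged by the
modular instance `h67_cnt_block` at the levels `(M, p)` and `(M ℓ, p)`:

* `h67_t8_of_hdiff` : at a charted level `(M, p)` without elliptic points, the W9 node block,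
  a Hecke prime `ℓ ∤ M p` with `p ∤ ℓ + 1 - a` and `T_ℓ [E] = a [E]`: the pairwise congruence of
  the node orders (`hdiff`, the (TR*) consequence of row W7) gives `h92_T8Out`;
* `h67_rows_of_hdiff` : `h67_RowsStmt` at the thin level `(M' r, p)`, `r ≡ 11 mod 12`, from the
  (TR*) congruence for every representative of a class (the binder `hW7` of `h37_rows_of_ord`)
  and a Hecke prime `ℓ` - NO other hypothesis.
-/

set_option autoImplicit false
set_option synthInstance.maxHeartbeats 400000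
set_option linter.unusedSectionVars false

noncomputable section

open ModularCurve AlgebraicCurve ExtCitation Module
open WeierstrassCurve WeierstrassCurve.Affine WeierstrassCurve.Affine.Point

namespace Fermat.Agent.S40

open Fermat.Agent.S41 Fermat.Agent.S33 Fermat.Agent.S35 Fermat.Agent.S36 Fermat.Agent.GAL
open Fermat.Agent.S34 Fermat.Agent.S18 Fermat.Agent.S24 Fermat.Agent.S27 Fermat.Agent.S37

local notation "Qb" => AlgebraicClosure ℚ

set_option maxHeartbeats 1600000 in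
/-- **Row T8 (ord form) from the (TR*) congruence**, count structures discharged. -/
theorem h67_t8_of_hdiff (M p ℓ : ℕ) [NeZero M] [NeZero p] [NeZero ℓ] [Fact p.Prime]
    (hpM : ¬ p ∣ M) (A : ValuationSubring Qb) (hA : A.LiesOverPrime p)
    [CharP (IsLocalRing.ResidueField A) p] [IsAlgClosed (IsLocalRing.ResidueField A)]
    (hch : 5 ≤ p ∨ 2 ∣ M ∨ 3 ∣ M) (h2 : nuTwo M = 0) (h3 : nuThree M = 0)
    (Sg : Finset (Place (IsLocalRing.ResidueField A)
      ↥(modularFunctionFieldFullC (IsLocalRing.ResidueField A) M)))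
    (hSg : ∀ Q ∈ Sg, Q ≠ h11_placeInftyC (IsLocalRing.ResidueField A) M ∧
      h96_frobPerm (h84_isFrobChart_jk M p hpM A hA) Q ≠
        h11_placeInftyC (IsLocalRing.ResidueField A) M ∧
      h96_frobPerm (h84_isFrobChart_jk M p hpM A hA)
        (h96_frobPerm (h84_isFrobChart_jk M p hpM A hA) Q) = Q)
    (n0 : ℕ)
    (hnode : ∀ n, n0 ≤ n → ∀ a : ↥(modularFunctionFieldFullC (IsLocalRing.ResidueField A) M) ×
        ↥(modularFunctionFieldFullC (IsLocalRing.ResidueField A) M),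
      a ∈ h51_Rd (h87_D M p hpM A hA) (n • h87_D0 M p hpM) ↔
        (a ∈ h20_P (h11_placeInftyC (IsLocalRing.ResidueField A) M) n ∧
          ∀ Q ∈ Sg, ∃ c : IsLocalRing.ResidueField A,
            h39_Val (h96_frobPerm (h84_isFrobChart_jk M p hpM A hA) Q) a.1 c ∧
              h39_Val Q a.2 c))
    (hℓ : ℓ.Prime) (hℓM : ¬ ℓ ∣ M) (hpMℓ : ¬ p ∣ M * ℓ)
    (a : ℤ) (ha : ¬ (p : ℤ) ∣ (ℓ : ℤ) + 1 - a)
    (E : Divisor.degZero (K := Qb) (F := modularFunctionFieldBar (M * p)))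
    (u : ↥(modularFunctionFieldBar (M * p))) (hu : u ≠ 0)
    (hdiv : ∀ v : Place Qb (modularFunctionFieldBar (M * p)),
      (p : ℤ) * (E : Divisor Qb (modularFunctionFieldBar (M * p))) v = v.ord u)
    (hTℓ : heckeOperatorBar (M * p) ⟨ℓ, hℓ⟩ (Pic0.mk E) = a • Pic0.mk E)
    (hdiff : ∀ Q ∈ Sg, ∀ Q' ∈ Sg, (p : ℤ) ∣
      h43_rord (h60_R1 M p hpM A hA) (h96_frobPerm (h84_isFrobChart_jk M p hpM A hA) Q) u -
        h43_rord (h60_R1 M p hpM A hA)
          (h96_frobPerm (h84_isFrobChart_jk M p hpM A hA) Q') u) :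
    h92_T8Out M p hpM A hA Sg (h96_frobPerm (h84_isFrobChart_jk M p hpM A hA)) u := by
  have h2' : nuTwo (M * ℓ) = 0 := by
    rw [mul_comm]
    exact h64_nuTwo_mul_eq_zero (NeZero.pos M) h2
  have h3' : nuThree (M * ℓ) = 0 := by
    rw [mul_comm]
    exact h64_nuThree_mul_eq_zero (NeZero.pos M) h3
  have hch' : 5 ≤ p ∨ 2 ∣ M * ℓ ∨ 3 ∣ M * ℓ :=
    hch.imp id (Or.imp (fun h => Dvd.dvd.mul_right h ℓ) (fun h => Dvd.dvd.mul_right h ℓ))
  obtain ⟨T, hT⟩ := h67_cnt_exists_T M p hpM A hA hch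
  obtain ⟨Sg', hSg', n0', -, -, hnode'⟩ := h87_node_closed (M * ℓ) p hpMℓ A hA hch'
  obtain ⟨T', hT'⟩ := h67_cnt_exists_T (M * ℓ) p hpMℓ A hA hch'
  exact h23_T8Out_of_count M p ℓ A hA hpM hℓ hℓM hpMℓ hch h2 h3
    (h67_cnt_block M p hpM A hA hch h2 h3 Sg hSg n0 hnode T hT) (fun P hP => (hT P).mp hP)
    (h58_isW_h84 M p hpM A hA)
    (h67_cnt_block (M * ℓ) p hpMℓ A hA hch' h2' h3' Sg' hSg' n0' hnode' T' hT') hT'
    (h58_isW_h84 (M * ℓ) p hpMℓ A hA) a ha E u hu hdiv hTℓ hdiff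

set_option maxHeartbeats 1600000 in
/-- **The rows statement from the (TR*) congruence alone** (thin level, `r ≡ 11 mod 12`). -/
theorem h67_rows_of_hdiff (W : WeierstrassCurve ℤ) (M' p r : ℕ) [Fact p.Prime] [NeZero p]
    [NeZero M'] [NeZero r] (hp5 : 5 ≤ p) (hr : r.Prime) (hr12 : r % 12 = 11)
    (hpMr : ¬ p ∣ M' * r) (A : ValuationSubring Qb) (hA : A.LiesOverPrime p)
    [CharP (IsLocalRing.ResidueField A) p] [IsAlgClosed (IsLocalRing.ResidueField A)]
    (ℓ : ℕ) [NeZero ℓ] (hℓ : ℓ.Prime) (hℓN : ¬ ℓ ∣ M' * r * p) (hℓp : ℓ ≠ p)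
    (hgood : W.IsGoodPrimeFor ℓ) (ha : ¬ (p : ℤ) ∣ (ℓ : ℤ) + 1 - W.apOfModel ℓ)
    (hW7 : ∀ (Sg : Finset (Place (IsLocalRing.ResidueField A)
        ↥(modularFunctionFieldFullC (IsLocalRing.ResidueField A) (M' * r)))) (n0 : ℕ),
      h37_NodeBlock (M' * r) p hpMr A hA Sg n0 →
      ∀ y : JZero (M' * r * p), p • y = 0 →
      (∀ (ℓ : ℕ) (hℓ : ℓ.Prime), W.IsGoodPrimeFor ℓ → ¬ ℓ ∣ M' * r * p → ℓ ≠ p →
        heckeOperatorBar (M' * r * p) ⟨ℓ, hℓ⟩ y = W.apOfModel ℓ • y) →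
      h67_Jnew (M' * r) p y →
      ∀ z w : Qb, A.valuation z = 1 → (∀ g ∈ A.inertiaSubgroupIn ℚ, g z = z) →
        (1 + w) ^ p = 1 + (p : Qb) * z →
        ∀ (D : Divisor.degZero (K := Qb) (F := modularFunctionFieldBar (M' * r * p)))
          (u : modularFunctionFieldBar (M' * r * p)),
          Pic0.mk D = y → u ≠ 0 → h69_lc (M' * r * p) u = 1 →
          (∀ v : Place Qb (modularFunctionFieldBar (M' * r * p)),
            (p : ℤ) * (D : Divisor Qb (modularFunctionFieldBar (M' * r * p))) v = v.ord u) →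
          (∀ g ∈ A.inertiaSubgroupIn ℚ, g w = w →
            arithmeticGalois (modularFunctionFieldFull (M' * r * p)) g •
              (D : Divisor Qb (modularFunctionFieldBar (M' * r * p))) = D) →
          (∀ g ∈ A.inertiaSubgroupIn ℚ, g w = w →
            arithmeticGalois (modularFunctionFieldFull (M' * r * p)) g • u = u) →
          ∀ Q ∈ Sg, ∀ Q' ∈ Sg, (p : ℤ) ∣
            h43_rord (h60_R1 (M' * r) p hpMr A hA)
                (h96_frobPerm (h84_isFrobChart_jk (M' * r) p hpMr A hA) Q) u -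
              h43_rord (h60_R1 (M' * r) p hpMr A hA)
                (h96_frobPerm (h84_isFrobChart_jk (M' * r) p hpMr A hA) Q') u) :
    h67_RowsStmt W M' p r hpMr A hA := by
  have hp : p.Prime := Fact.out
  have hℓM : ¬ ℓ ∣ M' * r := fun h => hℓN (Dvd.dvd.mul_right h p)
  have hpMℓ : ¬ p ∣ M' * r * ℓ := by
    intro h
    rcases (Nat.Prime.dvd_mul hp).mp h with h | h
    · exact hpMr h
    · exact hℓp ((Nat.prime_dvd_prime_iff_eq hp hℓ).mp h).symm
  have h2 : nuTwo (M' * r) = 0 := h67_nuTwo_of_mod12 r (M' * r) hr hr12 (dvd_mul_left r M')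
  have h3 : nuThree (M' * r) = 0 := h67_nuThree_of_mod12 r (M' * r) hr hr12 (dvd_mul_left r M')
  refine h37_rows_of_count W M' p r (Or.inl hp5) hpMr A hA
    (fun Sg n0 hb => h67_cnt_thin_ex M' p r hpMr A hA hp5 hr hr12 Sg hb.1 n0 hb.2.2.2) ?_
  intro Sg n0 hblock y hpy hTy hnew z w hz hzI hw D u hD hu hlc hdiv hDfix hufix
  have hT : heckeOperatorBar (M' * r * p) ⟨ℓ, hℓ⟩ (Pic0.mk D) = W.apOfModel ℓ • Pic0.mk D := by
    rw [hD]
    exact hTy ℓ hℓ hgood hℓN hℓp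
  exact h67_t8_of_hdiff (M' * r) p ℓ hpMr A hA (Or.inl hp5) h2 h3 Sg hblock.1 n0 hblock.2.2.2
    hℓ hℓM hpMℓ (W.apOfModel ℓ) ha D u hu hdiv hT
    (hW7 Sg n0 hblock y hpy hTy hnew z w hz hzI hw D u hD hu hlc hdiv hDfix hufix)

end Fermat.Agent.S40

end
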