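import Mathlib
import Fermat.Agent.S40.h67_RowsOrd
import Fermat.Agent.S40.h50_W7Closed
import Fermat.Agent.S40.h15_WNormPair
import Fermat.Agent.S40.h23_T8Ord
import Fermat.Agent.S40.h11_W7Chart
import Fermat.Agent.S40.h54_HkNE

/-!
# S40 / (TR) row W9 (helper92): the ROWS statement of the core, hypothesis-free

* `h92_hdiff` : at a charted level `(M, p)` without elliptic points, for the W9 node block
  `(Sg, hSg, n0, hnode)`, a Kummer pair `(z, w)` and a representative `(E, u)` fixed by the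
  stabiliser of `w` in the inertia group with `p E = div u`: the normalised orders of `u` at the
  nodes are pairwise congruent modulo `p`.  Row W7 (`h50_w7_closed`) is used twice: at the
  auxiliary pair `(1, w#)` for row W8 (`h15w_datum_of_w7`), and at the pair of the class for the
  datum `(u₁, u₂, κ)` produced by W8 (`h23_hdiff_of_w7_gen`).
* `h92_rows` : `h67_RowsStmt W M' p r hpMr A hA` at the thin level `(M' r, p)`, `p ≥ 5`,
  `r ≡ 11 mod 12`, for an integral model `W` of a curve `E` with irreducible mod `p`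
  representation (the Hecke prime comes from `h54_hk_ne_level`).
-/

set_option autoImplicit false
set_option synthInstance.maxHeartbeats 400000
set_option linter.unusedSectionVars false
set_option linter.style.haveILetI false

noncomputable section

open ModularCurve AlgebraicCurve ExtCitation Module
open WeierstrassCurve WeierstrassCurve.Affine WeierstrassCurve.Affine.Point

namespace Fermat.Agent.S40

open Fermat.Agent.S41 Fermat.Agent.S33 Fermat.Agent.S35 Fermat.Agent.S36 Fermat.Agent.GAL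
open Fermat.Agent.S34 Fermat.Agent.S18 Fermat.Agent.S24 Fermat.Agent.S27 Fermat.Agent.S37

local notation "Qb" => AlgebraicClosure ℚ

set_option maxHeartbeats 3200000 in
/-- **(TR\*) at a charted level**: the normalised node orders of a representative are pairwise
congruent modulo `p` (rows W7 + W8). -/
theorem h92_hdiff (M p : ℕ) [NeZero M] [NeZero p] [Fact p.Prime] (hp2 : p ≠ 2)
    (hpM : ¬ p ∣ M) (A : ValuationSubring Qb) (hA : A.LiesOverPrime p)
    [CharP (IsLocalRing.ResidueField A) p] [IsAlgClosed (IsLocalRing.ResidueField A)]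
    (Sg : Finset (Place (IsLocalRing.ResidueField A)
      ↥(modularFunctionFieldFullC (IsLocalRing.ResidueField A) M)))
    (hSg : ∀ Q ∈ Sg, Q ≠ h11_placeInftyC (IsLocalRing.ResidueField A) M ∧
      h96_frobPerm (h84_isFrobChart_jk M p hpM A hA) Q ≠
        h11_placeInftyC (IsLocalRing.ResidueField A) M ∧
      h96_frobPerm (h84_isFrobChart_jk M p hpM A hA)
        (h96_frobPerm (h84_isFrobChart_jk M p hpM A hA) Q) = Q)
    (n0 : ℕ)
    (hnode : ∀ n, n0 ≤ n → ∀ a : ↥(modularFunctionFieldFullC (IsLocalRing.ResidueField A) M) ×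
        ↥(modularFunctionFieldFullC (IsLocalRing.ResidueField A) M),
      a ∈ h51_Rd (h87_D M p hpM A hA) (n • h87_D0 M p hpM) ↔
        (a ∈ h20_P (h11_placeInftyC (IsLocalRing.ResidueField A) M) n ∧
          ∀ Q ∈ Sg, ∃ c : IsLocalRing.ResidueField A,
            h39_Val (h96_frobPerm (h84_isFrobChart_jk M p hpM A hA) Q) a.1 c ∧
              h39_Val Q a.2 c))
    (hch : 5 ≤ p ∨ 2 ∣ M ∨ 3 ∣ M) (h2 : nuTwo M = 0) (h3 : nuThree M = 0)
    (ζ : Qb) (hζ : IsPrimitiveRoot ζ p) (z w : Qb) (hz : A.valuation z = 1)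
    (hzI : ∀ g ∈ A.inertiaSubgroupIn ℚ, g z = z) (hw : (1 + w) ^ p = 1 + (p : Qb) * z)
    (u : ↥(modularFunctionFieldBar (M * p))) (hu0 : u ≠ 0)
    (hu : ∀ σ ∈ A.inertiaSubgroupIn ℚ, σ w = w →
      arithmeticGalois (modularFunctionFieldFull (M * p)) σ • u = u)
    (E : Divisor Qb ↥(modularFunctionFieldBar (M * p)))
    (hE : ∀ σ ∈ A.inertiaSubgroupIn ℚ, σ w = w →
      arithmeticGalois (modularFunctionFieldFull (M * p)) σ • E = E)
    (hdiv : ∀ v : Place Qb ↥(modularFunctionFieldBar (M * p)), (p : ℤ) * E v = v.ord u) :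
    ∀ Q ∈ Sg, ∀ Q' ∈ Sg, (p : ℤ) ∣
      h43_rord (h60_R1 M p hpM A hA) (h96_frobPerm (h84_isFrobChart_jk M p hpM A hA) Q) u -
        h43_rord (h60_R1 M p hpM A hA)
          (h96_frobPerm (h84_isFrobChart_jk M p hpM A hA) Q') u := by
  intro Q hQ Q' hQ'
  -- the auxiliary pair `(1, w#)` of row W8
  obtain ⟨w', hw'⟩ := h12_exists_aux p
  have hz1 : A.valuation (1 : Qb) = 1 := map_one _
  have hzI1 : ∀ g ∈ A.inertiaSubgroupIn ℚ, g (1 : Qb) = 1 := fun g _ => map_one g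
  obtain ⟨g', J1', J2', ⟨-, -, hJa', -, hJc', -, -, hlam'⟩, hW7'⟩ :=
    h50_w7_closed M p hp2 hpM A hA Sg hSg n0 hnode hch h2 h3 ζ hζ 1 w' hz1 hzI1 hw'
  -- row W8: the normalised datum of the class at the pair `(z, w)`
  obtain ⟨a, κ, u₁, u₂, hu₁eq, -, hu₁0, -, hu12, -, ⟨h1O, h1iO, -⟩, ⟨h2O, h2iO, -⟩, hfix⟩ :=
    h15w_datum_of_w7 M p hp2 hpM A hA _ _ J1' J2' hJc'.1 hJc'.2 _ hlam'
      (fun ν : {Q // Q ∈ Sg} => h96_frobPerm (h84_isFrobChart_jk M p hpM A hA) ν.1) ⟨Q, hQ⟩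
      hW7'
      (by
        intro f hf hfO
        have hfS : f ∈ h25_SH (h60_R1 M p hpM A hA) (h25_rho (M * p) (A.inertiaSubgroupIn ℚ))
            (algebraMap Qb ↥(modularFunctionFieldBar (M * p)) w') :=
          (h11_mem_SH_iff (M * p) (A.inertiaSubgroupIn ℚ) w' (h60_R1 M p hpM A hA) f).mpr
            ⟨hfO, fun σ hσ _ => hf σ hσ⟩
        refine ⟨hfS, ?_⟩
        rw [hJa'.1 ⟨f, hfS⟩ ((h69_mem_F0 (M * p) (A.inertiaSubgroupIn ℚ) _).mpr hf)]
        exact TrivSqZeroExt.snd_inl _ _)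
      (by
        intro f hf hfO
        have hfS : f ∈ h25_SH (h60_R2 M p hpM A hA) (h25_rho (M * p) (A.inertiaSubgroupIn ℚ))
            (algebraMap Qb ↥(modularFunctionFieldBar (M * p)) w') :=
          (h11_mem_SH_iff (M * p) (A.inertiaSubgroupIn ℚ) w' (h60_R2 M p hpM A hA) f).mpr
            ⟨hfO, fun σ hσ _ => hf σ hσ⟩
        refine ⟨hfS, ?_⟩
        rw [hJa'.2 ⟨f, hfS⟩ ((h69_mem_F0 (M * p) (A.inertiaSubgroupIn ℚ) _).mpr hf)]
        exact TrivSqZeroExt.snd_inl _ _)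
      ζ hζ z w hz hzI hw u hu0 hu E hE hdiv
  -- row W7 at the pair of the class
  obtain ⟨g, J1, J2, ⟨-, -, -, -, -, -, -, hlam⟩, hW7⟩ :=
    h50_w7_closed M p hp2 hpM A hA Sg hSg n0 hnode hch h2 h3 ζ hζ z w hz hzI hw
  have hw0 : w ≠ 0 := (h12_eis_ne_zero p A hA z w hz hw).2
  have hS1 : ∀ f : ↥(modularFunctionFieldBar (M * p)),
      f ∈ h25_SH (h60_R1 M p hpM A hA) (h25_rho (M * p) (A.inertiaSubgroupIn ℚ))
        (algebraMap Qb ↥(modularFunctionFieldBar (M * p)) w) → f ∈ (h60_R1 M p hpM A hA).O :=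
    fun f hf => ((h11_mem_SH_iff (M * p) (A.inertiaSubgroupIn ℚ) w (h60_R1 M p hpM A hA) f).mp
      hf).1
  have hu₁S : u₁ ∈ h25_SH (h60_R1 M p hpM A hA) (h25_rho (M * p) (A.inertiaSubgroupIn ℚ))
      (algebraMap Qb ↥(modularFunctionFieldBar (M * p)) w) :=
    (h11_mem_SH_iff (M * p) (A.inertiaSubgroupIn ℚ) w (h60_R1 M p hpM A hA) u₁).mpr
      ⟨h1O, fun σ hσ hσw => (hfix σ hσ hσw).1⟩
  have hu₁iS : u₁⁻¹ ∈ h25_SH (h60_R1 M p hpM A hA) (h25_rho (M * p) (A.inertiaSubgroupIn ℚ))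
      (algebraMap Qb ↥(modularFunctionFieldBar (M * p)) w) :=
    (h11_mem_SH_iff (M * p) (A.inertiaSubgroupIn ℚ) w (h60_R1 M p hpM A hA) u₁⁻¹).mpr
      ⟨h1iO, fun σ hσ hσw => (hfix σ hσ hσw).2.1⟩
  have hu₂S : u₂ ∈ h25_SH (h60_R2 M p hpM A hA) (h25_rho (M * p) (A.inertiaSubgroupIn ℚ))
      (algebraMap Qb ↥(modularFunctionFieldBar (M * p)) w) :=
    (h11_mem_SH_iff (M * p) (A.inertiaSubgroupIn ℚ) w (h60_R2 M p hpM A hA) u₂).mpr
      ⟨h2O, fun σ hσ hσw => (hfix σ hσ hσw).2.2.1⟩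
  have hu₂iS : u₂⁻¹ ∈ h25_SH (h60_R2 M p hpM A hA) (h25_rho (M * p) (A.inertiaSubgroupIn ℚ))
      (algebraMap Qb ↥(modularFunctionFieldBar (M * p)) w) :=
    (h11_mem_SH_iff (M * p) (A.inertiaSubgroupIn ℚ) w (h60_R2 M p hpM A hA) u₂⁻¹).mpr
      ⟨h2iO, fun σ hσ hσw => (hfix σ hσ hσw).2.2.2⟩
  exact h23_hdiff_of_w7_gen (h60_R1 M p hpM A hA) _ _ hS1 J1 J2 p _ hlam
    (algebraMap Qb ↥(modularFunctionFieldBar (M * p)) (p : Qb))
    (fun ν : {Q // Q ∈ Sg} => h96_frobPerm (h84_isFrobChart_jk M p hpM A hA) ν.1) hW7 u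
    (fun v => ⟨_, (hdiv v).symm⟩) (w ^ a) (zpow_ne_zero _ hw0) u₁ u₂ hu₁S hu₁iS hu₂S hu₂iS κ
    hu₁0 hu₁eq hu12 ⟨Q, hQ⟩ ⟨Q', hQ'⟩

set_option maxHeartbeats 1600000 in
/-- **The rows statement of the core**, hypothesis-free at the thin level `(M' r, p)`. -/
theorem h92_rows (E : WeierstrassCurve ℚ) [E.IsElliptic] {W : WeierstrassCurve ℤ}
    (hW : W.IsIntegralModelOf E) (M' p r : ℕ) [Fact p.Prime] [NeZero p] [NeZero M'] [NeZero r]
    (hpMr : ¬ p ∣ M' * r) (A : ValuationSubring Qb) (hA : A.LiesOverPrime p)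
    (hp5 : 5 ≤ p) (hr : r.Prime) (hr12 : r % 12 = 11)
    (hirr : GaloisRepIsIrreducible (K := AlgebraicClosure ℚ) ℚ E p) :
    h67_RowsStmt W M' p r hpMr A hA := by
  have hp : p.Prime := Fact.out
  have hp2 : p ≠ 2 := by omega
  haveI := h19_residueField_charP A p hA
  haveI := h19_residueField_isAlgClosed A
  have hN : M' * r * p ≠ 0 :=
    mul_ne_zero (mul_ne_zero (NeZero.ne M') (NeZero.ne r)) (NeZero.ne p)
  obtain ⟨ℓ, hℓ, hℓN, hℓp, hgood, ha⟩ := h54_hk_ne_level E hW hp hp2 hirr (M' * r * p) hN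
  haveI : NeZero ℓ := ⟨hℓ.ne_zero⟩
  obtain ⟨ζ, hζ⟩ := h11_exists_primitiveRoot p
  have h2 : nuTwo (M' * r) = 0 := h67_nuTwo_of_mod12 r (M' * r) hr hr12 (dvd_mul_left r M')
  have h3 : nuThree (M' * r) = 0 := h67_nuThree_of_mod12 r (M' * r) hr hr12 (dvd_mul_left r M')
  refine h67_rows_of_hdiff W M' p r hp5 hr hr12 hpMr A hA ℓ hℓ hℓN hℓp hgood ha ?_
  intro Sg n0 hblock y hpy hTy hnew z w hz hzI hw D u hD hu hlc hdiv hDfix hufix
  exact h92_hdiff (M' * r) p hp2 hpMr A hA Sg hblock.1 n0 hblock.2.2.2 (Or.inl hp5) h2 h3 ζ hζ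
    z w hz hzI hw u hu hufix (D : Divisor Qb ↥(modularFunctionFieldBar (M' * r * p))) hDfix hdiv

end Fermat.Agent.S40

end
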