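import Mathlib
import Fermat.Agent.S40.h77_CoreTail
import Fermat.Agent.S40.h92_Rows

/-!
# S40/S44 (G40): the core theorem `h37_core` (helper37)

`h37_core` : an elliptic curve `E⁄ℚ` with integral model `W`, a prime `p ≥ 5` with `p ∥ M`,
`E[p]` irreducible, the `E`-side property `h37_ESide E p` (on main for the Frey curve:
`h26_ESide_frey`), `W` residually modular of level `M` at `p`
`⟹` `W` residually modular of level `M / p` at `p` (Mazur's principle at `p`).

Proof = the skeleton `h67_core_of_rows` (helper67: stage 1 `h55_stage1`, auxiliary prime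
`h32_aux_prime`, front `h67_front_peu`, W0 case split, (TR) chain `h92_tr_chain_of_rows`) with its
two open statements discharged:

* the thin-level tail `h67_TailStmt` = `h77_tail_thin` (helper77; inside `h77_core_of_TRrows`);
* the rows `h67_RowsStmt` = `h92_rows` (helper92: W6 + W7 + W8 + T8 at the thin level).

The frozen S44 is `h30_S44_light_of_h37core (fun E _ _ hW _ _ => h37_core E hW) ..`.
-/

set_option autoImplicit false
set_option synthInstance.maxHeartbeats 400000

noncomputable section

open ModularCurve AlgebraicCurve ExtCitation Module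
open WeierstrassCurve WeierstrassCurve.Affine WeierstrassCurve.Affine.Point

namespace Fermat.Agent.S40

/-- **The core theorem** (Mazur's principle at `p`, `p ≥ 5`, `p ∥ M`). -/
theorem h37_core (E : WeierstrassCurve ℚ) [E.IsElliptic] {W : WeierstrassCurve ℤ}
    (hW : W.IsIntegralModelOf E) {p M : ℕ} (hp : p.Prime) (hp5 : 5 ≤ p) (hM : 0 < M)
    (hpM : p ∣ M) (hp2M : ¬ p ^ 2 ∣ M)
    (hirr : WeierstrassCurve.Affine.Point.GaloisRepIsIrreducible (K := AlgebraicClosure ℚ) ℚ E p)
    (hE : h37_ESide E p)
    (hmod : W.IsResiduallyModularOfLevel p M) : W.IsResiduallyModularOfLevel p (M / p) := by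
  haveI : Fact p.Prime := ⟨hp⟩
  haveI : NeZero p := ⟨hp.ne_zero⟩
  exact h77_core_of_TRrows E hW hp5 hM hpM hp2M hirr hE 0
    (fun M' r _ _ _ _ hr _ hr12 _ _ hpMr A hA _ =>
      h92_rows E hW M' p r hpMr A hA hp5 hr hr12 hirr)
    hmod

end Fermat.Agent.S40

end
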