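/-
S40 (G40), row W7 (W-JUMP): generic jet adapters (helper38).

* `h38_isOm_eta` : **(Jd)** - for a first-order jet `J` with `J w = ε`, `J z = inl zb` and the
  Kummer relation `(1 + w)^p = 1 + p z`, the element `η` with `η w^p = p` has
  `(J η).fst * zb = 1` and logarithmic jet `zb⁻¹`.
* `h38_w7_gen` : **W7 for one datum**, with the two logarithmic jets chosen inside: from the
  binders of `h38_twist_w67` and lattices of the right rank for arbitrarily large `n`, constants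
  `Γ₁, Γ₂` with `Ω₁(u₁) = Γ₁`, `Ω₂(u₂) = Γ₂` and `Γ₂ - Γ₁ = (ord_{Q1 ν} red₁ u₁ - κ) λ`.
-/
import Mathlib
import Fermat.Agent.S40.h38_JumpW6
import Fermat.Agent.S40.h86_Jet
import Fermat.Agent.S40.h43_TailPt

set_option autoImplicit false

noncomputable section

open AlgebraicCurve Module

namespace Fermat.Agent.S40

open Fermat.Agent.S18 Fermat.Agent.S34 Fermat.Agent.S24

section Eta

variable {S B : Type*} [CommRing S] [Field B]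

/-- The elements with constant jet form a subring. -/
def h38_constSub (J : S →+* TrivSqZeroExt B B) : Subring S where
  carrier := {s | (J s).snd = 0}
  mul_mem' := by
    intro a b ha hb
    show (J (a * b)).snd = 0
    have ha' : (J a).snd = 0 := ha
    have hb' : (J b).snd = 0 := hb
    rw [map_mul, TrivSqZeroExt.snd_mul, ha', hb', smul_zero, smul_zero, add_zero]
  one_mem' := by
    show (J 1).snd = 0
    rw [map_one, TrivSqZeroExt.snd_one]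
  add_mem' := by
    intro a b ha hb
    show (J (a + b)).snd = 0
    have ha' : (J a).snd = 0 := ha
    have hb' : (J b).snd = 0 := hb
    rw [map_add, TrivSqZeroExt.snd_add, ha', hb', add_zero]
  zero_mem' := by
    show (J 0).snd = 0
    rw [map_zero, TrivSqZeroExt.snd_zero]
  neg_mem' := by
    intro a ha
    show (J (-a)).snd = 0
    have ha' : (J a).snd = 0 := ha
    rw [map_neg, TrivSqZeroExt.snd_neg, ha', neg_zero]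

/-- **(Jd)**: the jet of `η = p / w^p`. -/
theorem h38_isOm_eta (J : S →+* TrivSqZeroExt B B) (p : ℕ) (hp : p.Prime) (w z η : S) (zb : B)
    (hJw : J w = TrivSqZeroExt.inr 1) (hJz : J z = TrivSqZeroExt.inl zb)
    (hw : (1 + w) ^ p = 1 + (p : S) * z) (hη : η * w ^ p = (p : S))
    (hreg : ∀ s : S, (p : S) * s = 0 → s = 0) :
    (J η).fst * zb = 1 ∧ h38_IsOm J η zb⁻¹ := by
  set S0 : Subring S := h38_constSub J with hS0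
  let red : S0 →+* B :=
    ((TrivSqZeroExt.fstHom B B B : TrivSqZeroExt B B →ₐ[B] B) : TrivSqZeroExt B B →+* B).comp
      (J.comp S0.subtype)
  have hred : ∀ c : S0, red c = (J (c : S)).fst := fun c => rfl
  have hJc : ∀ c : S0, J (algebraMap S0 S c) = TrivSqZeroExt.inl (red c) := by
    intro c
    have hc : (J (c : S)).snd = 0 := c.2
    refine TrivSqZeroExt.ext ?_ ?_
    · rw [TrivSqZeroExt.fst_inl, hred]
      rfl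
    · rw [TrivSqZeroExt.snd_inl]
      exact hc
  have hz : z ∈ S0 := by
    show (J z).snd = 0
    rw [hJz, TrivSqZeroExt.snd_inl]
  have hw' : (1 + w) ^ p = 1 + (p : S) * algebraMap S0 S (⟨z, hz⟩ : S0) := hw
  obtain ⟨h1, h2⟩ := h86_om_eta_kummer red w J hJc hJw p hp (⟨z, hz⟩ : S0) hw' η hη hreg
  have hredz : red (⟨z, hz⟩ : S0) = zb := by
    rw [hred]
    show (J z).fst = zb
    rw [hJz, TrivSqZeroExt.fst_inl]
  rw [hredz] at h1 h2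
  refine ⟨h1, ?_⟩
  have hfst : (J η).fst ≠ 0 := by
    intro h0
    rw [h0, zero_mul] at h1
    exact zero_ne_one h1
  unfold h38_IsOm
  rw [h86_om_def] at h2
  have h3 : (J η).snd = (1 / zb) * (J η).fst := by
    rw [← h2, div_mul_cancel₀ _ hfst]
  rw [h3, one_div]

end Eta

section Interp

variable {K F k Fb : Type*} [Field K] [Field F] [Algebra K F] [Field k] [Field Fb] [Algebra k Fb]

/-- **W7 for one datum**, the logarithmic jets chosen inside. -/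
theorem h38_w7_gen [IsAlgClosed k] (R₁ R₂ : h39_RedDatum K F k Fb) (D0 : Divisor K F)
    (Qinf : Place k Fb) {Z : Type*} [Fintype Z] (Q1 Q2 : Z → Place k Fb)
    (hQ1i : Function.Injective Q1) (hQ2i : Function.Injective Q2)
    (hQ1 : ∀ ν, Q1 ν ≠ Qinf) (hQ2 : ∀ ν, Q2 ν ≠ Qinf)
    {xb : Fb} (hxb : h75_IsChart k xb) (n0 : ℕ)
    (hnode : h38_HNode R₁ R₂ D0 Qinf Q1 Q2 n0)
    (p : ℕ) [CharP k p] (hp : 0 < p) (π : K) (hπ0 : π ≠ 0) (hπ₁ : π ∈ R₁.A) (hπ₂ : π ∈ R₂.A)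
    (S1 S2 : Subring F) (hS1 : ∀ f ∈ S1, f ∈ R₁.O) (hS2 : ∀ f ∈ S2, f ∈ R₂.O)
    (J1 : S1 →+* TrivSqZeroExt Fb Fb) (J2 : S2 →+* TrivSqZeroExt Fb Fb)
    (hjet : h38_HJet R₁ R₂ D0 S1 S2 J1 J2)
    (hJ1 : ∀ f : S1, (J1 f).fst = R₁.redF f) (hJ2 : ∀ f : S2, (J2 f).fst = R₂.redF f)
    (w η : K) (hw : w ≠ 0) (hη : η * w ^ p = π) (hηS : algebraMap K F η ∈ S2)
    (hηSi : (algebraMap K F η)⁻¹ ∈ S2) {lam ηb : k}
    (hηfst : (J2 ⟨_, hηS⟩).fst = algebraMap k Fb ηb)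
    (hηJ : h38_IsOm J2 ⟨_, hηS⟩ (algebraMap k Fb lam))
    (a : Z → F) (na : ℕ) (ha : ∀ ν, a ν ∈ riemannRochSpace (na • D0))
    (ha1 : ∀ ν, (algebraMap K F π)⁻¹ * a ν ∈ S1) (ha2 : ∀ ν, a ν ∈ S2)
    (haJ1 : ∀ ν, ∃ ρ : Fb, J1 ⟨_, ha1 ν⟩ = TrivSqZeroExt.inl ρ)
    (haJ2 : ∀ ν, ∃ ab : Fb, J2 ⟨_, ha2 ν⟩ = TrivSqZeroExt.inl ab)
    (haρ : ∀ ν, R₁.redF ((algebraMap K F π)⁻¹ * a ν) ≠ 0 ∧
      (Q1 ν).ord (R₁.redF ((algebraMap K F π)⁻¹ * a ν)) = -1)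
    (haα : ∀ ν, R₂.redF (a ν) ≠ 0 ∧ (Q2 ν).ord (R₂.redF (a ν)) = 1)
    (hsep : ∀ z : Place k Fb, (∀ ν, Q2 ν ≠ z) → ∃ (s : F) (ns : ℕ),
      s ∈ riemannRochSpace (ns • D0) ∧ (algebraMap K F π)⁻¹ * s ∈ R₁.O ∧ s ∈ R₂.O ∧
        R₂.redF s ≠ 0 ∧
        z.ord (R₂.redF s) ≤ -((ns • Finsupp.single Qinf (1 : ℤ) : Divisor k Fb) z))
    (u₁ u₂ : F) (hu₁0 : u₁ ≠ 0) (hu1 : u₁ ∈ S1) (hu1i : u₁⁻¹ ∈ S1) (hu2 : u₂ ∈ S2)
    (hu2i : u₂⁻¹ ∈ S2) (kap : ℤ) (hκ : u₁ = algebraMap K F (π ^ kap) * u₂)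
    (hdata : ∀ n1 : ℕ, ∃ n : ℕ, n1 ≤ n ∧ ∃ W : ℕ → Submodule k (Fb × Fb),
      (∀ del < p, ∀ φ ∈ W del, ∃ f : F, (f ∈ S1 ∧
        (algebraMap K F (w ^ (kap + (del : ℤ))))⁻¹ * f ∈ S2 ∧
        f ^ p * u₁⁻¹ ∈ riemannRochSpace ((p * n) • D0)) ∧
        (R₁.redF f, R₂.redF ((algebraMap K F (w ^ (kap + (del : ℤ))))⁻¹ * f)) = φ) ∧
      (∀ del < p, (2 * (n : ℤ) + 2 - 2 * (h75_genus k xb : ℤ) - Fintype.card Z) ≤
        (finrank k (W del) : ℤ))) :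
    ∃ Γ₁ Γ₂ : k, h38_IsOm J1 ⟨u₁, hu1⟩ (algebraMap k Fb Γ₁) ∧
      h38_IsOm J2 ⟨u₂, hu2⟩ (algebraMap k Fb Γ₂) ∧
      ∀ ν, Γ₂ - Γ₁ = (((Q1 ν).ord (R₁.redF u₁) - kap : ℤ) : k) * lam := by
  have hu₂0 : u₂ ≠ 0 := by
    rintro rfl
    rw [mul_zero] at hκ
    exact hu₁0 hκ
  have hf1 : (J1 ⟨u₁, hu1⟩).fst ≠ 0 := by
    rw [hJ1]
    exact h43_redF_unit_ne_zero R₁ ⟨hu₁0, hS1 _ hu1, hS1 _ hu1i⟩
  have hf2 : (J2 ⟨u₂, hu2⟩).fst ≠ 0 := by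
    rw [hJ2]
    exact h43_redF_unit_ne_zero R₂ ⟨hu₂0, hS2 _ hu2, hS2 _ hu2i⟩
  have hω₁ := h38_isOm_div J1 ⟨u₁, hu1⟩ hf1
  have hω₂ := h38_isOm_div J2 ⟨u₂, hu2⟩ hf2
  obtain ⟨n1, hn1⟩ := h38_twist_w67 R₁ R₂ D0 Qinf Q1 Q2 hQ1i hQ2i hQ1 hQ2 hxb n0 hnode p hp π
    hπ0 hπ₁ hπ₂ S1 S2 hS1 hS2 J1 J2 hjet hJ1 hJ2 u₁ u₂ hu₁0 hu1 hu1i hu2 hu2i kap hκ hω₁ hω₂
    w η hw hη hηS hηSi hηfst hηJ a na ha ha1 ha2 haJ1 haJ2 haρ haα hsep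
  obtain ⟨n, hn, W, hW, hrk⟩ := hdata n1
  obtain ⟨-, -, ⟨Γ₁, Γ₂, e1, e2, h12⟩, -⟩ := hn1 n hn
    (fun del f => f ∈ S1 ∧ (algebraMap K F (w ^ (kap + (del : ℤ))))⁻¹ * f ∈ S2 ∧
      f ^ p * u₁⁻¹ ∈ riemannRochSpace ((p * n) • D0))
    (fun del _ f h => h) W hW hrk
  refine ⟨Γ₁, Γ₂, ?_, ?_, h12⟩
  · rw [← e1]
    exact hω₁
  · rw [← e2]
    exact hω₂

end Interp

end Fermat.Agent.S40

end
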