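/-
S40 (G40), row W7 (W-JUMP): the modular instance (helper38).

Charted level `M p`, `p ∤ M`, `A` a valuation ring of `ℚ̄` over `p`; `R1 = h60_R1`, `R2 = h60_R2`,
`D0 = h87_D0`, `Qinf = h11_placeInftyC k M`, `Φ = h96_frobPerm (h84_isFrobChart_jk ..)`; the W9
binder block (`Sg`, `hSg`, `n0`, sharp `hnode`), the node functions `a ν` of (S1) in the output
shape of `h53_node_fun` (with `a ν` inertia-fixed), the W0 pair `(z, w)`,
`(1 + w)^p = 1 + p z`.

`S1`, `S2` are the rings of `H`-fixed elements of `R1.O`, `R2.O` (`H` = the stabiliser of `w` in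
the inertia group), `J1`, `J2` the first-order jets in `w` with
  (He) the expansion property `h38_HJet`,
  (Ja) `J_i f = inl (red_i f)` for inertia-fixed `f`,
  (Jb) `J_2 w = inr 1`,
  (Jc) `(J_i f).fst = red_i f`.

* `h38_divisor_fix` : a divisor `E` with `p E = div u` is fixed by every semilinear automorphism
  fixing `u`.
* `h38_w7_mod_lam` / `h38_w7_mod` : **W7 at the charted level** in the `hW7` shape of
  `h12_ej_gen`: `lam = (res z)⁻¹ ≠ 0` (explicit in `_lam`, existential in `h38_w7_mod`) and for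
  EVERY datum `(u₁, u₂, κ)` (`u₁ ∈ S1ˣ`, `u₂ ∈ S2ˣ`, `u₁ = p ^ κ u₂`,
  `p ∣ div u₁`) the logarithmic jets `Ω₁(u₁) = Γ₁`, `Ω₂(u₂) = Γ₂` are constants and
  `Γ₂ - Γ₁ = (ord_{Φ ν} (red₁ u₁) - κ) lam` at every node `ν`.
-/
import Mathlib
import Fermat.Agent.S34.h87_NodeInst
import Fermat.Agent.S37.h88_HICore
import Fermat.Agent.S40.h31_TwistMod
import Fermat.Agent.S40.h11_LatStarW0
import Fermat.Agent.S40.h11_HScale
import Fermat.Agent.S40.h38_JumpJet

set_option autoImplicit false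
set_option synthInstance.maxHeartbeats 400000

noncomputable section

open AlgebraicCurve ModularCurve Module

namespace Fermat.Agent.S40

open Fermat.Agent.S18 Fermat.Agent.S34 Fermat.Agent.S24 Fermat.Agent.S27 Fermat.Agent.S37

local notation "Qb" => AlgebraicClosure ℚ

/-- A divisor `E` with `p E = div u` is fixed by every semilinear automorphism fixing `u`. -/
theorem h38_divisor_fix {K F : Type*} [Field K] [Field F] [Algebra K F]
    (g : SemilinearAut K F) (p : ℕ) (hp : 0 < p) (u : F) (hgu : g • u = u) (E : Divisor K F)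
    (hE : ∀ P : Place K F, (p : ℤ) * E P = P.ord u) : g • E = E := by
  refine Finsupp.ext (fun P => ?_)
  rw [SemilinearAut.divisor_smul_apply]
  have h1 := hE (g⁻¹ • P)
  have h2 := hE P
  have h3 : (g⁻¹ • P).ord u = P.ord u := by
    have h := SemilinearAut.ord_smul g (g⁻¹ • P) u
    rw [smul_inv_smul, hgu] at h
    exact h.symm
  rw [h3, ← h2] at h1
  exact mul_left_cancel₀ (by exact_mod_cast hp.ne') h1

/-- A constant fixed by `σ` is fixed by `σ` as a function. -/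
theorem h38_const_fix (N : ℕ) (c : Qb) (σ : Qb ≃ₐ[ℚ] Qb) (hσc : σ c = c) :
    arithmeticGalois (modularFunctionFieldFull N) σ •
        algebraMap Qb ↥(modularFunctionFieldBar N) c =
      algebraMap Qb ↥(modularFunctionFieldBar N) c := by
  rw [SemilinearAut.smul_algebraMap, baseAut_arithmeticGalois]
  show algebraMap Qb ↥(modularFunctionFieldBar N) (σ c) = _
  rw [hσc]

set_option maxHeartbeats 1600000 in
/-- **W7 at the charted level**, with `lam = (res z)⁻¹` explicit. -/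
theorem h38_w7_mod_lam (M p : ℕ) [NeZero M] [NeZero p] [Fact p.Prime] (hp2 : p ≠ 2)
    (hpM : ¬ p ∣ M) (A : ValuationSubring Qb) (hA : A.LiesOverPrime p)
    [CharP (IsLocalRing.ResidueField A) p] [IsAlgClosed (IsLocalRing.ResidueField A)]
    (Sg : Finset (Place (IsLocalRing.ResidueField A)
      ↥(modularFunctionFieldFullC (IsLocalRing.ResidueField A) M)))
    (hSg : ∀ Q ∈ Sg, Q ≠ h11_placeInftyC (IsLocalRing.ResidueField A) M ∧
      h96_frobPerm (h84_isFrobChart_jk M p hpM A hA) Q ≠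
        h11_placeInftyC (IsLocalRing.ResidueField A) M ∧
      h96_frobPerm (h84_isFrobChart_jk M p hpM A hA)
        (h96_frobPerm (h84_isFrobChart_jk M p hpM A hA) Q) = Q)
    (n0 : ℕ)
    (hnode : ∀ n, n0 ≤ n → ∀ a : ↥(modularFunctionFieldFullC (IsLocalRing.ResidueField A) M) ×
        ↥(modularFunctionFieldFullC (IsLocalRing.ResidueField A) M),
      a ∈ h51_Rd (h87_D M p hpM A hA) (n • h87_D0 M p hpM) ↔
        (a ∈ h20_P (h11_placeInftyC (IsLocalRing.ResidueField A) M) n ∧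
          ∀ Q ∈ Sg, ∃ c : IsLocalRing.ResidueField A,
            h39_Val (h96_frobPerm (h84_isFrobChart_jk M p hpM A hA) Q) a.1 c ∧
              h39_Val Q a.2 c))
    (a : {Q // Q ∈ Sg} → ↥(modularFunctionFieldBar (M * p))) (na : ℕ)
    (ha : ∀ ν, a ν ∈ riemannRochSpace (na • h87_D0 M p hpM))
    (ha₁ : ∀ ν, (algebraMap Qb ↥(modularFunctionFieldBar (M * p)) (p : Qb))⁻¹ * a ν ∈
      (h60_R1 M p hpM A hA).O)
    (ha₂ : ∀ ν, a ν ∈ (h60_R2 M p hpM A hA).O)
    (haρ : ∀ ν : {Q // Q ∈ Sg},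
      (h60_R1 M p hpM A hA).redF
          ((algebraMap Qb ↥(modularFunctionFieldBar (M * p)) (p : Qb))⁻¹ * a ν) ≠ 0 ∧
        (h96_frobPerm (h84_isFrobChart_jk M p hpM A hA) ν.1).ord
          ((h60_R1 M p hpM A hA).redF
            ((algebraMap Qb ↥(modularFunctionFieldBar (M * p)) (p : Qb))⁻¹ * a ν)) = -1)
    (haα : ∀ ν : {Q // Q ∈ Sg}, (h60_R2 M p hpM A hA).redF (a ν) ≠ 0 ∧
      (ν.1).ord ((h60_R2 M p hpM A hA).redF (a ν)) = 1)
    (haI : ∀ ν, ∀ σ ∈ A.inertiaSubgroupIn ℚ,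
      arithmeticGalois (modularFunctionFieldFull (M * p)) σ • a ν = a ν)
    (ζ : Qb) (hζ : IsPrimitiveRoot ζ p) (z w : Qb) (hz : A.valuation z = 1)
    (hzI : ∀ g ∈ A.inertiaSubgroupIn ℚ, g z = z) (hw : (1 + w) ^ p = 1 + (p : Qb) * z)
    (S1 S2 : Subring ↥(modularFunctionFieldBar (M * p)))
    (hS1 : ∀ f : ↥(modularFunctionFieldBar (M * p)), f ∈ S1 ↔
      f ∈ (h60_R1 M p hpM A hA).O ∧ ∀ σ ∈ A.inertiaSubgroupIn ℚ, σ w = w →
        arithmeticGalois (modularFunctionFieldFull (M * p)) σ • f = f)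
    (hS2 : ∀ f : ↥(modularFunctionFieldBar (M * p)), f ∈ S2 ↔
      f ∈ (h60_R2 M p hpM A hA).O ∧ ∀ σ ∈ A.inertiaSubgroupIn ℚ, σ w = w →
        arithmeticGalois (modularFunctionFieldFull (M * p)) σ • f = f)
    (J1 : S1 →+* TrivSqZeroExt ↥(modularFunctionFieldFullC (IsLocalRing.ResidueField A) M)
      ↥(modularFunctionFieldFullC (IsLocalRing.ResidueField A) M))
    (J2 : S2 →+* TrivSqZeroExt ↥(modularFunctionFieldFullC (IsLocalRing.ResidueField A) M)
      ↥(modularFunctionFieldFullC (IsLocalRing.ResidueField A) M))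
    (hjet : h38_HJet (h60_R1 M p hpM A hA) (h60_R2 M p hpM A hA) (h87_D0 M p hpM) S1 S2 J1 J2)
    (hJ1a : ∀ f : S1, (∀ σ ∈ A.inertiaSubgroupIn ℚ,
        arithmeticGalois (modularFunctionFieldFull (M * p)) σ •
          (f : ↥(modularFunctionFieldBar (M * p))) = f) →
      J1 f = TrivSqZeroExt.inl ((h60_R1 M p hpM A hA).redF f))
    (hJ2a : ∀ f : S2, (∀ σ ∈ A.inertiaSubgroupIn ℚ,
        arithmeticGalois (modularFunctionFieldFull (M * p)) σ •
          (f : ↥(modularFunctionFieldBar (M * p))) = f) →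
      J2 f = TrivSqZeroExt.inl ((h60_R2 M p hpM A hA).redF f))
    (hJ2b : ∀ hwS : algebraMap Qb ↥(modularFunctionFieldBar (M * p)) w ∈ S2,
      J2 ⟨_, hwS⟩ = TrivSqZeroExt.inr 1)
    (hJ1c : ∀ f : S1, (J1 f).fst = (h60_R1 M p hpM A hA).redF f)
    (hJ2c : ∀ f : S2, (J2 f).fst = (h60_R2 M p hpM A hA).redF f) :
    ((h60_R2 M p hpM A hA).resK z)⁻¹ ≠ 0 ∧
      ∀ (u1 u2 : ↥(modularFunctionFieldBar (M * p))) (hu1 : u1 ∈ S1) (_ : u1⁻¹ ∈ S1)
        (hu2 : u2 ∈ S2) (_ : u2⁻¹ ∈ S2) (κ' : ℤ), u1 ≠ 0 →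
        u1 = algebraMap Qb ↥(modularFunctionFieldBar (M * p)) (p : Qb) ^ κ' * u2 →
        (∀ v : Place Qb ↥(modularFunctionFieldBar (M * p)), (p : ℤ) ∣ v.ord u1) →
        ∃ Γ₁ Γ₂ : IsLocalRing.ResidueField A,
          h38_IsOm J1 ⟨u1, hu1⟩ (algebraMap (IsLocalRing.ResidueField A)
            ↥(modularFunctionFieldFullC (IsLocalRing.ResidueField A) M) Γ₁) ∧
          h38_IsOm J2 ⟨u2, hu2⟩ (algebraMap (IsLocalRing.ResidueField A)
            ↥(modularFunctionFieldFullC (IsLocalRing.ResidueField A) M) Γ₂) ∧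
          ∀ ν : {Q // Q ∈ Sg}, Γ₂ - Γ₁ =
            (((h96_frobPerm (h84_isFrobChart_jk M p hpM A hA) ν.1).ord
              ((h60_R1 M p hpM A hA).redF u1) - κ' : ℤ) : IsLocalRing.ResidueField A) *
              ((h60_R2 M p hpM A hA).resK z)⁻¹ := by
  classical
  have hp : p.Prime := Fact.out
  have hp0 : (p : Qb) ≠ 0 := Nat.cast_ne_zero.mpr hp.ne_zero
  have hpA : (p : Qb) ∈ A := ValuationSubring.nonunits_subset hA
  have hpinv : (p : Qb)⁻¹ ∉ A :=
    ((ValuationSubring.mem_nonunits_iff_or A).mp hA).resolve_left hp0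
  have hR1A : (h60_R1 M p hpM A hA).A = A := h60_R1_A M p hpM A hA
  have hR2A : (h60_R2 M p hpM A hA).A = A := h60_R2_A M p hpM A hA
  have hrk : h39_RankOne (h60_R1 M p hpM A hA).A := by
    rw [hR1A]
    exact h64_rankOne_h39 hp A hA
  have := h88_hasPrincipalDivisors (M * p)
  -- the W0 data
  obtain ⟨hwA, -, hwp, -⟩ := h12_eis_val p A hA z w hz hw
  have hw0 : w ≠ 0 := (h12_eis_ne_zero p A hA z w hz hw).2
  have hzA : z ∈ A := (A.valuation_le_one_iff z).1 (le_of_eq hz)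
  set η : Qb := (p : Qb) / w ^ p with hηdef
  have hη : η * w ^ p = (p : Qb) := div_mul_cancel₀ _ (pow_ne_zero p hw0)
  have hηv : A.valuation η = 1 := by
    rw [hηdef, map_div₀, map_pow, hwp]
    exact div_self ((Valuation.ne_zero_iff _).mpr hp0)
  have hηA : η ∈ A := (A.valuation_le_one_iff η).1 (le_of_eq hηv)
  have hηAi : η⁻¹ ∈ A :=
    (A.valuation_le_one_iff _).1 (le_of_eq (by rw [map_inv₀, hηv, inv_one]))
  have hηfix : ∀ σ : Qb ≃ₐ[ℚ] Qb, σ w = w → σ η = η := by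
    intro σ hσw
    rw [hηdef, map_div₀, map_pow, hσw, map_natCast]
  -- memberships in `S2`
  have hwS : algebraMap Qb ↥(modularFunctionFieldBar (M * p)) w ∈ S2 :=
    (hS2 _).mpr ⟨((h60_R2 M p hpM A hA).mem_iff w).mp (by rw [hR2A]; exact hwA),
      fun σ _ hσw => h38_const_fix (M * p) w σ hσw⟩
  have hzS : algebraMap Qb ↥(modularFunctionFieldBar (M * p)) z ∈ S2 :=
    (hS2 _).mpr ⟨((h60_R2 M p hpM A hA).mem_iff z).mp (by rw [hR2A]; exact hzA),
      fun σ hσ _ => h38_const_fix (M * p) z σ (hzI σ hσ)⟩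
  have hηS : algebraMap Qb ↥(modularFunctionFieldBar (M * p)) η ∈ S2 :=
    (hS2 _).mpr ⟨((h60_R2 M p hpM A hA).mem_iff η).mp (by rw [hR2A]; exact hηA),
      fun σ _ hσw => h38_const_fix (M * p) η σ (hηfix σ hσw)⟩
  have hηSi : (algebraMap Qb ↥(modularFunctionFieldBar (M * p)) η)⁻¹ ∈ S2 := by
    rw [← map_inv₀]
    exact (hS2 _).mpr ⟨((h60_R2 M p hpM A hA).mem_iff η⁻¹).mp (by rw [hR2A]; exact hηAi),
      fun σ _ hσw => h38_const_fix (M * p) η⁻¹ σ (by rw [map_inv₀, hηfix σ hσw])⟩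
  -- (Jd)
  have hJz : J2 ⟨_, hzS⟩ = TrivSqZeroExt.inl ((h60_R2 M p hpM A hA).redF
      (algebraMap Qb ↥(modularFunctionFieldBar (M * p)) z)) :=
    hJ2a ⟨_, hzS⟩ (fun σ hσ => h38_const_fix (M * p) z σ (hzI σ hσ))
  have hrelS : (1 + (⟨_, hwS⟩ : S2)) ^ p = 1 + (p : S2) * (⟨_, hzS⟩ : S2) := by
    apply Subtype.ext
    have h := congrArg (algebraMap Qb ↥(modularFunctionFieldBar (M * p))) hw
    simp only [map_add, map_pow, map_mul, map_one, map_natCast] at h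
    simpa using h
  have hηrelS : (⟨_, hηS⟩ : S2) * (⟨_, hwS⟩ : S2) ^ p = (p : S2) := by
    apply Subtype.ext
    have h := congrArg (algebraMap Qb ↥(modularFunctionFieldBar (M * p))) hη
    simp only [map_pow, map_mul, map_natCast] at h
    simpa using h
  have hpF : ((p : ℕ) : ↥(modularFunctionFieldBar (M * p))) ≠ 0 := by
    rw [← map_natCast (algebraMap Qb ↥(modularFunctionFieldBar (M * p))) p, Ne, map_eq_zero]
    exact hp0
  have hreg : ∀ s : S2, (p : S2) * s = 0 → s = 0 := by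
    intro s hs
    have h := congrArg (Subtype.val : S2 → ↥(modularFunctionFieldBar (M * p))) hs
    simp only [Subring.coe_mul, Subring.coe_natCast, Subring.coe_zero] at h
    apply Subtype.ext
    rcases mul_eq_zero.mp h with h' | h'
    · exact absurd h' hpF
    · exact h'
  obtain ⟨hd1, hd2⟩ := h38_isOm_eta J2 p hp (⟨_, hwS⟩ : S2) (⟨_, hzS⟩ : S2) (⟨_, hηS⟩ : S2)
    ((h60_R2 M p hpM A hA).redF (algebraMap Qb ↥(modularFunctionFieldBar (M * p)) z))
    (hJ2b hwS) hJz hrelS hηrelS hreg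
  have hzred : (h60_R2 M p hpM A hA).redF (algebraMap Qb ↥(modularFunctionFieldBar (M * p)) z) =
      algebraMap (IsLocalRing.ResidueField A)
        ↥(modularFunctionFieldFullC (IsLocalRing.ResidueField A) M)
        ((h60_R2 M p hpM A hA).resK z) :=
    h39_redF_algebraMap (h60_R2 M p hpM A hA) (by rw [hR2A]; exact hzA)
  have hlam0 : (h60_R2 M p hpM A hA).resK z ≠ 0 := by
    intro h0
    rw [hzred, h0, map_zero, mul_zero] at hd1
    exact zero_ne_one hd1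
  refine ⟨inv_ne_zero hlam0, ?_⟩
  have hηJ : h38_IsOm J2 ⟨_, hηS⟩ (algebraMap (IsLocalRing.ResidueField A)
      ↥(modularFunctionFieldFullC (IsLocalRing.ResidueField A) M)
      ((h60_R2 M p hpM A hA).resK z)⁻¹) := by
    rw [map_inv₀, ← hzred]
    exact hd2
  have hηfst : (J2 ⟨_, hηS⟩).fst = algebraMap (IsLocalRing.ResidueField A)
      ↥(modularFunctionFieldFullC (IsLocalRing.ResidueField A) M)
      ((h60_R2 M p hpM A hA).resK η) := by
    rw [hJ2c]
    exact h39_redF_algebraMap (h60_R2 M p hpM A hA) (by rw [hR2A]; exact hηA)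
  -- the node functions
  have hpfix : ∀ σ : Qb ≃ₐ[ℚ] Qb, arithmeticGalois (modularFunctionFieldFull (M * p)) σ •
      (algebraMap Qb ↥(modularFunctionFieldBar (M * p)) (p : Qb))⁻¹ =
      (algebraMap Qb ↥(modularFunctionFieldBar (M * p)) (p : Qb))⁻¹ := by
    intro σ
    rw [← map_inv₀]
    exact h38_const_fix (M * p) _ σ (by rw [map_inv₀, map_natCast])
  have hafix : ∀ ν, ∀ σ ∈ A.inertiaSubgroupIn ℚ,
      arithmeticGalois (modularFunctionFieldFull (M * p)) σ •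
        ((algebraMap Qb ↥(modularFunctionFieldBar (M * p)) (p : Qb))⁻¹ * a ν) =
      (algebraMap Qb ↥(modularFunctionFieldBar (M * p)) (p : Qb))⁻¹ * a ν := by
    intro ν σ hσ
    rw [_root_.smul_mul', hpfix σ, haI ν σ hσ]
  have ha1 : ∀ ν, (algebraMap Qb ↥(modularFunctionFieldBar (M * p)) (p : Qb))⁻¹ * a ν ∈ S1 :=
    fun ν => (hS1 _).mpr ⟨ha₁ ν, fun σ hσ _ => hafix ν σ hσ⟩
  have ha2 : ∀ ν, a ν ∈ S2 := fun ν => (hS2 _).mpr ⟨ha₂ ν, fun σ hσ _ => haI ν σ hσ⟩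
  -- the geometric data
  have hxF := h54_isChart_jbar (M * p)
  have hxb := h84_isChart_jk M p hpM A hA
  have hSg' : ∀ Q ∈ Sg, Q ≠ h11_placeInftyC (IsLocalRing.ResidueField A) M ∧
      h96_frobPerm (h84_isFrobChart_jk M p hpM A hA) Q ≠
        h11_placeInftyC (IsLocalRing.ResidueField A) M :=
    fun Q hQ => ⟨(hSg Q hQ).1, (hSg Q hQ).2.1⟩
  have hΦ := (h96_frobPerm (h84_isFrobChart_jk M p hpM A hA)).injective
  have hcard : (Fintype.card {Q // Q ∈ Sg} : ℤ) =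
      (h75_genus Qb (h59_jbar (M * p)) : ℤ) -
        2 * (h75_genus (IsLocalRing.ResidueField A) (h54_jk (IsLocalRing.ResidueField A) M) : ℤ)
        + 1 := by
    rw [Fintype.card_coe]
    exact h31_node_card hxF hxb (h87_D M p hpM A hA) (h87_D_on M p hpM A hA) (h87_D0 M p hpM)
      (h87_D0_degree M p hpM) (h11_placeInftyC (IsLocalRing.ResidueField A) M) Sg
      (h96_frobPerm (h84_isFrobChart_jk M p hpM A hA)) hΦ hSg' n0 hnode
  obtain ⟨cF, hcF⟩ := h75_rr hxF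
  intro u1 u2 hu1 hu1i hu2 hu2i κ' hu0 hu12 hdiv
  have hκ : u1 = algebraMap Qb ↥(modularFunctionFieldBar (M * p)) ((p : Qb) ^ κ') * u2 := by
    rw [map_zpow₀]
    exact hu12
  obtain ⟨E, hE'⟩ := h54_exists_divisor_of_dvd (M * p) p u1 hu0 hdiv
  have hE : ∀ P : Place Qb ↥(modularFunctionFieldBar (M * p)), (p : ℤ) * E P = P.ord u1 :=
    fun P => (hE' P).symm
  have hEdeg : Divisor.degree E = 0 := h31_degree_eq_zero_of_mul p hp.pos u1 hu0 E hE
  have hu1fix := ((hS1 u1).mp hu1).2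
  have hEfix : ∀ σ ∈ A.inertiaSubgroupIn ℚ, σ w = w →
      arithmeticGalois (modularFunctionFieldFull (M * p)) σ • E = E :=
    fun σ hσ hσw => h38_divisor_fix _ p hp.pos u1 (hu1fix σ hσ hσw) E hE
  refine h38_w7_gen (h60_R1 M p hpM A hA) (h60_R2 M p hpM A hA) (h87_D0 M p hpM)
    (h11_placeInftyC (IsLocalRing.ResidueField A) M)
    (fun ν : {Q // Q ∈ Sg} => h96_frobPerm (h84_isFrobChart_jk M p hpM A hA) ν.1)
    (fun ν : {Q // Q ∈ Sg} => ν.1) (fun ν ν' h => Subtype.ext (hΦ h)) Subtype.val_injective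
    (fun ν => (hSg' ν.1 ν.2).2) (fun ν => (hSg' ν.1 ν.2).1) hxb n0
    (h31_hnode_of_sharp (h60_R1 M p hpM A hA) (h60_R2 M p hpM A hA) (h87_D M p hpM A hA)
      (fun f => h87_D_mem M p hpM A hA) (fun f h1 h2 => h87_D_redF M p hpM A hA h1 h2)
      (h87_D0 M p hpM) (h11_placeInftyC (IsLocalRing.ResidueField A) M) Sg
      (h96_frobPerm (h84_isFrobChart_jk M p hpM A hA)) n0 hnode)
    p hp.pos (p : Qb) hp0 (by rw [hR1A]; exact hpA) (by rw [hR2A]; exact hpA) S1 S2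
    (fun f hf => ((hS1 f).mp hf).1) (fun f hf => ((hS2 f).mp hf).1) J1 J2 hjet hJ1c hJ2c
    w η hw0 hη hηS hηSi hηfst hηJ a na ha ha1 ha2
    (fun ν => ⟨_, hJ1a ⟨_, ha1 ν⟩ (hafix ν)⟩) (fun ν => ⟨_, hJ2a ⟨_, ha2 ν⟩ (haI ν)⟩) haρ haα
    (fun z' hz' => h31_twist_sep (h60_R1 M p hpM A hA) (h60_R2 M p hpM A hA) hrk
      (h87_D M p hpM A hA) (fun f => h87_D_mem M p hpM A hA)
      (fun f h1 h2 => h87_D_redF M p hpM A hA h1 h2) hxb (h87_D0 M p hpM)
      (h11_placeInftyC (IsLocalRing.ResidueField A) M) Sg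
      (h96_frobPerm (h84_isFrobChart_jk M p hpM A hA)) hSg' n0 hnode (p : Qb) hp0 z'
      (fun hzS' => hz' ⟨z', hzS'⟩ rfl))
    u1 u2 hu0 hu1 hu1i hu2 hu2i κ' hκ ?_
  -- the lattices
  intro n1
  set n : ℕ := max n1 cF.toNat with hn
  have hdegV : Divisor.degree (n • h87_D0 M p hpM - E) = 2 * (n : ℤ) := by
    rw [map_sub, map_nsmul, h87_D0_degree, hEdeg, sub_zero, nsmul_eq_mul]
    ring
  have hcFn : cF ≤ Divisor.degree (n • h87_D0 M p hpM - E) := by
    rw [hdegV]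
    have h1 : cF ≤ (cF.toNat : ℤ) := Int.self_le_toNat cF
    have h2 : (cF.toNat : ℤ) ≤ (n : ℤ) := by exact_mod_cast le_max_right n1 cF.toNat
    have h3 : (0 : ℤ) ≤ (n : ℤ) := Int.natCast_nonneg n
    linarith
  have hrankV := hcF (n • h87_D0 M p hpM - E) hcFn
  rw [hdegV] at hrankV
  have hVfix : ∀ σ ∈ A.inertiaSubgroupIn ℚ, σ w = w →
      arithmeticGalois (modularFunctionFieldFull (M * p)) σ • (n • h87_D0 M p hpM - E) =
        n • h87_D0 M p hpM - E := by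
    intro σ hσ hσw
    rw [smul_sub, smul_comm, h87_D0_gal, hEfix σ hσ hσw]
  have hlat : ∀ del : ℕ, ∃ W : Submodule (IsLocalRing.ResidueField A)
      (↥(modularFunctionFieldFullC (IsLocalRing.ResidueField A) M) ×
        ↥(modularFunctionFieldFullC (IsLocalRing.ResidueField A) M)),
      finrank (IsLocalRing.ResidueField A) W =
        finrank Qb ↥(riemannRochSpace (n • h87_D0 M p hpM - E)) ∧
      ∀ φ ∈ W, ∃ f : ↥(modularFunctionFieldBar (M * p)),
        (∀ σ ∈ A.inertiaSubgroupIn ℚ, σ w = w →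
          arithmeticGalois (modularFunctionFieldFull (M * p)) σ • f = f) ∧
        f ∈ riemannRochSpace (n • h87_D0 M p hpM - E) ∧ f ∈ (h60_R1 M p hpM A hA).O ∧
        f / algebraMap Qb ↥(modularFunctionFieldBar (M * p)) (w ^ (κ' + (del : ℤ))) ∈
          (h60_R2 M p hpM A hA).O ∧
        ((h60_R1 M p hpM A hA).redF f,
          (h60_R2 M p hpM A hA).redF
            (f / algebraMap Qb ↥(modularFunctionFieldBar (M * p)) (w ^ (κ' + (del : ℤ))))) = φ := by
    intro del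
    haveI : Module.Finite Qb ↥(riemannRochSpace (n • h87_D0 M p hpM - E)) :=
      (h75_riemann hxF _).1
    obtain ⟨W, -, hWr, hWm, -⟩ := h11_latStar_W0_rr M p hp2 hpM A hA ζ hζ z w hz hzI hw
      (κ' + (del : ℤ)) (n • h87_D0 M p hpM - E) hVfix
    exact ⟨W, hWr, hWm⟩
  choose W hWrank hWmem using hlat
  refine ⟨n, le_max_left _ _, W, ?_, ?_⟩
  · intro del _ φ hφ
    obtain ⟨f, hfH, hfV, hf1, hf2, hfφ⟩ := hWmem del φ hφ
    have hdiv' : (algebraMap Qb ↥(modularFunctionFieldBar (M * p)) (w ^ (κ' + (del : ℤ))))⁻¹ * f =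
        f / algebraMap Qb ↥(modularFunctionFieldBar (M * p)) (w ^ (κ' + (del : ℤ))) := by
      rw [div_eq_inv_mul]
    have hpow := h31_pow_div_mem_rr (h87_D0 M p hpM) E p hp.pos u1 hu0 hE 1 one_ne_zero n hfV
    rw [map_one, one_mul] at hpow
    refine ⟨f, ⟨(hS1 f).mpr ⟨hf1, hfH⟩, (hS2 _).mpr ⟨?_, fun σ hσ hσw => ?_⟩, hpow⟩, ?_⟩
    · rw [hdiv']
      exact hf2
    · rw [hdiv']
      exact h11_hfixed_div (M * p) w _ f σ hσw (hfH σ hσ hσw)
    · rw [hdiv']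
      exact hfφ
  · intro del _
    rw [hWrank del, hrankV, hcard]
    linarith

set_option maxHeartbeats 1600000 in
/-- **W7 at the charted level**: see the file header. -/
theorem h38_w7_mod (M p : ℕ) [NeZero M] [NeZero p] [Fact p.Prime] (hp2 : p ≠ 2)
    (hpM : ¬ p ∣ M) (A : ValuationSubring Qb) (hA : A.LiesOverPrime p)
    [CharP (IsLocalRing.ResidueField A) p] [IsAlgClosed (IsLocalRing.ResidueField A)]
    (Sg : Finset (Place (IsLocalRing.ResidueField A)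
      ↥(modularFunctionFieldFullC (IsLocalRing.ResidueField A) M)))
    (hSg : ∀ Q ∈ Sg, Q ≠ h11_placeInftyC (IsLocalRing.ResidueField A) M ∧
      h96_frobPerm (h84_isFrobChart_jk M p hpM A hA) Q ≠
        h11_placeInftyC (IsLocalRing.ResidueField A) M ∧
      h96_frobPerm (h84_isFrobChart_jk M p hpM A hA)
        (h96_frobPerm (h84_isFrobChart_jk M p hpM A hA) Q) = Q)
    (n0 : ℕ)
    (hnode : ∀ n, n0 ≤ n → ∀ a : ↥(modularFunctionFieldFullC (IsLocalRing.ResidueField A) M) ×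
        ↥(modularFunctionFieldFullC (IsLocalRing.ResidueField A) M),
      a ∈ h51_Rd (h87_D M p hpM A hA) (n • h87_D0 M p hpM) ↔
        (a ∈ h20_P (h11_placeInftyC (IsLocalRing.ResidueField A) M) n ∧
          ∀ Q ∈ Sg, ∃ c : IsLocalRing.ResidueField A,
            h39_Val (h96_frobPerm (h84_isFrobChart_jk M p hpM A hA) Q) a.1 c ∧
              h39_Val Q a.2 c))
    (a : {Q // Q ∈ Sg} → ↥(modularFunctionFieldBar (M * p))) (na : ℕ)
    (ha : ∀ ν, a ν ∈ riemannRochSpace (na • h87_D0 M p hpM))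
    (ha₁ : ∀ ν, (algebraMap Qb ↥(modularFunctionFieldBar (M * p)) (p : Qb))⁻¹ * a ν ∈
      (h60_R1 M p hpM A hA).O)
    (ha₂ : ∀ ν, a ν ∈ (h60_R2 M p hpM A hA).O)
    (haρ : ∀ ν : {Q // Q ∈ Sg},
      (h60_R1 M p hpM A hA).redF
          ((algebraMap Qb ↥(modularFunctionFieldBar (M * p)) (p : Qb))⁻¹ * a ν) ≠ 0 ∧
        (h96_frobPerm (h84_isFrobChart_jk M p hpM A hA) ν.1).ord
          ((h60_R1 M p hpM A hA).redF
            ((algebraMap Qb ↥(modularFunctionFieldBar (M * p)) (p : Qb))⁻¹ * a ν)) = -1)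
    (haα : ∀ ν : {Q // Q ∈ Sg}, (h60_R2 M p hpM A hA).redF (a ν) ≠ 0 ∧
      (ν.1).ord ((h60_R2 M p hpM A hA).redF (a ν)) = 1)
    (haI : ∀ ν, ∀ σ ∈ A.inertiaSubgroupIn ℚ,
      arithmeticGalois (modularFunctionFieldFull (M * p)) σ • a ν = a ν)
    (ζ : Qb) (hζ : IsPrimitiveRoot ζ p) (z w : Qb) (hz : A.valuation z = 1)
    (hzI : ∀ g ∈ A.inertiaSubgroupIn ℚ, g z = z) (hw : (1 + w) ^ p = 1 + (p : Qb) * z)
    (S1 S2 : Subring ↥(modularFunctionFieldBar (M * p)))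
    (hS1 : ∀ f : ↥(modularFunctionFieldBar (M * p)), f ∈ S1 ↔
      f ∈ (h60_R1 M p hpM A hA).O ∧ ∀ σ ∈ A.inertiaSubgroupIn ℚ, σ w = w →
        arithmeticGalois (modularFunctionFieldFull (M * p)) σ • f = f)
    (hS2 : ∀ f : ↥(modularFunctionFieldBar (M * p)), f ∈ S2 ↔
      f ∈ (h60_R2 M p hpM A hA).O ∧ ∀ σ ∈ A.inertiaSubgroupIn ℚ, σ w = w →
        arithmeticGalois (modularFunctionFieldFull (M * p)) σ • f = f)
    (J1 : S1 →+* TrivSqZeroExt ↥(modularFunctionFieldFullC (IsLocalRing.ResidueField A) M)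
      ↥(modularFunctionFieldFullC (IsLocalRing.ResidueField A) M))
    (J2 : S2 →+* TrivSqZeroExt ↥(modularFunctionFieldFullC (IsLocalRing.ResidueField A) M)
      ↥(modularFunctionFieldFullC (IsLocalRing.ResidueField A) M))
    (hjet : h38_HJet (h60_R1 M p hpM A hA) (h60_R2 M p hpM A hA) (h87_D0 M p hpM) S1 S2 J1 J2)
    (hJ1a : ∀ f : S1, (∀ σ ∈ A.inertiaSubgroupIn ℚ,
        arithmeticGalois (modularFunctionFieldFull (M * p)) σ •
          (f : ↥(modularFunctionFieldBar (M * p))) = f) →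
      J1 f = TrivSqZeroExt.inl ((h60_R1 M p hpM A hA).redF f))
    (hJ2a : ∀ f : S2, (∀ σ ∈ A.inertiaSubgroupIn ℚ,
        arithmeticGalois (modularFunctionFieldFull (M * p)) σ •
          (f : ↥(modularFunctionFieldBar (M * p))) = f) →
      J2 f = TrivSqZeroExt.inl ((h60_R2 M p hpM A hA).redF f))
    (hJ2b : ∀ hwS : algebraMap Qb ↥(modularFunctionFieldBar (M * p)) w ∈ S2,
      J2 ⟨_, hwS⟩ = TrivSqZeroExt.inr 1)
    (hJ1c : ∀ f : S1, (J1 f).fst = (h60_R1 M p hpM A hA).redF f)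
    (hJ2c : ∀ f : S2, (J2 f).fst = (h60_R2 M p hpM A hA).redF f) :
    ∃ lam : IsLocalRing.ResidueField A, lam ≠ 0 ∧
      ∀ (u1 u2 : ↥(modularFunctionFieldBar (M * p))) (hu1 : u1 ∈ S1) (_ : u1⁻¹ ∈ S1)
        (hu2 : u2 ∈ S2) (_ : u2⁻¹ ∈ S2) (κ' : ℤ), u1 ≠ 0 →
        u1 = algebraMap Qb ↥(modularFunctionFieldBar (M * p)) (p : Qb) ^ κ' * u2 →
        (∀ v : Place Qb ↥(modularFunctionFieldBar (M * p)), (p : ℤ) ∣ v.ord u1) →
        ∃ Γ₁ Γ₂ : IsLocalRing.ResidueField A,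
          h38_IsOm J1 ⟨u1, hu1⟩ (algebraMap (IsLocalRing.ResidueField A)
            ↥(modularFunctionFieldFullC (IsLocalRing.ResidueField A) M) Γ₁) ∧
          h38_IsOm J2 ⟨u2, hu2⟩ (algebraMap (IsLocalRing.ResidueField A)
            ↥(modularFunctionFieldFullC (IsLocalRing.ResidueField A) M) Γ₂) ∧
          ∀ ν : {Q // Q ∈ Sg}, Γ₂ - Γ₁ =
            (((h96_frobPerm (h84_isFrobChart_jk M p hpM A hA) ν.1).ord
              ((h60_R1 M p hpM A hA).redF u1) - κ' : ℤ) : IsLocalRing.ResidueField A) * lam := by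
  obtain ⟨h1, h2⟩ := h38_w7_mod_lam M p hp2 hpM A hA Sg hSg n0 hnode a na ha ha₁ ha₂ haρ haα haI ζ hζ
    z w hz hzI hw S1 S2 hS1 hS2 J1 J2 hjet hJ1a hJ2a hJ2b hJ1c hJ2c
  exact ⟨_, h1, h2⟩

end Fermat.Agent.S40

end
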