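import Mathlib

/-!
# S40, row R1a (helper39): Boston–Lenstra–Ribet in dimension two, as an embedding statement

`h39_blr_embed`: let `V` be an irreducible two-dimensional representation of a group `G` over a
field `k` of characteristic `≠ 2`, and `c ∈ G` an involution on `V` which is not `± 1`.  Let `X` be
any representation of `G` on which every `g` satisfies the characteristic polynomial of `g` on `V`:
`g² - tr_V(g) g + det_V(g) = 0`.  Then every nonzero `x₀ ∈ X` gives an injective `G`-equivariant
linear map `V → X`.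

Proof (no Burnside, no algebraic closure).  Put `C := ρX c`, `C² = 1`.
* (S2) `r C + C r = τ(r) C + τ'(r)` on `X` for all `r ∈ k[G]` (from the relation for `g`, `c`,
  `g c`; linear in `r`), where `τ, τ'` only depend on the image of `r` in `End V`.
* So `r` in the kernel `J` of `k[G] → End V` anticommutes with `C` on `X`.
* For `r ∈ J` put `X₁ := (1 + C) r (1 - C)`.  Then `(1 - C) s X₁ = 0` for all `s ∈ k[G]`, hence
  `g X₁ = a(g) X₁` with `a(g)` the `(+,+)` matrix coefficient of `g` on `V`; if `X₁ ≠ 0` then `a`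
  is multiplicative, and `V` is reducible.  So `X₁ = 0`; symmetrically `(1 - C) r (1 + C) = 0`,
  and `J` kills `X`.
* `ι (r v₀) := r y` for a `c`-eigenvector `v₀ ∈ V` and a `c`-eigenvector `y ∈ X` of the same
  sign is well defined, equivariant and injective.
-/

set_option autoImplicit false

namespace Fermat.Agent.S40

open Module

section BLR

variable {k : Type*} [Field k] {G : Type*} [Group G]
  {V X : Type*} [AddCommGroup V] [Module k V] [AddCommGroup X] [Module k X]

/-- The algebra homomorphism `k[G] → End M` attached to a representation. -/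
noncomputable abbrev h39_alg {M : Type*} [AddCommGroup M] [Module k M]
    (ρ : G →* Module.End k M) : MonoidAlgebra k G →ₐ[k] Module.End k M :=
  MonoidAlgebra.lift k (Module.End k M) G ρ

theorem h39_alg_of {M : Type*} [AddCommGroup M] [Module k M] (ρ : G →* Module.End k M) (g : G) :
    h39_alg ρ (MonoidAlgebra.of k G g) = ρ g :=
  MonoidAlgebra.lift_of ρ g

/-- (S2): the polarised relation with `C`, for all elements of the group algebra. -/
theorem h39_S2 (ρV : G →* Module.End k V) (ρX : G →* Module.End k X)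
    (v0 v1 : V) (f0 f1 : V →ₗ[k] k) (C : Module.End k X)
    (hP : ∀ g x, ρX g (C x) + C (ρX g x) =
      (f0 (ρV g v0) + f1 (ρV g v1)) • C x + (f0 (ρV g v0) - f1 (ρV g v1)) • x)
    (r : MonoidAlgebra k G) (x : X) :
    h39_alg ρX r (C x) + C (h39_alg ρX r x) =
      (f0 (h39_alg ρV r v0) + f1 (h39_alg ρV r v1)) • C x +
        (f0 (h39_alg ρV r v0) - f1 (h39_alg ρV r v1)) • x := by
  induction r using MonoidAlgebra.induction_on with
  | of g => rw [h39_alg_of, h39_alg_of]; exact hP g x
  | add a b ha hb =>
    simp only [map_add, LinearMap.add_apply]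
    linear_combination (norm := module) ha + hb
  | smul t a ha =>
    simp only [map_smul, LinearMap.smul_apply, smul_eq_mul]
    linear_combination (norm := module) t • ha

/-- Elements of the kernel of `k[G] → End V` anticommute with `C` on `X`. -/
theorem h39_anti (ρV : G →* Module.End k V) (ρX : G →* Module.End k X)
    (v0 v1 : V) (f0 f1 : V →ₗ[k] k) (C : Module.End k X)
    (hP : ∀ g x, ρX g (C x) + C (ρX g x) =
      (f0 (ρV g v0) + f1 (ρV g v1)) • C x + (f0 (ρV g v0) - f1 (ρV g v1)) • x)
    (r : MonoidAlgebra k G) (hr : h39_alg ρV r = 0) (x : X) :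
    h39_alg ρX r (C x) = - C (h39_alg ρX r x) := by
  have h := h39_S2 ρV ρX v0 v1 f0 f1 C hP r x
  rw [hr] at h
  simp only [LinearMap.zero_apply, map_zero, add_zero, sub_zero, zero_smul] at h
  exact eq_neg_of_add_eq_zero_left h

/-- One half: `(1 + C) r (1 - C) = 0` on `X` for `r` in the kernel of `k[G] → End V`. -/
theorem h39_half (h2 : (2 : k) ≠ 0) (ρV : G →* Module.End k V) (ρX : G →* Module.End k X)
    (hirr : ∀ N : Submodule k V, (∀ g, ∀ v ∈ N, ρV g v ∈ N) → N = ⊥ ∨ N = ⊤)
    (v0 v1 : V) (f0 f1 : V →ₗ[k] k) (hexp : ∀ v, v = f0 v • v0 + f1 v • v1)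
    (h00 : f0 v0 = 1) (h01 : f0 v1 = 0) (h10 : f1 v0 = 0) (h11 : f1 v1 = 1)
    (C : Module.End k X) (hCC : ∀ x, C (C x) = x)
    (c' : MonoidAlgebra k G) (hc' : h39_alg ρX c' = C)
    (hP : ∀ g x, ρX g (C x) + C (ρX g x) =
      (f0 (ρV g v0) + f1 (ρV g v1)) • C x + (f0 (ρV g v0) - f1 (ρV g v1)) • x)
    (hA : ∀ r : MonoidAlgebra k G, h39_alg ρV r = 0 → ∀ x, h39_alg ρX r (C x) =
      - C (h39_alg ρX r x))
    (r : MonoidAlgebra k G) (hr : h39_alg ρV r = 0) (x : X) :
    h39_alg ρX r (x - C x) + C (h39_alg ρX r (x - C x)) = 0 := by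
  classical
  -- the operator `X₁ = (1 + C) r (1 - C)`
  set X1 : X → X := fun w => h39_alg ρX r (w - C w) + C (h39_alg ρX r (w - C w)) with hX1
  have hX1C : ∀ w, X1 (C w) = - X1 w := by
    intro w
    simp only [hX1, hCC]
    have e : C w - w = - (w - C w) := by abel
    rw [e, map_neg, map_neg, neg_add]
  -- (B1): `C` fixes `s X₁ w`
  have hB1 : ∀ (s : MonoidAlgebra k G) (w : X), C (h39_alg ρX s (X1 w)) = h39_alg ρX s (X1 w) := by
    intro s w
    set z : MonoidAlgebra k G := (1 - c') * s * ((1 + c') * r * (1 - c')) with hz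
    have hzV : h39_alg ρV z = 0 := by
      rw [hz]
      simp only [map_mul, hr, mul_zero, zero_mul]
    have hzX : ∀ w', h39_alg ρX z w' = h39_alg ρX s (X1 w') - C (h39_alg ρX s (X1 w')) := by
      intro w'
      rw [hz]
      simp only [map_mul, map_sub, map_add, map_one, hc', Module.End.mul_apply,
        LinearMap.sub_apply, LinearMap.add_apply, Module.End.one_apply, hX1]
      abel
    have h1 := hA z hzV w
    rw [hzX, hzX, hX1C, map_neg, map_sub, hCC] at h1
    -- h1 : -A - C (-A) = -(C A - A),  A := s X₁ w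
    have h3 : (2 : k) • (C (h39_alg ρX s (X1 w)) - h39_alg ρX s (X1 w)) = 0 := by
      rw [map_neg] at h1
      linear_combination (norm := module) h1
    have h4 := (smul_eq_zero.mp h3).resolve_left h2
    exact sub_eq_zero.mp h4
  -- (B2): `g X₁ w = a(g) X₁ w`
  have hB2 : ∀ (g : G) (w : X), ρX g (X1 w) = f0 (ρV g v0) • X1 w := by
    intro g w
    have e1 : C (X1 w) = X1 w := by
      have := hB1 1 w
      simpa using this
    have e2 : C (ρX g (X1 w)) = ρX g (X1 w) := by
      have := hB1 (MonoidAlgebra.of k G g) w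
      rwa [h39_alg_of] at this
    have h1 := hP g (X1 w)
    rw [e1, e2] at h1
    have h3 : (2 : k) • (ρX g (X1 w) - f0 (ρV g v0) • X1 w) = 0 := by
      linear_combination (norm := module) h1
    exact sub_eq_zero.mp ((smul_eq_zero.mp h3).resolve_left h2)
  by_contra hne
  -- `a` is multiplicative
  have hmul : ∀ g h : G, f0 (ρV (g * h) v0) = f0 (ρV g v0) * f0 (ρV h v0) := by
    intro g h
    have h1 := hB2 (g * h) x
    rw [map_mul, Module.End.mul_apply, hB2 h x, map_smul, hB2 g x, smul_smul] at h1
    have h3 : (f0 (ρV h v0) * f0 (ρV g v0) - f0 (ρV (g * h) v0)) • X1 x = 0 := by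
      rw [sub_smul, h1, sub_self]
    have h4 := (smul_eq_zero.mp h3).resolve_right hne
    linear_combination -h4
  -- the off-diagonal products vanish
  have hoff : ∀ g h : G, f1 (ρV h v0) * f0 (ρV g v1) = 0 := by
    intro g h
    have h1 := hmul g h
    rw [map_mul, Module.End.mul_apply] at h1
    have h5 : f0 (ρV g (ρV h v0)) =
        f0 (ρV h v0) * f0 (ρV g v0) + f1 (ρV h v0) * f0 (ρV g v1) := by
      conv_lhs => rw [hexp (ρV h v0)]
      simp only [map_add, map_smul, smul_eq_mul]
    rw [h5] at h1
    linear_combination h1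
  have hv0 : v0 ≠ 0 := by
    rintro rfl
    rw [map_zero] at h00
    exact zero_ne_one h00
  have hv1 : v1 ≠ 0 := by
    rintro rfl
    rw [map_zero] at h11
    exact zero_ne_one h11
  by_cases hcase : ∀ h : G, f1 (ρV h v0) = 0
  · -- the line `k v0` is stable
    have hst : ∀ g, ∀ v ∈ Submodule.span k ({v0} : Set V), ρV g v ∈ Submodule.span k ({v0} : Set V) := by
      intro g v hv
      obtain ⟨a, rfl⟩ := Submodule.mem_span_singleton.mp hv
      rw [map_smul]
      refine Submodule.smul_mem _ _ ?_
      rw [hexp (ρV g v0), hcase g, zero_smul, add_zero]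
      exact Submodule.smul_mem _ _ (Submodule.mem_span_singleton_self v0)
    rcases hirr _ hst with h | h
    · exact hv0 ((Submodule.span_singleton_eq_bot).mp h)
    · have : v1 ∈ Submodule.span k ({v0} : Set V) := h ▸ Submodule.mem_top
      obtain ⟨a, ha⟩ := Submodule.mem_span_singleton.mp this
      have h5 := congrArg f1 ha
      rw [map_smul, h10, smul_zero, h11] at h5
      exact zero_ne_one h5
  · rw [not_forall] at hcase
    obtain ⟨h0, hh0⟩ := hcase
    have hcase' : ∀ g : G, f0 (ρV g v1) = 0 := fun g =>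
      (mul_eq_zero.mp (hoff g h0)).resolve_left hh0
    have hst : ∀ g, ∀ v ∈ Submodule.span k ({v1} : Set V), ρV g v ∈ Submodule.span k ({v1} : Set V) := by
      intro g v hv
      obtain ⟨a, rfl⟩ := Submodule.mem_span_singleton.mp hv
      rw [map_smul]
      refine Submodule.smul_mem _ _ ?_
      rw [hexp (ρV g v1), hcase' g, zero_smul, zero_add]
      exact Submodule.smul_mem _ _ (Submodule.mem_span_singleton_self v1)
    rcases hirr _ hst with h | h
    · exact hv1 ((Submodule.span_singleton_eq_bot).mp h)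
    · have : v0 ∈ Submodule.span k ({v1} : Set V) := h ▸ Submodule.mem_top
      obtain ⟨a, ha⟩ := Submodule.mem_span_singleton.mp this
      have h5 := congrArg f0 ha
      rw [map_smul, h01, smul_zero, h00] at h5
      exact zero_ne_one h5

/-- **The kernel of `k[G] → End V` kills `X`.** -/
theorem h39_ker (h2 : (2 : k) ≠ 0) (ρV : G →* Module.End k V) (ρX : G →* Module.End k X)
    (hirr : ∀ N : Submodule k V, (∀ g, ∀ v ∈ N, ρV g v ∈ N) → N = ⊥ ∨ N = ⊤)
    (v0 v1 : V) (f0 f1 : V →ₗ[k] k) (hexp : ∀ v, v = f0 v • v0 + f1 v • v1)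
    (h00 : f0 v0 = 1) (h01 : f0 v1 = 0) (h10 : f1 v0 = 0) (h11 : f1 v1 = 1)
    (C : Module.End k X) (hCC : ∀ x, C (C x) = x)
    (c' : MonoidAlgebra k G) (hc' : h39_alg ρX c' = C)
    (hP : ∀ g x, ρX g (C x) + C (ρX g x) =
      (f0 (ρV g v0) + f1 (ρV g v1)) • C x + (f0 (ρV g v0) - f1 (ρV g v1)) • x)
    (r : MonoidAlgebra k G) (hr : h39_alg ρV r = 0) : h39_alg ρX r = 0 := by
  have hA := h39_anti ρV ρX v0 v1 f0 f1 C hP
  ext x
  have half1 := h39_half h2 ρV ρX hirr v0 v1 f0 f1 hexp h00 h01 h10 h11 C hCC c' hc' hP hA r hr x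
  have half2 := h39_half h2 ρV ρX hirr v1 v0 f1 f0 (fun v => by rw [add_comm]; exact hexp v)
    h11 h10 h01 h00 (-C) (fun x => by simp [hCC]) (-c') (by rw [map_neg, hc'])
    (fun g x => by
      have := hP g x
      simp only [LinearMap.neg_apply, map_neg]
      linear_combination (norm := module) -this)
    (fun r hr x => by
      have := hA r hr x
      simp only [LinearMap.neg_apply, map_neg, neg_neg]
      rw [this, neg_neg]) r hr x
  have e1 := hA r hr x
  have e2 : C (h39_alg ρX r (C x)) = - h39_alg ρX r x := by rw [e1, map_neg, hCC]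
  simp only [LinearMap.neg_apply, map_sub, sub_neg_eq_add, map_add] at half1 half2
  rw [e2, e1] at half1 half2
  have h4 : (4 : k) • h39_alg ρX r x = 0 := by
    linear_combination (norm := module) half1 + half2
  have h4' : (4 : k) ≠ 0 := by
    have : (4 : k) = 2 * 2 := by norm_num
    rw [this]
    exact mul_ne_zero h2 h2
  rw [LinearMap.zero_apply]
  exact (smul_eq_zero.mp h4).resolve_left h4'

/-- The embedding, from the kernel statement and a pair of eigenvectors of the same sign. -/
theorem h39_embed_core (h2 : (2 : k) ≠ 0) (ρV : G →* Module.End k V) (ρX : G →* Module.End k X)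
    (hirr : ∀ N : Submodule k V, (∀ g, ∀ v ∈ N, ρV g v ∈ N) → N = ⊥ ∨ N = ⊤)
    (hker : ∀ r : MonoidAlgebra k G, h39_alg ρV r = 0 → h39_alg ρX r = 0)
    (c' : MonoidAlgebra k G) (v0 : V) (hv0 : v0 ≠ 0)
    (hE : ∀ v, ∃ a : k, v + h39_alg ρV c' v = a • v0)
    (y : X) (hy : y ≠ 0) (hCy : h39_alg ρX c' y = y) :
    ∃ ι : V →ₗ[k] X, Function.Injective ι ∧ ∀ g v, ι (ρV g v) = ρX g (ι v) := by
  classical
  have key : ∀ r : MonoidAlgebra k G, h39_alg ρV r v0 = 0 → h39_alg ρX r y = 0 := by
    intro r hr
    have hz : h39_alg ρV (r * (1 + c')) = 0 := by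
      ext v
      obtain ⟨a, ha⟩ := hE v
      simp only [map_mul, map_add, map_one, Module.End.mul_apply, LinearMap.add_apply,
        Module.End.one_apply, LinearMap.zero_apply]
      rw [← map_add, ha, map_smul, hr, smul_zero]
    have h1 := congrArg (fun T : Module.End k X => T y) (hker _ hz)
    simp only [map_mul, map_add, map_one, Module.End.mul_apply, LinearMap.add_apply,
      Module.End.one_apply, LinearMap.zero_apply, hCy] at h1
    rw [← two_smul k] at h1
    exact (smul_eq_zero.mp h1).resolve_left h2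
  -- the orbit of `v0` spans `V`
  let N : Submodule k V :=
    { carrier := {v | ∃ r : MonoidAlgebra k G, h39_alg ρV r v0 = v}
      add_mem' := by
        rintro _ _ ⟨r, rfl⟩ ⟨r', rfl⟩
        exact ⟨r + r', by rw [map_add, LinearMap.add_apply]⟩
      zero_mem' := ⟨0, by rw [map_zero, LinearMap.zero_apply]⟩
      smul_mem' := by
        rintro a _ ⟨r, rfl⟩
        exact ⟨a • r, by rw [map_smul, LinearMap.smul_apply]⟩ }
  have hNst : ∀ g, ∀ v ∈ N, ρV g v ∈ N := by
    rintro g _ ⟨r, rfl⟩
    exact ⟨MonoidAlgebra.of k G g * r, by rw [map_mul, h39_alg_of, Module.End.mul_apply]⟩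
  have hv0N : v0 ∈ N := ⟨1, by rw [map_one, Module.End.one_apply]⟩
  have hsurj : ∀ v, ∃ r : MonoidAlgebra k G, h39_alg ρV r v0 = v := by
    intro v
    rcases hirr N hNst with h | h
    · rw [h, Submodule.mem_bot] at hv0N
      exact absurd hv0N hv0
    · have : v ∈ N := h ▸ Submodule.mem_top
      exact this
  have hι : ∀ (v : V) (r : MonoidAlgebra k G), h39_alg ρV r v0 = v →
      h39_alg ρX (Classical.choose (hsurj v)) y = h39_alg ρX r y := by
    intro v r hr
    have h1 := key (Classical.choose (hsurj v) - r) (by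
      rw [map_sub, LinearMap.sub_apply, Classical.choose_spec (hsurj v), hr, sub_self])
    rw [map_sub, LinearMap.sub_apply] at h1
    exact sub_eq_zero.mp h1
  let ι : V →ₗ[k] X :=
    { toFun := fun v => h39_alg ρX (Classical.choose (hsurj v)) y
      map_add' := by
        intro v w
        show h39_alg ρX (Classical.choose (hsurj (v + w))) y = _
        rw [hι (v + w) (Classical.choose (hsurj v) + Classical.choose (hsurj w)) (by
          rw [map_add, LinearMap.add_apply, Classical.choose_spec (hsurj v),
            Classical.choose_spec (hsurj w)]), map_add, LinearMap.add_apply]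
      map_smul' := by
        intro a v
        show h39_alg ρX (Classical.choose (hsurj (a • v))) y = _
        rw [hι (a • v) (a • Classical.choose (hsurj v)) (by
          rw [map_smul, LinearMap.smul_apply, Classical.choose_spec (hsurj v)]), map_smul,
          LinearMap.smul_apply]
        rfl }
  have hιdef : ∀ (v : V) (r : MonoidAlgebra k G), h39_alg ρV r v0 = v → ι v = h39_alg ρX r y :=
    hι
  have hequiv : ∀ g v, ι (ρV g v) = ρX g (ι v) := by
    intro g v
    rw [hιdef (ρV g v) (MonoidAlgebra.of k G g * Classical.choose (hsurj v)) (by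
      rw [map_mul, h39_alg_of, Module.End.mul_apply, Classical.choose_spec (hsurj v)]),
      map_mul, h39_alg_of, Module.End.mul_apply]
    rfl
  refine ⟨ι, ?_, hequiv⟩
  have hkst : ∀ g, ∀ v ∈ LinearMap.ker ι, ρV g v ∈ LinearMap.ker ι := by
    intro g v hv
    rw [LinearMap.mem_ker] at hv ⊢
    rw [hequiv, hv, map_zero]
  rcases hirr _ hkst with h | h
  · exact LinearMap.ker_eq_bot.mp h
  · exfalso
    have h1 : v0 ∈ LinearMap.ker ι := h ▸ Submodule.mem_top
    rw [LinearMap.mem_ker, hιdef v0 1 (by rw [map_one, Module.End.one_apply]), map_one,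
      Module.End.one_apply] at h1
    exact hy h1

/-- **Boston–Lenstra–Ribet, embedding form.**  `V` an irreducible plane with an involution `c`
which is not `± 1`; on `X` every `g` satisfies the characteristic polynomial of `g` on `V`.  Then
every nonzero `x₀ ∈ X` yields an injective equivariant linear map `V → X`. -/
theorem h39_blr_embed (h2 : (2 : k) ≠ 0) (ρV : G →* Module.End k V) (ρX : G →* Module.End k X)
    (hV : Module.finrank k V = 2)
    (hirr : ∀ N : Submodule k V, (∀ g, ∀ v ∈ N, ρV g v ∈ N) → N = ⊥ ∨ N = ⊤)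
    (c : G) (hc : ρV c * ρV c = 1) (hc1 : ρV c ≠ 1) (hc2 : ρV c ≠ -1)
    (hX : ∀ g, ρX g * ρX g - LinearMap.trace k V (ρV g) • ρX g +
      LinearMap.det (ρV g) • (1 : Module.End k X) = 0)
    (x0 : X) (hx0 : x0 ≠ 0) :
    ∃ ι : V →ₗ[k] X, Function.Injective ι ∧ ∀ g v, ι (ρV g v) = ρX g (ι v) := by
  classical
  have hcc : ∀ v, ρV c (ρV c v) = v := fun v => by
    have := congrArg (fun T : Module.End k V => T v) hc
    simpa using this
  -- eigenvectors of `c` on `V`
  obtain ⟨w, hw⟩ : ∃ w, ρV c w + w ≠ 0 := by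
    by_contra hcon
    rw [not_exists] at hcon
    apply hc2
    ext v
    have := not_not.mp (hcon v)
    rw [LinearMap.neg_apply, Module.End.one_apply]
    exact eq_neg_of_add_eq_zero_left this
  obtain ⟨w', hw'⟩ : ∃ w', ρV c w' - w' ≠ 0 := by
    by_contra hcon
    rw [not_exists] at hcon
    apply hc1
    ext v
    have := not_not.mp (hcon v)
    rw [Module.End.one_apply]
    exact sub_eq_zero.mp this
  set vp : V := ρV c w + w with hvp
  set vm : V := ρV c w' - w' with hvm
  have hcp : ρV c vp = vp := by rw [hvp, map_add, hcc, add_comm]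
  have hcm : ρV c vm = - vm := by rw [hvm, map_sub, hcc, neg_sub]
  have hli : LinearIndependent k ![vp, vm] := by
    rw [LinearIndependent.pair_iff]
    intro s t hst
    have h1 := congrArg (ρV c) hst
    rw [map_add, map_smul, map_smul, hcp, hcm, map_zero] at h1
    have h3 : (2 : k) • (s • vp) = 0 := by linear_combination (norm := module) hst + h1
    have hs : s = 0 := by
      have := (smul_eq_zero.mp h3).resolve_left h2
      exact (smul_eq_zero.mp this).resolve_right hw
    rw [hs, zero_smul, zero_add] at hst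
    exact ⟨hs, (smul_eq_zero.mp hst).resolve_right hw'⟩
  let b : Basis (Fin 2) k V := basisOfLinearIndependentOfCardEqFinrank hli (by
    rw [Fintype.card_fin, hV])
  have hb0 : b 0 = vp := by
    simp [b, coe_basisOfLinearIndependentOfCardEqFinrank]
  have hb1 : b 1 = vm := by
    simp [b, coe_basisOfLinearIndependentOfCardEqFinrank]
  set f0 : V →ₗ[k] k := b.coord 0 with hf0
  set f1 : V →ₗ[k] k := b.coord 1 with hf1
  have hexp : ∀ v, v = f0 v • vp + f1 v • vm := by
    intro v
    have := b.sum_repr v
    rw [Fin.sum_univ_two, hb0, hb1] at this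
    exact this.symm
  have h00 : f0 vp = 1 := by rw [← hb0, hf0, Basis.coord_apply, Basis.repr_self]; simp
  have h01 : f0 vm = 0 := by rw [← hb1, hf0, Basis.coord_apply, Basis.repr_self]; simp
  have h10 : f1 vp = 0 := by rw [← hb0, hf1, Basis.coord_apply, Basis.repr_self]; simp
  have h11 : f1 vm = 1 := by rw [← hb1, hf1, Basis.coord_apply, Basis.repr_self]; simp
  -- trace and determinant in the basis
  have htr : ∀ A : Module.End k V, LinearMap.trace k V A = f0 (A vp) + f1 (A vm) := by
    intro A
    rw [LinearMap.trace_eq_matrix_trace k b A, Matrix.trace_fin_two, LinearMap.toMatrix_apply,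
      LinearMap.toMatrix_apply, hb0, hb1]
    rfl
  have hdetc : LinearMap.det (ρV c) = -1 := by
    rw [← LinearMap.det_toMatrix b (ρV c), Matrix.det_fin_two]
    simp only [LinearMap.toMatrix_apply, hb0, hb1, hcp, hcm, map_neg]
    have e00 : b.repr vp 0 = 1 := h00
    have e10 : b.repr vp 1 = 0 := h10
    have e01 : b.repr vm 0 = 0 := h01
    have e11 : b.repr vm 1 = 1 := h11
    simp only [Finsupp.neg_apply, e00, e10, e01, e11]
    ring
  have htrc : LinearMap.trace k V (ρV c) = 0 := by
    rw [htr, hcp, hcm, map_neg, h00, h11]; ring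
  -- the relation for `c` on `X`
  have hCC : ∀ x, ρX c (ρX c x) = x := by
    intro x
    have := congrArg (fun T : Module.End k X => T x) (hX c)
    simp only [htrc, hdetc, LinearMap.add_apply, Module.End.mul_apply,
      LinearMap.zero_apply, zero_smul, sub_zero, neg_smul, one_smul] at this
    exact eq_of_sub_eq_zero (by rw [sub_eq_add_neg]; exact this)
  -- the polarised relation
  have hP : ∀ g x, ρX g (ρX c x) + ρX c (ρX g x) =
      (f0 (ρV g vp) + f1 (ρV g vm)) • ρX c x + (f0 (ρV g vp) - f1 (ρV g vm)) • x := by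
    intro g x
    have hD : LinearMap.det (ρV g) ≠ 0 := by
      intro h0
      have h1 : LinearMap.det (ρV g) * LinearMap.det (ρV g⁻¹) = 1 := by
        rw [← map_mul, ← map_mul, mul_inv_cancel, map_one, map_one]
      rw [h0, zero_mul] at h1
      exact zero_ne_one h1
    have hii : ∀ w, ρX g (ρX g w) =
        LinearMap.trace k V (ρV g) • ρX g w - LinearMap.det (ρV g) • w := by
      intro w
      have := congrArg (fun T : Module.End k X => T w) (hX g)
      simp only [LinearMap.add_apply, LinearMap.sub_apply, Module.End.mul_apply,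
        LinearMap.smul_apply, Module.End.one_apply, LinearMap.zero_apply] at this
      linear_combination (norm := module) this
    have htr2 : LinearMap.trace k V (ρV (g * c)) = f0 (ρV g vp) - f1 (ρV g vm) := by
      rw [htr, map_mul, Module.End.mul_apply, Module.End.mul_apply, hcp, hcm, map_neg, map_neg]
      ring
    have hdet2 : LinearMap.det (ρV (g * c)) = - LinearMap.det (ρV g) := by
      rw [map_mul, map_mul, hdetc]; ring
    have hi : ∀ w, ρX g (ρX c (ρX g w)) =
        (f0 (ρV g vp) - f1 (ρV g vm)) • ρX g w + LinearMap.det (ρV g) • ρX c w := by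
      intro w
      have := congrArg (fun T : Module.End k X => T (ρX c w)) (hX (g * c))
      rw [htr2, hdet2] at this
      simp only [map_mul, LinearMap.add_apply, LinearMap.sub_apply,
        Module.End.mul_apply, LinearMap.smul_apply, Module.End.one_apply,
        LinearMap.zero_apply, hCC] at this
      linear_combination (norm := module) this
    set u : X := ρX g (ρX c x) + ρX c (ρX g x) -
      ((f0 (ρV g vp) + f1 (ρV g vm)) • ρX c x + (f0 (ρV g vp) - f1 (ρV g vm)) • x) with hu
    have hgu : ρX g u = 0 := by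
      rw [hu, map_sub, map_add, map_add, map_smul, map_smul, hii (ρX c x), hi x, htr]
      module
    have hu0 : u = 0 := by
      have h1 := hii u
      rw [hgu, map_zero, smul_zero, zero_sub] at h1
      have h3 : LinearMap.det (ρV g) • u = 0 := by
        linear_combination (norm := module) h1
      exact (smul_eq_zero.mp h3).resolve_left hD
    exact sub_eq_zero.mp hu0
  have hker := h39_ker h2 ρV ρX hirr vp vm f0 f1 hexp h00 h01 h10 h11 (ρX c) hCC
    (MonoidAlgebra.of k G c) (h39_alg_of ρX c) hP
  have hvp0 : vp ≠ 0 := hw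
  have hvm0 : vm ≠ 0 := hw'
  by_cases hy : x0 + ρX c x0 = 0
  · -- use the `-1` eigenvectors
    refine h39_embed_core h2 ρV ρX hirr hker (- MonoidAlgebra.of k G c) vm hvm0 ?_
      (x0 - ρX c x0) ?_ ?_
    · intro v
      refine ⟨2 * f1 v, ?_⟩
      rw [map_neg, h39_alg_of, LinearMap.neg_apply]
      conv_lhs => rw [hexp v]
      rw [map_add, map_smul, map_smul, hcp, hcm]
      module
    · intro h0
      have h3 : (2 : k) • x0 = 0 := by linear_combination (norm := module) hy + h0
      exact hx0 ((smul_eq_zero.mp h3).resolve_left h2)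
    · rw [map_neg, h39_alg_of, LinearMap.neg_apply, map_sub, hCC, neg_sub]
  · refine h39_embed_core h2 ρV ρX hirr hker (MonoidAlgebra.of k G c) vp hvp0 ?_
      (x0 + ρX c x0) hy ?_
    · intro v
      refine ⟨2 * f0 v, ?_⟩
      rw [h39_alg_of]
      conv_lhs => rw [hexp v]
      rw [map_add, map_smul, map_smul, hcp, hcm]
      module
    · rw [h39_alg_of, map_add, hCC, add_comm]

end BLR

end Fermat.Agent.S40
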