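import Mathlib
import Fermat.Agent.S40.h39_BLR
import Fermat.Agent.S40.h37_GTSplit

/-!
# S40, row R1 (helper39): the embedding `V ↪ Y` from Frobenius relations (Chebotarev form)

`h39_embed`: in the framework of `S41/h45_GaloisCore` (`V`, `Y` abelian groups with
`Module (ZMod p)` and `DistribMulAction G`), let `V` be an irreducible plane, `χ : G →* (ZMod p)ˣ`,
`c ∈ G` an involution on `V` with `χ c = -1`, and assume the hypothesis `hF`: every `g ∈ G` acts on
`V` AND on `Y` as a power `σ ^ b` of some `σ` killed on both by `X² - t X + χ(σ)`.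
Then `V` embeds `G`-equivariantly in the nonzero module `Y`.

Proof: `det (g | V) = χ g` (`h37_det_eq_chi`), hence `t = tr (σ | V)` (Cayley–Hamilton on the
plane), hence `σ` satisfies on `Y` the characteristic polynomial of `σ` on `V`; this passes to the
power `σ ^ b` (`A ^ b = α A + β` with the same `α, β` on `V` and on `Y`), and `h39_blr_embed`
applies.
-/

set_option autoImplicit false

namespace Fermat.Agent.S40

open Module Fermat.Agent.S41

section CH2

variable {k : Type*} [Field k] {V : Type*} [AddCommGroup V] [Module k V]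

/-- Cayley–Hamilton on a plane, with trace and determinant. -/
theorem h39_ch2 (hV : Module.finrank k V = 2) (A : Module.End k V) :
    A * A - LinearMap.trace k V A • A + LinearMap.det A • (1 : Module.End k V) = 0 := by
  classical
  have : Module.Finite k V := Module.finite_of_finrank_pos (by rw [hV]; norm_num)
  let b : Basis (Fin 2) k V := Module.finBasisOfFinrankEq k V hV
  apply (LinearMap.toMatrix b b).injective
  rw [map_add, map_sub, map_smul, map_smul, LinearMap.toMatrix_mul, LinearMap.toMatrix_one,
    LinearMap.trace_eq_matrix_trace k b A, ← LinearMap.det_toMatrix b A, map_zero]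
  generalize LinearMap.toMatrix b b A = M
  rw [Matrix.trace_fin_two, Matrix.det_fin_two]
  ext i j
  fin_cases i <;> fin_cases j <;>
    simp [Matrix.mul_apply, Fin.sum_univ_two] <;> ring

/-- Applied form of `h39_ch2`. -/
theorem h39_ch2_apply (hV : Module.finrank k V = 2) (A : Module.End k V) (v : V) :
    A (A v) - LinearMap.trace k V A • A v + LinearMap.det A • v = 0 := by
  have := congrArg (fun T : Module.End k V => T v) (h39_ch2 hV A)
  simpa using this

/-- The coefficients of `A ^ n = α A + β` when `A² = t A - d`. -/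
def h39_ab (t d : k) : ℕ → k × k
  | 0 => (0, 1)
  | n + 1 => ((h39_ab t d n).1 * t + (h39_ab t d n).2, - (h39_ab t d n).1 * d)

theorem h39_pow_apply {M : Type*} [AddCommGroup M] [Module k M] (A : Module.End k M) (t d : k)
    (hA : ∀ v, A (A v) = t • A v - d • v) (n : ℕ) (v : M) :
    (A ^ n) v = (h39_ab t d n).1 • A v + (h39_ab t d n).2 • v := by
  induction n generalizing v with
  | zero => simp [h39_ab]
  | succ n ih =>
    rw [pow_succ, Module.End.mul_apply, ih (A v), hA v]
    simp only [h39_ab]
    module

end CH2

section Embed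

variable {p : ℕ} [Fact p.Prime] {G : Type*} [Group G]
  {V : Type*} [AddCommGroup V] [Module (ZMod p) V] [DistribMulAction G V]
  {Y : Type*} [AddCommGroup Y] [Module (ZMod p) Y] [DistribMulAction G Y]

/-- The action as a monoid homomorphism into `Module.End (ZMod p)`. -/
noncomputable def h39_rho (p : ℕ) [Fact p.Prime] (G : Type*) [Group G] (V : Type*) [AddCommGroup V]
    [Module (ZMod p) V] [DistribMulAction G V] : G →* Module.End (ZMod p) V where
  toFun g := h45_rho p g
  map_one' := h45_rho_one p
  map_mul' g h := h45_rho_mul p g h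

@[simp] theorem h39_rho_apply (g : G) (v : V) : h39_rho p G V g v = g • v := rfl

/-- **The embedding from Frobenius relations.**  (Header = helper14's `h14_embed`, #3639.) -/
theorem h39_embed (hp2 : p ≠ 2) [Nontrivial Y]
    (hcard : Nat.card V = p ^ 2)
    (hirr : ∀ N : Submodule (ZMod p) V, (∀ (g : G), ∀ x ∈ N, g • x ∈ N) → N = ⊥ ∨ N = ⊤)
    (χ : G →* (ZMod p)ˣ) (c : G) (hc : ∀ v : V, c • c • v = v) (hχc : χ c = -1)
    (hF : ∀ g : G, ∃ (σ : G) (b : ℕ) (t : ZMod p),
      (∀ v : V, σ ^ b • v = g • v) ∧ (∀ y : Y, σ ^ b • y = g • y) ∧ χ σ ^ b = χ g ∧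
      (∀ v : V, σ • σ • v - t • σ • v + ((χ σ : (ZMod p)ˣ) : ZMod p) • v = 0) ∧
      (∀ y : Y, σ • σ • y - t • σ • y + ((χ σ : (ZMod p)ˣ) : ZMod p) • y = 0)) :
    ∃ iota : V →ₗ[ZMod p] Y, Function.Injective iota ∧ ∀ (g : G) (v : V), iota (g • v) = g • iota v := by
  classical
  have hp : p.Prime := Fact.out
  have hV : Module.finrank (ZMod p) V = 2 := h45_finrank hcard
  have h2 : (2 : ZMod p) ≠ 0 := by
    intro h
    have h' : ((2 : ℕ) : ZMod p) = 0 := by exact_mod_cast h
    have hdvd : p ∣ 2 := (ZMod.natCast_eq_zero_iff 2 p).mp h'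
    exact hp2 ((Nat.prime_dvd_prime_iff_eq hp Nat.prime_two).mp hdvd)
  have : Module.Finite (ZMod p) V := Module.finite_of_finrank_pos (by rw [hV]; norm_num)
  have hnt : Nontrivial V := by
    apply Module.nontrivial_of_finrank_pos (R := ZMod p)
    rw [hV]; norm_num
  obtain ⟨v1, hv1⟩ := exists_ne (0 : V)
  -- `det = χ` on `V`
  have hdet : ∀ g : G, LinearMap.det (h39_rho p G V g) = ((χ g : (ZMod p)ˣ) : ZMod p) :=
    h37_det_eq_chi hcard hirr χ (fun g => by
      obtain ⟨σ, b, t, h1, -, h3, h4, -⟩ := hF g
      exact ⟨σ, b, t, h1, h3, h4⟩)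
  -- the relation on `Y` with trace and determinant of `V`
  have hX : ∀ g, h39_rho p G Y g * h39_rho p G Y g -
      LinearMap.trace (ZMod p) V (h39_rho p G V g) • h39_rho p G Y g +
        LinearMap.det (h39_rho p G V g) • (1 : Module.End (ZMod p) Y) = 0 := by
    intro g
    obtain ⟨σ, b, t, hgV, hgY, -, hσV, hσY⟩ := hF g
    set d : ZMod p := ((χ σ : (ZMod p)ˣ) : ZMod p) with hd
    have hd0 : d ≠ 0 := Units.ne_zero _
    set A : Module.End (ZMod p) V := h39_rho p G V σ with hA
    set S : Module.End (ZMod p) Y := h39_rho p G Y σ with hS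
    have hAA : ∀ v, A (A v) = t • A v - d • v := by
      intro v
      have h0 : A (A v) - t • A v + d • v = 0 := hσV v
      linear_combination (norm := module) h0
    have hSS : ∀ y, S (S y) = t • S y - d • y := by
      intro y
      have h0 : S (S y) - t • S y + d • y = 0 := hσY y
      linear_combination (norm := module) h0
    -- `t` is the trace of `A`
    have hdetA : LinearMap.det A = d := hdet σ
    have htrA : LinearMap.trace (ZMod p) V A = t := by
      have h1 := h39_ch2_apply hV A v1
      rw [hAA v1, hdetA] at h1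
      have h3 : (t - LinearMap.trace (ZMod p) V A) • A v1 = 0 := by
        linear_combination (norm := module) h1
      rcases smul_eq_zero.mp h3 with h4 | h4
      · exact (sub_eq_zero.mp h4).symm
      · exfalso
        have h5 := hAA v1
        rw [h4, map_zero, smul_zero, zero_sub] at h5
        have h6 : d • v1 = 0 := by linear_combination (norm := module) h5
        exact hv1 ((smul_eq_zero.mp h6).resolve_left hd0)
    -- the power
    set α : ZMod p := (h39_ab t d b).1 with hα
    set β : ZMod p := (h39_ab t d b).2 with hβ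
    have hgA : h39_rho p G V g = A ^ b := by
      ext v
      rw [hA, ← MonoidHom.map_pow]
      exact (hgV v).symm
    have hgS : h39_rho p G Y g = S ^ b := by
      ext y
      rw [hS, ← MonoidHom.map_pow]
      exact (hgY y).symm
    have hBv : ∀ v, (A ^ b) v = α • A v + β • v := h39_pow_apply A t d hAA b
    have hBy : ∀ y, (S ^ b) y = α • S y + β • y := h39_pow_apply S t d hSS b
    -- trace and determinant of the power
    have htrB : LinearMap.trace (ZMod p) V (A ^ b) = α * t + 2 * β := by
      have e : A ^ b = α • A + β • (1 : Module.End (ZMod p) V) := by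
        ext v
        rw [hBv]
        simp
      rw [e, map_add, map_smul, map_smul, htrA, LinearMap.trace_one, hV]
      simp only [smul_eq_mul]
      push_cast
      ring
    have hdetB : LinearMap.det (A ^ b) = α ^ 2 * d + α * β * t + β ^ 2 := by
      have h1 := h39_ch2_apply hV (A ^ b) v1
      rw [htrB, hBv v1, hBv, map_add, map_smul, map_smul, hAA v1] at h1
      have h3 : (LinearMap.det (A ^ b) - (α ^ 2 * d + α * β * t + β ^ 2)) • v1 = 0 := by
        linear_combination (norm := module) h1
      exact sub_eq_zero.mp ((smul_eq_zero.mp h3).resolve_right hv1)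
    rw [hgA, hgS, htrB, hdetB]
    ext y
    simp only [LinearMap.add_apply, LinearMap.sub_apply, Module.End.mul_apply,
      LinearMap.smul_apply, Module.End.one_apply, LinearMap.zero_apply]
    rw [hBy y, hBy, map_add, map_smul, map_smul, hSS y]
    module
  -- the involution
  have hcc : h39_rho p G V c * h39_rho p G V c = 1 := by
    ext v
    rw [Module.End.mul_apply, h39_rho_apply, h39_rho_apply, hc, Module.End.one_apply]
  have hdetc : LinearMap.det (h39_rho p G V c) = -1 := by
    rw [hdet c, hχc]; simp
  have hne : (1 : ZMod p) ≠ -1 := by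
    intro h
    apply h2
    linear_combination h
  have hc1 : h39_rho p G V c ≠ 1 := by
    intro h
    rw [h, map_one] at hdetc
    exact hne hdetc
  have hc2 : h39_rho p G V c ≠ -1 := by
    intro h
    have e : (-1 : Module.End (ZMod p) V) = (-1 : ZMod p) • (1 : Module.End (ZMod p) V) := by
      simp
    rw [h, e, LinearMap.det_smul, map_one, hV] at hdetc
    apply hne
    rw [← hdetc]; ring
  obtain ⟨x0, hx0⟩ := exists_ne (0 : Y)
  obtain ⟨ι, hinj, heq⟩ := h39_blr_embed h2 (h39_rho p G V) (h39_rho p G Y) hV
    (fun N hN => hirr N (fun g x hx => hN g x hx)) c hcc hc1 hc2 hX x0 hx0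
  exact ⟨ι, hinj, fun g v => heq g v⟩

end Embed

end Fermat.Agent.S40
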