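import Mathlib
import Fermat.Agent.S18.RR_Large
import Fermat.Agent.S24.h35_PlaceBasic

/-!
# S40, row (W6-RR) (helper3): Riemann–Roch counts with point conditions, for pairs

Generic (no modular input).  `K` algebraically closed, function fields with charts in the sense of
`h75_IsChart`.

* `h3_mem_rr_sub_single`, `h3_mem_rr_sub_sum` : membership in `L(D - P)`, `L(D - ∑ P t)` for
  elements of `L(D)`.
* `h3_exists_lc` : the *leading coefficient functional* at a place: a `K`-linear functional on
  `L(D)` with kernel `L(D - P)`.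
* `h3_lc_surjective` : point conditions at distinct places are independent as soon as
  `dim L(D - ∑ P t) + #T = dim L(D)`.
* `h3_pairSub`, `h3_pair_finrank` : the space of pairs `(φ₁, φ₂) ∈ L(D₁) × L(D₂)` with
  `lam t φ₁ = mu t φ₂` for all `t` has dimension `dim L(D₁) + dim L(D₂) - #T`.
* `h3_pair_finrank_deg`, `h3_lc_surjective_deg` : the same with the dimensions given by
  Riemann–Roch in large degree (`h75_rr`).
-/

set_option autoImplicit false

open AlgebraicCurve

namespace Fermat.Agent.S40

open Fermat.Agent.S18 Fermat.Agent.S24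

section basic

variable {K F : Type*} [Field K] [Field F] [Algebra K F]

/-- For `f ∈ L(D)`: `f ∈ L(D - P)` iff `f = 0` or `ord_P f > -D(P)`. -/
theorem h3_mem_rr_sub_single {D : Divisor K F} {P : Place K F} {f : F}
    (hf : f ∈ riemannRochSpace D) :
    f ∈ riemannRochSpace (D - Finsupp.single P 1) ↔ f = 0 ∨ -D P < P.ord f := by
  classical
  rw [mem_riemannRochSpace_iff] at hf ⊢
  constructor
  · intro h
    rcases h P with h0 | h1
    · exact Or.inl h0
    · right
      have h2 : (D - Finsupp.single P 1 : Divisor K F) P = D P - 1 := by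
        rw [Finsupp.sub_apply, Finsupp.single_eq_same]
      rw [h2] at h1
      omega
  · rintro (h0 | h1) v
    · exact Or.inl h0
    · by_cases hv : v = P
      · subst hv
        right
        have h2 : (D - Finsupp.single v 1 : Divisor K F) v = D v - 1 := by
          rw [Finsupp.sub_apply, Finsupp.single_eq_same]
        rw [h2]
        omega
      · rcases hf v with h | h
        · exact Or.inl h
        · right
          have h2 : (D - Finsupp.single P 1 : Divisor K F) v = D v := by
            rw [Finsupp.sub_apply, Finsupp.single_apply, if_neg (fun h => hv h.symm), sub_zero]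
          rw [h2]
          exact h

open Classical in
/-- The value of `∑ t, [P t]` at a place, for an injective family. -/
theorem h3_sum_single_apply {T : Type*} [Fintype T] (P : T → Place K F)
    (hP : Function.Injective P) (v : Place K F) :
    (∑ t, Finsupp.single (P t) (1 : ℤ) : Divisor K F) v = if ∃ t, P t = v then 1 else 0 := by
  rw [Finsupp.finsetSum_apply]
  by_cases h : ∃ t, P t = v
  · obtain ⟨t0, rfl⟩ := h
    rw [if_pos ⟨t0, rfl⟩]
    have : ∀ t ∈ (Finset.univ : Finset T),
        (Finsupp.single (P t) (1 : ℤ)) (P t0) = if t = t0 then 1 else 0 := by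
      intro t _
      rw [Finsupp.single_apply]
      by_cases ht : t = t0
      · rw [if_pos (by rw [ht]), if_pos ht]
      · rw [if_neg (fun h => ht (hP h)), if_neg ht]
    rw [Finset.sum_congr rfl this, Finset.sum_ite_eq' Finset.univ t0]
    simp
  · rw [if_neg h]
    apply Finset.sum_eq_zero
    intro t _
    rw [Finsupp.single_apply, if_neg (fun h' => h ⟨t, h'⟩)]

/-- For `f ∈ L(D)` and an injective family of places: `f ∈ L(D - ∑ P t)` iff `f ∈ L(D - P t)`
for every `t`. -/
theorem h3_mem_rr_sub_sum {T : Type*} [Fintype T] (P : T → Place K F)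
    (hP : Function.Injective P) {D : Divisor K F} {f : F} (hf : f ∈ riemannRochSpace D) :
    f ∈ riemannRochSpace (D - ∑ t, Finsupp.single (P t) 1) ↔
      ∀ t, f ∈ riemannRochSpace (D - Finsupp.single (P t) 1) := by
  classical
  constructor
  · intro h t
    rw [h3_mem_rr_sub_single hf]
    rw [mem_riemannRochSpace_iff] at h
    rcases h (P t) with h0 | h1
    · exact Or.inl h0
    · right
      have h2 : (D - ∑ t, Finsupp.single (P t) 1 : Divisor K F) (P t) = D (P t) - 1 := by
        rw [Finsupp.sub_apply, h3_sum_single_apply P hP, if_pos ⟨t, rfl⟩]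
      rw [h2] at h1
      omega
  · intro h
    rw [mem_riemannRochSpace_iff]
    intro v
    by_cases hv : ∃ t, P t = v
    · obtain ⟨t, rfl⟩ := hv
      rcases (h3_mem_rr_sub_single hf).mp (h t) with h0 | h1
      · exact Or.inl h0
      · right
        have h2 : (D - ∑ t, Finsupp.single (P t) 1 : Divisor K F) (P t) = D (P t) - 1 := by
          rw [Finsupp.sub_apply, h3_sum_single_apply P hP, if_pos ⟨t, rfl⟩]
        rw [h2]
        omega
    · rcases (mem_riemannRochSpace_iff.mp hf) v with h0 | h1
      · exact Or.inl h0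
      · right
        have h2 : (D - ∑ t, Finsupp.single (P t) 1 : Divisor K F) v = D v := by
          rw [Finsupp.sub_apply, h3_sum_single_apply P hP, if_neg hv, sub_zero]
        rw [h2]
        exact h1

/-- `L(D - ∑ P t) ≤ L(D)`. -/
theorem h3_rr_sub_sum_le {T : Type*} [Fintype T] (P : T → Place K F)
    (hP : Function.Injective P) (D : Divisor K F) :
    riemannRochSpace (D - ∑ t, Finsupp.single (P t) 1) ≤ riemannRochSpace D := by
  classical
  intro f hf
  rw [mem_riemannRochSpace_iff] at hf ⊢
  intro v
  rcases hf v with h0 | h1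
  · exact Or.inl h0
  · right
    have h2 : (D - ∑ t, Finsupp.single (P t) 1 : Divisor K F) v ≤ D v := by
      rw [Finsupp.sub_apply, h3_sum_single_apply P hP]
      split_ifs <;> omega
    omega

end basic

section lc

variable {K F : Type*} [Field K] [Field F] [Algebra K F] [IsAlgClosed K]

/-- **Leading coefficient functional.**  For a divisor `D` and a place `P` there is a `K`-linear
functional on `L(D)` whose kernel is `L(D - P)`. -/
theorem h3_exists_lc {x : F} (hx : h75_IsChart K x) (D : Divisor K F) (P : Place K F) :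
    ∃ lam : ↥(riemannRochSpace D) →ₗ[K] K,
      ∀ f : ↥(riemannRochSpace D),
        lam f = 0 ↔ (f : F) ∈ riemannRochSpace (D - Finsupp.single P 1) := by
  classical
  by_cases hW : ∀ f : ↥(riemannRochSpace D),
      (f : F) ∈ riemannRochSpace (D - Finsupp.single P 1)
  · exact ⟨0, fun f => ⟨fun _ => hW f, fun _ => rfl⟩⟩
  · push Not at hW
    obtain ⟨g, hg⟩ := hW
    have hg' : ¬ ((g : F) = 0 ∨ -D P < P.ord (g : F)) := fun h =>
      hg ((h3_mem_rr_sub_single g.2).mpr h)
    push Not at hg'
    obtain ⟨hg0, hgord⟩ := hg'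
    have hgD : -D P ≤ P.ord (g : F) := by
      rcases (mem_riemannRochSpace_iff.mp g.2) P with h | h
      · exact absurd h hg0
      · exact h
    have hgeq : P.ord (g : F) = -D P := le_antisymm hgord hgD
    -- existence of the coefficient
    have hex : ∀ f : ↥(riemannRochSpace D), ∃ a : K,
        ((f - a • g : ↥(riemannRochSpace D)) : F) ∈
          riemannRochSpace (D - Finsupp.single P 1) := by
      intro f
      by_cases hf0 : (f : F) = 0
      · refine ⟨0, ?_⟩
        rw [zero_smul, sub_zero, hf0]
        exact Submodule.zero_mem _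
      · have hfD : -D P ≤ P.ord (f : F) := by
          rcases (mem_riemannRochSpace_iff.mp f.2) P with h | h
          · exact absurd h hf0
          · exact h
        have hu0 : (f : F) / (g : F) ≠ 0 := div_ne_zero hf0 hg0
        have hu : (f : F) / (g : F) ∈ P.toValuationSubring := by
          rw [h35_mem_iff_ord_nonneg P hu0, h35_ord_div P hf0 hg0]
          omega
        obtain ⟨a, ha⟩ := h75_exists_const hx P _ hu
        refine ⟨a, ?_⟩
        have hmem : ((f - a • g : ↥(riemannRochSpace D)) : F) ∈ riemannRochSpace D :=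
          (f - a • g).2
        rw [h3_mem_rr_sub_single hmem]
        have hval : ((f - a • g : ↥(riemannRochSpace D)) : F)
            = (g : F) * ((f : F) / (g : F) - algebraMap K F a) := by
          rw [Submodule.coe_sub, Submodule.coe_smul, Algebra.smul_def]
          field_simp
        rcases ha with ha | ha
        · left
          rw [hval, ha, sub_self, mul_zero]
        · by_cases hz : (f : F) / (g : F) - algebraMap K F a = 0
          · left
            rw [hval, hz, mul_zero]
          · right
            rw [hval, P.ord_mul hg0 hz, hgeq]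
            omega
    -- uniqueness
    have huniq : ∀ (f : ↥(riemannRochSpace D)) (a b : K),
        ((f - a • g : ↥(riemannRochSpace D)) : F) ∈ riemannRochSpace (D - Finsupp.single P 1) →
        ((f - b • g : ↥(riemannRochSpace D)) : F) ∈ riemannRochSpace (D - Finsupp.single P 1) →
        a = b := by
      intro f a b ha hb
      by_contra hab
      have h1 : (((b - a) • g : ↥(riemannRochSpace D)) : F) ∈
          riemannRochSpace (D - Finsupp.single P 1) := by
        have h2 := Submodule.sub_mem _ ha hb
        have h3 : (((f - a • g : ↥(riemannRochSpace D)) : F)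
            - ((f - b • g : ↥(riemannRochSpace D)) : F))
            = (((b - a) • g : ↥(riemannRochSpace D)) : F) := by
          simp only [Submodule.coe_sub, Submodule.coe_smul, sub_smul]
          ring
        rw [h3] at h2
        exact h2
      have hba : b - a ≠ 0 := sub_ne_zero.mpr (Ne.symm hab)
      have h4 := Submodule.smul_mem (riemannRochSpace (D - Finsupp.single P 1)) (b - a)⁻¹ h1
      rw [Submodule.coe_smul, smul_smul, inv_mul_cancel₀ hba, one_smul] at h4
      exact hg h4
    let lamf : ↥(riemannRochSpace D) → K := fun f => (hex f).choose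
    have hlamf : ∀ f, ((f - lamf f • g : ↥(riemannRochSpace D)) : F) ∈
        riemannRochSpace (D - Finsupp.single P 1) := fun f => (hex f).choose_spec
    refine ⟨{ toFun := lamf, map_add' := ?_, map_smul' := ?_ }, ?_⟩
    · intro f f'
      apply huniq (f + f') _ _ (hlamf (f + f'))
      have h2 := Submodule.add_mem _ (hlamf f) (hlamf f')
      have h3 : (((f - lamf f • g : ↥(riemannRochSpace D)) : F)
          + ((f' - lamf f' • g : ↥(riemannRochSpace D)) : F))
          = (((f + f') - (lamf f + lamf f') • g : ↥(riemannRochSpace D)) : F) := by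
        simp only [Submodule.coe_sub, Submodule.coe_add, Submodule.coe_smul, add_smul]
        ring
      rw [h3] at h2
      exact h2
    · intro c f
      apply huniq (c • f) _ _ (hlamf (c • f))
      have h2 := Submodule.smul_mem (riemannRochSpace (D - Finsupp.single P 1)) c (hlamf f)
      have h3 : c • ((f - lamf f • g : ↥(riemannRochSpace D)) : F)
          = ((c • f - ((RingHom.id K) c • lamf f) • g : ↥(riemannRochSpace D)) : F) := by
        simp only [Submodule.coe_sub, Submodule.coe_smul, RingHom.id_apply, smul_sub, smul_smul,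
          smul_eq_mul]
      rw [h3] at h2
      exact h2
    · intro f
      show lamf f = 0 ↔ _
      constructor
      · intro h0
        have h1 := hlamf f
        rw [h0, zero_smul, sub_zero] at h1
        exact h1
      · intro hf
        apply huniq f _ _ (hlamf f)
        rw [zero_smul, sub_zero]
        exact hf

/-- **Independence of point conditions** (dimension form).  If
`dim L(D - ∑ P t) + #T = dim L(D)` then the leading coefficients at the places `P t` can be
prescribed arbitrarily. -/
theorem h3_lc_surjective {x : F} (hx : h75_IsChart K x) {T : Type*} [Fintype T]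
    (D : Divisor K F) (P : T → Place K F) (hP : Function.Injective P)
    (lam : T → ↥(riemannRochSpace D) →ₗ[K] K)
    (hlam : ∀ (t : T) (f : ↥(riemannRochSpace D)),
      lam t f = 0 ↔ (f : F) ∈ riemannRochSpace (D - Finsupp.single (P t) 1))
    (hdim : Module.finrank K ↥(riemannRochSpace (D - ∑ t, Finsupp.single (P t) 1))
      + Fintype.card T = Module.finrank K ↥(riemannRochSpace D)) :
    Function.Surjective (fun (f : ↥(riemannRochSpace D)) (t : T) => lam t f) := by
  classical
  have : Module.Finite K ↥(riemannRochSpace D) := (h75_riemann hx D).1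
  let Λ : ↥(riemannRochSpace D) →ₗ[K] (T → K) := LinearMap.pi lam
  have hker : LinearMap.ker Λ
      = (riemannRochSpace (D - ∑ t, Finsupp.single (P t) 1)).comap
          (riemannRochSpace D).subtype := by
    ext f
    rw [LinearMap.mem_ker, Submodule.mem_comap]
    show Λ f = 0 ↔ (f : F) ∈ _
    rw [h3_mem_rr_sub_sum P hP f.2]
    constructor
    · intro h t
      exact (hlam t f).mp (congrFun h t)
    · intro h
      funext t
      exact (hlam t f).mpr (h t)
  have hkerdim : Module.finrank K ↥(LinearMap.ker Λ)
      = Module.finrank K ↥(riemannRochSpace (D - ∑ t, Finsupp.single (P t) 1)) := by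
    rw [hker]
    exact (Submodule.comapSubtypeEquivOfLe (h3_rr_sub_sum_le P hP D)).finrank_eq
  have hrn := LinearMap.finrank_range_add_finrank_ker Λ
  have hrange : Module.finrank K ↥(LinearMap.range Λ) = Module.finrank K (T → K) := by
    rw [Module.finrank_fintype_fun_eq_card]
    omega
  have htop : LinearMap.range Λ = ⊤ := Submodule.eq_top_of_finrank_eq hrange
  intro a
  have : a ∈ LinearMap.range Λ := htop ▸ Submodule.mem_top
  obtain ⟨f, hf⟩ := this
  exact ⟨f, hf⟩

end lc

section pair

variable {K F₁ F₂ : Type*} [Field K] [Field F₁] [Field F₂] [Algebra K F₁] [Algebra K F₂]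

/-- The space of pairs `(φ₁, φ₂) ∈ L(D₁) × L(D₂)` with `lam t φ₁ = mu t φ₂` for all `t`. -/
def h3_pairSub {T : Type*} {D₁ : Divisor K F₁} {D₂ : Divisor K F₂}
    (lam : T → ↥(riemannRochSpace D₁) →ₗ[K] K) (mu : T → ↥(riemannRochSpace D₂) →ₗ[K] K) :
    Submodule K (↥(riemannRochSpace D₁) × ↥(riemannRochSpace D₂)) :=
  LinearMap.ker (LinearMap.pi (fun t =>
    (lam t).comp (LinearMap.fst K _ _) - (mu t).comp (LinearMap.snd K _ _)))

theorem h3_mem_pairSub {T : Type*} {D₁ : Divisor K F₁} {D₂ : Divisor K F₂}
    (lam : T → ↥(riemannRochSpace D₁) →ₗ[K] K) (mu : T → ↥(riemannRochSpace D₂) →ₗ[K] K)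
    (z : ↥(riemannRochSpace D₁) × ↥(riemannRochSpace D₂)) :
    z ∈ h3_pairSub lam mu ↔ ∀ t, lam t z.1 = mu t z.2 := by
  unfold h3_pairSub
  rw [LinearMap.mem_ker]
  constructor
  · intro h t
    have := congrFun h t
    simp only [LinearMap.pi_apply, LinearMap.sub_apply, LinearMap.comp_apply, LinearMap.fst_apply,
      LinearMap.snd_apply, Pi.zero_apply] at this
    exact sub_eq_zero.mp this
  · intro h
    funext t
    simp only [LinearMap.pi_apply, LinearMap.sub_apply, LinearMap.comp_apply, LinearMap.fst_apply,
      LinearMap.snd_apply, Pi.zero_apply]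
    exact sub_eq_zero.mpr (h t)

variable [IsAlgClosed K]

/-- **Pair count** (dimension form): `dim {(φ₁, φ₂) | lam t φ₁ = mu t φ₂} + #T
= dim L(D₁) + dim L(D₂)` as soon as the point conditions on the first factor are independent.
No hypothesis on the functionals `mu t`. -/
theorem h3_pair_finrank {x₁ : F₁} (hx₁ : h75_IsChart K x₁) {x₂ : F₂} (hx₂ : h75_IsChart K x₂)
    {T : Type*} [Fintype T] (D₁ : Divisor K F₁) (D₂ : Divisor K F₂)
    (P : T → Place K F₁) (hP : Function.Injective P)
    (lam : T → ↥(riemannRochSpace D₁) →ₗ[K] K)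
    (hlam : ∀ (t : T) (f : ↥(riemannRochSpace D₁)),
      lam t f = 0 ↔ (f : F₁) ∈ riemannRochSpace (D₁ - Finsupp.single (P t) 1))
    (mu : T → ↥(riemannRochSpace D₂) →ₗ[K] K)
    (hdim : Module.finrank K ↥(riemannRochSpace (D₁ - ∑ t, Finsupp.single (P t) 1))
      + Fintype.card T = Module.finrank K ↥(riemannRochSpace D₁)) :
    Module.finrank K ↥(h3_pairSub lam mu) + Fintype.card T
      = Module.finrank K ↥(riemannRochSpace D₁) + Module.finrank K ↥(riemannRochSpace D₂) := by
  classical
  have : Module.Finite K ↥(riemannRochSpace D₁) := (h75_riemann hx₁ D₁).1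
  have : Module.Finite K ↥(riemannRochSpace D₂) := (h75_riemann hx₂ D₂).1
  let Ψ : (↥(riemannRochSpace D₁) × ↥(riemannRochSpace D₂)) →ₗ[K] (T → K) :=
    LinearMap.pi (fun t =>
      (lam t).comp (LinearMap.fst K _ _) - (mu t).comp (LinearMap.snd K _ _))
  have hsurj : LinearMap.range Ψ = ⊤ := by
    rw [LinearMap.range_eq_top]
    intro a
    obtain ⟨f, hf⟩ := h3_lc_surjective hx₁ D₁ P hP lam hlam hdim a
    refine ⟨(f, 0), ?_⟩
    funext t
    have := congrFun hf t
    simp only [Ψ, LinearMap.pi_apply, LinearMap.sub_apply, LinearMap.comp_apply,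
      LinearMap.fst_apply, LinearMap.snd_apply, map_zero, sub_zero]
    exact this
  have hrn := LinearMap.finrank_range_add_finrank_ker Ψ
  rw [hsurj, finrank_top, Module.finrank_fintype_fun_eq_card, Module.finrank_prod] at hrn
  show Module.finrank K ↥(LinearMap.ker Ψ) + Fintype.card T = _
  omega

/-- **Independence of point conditions** (degree form, via Riemann–Roch in large degree). -/
theorem h3_lc_surjective_deg {F : Type*} [Field F] [Algebra K F] {x : F}
    (hx : h75_IsChart K x) :
    ∃ c : ℤ, ∀ {T : Type*} [Fintype T] (D : Divisor K F) (P : T → Place K F),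
      Function.Injective P → ∀ (lam : T → ↥(riemannRochSpace D) →ₗ[K] K),
      (∀ (t : T) (f : ↥(riemannRochSpace D)),
        lam t f = 0 ↔ (f : F) ∈ riemannRochSpace (D - Finsupp.single (P t) 1)) →
      c + Fintype.card T ≤ Divisor.degree D →
      Function.Surjective (fun (f : ↥(riemannRochSpace D)) (t : T) => lam t f) ∧
        (Module.finrank K ↥(riemannRochSpace D) : ℤ)
          = Divisor.degree D + 1 - (h75_genus K x : ℤ) := by
  obtain ⟨c, hc⟩ := h75_rr hx
  refine ⟨c, ?_⟩
  intro T _ D P hP lam hlam hdeg
  have hdegsub : Divisor.degree (D - ∑ t, Finsupp.single (P t) 1)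
      = Divisor.degree D - Fintype.card T := by
    rw [map_sub, map_sum]
    have : ∀ t ∈ (Finset.univ : Finset T),
        Divisor.degree (Finsupp.single (P t) (1 : ℤ)) = 1 := by
      intro t _
      rw [Divisor.degree_single, h75_deg_eq_one hx (P t)]
      simp
    rw [Finset.sum_congr rfl this]
    simp
  have h1 := hc (D - ∑ t, Finsupp.single (P t) 1) (by rw [hdegsub]; omega)
  have h2 := hc D (by have := Nat.cast_nonneg (α := ℤ) (Fintype.card T); omega)
  refine ⟨h3_lc_surjective hx D P hP lam hlam ?_, h2⟩
  rw [hdegsub] at h1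
  have : (Module.finrank K ↥(riemannRochSpace (D - ∑ t, Finsupp.single (P t) 1)) : ℤ)
      + Fintype.card T = Module.finrank K ↥(riemannRochSpace D) := by
    rw [h1, h2]
    ring
  exact_mod_cast this

/-- **Pair count** (degree form): for `deg D₁ ≥ c₁ + #T` and `deg D₂ ≥ c₂`,
`dim {(φ₁, φ₂) ∈ L(D₁) × L(D₂) | lam t φ₁ = mu t φ₂ ∀ t}
  = (deg D₁ + 1 - g₁) + (deg D₂ + 1 - g₂) - #T`. -/
theorem h3_pair_finrank_deg {x₁ : F₁} (hx₁ : h75_IsChart K x₁) {x₂ : F₂}
    (hx₂ : h75_IsChart K x₂) :
    ∃ c₁ c₂ : ℤ, ∀ {T : Type*} [Fintype T] (D₁ : Divisor K F₁) (D₂ : Divisor K F₂)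
      (P : T → Place K F₁), Function.Injective P →
      ∀ (lam : T → ↥(riemannRochSpace D₁) →ₗ[K] K),
      (∀ (t : T) (f : ↥(riemannRochSpace D₁)),
        lam t f = 0 ↔ (f : F₁) ∈ riemannRochSpace (D₁ - Finsupp.single (P t) 1)) →
      ∀ (mu : T → ↥(riemannRochSpace D₂) →ₗ[K] K),
      c₁ + Fintype.card T ≤ Divisor.degree D₁ → c₂ ≤ Divisor.degree D₂ →
      (Module.finrank K ↥(h3_pairSub lam mu) : ℤ)
        = (Divisor.degree D₁ + 1 - (h75_genus K x₁ : ℤ))
          + (Divisor.degree D₂ + 1 - (h75_genus K x₂ : ℤ)) - Fintype.card T := by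
  obtain ⟨c₁, hc₁⟩ := h75_rr hx₁
  obtain ⟨c₂, hc₂⟩ := h75_rr hx₂
  refine ⟨c₁, c₂, ?_⟩
  intro T _ D₁ D₂ P hP lam hlam mu hdeg₁ hdeg₂
  have hdegsub : Divisor.degree (D₁ - ∑ t, Finsupp.single (P t) 1)
      = Divisor.degree D₁ - Fintype.card T := by
    rw [map_sub, map_sum]
    have : ∀ t ∈ (Finset.univ : Finset T),
        Divisor.degree (Finsupp.single (P t) (1 : ℤ)) = 1 := by
      intro t _
      rw [Divisor.degree_single, h75_deg_eq_one hx₁ (P t)]
      simp
    rw [Finset.sum_congr rfl this]
    simp
  have h1 := hc₁ (D₁ - ∑ t, Finsupp.single (P t) 1) (by rw [hdegsub]; omega)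
  have h2 := hc₁ D₁ (by have := Nat.cast_nonneg (α := ℤ) (Fintype.card T); omega)
  have h3 := hc₂ D₂ hdeg₂
  rw [hdegsub] at h1
  have hdim : Module.finrank K ↥(riemannRochSpace (D₁ - ∑ t, Finsupp.single (P t) 1))
      + Fintype.card T = Module.finrank K ↥(riemannRochSpace D₁) := by
    have : (Module.finrank K ↥(riemannRochSpace (D₁ - ∑ t, Finsupp.single (P t) 1)) : ℤ)
        + Fintype.card T = Module.finrank K ↥(riemannRochSpace D₁) := by
      rw [h1, h2]
      ring
    exact_mod_cast this
  have hmain := h3_pair_finrank hx₁ hx₂ D₁ D₂ P hP lam hlam mu hdim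
  have hmain' : (Module.finrank K ↥(h3_pairSub lam mu) : ℤ) + Fintype.card T
      = Module.finrank K ↥(riemannRochSpace D₁) + Module.finrank K ↥(riemannRochSpace D₂) := by
    exact_mod_cast hmain
  rw [h2, h3] at hmain'
  linarith

end pair

end Fermat.Agent.S40
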