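import Mathlib

/-!
# S40 (G40), group-theory core of the non-Eisenstein input (helper43).  Mathlib only.

`h43_exists_stable_line` : a group acting linearly on a `2`-dimensional vector space over a field
such that every element has trace `1 + det` (i.e. characteristic polynomial
`(X - 1)(X - det)`) stabilises a proper nonzero subspace.  No finiteness, no hypothesis on the
characteristic, no Brauer–Nesbitt.

`h43_exists_trace_ne` : contrapositive - an irreducible `2`-dimensional representation has an
element `g` with `trace (ρ g) ≠ 1 + det (ρ g)`.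

Use in G40 (layer (END), #3390): with `ρ` the mod `p` representation on `W[p]` (trace of
`Frob_r` = `a_r(W)`, `det` = `r`), irreducibility and Chebotarev give a prime `r` with
`a_r(W) ≢ r + 1 mod p`.
-/

set_option autoImplicit false

open Module

namespace Fermat.Agent.S40

/-- Cayley–Hamilton for `2 × 2` matrices, explicit form. -/
theorem h43_mat_ch2 {k : Type*} [CommRing k] (M : Matrix (Fin 2) (Fin 2) k) :
    M * M = M.trace • M - M.det • (1 : Matrix (Fin 2) (Fin 2) k) := by
  ext i j
  fin_cases i <;> fin_cases j <;>
    simp [Matrix.mul_apply, Fin.sum_univ_two, Matrix.trace_fin_two, Matrix.det_fin_two] <;> ring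

/-- Cayley–Hamilton on a `2`-dimensional space, explicit form. -/
theorem h43_ch2 {k V : Type*} [Field k] [AddCommGroup V] [Module k V]
    (hV : finrank k V = 2) (f : V →ₗ[k] V) :
    f * f = LinearMap.trace k V f • f - LinearMap.det f • (1 : V →ₗ[k] V) := by
  have : Module.Finite k V := Module.finite_of_finrank_pos (by omega)
  let b : Basis (Fin 2) k V := Module.finBasisOfFinrankEq k V hV
  apply (LinearMap.toMatrix b b).injective
  rw [LinearMap.toMatrix_mul, map_sub, map_smul, map_smul, LinearMap.toMatrix_one,
    LinearMap.trace_eq_matrix_trace k b f, ← LinearMap.det_toMatrix b f]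
  exact h43_mat_ch2 _

/-- A nonzero square-zero endomorphism of a `2`-dimensional space has kernel = range. -/
theorem h43_ker_le_range {k V : Type*} [Field k] [AddCommGroup V] [Module k V]
    (hV : finrank k V = 2) (N : V →ₗ[k] V) (hN : N ≠ 0) (hNN : N * N = 0) :
    LinearMap.ker N ≤ LinearMap.range N := by
  have : Module.Finite k V := Module.finite_of_finrank_pos (by omega)
  have hle : LinearMap.range N ≤ LinearMap.ker N := by
    rintro _ ⟨w, rfl⟩
    rw [LinearMap.mem_ker]
    have := congrArg (fun f : V →ₗ[k] V => f w) hNN
    simpa using this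
  have hrn := LinearMap.finrank_range_add_finrank_ker N
  rw [hV] at hrn
  have hr : 0 < finrank k (LinearMap.range N) := by
    rw [Module.finrank_pos_iff]
    by_contra hcon
    rw [not_nontrivial_iff_subsingleton] at hcon
    apply hN
    ext w
    have h0 : (⟨N w, LinearMap.mem_range_self N w⟩ : LinearMap.range N) = 0 :=
      Subsingleton.elim _ _
    simpa using congrArg Subtype.val h0
  have hk : finrank k (LinearMap.ker N) ≤ finrank k (LinearMap.range N) := by
    have hlt : finrank k (LinearMap.ker N) < 2 := by
      rw [← hV]
      apply Submodule.finrank_lt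
      rw [Ne, LinearMap.ker_eq_top]
      exact hN
    omega
  exact (Submodule.eq_of_le_of_finrank_le hle hk).ge

/-- **Stable line.**  A group acting on a `2`-dimensional space with every element of trace
`1 + det` stabilises a proper nonzero subspace. -/
theorem h43_exists_stable_line {k V G : Type*} [Field k] [AddCommGroup V] [Module k V] [Group G]
    (hV : finrank k V = 2) (ρ : G →* (V →ₗ[k] V))
    (h : ∀ g, LinearMap.trace k V (ρ g) = 1 + LinearMap.det (ρ g)) :
    ∃ L : Submodule k V, L ≠ ⊥ ∧ L ≠ ⊤ ∧ ∀ g, ∀ v ∈ L, ρ g v ∈ L := by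
  have hfin : Module.Finite k V := Module.finite_of_finrank_pos (by omega)
  have hnt : Nontrivial V := Module.nontrivial_of_finrank_pos (R := k) (by omega)
  have hinv : ∀ g, ρ g⁻¹ * ρ g = 1 := fun g => by rw [← map_mul, inv_mul_cancel, map_one]
  by_cases h1 : ∃ g, LinearMap.det (ρ g) = 1 ∧ ρ g ≠ 1
  · -- a nontrivial unipotent element
    obtain ⟨g, hdet, hne⟩ := h1
    set n := ρ g with hn
    have htr : LinearMap.trace k V n = 2 := by rw [h g, hdet]; norm_num
    have hch := h43_ch2 hV n
    rw [htr, hdet, one_smul] at hch
    have hN0 : n - 1 ≠ 0 := sub_ne_zero.mpr hne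
    have hNN : (n - 1) * (n - 1) = 0 := by
      have : (n - 1) * (n - 1) = n * n - (2 : k) • n + 1 := by
        rw [two_smul]; noncomm_ring
      rw [this, hch]; abel
    have hdetN : LinearMap.det (n - 1) = 0 := by
      have h2 : LinearMap.det (n - 1) * LinearMap.det (n - 1) = 0 := by
        rw [← map_mul, hNN, LinearMap.det_zero' (Module.finBasisOfFinrankEq k V hV)]
      exact mul_self_eq_zero.mp h2
    -- `N a N = 0` for every `a` in the image
    have hkey : ∀ x, (n - 1) * ρ x * (n - 1) = 0 := by
      intro x
      have ht : LinearMap.trace k V (ρ x * (n - 1)) = 0 := by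
        rw [mul_sub, mul_one, map_sub, hn, ← map_mul, h (x * g), h x, map_mul, map_mul, hdet,
          mul_one]
        ring
      have hd : LinearMap.det (ρ x * (n - 1)) = 0 := by rw [map_mul, hdetN, mul_zero]
      have hc := h43_ch2 hV (ρ x * (n - 1))
      rw [ht, hd, zero_smul, zero_smul, sub_zero] at hc
      have : (n - 1) * ρ x * (n - 1) = ρ x⁻¹ * (ρ x * (n - 1) * (ρ x * (n - 1))) := by
        rw [← mul_assoc, ← mul_assoc, ← mul_assoc, hinv x, one_mul]
      rw [this, hc, mul_zero]
    refine ⟨LinearMap.ker (n - 1), ?_, ?_, ?_⟩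
    · intro hbot
      apply hN0
      ext w
      have hw : (n - 1) w ∈ LinearMap.ker (n - 1) := by
        rw [LinearMap.mem_ker]
        have := congrArg (fun f : V →ₗ[k] V => f w) hNN
        simpa using this
      rw [hbot, Submodule.mem_bot] at hw
      simpa using hw
    · rw [Ne, LinearMap.ker_eq_top]
      exact hN0
    · intro x v hv
      obtain ⟨w, rfl⟩ := h43_ker_le_range hV (n - 1) hN0 hNN hv
      rw [LinearMap.mem_ker]
      have := congrArg (fun f : V →ₗ[k] V => f w) (hkey x)
      simpa using this
  · -- every element of determinant one acts trivially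
    have h1' : ∀ g, LinearMap.det (ρ g) = 1 → ρ g = 1 := by
      intro g hg
      by_contra hne
      exact h1 ⟨g, hg, hne⟩
    by_cases h2 : ∀ g, ρ g = 1
    · obtain ⟨v, hv⟩ := exists_ne (0 : V)
      refine ⟨Submodule.span k {v}, ?_, ?_, ?_⟩
      · rw [Ne, Submodule.span_singleton_eq_bot]
        exact hv
      · intro htop
        have h3 := finrank_span_singleton (K := k) hv
        rw [htop, finrank_top, hV] at h3
        omega
      · intro g w hw
        rw [h2 g]
        exact hw
    · obtain ⟨g, hne⟩ := not_forall.mp h2
      set n := ρ g with hn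
      set d := LinearMap.det n with hd
      have hd1 : d ≠ 1 := fun hd1 => hne (h1' g hd1)
      have hch := h43_ch2 hV n
      rw [h g] at hch
      -- `(n - 1) (n - d) = 0`
      have hfac : (n - 1) * (n - d • (1 : V →ₗ[k] V)) = 0 := by
        have : (n - 1) * (n - d • (1 : V →ₗ[k] V)) = n * n - ((1 + d) • n - d • (1 : V →ₗ[k] V)) := by
          rw [add_smul, one_smul, sub_mul, mul_sub, mul_sub, mul_smul_comm, mul_smul_comm, mul_one,
            one_mul, mul_one]
          abel
        rw [this, hch, sub_self]
      -- commutation with `n`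
      have hcomm : ∀ x, ρ x * n = n * ρ x := by
        intro x
        have hc : ρ (x * g * x⁻¹ * g⁻¹) = 1 := by
          apply h1'
          rw [map_mul, map_mul, map_mul, map_mul, map_mul, map_mul]
          have e1 : LinearMap.det (ρ x) * LinearMap.det (ρ x⁻¹) = 1 := by
            rw [← map_mul, ← map_mul, mul_inv_cancel, map_one, map_one]
          have e2 : LinearMap.det (ρ g) * LinearMap.det (ρ g⁻¹) = 1 := by
            rw [← map_mul, ← map_mul, mul_inv_cancel, map_one, map_one]
          calc LinearMap.det (ρ x) * LinearMap.det (ρ g) * LinearMap.det (ρ x⁻¹) *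
                LinearMap.det (ρ g⁻¹)
              = (LinearMap.det (ρ x) * LinearMap.det (ρ x⁻¹)) *
                (LinearMap.det (ρ g) * LinearMap.det (ρ g⁻¹)) := by ring
            _ = 1 := by rw [e1, e2, mul_one]
        have hc2 : ρ (x * g) = ρ (g * x) := by
          have : x * g = (x * g * x⁻¹ * g⁻¹) * (g * x) := by group
          rw [this, map_mul, hc, one_mul]
        rw [hn, ← map_mul, ← map_mul, hc2]
      refine ⟨LinearMap.ker (n - 1), ?_, ?_, ?_⟩
      · intro hbot
        -- then `n = d • 1`, so `trace n = 2 d = 1 + d`
        have hnd : n = d • (1 : V →ₗ[k] V) := by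
          ext w
          have hw : (n - d • (1 : V →ₗ[k] V)) w ∈ LinearMap.ker (n - 1) := by
            rw [LinearMap.mem_ker]
            have := congrArg (fun f : V →ₗ[k] V => f w) hfac
            simpa using this
          rw [hbot, Submodule.mem_bot] at hw
          have hw' : n w - d • w = 0 := by simpa using hw
          simpa using sub_eq_zero.mp hw'
        have ht := h g
        rw [← hn, ← hd] at ht
        rw [hnd, map_smul, LinearMap.trace_one, hV] at ht
        apply hd1
        have ht' : d * 2 = 1 + d := by simpa [smul_eq_mul] using ht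
        linear_combination ht'
      · rw [Ne, LinearMap.ker_eq_top]
        exact sub_ne_zero.mpr hne
      · intro x v hv
        rw [LinearMap.mem_ker] at hv ⊢
        have hc := congrArg (fun f : V →ₗ[k] V => f v) (hcomm x)
        have hv' : n v = v := by simpa [sub_eq_zero] using hv
        have hc' : ρ x (n v) = n (ρ x v) := by simpa using hc
        rw [hv'] at hc'
        simp [← hc']

/-- **Non-Eisenstein element.**  If a `2`-dimensional representation has no proper nonzero stable
subspace, some element has trace `≠ 1 + det`. -/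
theorem h43_exists_trace_ne {k V G : Type*} [Field k] [AddCommGroup V] [Module k V] [Group G]
    (hV : finrank k V = 2) (ρ : G →* (V →ₗ[k] V))
    (hirr : ∀ L : Submodule k V, (∀ g, ∀ v ∈ L, ρ g v ∈ L) → L = ⊥ ∨ L = ⊤) :
    ∃ g, LinearMap.trace k V (ρ g) ≠ 1 + LinearMap.det (ρ g) := by
  by_contra hcon
  have hcon' : ∀ g, LinearMap.trace k V (ρ g) = 1 + LinearMap.det (ρ g) := fun g => by
    by_contra hg
    exact hcon ⟨g, hg⟩
  obtain ⟨L, hb, ht, hst⟩ := h43_exists_stable_line hV ρ hcon'
  rcases hirr L hst with h | h
  · exact hb h
  · exact ht h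

end Fermat.Agent.S40
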