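import Mathlib
import Fermat.Prelude.Def_AlgebraicCurve_DivisorPushPull
import Fermat.Prelude.Def_AlgebraicCurve_Correspondence
import Fermat.Agent.S24.h73_Diff
import Fermat.Agent.S27.h94_FISep

/-!
# S40 / TOP-D (AUX-DOWN), descent half -- generic layer (helper44)

`F'/F` a finite separable extension of function fields in one variable over an algebraically
closed field `K` (any characteristic), `d = [F' : F]`, `n` prime to `d`.

* `h44_ord_dvd_descend` : if `n ∣ ord_w (g)` for every place `w` of `F'` (`g ∈ F` viewed in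
  `F'`), then `n ∣ ord_v (g)` for every place `v` of `F`.
  (`ord_w g = e(w|v) ord_v g` and `∑_{w | v} e(w|v) = d`.)
* `h44_ord_dvd_descend_along` : the same for an algebra homomorphism `φ : F →ₐ[K] F'`.
* `h44_pullback_dvd_descend` : divisor form: `n ∣ (π^* D)(w)` for all `w` implies `n ∣ D(v)`
  for all `v`.
* `h44_pow_descend` : function form (Mathlib only, no places): if `g = c * h ^ n` in `F'` with
  `g, c ∈ F`, then `g = c ^ m * h₀ ^ n` in `F` for some `m : ℤ`, `h₀ ∈ F`.
-/

set_option autoImplicit false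
set_option synthInstance.maxHeartbeats 400000
set_option linter.style.haveILetI false

noncomputable section

open AlgebraicCurve IntermediateField

namespace Fermat.Agent.S40

open Fermat.Agent.S24 Fermat.Agent.S27

section Generic

variable {K F F' : Type*} [Field K] [Field F] [Field F'] [Algebra K F] [Algebra K F']

section Places

variable [IsAlgClosed K]
variable [Algebra F F'] [IsScalarTower K F F'] [FiniteDimensional F F'] [Algebra.IsSeparable F F']

/-- **Descent of divisibility of orders** along a finite separable extension of degree prime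
to `n`. -/
theorem h44_ord_dvd_descend (hF : h73_IsFF K F) [HasPrincipalDivisors K F'] (n : ℕ)
    (hn : n.Coprime (Module.finrank F F')) (g : F)
    (h : ∀ w : Place K F', (n : ℤ) ∣ w.ord (algebraMap F F' g)) (v : Place K F) :
    (n : ℤ) ∣ v.ord g := by
  have hsum := h94_sum_ramificationIndex_sep (F' := F') hF v
  have h1 : (n : ℤ) ∣ ∑ w ∈ v.fiber F', (w.ramificationIndex F : ℤ) * v.ord g := by
    refine Finset.dvd_sum fun w hw => ?_
    have h2 := h w
    rw [w.ord_restrict g, Place.mem_fiber.mp hw] at h2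
    exact h2
  rw [← Finset.sum_mul, hsum] at h1
  have hcop : IsCoprime (n : ℤ) (Module.finrank F F' : ℤ) := Nat.isCoprime_iff_coprime.mpr hn
  exact hcop.dvd_of_dvd_mul_left h1

/-- Divisor form of `h44_ord_dvd_descend`. -/
theorem h44_pullback_dvd_descend (hF : h73_IsFF K F) [HasPrincipalDivisors K F'] (n : ℕ)
    (hn : n.Coprime (Module.finrank F F')) (D : Divisor K F)
    (h : ∀ w : Place K F', (n : ℤ) ∣ Divisor.pullback F' D w) (v : Place K F) :
    (n : ℤ) ∣ D v := by
  have hsum := h94_sum_ramificationIndex_sep (F' := F') hF v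
  have h1 : (n : ℤ) ∣ ∑ w ∈ v.fiber F', (w.ramificationIndex F : ℤ) * D v := by
    refine Finset.dvd_sum fun w hw => ?_
    have h2 := h w
    rw [Divisor.pullback_apply, Place.mem_fiber.mp hw] at h2
    exact h2
  rw [← Finset.sum_mul, hsum] at h1
  have hcop : IsCoprime (n : ℤ) (Module.finrank F F' : ℤ) := Nat.isCoprime_iff_coprime.mpr hn
  exact hcop.dvd_of_dvd_mul_left h1

end Places

section Along

variable [IsAlgClosed K]

/-- `h44_ord_dvd_descend` for an algebra homomorphism `φ : F →ₐ[K] F'`. -/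
theorem h44_ord_dvd_descend_along (hF : h73_IsFF K F) [HasPrincipalDivisors K F']
    (φ : F →ₐ[K] F') (hfin : FiniteAlong K φ)
    (hsep : letI := algebraAlong φ; Algebra.IsSeparable F F') (n : ℕ)
    (hn : n.Coprime (finrankAlong K φ)) (g : F)
    (h : ∀ w : Place K F', (n : ℤ) ∣ w.ord (φ g)) (v : Place K F) :
    (n : ℤ) ∣ v.ord g := by
  letI := algebraAlong φ
  haveI := isScalarTower_along φ
  haveI : FiniteDimensional F F' := hfin
  haveI : Algebra.IsSeparable F F' := hsep
  exact h44_ord_dvd_descend hF n hn g h v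

end Along

section Norm

variable [Algebra F F'] [FiniteDimensional F F']

omit [Algebra K F] [Algebra K F'] in
/-- **Descent of `n`-th powers up to a factor from the base**, by the norm: if `g = c * h ^ n`
in `F'` with `g, c ∈ F` and `n` prime to `[F' : F]`, then `g = c ^ m * h₀ ^ n` in `F`. -/
theorem h44_pow_descend (n : ℕ) (hn : n.Coprime (Module.finrank F F')) {g c : F} (hg : g ≠ 0)
    {h : F'} (heq : algebraMap F F' g = algebraMap F F' c * h ^ n) :
    ∃ (m : ℤ) (h₀ : F), g = c ^ m * h₀ ^ n := by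
  have hnorm := congrArg (Algebra.norm F) heq
  rw [map_mul, map_pow, Algebra.norm_algebraMap, Algebra.norm_algebraMap] at hnorm
  obtain ⟨d, hd⟩ : ∃ d : ℕ, Module.finrank F F' = d := ⟨_, rfl⟩
  rw [hd] at hn hnorm
  obtain ⟨N, hN⟩ : ∃ N : F, Algebra.norm F h = N := ⟨_, rfl⟩
  rw [hN] at hnorm
  -- Bezout: `a * n + b * d = 1`
  have hcop : IsCoprime (n : ℤ) (d : ℤ) := Nat.isCoprime_iff_coprime.mpr hn
  obtain ⟨a, b, hab⟩ := hcop
  refine ⟨(d : ℤ) * b, g ^ a * N ^ b, ?_⟩
  have e1 : (g ^ (d : ℤ)) ^ b = c ^ ((d : ℤ) * b) * (N ^ b) ^ (n : ℤ) := by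
    rw [zpow_natCast, hnorm, mul_zpow, ← zpow_natCast c d, ← zpow_mul, ← zpow_natCast N n,
      ← zpow_mul, ← zpow_mul, mul_comm (n : ℤ) b]
  have e2 : g = (g ^ a) ^ (n : ℤ) * (g ^ (d : ℤ)) ^ b := by
    conv_lhs => rw [← zpow_one g, ← hab]
    rw [zpow_add₀ hg, zpow_mul, mul_comm b (d : ℤ), zpow_mul]
  rw [← zpow_natCast (g ^ a * N ^ b) n, mul_zpow, mul_left_comm, ← e1]
  exact e2

end Norm

end Generic

end Fermat.Agent.S40
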