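import Mathlib
import Fermat.Agent.S40.h44_AuxDown
import Fermat.Agent.S18.h11_FinrankFb
import Fermat.Agent.S18.h54_ModSep
import Fermat.Agent.S24.h29_Index
import Fermat.Agent.S34.h84_FrobMod
import Fermat.Agent.S18.RR_Riemann

/-!
# S40 / TOP-D (AUX-DOWN), descent half -- modular instance in characteristic `ℓ` (helper44)

`A` a valuation ring of `ℚ̄` over `ℓ`, `k` its residue field, `Fb N = modularFunctionFieldFullC k N`
inside `k((q))`, `ℓ ∤ N r`, `r` a prime not dividing `N`.

* `h44_relfinrank_fb_j` : `[Fb N : k(j̄)] = [SL₂(ℤ) : Γ₀(N)]` in the lattice of subfields of `k((q))`;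
* `h44_relfinrank_fb_level` : `[Fb (N r) : Fb N] = r + 1`;
* `h44_fb_finrankAlong`, `h44_fb_finiteAlong`, `h44_fb_separableAlong` : the same facts for the
  inclusion `Fb N →ₐ[k] Fb (N r)` in the `Along` language of the Prelude;
* `h44_fb_ord_dvd_descend_of` : the descent for a generic algebraically closed constant field `k`
  with `j̄` a chart at both levels and `[Fb (N r) : Fb N] = d`;
* `h44_fb_ord_dvd_descend` : **descent**: for `g ∈ Fb N` and `n` prime to `r + 1`, if `n ∣ ord_w g`
  at every place `w` of `Fb (N r)` then `n ∣ ord_v g` at every place `v` of `Fb N`.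
-/

set_option autoImplicit false
set_option synthInstance.maxHeartbeats 400000
set_option linter.style.haveILetI false

noncomputable section

open ModularCurve AlgebraicCurve IntermediateField CongruenceSubgroup
open scoped MatrixGroups

namespace Fermat.Agent.S40

open Fermat.Agent.S18 Fermat.Agent.S24 Fermat.Agent.S27 Fermat.Agent.S34

local notation "Qb" => AlgebraicClosure ℚ

section Degree

variable (N : ℕ) [NeZero N] {ℓ : ℕ} [Fact ℓ.Prime] (hℓN : ¬ ℓ ∣ N)
  (A : ValuationSubring Qb) (hA : A.LiesOverPrime ℓ)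

include hℓN hA in
/-- The degree of `Fb N` over `k(j̄)`, in the lattice of subfields of `k((q))`. -/
theorem h44_relfinrank_fb_j :
    ((IsLocalRing.ResidueField A)⟮jqModC (IsLocalRing.ResidueField A)⟯).relfinrank
        (modularFunctionFieldFullC (IsLocalRing.ResidueField A) N)
      = Nat.card (SL(2, ℤ) ⧸ Gamma0 N) := by
  have h1 := IntermediateField.relfinrank_map_map
    (A := (IsLocalRing.ResidueField A)⟮h54_jk (IsLocalRing.ResidueField A) N⟯)
    (B := (⊤ : IntermediateField (IsLocalRing.ResidueField A)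
      ↥(modularFunctionFieldFullC (IsLocalRing.ResidueField A) N)))
    (modularFunctionFieldFullC (IsLocalRing.ResidueField A) N).val
  rw [IntermediateField.relfinrank_top_right, h11_finrank_fb N hℓN A hA] at h1
  have e1 : ((IsLocalRing.ResidueField A)⟮h54_jk (IsLocalRing.ResidueField A) N⟯).map
      (modularFunctionFieldFullC (IsLocalRing.ResidueField A) N).val
        = (IsLocalRing.ResidueField A)⟮jqModC (IsLocalRing.ResidueField A)⟯ := by
    rw [IntermediateField.adjoin_map, Set.image_singleton]
    rfl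
  have e2 : (⊤ : IntermediateField (IsLocalRing.ResidueField A)
      ↥(modularFunctionFieldFullC (IsLocalRing.ResidueField A) N)).map
      (modularFunctionFieldFullC (IsLocalRing.ResidueField A) N).val
        = modularFunctionFieldFullC (IsLocalRing.ResidueField A) N := by
    rw [← AlgHom.fieldRange_eq_map, IntermediateField.fieldRange_val]
  rw [e1, e2] at h1
  exact h1

end Degree

section Level

variable (N r : ℕ) [NeZero N] [NeZero (N * r)] (hr : r.Prime) (hrN : ¬ r ∣ N)
  {ℓ : ℕ} [Fact ℓ.Prime] (hℓ : ¬ ℓ ∣ N * r)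
  (A : ValuationSubring Qb) (hA : A.LiesOverPrime ℓ)

include hr hrN hℓ hA in
/-- `[Fb (N r) : Fb N] = r + 1` for a prime `r ∤ N`, in characteristic `ℓ ∤ N r`. -/
theorem h44_relfinrank_fb_level :
    (modularFunctionFieldFullC (IsLocalRing.ResidueField A) N).relfinrank
        (modularFunctionFieldFullC (IsLocalRing.ResidueField A) (N * r)) = r + 1 := by
  have hN : 0 < N := Nat.pos_of_ne_zero (NeZero.ne N)
  have hℓN : ¬ ℓ ∣ N := fun h => hℓ (h.mul_right r)
  have hJE : (IsLocalRing.ResidueField A)⟮jqModC (IsLocalRing.ResidueField A)⟯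
      ≤ modularFunctionFieldFullC (IsLocalRing.ResidueField A) N := by
    rw [IntermediateField.adjoin_le_iff]
    rintro _ rfl
    exact jqModC_mem_full _ N
  have hEL : modularFunctionFieldFullC (IsLocalRing.ResidueField A) N
      ≤ modularFunctionFieldFullC (IsLocalRing.ResidueField A) (N * r) :=
    full_degeneracyC_le _ (dvd_mul_right N r)
  have hmul := IntermediateField.relfinrank_mul_relfinrank hJE hEL
  have hpsi : dedekindPsi (N * r) = (r + 1) * dedekindPsi N := by
    rw [mul_comm N r]
    exact h29_psi_mul_of_not_dvd r N hr hN hrN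
  rw [h44_relfinrank_fb_j N hℓN A hA, h44_relfinrank_fb_j (N * r) hℓ A hA,
    h29_card_quotient_Gamma0 N, h29_card_quotient_Gamma0 (N * r), hpsi] at hmul
  have hψ : 0 < dedekindPsi N := by
    rw [← h29_index_Gamma0 N hN]
    exact Nat.pos_of_ne_zero (Subgroup.FiniteIndex.index_ne_zero)
  exact Nat.eq_of_mul_eq_mul_left hψ (by rw [hmul, mul_comm])

end Level


section Along

variable (N r : ℕ) [NeZero N] [NeZero (N * r)]

/-- The inclusion `Fb N → Fb (N r)` as a `k`-algebra homomorphism (`π̄^*` on functions). -/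
def h44_fbIncl (k : Type) [Field k] :
    ↥(modularFunctionFieldFullC k N) →ₐ[k] ↥(modularFunctionFieldFullC k (N * r)) :=
  IntermediateField.inclusion (full_degeneracyC_le k (dvd_mul_right N r))

theorem h44_fbIncl_coe (k : Type) [Field k] (x : ↥(modularFunctionFieldFullC k N)) :
    ((h44_fbIncl N r k x : ↥(modularFunctionFieldFullC k (N * r))) : LaurentSeries k) = x :=
  IntermediateField.coe_inclusion _ x

theorem h44_fbIncl_mk (k : Type) [Field k] (g : LaurentSeries k)
    (hg : g ∈ modularFunctionFieldFullC k N) :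
    h44_fbIncl N r k ⟨g, hg⟩ = ⟨g, full_degeneracyC_le k (dvd_mul_right N r) hg⟩ :=
  Subtype.ext (h44_fbIncl_coe N r k ⟨g, hg⟩)

/-- The identity-on-carriers ring isomorphism between `Fb (N r)` seen as an extension of `Fb N`
inside `k((q))` and `Fb (N r)` itself. -/
def h44_extEquiv (k : Type) [Field k] :
    ↥(IntermediateField.extendScalars (full_degeneracyC_le k (dvd_mul_right N r)))
      ≃+* ↥(modularFunctionFieldFullC k (N * r)) where
  toFun x := ⟨x.1, x.2⟩
  invFun x := ⟨x.1, x.2⟩
  left_inv _ := rfl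
  right_inv _ := rfl
  map_mul' _ _ := rfl
  map_add' _ _ := rfl

theorem h44_extEquiv_coe (k : Type) [Field k]
    (x : ↥(IntermediateField.extendScalars (full_degeneracyC_le k (dvd_mul_right N r)))) :
    ((h44_extEquiv N r k x : ↥(modularFunctionFieldFullC k (N * r))) : LaurentSeries k) = x.1 :=
  rfl

theorem h44_extEquiv_comp (k : Type) [Field k] :
    letI := algebraAlong (h44_fbIncl N r k)
    (algebraMap ↥(modularFunctionFieldFullC k N) ↥(modularFunctionFieldFullC k (N * r))).comp
        (RingEquiv.refl ↥(modularFunctionFieldFullC k N)).toRingHom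
      = (h44_extEquiv N r k).toRingHom.comp
        (algebraMap ↥(modularFunctionFieldFullC k N)
          ↥(IntermediateField.extendScalars (full_degeneracyC_le k (dvd_mul_right N r)))) := by
  letI := algebraAlong (h44_fbIncl N r k)
  refine RingHom.ext fun x => Subtype.ext ?_
  rw [RingHom.comp_apply, RingHom.comp_apply]
  change ((h44_fbIncl N r k x : ↥(modularFunctionFieldFullC k (N * r))) : LaurentSeries k) = _
  rw [h44_fbIncl_coe]
  rfl

variable (hr : r.Prime) (hrN : ¬ r ∣ N) {ℓ : ℕ} [Fact ℓ.Prime] (hℓ : ¬ ℓ ∣ N * r)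
  (A : ValuationSubring Qb) (hA : A.LiesOverPrime ℓ)

include hr hrN hℓ hA in
/-- `[Fb (N r) : Fb N] = r + 1` along the inclusion. -/
theorem h44_fb_finrankAlong :
    finrankAlong (IsLocalRing.ResidueField A) (h44_fbIncl N r (IsLocalRing.ResidueField A))
      = r + 1 := by
  have hEL := full_degeneracyC_le (IsLocalRing.ResidueField A) (dvd_mul_right N r)
  have h1 := h44_relfinrank_fb_level N r hr hrN hℓ A hA
  rw [IntermediateField.relfinrank_eq_finrank_of_le hEL] at h1
  rw [← h1]
  unfold finrankAlong
  letI := algebraAlong (h44_fbIncl N r (IsLocalRing.ResidueField A))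
  exact (Algebra.finrank_eq_of_equiv_equiv (RingEquiv.refl _)
    (h44_extEquiv N r (IsLocalRing.ResidueField A))
    (h44_extEquiv_comp N r (IsLocalRing.ResidueField A))).symm

include hr hrN hℓ hA in
/-- `Fb (N r)` is finite over `Fb N`. -/
theorem h44_fb_finiteAlong :
    FiniteAlong (IsLocalRing.ResidueField A) (h44_fbIncl N r (IsLocalRing.ResidueField A)) := by
  have h := h44_fb_finrankAlong N r hr hrN hℓ A hA
  unfold finrankAlong at h
  unfold FiniteAlong
  letI := algebraAlong (h44_fbIncl N r (IsLocalRing.ResidueField A))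
  exact Module.finite_of_finrank_pos (by rw [h]; omega)

omit [NeZero N] in
/-- `k(j̄)`, as a subfield of `Fb (N r)`, lies in `Fb N`. -/
theorem h44_jk_le (k : Type) [Field k] : k⟮jqModC k⟯ ≤ modularFunctionFieldFullC k N := by
  rw [IntermediateField.adjoin_le_iff]
  rintro _ rfl
  exact jqModC_mem_full _ N

/-- The map `k(j̄) → Fb N`, from `k(j̄)` as a subfield of `Fb (N r)`. -/
def h44_jkMap (k : Type) [Field k] :
    ↥(k⟮(⟨jqModC k, jqModC_mem_full k (N * r)⟩ : ↥(modularFunctionFieldFullC k (N * r)))⟯)
      →+* ↥(modularFunctionFieldFullC k N) :=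
  (IntermediateField.inclusion (h44_jk_le N k)).toRingHom.comp
    (h54_adjoinEquiv (modularFunctionFieldFullC k (N * r)) (jqModC k)
      (jqModC_mem_full k (N * r))).toAlgHom.toRingHom

omit [NeZero N] [NeZero (N * r)] in
theorem h44_jkMap_coe (k : Type) [Field k]
    (c : ↥(k⟮(⟨jqModC k, jqModC_mem_full k (N * r)⟩ :
      ↥(modularFunctionFieldFullC k (N * r)))⟯)) :
    ((h44_jkMap N r k c : ↥(modularFunctionFieldFullC k N)) : LaurentSeries k)
      = ((c : ↥(modularFunctionFieldFullC k (N * r))) : LaurentSeries k) := by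
  show ((IntermediateField.inclusion (h44_jk_le N k)
    (h54_adjoinEquiv (modularFunctionFieldFullC k (N * r)) (jqModC k)
      (jqModC_mem_full k (N * r)) c) : ↥(modularFunctionFieldFullC k N)) : LaurentSeries k) = _
  rw [IntermediateField.coe_inclusion]
  exact h54_adjoinEquiv_coe _ _ _ c

/-- `Fb (N r)` is separable over `Fb N` as soon as it is separable over `k(j̄)`. -/
theorem h44_fb_separableAlong_of (k : Type) [Field k]
    (hsep : Algebra.IsSeparable
      ↥(k⟮(⟨jqModC k, jqModC_mem_full k (N * r)⟩ : ↥(modularFunctionFieldFullC k (N * r)))⟯)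
      ↥(modularFunctionFieldFullC k (N * r))) :
    letI := algebraAlong (h44_fbIncl N r k)
    Algebra.IsSeparable ↥(modularFunctionFieldFullC k N)
      ↥(modularFunctionFieldFullC k (N * r)) := by
  letI := algebraAlong (h44_fbIncl N r k)
  letI : Algebra
      ↥(k⟮(⟨jqModC k, jqModC_mem_full k (N * r)⟩ : ↥(modularFunctionFieldFullC k (N * r)))⟯)
      ↥(modularFunctionFieldFullC k N) := (h44_jkMap N r k).toAlgebra
  haveI : IsScalarTower
      ↥(k⟮(⟨jqModC k, jqModC_mem_full k (N * r)⟩ : ↥(modularFunctionFieldFullC k (N * r)))⟯)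
      ↥(modularFunctionFieldFullC k N)
      ↥(modularFunctionFieldFullC k (N * r)) := by
    refine IsScalarTower.of_algebraMap_eq (fun c => Subtype.ext ?_)
    change ((c : ↥(modularFunctionFieldFullC k (N * r))) : LaurentSeries k)
      = ((h44_fbIncl N r k (h44_jkMap N r k c) : ↥(modularFunctionFieldFullC k (N * r)))
        : LaurentSeries k)
    rw [h44_fbIncl_coe, h44_jkMap_coe]
  exact Algebra.isSeparable_tower_top_of_isSeparable
    ↥(k⟮(⟨jqModC k, jqModC_mem_full k (N * r)⟩ : ↥(modularFunctionFieldFullC k (N * r)))⟯)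
    ↥(modularFunctionFieldFullC k N)
    ↥(modularFunctionFieldFullC k (N * r))

include hℓ hA in
/-- `Fb (N r)` is separable over `Fb N` (both are separable over `k(j̄)`), `ℓ ∤ N r`. -/
theorem h44_fb_separableAlong :
    letI := algebraAlong (h44_fbIncl N r (IsLocalRing.ResidueField A))
    Algebra.IsSeparable ↥(modularFunctionFieldFullC (IsLocalRing.ResidueField A) N)
      ↥(modularFunctionFieldFullC (IsLocalRing.ResidueField A) (N * r)) := by
  have hsep := (h84_isChart_jk (N * r) ℓ hℓ A hA).sep
  unfold h54_jk at hsep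
  exact h44_fb_separableAlong_of N r (IsLocalRing.ResidueField A) hsep

/-- **TOP-D, descent of divisibility, generic constant field.**  `k` algebraically closed, `j̄` a
chart of `Fb N` and of `Fb (N r)`, `[Fb (N r) : Fb N] = d`, `n` prime to `d`. -/
theorem h44_fb_ord_dvd_descend_of (k : Type) [Field k] [IsAlgClosed k]
    (hN : h75_IsChart k (h54_jk k N)) (hNr : h75_IsChart k (h54_jk k (N * r)))
    (d : ℕ) (hd : finrankAlong k (h44_fbIncl N r k) = d) (hd0 : 0 < d)
    (n : ℕ) (hn : n.Coprime d) (g : LaurentSeries k) (hg : g ∈ modularFunctionFieldFullC k N)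
    (h : ∀ w : Place k ↥(modularFunctionFieldFullC k (N * r)),
      (n : ℤ) ∣ w.ord (⟨g, full_degeneracyC_le k (dvd_mul_right N r) hg⟩ :
          ↥(modularFunctionFieldFullC k (N * r))))
    (v : Place k ↥(modularFunctionFieldFullC k N)) :
    (n : ℤ) ∣ v.ord (⟨g, hg⟩ : ↥(modularFunctionFieldFullC k N)) := by
  have hF : h73_IsFF k ↥(modularFunctionFieldFullC k N) := ⟨h54_jk k N, hN.fin⟩
  haveI : HasPrincipalDivisors k ↥(modularFunctionFieldFullC k (N * r)) :=
    h75_hasPrincipalDivisors hNr
  have hfin : FiniteAlong k (h44_fbIncl N r k) := by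
    unfold finrankAlong at hd
    unfold FiniteAlong
    letI := algebraAlong (h44_fbIncl N r k)
    exact Module.finite_of_finrank_pos (by rw [hd]; exact hd0)
  have hsep0 := hNr.sep
  unfold h54_jk at hsep0
  have hsep := h44_fb_separableAlong_of N r k hsep0
  have hn' : n.Coprime (finrankAlong k (h44_fbIncl N r k)) := by rw [hd]; exact hn
  refine h44_ord_dvd_descend_along hF (h44_fbIncl N r k) hfin hsep n hn' ⟨g, hg⟩ (fun w => ?_) v
  rw [h44_fbIncl_mk]
  exact h w

include hr hrN hℓ hA in
/-- **TOP-D, descent of divisibility (modular instance).**  `g ∈ Fb N`, `n` prime to `r + 1`: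
if `n` divides the order of `g` at every place of `Fb (N r)`, it divides the order of `g` at
every place of `Fb N`. -/
theorem h44_fb_ord_dvd_descend (n : ℕ) (hn : n.Coprime (r + 1))
    (g : LaurentSeries (IsLocalRing.ResidueField A))
    (hg : g ∈ modularFunctionFieldFullC (IsLocalRing.ResidueField A) N)
    (h : ∀ w : Place (IsLocalRing.ResidueField A)
        ↥(modularFunctionFieldFullC (IsLocalRing.ResidueField A) (N * r)),
      (n : ℤ) ∣ w.ord (⟨g, full_degeneracyC_le (IsLocalRing.ResidueField A)
        (dvd_mul_right N r) hg⟩ :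
          ↥(modularFunctionFieldFullC (IsLocalRing.ResidueField A) (N * r))))
    (v : Place (IsLocalRing.ResidueField A)
      ↥(modularFunctionFieldFullC (IsLocalRing.ResidueField A) N)) :
    (n : ℤ) ∣ v.ord (⟨g, hg⟩ : ↥(modularFunctionFieldFullC (IsLocalRing.ResidueField A) N)) := by
  have hℓN : ¬ ℓ ∣ N := fun h => hℓ (h.mul_right r)
  haveI hk : IsAlgClosed (IsLocalRing.ResidueField A) := h19_residueField_isAlgClosed A
  exact h44_fb_ord_dvd_descend_of N r (IsLocalRing.ResidueField A)
    (h84_isChart_jk N ℓ hℓN A hA) (h84_isChart_jk (N * r) ℓ hℓ A hA) (r + 1)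
    (h44_fb_finrankAlong N r hr hrN hℓ A hA) (Nat.succ_pos r) n hn g hg h v

end Along

end Fermat.Agent.S40
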