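import Mathlib
import Fermat.Agent.S18.GR_RedAPI

/-!
# S40 / T2 (INT-SHEET), generic core (helper47)

Setting of the row: `F'` the function field of the Kummer (Artin-Schreier) cover, with its sheet
valuations `V_(i,a)` (objects `h39_RedDatum K F' k κ`, helper85's T0), the deck maps `τ j = γ ^ j`
which permute the sheets over one component, and the inertia action `ρ` (helper15's T1).
Claim: a `ρ(I)`-invariant `f ≠ 0` has `V_(i,b)(f) ∈ v(p) ℤ`, i.e. `p ^ m * f` is a unit of the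
sheet valuation ring for some `m : ℤ`.

Proof: take a `ρ(I)`-invariant sheet separator `e` (unit on the sheet `b`, non-unit on the other
sheets of the same component); for `N` large the trace `∑ j, τ j (f * e ^ N)` has the valuation
of `f` on the sheet `b` (rank one + ultrametric inequality), and it is an inertia-invariant
function of the base, where the valuation is integral.

* `h47_sum_dominant`, `h47_trace_dominant`, `h47_int_sheet_val` : the pure valuation statements;
* `h47_val_eq_one_of_redF`, `h47_val_lt_one_of_redF`, `h47_arch`, `h47_scale_iff` : dictionary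
  between a reduction datum `h39_RedDatum` and its valuation;
* `h47_int_sheet` : **(INT-SHEET)** in the `h39_RedDatum` language, with the deck maps given
  as a finite family `τ j` carrying the sheet `t j` to the sheet `b`;
* `h47_prod_fixed`, `h47_sep_sym` : the invariant separator: the product over a finite orbit of
  a separator is invariant and still separates.
-/

set_option autoImplicit false

namespace Fermat.Agent.S40

open Fermat.Agent.S18

/-! ### Pure valuation statements -/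

section Val

variable {F' Γ₀ : Type*} [Field F'] [LinearOrderedCommGroupWithZero Γ₀] (v : Valuation F' Γ₀)

/-- A finite sum with one strictly dominant term has the valuation of that term. -/
theorem h47_sum_dominant {J : Type*} [Fintype J] [DecidableEq J] (j₀ : J) (t : J → F')
    (ht : ∀ j, j ≠ j₀ → v (t j) < v (t j₀)) : v (∑ j, t j) = v (t j₀) := by
  rw [← Finset.add_sum_erase Finset.univ t (Finset.mem_univ j₀)]
  by_cases hne : (Finset.univ.erase j₀).Nonempty
  · obtain ⟨j₁, hj₁⟩ := hne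
    have h0 : v (t j₀) ≠ 0 := fun h => by
      have := ht j₁ (Finset.ne_of_mem_erase hj₁)
      rw [h] at this
      exact not_lt_zero this
    have hlt : v (∑ j ∈ Finset.univ.erase j₀, t j) < v (t j₀) :=
      Valuation.map_sum_lt v h0 fun j hj => ht j (Finset.ne_of_mem_erase hj)
    exact Valuation.map_add_eq_of_lt_left v hlt
  · rw [Finset.not_nonempty_iff_eq_empty] at hne
    rw [hne, Finset.sum_empty, add_zero]

/-- **Trace dominance.** `τ j` ring endomorphisms, `e` with `v (τ j₀ e) = 1` and `v (τ j e) < 1`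
for `j ≠ j₀`, `v` archimedean: for a suitable `N` the sum `∑ j, τ j (f * e ^ N)` has the
valuation of `τ j₀ f`. -/
theorem h47_trace_dominant {J : Type*} [Fintype J] [DecidableEq J] (τ : J → F' →+* F') (j₀ : J)
    (e f : F') (hf : f ≠ 0) (he0 : v (τ j₀ e) = 1) (he : ∀ j, j ≠ j₀ → v (τ j e) < 1)
    (harch : ∀ x : F', v x < 1 → ∀ y : F', y ≠ 0 → ∃ N : ℕ, v x ^ N < v y) :
    ∃ N : ℕ, v (∑ j, τ j (f * e ^ N)) = v (τ j₀ f) := by
  classical
  have hτf : ∀ j, τ j f ≠ 0 := fun j => (map_ne_zero (τ j)).mpr hf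
  have key : ∀ j, ∃ N : ℕ, j ≠ j₀ → v (τ j e) ^ N * v (τ j f) < v (τ j₀ f) := by
    intro j
    by_cases hj : j = j₀
    · exact ⟨0, fun h => absurd hj h⟩
    · obtain ⟨N, hN⟩ := harch (τ j e) (he j hj) (τ j₀ f / τ j f) (div_ne_zero (hτf j₀) (hτf j))
      refine ⟨N, fun _ => ?_⟩
      rw [map_div₀] at hN
      have h0 : v (τ j f) ≠ 0 := (Valuation.ne_zero_iff v).mpr (hτf j)
      have h1 : 0 < v (τ j f) := zero_lt_iff.mpr h0
      calc v (τ j e) ^ N * v (τ j f) < v (τ j₀ f) / v (τ j f) * v (τ j f) :=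
            mul_lt_mul_of_pos_right hN h1
        _ = v (τ j₀ f) := div_mul_cancel₀ _ h0
  choose Nj hNj using key
  refine ⟨Finset.univ.sup Nj, ?_⟩
  set N := Finset.univ.sup Nj with hN
  have hmain : v (∑ j, τ j (f * e ^ N)) = v (τ j₀ (f * e ^ N)) := by
    refine h47_sum_dominant v j₀ (fun j => τ j (f * e ^ N)) fun j hj => ?_
    show v (τ j (f * e ^ N)) < v (τ j₀ (f * e ^ N))
    rw [map_mul, map_pow, map_mul, map_pow, map_mul, map_pow, map_mul, map_pow, he0, one_pow,
      mul_one]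
    have hle : v (τ j e) ^ N ≤ v (τ j e) ^ Nj j :=
      pow_le_pow_of_le_one zero_le (he j hj).le (Finset.le_sup (Finset.mem_univ j))
    calc v (τ j f) * v (τ j e) ^ N ≤ v (τ j f) * v (τ j e) ^ Nj j :=
          mul_le_mul_right hle _
      _ = v (τ j e) ^ Nj j * v (τ j f) := mul_comm _ _
      _ < v (τ j₀ f) := hNj j hj
  rw [hmain, map_mul, map_pow, map_mul, map_pow, he0, one_pow, mul_one]

/-- **(INT-SHEET), valuation form.** If moreover all the traces `∑ j, τ j (f * e ^ N)` lie in a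
set `S` on which `v` takes its values in `v π ^ ℤ`, then `v (τ j₀ f) ∈ v π ^ ℤ`. -/
theorem h47_int_sheet_val {J : Type*} [Fintype J] [DecidableEq J] (τ : J → F' →+* F') (j₀ : J)
    (e f : F') (hf : f ≠ 0) (he0 : v (τ j₀ e) = 1) (he : ∀ j, j ≠ j₀ → v (τ j e) < 1)
    (harch : ∀ x : F', v x < 1 → ∀ y : F', y ≠ 0 → ∃ N : ℕ, v x ^ N < v y)
    (π : F') (S : Set F') (hS : ∀ t ∈ S, t ≠ 0 → ∃ m : ℤ, v t = v π ^ m)
    (hT : ∀ N : ℕ, ∑ j, τ j (f * e ^ N) ∈ S) :
    ∃ m : ℤ, v (τ j₀ f) = v π ^ m := by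
  obtain ⟨N, hN⟩ := h47_trace_dominant v τ j₀ e f hf he0 he harch
  have h0 : ∑ j, τ j (f * e ^ N) ≠ 0 := by
    intro h
    rw [h, map_zero] at hN
    exact (Valuation.ne_zero_iff v).mpr ((map_ne_zero (τ j₀)).mpr hf) hN.symm
  obtain ⟨m, hm⟩ := hS _ (hT N) h0
  exact ⟨m, by rw [← hN, hm]⟩

end Val

/-! ### Dictionary: reduction data and valuations -/

section Red

variable {K F k Fb : Type*} [Field K] [Field F] [Algebra K F] [Field k] [Field Fb] [Algebra k Fb]
  (R : h39_RedDatum K F k Fb)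

theorem h47_val_eq_one_of_redF {f : F} (h : R.redF f ≠ 0) : R.O.valuation f = 1 := by
  have hf : f ∈ R.O := h39_mem_of_redF_ne_zero R h
  have hinv : f⁻¹ ∈ R.O := (h39_inv_of_redF_ne_zero R h).1
  refine le_antisymm ((R.O.valuation_le_one_iff f).mpr hf) ?_
  have h1 : R.O.valuation f⁻¹ ≤ 1 := (R.O.valuation_le_one_iff _).mpr hinv
  rw [map_inv₀] at h1
  by_contra hlt
  push Not at hlt
  have h0 : R.O.valuation f ≠ 0 := by
    intro h0
    rw [h0, inv_zero] at h1
    have hf0 : f = 0 := (map_eq_zero _).mp h0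
    rw [hf0] at h
    exact h (h39_redF_zero R)
  have : 1 < (R.O.valuation f)⁻¹ := (one_lt_inv₀ (zero_lt_iff.mpr h0)).mpr hlt
  exact absurd h1 (not_le.mpr this)

theorem h47_val_lt_one_of_redF {f : F} (hf : f ∈ R.O) (h : R.redF f = 0) :
    R.O.valuation f < 1 := by
  rcases (h39_redF_eq_zero_iff R hf).mp h with h0 | h0
  · rw [h0, map_zero]
    exact zero_lt_one
  · refine lt_of_le_of_ne ((R.O.valuation_le_one_iff f).mpr hf) fun h1 => h0 ?_
    refine (R.O.valuation_le_one_iff _).mp ?_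
    rw [map_inv₀, h1, inv_one]

/-- the valuation of a constant -/
theorem h47_val_const_le_one_iff (a : K) : R.O.valuation (algebraMap K F a) ≤ 1 ↔ a ∈ R.A := by
  rw [R.O.valuation_le_one_iff, R.mem_iff]

/-- **Rank one** for the valuation of a reduction datum whose constants have rank one. -/
theorem h47_arch (hRk : h39_RankOne R.A) (x : F) (hx : R.O.valuation x < 1) (y : F) (hy : y ≠ 0) :
    ∃ N : ℕ, R.O.valuation x ^ N < R.O.valuation y := by
  by_cases hx0 : x = 0
  · refine ⟨1, ?_⟩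
    rw [hx0, map_zero, pow_one]
    exact zero_lt_iff.mpr ((Valuation.ne_zero_iff _).mpr hy)
  obtain ⟨cx, hcx, hux⟩ := h39_exists_scale_unit R hx0
  obtain ⟨cy, hcy, huy⟩ := h39_exists_scale_unit R hy
  have h1 := h47_val_eq_one_of_redF R hux
  have h2 := h47_val_eq_one_of_redF R huy
  rw [map_mul] at h1 h2
  set v := R.O.valuation with hv
  have hcxv : v (algebraMap K F cx) ≠ 0 :=
    (Valuation.ne_zero_iff _).mpr ((map_ne_zero _).mpr hcx)
  have hcyv : v (algebraMap K F cy) ≠ 0 :=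
    (Valuation.ne_zero_iff _).mpr ((map_ne_zero _).mpr hcy)
  have hxv : v x = v (algebraMap K F cx⁻¹) := by
    rw [map_inv₀, map_inv₀]
    exact eq_inv_of_mul_eq_one_right h1
  have hyv : v y = v (algebraMap K F cy⁻¹) := by
    rw [map_inv₀, map_inv₀]
    exact eq_inv_of_mul_eq_one_right h2
  -- `a := cx⁻¹` is a non-unit of `A`
  have hy0 : v y ≠ 0 := (Valuation.ne_zero_iff _).mpr hy
  have hxpos : 0 < v x := zero_lt_iff.mpr ((Valuation.ne_zero_iff _).mpr hx0)
  have haA : cx⁻¹ ∈ R.A := by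
    rw [← h47_val_const_le_one_iff, ← hxv]
    exact hx.le
  have haA' : (cx⁻¹)⁻¹ ∉ R.A := by
    intro h
    rw [← h47_val_const_le_one_iff] at h
    have h3 : R.O.valuation (algebraMap K F (cx⁻¹)⁻¹) = (v x)⁻¹ := by
      rw [map_inv₀ (algebraMap K F), map_inv₀, ← hv, ← hxv]
    rw [h3] at h
    exact absurd h (not_le.mpr ((one_lt_inv₀ hxpos).mpr hx))
  obtain ⟨n, hn⟩ := hRk cx⁻¹ haA haA' cy⁻¹ (inv_ne_zero hcy)
  rw [← h47_val_const_le_one_iff] at hn
  have h4 : R.O.valuation (algebraMap K F (cx⁻¹ ^ n * (cy⁻¹)⁻¹)) = v x ^ n * (v y)⁻¹ := by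
    rw [map_mul (algebraMap K F), map_pow (algebraMap K F), map_inv₀ (algebraMap K F) cy⁻¹,
      map_mul, map_pow, map_inv₀ R.O.valuation (algebraMap K F cy⁻¹), ← hv, ← hxv, ← hyv]
  rw [h4] at hn
  have hle : v x ^ n ≤ v y := by
    have := mul_le_mul_left hn (v y)
    rwa [mul_assoc, inv_mul_cancel₀ hy0, mul_one, one_mul] at this
  refine ⟨n + 1, lt_of_lt_of_le ?_ hle⟩
  have hx0' : 0 < v x ^ n := pow_pos hxpos n
  rw [pow_succ]
  calc v x ^ n * v x < v x ^ n * 1 := mul_lt_mul_of_pos_left hx hx0'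
    _ = v x ^ n := mul_one _

/-- "`π ^ m * f` is a unit of `O`" in terms of the valuation. -/
theorem h47_scale_iff (π : K) (hπ : π ≠ 0) (m : ℤ) (f : F) (hf : f ≠ 0) :
    (algebraMap K F (π ^ m) * f ∈ R.O ∧ (algebraMap K F (π ^ m) * f)⁻¹ ∈ R.O) ↔
      R.O.valuation f = R.O.valuation (algebraMap K F π) ^ (-m) := by
  have hπv : R.O.valuation (algebraMap K F π) ≠ 0 :=
    (Valuation.ne_zero_iff _).mpr ((map_ne_zero _).mpr hπ)
  have hfv : R.O.valuation f ≠ 0 := (Valuation.ne_zero_iff _).mpr hf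
  rw [← R.O.valuation_le_one_iff, ← R.O.valuation_le_one_iff, map_inv₀, map_mul, map_zpow₀,
    map_zpow₀, zpow_neg]
  set a := R.O.valuation (algebraMap K F π) ^ m with ha
  have ha0 : a ≠ 0 := zpow_ne_zero m hπv
  constructor
  · rintro ⟨h1, h2⟩
    have h3 : 1 ≤ a * R.O.valuation f := by
      by_contra hlt
      push Not at hlt
      have h4 : 0 < a * R.O.valuation f := zero_lt_iff.mpr (mul_ne_zero ha0 hfv)
      exact absurd h2 (not_le.mpr ((one_lt_inv₀ h4).mpr hlt))
    have h5 : a * R.O.valuation f = 1 := le_antisymm h1 h3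
    exact eq_inv_of_mul_eq_one_right h5
  · intro h
    rw [h, mul_inv_cancel₀ ha0, inv_one]
    exact ⟨le_rfl, le_rfl⟩

end Red

/-! ### (INT-SHEET) in the language of reduction data -/

section Sheet

variable {K F' k κ : Type*} [Field K] [Field F'] [Algebra K F'] [Field k] [Field κ] [Algebra k κ]

/-- **(INT-SHEET), generic form.**  `V a` the sheet data, `b` the sheet under study, `τ j` deck
maps with `τ j₀ = id` and `τ j` carrying the sheet `t j ≠ b` to the sheet `b` for `j ≠ j₀`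
(integrality and reduction), `e` a separator (`red_b e ≠ 0`, `red_a e = 0` for `a ≠ b`), `S` a
set of functions on which the `b`-valuation is `π`-integral (the invariant functions of the base)
and which contains the traces `∑ j, τ j (f * e ^ N)`.  Then `π ^ m * f` is a unit of the sheet
`b` for some `m : ℤ`. -/
theorem h47_int_sheet {ι : Type*} (V : ι → h39_RedDatum K F' k κ) (b : ι)
    (hRk : h39_RankOne (V b).A) (π : K) (hπ : π ≠ 0)
    {J : Type*} [Fintype J] [DecidableEq J] (τ : J → F' →+* F') (t : J → ι) (j₀ : J)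
    (hτ₀ : ∀ x, τ j₀ x = x) (ht : ∀ j, j ≠ j₀ → t j ≠ b)
    (hτO : ∀ j, j ≠ j₀ → ∀ x, x ∈ (V (t j)).O → τ j x ∈ (V b).O)
    (hτR : ∀ j, j ≠ j₀ → ∀ x, x ∈ (V (t j)).O → (V b).redF (τ j x) = (V (t j)).redF x)
    (e : F') (he : ∀ a, e ∈ (V a).O) (heb : (V b).redF e ≠ 0)
    (hea : ∀ a, a ≠ b → (V a).redF e = 0)
    (S : Set F')
    (hS : ∀ x ∈ S, x ≠ 0 → ∃ m : ℤ, algebraMap K F' (π ^ m) * x ∈ (V b).O ∧
      (algebraMap K F' (π ^ m) * x)⁻¹ ∈ (V b).O)
    (f : F') (hf : f ≠ 0) (hT : ∀ N : ℕ, ∑ j, τ j (f * e ^ N) ∈ S) :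
    ∃ m : ℤ, algebraMap K F' (π ^ m) * f ∈ (V b).O ∧
      (algebraMap K F' (π ^ m) * f)⁻¹ ∈ (V b).O := by
  have he0 : (V b).O.valuation (τ j₀ e) = 1 := by
    rw [hτ₀]
    exact h47_val_eq_one_of_redF (V b) heb
  have he1 : ∀ j, j ≠ j₀ → (V b).O.valuation (τ j e) < 1 := by
    intro j hj
    refine h47_val_lt_one_of_redF (V b) (hτO j hj e (he _)) ?_
    rw [hτR j hj e (he _)]
    exact hea _ (ht j hj)
  have hS' : ∀ x ∈ S, x ≠ 0 → ∃ m : ℤ,
      (V b).O.valuation x = (V b).O.valuation (algebraMap K F' π) ^ m := by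
    intro x hx hx0
    obtain ⟨m, hm⟩ := hS x hx hx0
    exact ⟨-m, (h47_scale_iff (V b) π hπ m x hx0).mp hm⟩
  obtain ⟨m, hm⟩ := h47_int_sheet_val (V b).O.valuation τ j₀ e f hf he0 he1
    (h47_arch (V b) hRk) (algebraMap K F' π) S hS' hT
  rw [hτ₀] at hm
  refine ⟨-m, (h47_scale_iff (V b) π hπ (-m) f hf).mpr ?_⟩
  rw [neg_neg]
  exact hm

end Sheet

/-! ### The invariant separator -/

section Sep

/-- A product over a finite set stable under injective ring endomorphisms is fixed by them. -/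
theorem h47_prod_fixed {R : Type*} [CommRing R] (s : Finset R) (φ : R →+* R)
    (hφ : Function.Injective φ) (hs : ∀ y ∈ s, φ y ∈ s) :
    φ (∏ y ∈ s, y) = ∏ y ∈ s, y := by
  classical
  rw [map_prod]
  have himg : s.image φ = s := by
    refine Finset.eq_of_subset_of_card_le ?_ ?_
    · intro y hy
      obtain ⟨z, hz, rfl⟩ := Finset.mem_image.mp hy
      exact hs z hz
    · rw [Finset.card_image_of_injective s hφ]
  conv_rhs => rw [← himg]
  rw [Finset.prod_image fun x _ y _ h => hφ h]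

variable {K F' k κ : Type*} [Field K] [Field F'] [Algebra K F'] [Field k] [Field κ] [Algebra k κ]

/-- The reduction of a finite product of integral elements. -/
theorem h47_redF_prod (R : h39_RedDatum K F' k κ) (s : Finset F') (hs : ∀ y ∈ s, y ∈ R.O) :
    (∏ y ∈ s, y) ∈ R.O ∧ R.redF (∏ y ∈ s, y) = ∏ y ∈ s, R.redF y := by
  classical
  induction s using Finset.induction_on with
  | empty =>
    rw [Finset.prod_empty, Finset.prod_empty]
    exact ⟨R.O.one_mem, h39_redF_one R⟩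
  | insert a s ha ih =>
    obtain ⟨h1, h2⟩ := ih fun y hy => hs y (Finset.mem_insert_of_mem hy)
    have haO := hs a (Finset.mem_insert_self a s)
    rw [Finset.prod_insert ha, Finset.prod_insert ha]
    exact ⟨mul_mem haO h1, by rw [h39_redF_mul R haO h1, h2]⟩

/-- **Invariant separator.**  `Φ` a set of ring endomorphisms of `F'` containing the identity and
closed under composition (the inertia action), preserving every sheet ring and every sheet
reduction; `ε` integral on all sheets with finite `Φ`-orbit.  Then the product `e` of the orbit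
is `Φ`-invariant, integral on all sheets, and `red_a e = (red_a ε) ^ r` on every sheet, with
one `r > 0`. -/
theorem h47_sep_sym {ι : Type*} (V : ι → h39_RedDatum K F' k κ) (Φ : Set (F' →+* F'))
    (hid : RingHom.id F' ∈ Φ) (hcl : ∀ φ ∈ Φ, ∀ ψ ∈ Φ, φ.comp ψ ∈ Φ)
    (hΦO : ∀ φ ∈ Φ, ∀ a x, x ∈ (V a).O → φ x ∈ (V a).O)
    (hΦR : ∀ φ ∈ Φ, ∀ a x, x ∈ (V a).O → (V a).redF (φ x) = (V a).redF x)
    (ε : F') (hε : ∀ a, ε ∈ (V a).O) (hfin : {g : F' | ∃ φ ∈ Φ, g = φ ε}.Finite) :
    ∃ (e : F') (r : ℕ), 0 < r ∧ (∀ φ ∈ Φ, φ e = e) ∧ (∀ a, e ∈ (V a).O) ∧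
      ∀ a, (V a).redF e = (V a).redF ε ^ r := by
  classical
  set Ω : Finset F' := hfin.toFinset with hΩ
  have hmem : ∀ y, y ∈ Ω ↔ ∃ φ ∈ Φ, y = φ ε := fun y => by
    rw [hΩ, Set.Finite.mem_toFinset]
    rfl
  have hεΩ : ε ∈ Ω := (hmem ε).mpr ⟨RingHom.id F', hid, rfl⟩
  have hO : ∀ a, ∀ y ∈ Ω, y ∈ (V a).O := by
    intro a y hy
    obtain ⟨φ, hφ, rfl⟩ := (hmem y).mp hy
    exact hΦO φ hφ a ε (hε a)
  have hR : ∀ a, ∀ y ∈ Ω, (V a).redF y = (V a).redF ε := by
    intro a y hy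
    obtain ⟨φ, hφ, rfl⟩ := (hmem y).mp hy
    exact hΦR φ hφ a ε (hε a)
  refine ⟨∏ y ∈ Ω, y, Ω.card, Finset.card_pos.mpr ⟨ε, hεΩ⟩, fun φ hφ => ?_, fun a => ?_,
    fun a => ?_⟩
  · refine h47_prod_fixed Ω φ φ.injective fun y hy => ?_
    obtain ⟨ψ, hψ, rfl⟩ := (hmem y).mp hy
    exact (hmem _).mpr ⟨φ.comp ψ, hcl φ hφ ψ hψ, rfl⟩
  · exact (h47_redF_prod (V a) Ω (hO a)).1
  · rw [(h47_redF_prod (V a) Ω (hO a)).2, Finset.prod_congr rfl (hR a), Finset.prod_const]

end Sep

end Fermat.Agent.S40
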