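/-
S40 / G40 no-regret core (Mathlib only): the slope relation at a REGULAR node, algebraic form.

`B` is the local ring of the `K0`-model at a node, `a`, `b` the two local parameters
(`a b = p * unit`); `b` cuts out the branch `C_1` (so the `b`-adic valuation is `v_1`,
`B / b B` is the local ring `O_{x_1}` of `C_1` at the node, with uniformiser the image of `a`),
and `a` cuts out `C_2` (the `a`-adic valuation is `v_2`).

* `h47_pid_lift`: a noetherian local domain `R` with `R / b R` a principal ideal ring: every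
  prime ideal not containing `b` is principal (Nakayama).
* `h47_ufd_of_quot_pir`: such an `R` is a UFD as soon as `b` is a prime element (Kaplansky).
* `h47_th0_one`, `h47_th0_core`: in a UFD, an additive function on the elements prime to `b`
  which kills units is determined mod `p` by the multiplicities at the primes mod `p`.
* `h47_th0_node`: **(TH0)**. For `g, h` prime to `b` whose multiplicities at every prime not
  associated to `a`, `b` agree mod `p` (the horizontal divisor of `g / h` is divisible by `p`):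
  `ord_{x_1}(g mod b) - ord_{x_1}(h mod b) ≡ v_2(g) - v_2(h)  (mod p)`.
-/
import Mathlib

set_option autoImplicit false

namespace Fermat.Agent.S40

/-- **PID-lift.** `R` noetherian local, `b` a non-unit, `R / b R` a principal ideal ring:
every prime ideal not containing `b` is principal. -/
theorem h47_pid_lift {R : Type*} [CommRing R] [IsLocalRing R] [IsNoetherianRing R]
    {b : R} (hb : ¬ IsUnit b)
    (hq : ∀ J : Ideal (R ⧸ Ideal.span ({b} : Set R)), J.IsPrincipal)
    (P : Ideal R) [hP : P.IsPrime] (hbP : b ∉ P) : P.IsPrincipal := by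
  obtain ⟨x, hx⟩ := (hq (P.map (Ideal.Quotient.mk (Ideal.span ({b} : Set R))))).principal
  have hxmem : x ∈ P.map (Ideal.Quotient.mk (Ideal.span ({b} : Set R))) := by
    rw [hx]; exact Submodule.mem_span_singleton_self x
  obtain ⟨f, hfP, hfx⟩ :=
    (Ideal.mem_map_iff_of_surjective _ Ideal.Quotient.mk_surjective).1 hxmem
  have hle : P ≤ Ideal.span ({f} : Set R) ⊔ Ideal.span ({b} : Set R) • P := by
    intro g hg
    have hgm : Ideal.Quotient.mk (Ideal.span ({b} : Set R)) g ∈
        P.map (Ideal.Quotient.mk (Ideal.span ({b} : Set R))) := Ideal.mem_map_of_mem _ hg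
    rw [hx] at hgm
    obtain ⟨c, hc⟩ := Submodule.mem_span_singleton.1 hgm
    obtain ⟨r, rfl⟩ := Ideal.Quotient.mk_surjective c
    have hsub : g - r * f ∈ Ideal.span ({b} : Set R) := by
      rw [← Ideal.Quotient.eq]
      rw [map_mul, hfx, ← hc]; rfl
    obtain ⟨s, hs⟩ := Ideal.mem_span_singleton'.1 hsub
    have hsP : s ∈ P := by
      have h1 : s * b ∈ P := by
        rw [hs]; exact P.sub_mem hg (P.mul_mem_left r hfP)
      exact (hP.mem_or_mem h1).resolve_right hbP
    have hgeq : g = r * f + b • s := by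
      rw [smul_eq_mul, mul_comm b s, hs]; ring
    rw [hgeq]
    refine Submodule.add_mem_sup ?_ ?_
    · exact Ideal.mul_mem_left _ r (Ideal.mem_span_singleton_self f)
    · exact Submodule.smul_mem_smul (Ideal.mem_span_singleton_self b) hsP
  have hjac : Ideal.span ({b} : Set R) ≤ Ideal.jacobson (⊥ : Ideal R) := by
    refine le_trans ?_ (IsLocalRing.maximalIdeal_le_jacobson ⊥)
    rw [Ideal.span_singleton_le_iff_mem]
    exact (IsLocalRing.mem_maximalIdeal b).2 hb
  have hPle : P ≤ Ideal.span ({f} : Set R) :=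
    Submodule.le_of_le_smul_of_le_jacobson_bot (IsNoetherian.noetherian P) hjac hle
  refine ⟨⟨f, le_antisymm hPle ?_⟩⟩
  rw [Ideal.submodule_span_eq, Ideal.span_singleton_le_iff_mem]
  exact hfP

/-- A noetherian local domain `R` with a prime element `b` such that `R / b R` is a principal
ideal ring is a UFD. -/
theorem h47_ufd_of_quot_pir {R : Type*} [CommRing R] [IsDomain R] [IsLocalRing R]
    [IsNoetherianRing R] {b : R} (hb : Prime b)
    (hq : ∀ J : Ideal (R ⧸ Ideal.span ({b} : Set R)), J.IsPrincipal) :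
    UniqueFactorizationMonoid R := by
  rw [UniqueFactorizationMonoid.iff_exists_prime_mem_of_isPrime]
  intro I hI hIp
  by_cases hbI : b ∈ I
  · exact ⟨b, hbI, hb⟩
  · have := hIp
    obtain ⟨f, hf⟩ := (h47_pid_lift hb.not_isUnit hq I hbI).principal
    have hf' : I = Ideal.span ({f} : Set R) := hf
    have hf0 : f ≠ 0 := by
      rintro rfl
      apply hI
      rw [hf']; simp
    refine ⟨f, ?_, ?_⟩
    · rw [hf']; exact Ideal.mem_span_singleton_self f
    · rw [← Ideal.span_singleton_prime hf0, ← hf']; exact hIp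

/-- In a UFD: a `ZMod p`-valued function on the elements prime to `b` which is additive, kills
units and kills `a`, vanishes on every element all of whose multiplicities at the primes not
associated to `a`, `b` are divisible by `p`. -/
theorem h47_th0_one {B : Type*} [CommRing B] [IsDomain B] [UniqueFactorizationMonoid B]
    {a b : B} (hb : Prime b) (p : ℕ) (D : B → ZMod p)
    (hD_mul : ∀ x y, ¬ b ∣ x → ¬ b ∣ y → D (x * y) = D x + D y)
    (hD_unit : ∀ x, IsUnit x → D x = 0)
    (hD_a : D a = 0)
    (x : B) (hx : ¬ b ∣ x)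
    (hmult : ∀ q : B, Prime q → ¬ Associated q a → ¬ Associated q b → p ∣ multiplicity q x) :
    D x = 0 := by
  revert hx hmult
  refine (wellFounded_dvdNotUnit (α := B)).induction
    (C := fun x => ¬ b ∣ x → (∀ q : B, Prime q → ¬ Associated q a → ¬ Associated q b →
      p ∣ multiplicity q x) → D x = 0) x ?_
  intro x ih hx hmult
  have hx0 : x ≠ 0 := by rintro rfl; exact hx (dvd_zero b)
  by_cases hxu : IsUnit x
  · exact hD_unit x hxu
  obtain ⟨q, hqirr, hqx⟩ := WfDvdMonoid.exists_irreducible_factor hxu hx0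
  have hq : Prime q := UniqueFactorizationMonoid.irreducible_iff_prime.1 hqirr
  have hbq : ¬ b ∣ q := fun h => hx (h.trans hqx)
  by_cases hqb : Associated q b
  · exact absurd (hqb.symm.dvd.trans hqx) hx
  by_cases hqa : Associated q a
  · -- peel off one factor `q ~ a`
    obtain ⟨x', rfl⟩ := hqx
    have hx'0 : x' ≠ 0 := right_ne_zero_of_mul hx0
    have hbx' : ¬ b ∣ x' := fun h => hx (h.mul_left q)
    have hDq : D q = 0 := by
      obtain ⟨u, hu⟩ := hqa.symm
      have hba : ¬ b ∣ a := fun h => hbq (hqa.symm.dvd_iff_dvd_right.1 h)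
      have hbu : ¬ b ∣ (u : B) := fun h => hb.not_isUnit (isUnit_of_dvd_unit h u.isUnit)
      rw [← hu, hD_mul a u hba hbu, hD_a, hD_unit _ u.isUnit, add_zero]
    rw [hD_mul q x' hbq hbx', hDq, zero_add]
    refine ih x' ⟨hx'0, q, hq.not_isUnit, mul_comm q x'⟩ hbx' ?_
    intro q' hq' hq'a hq'b
    have h1 := hmult q' hq' hq'a hq'b
    have hfin : FiniteMultiplicity q' (q * x') := FiniteMultiplicity.of_prime_left hq' hx0
    rw [multiplicity_mul hq' hfin] at h1
    have h2 : multiplicity q' q = 0 := by
      rw [multiplicity_eq_zero]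
      intro hdvd
      exact hq'a ((hq'.associated_of_dvd hq hdvd).trans hqa)
    rwa [h2, zero_add] at h1
  · -- `q` horizontal: peel off `q ^ m`, `p ∣ m`
    have hpm := hmult q hq hqa hqb
    set m := multiplicity q x with hm
    have hm0 : m ≠ 0 := by
      rw [hm, Ne, multiplicity_eq_zero]; exact not_not.2 hqx
    obtain ⟨x', hx'⟩ : q ^ m ∣ x := pow_multiplicity_dvd q x
    have hx'0 : x' ≠ 0 := by rintro rfl; exact hx0 (by rw [hx', mul_zero])
    have hbx' : ¬ b ∣ x' := fun h => hx (by rw [hx']; exact h.mul_left _)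
    have hbqpow : ∀ k : ℕ, ¬ b ∣ q ^ k := fun k h => hbq (hb.dvd_of_dvd_pow h)
    have hDpow : ∀ k : ℕ, D (q ^ k) = (k : ZMod p) * D q := by
      intro k
      induction k with
      | zero => simp [hD_unit 1 isUnit_one]
      | succ k ihk =>
        rw [pow_succ, hD_mul _ _ (hbqpow k) hbq, ihk]; push_cast; ring
    have hDqm : D (q ^ m) = 0 := by
      rw [hDpow m, (ZMod.natCast_eq_zero_iff m p).2 hpm, zero_mul]
    have hxeq : D x = D x' := by
      conv_lhs => rw [hx']
      rw [hD_mul _ _ (hbqpow m) hbx', hDqm, zero_add]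
    rw [hxeq]
    refine ih x' ⟨hx'0, q ^ m, ?_, by rw [hx', mul_comm]⟩ hbx' ?_
    · rw [isUnit_pow_iff hm0]; exact hq.not_isUnit
    intro q' hq' hq'a hq'b
    have h1 := hmult q' hq' hq'a hq'b
    have hfin : FiniteMultiplicity q' x := FiniteMultiplicity.of_prime_left hq' hx0
    have hfinq : FiniteMultiplicity q' q := FiniteMultiplicity.of_prime_left hq' hq.ne_zero
    have h3 : multiplicity q' x = m * multiplicity q' q + multiplicity q' x' := by
      conv_lhs => rw [hx']
      rw [multiplicity_mul hq' (by rw [← hx']; exact hfin), hfinq.multiplicity_pow hq']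
    rw [h3] at h1
    exact (Nat.dvd_add_right (Dvd.dvd.mul_right hpm _)).1 h1

/-- **(TH0), UFD form.** `ω` an additive function on the elements prime to `b` with `ω a = 1`
and `ω (unit) = 0`.  If the multiplicities of `g` and `h` at every prime not associated to
`a`, `b` agree mod `p`, then `ω g - ω h ≡ mult_a g - mult_a h (mod p)`. -/
theorem h47_th0_core {B : Type*} [CommRing B] [IsDomain B] [UniqueFactorizationMonoid B]
    {a b : B} (ha : Prime a) (hb : Prime b) {p : ℕ} (hp : p ≠ 0)
    (ω : B → ℕ)
    (hω_mul : ∀ x y, ¬ b ∣ x → ¬ b ∣ y → ω (x * y) = ω x + ω y)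
    (hω_unit : ∀ x, IsUnit x → ω x = 0)
    (hω_a : ω a = 1)
    {g h : B} (hg : ¬ b ∣ g) (hh : ¬ b ∣ h)
    (hmult : ∀ q : B, Prime q → ¬ Associated q a → ¬ Associated q b →
      (multiplicity q g : ℤ) ≡ (multiplicity q h : ℤ) [ZMOD p]) :
    (ω g : ℤ) - ω h ≡ (multiplicity a g : ℤ) - multiplicity a h [ZMOD p] := by
  have hne : ∀ x : B, ¬ b ∣ x → x ≠ 0 := fun x hx h0 => hx (h0 ▸ dvd_zero b)
  set D : B → ZMod p := fun x => (((ω x : ℤ) - (multiplicity a x : ℤ) : ℤ) : ZMod p) with hD
  have hD_mul : ∀ x y, ¬ b ∣ x → ¬ b ∣ y → D (x * y) = D x + D y := by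
    intro x y hx hy
    have hfin : FiniteMultiplicity a (x * y) :=
      FiniteMultiplicity.of_prime_left ha (mul_ne_zero (hne x hx) (hne y hy))
    simp only [hD]
    rw [hω_mul x y hx hy, multiplicity_mul ha hfin]
    push_cast; ring
  have hD_unit : ∀ x, IsUnit x → D x = 0 := by
    intro x hxu
    simp only [hD]
    rw [hω_unit x hxu, multiplicity_of_isUnit_right ha.not_isUnit hxu]; simp
  have hD_a : D a = 0 := by
    simp only [hD]
    rw [hω_a, multiplicity_self]; simp
  obtain ⟨n, rfl⟩ : ∃ n, p = n + 1 := Nat.exists_eq_succ_of_ne_zero hp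
  have hbh : ∀ k : ℕ, ¬ b ∣ h ^ k := fun k hk => hh (hb.dvd_of_dvd_pow hk)
  have hbx : ¬ b ∣ g * h ^ n := fun hk =>
    (hb.dvd_or_dvd hk).elim hg (hbh n)
  have hDpow : ∀ k : ℕ, D (h ^ k) = (k : ZMod (n + 1)) * D h := by
    intro k
    induction k with
    | zero => simp [hD_unit 1 isUnit_one]
    | succ k ihk =>
      rw [pow_succ, hD_mul _ _ (hbh k) hh, ihk]; push_cast; ring
  have hzero : D (g * h ^ n) = 0 := by
    refine h47_th0_one hb (n + 1) D hD_mul hD_unit hD_a (g * h ^ n) hbx ?_
    intro q hq hqa hqb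
    have h1 := hmult q hq hqa hqb
    have hfing : FiniteMultiplicity q g := FiniteMultiplicity.of_prime_left hq (hne g hg)
    have hfinh : FiniteMultiplicity q h := FiniteMultiplicity.of_prime_left hq (hne h hh)
    have hfin : FiniteMultiplicity q (g * h ^ n) :=
      FiniteMultiplicity.of_prime_left hq (hne _ hbx)
    rw [multiplicity_mul hq hfin, hfinh.multiplicity_pow hq]
    have h2 : ((n + 1 : ℕ) : ℤ) ∣ ((multiplicity q g + n * multiplicity q h : ℕ) : ℤ) := by
      have h3 : ((n + 1 : ℕ) : ℤ) ∣ (multiplicity q g : ℤ) - (multiplicity q h : ℤ) :=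
        (Int.modEq_iff_dvd.1 h1.symm)
      have h4 : ((multiplicity q g + n * multiplicity q h : ℕ) : ℤ)
          = ((multiplicity q g : ℤ) - (multiplicity q h : ℤ))
            + ((n + 1 : ℕ) : ℤ) * (multiplicity q h : ℤ) := by
        push_cast; ring
      rw [h4]
      exact dvd_add h3 (dvd_mul_right _ _)
    exact Int.natCast_dvd_natCast.1 h2
  rw [hD_mul _ _ hg (hbh n), hDpow n] at hzero
  have hn : (n : ZMod (n + 1)) = -1 := by
    have : ((n + 1 : ℕ) : ZMod (n + 1)) = 0 := ZMod.natCast_self (n + 1)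
    push_cast at this
    linear_combination this
  rw [hn] at hzero
  have hDgh : D g = D h := by linear_combination hzero
  simp only [hD] at hDgh
  have := (ZMod.intCast_eq_intCast_iff _ _ _).1 hDgh
  have h5 : (ω g : ℤ) - ω h - ((multiplicity a g : ℤ) - multiplicity a h)
      = ((ω g : ℤ) - multiplicity a g) - ((ω h : ℤ) - multiplicity a h) := by ring
  rw [Int.modEq_iff_dvd]
  have h6 := Int.modEq_iff_dvd.1 this
  have h7 : (multiplicity a g : ℤ) - multiplicity a h - ((ω g : ℤ) - ω h)
      = ((ω h : ℤ) - multiplicity a h) - ((ω g : ℤ) - multiplicity a g) := by ring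
  rw [h7]; exact h6

/-- **(TH0) at a regular node.** `R` a noetherian local domain, `a`, `b` prime elements,
`R / b R` a principal ideal ring in which the image of `a` is prime (the local ring of the
branch `C_1` at the node, with uniformiser `a`).  If the multiplicities of `g`, `h` (both prime
to `b`) at every prime not associated to `a`, `b` agree mod `p`, then
`ord_a(g mod b) - ord_a(h mod b) ≡ mult_a g - mult_a h (mod p)`. -/
theorem h47_th0_node {R : Type*} [CommRing R] [IsDomain R] [IsLocalRing R] [IsNoetherianRing R]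
    {a b : R} (ha : Prime a) (hb : Prime b)
    (hq : ∀ J : Ideal (R ⧸ Ideal.span ({b} : Set R)), J.IsPrincipal)
    (hā : Prime (Ideal.Quotient.mk (Ideal.span ({b} : Set R)) a))
    {p : ℕ} (hp : p ≠ 0) {g h : R} (hg : ¬ b ∣ g) (hh : ¬ b ∣ h)
    (hmult : ∀ q : R, Prime q → ¬ Associated q a → ¬ Associated q b →
      (multiplicity q g : ℤ) ≡ (multiplicity q h : ℤ) [ZMOD p]) :
    (multiplicity (Ideal.Quotient.mk (Ideal.span ({b} : Set R)) a)
        (Ideal.Quotient.mk (Ideal.span ({b} : Set R)) g) : ℤ)
      - multiplicity (Ideal.Quotient.mk (Ideal.span ({b} : Set R)) a)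
        (Ideal.Quotient.mk (Ideal.span ({b} : Set R)) h)
      ≡ (multiplicity a g : ℤ) - multiplicity a h [ZMOD p] := by
  have : UniqueFactorizationMonoid R := h47_ufd_of_quot_pir hb hq
  have : (Ideal.span ({b} : Set R)).IsPrime := (Ideal.span_singleton_prime hb.ne_zero).2 hb
  have hmk0 : ∀ x : R, ¬ b ∣ x → Ideal.Quotient.mk (Ideal.span ({b} : Set R)) x ≠ 0 := by
    intro x hx h0
    rw [Ideal.Quotient.eq_zero_iff_mem, Ideal.mem_span_singleton] at h0
    exact hx h0
  refine h47_th0_core ha hb hp
    (fun x => multiplicity (Ideal.Quotient.mk (Ideal.span ({b} : Set R)) a)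
      (Ideal.Quotient.mk (Ideal.span ({b} : Set R)) x)) ?_ ?_ ?_ hg hh hmult
  · intro x y hx hy
    have hfin : FiniteMultiplicity (Ideal.Quotient.mk (Ideal.span ({b} : Set R)) a)
        (Ideal.Quotient.mk (Ideal.span ({b} : Set R)) x
          * Ideal.Quotient.mk (Ideal.span ({b} : Set R)) y) :=
      FiniteMultiplicity.of_prime_left hā (mul_ne_zero (hmk0 x hx) (hmk0 y hy))
    simp only [map_mul]
    exact multiplicity_mul hā hfin
  · intro x hxu
    exact multiplicity_of_isUnit_right hā.not_isUnit (hxu.map _)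
  · exact multiplicity_self

end Fermat.Agent.S40
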