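import Mathlib
import Fermat.Agent.S36.h48_NodeTH0

/-!
# S40 / row T7 (MAIN = TH0 + AP): the generic core  (helper48)

`V : h80_ValFam F ι` is the valuation family of the `K₀`-form of the cover; its `2p` vertical
valuations are the sheets `s1 a`, `s2 a` (`a : ZMod p`) over the two components.  `u` is the
Kummer function of the pulled-back class.

* (AP): the sheet valuations of `u` form arithmetic progressions of difference `-κv` modulo `p`
  (`h48_progression`).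
* (TH0) at a node joining the sheets `s1 a0` and `s2 (a0 + c)`:
  `v (s2 (a0 + c)) u - v (s1 a0) u ≡ ord_s red (u / p ^ v (s1 a0) u)` modulo `p`
  (`h48_th0_node`, from the shared node interface).
* `h48_main` : hence `n ν ≡ C - c ν * κv` modulo `p`, with the constant
  `C = v (s2 0) u - v (s1 0) u`;  `h48_main_peu` : if `p ∣ κv` all `n ν` are congruent to `C`.
* `h48_node_symm` : the node interface is symmetric in the two branches.
-/

set_option autoImplicit false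

namespace Fermat.Agent.S40

open Fermat.Agent.S36

variable {F : Type*} [Field F] {ι : Type*}

/-- The node interface is symmetric in the two branches. -/
theorem h48_node_symm {V : h80_ValFam F ι} {q : ℕ} {m : Ideal V.B} {c1 c2 : ι} {a b : V.B}
    (h : h62_Node V q m c1 c2 a b) : h62_Node V q m c2 c1 b a where
  isMax := h.isMax
  q_mem := h.q_mem
  q_ne := h.q_ne
  c_ne := h.c_ne.symm
  thr1 := h.thr2
  thr2 := h.thr1
  vert := fun i hi hq => (h.vert i hi hq).symm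
  horiz := fun i hi h2 h1 => h.horiz i hi h1 h2
  vq1 := h.vq2
  vq2 := h.vq1
  a_ne := h.b_ne
  b_ne := h.a_ne
  va1 := h.vb2
  va := h.vb
  vb2 := h.va1
  vb := h.va
  gen := fun f hf => by
    obtain ⟨t, x, y, ht, hxy⟩ := h.gen f hf
    exact ⟨t, y, x, ht, by rw [hxy, add_comm]⟩
  unitStar := h.unitStar

/-- (AP), integrated: if the valuations of `u` along a family of sheets indexed by `ZMod p` form
an arithmetic progression of difference `-κv` modulo `p`, then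
`v (s a) u ≡ v (s 0) u - a * κv` modulo `p`. -/
theorem h48_progression (p : ℕ) [NeZero p] (w : ZMod p → ℤ) (κv : ℤ)
    (hAP : ∀ a : ZMod p, (p : ℤ) ∣ w (a + 1) - w a + κv) (a : ZMod p) :
    (p : ℤ) ∣ w a - w 0 + (a.val : ℤ) * κv := by
  have key : ∀ n : ℕ, (p : ℤ) ∣ w (n : ZMod p) - w 0 + (n : ℤ) * κv := by
    intro n
    induction n with
    | zero => simp
    | succ n ih =>
      have h1 := hAP (n : ZMod p)
      have h2 : w ((n + 1 : ℕ) : ZMod p) - w 0 + ((n + 1 : ℕ) : ℤ) * κv =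
          (w ((n : ZMod p) + 1) - w (n : ZMod p) + κv) + (w (n : ZMod p) - w 0 + (n : ℤ) * κv) := by
        push_cast
        ring
      rw [h2]
      exact dvd_add h1 ih
  have h := key a.val
  rwa [ZMod.natCast_zmod_val] at h

/-- **(MAIN)**, generic core.  Sheets `s1, s2 : ZMod p → ι`; (AP) on both families with the same
difference `-κv`; for every node `ν` a regular node of the shared interface joining the sheets
`s1 (a0 ν)` and `s2 (a0 ν + c ν)`, with (COORD) `o ν`; horizontal orders of `u` through the nodes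
divisible by `p`; `n ν ≡ o ν (u / p ^ v (s1 (a0 ν)) u)` modulo `p`.  Then
`n ν ≡ (v (s2 0) u - v (s1 0) u) - c ν * κv` modulo `p`. -/
theorem h48_main (p : ℕ) [NeZero p] (V : h80_ValFam F ι) (s1 s2 : ZMod p → ι) {u : F} (hu : u ≠ 0)
    (κv : ℤ)
    (hAP1 : ∀ a : ZMod p, (p : ℤ) ∣ V.v (s1 (a + 1)) u - V.v (s1 a) u + κv)
    (hAP2 : ∀ a : ZMod p, (p : ℤ) ∣ V.v (s2 (a + 1)) u - V.v (s2 a) u + κv)
    {Ν : Type*} (c a0 : Ν → ZMod p) (m : Ν → Ideal V.B) (a b : Ν → V.B)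
    (hnode : ∀ ν, h62_Node V p (m ν) (s1 (a0 ν)) (s2 (a0 ν + c ν)) (a ν) (b ν))
    (o : Ν → F → ℤ) (hcoord : ∀ ν, h48_Coord V (m ν) (s1 (a0 ν)) (b ν) (o ν))
    (hdiv : ∀ ν i, V.Through (m ν) i → i ≠ s1 (a0 ν) → i ≠ s2 (a0 ν + c ν) → (p : ℤ) ∣ V.v i u)
    (n : Ν → ℤ)
    (hres : ∀ ν, (p : ℤ) ∣ o ν (u / (p : F) ^ (V.v (s1 (a0 ν)) u)) - n ν) (ν : Ν) :
    (p : ℤ) ∣ n ν - ((V.v (s2 0) u - V.v (s1 0) u) - ((c ν).val : ℤ) * κv) := by
  have hth := h48_th0_node (hnode ν) (hcoord ν) p hu (hdiv ν)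
  have h1 := h48_progression p (fun x => V.v (s1 x) u) κv hAP1 (a0 ν)
  have h2 := h48_progression p (fun x => V.v (s2 x) u) κv hAP2 (a0 ν + c ν)
  -- `(a0 + c).val ≡ a0.val + c.val` modulo `p`
  have hval : (p : ℤ) ∣ (((a0 ν + c ν).val : ℤ) - ((a0 ν).val : ℤ) - ((c ν).val : ℤ)) := by
    have h3 : (((a0 ν + c ν).val : ℤ) : ZMod p) =
        ((((a0 ν).val : ℤ) + ((c ν).val : ℤ) : ℤ) : ZMod p) := by
      push_cast
      rw [ZMod.natCast_zmod_val, ZMod.natCast_zmod_val, ZMod.natCast_zmod_val]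
    have h4 := (ZMod.intCast_eq_intCast_iff_dvd_sub _ _ p).mp h3.symm
    have h5 : (((a0 ν + c ν).val : ℤ) - ((a0 ν).val : ℤ) - ((c ν).val : ℤ)) =
        ((a0 ν + c ν).val : ℤ) - (((a0 ν).val : ℤ) + ((c ν).val : ℤ)) := by ring
    rw [h5]
    exact h4
  obtain ⟨k0, hk0⟩ := hth
  obtain ⟨k1, hk1⟩ := h1
  obtain ⟨k2, hk2⟩ := h2
  obtain ⟨k3, hk3⟩ := hval
  obtain ⟨k4, hk4⟩ := hres ν
  refine ⟨-k4 - k0 + k2 - k1 - k3 * κv, ?_⟩
  have e1 : n ν = o ν (u / (p : F) ^ (V.v (s1 (a0 ν)) u)) - (p : ℤ) * k4 := by rw [← hk4]; ring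
  have e0 : o ν (u / (p : F) ^ (V.v (s1 (a0 ν)) u)) =
      V.v (s2 (a0 ν + c ν)) u - V.v (s1 (a0 ν)) u - (p : ℤ) * k0 := by rw [← hk0]; ring
  have e2 : V.v (s2 (a0 ν + c ν)) u =
      V.v (s2 0) u - ((a0 ν + c ν).val : ℤ) * κv + (p : ℤ) * k2 := by rw [← hk2]; ring
  have e1' : V.v (s1 (a0 ν)) u = V.v (s1 0) u - ((a0 ν).val : ℤ) * κv + (p : ℤ) * k1 := by
    rw [← hk1]; ring
  have e3 : ((a0 ν + c ν).val : ℤ) = ((a0 ν).val : ℤ) + ((c ν).val : ℤ) + (p : ℤ) * k3 := by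
    rw [← hk3]; ring
  rw [e1, e0, e2, e1', e3]
  ring

/-- **(MAIN)**, the peu ramifié case: if `p ∣ κv`, all `n ν` are congruent modulo `p` to the
same constant. -/
theorem h48_main_peu (p : ℕ) [NeZero p] (V : h80_ValFam F ι) (s1 s2 : ZMod p → ι) {u : F}
    (hu : u ≠ 0) (κv : ℤ) (hκ : (p : ℤ) ∣ κv)
    (hAP1 : ∀ a : ZMod p, (p : ℤ) ∣ V.v (s1 (a + 1)) u - V.v (s1 a) u + κv)
    (hAP2 : ∀ a : ZMod p, (p : ℤ) ∣ V.v (s2 (a + 1)) u - V.v (s2 a) u + κv)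
    {Ν : Type*} (c a0 : Ν → ZMod p) (m : Ν → Ideal V.B) (a b : Ν → V.B)
    (hnode : ∀ ν, h62_Node V p (m ν) (s1 (a0 ν)) (s2 (a0 ν + c ν)) (a ν) (b ν))
    (o : Ν → F → ℤ) (hcoord : ∀ ν, h48_Coord V (m ν) (s1 (a0 ν)) (b ν) (o ν))
    (hdiv : ∀ ν i, V.Through (m ν) i → i ≠ s1 (a0 ν) → i ≠ s2 (a0 ν + c ν) → (p : ℤ) ∣ V.v i u)
    (n : Ν → ℤ)
    (hres : ∀ ν, (p : ℤ) ∣ o ν (u / (p : F) ^ (V.v (s1 (a0 ν)) u)) - n ν) :
    ∃ C : ℤ, ∀ ν, (p : ℤ) ∣ n ν - C := by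
  refine ⟨V.v (s2 0) u - V.v (s1 0) u, fun ν => ?_⟩
  have h := h48_main p V s1 s2 hu κv hAP1 hAP2 c a0 m a b hnode o hcoord hdiv n hres ν
  have h2 : n ν - (V.v (s2 0) u - V.v (s1 0) u) =
      (n ν - ((V.v (s2 0) u - V.v (s1 0) u) - ((c ν).val : ℤ) * κv)) - ((c ν).val : ℤ) * κv := by
    ring
  rw [h2]
  exact dvd_sub h (Dvd.dvd.mul_left hκ _)

end Fermat.Agent.S40
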