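import Mathlib
import Fermat.Agent.S36.h81_CountW

/-!
# S40 / row W2 (S1): the node functions `a_ν` in the binder shape of the W6/W7 consumers (helper48)

Generic adapter on helper81's structure `h81_CountHyp` (thickness one by count).  At every node
`S ∈ Sg` there is a `K₀`-rational `a ∈ L(na D0)` with

* `π⁻¹ a ∈ O₁`, and `red₁ (π⁻¹ a) ≠ 0` has a SIMPLE POLE at the node point `Φ S` of the first
  component;
* `a ∈ O₂`, and `red₂ a ≠ 0` has a SIMPLE ZERO at the node point `S` of the second component;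
* `a ∈ O₁` with `red₁ a = 0`.

`h48_s1_node` is the statement at one node, `h48_s1_family` the family over any finite index
type `Z` with `Q2 ν ∈ Sg`, `Q1 ν = Φ (Q2 ν)`, with ONE `na` (binders `a na ha ha₁ ha₂ haρ haα` of
`h31_twist_incl`).
-/

set_option autoImplicit false

noncomputable section

open AlgebraicCurve

namespace Fermat.Agent.S40

open Fermat.Agent.S18 Fermat.Agent.S24 Fermat.Agent.S34 Fermat.Agent.S36

variable {K F k Fb : Type*} [Field K] [Field F] [Algebra K F] [Field k] [Field Fb] [Algebra k Fb]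

/-- `L(n D0) ⊆ L(m D0)` for `n ≤ m` and `D0` effective. -/
theorem h48_rr_nsmul_mono (D0 : Divisor K F) (hD0 : ∀ v, 0 ≤ D0 v) {n m : ℕ} (hnm : n ≤ m) {f : F}
    (hf : f ∈ riemannRochSpace (n • D0)) : f ∈ riemannRochSpace (m • D0) := by
  rw [mem_riemannRochSpace_iff] at hf ⊢
  intro v
  rcases hf v with h | h
  · exact Or.inl h
  · right
    rw [Finsupp.smul_apply, nsmul_eq_mul] at h ⊢
    have h1 : (n : ℤ) * D0 v ≤ (m : ℤ) * D0 v :=
      mul_le_mul_of_nonneg_right (by exact_mod_cast hnm) (hD0 v)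
    omega

variable {R₁ R₂ : h39_RedDatum K F k Fb} {D : h22_Lat K F k (Fb × Fb)} {D0 : Divisor K F}
  {Qinf : Place k Fb} {Sg : Finset (Place k Fb)} {Φ : Place k Fb → Place k Fb} {B F0 : Subring F}
  {T : Finset (Place k Fb)} {π : K} {u : F} {C : ℤ}

/-- **(S1) at one node, consumer shape.** -/
theorem h48_s1_node [HasPrincipalDivisors k Fb]
    (H : h81_CountHyp R₁ R₂ D D0 Qinf Sg Φ B F0 T π u C) {S : Place k Fb} (hS : S ∈ Sg) :
    ∃ (na : ℕ) (a : F), a ∈ F0 ∧ a ∈ riemannRochSpace (na • D0) ∧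
      (algebraMap K F π)⁻¹ * a ∈ R₁.O ∧ a ∈ R₂.O ∧ a ∈ R₁.O ∧ R₁.redF a = 0 ∧
      R₁.redF ((algebraMap K F π)⁻¹ * a) ≠ 0 ∧
      (Φ S).ord (R₁.redF ((algebraMap K F π)⁻¹ * a)) = -1 ∧
      R₂.redF a ≠ 0 ∧ S.ord (R₂.redF a) = 1 := by
  obtain ⟨n, n', f, g, ⟨hf0, hfL, hf1, hf2, hfr, hft⟩, ⟨hg0, hgL, hg1, hg2, hgr, hgt⟩, h1, h2, c,
    hc, hv1, hv2⟩ := H.S1 hS
  have hgπ : (algebraMap K F π)⁻¹ * g ∈ R₁.O := H.hdisc1 g hg0 hg1 hgr
  have hmul : (algebraMap K F π)⁻¹ * (f * g) = f * ((algebraMap K F π)⁻¹ * g) := by ring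
  have hred : R₁.redF ((algebraMap K F π)⁻¹ * (f * g)) =
      R₁.redF f * R₁.redF ((algebraMap K F π)⁻¹ * g) := by
    rw [hmul, h39_redF_mul R₁ hf1 hgπ]
  have hne := h81_ne_zero_of_val _ hv1 hc
  have hord0 := h39_ord_eq_zero_of_val _ hv1 hc
  rw [hred] at hne hord0
  have hρ0 : R₁.redF ((algebraMap K F π)⁻¹ * g) ≠ 0 := right_ne_zero_of_mul hne
  have ht0 : R₁.redF f ≠ 0 := left_ne_zero_of_mul hne
  rw [Place.ord_mul _ ht0 hρ0, hft] at hord0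
  have ht'0 : R₂.redF g ≠ 0 := by
    intro h0
    rw [h0, Place.ord_zero] at hgt
    exact zero_ne_one hgt
  exact ⟨n', g, hg0, hgL, hgπ, hg2, hg1, hgr, hρ0, by omega, ht'0, hgt⟩

/-- **(S1), family form with one `na`** (binders `a na ha ha₁ ha₂ haρ haα` of `h31_twist_incl`,
item (3) of the W7 header): `Z` any finite index type of nodes, `Q2 ν ∈ Sg` the node point on the
second component, `Q1 ν = Φ (Q2 ν)` the node point on the first component. -/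
theorem h48_s1_family [HasPrincipalDivisors k Fb]
    (H : h81_CountHyp R₁ R₂ D D0 Qinf Sg Φ B F0 T π u C) (hD0 : ∀ v, 0 ≤ D0 v)
    {Z : Type*} [Finite Z] (Q1 Q2 : Z → Place k Fb) (hQ2 : ∀ ν, Q2 ν ∈ Sg)
    (hQ1 : ∀ ν, Q1 ν = Φ (Q2 ν)) :
    ∃ (na : ℕ) (a : Z → F), (∀ ν, a ν ∈ F0) ∧ (∀ ν, a ν ∈ riemannRochSpace (na • D0)) ∧
      (∀ ν, (algebraMap K F π)⁻¹ * a ν ∈ R₁.O) ∧ (∀ ν, a ν ∈ R₂.O) ∧
      (∀ ν, a ν ∈ R₁.O ∧ R₁.redF (a ν) = 0) ∧
      (∀ ν, R₁.redF ((algebraMap K F π)⁻¹ * a ν) ≠ 0 ∧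
        (Q1 ν).ord (R₁.redF ((algebraMap K F π)⁻¹ * a ν)) = -1) ∧
      (∀ ν, R₂.redF (a ν) ≠ 0 ∧ (Q2 ν).ord (R₂.redF (a ν)) = 1) := by
  classical
  have := Fintype.ofFinite Z
  choose n a haF haL ha1 ha2 ha1' har hρ0 hρ hα0 hα using fun ν => h48_s1_node H (hQ2 ν)
  refine ⟨Finset.univ.sup n, a, haF, fun ν => ?_, ha1, ha2, fun ν => ⟨ha1' ν, har ν⟩,
    fun ν => ⟨hρ0 ν, ?_⟩, fun ν => ⟨hα0 ν, hα ν⟩⟩
  · exact h48_rr_nsmul_mono D0 hD0 (Finset.le_sup (Finset.mem_univ ν)) (haL ν)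
  · rw [hQ1 ν]
    exact hρ ν

end Fermat.Agent.S40

end
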