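import Mathlib
import Fermat.Agent.S36.h22_QExports
import Fermat.Agent.S34.h87_NodeInst
import Fermat.Agent.S40.h48_Sep

/-!
# S40 / row W2 (I3): K0-rational separators at a charted level `(M, q)`  (helper48)

`q ∤ M` prime, `A` over `q`, `I` its inertia group, `k` the residue field, `Fb = Fb(M)`,
`F = F̄(M q)`, `F0 = h69_F0 (M q) I` the `I`-fixed functions, `R₁ = h60_R1`, `R₂ = h60_R2`,
`D = h87_D` (the pair lattice), `D0 = h87_D0 = (∞) + (0')`, `Qinf = h11_placeInftyC k M`,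
`Φ = h96_frobPerm (h84_isFrobChart_jk M q hqM A hA)`.

* `h48_lift_k0` : (K0-LIFT + INT-BASE) every `a ∈ red (L(n D0) ∩ O)` is `(red₁ g, red₂ g)` for an
  `I`-fixed `g ∈ L(n D0) ∩ O₁ ∩ O₂`; if `a.1 = 0` then `q⁻¹ g ∈ O₁`, if `a.2 = 0` then
  `q⁻¹ g ∈ O₂`.  (No node datum.)
* with the node datum `(Sg, hSg, n0, hnode)` of `h87_node_closed` as HYPOTHESES:
  `h48_sep_k0_snd`, `h48_exact_k0_snd`, `h48_sep_k0_fst`, `h48_exact_k0_fst` : the four separators
  of `h48_Sep` lifted to `I`-fixed functions `s` with `q⁻¹ s` integral on the other component.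
-/

set_option autoImplicit false
set_option synthInstance.maxHeartbeats 400000

noncomputable section

open AlgebraicCurve ModularCurve Module
open Fermat.Agent.S18 Fermat.Agent.S24 Fermat.Agent.S27 Fermat.Agent.S37 Fermat.Agent.S34
open Fermat.Agent.S36

namespace Fermat.Agent.S40

local notation "Qb" => AlgebraicClosure ℚ

section SepK0

variable (M q : ℕ) [NeZero M] [NeZero q] [Fact q.Prime] (hqM : ¬ q ∣ M)
  (A : ValuationSubring Qb) (hA : A.LiesOverPrime q)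

/-- **(K0-LIFT + INT-BASE)**: an element of `red (L(n D0) ∩ O)` is the reduction of an
inertia-fixed function; a vanishing component of the reduction is divisible by `q`. -/
theorem h48_lift_k0 (n : ℕ)
    (a : ↥(modularFunctionFieldFullC (IsLocalRing.ResidueField A) M) ×
      ↥(modularFunctionFieldFullC (IsLocalRing.ResidueField A) M))
    (ha : a ∈ h51_Rd (h87_D M q hqM A hA) (n • h87_D0 M q hqM)) :
    ∃ g : ↥(modularFunctionFieldBar (M * q)),
      g ∈ h69_F0 (M * q) (A.inertiaSubgroupIn ℚ) ∧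
      g ∈ riemannRochSpace (n • h87_D0 M q hqM) ∧
      g ∈ (h60_R1 M q hqM A hA).O ∧ g ∈ (h60_R2 M q hqM A hA).O ∧
      (h60_R1 M q hqM A hA).redF g = a.1 ∧ (h60_R2 M q hqM A hA).redF g = a.2 ∧
      (a.1 = 0 → (algebraMap Qb ↥(modularFunctionFieldBar (M * q)) (q : Qb))⁻¹ * g ∈
        (h60_R1 M q hqM A hA).O) ∧
      (a.2 = 0 → (algebraMap Qb ↥(modularFunctionFieldBar (M * q)) (q : Qb))⁻¹ * g ∈
        (h60_R2 M q hqM A hA).O) := by
  obtain ⟨g, hgF, hgL, hgO, hgred⟩ := h22_hrat_Mq M q hqM A hA (h87_Pinf_spec (M * q))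
    (h87_P0_spec M q hqM) n a ha
  have hgO' := (h87_D_mem M q hqM A hA).mp hgO
  have hred := h87_D_redF M q hqM A hA hgO'.1 hgO'.2
  rw [hgred] at hred
  have h1 : (h60_R1 M q hqM A hA).redF g = a.1 := (congrArg Prod.fst hred).symm
  have h2 : (h60_R2 M q hqM A hA).redF g = a.2 := (congrArg Prod.snd hred).symm
  refine ⟨g, hgF, hgL, hgO'.1, hgO'.2, h1, h2, fun h0 => ?_, fun h0 => ?_⟩
  · exact h22_hdisc1_Mq M q hqM A hA g hgF hgO'.1 (h1.trans h0)
  · exact h22_hdisc2_Mq M q hqM A hA g hgF hgO'.2 (h2.trans h0)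

variable [CharP (IsLocalRing.ResidueField A) q] [IsAlgClosed (IsLocalRing.ResidueField A)]
  (Sg : Finset (Place (IsLocalRing.ResidueField A)
    ↥(modularFunctionFieldFullC (IsLocalRing.ResidueField A) M)))
  (hSg : ∀ Q ∈ Sg, Q ≠ h11_placeInftyC (IsLocalRing.ResidueField A) M ∧
    h96_frobPerm (h84_isFrobChart_jk M q hqM A hA) Q ≠
      h11_placeInftyC (IsLocalRing.ResidueField A) M ∧
    h96_frobPerm (h84_isFrobChart_jk M q hqM A hA)
      (h96_frobPerm (h84_isFrobChart_jk M q hqM A hA) Q) = Q)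
  (n0 : ℕ)
  (hnode : ∀ n, n0 ≤ n → ∀ a : ↥(modularFunctionFieldFullC (IsLocalRing.ResidueField A) M) ×
      ↥(modularFunctionFieldFullC (IsLocalRing.ResidueField A) M),
    a ∈ h51_Rd (h87_D M q hqM A hA) (n • h87_D0 M q hqM) ↔
      (a ∈ h20_P (h11_placeInftyC (IsLocalRing.ResidueField A) M) n ∧
        ∀ Q ∈ Sg, ∃ c : IsLocalRing.ResidueField A,
          h39_Val (h96_frobPerm (h84_isFrobChart_jk M q hqM A hA) Q) a.1 c ∧
            h39_Val Q a.2 c))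

include hSg in
theorem h48_hSg_two : ∀ Q ∈ Sg, Q ≠ h11_placeInftyC (IsLocalRing.ResidueField A) M ∧
    h96_frobPerm (h84_isFrobChart_jk M q hqM A hA) Q ≠
      h11_placeInftyC (IsLocalRing.ResidueField A) M :=
  fun Q hQ => ⟨(hSg Q hQ).1, (hSg Q hQ).2.1⟩

include hnode in
theorem h48_hnode_linf : ∀ n, n0 ≤ n →
    ∀ a : ↥(modularFunctionFieldFullC (IsLocalRing.ResidueField A) M) ×
      ↥(modularFunctionFieldFullC (IsLocalRing.ResidueField A) M),
    a ∈ h51_Rd (h87_D M q hqM A hA) (n • h87_D0 M q hqM) ↔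
      (a.1 ∈ h16_Linf (h11_placeInftyC (IsLocalRing.ResidueField A) M) n ∧
        a.2 ∈ h16_Linf (h11_placeInftyC (IsLocalRing.ResidueField A) M) n) ∧
      ∀ Q ∈ Sg, ∃ c : IsLocalRing.ResidueField A,
        h39_Val (h96_frobPerm (h84_isFrobChart_jk M q hqM A hA) Q) a.1 c ∧ h39_Val Q a.2 c := by
  intro n hn a
  rw [hnode n hn a, h20_mem_P_Linf]

include hSg hnode in
/-- **(I3), K0-rational, component 2, value form**: an inertia-fixed `s ∈ L(n D0)` with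
`q⁻¹ s ∈ O₁` (so `red₁ s = 0`), `s ∈ O₂` and `red₂ s` of value `1` at the non-node point `z`. -/
theorem h48_sep_k0_snd
    (z : Place (IsLocalRing.ResidueField A)
      ↥(modularFunctionFieldFullC (IsLocalRing.ResidueField A) M))
    (hz : z ≠ h11_placeInftyC (IsLocalRing.ResidueField A) M) (hzS : z ∉ Sg) (n : ℕ)
    (hn0 : n0 ≤ n)
    (hn : 2 * h75_genus (IsLocalRing.ResidueField A) (h54_jk (IsLocalRing.ResidueField A) M) +
      Sg.card + 1 ≤ n) :
    ∃ s : ↥(modularFunctionFieldBar (M * q)),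
      s ∈ h69_F0 (M * q) (A.inertiaSubgroupIn ℚ) ∧
      s ∈ riemannRochSpace (n • h87_D0 M q hqM) ∧
      (algebraMap Qb ↥(modularFunctionFieldBar (M * q)) (q : Qb))⁻¹ * s ∈
        (h60_R1 M q hqM A hA).O ∧
      s ∈ (h60_R1 M q hqM A hA).O ∧ (h60_R1 M q hqM A hA).redF s = 0 ∧
      s ∈ (h60_R2 M q hqM A hA).O ∧ h39_Val z ((h60_R2 M q hqM A hA).redF s) 1 := by
  obtain ⟨s2, hs2, hval⟩ := h48_sep_snd (h84_isChart_jk M q hqM A hA)
    (h11_placeInftyC (IsLocalRing.ResidueField A) M) (h87_D M q hqM A hA)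
    (h87_D0 M q hqM) Sg (h96_frobPerm (h84_isFrobChart_jk M q hqM A hA))
    (h48_hSg_two M q hqM A hA Sg hSg) n0 (h48_hnode_linf M q hqM A hA Sg n0 hnode) z hz hzS n hn0 hn
  obtain ⟨g, hgF, hgL, hg1, hg2, hr1, hr2, hd1, -⟩ := h48_lift_k0 M q hqM A hA n _ hs2
  exact ⟨g, hgF, hgL, hd1 rfl, hg1, hr1, hg2, by rw [hr2]; exact hval⟩

include hSg hnode in
/-- **(I3), K0-rational, component 2, exact pole order**: an inertia-fixed `s ∈ L(n D0)` with
`q⁻¹ s ∈ O₁`, `s ∈ O₂`, `red₂ s ≠ 0` of pole order exactly `n` at the cusp. -/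
theorem h48_exact_k0_snd (n : ℕ) (hn0 : n0 ≤ n)
    (hn : 2 * h75_genus (IsLocalRing.ResidueField A) (h54_jk (IsLocalRing.ResidueField A) M) +
      Sg.card + 1 ≤ n) :
    ∃ s : ↥(modularFunctionFieldBar (M * q)),
      s ∈ h69_F0 (M * q) (A.inertiaSubgroupIn ℚ) ∧
      s ∈ riemannRochSpace (n • h87_D0 M q hqM) ∧
      (algebraMap Qb ↥(modularFunctionFieldBar (M * q)) (q : Qb))⁻¹ * s ∈
        (h60_R1 M q hqM A hA).O ∧
      s ∈ (h60_R1 M q hqM A hA).O ∧ (h60_R1 M q hqM A hA).redF s = 0 ∧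
      s ∈ (h60_R2 M q hqM A hA).O ∧ (h60_R2 M q hqM A hA).redF s ≠ 0 ∧
      (h11_placeInftyC (IsLocalRing.ResidueField A) M).ord ((h60_R2 M q hqM A hA).redF s) =
        -(n : ℤ) := by
  obtain ⟨s2, hs20, hs2, hord⟩ := h48_exact_snd (h84_isChart_jk M q hqM A hA)
    (h11_placeInftyC (IsLocalRing.ResidueField A) M) (h87_D M q hqM A hA)
    (h87_D0 M q hqM) Sg (h96_frobPerm (h84_isFrobChart_jk M q hqM A hA))
    (h48_hSg_two M q hqM A hA Sg hSg) n0 (h48_hnode_linf M q hqM A hA Sg n0 hnode) n hn0 hn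
  obtain ⟨g, hgF, hgL, hg1, hg2, hr1, hr2, hd1, -⟩ := h48_lift_k0 M q hqM A hA n _ hs2
  exact ⟨g, hgF, hgL, hd1 rfl, hg1, hr1, hg2, by rw [hr2]; exact hs20, by rw [hr2]; exact hord⟩

include hSg hnode in
/-- **(I3), K0-rational, component 1, value form**: an inertia-fixed `s ∈ L(n D0)` with
`q⁻¹ s ∈ O₂` (so `red₂ s = 0`), `s ∈ O₁` and `red₁ s` of value `1` at the point `z`, which is
not a node point `Φ Q`. -/
theorem h48_sep_k0_fst
    (z : Place (IsLocalRing.ResidueField A)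
      ↥(modularFunctionFieldFullC (IsLocalRing.ResidueField A) M))
    (hz : z ≠ h11_placeInftyC (IsLocalRing.ResidueField A) M)
    (hzS : ∀ Q ∈ Sg, z ≠ h96_frobPerm (h84_isFrobChart_jk M q hqM A hA) Q) (n : ℕ)
    (hn0 : n0 ≤ n)
    (hn : 2 * h75_genus (IsLocalRing.ResidueField A) (h54_jk (IsLocalRing.ResidueField A) M) +
      Sg.card + 1 ≤ n) :
    ∃ s : ↥(modularFunctionFieldBar (M * q)),
      s ∈ h69_F0 (M * q) (A.inertiaSubgroupIn ℚ) ∧
      s ∈ riemannRochSpace (n • h87_D0 M q hqM) ∧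
      (algebraMap Qb ↥(modularFunctionFieldBar (M * q)) (q : Qb))⁻¹ * s ∈
        (h60_R2 M q hqM A hA).O ∧
      s ∈ (h60_R2 M q hqM A hA).O ∧ (h60_R2 M q hqM A hA).redF s = 0 ∧
      s ∈ (h60_R1 M q hqM A hA).O ∧ h39_Val z ((h60_R1 M q hqM A hA).redF s) 1 := by
  obtain ⟨s1, hs1, hval⟩ := h48_sep_fst (h84_isChart_jk M q hqM A hA)
    (h11_placeInftyC (IsLocalRing.ResidueField A) M) (h87_D M q hqM A hA)
    (h87_D0 M q hqM) Sg (h96_frobPerm (h84_isFrobChart_jk M q hqM A hA))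
    (h48_hSg_two M q hqM A hA Sg hSg) n0 (h48_hnode_linf M q hqM A hA Sg n0 hnode) z hz hzS n hn0 hn
  obtain ⟨g, hgF, hgL, hg1, hg2, hr1, hr2, -, hd2⟩ := h48_lift_k0 M q hqM A hA n _ hs1
  exact ⟨g, hgF, hgL, hd2 rfl, hg2, hr2, hg1, by rw [hr1]; exact hval⟩

include hSg hnode in
/-- **(I3), K0-rational, component 1, exact pole order**. -/
theorem h48_exact_k0_fst (n : ℕ) (hn0 : n0 ≤ n)
    (hn : 2 * h75_genus (IsLocalRing.ResidueField A) (h54_jk (IsLocalRing.ResidueField A) M) +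
      Sg.card + 1 ≤ n) :
    ∃ s : ↥(modularFunctionFieldBar (M * q)),
      s ∈ h69_F0 (M * q) (A.inertiaSubgroupIn ℚ) ∧
      s ∈ riemannRochSpace (n • h87_D0 M q hqM) ∧
      (algebraMap Qb ↥(modularFunctionFieldBar (M * q)) (q : Qb))⁻¹ * s ∈
        (h60_R2 M q hqM A hA).O ∧
      s ∈ (h60_R2 M q hqM A hA).O ∧ (h60_R2 M q hqM A hA).redF s = 0 ∧
      s ∈ (h60_R1 M q hqM A hA).O ∧ (h60_R1 M q hqM A hA).redF s ≠ 0 ∧
      (h11_placeInftyC (IsLocalRing.ResidueField A) M).ord ((h60_R1 M q hqM A hA).redF s) =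
        -(n : ℤ) := by
  obtain ⟨s1, hs10, hs1, hord⟩ := h48_exact_fst (h84_isChart_jk M q hqM A hA)
    (h11_placeInftyC (IsLocalRing.ResidueField A) M) (h87_D M q hqM A hA)
    (h87_D0 M q hqM) Sg (h96_frobPerm (h84_isFrobChart_jk M q hqM A hA))
    (h48_hSg_two M q hqM A hA Sg hSg) n0 (h48_hnode_linf M q hqM A hA Sg n0 hnode) n hn0 hn
  obtain ⟨g, hgF, hgL, hg1, hg2, hr1, hr2, -, hd2⟩ := h48_lift_k0 M q hqM A hA n _ hs1
  exact ⟨g, hgF, hgL, hd2 rfl, hg2, hr2, hg1, by rw [hr1]; exact hs10, by rw [hr1]; exact hord⟩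

end SepK0

end Fermat.Agent.S40

end
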