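import Mathlib
import Fermat.Agent.S40.h48_SepK0

/-!
# S40 / row W2 (I3): the binder `hsep` of `h31_twist_incl` at a charted level  (helper48)

Same setting as `S40/h48_SepK0.lean` (node datum `(Sg, hSg, n0, hnode)` of `h87_node_closed` as
hypotheses).

* `h48_hsep_k0` : for every place `z ∉ Sg` of `Fb` (the cusp `Qinf` INCLUDED) there is an
  inertia-fixed `s ∈ L(ns D0)` with `q⁻¹ s ∈ O₁`, `s ∈ O₂`, `red₂ s ≠ 0` and
  `ord_z (red₂ s) ≤ -(ns Qinf)(z)`  (i.e. `red₂ s` is a unit at `z ≠ Qinf`, resp. has pole order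
  exactly `ns` at `z = Qinf`).
* `h48_hsep_incl` : the same for any indexing `Q2 : Z → Place` of the nodes covering `Sg`, in the
  verbatim shape of the binder `hsep` of `h31_twist_incl`.
-/

set_option autoImplicit false
set_option synthInstance.maxHeartbeats 400000

noncomputable section

open AlgebraicCurve ModularCurve Module
open Fermat.Agent.S18 Fermat.Agent.S24 Fermat.Agent.S27 Fermat.Agent.S37 Fermat.Agent.S34
open Fermat.Agent.S36

namespace Fermat.Agent.S40

local notation "Qb" => AlgebraicClosure ℚ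

section Aux

variable {k Fb : Type*} [Field k] [Field Fb] [Algebra k Fb]

theorem h48_nsmul_single_same (Q : Place k Fb) (n : ℕ) :
    (n • Finsupp.single Q (1 : ℤ) : Divisor k Fb) Q = n := by
  rw [Finsupp.smul_apply, Finsupp.single_eq_same, nsmul_eq_mul, mul_one]

theorem h48_nsmul_single_ne (Q : Place k Fb) (n : ℕ) {z : Place k Fb} (hz : z ≠ Q) :
    (n • Finsupp.single Q (1 : ℤ) : Divisor k Fb) z = 0 := by
  rw [Finsupp.smul_apply, Finsupp.single_eq_of_ne hz, smul_zero]

theorem h48_val_one_ne_zero (z : Place k Fb) {g : Fb} (h : h39_Val z g 1) : g ≠ 0 := by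
  rintro rfl
  rcases h with h | h
  · exact one_ne_zero ((map_eq_zero (algebraMap k Fb)).mp h.symm)
  · rw [zero_sub, h35_ord_neg, h35_ord_algebraMap] at h
    exact lt_irrefl _ h

end Aux

section SepIncl

variable (M q : ℕ) [NeZero M] [NeZero q] [Fact q.Prime] (hqM : ¬ q ∣ M)
  (A : ValuationSubring Qb) (hA : A.LiesOverPrime q)
  [CharP (IsLocalRing.ResidueField A) q] [IsAlgClosed (IsLocalRing.ResidueField A)]
  (Sg : Finset (Place (IsLocalRing.ResidueField A)
    ↥(modularFunctionFieldFullC (IsLocalRing.ResidueField A) M)))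
  (hSg : ∀ Q ∈ Sg, Q ≠ h11_placeInftyC (IsLocalRing.ResidueField A) M ∧
    h96_frobPerm (h84_isFrobChart_jk M q hqM A hA) Q ≠
      h11_placeInftyC (IsLocalRing.ResidueField A) M ∧
    h96_frobPerm (h84_isFrobChart_jk M q hqM A hA)
      (h96_frobPerm (h84_isFrobChart_jk M q hqM A hA) Q) = Q)
  (n0 : ℕ)
  (hnode : ∀ n, n0 ≤ n → ∀ a : ↥(modularFunctionFieldFullC (IsLocalRing.ResidueField A) M) ×
      ↥(modularFunctionFieldFullC (IsLocalRing.ResidueField A) M),
    a ∈ h51_Rd (h87_D M q hqM A hA) (n • h87_D0 M q hqM) ↔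
      (a ∈ h20_P (h11_placeInftyC (IsLocalRing.ResidueField A) M) n ∧
        ∀ Q ∈ Sg, ∃ c : IsLocalRing.ResidueField A,
          h39_Val (h96_frobPerm (h84_isFrobChart_jk M q hqM A hA) Q) a.1 c ∧
            h39_Val Q a.2 c))

include hSg hnode in
/-- **`hsep`, K0-rational**: a separator at every place `z ∉ Sg` (the cusp included). -/
theorem h48_hsep_k0
    (z : Place (IsLocalRing.ResidueField A)
      ↥(modularFunctionFieldFullC (IsLocalRing.ResidueField A) M))
    (hzS : z ∉ Sg) :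
    ∃ (s : ↥(modularFunctionFieldBar (M * q))) (ns : ℕ),
      s ∈ h69_F0 (M * q) (A.inertiaSubgroupIn ℚ) ∧
      s ∈ riemannRochSpace (ns • h87_D0 M q hqM) ∧
      (algebraMap Qb ↥(modularFunctionFieldBar (M * q)) (q : Qb))⁻¹ * s ∈
        (h60_R1 M q hqM A hA).O ∧
      s ∈ (h60_R2 M q hqM A hA).O ∧ (h60_R2 M q hqM A hA).redF s ≠ 0 ∧
      z.ord ((h60_R2 M q hqM A hA).redF s) ≤
        -((ns • Finsupp.single (h11_placeInftyC (IsLocalRing.ResidueField A) M) (1 : ℤ) :
          Divisor (IsLocalRing.ResidueField A)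
            ↥(modularFunctionFieldFullC (IsLocalRing.ResidueField A) M)) z) := by
  obtain ⟨n, hn1, hn2⟩ : ∃ n : ℕ, n0 ≤ n ∧
      2 * h75_genus (IsLocalRing.ResidueField A) (h54_jk (IsLocalRing.ResidueField A) M) +
        Sg.card + 1 ≤ n := ⟨_, Nat.le_add_right _ _, Nat.le_add_left _ _⟩
  by_cases hz : z = h11_placeInftyC (IsLocalRing.ResidueField A) M
  · obtain ⟨s, hsF, hsL, hs1, -, -, hs2, hs0, hord⟩ :=
      h48_exact_k0_snd M q hqM A hA Sg hSg n0 hnode n hn1 hn2
    refine ⟨s, n, hsF, hsL, hs1, hs2, hs0, ?_⟩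
    subst hz
    rw [h48_nsmul_single_same]
    exact hord.le
  · obtain ⟨s, hsF, hsL, hs1, -, -, hs2, hval⟩ :=
      h48_sep_k0_snd M q hqM A hA Sg hSg n0 hnode z hz hzS n hn1 hn2
    refine ⟨s, n, hsF, hsL, hs1, hs2, h48_val_one_ne_zero z hval, ?_⟩
    rw [h48_nsmul_single_ne _ n hz, h39_ord_eq_zero_of_val z hval one_ne_zero, neg_zero]

include hSg hnode in
/-- **The binder `hsep` of `h31_twist_incl`, verbatim**, for any indexing `Q2 : Z → Place` of
the nodes of the second component which covers `Sg`. -/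
theorem h48_hsep_incl {Z : Type*}
    (Q2 : Z → Place (IsLocalRing.ResidueField A)
      ↥(modularFunctionFieldFullC (IsLocalRing.ResidueField A) M))
    (hQ2 : ∀ Q ∈ Sg, ∃ ν, Q2 ν = Q) :
    ∀ z : Place (IsLocalRing.ResidueField A)
        ↥(modularFunctionFieldFullC (IsLocalRing.ResidueField A) M),
      (∀ ν, Q2 ν ≠ z) →
      ∃ (s : ↥(modularFunctionFieldBar (M * q))) (ns : ℕ),
        s ∈ riemannRochSpace (ns • h87_D0 M q hqM) ∧
        (algebraMap Qb ↥(modularFunctionFieldBar (M * q)) (q : Qb))⁻¹ * s ∈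
          (h60_R1 M q hqM A hA).O ∧
        s ∈ (h60_R2 M q hqM A hA).O ∧ (h60_R2 M q hqM A hA).redF s ≠ 0 ∧
        z.ord ((h60_R2 M q hqM A hA).redF s) ≤
          -((ns • Finsupp.single (h11_placeInftyC (IsLocalRing.ResidueField A) M) (1 : ℤ) :
            Divisor (IsLocalRing.ResidueField A)
              ↥(modularFunctionFieldFullC (IsLocalRing.ResidueField A) M)) z) := by
  intro z hz
  have hzS : z ∉ Sg := fun h => by
    obtain ⟨ν, hν⟩ := hQ2 z h
    exact hz ν hν
  obtain ⟨s, ns, -, hsL, hs1, hs2, hs0, hord⟩ := h48_hsep_k0 M q hqM A hA Sg hSg n0 hnode z hzS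
  exact ⟨s, ns, hsL, hs1, hs2, hs0, hord⟩

end SepIncl

end Fermat.Agent.S40

end
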