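import Mathlib
import Fermat.Agent.S34.h87_NodeInst
import Fermat.Agent.S40.h48_Sep

/-!
# S40 / row W2 (I3): separators on the special fibre of `X₀(M q)`, modular instance  (helper48)

`q ∤ M` prime (charted level), `A` over `q`, `k` the residue field, `Fb = Fb(M)`,
`D = h87_D M q hqM A hA` (the pair lattice), `D0 = h87_D0 M q hqM = (∞) + (0')`,
`Qinf = h11_placeInftyC k M`, `Φ = h96_frobPerm (h84_isFrobChart_jk M q hqM A hA)`.

* `h48_sep_inst` : ONE-STOP package = the output of `h87_node_closed` (node set `Sg`, threshold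
  `n0`, the sharp node theorem `hnode`) TOGETHER WITH the four separator statements for every
  `n > n0`:
  (a)  `z ≠ Qinf`, `z ∉ Sg`  ⟹  `(0, s₂) ∈ red (L(n D0) ∩ O)` with `s₂(z) = 1`;
  (b)  `(0, s₂) ∈ red (L(n D0) ∩ O)` with `s₂ ≠ 0`, `ord_Qinf s₂ = -n`;
  (a′) `z ≠ Qinf`, `z ∉ Φ Sg` ⟹  `(s₁, 0) ∈ red (L(n D0) ∩ O)` with `s₁(z) = 1`;
  (b′) `(s₁, 0) ∈ red (L(n D0) ∩ O)` with `s₁ ≠ 0`, `ord_Qinf s₁ = -n`.
-/

set_option autoImplicit false
set_option synthInstance.maxHeartbeats 400000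

noncomputable section

open AlgebraicCurve ModularCurve Module
open Fermat.Agent.S18 Fermat.Agent.S24 Fermat.Agent.S27 Fermat.Agent.S37 Fermat.Agent.S34

namespace Fermat.Agent.S40

local notation "Qb" => AlgebraicClosure ℚ

section SepInst

variable (M q : ℕ) [NeZero M] [NeZero q] [Fact q.Prime] (hqM : ¬ q ∣ M)
  (A : ValuationSubring Qb) (hA : A.LiesOverPrime q)
  [CharP (IsLocalRing.ResidueField A) q] [IsAlgClosed (IsLocalRing.ResidueField A)]

set_option maxHeartbeats 1600000 in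
/-- **(I3) for `h87_D`, one-stop**: the closed node theorem together with the separators. -/
theorem h48_sep_inst (hch : 5 ≤ q ∨ 2 ∣ M ∨ 3 ∣ M) :
    ∃ Sg : Finset (Place (IsLocalRing.ResidueField A)
        ↥(modularFunctionFieldFullC (IsLocalRing.ResidueField A) M)),
      (∀ Q ∈ Sg, Q ≠ h11_placeInftyC (IsLocalRing.ResidueField A) M ∧
        h96_frobPerm (h84_isFrobChart_jk M q hqM A hA) Q ≠
          h11_placeInftyC (IsLocalRing.ResidueField A) M ∧
        h96_frobPerm (h84_isFrobChart_jk M q hqM A hA)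
          (h96_frobPerm (h84_isFrobChart_jk M q hqM A hA) Q) = Q) ∧
      ∃ n0 : ℕ, 2 * h75_genus Qb (h59_jbar (M * q)) ≤ n0 ∧
        2 * h75_genus (IsLocalRing.ResidueField A) (h54_jk (IsLocalRing.ResidueField A) M) +
          Sg.card ≤ n0 ∧
        (∀ n, n0 ≤ n → ∀ a : ↥(modularFunctionFieldFullC (IsLocalRing.ResidueField A) M) ×
            ↥(modularFunctionFieldFullC (IsLocalRing.ResidueField A) M),
          a ∈ h51_Rd (h87_D M q hqM A hA) (n • h87_D0 M q hqM) ↔
            (a ∈ h20_P (h11_placeInftyC (IsLocalRing.ResidueField A) M) n ∧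
              ∀ Q ∈ Sg, ∃ c : IsLocalRing.ResidueField A,
                h39_Val (h96_frobPerm (h84_isFrobChart_jk M q hqM A hA) Q) a.1 c ∧
                  h39_Val Q a.2 c)) ∧
        (∀ n, n0 < n → ∀ z : Place (IsLocalRing.ResidueField A)
            ↥(modularFunctionFieldFullC (IsLocalRing.ResidueField A) M),
          z ≠ h11_placeInftyC (IsLocalRing.ResidueField A) M → z ∉ Sg →
          ∃ s2 : ↥(modularFunctionFieldFullC (IsLocalRing.ResidueField A) M),
            ((0 : ↥(modularFunctionFieldFullC (IsLocalRing.ResidueField A) M)), s2) ∈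
              h51_Rd (h87_D M q hqM A hA) (n • h87_D0 M q hqM) ∧ h39_Val z s2 1) ∧
        (∀ n, n0 < n →
          ∃ s2 : ↥(modularFunctionFieldFullC (IsLocalRing.ResidueField A) M), s2 ≠ 0 ∧
            ((0 : ↥(modularFunctionFieldFullC (IsLocalRing.ResidueField A) M)), s2) ∈
              h51_Rd (h87_D M q hqM A hA) (n • h87_D0 M q hqM) ∧
            (h11_placeInftyC (IsLocalRing.ResidueField A) M).ord s2 = -(n : ℤ)) ∧
        (∀ n, n0 < n → ∀ z : Place (IsLocalRing.ResidueField A)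
            ↥(modularFunctionFieldFullC (IsLocalRing.ResidueField A) M),
          z ≠ h11_placeInftyC (IsLocalRing.ResidueField A) M →
          (∀ Q ∈ Sg, z ≠ h96_frobPerm (h84_isFrobChart_jk M q hqM A hA) Q) →
          ∃ s1 : ↥(modularFunctionFieldFullC (IsLocalRing.ResidueField A) M),
            (s1, (0 : ↥(modularFunctionFieldFullC (IsLocalRing.ResidueField A) M))) ∈
              h51_Rd (h87_D M q hqM A hA) (n • h87_D0 M q hqM) ∧ h39_Val z s1 1) ∧
        (∀ n, n0 < n →
          ∃ s1 : ↥(modularFunctionFieldFullC (IsLocalRing.ResidueField A) M), s1 ≠ 0 ∧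
            (s1, (0 : ↥(modularFunctionFieldFullC (IsLocalRing.ResidueField A) M))) ∈
              h51_Rd (h87_D M q hqM A hA) (n • h87_D0 M q hqM) ∧
            (h11_placeInftyC (IsLocalRing.ResidueField A) M).ord s1 = -(n : ℤ)) := by
  obtain ⟨Sg, hSg, n0, h1, h2, hnode⟩ := h87_node_closed M q hqM A hA hch
  have hx := h84_isChart_jk M q hqM A hA
  have hSg' : ∀ Q ∈ Sg, Q ≠ h11_placeInftyC (IsLocalRing.ResidueField A) M ∧
      h96_frobPerm (h84_isFrobChart_jk M q hqM A hA) Q ≠
        h11_placeInftyC (IsLocalRing.ResidueField A) M := fun Q hQ =>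
    ⟨(hSg Q hQ).1, (hSg Q hQ).2.1⟩
  have hnode' : ∀ n, n0 ≤ n → ∀ a : ↥(modularFunctionFieldFullC (IsLocalRing.ResidueField A) M) ×
      ↥(modularFunctionFieldFullC (IsLocalRing.ResidueField A) M),
      a ∈ h51_Rd (h87_D M q hqM A hA) (n • h87_D0 M q hqM) ↔
        (a.1 ∈ h16_Linf (h11_placeInftyC (IsLocalRing.ResidueField A) M) n ∧
          a.2 ∈ h16_Linf (h11_placeInftyC (IsLocalRing.ResidueField A) M) n) ∧
        ∀ Q ∈ Sg, ∃ c : IsLocalRing.ResidueField A,
          h39_Val (h96_frobPerm (h84_isFrobChart_jk M q hqM A hA) Q) a.1 c ∧ h39_Val Q a.2 c := by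
    intro n hn a
    rw [hnode n hn a, h20_mem_P_Linf]
  refine ⟨Sg, hSg, n0, h1, h2, hnode, ?_, ?_, ?_, ?_⟩
  · intro n hn z hz hzS
    exact h48_sep_snd hx (h11_placeInftyC (IsLocalRing.ResidueField A) M) (h87_D M q hqM A hA)
      (h87_D0 M q hqM) Sg (h96_frobPerm (h84_isFrobChart_jk M q hqM A hA)) hSg' n0 hnode' z hz hzS
      n hn.le (by omega)
  · intro n hn
    exact h48_exact_snd hx (h11_placeInftyC (IsLocalRing.ResidueField A) M) (h87_D M q hqM A hA)
      (h87_D0 M q hqM) Sg (h96_frobPerm (h84_isFrobChart_jk M q hqM A hA)) hSg' n0 hnode'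
      n hn.le (by omega)
  · intro n hn z hz hzS
    exact h48_sep_fst hx (h11_placeInftyC (IsLocalRing.ResidueField A) M) (h87_D M q hqM A hA)
      (h87_D0 M q hqM) Sg (h96_frobPerm (h84_isFrobChart_jk M q hqM A hA)) hSg' n0 hnode' z hz hzS
      n hn.le (by omega)
  · intro n hn
    exact h48_exact_fst hx (h11_placeInftyC (IsLocalRing.ResidueField A) M) (h87_D M q hqM A hA)
      (h87_D0 M q hqM) Sg (h96_frobPerm (h84_isFrobChart_jk M q hqM A hA)) hSg' n0 hnode'
      n hn.le (by omega)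

end SepInst

end Fermat.Agent.S40

end
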