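import Mathlib

/-!
# S40, layer (BRIDGE): the generic cores (helper50)

Mathlib-only statements about abelian groups.

* `h50_bridge_galois` : **(G)** an additive map `Δ : J → Jb` which kills the torsion of a divisible
  group `J` and intertwines an endomorphism `s` of `J` with an endomorphism `φ` of `Jb` having
  finitely many fixed points vanishes on every `s`-fixed element.
* `h50_bridge_abstract` : **(B1'')** if `Pb ∘ sp` kills torsion, `sp` is onto, `J` is divisible and
  every element of `J` is fixed by some `s` lying over a `φ` with finitely many fixed points and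
  commuting with `Pb`, then `Pb = 0`.
* `h50_bridge_eigen` : an eigenvector of order `p` of an operator which vanishes has eigenvalue
  divisible by `p`.
* `h50_divisible_to_finsupp_eq_zero` : an additive map from a divisible group to a group of
  finitely supported integer functions (divisors) is zero.
-/

set_option autoImplicit false

namespace Fermat.Agent.S40

section Galois

variable {J Jb : Type*} [AddCommGroup J] [AddCommGroup Jb]

/-- **(G)** `Δ` kills torsion, `J` is divisible, `Δ ∘ s = φ ∘ Δ` and `φ` has finitely many fixed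
points: then `Δ` vanishes on the `s`-fixed elements. -/
theorem h50_bridge_galois (Δ : J →+ Jb) (s : J →+ J) (φ : Jb →+ Jb)
    (hcomm : ∀ y : J, Δ (s y) = φ (Δ y))
    (htors : ∀ (z : J) (n : ℕ), 0 < n → n • z = 0 → Δ z = 0)
    (hdiv : ∀ n : ℕ, n ≠ 0 → ∀ y : J, ∃ y' : J, n • y' = y)
    (hfin : Set.Finite {c : Jb | φ c = c})
    (y : J) (hy : s y = y) : Δ y = 0 := by
  classical
  -- the subgroup of fixed points of `φ`
  let H : AddSubgroup Jb := (φ - AddMonoidHom.id Jb).ker
  have hH : ∀ c : Jb, c ∈ H ↔ φ c = c := by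
    intro c
    show (φ - AddMonoidHom.id Jb) c = 0 ↔ φ c = c
    rw [AddMonoidHom.sub_apply, AddMonoidHom.id_apply, sub_eq_zero]
  have hHfin : Finite H := by
    have h1 : (H : Set Jb) = {c : Jb | φ c = c} := by
      ext c
      exact hH c
    have h2 : Set.Finite (H : Set Jb) := by rw [h1]; exact hfin
    exact h2.to_subtype
  set n : ℕ := Nat.card H with hn
  have hn0 : n ≠ 0 := Nat.card_pos.ne'
  obtain ⟨y', hy'⟩ := hdiv n hn0 y
  -- `w := s y' - y'` is torsion
  have hw : n • (s y' - y') = 0 := by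
    rw [smul_sub, ← map_nsmul, hy', hy, sub_self]
  have hΔw : Δ (s y' - y') = 0 := htors _ n (Nat.pos_of_ne_zero hn0) hw
  have hfix : φ (Δ y') = Δ y' := by
    rw [← hcomm]
    have := hΔw
    rw [map_sub, sub_eq_zero] at this
    exact this
  have hmem : Δ y' ∈ H := (hH _).2 hfix
  have hcard : n • (⟨Δ y', hmem⟩ : H) = 0 := card_nsmul_eq_zero'
  have hcard' : n • Δ y' = 0 := by
    have := congrArg (fun c : H => (c : Jb)) hcard
    simpa using this
  rw [← hy', map_nsmul, hcard']

/-- **(B1'')**, abstract form.  `sp : J → Jb` onto, `J` divisible, `Pb ∘ sp` kills torsion, and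
every `y : J` is fixed by an endomorphism `s` of `J` lying over an endomorphism `φ` of `Jb` which
commutes with `Pb` and has finitely many fixed points.  Then `Pb = 0`. -/
theorem h50_bridge_abstract (sp : J →+ Jb) (Pb : Jb →+ Jb)
    (hsp : Function.Surjective sp)
    (htors : ∀ (z : J) (n : ℕ), 0 < n → n • z = 0 → Pb (sp z) = 0)
    (hdiv : ∀ n : ℕ, n ≠ 0 → ∀ y : J, ∃ y' : J, n • y' = y)
    (hfrob : ∀ y : J, ∃ (s : J →+ J) (φ : Jb →+ Jb), s y = y ∧ (∀ z : J, sp (s z) = φ (sp z)) ∧
      (∀ c : Jb, Pb (φ c) = φ (Pb c)) ∧ Set.Finite {c : Jb | φ c = c})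
    (c : Jb) : Pb c = 0 := by
  obtain ⟨y, rfl⟩ := hsp c
  obtain ⟨s, φ, hsy, hsφ, hPφ, hfin⟩ := hfrob y
  have key := h50_bridge_galois (Pb.comp sp) s φ
    (fun z => by
      rw [AddMonoidHom.comp_apply, AddMonoidHom.comp_apply, hsφ, hPφ])
    (fun z n hn hz => by
      rw [AddMonoidHom.comp_apply]
      exact htors z n hn hz)
    hdiv hfin y hsy
  rwa [AddMonoidHom.comp_apply] at key

/-- An element of order dividing a prime `p` which is an eigenvector with eigenvalue `a` of an
operator vanishing on it: either it is zero or `p ∣ a`. -/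
theorem h50_bridge_eigen {p : ℕ} (hp : p.Prime) (c : Jb) (hpc : p • c = 0) (a : ℤ)
    (hac : a • c = 0) (hc : c ≠ 0) : (p : ℤ) ∣ a := by
  by_contra hdvd
  have hcop : IsCoprime (p : ℤ) a := by
    rw [Int.isCoprime_iff_gcd_eq_one]
    have hpp : Prime (p : ℤ) := Nat.prime_iff_prime_int.mp hp
    have := (Int.isCoprime_iff_gcd_eq_one).1 ((Prime.coprime_iff_not_dvd hpp).2 hdvd)
    exact this
  obtain ⟨u, v, huv⟩ := hcop
  apply hc
  have h1 : ((u * (p : ℤ) + v * a) : ℤ) • c = c := by rw [huv, one_smul]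
  rw [← h1, add_smul, mul_smul, mul_smul, hac, smul_zero, add_zero]
  have : ((p : ℤ)) • c = 0 := by
    rw [natCast_zsmul]
    exact hpc
  rw [this, smul_zero]

end Galois

section Free

variable {J ι : Type*} [AddCommGroup J]

/-- An additive map from a divisible group to a group of finitely supported integer-valued
functions is zero. -/
theorem h50_divisible_to_finsupp_eq_zero
    (hdiv : ∀ n : ℕ, n ≠ 0 → ∀ y : J, ∃ y' : J, n • y' = y)
    (f : J →+ (ι →₀ ℤ)) : f = 0 := by
  ext y i
  rw [AddMonoidHom.zero_apply, Finsupp.zero_apply]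
  by_contra h
  obtain ⟨a, ha⟩ : ∃ a : ℤ, f y i = a := ⟨_, rfl⟩
  rw [ha] at h
  have hn0 : a.natAbs + 1 ≠ 0 := Nat.succ_ne_zero _
  obtain ⟨y', hy'⟩ := hdiv (a.natAbs + 1) hn0 y
  have h0 : ∀ (n : ℕ) (z : J), f (n • z) i = (n : ℤ) * f z i := by
    intro n z
    rw [map_nsmul, Finsupp.smul_apply, nsmul_eq_mul]
  have h1 : a = ((a.natAbs + 1 : ℕ) : ℤ) * f y' i := by
    rw [← h0, hy', ha]
  have h2 : ((a.natAbs + 1 : ℕ) : ℤ) ∣ a := ⟨_, h1⟩
  have h3 : (a.natAbs + 1) ∣ a.natAbs := by
    have h5 := Int.natAbs_dvd_natAbs.mpr h2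
    rwa [Int.natAbs_natCast] at h5
  have h4 : a.natAbs ≠ 0 := Int.natAbs_ne_zero.mpr h
  have := Nat.le_of_dvd (Nat.pos_of_ne_zero h4) h3
  omega

end Free

end Fermat.Agent.S40
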