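import Mathlib
import Fermat.Agent.S40.h50_TwistW6
import Fermat.Agent.S40.h43_TailPt

/-!
# S40 / (TR) v2, row W6 (W-UB): the generic output in the `h43_rord` vocabulary (helper50)

`h50_twist_w6_rord` = `h50_twist_w6` with every `ord_Q (red_i u_i⁻¹)` rewritten as
`- h43_rord R_i Q u` (`u` any function with `u₁ = c u`, `c` a nonzero constant): the shape
(W6-mod) (a), (b), (c) that the assembly row W9 composes, together with the tube units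
(d), (e1), (e2) for row W7.
-/

set_option autoImplicit false

noncomputable section

open AlgebraicCurve Module

namespace Fermat.Agent.S40

open Fermat.Agent.S18 Fermat.Agent.S34

variable {K F k Fb : Type*} [Field K] [Field F] [Algebra K F] [Field k] [Field Fb] [Algebra k Fb]

/-- The order of the reduction of the inverse of a unit of `R.O` is minus the normalised residue
order. -/
theorem h50_ord_redF_inv (R : h39_RedDatum K F k Fb) (Q : Place k Fb) {u : F} (hu0 : u ≠ 0)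
    (hu : u ∈ R.O) (hu' : u⁻¹ ∈ R.O) : Q.ord (R.redF u⁻¹) = -h43_rord R Q u := by
  rw [← h43_rord_inv R Q hu0,
    h43_rord_of_unit R Q ⟨inv_ne_zero hu0, hu', by rwa [inv_inv]⟩]

/-- `h43_rord` does not see nonzero constant factors. -/
theorem h50_rord_const_mul (R : h39_RedDatum K F k Fb) (Q : Place k Fb) {c : K} (hc : c ≠ 0)
    {u : F} (hu : u ≠ 0) : h43_rord R Q (algebraMap K F c * u) = h43_rord R Q u := by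
  rw [h43_rord_mul R Q ((map_ne_zero _).mpr hc) hu, h43_rord_algebraMap, zero_add]

/-- **W6, generic, `h43_rord` form.** -/
theorem h50_twist_w6_rord [IsAlgClosed k] (R₁ R₂ : h39_RedDatum K F k Fb) (D0 : Divisor K F)
    (Qinf : Place k Fb) {Z : Type*} [Fintype Z] (Q1 Q2 : Z → Place k Fb)
    (hQ1i : Function.Injective Q1) (hQ2i : Function.Injective Q2)
    (hQ1 : ∀ ν, Q1 ν ≠ Qinf) (hQ2 : ∀ ν, Q2 ν ≠ Qinf)
    {xb : Fb} (hxb : h75_IsChart k xb)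
    (n0 : ℕ)
    (hnode : ∀ n, n0 ≤ n → ∀ G : F, G ∈ riemannRochSpace (n • D0) → G ∈ R₁.O → G ∈ R₂.O →
      (R₁.redF G ∈ h16_Linf Qinf n ∧ R₂.redF G ∈ h16_Linf Qinf n) ∧
        ∀ ν, ∃ c : k, h39_Val (Q1 ν) (R₁.redF G) c ∧ h39_Val (Q2 ν) (R₂.redF G) c)
    (p : ℕ) (hp : 0 < p) (π : K) (hπ0 : π ≠ 0) (hπ₁ : π ∈ R₁.A) (hπ₂ : π ∈ R₂.A)
    (u₁ u₂ : F) (hu₁0 : u₁ ≠ 0) (hu₁' : u₁⁻¹ ∈ R₁.O) (hu₁ : u₁ ∈ R₁.O)
    (hu₂' : u₂⁻¹ ∈ R₂.O) (hu₂ : u₂ ∈ R₂.O)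
    (κ : K) (hκ : u₁ = algebraMap K F κ * u₂)
    (u : F) (c : K) (hc : c ≠ 0) (hu : u₁ = algebraMap K F c * u)
    (a : Z → F) (na : ℕ) (ha : ∀ ν, a ν ∈ riemannRochSpace (na • D0))
    (ha₁ : ∀ ν, (algebraMap K F π)⁻¹ * a ν ∈ R₁.O) (ha₂ : ∀ ν, a ν ∈ R₂.O)
    (haρ : ∀ ν, R₁.redF ((algebraMap K F π)⁻¹ * a ν) ≠ 0 ∧
      (Q1 ν).ord (R₁.redF ((algebraMap K F π)⁻¹ * a ν)) = -1)
    (haα : ∀ ν, R₂.redF (a ν) ≠ 0 ∧ (Q2 ν).ord (R₂.redF (a ν)) = 1)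
    (hsep : ∀ z : Place k Fb, (∀ ν, Q2 ν ≠ z) → ∃ (s : F) (ns : ℕ),
      s ∈ riemannRochSpace (ns • D0) ∧ (algebraMap K F π)⁻¹ * s ∈ R₁.O ∧ s ∈ R₂.O ∧
        R₂.redF s ≠ 0 ∧
        z.ord (R₂.redF s) ≤ -((ns • Finsupp.single Qinf (1 : ℤ) : Divisor k Fb) z)) :
    ∃ n1 : ℕ, ∀ n : ℕ, n1 ≤ n → ∀ t θ : ℕ → K,
      (∀ del < p, t del ^ p = θ del * κ * π ^ del ∧ θ del ∈ R₂.A ∧ (θ del)⁻¹ ∈ R₂.A ∧
        θ del ≠ 0) →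
      ∀ Lam : ℕ → F → Prop,
      (∀ del < p, ∀ f : F, Lam del f → f ∈ R₁.O ∧ (algebraMap K F (t del))⁻¹ * f ∈ R₂.O ∧
        f ^ p * u₁⁻¹ ∈ riemannRochSpace ((p * n) • D0)) →
      ∀ W : ℕ → Submodule k (Fb × Fb),
      (∀ del < p, ∀ φ ∈ W del, ∃ f : F, Lam del f ∧
        (R₁.redF f, R₂.redF ((algebraMap K F (t del))⁻¹ * f)) = φ) →
      (∀ del < p, (2 * (n : ℤ) + 2 - 2 * (h75_genus k xb : ℤ) - Fintype.card Z) ≤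
        (finrank k (W del) : ℤ)) →
      (∀ Q : Place k Fb, (∀ ν, Q ≠ Q1 ν) → (p : ℤ) ∣ h43_rord R₁ Q u) ∧
      (∀ Q : Place k Fb, (∀ ν, Q ≠ Q2 ν) → (p : ℤ) ∣ h43_rord R₂ Q u) ∧
      (∀ ν, (p : ℤ) ∣ h43_rord R₁ (Q1 ν) u + h43_rord R₂ (Q2 ν) u) ∧
      (∀ ν, ∀ del < p, (p : ℤ) ∣ h43_rord R₁ (Q1 ν) u + del →
        ∃ f : F, Lam del f ∧ R₁.redF f ≠ 0 ∧
          (p : ℤ) * (Q1 ν).ord (R₁.redF f) = h43_rord R₁ (Q1 ν) u + del ∧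
          R₂.redF ((algebraMap K F (t del))⁻¹ * f) ≠ 0 ∧
          (p : ℤ) * (Q2 ν).ord (R₂.redF ((algebraMap K F (t del))⁻¹ * f)) =
            h43_rord R₂ (Q2 ν) u - del) ∧
      (∀ Q : Place k Fb, (∀ ν, Q ≠ Q1 ν) → ∃ f : F, Lam 0 f ∧ R₁.redF f ≠ 0 ∧
        (Q ≠ Qinf → (p : ℤ) * Q.ord (R₁.redF f) = h43_rord R₁ Q u) ∧
        (Q = Qinf → (p : ℤ) * Q.ord (R₁.redF f) = h43_rord R₁ Q u - (p : ℤ) * n)) ∧
      (∀ Q : Place k Fb, (∀ ν, Q ≠ Q2 ν) → ∃ f : F, Lam 0 f ∧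
        R₂.redF ((algebraMap K F (t 0))⁻¹ * f) ≠ 0 ∧
        (Q ≠ Qinf → (p : ℤ) * Q.ord (R₂.redF ((algebraMap K F (t 0))⁻¹ * f)) =
          h43_rord R₂ Q u) ∧
        (Q = Qinf → (p : ℤ) * Q.ord (R₂.redF ((algebraMap K F (t 0))⁻¹ * f)) =
          h43_rord R₂ Q u - (p : ℤ) * n)) := by
  have hu0 : u ≠ 0 := by
    rintro rfl
    apply hu₁0
    rw [hu, mul_zero]
  have hκ0 : κ ≠ 0 := by
    rintro rfl
    apply hu₁0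
    rw [hκ, map_zero, zero_mul]
  have hu₂0 : u₂ ≠ 0 := by
    rintro rfl
    apply hu₁0
    rw [hκ, mul_zero]
  have e1 : ∀ Q : Place k Fb, Q.ord (R₁.redF u₁⁻¹) = -h43_rord R₁ Q u := by
    intro Q
    rw [h50_ord_redF_inv R₁ Q hu₁0 hu₁ hu₁', hu, h50_rord_const_mul R₁ Q hc hu0]
  have e2 : ∀ Q : Place k Fb, Q.ord (R₂.redF u₂⁻¹) = -h43_rord R₂ Q u := by
    intro Q
    rw [h50_ord_redF_inv R₂ Q hu₂0 hu₂ hu₂', ← h50_rord_const_mul R₂ Q hκ0 hu₂0, ← hκ, hu,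
      h50_rord_const_mul R₂ Q hc hu0]
  obtain ⟨n1, hn1⟩ := h50_twist_w6 R₁ R₂ D0 Qinf Q1 Q2 hQ1i hQ2i hQ1 hQ2 hxb n0 hnode p hp π
    hπ0 hπ₁ hπ₂ u₁ u₂ hu₁0 hu₁' hu₁ hu₂' hu₂ κ hκ a na ha ha₁ ha₂ haρ haα hsep
  refine ⟨n1, fun n hn t θ ht Lam hLam W hW hrk => ?_⟩
  obtain ⟨⟨hi1, hi2⟩, hii, hiv, hv1, hv2⟩ := hn1 n hn t θ ht Lam hLam W hW hrk
  refine ⟨?_, ?_, ?_, ?_, ?_, ?_⟩
  · intro Q hQ
    have h := hi1 Q hQ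
    rw [e1 Q] at h
    exact (dvd_neg.mp h)
  · intro Q hQ
    have h := hi2 Q hQ
    rw [e2 Q] at h
    exact (dvd_neg.mp h)
  · intro ν
    have h := hii ν
    rw [e1, e2, ← neg_add] at h
    exact (dvd_neg.mp h)
  · intro ν del hdel hdvd
    have hdvd' : (p : ℤ) ∣ (Q1 ν).ord (R₁.redF u₁⁻¹) - del := by
      rw [e1, ← neg_add']
      exact (dvd_neg.mpr hdvd)
    obtain ⟨f, hf, h1, h2, h3, h4⟩ := hiv ν del hdel hdvd'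
    rw [e1] at h2
    rw [e2] at h4
    exact ⟨f, hf, h1, by linarith, h3, by linarith⟩
  · intro Q hQ
    obtain ⟨f, hf, h1, h2, h3⟩ := hv1 Q hQ
    rw [e1] at h2 h3
    exact ⟨f, hf, h1, fun h => by linarith [h2 h], fun h => by linarith [h3 h]⟩
  · intro Q hQ
    obtain ⟨f, hf, h1, h2, h3⟩ := hv2 Q hQ
    rw [e2] at h2 h3
    exact ⟨f, hf, h1, fun h => by linarith [h2 h], fun h => by linarith [h3 h]⟩

end Fermat.Agent.S40
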