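import Mathlib
import Fermat.Agent.S40.h15_WNormDatum
import Fermat.Agent.S40.h50_W7Closed
import Fermat.Agent.S40.h50_TwistW6Rord

/-!
# S40 / (TR) rows W7 + W8: the congruence (TR*) for a class, closed (helper50)

Level `M p` (`p ∤ M` an odd prime), `A` over `p`, `I` its inertia group, the W9 binder block
`(Sg, hSg, n0, hnode)`, a W0 pair `(z, w)`, and a representative `(E, u)` of a `p`-torsion class
fixed by the stabiliser of `w` (`p E = div u`).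

* `h50_trstar_nodefun` : with the node functions as binders: the orders
  `h43_rord R₁ (Φ Q) u`, `Q ∈ Sg`, are pairwise congruent modulo `p`
  (the binder `hdiff` of `h67_t8_of_hdiff` / `h23_t8_ord`; the conclusion of the binder `hW7`
  of `h67_rows_of_hdiff` / `h37_rows_of_ord`).
  Proof: the W8 datum `h15w_datum` (`u = w^a u₁`, `u₁ = p^κ u₂`), the jets `h11_jet_chart`,
  and the last conjunct of `h50_jump_mod_div` for the datum `(u₁, u₂, κ)`.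
* `h50_trstar` : the same with the node functions from the count instance `h67_cnt_block`
  (`5 ≤ p ∨ 2 ∣ M ∨ 3 ∣ M`, no elliptic points at level `M`): no open input.
-/

set_option autoImplicit false
set_option synthInstance.maxHeartbeats 400000

noncomputable section

open AlgebraicCurve ModularCurve Module

namespace Fermat.Agent.S40

open Fermat.Agent.S18 Fermat.Agent.S34 Fermat.Agent.S24 Fermat.Agent.S27 Fermat.Agent.S37
  Fermat.Agent.S36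

local notation "Qb" => AlgebraicClosure ℚ

section TRStar

variable (M p : ℕ) [NeZero M] [NeZero p] [Fact p.Prime] (hp2 : p ≠ 2) (hpM : ¬ p ∣ M)
  (A : ValuationSubring Qb) (hA : A.LiesOverPrime p)
  [CharP (IsLocalRing.ResidueField A) p] [IsAlgClosed (IsLocalRing.ResidueField A)]
  (Sg : Finset (Place (IsLocalRing.ResidueField A)
    ↥(modularFunctionFieldFullC (IsLocalRing.ResidueField A) M)))
  (hSg : ∀ Q ∈ Sg, Q ≠ h11_placeInftyC (IsLocalRing.ResidueField A) M ∧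
    h96_frobPerm (h84_isFrobChart_jk M p hpM A hA) Q ≠
      h11_placeInftyC (IsLocalRing.ResidueField A) M ∧
    h96_frobPerm (h84_isFrobChart_jk M p hpM A hA)
      (h96_frobPerm (h84_isFrobChart_jk M p hpM A hA) Q) = Q)
  (n0 : ℕ)
  (hnode : ∀ n, n0 ≤ n → ∀ a : ↥(modularFunctionFieldFullC (IsLocalRing.ResidueField A) M) ×
      ↥(modularFunctionFieldFullC (IsLocalRing.ResidueField A) M),
    a ∈ h51_Rd (h87_D M p hpM A hA) (n • h87_D0 M p hpM) ↔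
      (a ∈ h20_P (h11_placeInftyC (IsLocalRing.ResidueField A) M) n ∧
        ∀ Q ∈ Sg, ∃ c : IsLocalRing.ResidueField A,
          h39_Val (h96_frobPerm (h84_isFrobChart_jk M p hpM A hA) Q) a.1 c ∧
            h39_Val Q a.2 c))

include hp2 hSg hnode in
set_option maxHeartbeats 3200000 in
/-- **(TR*) for a class, node functions as binders.** -/
theorem h50_trstar_nodefun
    (a : {Q // Q ∈ Sg} → ↥(modularFunctionFieldBar (M * p))) (na : ℕ)
    (ha0 : ∀ ν, a ν ∈ h69_F0 (M * p) (A.inertiaSubgroupIn ℚ))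
    (ha : ∀ ν, a ν ∈ riemannRochSpace (na • h87_D0 M p hpM))
    (ha₁ : ∀ ν, (algebraMap Qb ↥(modularFunctionFieldBar (M * p)) (p : Qb))⁻¹ * a ν ∈ (h60_R1 M p hpM A hA).O)
    (ha₂ : ∀ ν, a ν ∈ (h60_R2 M p hpM A hA).O)
    (haρ : ∀ ν : {Q // Q ∈ Sg}, (h60_R1 M p hpM A hA).redF ((algebraMap Qb ↥(modularFunctionFieldBar (M * p)) (p : Qb))⁻¹ * a ν) ≠ 0 ∧
      (h96_frobPerm (h84_isFrobChart_jk M p hpM A hA) ν.1).ord ((h60_R1 M p hpM A hA).redF ((algebraMap Qb ↥(modularFunctionFieldBar (M * p)) (p : Qb))⁻¹ * a ν)) = -1)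
    (haα : ∀ ν : {Q // Q ∈ Sg}, (h60_R2 M p hpM A hA).redF (a ν) ≠ 0 ∧ (ν.1).ord ((h60_R2 M p hpM A hA).redF (a ν)) = 1)
    (ζ : Qb) (hζ : IsPrimitiveRoot ζ p) (z w : Qb) (hz : A.valuation z = 1)
    (hzI : ∀ g ∈ (A.inertiaSubgroupIn ℚ), g z = z) (hw : (1 + w) ^ p = 1 + (p : Qb) * z)
    (u : ↥(modularFunctionFieldBar (M * p))) (hu0 : u ≠ 0)
    (hu : ∀ σ ∈ (A.inertiaSubgroupIn ℚ), σ w = w →
      arithmeticGalois (modularFunctionFieldFull (M * p)) σ • u = u)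
    (E : Divisor Qb ↥(modularFunctionFieldBar (M * p)))
    (hE : ∀ σ ∈ (A.inertiaSubgroupIn ℚ), σ w = w →
      arithmeticGalois (modularFunctionFieldFull (M * p)) σ • E = E)
    (hdiv : ∀ v : Place Qb ↥(modularFunctionFieldBar (M * p)), (p : ℤ) * E v = v.ord u) :
    ∀ Q ∈ Sg, ∀ Q' ∈ Sg, (p : ℤ) ∣
      h43_rord (h60_R1 M p hpM A hA) (h96_frobPerm (h84_isFrobChart_jk M p hpM A hA) Q) u - h43_rord (h60_R1 M p hpM A hA) (h96_frobPerm (h84_isFrobChart_jk M p hpM A hA) Q') u := by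
  intro Q hQ Q' hQ'
  have hpP : p.Prime := Fact.out
  obtain ⟨-, -, -, -, -, -, hw0, -, -, -, -⟩ := h11_eta_spec p hp2 A hA ζ hζ z w hz hzI hw
  -- the W8 datum
  obtain ⟨a', κ, u₁, u₂, hu₁, -, hu₁0, -, hκ, -, ⟨h1O, h1Oi, -⟩, ⟨h2O, h2Oi, -⟩, hfix⟩ :=
    h15w_datum M p hp2 hpM A hA Sg hSg n0 hnode a na ha0 ha ha₁ ha₂ haρ haα ⟨Q, hQ⟩ ζ hζ z w
      hz hzI hw u hu0 hu E hE hdiv
  have hc0 : w ^ a' ≠ 0 := zpow_ne_zero _ hw0
  have hcF : algebraMap Qb ↥(modularFunctionFieldBar (M * p)) (w ^ a') ≠ 0 := (map_ne_zero _).mpr hc0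
  have hu_eq : u = algebraMap Qb ↥(modularFunctionFieldBar (M * p)) (w ^ a') * u₁ := by
    rw [hu₁, mul_div_assoc', mul_div_cancel_left₀ _ hcF]
  -- the jets at the pair `(z, w)`
  obtain ⟨g, J1, J2, -, -, hJa, hJb, hJc, hjet, -, -⟩ :=
    h11_jet_chart M p hp2 hpM A hA ζ hζ z w hz hzI hw
  obtain ⟨hwS, hJb2⟩ := hJb.2
  have hu1S : u₁ ∈ (h25_SH (h60_R1 M p hpM A hA) (h25_rho (M * p) (A.inertiaSubgroupIn ℚ))
      (algebraMap Qb ↥(modularFunctionFieldBar (M * p)) w)) :=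
    h50_mem_SH_of (M * p) (A.inertiaSubgroupIn ℚ) (h60_R1 M p hpM A hA) w h1O fun σ hσ hσw => (hfix σ hσ hσw).1
  have hu1iS : u₁⁻¹ ∈ (h25_SH (h60_R1 M p hpM A hA) (h25_rho (M * p) (A.inertiaSubgroupIn ℚ))
      (algebraMap Qb ↥(modularFunctionFieldBar (M * p)) w)) :=
    h50_mem_SH_of (M * p) (A.inertiaSubgroupIn ℚ) (h60_R1 M p hpM A hA) w h1Oi fun σ hσ hσw => (hfix σ hσ hσw).2.1
  have hu2S : u₂ ∈ (h25_SH (h60_R2 M p hpM A hA) (h25_rho (M * p) (A.inertiaSubgroupIn ℚ))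
      (algebraMap Qb ↥(modularFunctionFieldBar (M * p)) w)) :=
    h50_mem_SH_of (M * p) (A.inertiaSubgroupIn ℚ) (h60_R2 M p hpM A hA) w h2O fun σ hσ hσw => (hfix σ hσ hσw).2.2.1
  have hu2iS : u₂⁻¹ ∈ (h25_SH (h60_R2 M p hpM A hA) (h25_rho (M * p) (A.inertiaSubgroupIn ℚ))
      (algebraMap Qb ↥(modularFunctionFieldBar (M * p)) w)) :=
    h50_mem_SH_of (M * p) (A.inertiaSubgroupIn ℚ) (h60_R2 M p hpM A hA) w h2Oi fun σ hσ hσw => (hfix σ hσ hσw).2.2.2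
  -- the divisor of `u₁`
  have hdvd : ∀ v : Place Qb ↥(modularFunctionFieldBar (M * p)), (p : ℤ) ∣ v.ord u₁ := by
    intro v
    refine ⟨E v, ?_⟩
    rw [hdiv v, hu_eq, Place.ord_mul _ hcF hu₁0, h43_ord_algebraMap, zero_add]
  obtain ⟨E', hdiv', hEdeg', hE'⟩ := h86_datum_div_pair (M * p) p hpP.ne_zero u₁ hu₁0 hdvd
    (A.inertiaSubgroupIn ℚ) w fun σ hσ hσw => (hfix σ hσ hσw).1
  -- W7 for the datum `(u₁, u₂, κ)`: the node orders are congruent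
  have key := (h50_jump_mod_div M p hp2 hpM A hA Sg hSg n0 hnode a na ha0 ha ha₁ ha₂ haρ haα ζ
    hζ z w hz hzI hw J1 J2 hjet hJa.1 hJa.2 (fun _ => hJb2) hJc.1 hJc.2 u₁ u₂ hu1S hu1iS hu2S
    hu2iS κ hu₁0 hκ E' hEdeg' hE' hdiv').2.2.2.2 ⟨Q, hQ⟩ ⟨Q', hQ'⟩
  have hr : ∀ P : Place (IsLocalRing.ResidueField A) ↥(modularFunctionFieldFullC (IsLocalRing.ResidueField A) M), h43_rord (h60_R1 M p hpM A hA) P u = P.ord ((h60_R1 M p hpM A hA).redF u₁) := by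
    intro P
    rw [hu_eq, h50_rord_const_mul (h60_R1 M p hpM A hA) P hc0 hu₁0,
      h43_rord_of_unit (h60_R1 M p hpM A hA) P ⟨hu₁0, h1O, h1Oi⟩]
  rw [hr, hr]
  exact key

include hp2 hSg hnode in
set_option maxHeartbeats 3200000 in
/-- **(TR*) for a class at the charted level, closed.** -/
theorem h50_trstar (hch : 5 ≤ p ∨ 2 ∣ M ∨ 3 ∣ M) (h2 : nuTwo M = 0) (h3 : nuThree M = 0)
    (ζ : Qb) (hζ : IsPrimitiveRoot ζ p) (z w : Qb) (hz : A.valuation z = 1)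
    (hzI : ∀ g ∈ (A.inertiaSubgroupIn ℚ), g z = z) (hw : (1 + w) ^ p = 1 + (p : Qb) * z)
    (u : ↥(modularFunctionFieldBar (M * p))) (hu0 : u ≠ 0)
    (hu : ∀ σ ∈ (A.inertiaSubgroupIn ℚ), σ w = w →
      arithmeticGalois (modularFunctionFieldFull (M * p)) σ • u = u)
    (E : Divisor Qb ↥(modularFunctionFieldBar (M * p)))
    (hE : ∀ σ ∈ (A.inertiaSubgroupIn ℚ), σ w = w →
      arithmeticGalois (modularFunctionFieldFull (M * p)) σ • E = E)
    (hdiv : ∀ v : Place Qb ↥(modularFunctionFieldBar (M * p)), (p : ℤ) * E v = v.ord u) :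
    ∀ Q ∈ Sg, ∀ Q' ∈ Sg, (p : ℤ) ∣
      h43_rord (h60_R1 M p hpM A hA) (h96_frobPerm (h84_isFrobChart_jk M p hpM A hA) Q) u - h43_rord (h60_R1 M p hpM A hA) (h96_frobPerm (h84_isFrobChart_jk M p hpM A hA) Q') u := by
  obtain ⟨T, hT⟩ := h67_cnt_exists_T M p hpM A hA hch
  have := h75_hasPrincipalDivisors (h84_isChart_jk M p hpM A hA)
  obtain ⟨a, na, ha0, ha, ha₁, ha₂, -, haρ, haα⟩ :=
    h53_node_fun (h67_cnt_block M p hpM A hA hch h2 h3 Sg hSg n0 hnode T hT)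
      (fun v => h87_D0_nonneg M p hpM v)
  exact h50_trstar_nodefun M p hp2 hpM A hA Sg hSg n0 hnode a na (fun ν => ha0 ν) ha ha₁ ha₂
    haρ haα ζ hζ z w hz hzI hw u hu0 hu E hE hdiv

end TRStar

end Fermat.Agent.S40

end
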