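import Mathlib
import Fermat.Agent.S40.h50_TwistW6
import Fermat.Agent.S40.h38_JumpGen

/-!
# S40 / (TR) v2: the generic composition of rows W6 and W7 (helper50)

`h50_twist_jump` = `h50_twist_w6` (the lattice count, rows W5/W6) followed by
`h38_jump_of_fill` (helper38, row W7): from

* the node description `hnode` (direction `⟹`), node functions `a ν`, separators `hsep`;
* the jets `J_i : S_i →+* Fb[ε]` on subrings `S_i ≤ R_i.O` with the expansion hypothesis;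
* constants `π0 = η0 w0^p` of `K` (`η0` a unit), units `u1 ∈ S1`, `u2 ∈ S2`, `u1 = π^κ u2`;
* for every `del < p` a `k`-space `W del` of twisted reductions
  `(red₁ f, red₂ (f / w^(κ+del)))` of lattice elements `f` (`Lam del f`), of dimension
  `≥ 2n + 2 - 2g'' - #Z`,

we get: (a), (b), (c) of (W6-mod) for `ord (red_i u_i)`, the constants `Γ₁, Γ₂` with the jump
relation `Γ₂ - Γ₁ = (ord_{Q1 ν} (red₁ u1) - κ) λ` at every node, and (TR*).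
-/

set_option autoImplicit false

noncomputable section

open AlgebraicCurve Module

namespace Fermat.Agent.S40

open Fermat.Agent.S18 Fermat.Agent.S34

variable {K F k Fb : Type*} [Field K] [Field F] [Algebra K F] [Field k] [Field Fb] [Algebra k Fb]

/-- integer powers of a unit of a valuation subring -/
theorem h50_zpow_mem_of_unit (A : ValuationSubring K) {x : K} (hx : x ∈ A) (hx' : x⁻¹ ∈ A)
    (m : ℤ) : x ^ m ∈ A := by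
  cases m with
  | ofNat n =>
    rw [Int.ofNat_eq_natCast, zpow_natCast]
    exact pow_mem hx n
  | negSucc n =>
    rw [zpow_negSucc, ← inv_pow]
    exact pow_mem hx' _

/-- the order of the reduction of the inverse of a unit -/
theorem h50_ord_redF_inv_unit (R : h39_RedDatum K F k Fb) (Q : Place k Fb) {u : F} (hu0 : u ≠ 0)
    (hu : u ∈ R.O) (hu' : u⁻¹ ∈ R.O) : Q.ord (R.redF u⁻¹) = -Q.ord (R.redF u) := by
  have h1 : R.redF u * R.redF u⁻¹ = 1 := by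
    rw [← h39_redF_mul R hu hu', mul_inv_cancel₀ hu0, h39_redF_one]
  rw [eq_inv_of_mul_eq_one_right h1, Place.ord_inv]

/-- **W6 ∘ W7, generic.** -/
theorem h50_twist_jump [IsAlgClosed k] (p : ℕ) [CharP k p] (hp : 0 < p)
    (R₁ R₂ : h39_RedDatum K F k Fb) (D0 : Divisor K F) (Qinf : Place k Fb)
    {Z : Type*} [Fintype Z] (Q1 Q2 : Z → Place k Fb)
    (hQ1i : Function.Injective Q1) (hQ2i : Function.Injective Q2)
    (hQ1 : ∀ ν, Q1 ν ≠ Qinf) (hQ2 : ∀ ν, Q2 ν ≠ Qinf)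
    {xb : Fb} (hxb : h75_IsChart k xb) (n0 : ℕ)
    (hnode : h38_HNode R₁ R₂ D0 Qinf Q1 Q2 n0)
    (S1 S2 : Subring F) (hS1 : ∀ f ∈ S1, f ∈ R₁.O) (hS2 : ∀ f ∈ S2, f ∈ R₂.O)
    (J1 : S1 →+* TrivSqZeroExt Fb Fb) (J2 : S2 →+* TrivSqZeroExt Fb Fb)
    (hjet : h38_HJet R₁ R₂ D0 S1 S2 J1 J2)
    (hJ1 : ∀ f : S1, (J1 f).fst = R₁.redF f) (hJ2 : ∀ f : S2, (J2 f).fst = R₂.redF f)
    (π0 w0 η0 : K) (hπ0 : π0 ≠ 0) (hπ₁ : π0 ∈ R₁.A) (hπ₂ : π0 ∈ R₂.A) (hw0 : w0 ≠ 0)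
    (hη : η0 * w0 ^ p = π0) (hηA : η0 ∈ R₂.A) (hηA' : η0⁻¹ ∈ R₂.A)
    (hηS : algebraMap K F η0 ∈ S2) (hηSi : (algebraMap K F η0)⁻¹ ∈ S2) {lam ηb : k}
    (hηfst : (J2 ⟨algebraMap K F η0, hηS⟩).fst = algebraMap k Fb ηb)
    (hηJ : h38_IsOm J2 ⟨algebraMap K F η0, hηS⟩ (algebraMap k Fb lam))
    {u1 u2 : F} (hu1 : u1 ∈ S1) (hu1i : u1⁻¹ ∈ S1) (hu2 : u2 ∈ S2) (hu2i : u2⁻¹ ∈ S2)
    (hu0 : u1 ≠ 0) {κ : ℤ} (hu12 : u1 = algebraMap K F π0 ^ κ * u2)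
    {ω₁ ω₂ : Fb} (hω₁ : h38_IsOm J1 ⟨u1, hu1⟩ ω₁) (hω₂ : h38_IsOm J2 ⟨u2, hu2⟩ ω₂)
    (a : Z → F) (na : ℕ) (ha : ∀ ν, a ν ∈ riemannRochSpace (na • D0))
    (ha1 : ∀ ν, (algebraMap K F π0)⁻¹ * a ν ∈ S1) (ha2 : ∀ ν, a ν ∈ S2)
    (hJa1 : ∀ ν, ∃ ρ : Fb, J1 ⟨(algebraMap K F π0)⁻¹ * a ν, ha1 ν⟩ = TrivSqZeroExt.inl ρ)
    (hJa2 : ∀ ν, ∃ ab : Fb, J2 ⟨a ν, ha2 ν⟩ = TrivSqZeroExt.inl ab)
    (haρ : ∀ ν, R₁.redF ((algebraMap K F π0)⁻¹ * a ν) ≠ 0 ∧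
      (Q1 ν).ord (R₁.redF ((algebraMap K F π0)⁻¹ * a ν)) = -1)
    (haα : ∀ ν, R₂.redF (a ν) ≠ 0 ∧ (Q2 ν).ord (R₂.redF (a ν)) = 1)
    (hsep : ∀ z : Place k Fb, (∀ ν, Q2 ν ≠ z) → ∃ (s : F) (ns : ℕ),
      s ∈ riemannRochSpace (ns • D0) ∧ (algebraMap K F π0)⁻¹ * s ∈ R₁.O ∧ s ∈ R₂.O ∧
        R₂.redF s ≠ 0 ∧
        z.ord (R₂.redF s) ≤ -((ns • Finsupp.single Qinf (1 : ℤ) : Divisor k Fb) z)) :
    ∃ n1 : ℕ, ∀ n : ℕ, n1 ≤ n → ∀ Lam : ℕ → F → Prop,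
      (∀ del < p, ∀ f : F, Lam del f → f ∈ S1 ∧
        (algebraMap K F (w0 ^ (κ + (del : ℤ))))⁻¹ * f ∈ S2 ∧
        f ^ p * u1⁻¹ ∈ riemannRochSpace ((p * n) • D0)) →
      ∀ W : ℕ → Submodule k (Fb × Fb),
      (∀ del < p, ∀ φ ∈ W del, ∃ f : F, Lam del f ∧
        (R₁.redF f, R₂.redF ((algebraMap K F (w0 ^ (κ + (del : ℤ))))⁻¹ * f)) = φ) →
      (∀ del < p, (2 * (n : ℤ) + 2 - 2 * (h75_genus k xb : ℤ) - Fintype.card Z) ≤
        (finrank k (W del) : ℤ)) →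
      ((∀ Q : Place k Fb, (∀ ν, Q ≠ Q1 ν) → (p : ℤ) ∣ Q.ord (R₁.redF u1)) ∧
        (∀ Q : Place k Fb, (∀ ν, Q ≠ Q2 ν) → (p : ℤ) ∣ Q.ord (R₂.redF u2)) ∧
        (∀ ν, (p : ℤ) ∣ (Q1 ν).ord (R₁.redF u1) + (Q2 ν).ord (R₂.redF u2))) ∧
      (∃ Γ₁ Γ₂ : k, ω₁ = algebraMap k Fb Γ₁ ∧ ω₂ = algebraMap k Fb Γ₂ ∧
        ∀ ν, Γ₂ - Γ₁ = (((Q1 ν).ord (R₁.redF u1) - κ : ℤ) : k) * lam) ∧
      (lam ≠ 0 → ∀ ν ν', (p : ℤ) ∣ (Q1 ν).ord (R₁.redF u1) - (Q1 ν').ord (R₁.redF u1)) := by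
  classical
  have hp' : (0 : ℤ) < (p : ℤ) := by exact_mod_cast hp
  have hη00 : η0 ≠ 0 := by
    rintro rfl
    rw [zero_mul] at hη
    exact hπ0 hη.symm
  have hu20 : u2 ≠ 0 := by
    rintro rfl
    rw [mul_zero] at hu12
    exact hu0 hu12
  have hcπ : algebraMap K F π0 ≠ 0 := (map_ne_zero _).mpr hπ0
  have hcw : algebraMap K F w0 ≠ 0 := (map_ne_zero _).mpr hw0
  have hu1O : u1 ∈ R₁.O := hS1 _ hu1
  have hu1O' : u1⁻¹ ∈ R₁.O := hS1 _ hu1i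
  have hu2O : u2 ∈ R₂.O := hS2 _ hu2
  have hu2O' : u2⁻¹ ∈ R₂.O := hS2 _ hu2i
  have e1 : ∀ Q : Place k Fb, Q.ord (R₁.redF u1⁻¹) = -Q.ord (R₁.redF u1) :=
    fun Q => h50_ord_redF_inv_unit R₁ Q hu0 hu1O hu1O'
  have e2 : ∀ Q : Place k Fb, Q.ord (R₂.redF u2⁻¹) = -Q.ord (R₂.redF u2) :=
    fun Q => h50_ord_redF_inv_unit R₂ Q hu20 hu2O hu2O'
  have hκ : u1 = algebraMap K F (π0 ^ κ) * u2 := by
    rw [map_zpow₀]
    exact hu12
  have ew : ∀ (m : ℤ) (f : F),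
      (algebraMap K F (w0 ^ m))⁻¹ * f = f * (algebraMap K F w0 ^ m)⁻¹ := by
    intro m f
    rw [map_zpow₀, mul_comm]
  have ea : ∀ ν, (algebraMap K F π0)⁻¹ * a ν = a ν * (algebraMap K F π0)⁻¹ :=
    fun ν => mul_comm _ _
  obtain ⟨n1, hn1⟩ := h50_twist_w6 R₁ R₂ D0 Qinf Q1 Q2 hQ1i hQ2i hQ1 hQ2 hxb n0 hnode p hp π0
    hπ0 hπ₁ hπ₂ u1 u2 hu0 hu1O' hu1O hu2O' hu2O (π0 ^ κ) hκ a na ha
    (fun ν => hS1 _ (ha1 ν)) (fun ν => hS2 _ (ha2 ν)) haρ haα hsep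
  refine ⟨max n1 n0, fun n hn Lam hLam W hW hrk => ?_⟩
  have hn1n : n1 ≤ n := le_trans (le_max_left _ _) hn
  have hn0n : n0 ≤ n := le_trans (le_max_right _ _) hn
  have hn0pn : n0 ≤ p * n := le_trans hn0n (Nat.le_mul_of_pos_left n hp)
  -- the twists
  have ht : ∀ del < p, (w0 ^ (κ + (del : ℤ))) ^ p =
      η0 ^ (-(κ + (del : ℤ))) * π0 ^ κ * π0 ^ del ∧ η0 ^ (-(κ + (del : ℤ))) ∈ R₂.A ∧
      (η0 ^ (-(κ + (del : ℤ))))⁻¹ ∈ R₂.A ∧ η0 ^ (-(κ + (del : ℤ))) ≠ 0 := by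
    intro del _
    refine ⟨?_, h50_zpow_mem_of_unit R₂.A hηA hηA' _, ?_, zpow_ne_zero _ hη00⟩
    · have hw : w0 ^ p = η0⁻¹ * π0 := by
        rw [← hη, ← mul_assoc, inv_mul_cancel₀ hη00, one_mul]
      have h1 : (w0 ^ (κ + (del : ℤ))) ^ p = (w0 ^ p) ^ (κ + (del : ℤ)) := by
        rw [← zpow_natCast (w0 ^ (κ + (del : ℤ))) p, ← zpow_mul, mul_comm, zpow_mul,
          zpow_natCast]
      rw [h1, hw, mul_zpow, inv_zpow', zpow_add₀ hπ0, zpow_natCast, mul_assoc]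
    · rw [← zpow_neg, neg_neg]
      exact h50_zpow_mem_of_unit R₂.A hηA hηA' _
  have hLam' : ∀ del < p, ∀ f : F, Lam del f → f ∈ R₁.O ∧
      (algebraMap K F (w0 ^ (κ + (del : ℤ))))⁻¹ * f ∈ R₂.O ∧
      f ^ p * u1⁻¹ ∈ riemannRochSpace ((p * n) • D0) := by
    intro del hdel f hf
    obtain ⟨h1, h2, h3⟩ := hLam del hdel f hf
    exact ⟨hS1 _ h1, hS2 _ h2, h3⟩
  obtain ⟨⟨hi1, hi2⟩, hii, hiv, hv1, hv2⟩ := hn1 n hn1n (fun del => w0 ^ (κ + (del : ℤ)))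
    (fun del => η0 ^ (-(κ + (del : ℤ)))) ht Lam hLam' W hW hrk
  have hκ0 : κ + ((0 : ℕ) : ℤ) = κ := by rw [Nat.cast_zero, add_zero]
  refine ⟨⟨?_, ?_, ?_⟩, ?_⟩
  · intro Q hQ
    have h := hi1 Q hQ
    rw [e1 Q] at h
    exact dvd_neg.mp h
  · intro Q hQ
    have h := hi2 Q hQ
    rw [e2 Q] at h
    exact dvd_neg.mp h
  · intro ν
    have h := hii ν
    rw [e1, e2, ← neg_add] at h
    exact dvd_neg.mp h
  · refine h38_jump_of_fill p hxb hnode hjet hJ1 hJ2 hu1 hu1i hu2 hu2i hu0 hcπ hu12 hω₁ hω₂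
      hcw (by rw [← map_pow, ← map_mul, hη]) hηS hηSi hηfst hηJ ?_ ?_ ?_
    · -- the tube units at the nodes
      intro ν
      obtain ⟨e, he⟩ : ∃ e : ℤ, e = (Q1 ν).ord (R₁.redF u1⁻¹) := ⟨_, rfl⟩
      have hmod0 : 0 ≤ e % (p : ℤ) := Int.emod_nonneg _ hp'.ne'
      have hmodlt : e % (p : ℤ) < p := Int.emod_lt_of_pos _ hp'
      have hdelcast : (((e % (p : ℤ)).toNat : ℕ) : ℤ) = e % (p : ℤ) := Int.toNat_of_nonneg hmod0
      have hdel : (e % (p : ℤ)).toNat < p := by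
        have : (((e % (p : ℤ)).toNat : ℕ) : ℤ) < (p : ℤ) := by rw [hdelcast]; exact hmodlt
        exact_mod_cast this
      have hdvd : (p : ℤ) ∣ (Q1 ν).ord (R₁.redF u1⁻¹) - ((e % (p : ℤ)).toNat : ℕ) := by
        rw [← he, hdelcast]
        exact ⟨e / (p : ℤ), by have := Int.emod_add_mul_ediv e (p : ℤ); linarith⟩
      obtain ⟨f, hf, hφ, heq, -, -⟩ := hiv ν _ hdel hdvd
      obtain ⟨hf1, hf2, hfu⟩ := hLam _ hdel f hf
      obtain ⟨ρ, hρ⟩ := hJa1 ν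
      obtain ⟨ab, hab⟩ := hJa2 ν
      have hρeq : ρ = R₁.redF ((algebraMap K F π0)⁻¹ * a ν) := by
        have h := hJ1 ⟨(algebraMap K F π0)⁻¹ * a ν, ha1 ν⟩
        rw [hρ, TrivSqZeroExt.fst_inl] at h
        exact h
      have hb1 : a ν * (algebraMap K F π0)⁻¹ ∈ S1 := by
        rw [← ea ν]
        exact ha1 ν
      have hbJ : J1 ⟨a ν * (algebraMap K F π0)⁻¹, hb1⟩ = TrivSqZeroExt.inl ρ := by
        rw [← hρ]
        congr 1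
        exact Subtype.ext (ea ν).symm
      have hf2' : f * (algebraMap K F w0 ^ (κ + (((e % (p : ℤ)).toNat : ℕ) : ℤ)))⁻¹ ∈ S2 := by
        rw [← ew]
        exact hf2
      have hHrr : f ^ p * u1⁻¹ * (a ν * (algebraMap K F π0)⁻¹) ^ (e % (p : ℤ)).toNat ∈
          riemannRochSpace ((p * n + (e % (p : ℤ)).toNat * na) • D0) := by
        have h1 : a ν * (algebraMap K F π0)⁻¹ ∈ riemannRochSpace (na • D0) := by
          have := h31_const_mul_mem_rr (ha ν) π0⁻¹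
          rwa [map_inv₀, ea ν] at this
        have h2 := h31_pow_mem_rr h1 (e % (p : ℤ)).toNat
        have h3 := h51_mul_mem_rr hfu h2
        rwa [← mul_nsmul', ← add_nsmul] at h3
      refine ⟨(e % (p : ℤ)).toNat, p * n + (e % (p : ℤ)).toNat * na, f, a ν, hf1, hf2', hb1,
        ha2 ν, ρ, ab, le_trans hn0pn (Nat.le_add_right _ _), hHrr, hbJ, hab, ?_, ?_, hφ, ?_⟩
      · rw [hρeq]
        exact (haρ ν).1
      · rw [hρeq]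
        exact (haρ ν).2
      · rw [e1] at heq
        linarith
    · -- non-node places of the first component
      intro z hz
      obtain ⟨f, hf, hφ, h2, h3⟩ := hv1 z (fun ν => Ne.symm (hz ν))
      obtain ⟨hf1, hf2, hfu⟩ := hLam 0 hp f hf
      have hf2' : f * (algebraMap K F w0 ^ κ)⁻¹ ∈ S2 := by
        rw [hκ0, ew] at hf2
        exact hf2
      rw [e1] at h2 h3
      refine ⟨p * n, f, hf1, hf2', hn0pn, hfu, hφ, fun h => by linarith [h2 h], fun h => ?_⟩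
      have := h3 h
      push_cast
      linarith
    · -- non-node places of the second component
      intro z hz
      obtain ⟨f, hf, hφ, h2, h3⟩ := hv2 z (fun ν => Ne.symm (hz ν))
      obtain ⟨hf1, hf2, hfu⟩ := hLam 0 hp f hf
      have hf2' : f * (algebraMap K F w0 ^ κ)⁻¹ ∈ S2 := by
        rw [hκ0, ew] at hf2
        exact hf2
      have hφ' : R₂.redF (f * (algebraMap K F w0 ^ κ)⁻¹) ≠ 0 := by
        rw [← ew, ← hκ0]
        exact hφ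
      have h2' : z ≠ Qinf →
          (p : ℤ) * z.ord (R₂.redF (f * (algebraMap K F w0 ^ κ)⁻¹)) + z.ord (R₂.redF u2⁻¹)
            = 0 := by
        rw [← ew, ← hκ0]
        exact h2
      have h3' : z = Qinf →
          (p : ℤ) * z.ord (R₂.redF (f * (algebraMap K F w0 ^ κ)⁻¹)) + z.ord (R₂.redF u2⁻¹)
            = -((p : ℤ) * n) := by
        rw [← ew, ← hκ0]
        exact h3
      rw [e2] at h2' h3'
      refine ⟨p * n, f, hf1, hf2', hn0pn, hfu, hφ', fun h => by linarith [h2' h], fun h => ?_⟩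
      have := h3' h
      push_cast
      linarith

end Fermat.Agent.S40
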