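import Mathlib
import Fermat.Agent.S34.h87_NodeInst
import Fermat.Agent.S40.h53_NodeFun

/-!
# G40 / W9 glue: the node hypothesis, SHARP form ⟹ UNION form (helper53)

The W9 binder block carries the node theorem of `h87_node_closed` in its SHARP form
(`hnode : ∀ n ≥ n0, a ∈ red (L(n D0) ∩ O) ↔ a ∈ P(n) ∧ nodes`), while the (COUNT) package
`h81_CountHyp` (field `hunion`), the node count `h64_node_count_mod` and `h65_hunion_inst` use the
UNION form (`(∃ n, a ∈ red (L(n D0) ∩ O)) ↔ (∃ n, a ∈ L(n Q∞) × L(n Q∞)) ∧ nodes`).  This file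
derives the second from the first **for the same `Sg`, `Φ`**, so that one opening of
`h87_node_closed` feeds every row.

* `h53_hunion_of_sharp`  : generic;
* `h53_hunion_block`     : at the level `(M, p)`, from the W9 block, spelled with
  `Pinf := h11_placeInfty (M * p)`, `P0 := h87_P0 M p hpM` (cusp facts: `h87_Pinf_spec`,
  `h87_P0_spec`);
* `h53_hSg_block`        : the two-clause `hSg` of `h81_CountHyp` / `h64_node_count_mod`;
* `h53_node_fun_block`   : the node functions of `h53_node_fun` for a (COUNT) package at the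
  level `(M, p)`, in the binder spelling of `h31_w6_mod` (`na • h87_D0 M p hpM`, `π = (p : Qb)`).
-/

set_option autoImplicit false
set_option synthInstance.maxHeartbeats 400000

noncomputable section

open AlgebraicCurve ModularCurve Module

namespace Fermat.Agent.S40

open Fermat.Agent.S18 Fermat.Agent.S24 Fermat.Agent.S27 Fermat.Agent.S34 Fermat.Agent.S36
  Fermat.Agent.S37

local notation "Qb" => AlgebraicClosure ℚ

section Generic

variable {K F k Fb : Type*} [Field K] [Field F] [Algebra K F] [Field k] [Field Fb] [Algebra k Fb]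

/-- `red (L(n D0) ∩ O)` is increasing in `n` for `D0 ≥ 0`. -/
theorem h53_Rd_nsmul_mono (D : h22_Lat K F k (Fb × Fb)) {D0 : Divisor K F}
    (hD0 : ∀ v, 0 ≤ D0 v) {n m : ℕ} (h : n ≤ m) {a : Fb × Fb} (ha : a ∈ h51_Rd D (n • D0)) :
    a ∈ h51_Rd D (m • D0) := by
  obtain ⟨f, hf, hfO, hfa⟩ := ha
  exact ⟨f, h53_rr_nsmul_mono hD0 h hf, hfO, hfa⟩

/-- **SHARP ⟹ UNION** (generic). -/
theorem h53_hunion_of_sharp (D : h22_Lat K F k (Fb × Fb)) (D0 : Divisor K F)
    (hD0 : ∀ v, 0 ≤ D0 v) (Qinf : Place k Fb) (Sg : Finset (Place k Fb))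
    (Φ : Place k Fb → Place k Fb) (n0 : ℕ)
    (hnode : ∀ n, n0 ≤ n → ∀ a : Fb × Fb, a ∈ h51_Rd D (n • D0) ↔
      (a ∈ h20_P Qinf n ∧ ∀ Q ∈ Sg, ∃ c : k, h39_Val (Φ Q) a.1 c ∧ h39_Val Q a.2 c)) :
    ∀ a : Fb × Fb, (∃ n : ℕ, a ∈ h51_Rd D (n • D0)) ↔
      (∃ n : ℕ, a.1 ∈ h16_Linf Qinf n ∧ a.2 ∈ h16_Linf Qinf n) ∧
        ∀ Q ∈ Sg, ∃ c : k, h39_Val (Φ Q) a.1 c ∧ h39_Val Q a.2 c := by
  intro a
  constructor
  · rintro ⟨n, ha⟩
    have ha' : a ∈ h51_Rd D (max n n0 • D0) := h53_Rd_nsmul_mono D hD0 (le_max_left n n0) ha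
    obtain ⟨hP, hN⟩ := (hnode (max n n0) (le_max_right n n0) a).mp ha'
    exact ⟨⟨max n n0, h20_mem_P.mp hP⟩, hN⟩
  · rintro ⟨⟨n, h1, h2⟩, hN⟩
    refine ⟨max n n0, (hnode (max n n0) (le_max_right n n0) a).mpr ⟨?_, hN⟩⟩
    exact h20_mem_P.mpr ⟨h16_Linf_mono Qinf (le_max_left n n0) h1,
      h16_Linf_mono Qinf (le_max_left n n0) h2⟩

end Generic

section Block

variable (M p : ℕ) [NeZero M] [NeZero p] [Fact p.Prime] (hpM : ¬ p ∣ M)
  (A : ValuationSubring Qb) (hA : A.LiesOverPrime p)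
  [CharP (IsLocalRing.ResidueField A) p] [IsAlgClosed (IsLocalRing.ResidueField A)]

/-- **SHARP ⟹ UNION at the level `(M, p)`**: from the W9 binder block, the `hunion` of
`h81_CountHyp` / `h64_node_count_mod` / `h65_hunion_inst` with `Pinf := h11_placeInfty (M * p)`
and `P0 := h87_P0 M p hpM`, for the same `Sg`. -/
theorem h53_hunion_block
    (Sg : Finset (Place (IsLocalRing.ResidueField A)
      ↥(modularFunctionFieldFullC (IsLocalRing.ResidueField A) M)))
    (n0 : ℕ)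
    (hnode : ∀ n, n0 ≤ n → ∀ a : ↥(modularFunctionFieldFullC (IsLocalRing.ResidueField A) M) ×
        ↥(modularFunctionFieldFullC (IsLocalRing.ResidueField A) M),
      a ∈ h51_Rd (h87_D M p hpM A hA) (n • h87_D0 M p hpM) ↔
        (a ∈ h20_P (h11_placeInftyC (IsLocalRing.ResidueField A) M) n ∧
          ∀ Q ∈ Sg, ∃ c : IsLocalRing.ResidueField A,
            h39_Val (h96_frobPerm (h84_isFrobChart_jk M p hpM A hA) Q) a.1 c ∧
              h39_Val Q a.2 c)) :
    ∀ a : ↥(modularFunctionFieldFullC (IsLocalRing.ResidueField A) M) ×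
        ↥(modularFunctionFieldFullC (IsLocalRing.ResidueField A) M),
      (∃ n : ℕ, a ∈ h51_Rd (h87_D M p hpM A hA)
        (n • (Finsupp.single (h11_placeInfty (M * p)) (1 : ℤ) +
          Finsupp.single (h87_P0 M p hpM) (1 : ℤ)))) ↔
      (∃ n : ℕ, a.1 ∈ h16_Linf (h11_placeInftyC (IsLocalRing.ResidueField A) M) n ∧
          a.2 ∈ h16_Linf (h11_placeInftyC (IsLocalRing.ResidueField A) M) n) ∧
        ∀ Q ∈ Sg, ∃ c : IsLocalRing.ResidueField A,
          h39_Val (h96_frobPerm (h84_isFrobChart_jk M p hpM A hA) Q) a.1 c ∧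
            h39_Val Q a.2 c :=
  h53_hunion_of_sharp (h87_D M p hpM A hA) (h87_D0 M p hpM)
    (fun v => h87_D0_nonneg M p hpM v) (h11_placeInftyC (IsLocalRing.ResidueField A) M) Sg
    (h96_frobPerm (h84_isFrobChart_jk M p hpM A hA)) n0 hnode

/-- The two-clause `hSg` (shape of `h81_CountHyp.hSg` / `h64_node_count_mod`) from the
three-clause one of the W9 block. -/
theorem h53_hSg_block
    (Sg : Finset (Place (IsLocalRing.ResidueField A)
      ↥(modularFunctionFieldFullC (IsLocalRing.ResidueField A) M)))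
    (hSg : ∀ Q ∈ Sg, Q ≠ h11_placeInftyC (IsLocalRing.ResidueField A) M ∧
      h96_frobPerm (h84_isFrobChart_jk M p hpM A hA) Q ≠
        h11_placeInftyC (IsLocalRing.ResidueField A) M ∧
      h96_frobPerm (h84_isFrobChart_jk M p hpM A hA)
        (h96_frobPerm (h84_isFrobChart_jk M p hpM A hA) Q) = Q) :
    ∀ Q ∈ Sg, Q ≠ h11_placeInftyC (IsLocalRing.ResidueField A) M ∧
      h96_frobPerm (h84_isFrobChart_jk M p hpM A hA) Q ≠
        h11_placeInftyC (IsLocalRing.ResidueField A) M :=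
  fun Q hQ => ⟨(hSg Q hQ).1, (hSg Q hQ).2.1⟩

/-- **The node functions at the level `(M, p)`** in the binder spelling of `h31_w6_mod`
(`a`, `na`, `ha`, `ha₁`, `ha₂`, `haρ`, `haα`; `D0 = h87_D0 M p hpM`, `π = (p : Qb)`), together
with their `F0`-rationality and `red₁ (a ν) = 0`, from ANY (COUNT) package at this level whose
`D0` is `(∞) + (0')` (either spelling: `h87_D0 M p hpM` unfolds to the two `Finsupp.single`s). -/
theorem h53_node_fun_block
    {Sg : Finset (Place (IsLocalRing.ResidueField A)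
      ↥(modularFunctionFieldFullC (IsLocalRing.ResidueField A) M))}
    {B F0 : Subring ↥(modularFunctionFieldBar (M * p))}
    {T : Finset (Place (IsLocalRing.ResidueField A)
      ↥(modularFunctionFieldFullC (IsLocalRing.ResidueField A) M))}
    {u : ↥(modularFunctionFieldBar (M * p))} {C : ℤ}
    (H : h81_CountHyp (h60_R1 M p hpM A hA) (h60_R2 M p hpM A hA) (h87_D M p hpM A hA)
      (Finsupp.single (h11_placeInfty (M * p)) (1 : ℤ) + Finsupp.single (h87_P0 M p hpM) (1 : ℤ))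
      (h11_placeInftyC (IsLocalRing.ResidueField A) M) Sg
      (h96_frobPerm (h84_isFrobChart_jk M p hpM A hA)) B F0 T (p : Qb) u C) :
    ∃ (a : {Q // Q ∈ Sg} → ↥(modularFunctionFieldBar (M * p))) (na : ℕ),
      (∀ ν, a ν ∈ F0) ∧
      (∀ ν, a ν ∈ riemannRochSpace (na • h87_D0 M p hpM)) ∧
      (∀ ν, (algebraMap Qb ↥(modularFunctionFieldBar (M * p)) (p : Qb))⁻¹ * a ν ∈
        (h60_R1 M p hpM A hA).O) ∧
      (∀ ν, a ν ∈ (h60_R2 M p hpM A hA).O) ∧
      (∀ ν, a ν ∈ (h60_R1 M p hpM A hA).O ∧ (h60_R1 M p hpM A hA).redF (a ν) = 0) ∧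
      (∀ ν : {Q // Q ∈ Sg},
        (h60_R1 M p hpM A hA).redF
            ((algebraMap Qb ↥(modularFunctionFieldBar (M * p)) (p : Qb))⁻¹ * a ν) ≠ 0 ∧
          (h96_frobPerm (h84_isFrobChart_jk M p hpM A hA) ν.1).ord
            ((h60_R1 M p hpM A hA).redF
              ((algebraMap Qb ↥(modularFunctionFieldBar (M * p)) (p : Qb))⁻¹ * a ν)) = -1) ∧
      (∀ ν : {Q // Q ∈ Sg}, (h60_R2 M p hpM A hA).redF (a ν) ≠ 0 ∧
        (ν.1).ord ((h60_R2 M p hpM A hA).redF (a ν)) = 1) := by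
  have : HasPrincipalDivisors (IsLocalRing.ResidueField A)
      ↥(modularFunctionFieldFullC (IsLocalRing.ResidueField A) M) :=
    h75_hasPrincipalDivisors (h84_isFrobChart_jk M p hpM A hA).chart
  exact h53_node_fun H (fun v => h87_D0_nonneg M p hpM v)

end Block

end Fermat.Agent.S40
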