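import Mathlib
import Fermat.Agent.S41.h30_LRFin

/-!
# S40, TOP-B first half (HK-ALG): the start dichotomy on the Hecke side

For a level `M`, a prime `p`, a set of "good" primes and integers `a ℓ`:

* either there is a normalised eigenform `g` of level `M` and a maximal ideal `𝔪' ∋ p` of `ℤ̄` with
  `a_ℓ(g) ≡ a ℓ mod 𝔪'` for all good primes `ℓ ∤ M` (mod `p` Deligne–Serre lifting),
* or there is a (non-commutative) polynomial `P` in the good Hecke operators which vanishes on the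
  cusp forms of level `M` and whose value at `T_ℓ ↦ a ℓ` is not divisible by `p`.

`P` lives in `FreeAlgebra ℤ (h54_L M good)` so that it can be evaluated on any family of additive
endomorphisms (no commutativity needed on the Jacobian side).
-/

set_option autoImplicit false

namespace Fermat.Agent.S40

open CongruenceSubgroup

/-- The index set: the good primes not dividing the level. -/
abbrev h54_L (M : ℕ) (good : ℕ → Prop) : Type := {ℓ : ℕ // ℓ.Prime ∧ ¬ ℓ ∣ M ∧ good ℓ}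

/-- `T_ℓ` (good `ℓ ∤ M`) in the full Hecke algebra of level `M`. -/
noncomputable def h54_TH (M : ℕ) [NeZero M] (good : ℕ → Prop) (ℓ : h54_L M good) :
    CuspForm.heckeAlgebra M 2 ∅ :=
  CuspForm.heckeAlgebra.T ℓ.2.1 ℓ.2.2.1 (Set.notMem_empty ℓ.1)

/-- **(HK-ALG), generic form.** -/
theorem h54_lift_or_P0 {M : ℕ} [NeZero M] {p : ℕ} (hp : p.Prime) (good : ℕ → Prop) (a : ℕ → ℤ) :
    (∃ (g : CuspForm (Gamma0 M) 2) (𝔪' : Ideal (integralClosure ℤ ℂ)),
      g.IsNormalizedEigenform ∧ 𝔪'.IsMaximal ∧ (p : integralClosure ℤ ℂ) ∈ 𝔪' ∧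
      ∀ l : ℕ, l.Prime → ¬ l ∣ M → good l → ∃ c : integralClosure ℤ ℂ,
        (c : ℂ) = ModularFormClass.qCoeff g l ∧ c - ((a l : ℤ) : integralClosure ℤ ℂ) ∈ 𝔪') ∨
    ∃ P : FreeAlgebra ℤ (h54_L M good),
      FreeAlgebra.lift ℤ (h54_TH M good) P = 0 ∧
      ¬ (p : ℤ) ∣ FreeAlgebra.lift ℤ (fun ℓ : h54_L M good => a ℓ.1) P := by
  classical
  by_cases hP : ∃ P : FreeAlgebra ℤ (h54_L M good),
      FreeAlgebra.lift ℤ (h54_TH M good) P = 0 ∧
      ¬ (p : ℤ) ∣ FreeAlgebra.lift ℤ (fun ℓ : h54_L M good => a ℓ.1) P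
  · exact Or.inr hP
  left
  push Not at hP
  have : Fact p.Prime := ⟨hp⟩
  let ev : FreeAlgebra ℤ (h54_L M good) →ₐ[ℤ] CuspForm.heckeAlgebra M 2 ∅ :=
    FreeAlgebra.lift ℤ (h54_TH M good)
  let θ : FreeAlgebra ℤ (h54_L M good) →ₐ[ℤ] ℤ :=
    FreeAlgebra.lift ℤ (fun ℓ : h54_L M good => a ℓ.1)
  let θb : FreeAlgebra ℤ (h54_L M good) →+* ZMod p :=
    (Int.castRingHom (ZMod p)).comp θ.toRingHom
  -- the subring generated by the good operators and its character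
  let R : Subalgebra ℤ (CuspForm.heckeAlgebra M 2 ∅) := ev.range
  let evR : FreeAlgebra ℤ (h54_L M good) →+* R := ev.rangeRestrict.toRingHom
  have hsurj : Function.Surjective evR := ev.rangeRestrict_surjective
  have hkerle : RingHom.ker evR ≤ RingHom.ker θb := by
    intro P hPk
    rw [RingHom.mem_ker] at hPk ⊢
    have h1 : ev P = 0 := by
      have := congrArg (fun r : R => (r : CuspForm.heckeAlgebra M 2 ∅)) hPk
      exact this
    have h2 := hP P h1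
    show ((θ P : ℤ) : ZMod p) = 0
    exact (ZMod.intCast_zmod_eq_zero_iff_dvd _ p).mpr h2
  let χ : R →+* ZMod p := RingHom.liftOfSurjective evR hsurj ⟨θb, hkerle⟩
  have hχ : ∀ P, χ (evR P) = θb P := fun P =>
    RingHom.liftOfSurjective_comp_apply evR hsurj ⟨θb, hkerle⟩ P
  have hχsurj : Function.Surjective χ := ZMod.ringHom_surjective χ
  let 𝔪R : Ideal R := RingHom.ker χ
  have h𝔪R : 𝔪R.IsMaximal := RingHom.ker_isMaximal_of_surjective χ hχsurj
  -- lying over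
  have hfinT : Module.Finite ℤ (CuspForm.heckeAlgebra M 2 ∅) := Fermat.Agent.S22.result M 2 ∅
  have hintT : Algebra.IsIntegral ℤ (CuspForm.heckeAlgebra M 2 ∅) :=
    Algebra.IsIntegral.of_finite ℤ _
  have hintR : Algebra.IsIntegral R (CuspForm.heckeAlgebra M 2 ∅) :=
    Algebra.IsIntegral.tower_top (R := ℤ)
  have hkerR : RingHom.ker (algebraMap R (CuspForm.heckeAlgebra M 2 ∅)) ≤ 𝔪R := by
    intro r hr
    rw [RingHom.mem_ker] at hr
    have h0 : r = 0 := Subtype.ext hr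
    rw [h0]
    exact 𝔪R.zero_mem
  obtain ⟨𝔪, hmax, hover⟩ := Ideal.exists_ideal_over_maximal_of_isIntegral 𝔪R hkerR
  have hmem : ∀ P, θb P = 0 → ev P ∈ 𝔪 := by
    intro P hPθ
    have h1 : evR P ∈ 𝔪R := by
      show χ (evR P) = 0
      rw [hχ, hPθ]
    rw [← hover, Ideal.mem_comap] at h1
    exact h1
  have hprime : 𝔪.IsPrime := hmax.isPrime
  -- Deligne–Serre
  let ρ : CuspForm.heckeAlgebra M 2 ∅ →+* Module.End ℂ (CuspForm (Gamma0 M) 2) :=
    (CuspForm.heckeAlgebra M 2 ∅).val.toRingHom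
  have hfin : Module.Finite ℂ (CuspForm (Gamma0 M) 2) := Fermat.Agent.S21.h20_finite_cuspForm M
  have hann : ∀ t : CuspForm.heckeAlgebra M 2 ∅,
      (∀ w ∈ (⊤ : Submodule ℂ (CuspForm (Gamma0 M) 2)), ρ t w = 0) → t ∈ 𝔪 := by
    intro t ht
    have h0 : t = 0 := by
      apply Subtype.ext
      refine LinearMap.ext fun w => ?_
      exact ht w Submodule.mem_top
    rw [h0]
    exact 𝔪.zero_mem
  obtain ⟨ψ, v, -, hv0, hev, hker⟩ :=
    Fermat.Agent.S49.h6_exists_eigenvector_ker_le_aux ρ 𝔪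
      (Module.finrank ℂ (⊤ : Submodule ℂ (CuspForm (Gamma0 M) 2))) ⊤ rfl
      (fun _ _ _ => Submodule.mem_top) hann
  obtain ⟨ψ', 𝔪', hψ', hmax', hcomap⟩ := Fermat.Agent.S49.exists_maximal_comap_eq ψ 𝔪 hker
  let lam : ℕ → ℂ := fun ℓ =>
    if hℓ : ℓ.Prime then
      (if hℓM : ℓ ∣ M then ψ (CuspForm.heckeAlgebra.U hℓ hℓM (Set.notMem_empty ℓ))
        else ψ (CuspForm.heckeAlgebra.T hℓ hℓM (Set.notMem_empty ℓ)))
    else 0
  have hlamT : ∀ (ℓ : ℕ) (hℓ : ℓ.Prime) (hℓM : ¬ ℓ ∣ M),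
      lam ℓ = ψ (CuspForm.heckeAlgebra.T hℓ hℓM (Set.notMem_empty ℓ)) := by
    intro ℓ hℓ hℓM
    simp only [lam, dif_pos hℓ, dif_neg hℓM]
  have hlamU : ∀ (ℓ : ℕ) (hℓ : ℓ.Prime) (hℓM : ℓ ∣ M),
      lam ℓ = ψ (CuspForm.heckeAlgebra.U hℓ hℓM (Set.notMem_empty ℓ)) := by
    intro ℓ hℓ hℓM
    simp only [lam, dif_pos hℓ, dif_pos hℓM]
  obtain ⟨g, hg, hgc⟩ := Fermat.Agent.S49.h7_exists_normalized_eigenform v hv0 lam
    (fun ℓ hℓ hℓM => by
      rw [hlamT ℓ hℓ hℓM]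
      exact hev (CuspForm.heckeAlgebra.T hℓ hℓM (Set.notMem_empty ℓ)))
    (fun ℓ hℓ hℓM => by
      rw [hlamU ℓ hℓ hℓM]
      exact hev (CuspForm.heckeAlgebra.U hℓ hℓM (Set.notMem_empty ℓ)))
  refine ⟨g, 𝔪', hg, hmax', ?_, ?_⟩
  · -- `p ∈ 𝔪'`
    have h1 : ev ((p : ℕ) : FreeAlgebra ℤ (h54_L M good)) ∈ 𝔪 := by
      apply hmem
      show ((θ ((p : ℕ) : FreeAlgebra ℤ (h54_L M good)) : ℤ) : ZMod p) = 0
      rw [map_natCast]
      simp
    rw [map_natCast, ← hcomap, Ideal.mem_comap, map_natCast] at h1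
    exact h1
  · intro l hl hlM hgood
    refine ⟨ψ' (CuspForm.heckeAlgebra.T hl hlM (Set.notMem_empty l)), ?_, ?_⟩
    · rw [hψ', hgc l hl, hlamT l hl hlM]
    · let ℓ0 : h54_L M good := ⟨l, hl, hlM, hgood⟩
      have h1 : ev (FreeAlgebra.ι ℤ ℓ0 - ((a l : ℤ) : FreeAlgebra ℤ (h54_L M good))) ∈ 𝔪 := by
        apply hmem
        show ((θ (FreeAlgebra.ι ℤ ℓ0 - ((a l : ℤ) : FreeAlgebra ℤ (h54_L M good))) : ℤ) :
          ZMod p) = 0
        rw [map_sub, map_intCast, FreeAlgebra.lift_ι_apply]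
        simp [ℓ0]
      rw [map_sub, map_intCast, FreeAlgebra.lift_ι_apply] at h1
      rw [← hcomap, Ideal.mem_comap, map_sub, map_intCast] at h1
      exact h1

end Fermat.Agent.S40
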