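import Mathlib
import Fermat.Agent.S40.h77_T10
import Fermat.Agent.S40.h59_NewC2
import Fermat.Agent.S40.h84_TrivToric
import Fermat.Agent.S40.h43_TailPt

/-!
# S40/S44 (G40), TOP glue: the tail at level `(M, p)` (helper55)

`(TR-MAIN)` output on the first component  ⟹  the class is toric.

Level `M p`, `p ∤ M`, charted.  Let `x = [D]` be a `p`-new class with `p D = div u` and assume

* `(TR-1)` every normalised residue order of `u` on the FIRST component is divisible by `p`
  (`h43_rord (h60_R1 M p) Q u`, all places `Q` of `F̄(M)`);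
* `(HK-P0)` a Hecke polynomial `P₀` killing `J₀(M)[p^∞]` with `p ∤ P₀(a)`;
* `(EIG-f)` for the normalised reduction `ū = h43_rred R₁ u` (the hypothesis of `h77_t10`).

Then: `ū` is a `p`-th power (BRIDGE `h77_t10`), hence so is the second reduction (`h59_c2_new`,
`p`-newness), hence `x` is toric (`h84_triv_toric`).
-/

set_option autoImplicit false
set_option synthInstance.maxHeartbeats 400000
set_option linter.style.haveILetI false
set_option linter.unusedSectionVars false

noncomputable section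

open AlgebraicCurve ModularCurve

namespace Fermat.Agent.S40

open Fermat.Agent.S18 Fermat.Agent.S24 Fermat.Agent.S27 Fermat.Agent.S37 Fermat.Agent.GAL
open Fermat.Agent.S34 Fermat.Agent.S35 Fermat.Agent.S33

local notation "Qb" => AlgebraicClosure ℚ

/-- **The tail at level `(M, p)`**: first-component residue orders divisible by `p` + (BRIDGE)
inputs ⟹ toric. -/
theorem h55_tail_toric (M p : ℕ) [NeZero M] [NeZero p] [Fact p.Prime] (hpM : ¬ p ∣ M)
    (A : ValuationSubring Qb) (hA : A.LiesOverPrime p) (hch : 5 ≤ p ∨ 2 ∣ M ∨ 3 ∣ M)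
    (good : ℕ → Prop) (hgp : ¬ good p) (a : ℕ → ℤ)
    (P₀ : FreeAlgebra ℤ (h67_Good good))
    (hkill : ∀ (k : ℕ) (z : JZero M), p ^ k • z = 0 → h67_evJ M good P₀ z = 0)
    (hθ : ¬ (p : ℤ) ∣ h67_evZ good a P₀)
    (x : JZero (M * p))
    (D : Divisor.degZero (K := Qb) (F := modularFunctionFieldBar (M * p))) (hx : Pic0.mk D = x)
    (hnew : h67_DivNew M p (D : Divisor Qb (modularFunctionFieldBar (M * p))))
    (u : ↥(modularFunctionFieldBar (M * p))) (hu : u ≠ 0)
    (hdiv : ∀ v : Place Qb ↥(modularFunctionFieldBar (M * p)),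
      (p : ℤ) * (D : Divisor Qb ↥(modularFunctionFieldBar (M * p))) v = v.ord u)
    (hrord : ∀ Q : Place (IsLocalRing.ResidueField A)
      ↥(modularFunctionFieldFullC (IsLocalRing.ResidueField A) M),
      (p : ℤ) ∣ h43_rord (h60_R1 M p hpM A hA) Q u)
    (heigf : ∀ (ℓ : h67_Good good) [NeZero ℓ.1] (g : ↥(modularFunctionFieldBar M)),
      g ∈ (h39_modRed M hpM A hA).O →
      (h39_modRed M hpM A hA).redF g = h43_rred (h60_R1 M p hpM A hA) u →
      ∃ wb : ↥(modularFunctionFieldFullC (IsLocalRing.ResidueField A) M), wb ≠ 0 ∧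
        h67_normAlong (heckeAlphaBar Qb M ℓ.1) (heckeBetaBar Qb M ℓ.1 g) ∈
          (h39_modRed M hpM A hA).O ∧
        (h39_modRed M hpM A hA).redF
          (h67_normAlong (heckeAlphaBar Qb M ℓ.1) (heckeBetaBar Qb M ℓ.1 g))
          = h43_rred (h60_R1 M p hpM A hA) u ^ (a ℓ.1) * wb ^ p) :
    h29_Toric M p hpM A hA p x := by
  have hp : p.Prime := Fact.out
  obtain ⟨c₁, -, -, he⟩ := h43_rred_spec (h60_R1 M p hpM A hA) hu
  have hub : h43_rred (h60_R1 M p hpM A hA) u ≠ 0 := h43_rred_ne_zero _ hu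
  obtain ⟨w₁, hw₁, hpow⟩ := h77_t10 M hpM A hA hch good hgp a P₀ hkill hθ
    (h43_rred (h60_R1 M p hpM A hA) u) hub hrord heigf
  have h1 : (h60_R1 M p hpM A hA).redF
      (algebraMap Qb ↥(modularFunctionFieldBar (M * p)) c₁ * u) = w₁ ^ p := by
    rw [← he, hpow]
  obtain ⟨c₂, w₂, -, hw₂, h2⟩ := h59_c2_new M p hpM A hA p hp.ne_zero
    (D : Divisor Qb ↥(modularFunctionFieldBar (M * p))) hnew u hu hdiv c₁ w₁ hw₁ h1
  exact h84_triv_toric M p hpM A hA p hp.ne_zero x D u hu hx hdiv c₁ c₂ w₁ w₂ hw₁ hw₂ h1 h2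

end Fermat.Agent.S40

end
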