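/-
S40 / G40, (TR) table v2, row T8 (END-JET), sub-row (DEC), jet form (helper57).  Generic.

Adapter of `h57_dec_const` / `h57_dec_conv` (S40/h57_Dec.lean) to a jet
`J : S →+* TrivSqZeroExt Fb Fb` on a subring `S` of `H`-fixed elements of `R.O` whose two
components are the reductions of the interpolation coefficients `c_0`, `c_1` (the explicit jet
of helper25, `(Je)`), in the division-free language `h38_IsOm` of S40/h38_JumpGen.lean.

* `h57_redF_coef0` : `red c_0(f) = red f` for an `H`-fixed `f ∈ R.O`.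
* `h57_dec_isOm` : `h38_IsOm J f (algebraMap k Fb Γ)`, `red f ≠ 0`, `γ₀ ∈ R.A` a `ρ`-fixed lift of
  `Γ` ⟹ `f = c_0 * (1 + w * (γ₀ + w * t))`, `c_0` a `ρ`-fixed unit of `R.O`, `t ∈ R.O` `H`-fixed.
* `h57_isOm_of_dec` : conversely `U = C * (1 + w * (γ + w * t))` in `S` with `C`, `γ` `ρ`-fixed in
  `R.O`, `t ∈ R.O` ⟹ `(J U).fst = red C` and `h38_IsOm J U (red γ)`.
-/
import Mathlib
import Fermat.Agent.S40.h57_Dec
import Fermat.Agent.S40.h38_JumpGen

set_option autoImplicit false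

namespace Fermat.Agent.S40

open Finset Fermat.Agent.S18

variable {K F k Fb : Type*} [Field K] [Field F] [Algebra K F] [Field k] [Field Fb] [Algebra k Fb]

section decOm

variable (R : h39_RedDatum K F k Fb) {G : Type*} [Group G] (ρ : G →* (F ≃+* F))
  (p : ℕ) (hp2 : 2 ≤ p) (w : F) (g : Fin p → G)
  (hdist : Function.Injective fun i => ρ (g i) w)
  (horb : ∀ γ : G, ∃ i, ρ γ w = ρ (g i) w)
  (π : F) (hπ0 : π ≠ 0) (hπ : R.O.valuation π < 1)
  (hvw : R.O.valuation w ^ p = R.O.valuation π)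
  (hint : ∀ f : F, (∀ γ : G, ρ γ f = f) → f ≠ 0 →
    ∃ m : ℤ, R.O.valuation f = R.O.valuation π ^ m)

include hp2 hdist horb hπ0 hπ hvw hint in
/-- the reduction of the constant coefficient is the reduction of `f`. -/
theorem h57_redF_coef0 (f : F) (hfO : f ∈ R.O) (hf : ∀ γ : G, ρ γ w = w → ρ γ f = f) :
    h28_coef ρ p w g f 0 ∈ R.O ∧ R.redF (h28_coef ρ p w g f 0) = R.redF f := by
  have hfv : R.O.valuation f ≤ 1 := (ValuationSubring.valuation_le_one_iff _ _).2 hfO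
  have h1 := h28_interp_res ρ p hp2 w g hdist horb f hf R.O.valuation π hπ0 hπ hvw hint hfv
  have h2 : f - h28_coef ρ p w g f 0 ∈ R.O := (ValuationSubring.valuation_le_one_iff _ _).1 h1.le
  have h3 : h28_coef ρ p w g f 0 ∈ R.O := by
    have := R.O.sub_mem hfO h2
    rwa [sub_sub_cancel] at this
  refine ⟨h3, ?_⟩
  have h4 := h57_redF_of_val_lt R h1
  rw [h39_redF_sub R hfO h3, sub_eq_zero] at h4
  exact h4.symm

include hp2 hdist horb hπ0 hπ hvw hint in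
/-- (DEC) in jet form: from `Ω(f) = Γ` to the decomposition. -/
theorem h57_dec_isOm (S : Subring F)
    (hS : ∀ f : F, f ∈ S → f ∈ R.O ∧ ∀ γ : G, ρ γ w = w → ρ γ f = f)
    (J : S →+* TrivSqZeroExt Fb Fb)
    (hJ0 : ∀ f : S, (J f).fst = R.redF (h28_coef ρ p w g (f : F) 0))
    (hJ1 : ∀ f : S, (J f).snd = R.redF (h28_coef ρ p w g (f : F) 1))
    (f : S) (hfne : R.redF (f : F) ≠ 0)
    (Γ : k) (hom : h38_IsOm J f (algebraMap k Fb Γ))
    (γ₀ : K) (hγA : γ₀ ∈ R.A) (hγres : R.resK γ₀ = Γ)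
    (hγfix : ∀ γ : G, ρ γ (algebraMap K F γ₀) = algebraMap K F γ₀) :
    h28_coef ρ p w g (f : F) 0 ∈ R.O ∧ (h28_coef ρ p w g (f : F) 0)⁻¹ ∈ R.O ∧
    (∀ γ : G, ρ γ (h28_coef ρ p w g (f : F) 0) = h28_coef ρ p w g (f : F) 0) ∧
    R.redF (h28_coef ρ p w g (f : F) 0) = R.redF (f : F) ∧
    ∃ t : F, t ∈ R.O ∧ (∀ γ : G, ρ γ w = w → ρ γ t = t) ∧
      (f : F) = h28_coef ρ p w g (f : F) 0 * (1 + w * (algebraMap K F γ₀ + w * t)) := by
  obtain ⟨hfO, hfH⟩ := hS (f : F) f.2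
  have h0 := h57_redF_coef0 R ρ p hp2 w g hdist horb π hπ0 hπ hvw hint (f : F) hfO hfH
  have hc0 : R.redF (h28_coef ρ p w g (f : F) 0) ≠ 0 := by
    rw [h0.2]
    exact hfne
  have hgam : R.redF (h28_coef ρ p w g (f : F) 1)
      = algebraMap k Fb Γ * R.redF (h28_coef ρ p w g (f : F) 0) := by
    have := hom
    unfold h38_IsOm at this
    rw [hJ0, hJ1] at this
    exact this
  obtain ⟨h1, h2, h3, h4⟩ := h57_dec_const R ρ p hp2 w g hdist horb π hπ0 hπ hvw hint (f : F) hfO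
    hfH hc0 Γ γ₀ hγA hγres hγfix hgam
  exact ⟨h1, h2, h3, h0.2, h4⟩

include hp2 hdist horb hπ0 hπ hvw hint in
/-- (DEC) converse in jet form: the jet of `C * (1 + w * (γ + w * t))`. -/
theorem h57_isOm_of_dec (S : Subring F)
    (hS : ∀ f : F, f ∈ S → f ∈ R.O ∧ ∀ γ : G, ρ γ w = w → ρ γ f = f)
    (J : S →+* TrivSqZeroExt Fb Fb)
    (hJ0 : ∀ f : S, (J f).fst = R.redF (h28_coef ρ p w g (f : F) 0))
    (hJ1 : ∀ f : S, (J f).snd = R.redF (h28_coef ρ p w g (f : F) 1))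
    (U : S) (C gam t : F) (hCO : C ∈ R.O) (hCfix : ∀ γ : G, ρ γ C = C)
    (hgO : gam ∈ R.O) (hgfix : ∀ γ : G, ρ γ gam = gam) (ht : t ∈ R.O)
    (hU : (U : F) = C * (1 + w * (gam + w * t))) :
    (J U).fst = R.redF C ∧ h38_IsOm J U (R.redF gam) := by
  obtain ⟨-, hUH⟩ := hS (U : F) U.2
  obtain ⟨-, -, h0, h1⟩ := h57_dec_conv R ρ p hp2 w g hdist horb π hπ0 hπ hvw hint (U : F) hUH
    C gam t hCO hCfix hgO hgfix ht hU
  refine ⟨by rw [hJ0, h0], ?_⟩
  unfold h38_IsOm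
  rw [hJ0, hJ1, h0, h1]

include hp2 hdist horb hπ0 hπ hvw hint in
/-- (DEC) converse in jet form, constant `γ = n * algebraMap K F γ₀`, `γ₀ ∈ R.A` lifting `Γ`:
the norm-jet rule shape `Ω(U) = n * Γ` for `U = C * (1 + w * (n * γ₀ + w * t))`. -/
theorem h57_isOm_of_dec_const (S : Subring F)
    (hS : ∀ f : F, f ∈ S → f ∈ R.O ∧ ∀ γ : G, ρ γ w = w → ρ γ f = f)
    (J : S →+* TrivSqZeroExt Fb Fb)
    (hJ0 : ∀ f : S, (J f).fst = R.redF (h28_coef ρ p w g (f : F) 0))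
    (hJ1 : ∀ f : S, (J f).snd = R.redF (h28_coef ρ p w g (f : F) 1))
    (U : S) (C t : F) (n : ℕ) (Γ : k) (γ₀ : K) (hγA : γ₀ ∈ R.A) (hγres : R.resK γ₀ = Γ)
    (hγfix : ∀ γ : G, ρ γ (algebraMap K F γ₀) = algebraMap K F γ₀)
    (hCO : C ∈ R.O) (hCfix : ∀ γ : G, ρ γ C = C) (ht : t ∈ R.O)
    (hU : (U : F) = C * (1 + w * ((n : F) * algebraMap K F γ₀ + w * t))) :
    (J U).fst = R.redF C ∧ h38_IsOm J U (algebraMap k Fb ((n : k) * Γ)) := by
  have hγO : algebraMap K F γ₀ ∈ R.O := (R.mem_iff γ₀).1 hγA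
  have hnO : (n : F) ∈ R.O := natCast_mem R.O n
  have hnfix : ∀ γ : G, ρ γ (n : F) = (n : F) := fun γ => map_natCast (ρ γ) n
  have h := h57_isOm_of_dec R ρ p hp2 w g hdist horb π hπ0 hπ hvw hint S hS J hJ0 hJ1 U C
    ((n : F) * algebraMap K F γ₀) t hCO hCfix (R.O.mul_mem _ _ hnO hγO)
    (fun γ => by rw [map_mul, hnfix, hγfix]) ht hU
  refine ⟨h.1, ?_⟩
  have hred : R.redF ((n : F) * algebraMap K F γ₀) = algebraMap k Fb ((n : k) * Γ) := by
    have hcast : ((n : F)) = algebraMap K F (n : K) := (map_natCast (algebraMap K F) n).symm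
    have hnA : (n : K) ∈ R.A := natCast_mem R.A n
    rw [hcast, ← map_mul, h39_redF_algebraMap R (R.A.mul_mem _ _ hnA hγA),
      h39_resK_mul R hnA hγA, hγres]
    congr 2
    -- resK of a natural number
    rw [R.resK_of_mem hnA]
    have : (⟨(n : K), hnA⟩ : R.A) = ((n : ℕ) : R.A) := by
      apply Subtype.ext
      simp
    rw [this, map_natCast]
  rw [← hred]
  exact h.2

end decOm

end Fermat.Agent.S40
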