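import Fermat.Agent.S05.h86_Formal

/-
helper57, project S40 (G40, E-side of the peu/tres ramifie dichotomy), layer (E-c):
translation by a point `R = (x₂, y₂)` of the kernel of reduction moves the `x`-coordinate of an
integral point `P = (x₁, y₁)` by `-(2 y₁ + a₁ x₁ + a₃) * t(R)` up to second order, where
`t(R) = x₂ / y₂`.  General Weierstrass equation with integral coefficients, arbitrary valuation.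

Main exports (namespace `Fermat.Agent.S40`):
* `h57_chord_id`   : the exact algebraic identity
* `h57_chord_val`  : `v (x(P + R) - x(P) + (2 y₁ + a₁ x₁ + a₃) * t(R)) ≤ (v x₂)⁻¹ = v (t R) ^ 2`
* `h57_chord_eq`   : if `2 y₁ + a₁ x₁ + a₃` is a unit then `v (x(P + R) - x(P)) = v (t R)`
* `h57_add_x`      : the same for `WeierstrassCurve.Affine.Point` addition
-/

set_option autoImplicit false
set_option linter.unusedSectionVars false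

namespace Fermat.Agent.S40

open WeierstrassCurve WeierstrassCurve.Affine Fermat.Agent.S05

section algebra

variable {K : Type*} [Field K]

/-- The chord through `(x₁, y₁)` and `(x₂, y₂)`: exact formula for the change of the
`x`-coordinate, only the Weierstrass equation of the second point is used. -/
lemma h57_chord_id {a₁ a₂ a₃ a₄ a₆ x₁ y₁ x₂ y₂ ℓ : K} (hy₂ : y₂ ≠ 0) (hx : x₁ ≠ x₂)
    (e₂ : y₂ ^ 2 + a₁ * x₂ * y₂ + a₃ * y₂ = x₂ ^ 3 + a₂ * x₂ ^ 2 + a₄ * x₂ + a₆)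
    (hℓ : ℓ * (x₁ - x₂) = y₁ - y₂) :
    ℓ ^ 2 + a₁ * ℓ - a₂ - x₁ - x₂ - x₁ + (2 * y₁ + a₁ * x₁ + a₃) * (x₂ / y₂) =
      (2 * y₁ + a₁ * x₁ + a₃) *
        ((a₁ * x₂ * y₂ + a₃ * y₂ - a₂ * x₂ ^ 2 - a₄ * x₂ - a₆ - 2 * x₁ * x₂ ^ 2 + x₁ ^ 2 * x₂) /
          (y₂ * (x₁ - x₂) ^ 2)) +
      ((3 * x₁ ^ 2 + 2 * a₂ * x₁ + a₄ - a₁ * y₁) * x₂ +
        (a₆ + y₁ ^ 2 + a₁ * x₁ * y₁ - a₂ * x₁ ^ 2 - 2 * x₁ ^ 3)) / (x₁ - x₂) ^ 2 := by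
  have hd : x₁ - x₂ ≠ 0 := sub_ne_zero.mpr hx
  have hℓ' : ℓ = (y₁ - y₂) / (x₁ - x₂) := by
    rw [eq_div_iff hd]; exact hℓ
  subst hℓ'
  field_simp
  linear_combination (y₂ - 2 * y₁ - a₁ * x₁ - a₃) * e₂

end algebra

section valuation

variable {K : Type*} [Field K] {Γ₀ : Type*} [LinearOrderedCommGroupWithZero Γ₀]
  (v : Valuation K Γ₀)

/-- Second order estimate for the change of the `x`-coordinate of an integral point under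
translation by a point of the kernel of reduction. -/
lemma h57_chord_val {a₁ a₂ a₃ a₄ a₆ x₁ y₁ x₂ y₂ ℓ : K} (h1 : v a₁ ≤ 1) (h2 : v a₂ ≤ 1)
    (h3 : v a₃ ≤ 1) (h4 : v a₄ ≤ 1) (h6 : v a₆ ≤ 1)
    (e₂ : y₂ ^ 2 + a₁ * x₂ * y₂ + a₃ * y₂ = x₂ ^ 3 + a₂ * x₂ ^ 2 + a₄ * x₂ + a₆)
    (hx₁ : v x₁ ≤ 1) (hy₁ : v y₁ ≤ 1) (hx₂ : 1 < v x₂)
    (hℓ : ℓ * (x₁ - x₂) = y₁ - y₂) :
    v (ℓ ^ 2 + a₁ * ℓ - a₂ - x₁ - x₂ - x₁ + (2 * y₁ + a₁ * x₁ + a₃) * (x₂ / y₂)) ≤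
      (v x₂)⁻¹ := by
  obtain ⟨hxy, -⟩ := h86_val_cube v h1 h2 h3 h4 h6 e₂ hx₂
  have hXpos : 0 < v x₂ := zero_lt_one.trans hx₂
  have hYpos : 0 < v y₂ := hXpos.trans hxy
  have hX0 : v x₂ ≠ 0 := hXpos.ne'
  have hy₂ : y₂ ≠ 0 := v.ne_zero_iff.mp hYpos.ne'
  have hx : x₁ ≠ x₂ := by
    rintro rfl
    exact absurd hx₁ (not_le.mpr hx₂)
  have hd : v (x₁ - x₂) = v x₂ := v.map_sub_eq_of_lt_right (lt_of_le_of_lt hx₁ hx₂)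
  have hX1 : 1 ≤ v x₂ := hx₂.le
  have hY1 : 1 ≤ v y₂ := hx₂.le.trans hxy.le
  have h2' : v (2 : K) ≤ 1 := by simpa using h86_natCast_le_one v 2
  have h3' : v (3 : K) ≤ 1 := by simpa using h86_natCast_le_one v 3
  have A : ∀ {x y : K}, v x ≤ 1 → v y ≤ 1 → v (x + y) ≤ 1 := fun hx hy => v.map_add_le hx hy
  have S : ∀ {x y : K}, v x ≤ 1 → v y ≤ 1 → v (x - y) ≤ 1 := fun hx hy => v.map_sub_le hx hy
  have M : ∀ {x y : K}, v x ≤ 1 → v y ≤ 1 → v (x * y) ≤ 1 := fun hx hy => by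
    rw [map_mul]; exact mul_le_one' hx hy
  have P : ∀ {x : K}, v x ≤ 1 → ∀ n : ℕ, v (x ^ n) ≤ 1 := fun hx n => by
    rw [map_pow]; exact pow_le_one' hx n
  have hD : v (2 * y₁ + a₁ * x₁ + a₃) ≤ 1 := A (A (M h2' hy₁) (M h1 hx₁)) h3
  have hE : v (3 * x₁ ^ 2 + 2 * a₂ * x₁ + a₄ - a₁ * y₁) ≤ 1 :=
    S (A (A (M h3' (P hx₁ 2)) (M (M h2' h2) hx₁)) h4) (M h1 hy₁)
  have hF : v (a₆ + y₁ ^ 2 + a₁ * x₁ * y₁ - a₂ * x₁ ^ 2 - 2 * x₁ ^ 3) ≤ 1 :=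
    S (S (A (A h6 (P hy₁ 2)) (M (M h1 hx₁) hy₁)) (M h2 (P hx₁ 2))) (M h2' (P hx₁ 3))
  rw [h57_chord_id hy₂ hx e₂ hℓ]
  refine v.map_add_le ?_ ?_
  · -- the term carrying `2 y₁ + a₁ x₁ + a₃`
    have C : ∀ {c z : K}, v c ≤ 1 → v z ≤ v x₂ * v y₂ → v (c * z) ≤ v x₂ * v y₂ :=
      fun hc hz => by rw [map_mul]; exact mul_le_of_le_one_of_le hc hz
    have hYB : v y₂ ≤ v x₂ * v y₂ := le_mul_of_one_le_left' hX1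
    have hXB : v x₂ ≤ v x₂ * v y₂ := le_mul_of_one_le_right' hY1
    have hX2B : v (x₂ ^ 2) ≤ v x₂ * v y₂ := by
      rw [map_pow, pow_two]; exact mul_le_mul' le_rfl hxy.le
    have h1B : (1 : Γ₀) ≤ v x₂ * v y₂ := hX1.trans hXB
    have e : a₁ * x₂ * y₂ + a₃ * y₂ - a₂ * x₂ ^ 2 - a₄ * x₂ - a₆ - 2 * x₁ * x₂ ^ 2
        + x₁ ^ 2 * x₂ =
        a₁ * (x₂ * y₂) + a₃ * y₂ - a₂ * x₂ ^ 2 - a₄ * x₂ - a₆ - (2 * x₁) * x₂ ^ 2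
          + x₁ ^ 2 * x₂ := by ring
    have hnum : v (a₁ * x₂ * y₂ + a₃ * y₂ - a₂ * x₂ ^ 2 - a₄ * x₂ - a₆ - 2 * x₁ * x₂ ^ 2
        + x₁ ^ 2 * x₂) ≤ v x₂ * v y₂ := by
      rw [e]
      refine v.map_add_le (v.map_sub_le (v.map_sub_le (v.map_sub_le (v.map_sub_le
        (v.map_add_le ?_ ?_) ?_) ?_) ?_) ?_) ?_
      · exact C h1 (by rw [map_mul])
      · exact C h3 hYB
      · exact C h2 hX2B
      · exact C h4 hXB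
      · exact h6.trans h1B
      · exact C (M h2' hx₁) hX2B
      · exact C (P hx₁ 2) hXB
    rw [map_mul, map_div₀, map_mul, map_pow, hd]
    refine mul_le_of_le_one_of_le hD ?_
    rw [div_le_iff₀ (mul_pos hYpos (pow_pos hXpos 2))]
    have e2 : (v x₂)⁻¹ * (v y₂ * v x₂ ^ 2) = v x₂ * v y₂ := by
      rw [pow_two, mul_left_comm (v y₂), inv_mul_cancel_left₀ hX0, mul_comm]
    rw [e2]
    exact hnum
  · -- the remaining term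
    rw [map_div₀, map_pow, hd, div_le_iff₀ (pow_pos hXpos 2)]
    have e2 : (v x₂)⁻¹ * v x₂ ^ 2 = v x₂ := by
      rw [pow_two, inv_mul_cancel_left₀ hX0]
    rw [e2]
    refine v.map_add_le ?_ (hF.trans hX1)
    rw [map_mul]
    exact mul_le_of_le_one_of_le hE le_rfl

/-- `v (t R) ^ 2 = (v x₂)⁻¹` for a point `R = (x₂, y₂)` with non-integral `x₂`. -/
lemma h57_t_sq {a₁ a₂ a₃ a₄ a₆ x₂ y₂ : K} (h1 : v a₁ ≤ 1) (h2 : v a₂ ≤ 1)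
    (h3 : v a₃ ≤ 1) (h4 : v a₄ ≤ 1) (h6 : v a₆ ≤ 1)
    (e₂ : y₂ ^ 2 + a₁ * x₂ * y₂ + a₃ * y₂ = x₂ ^ 3 + a₂ * x₂ ^ 2 + a₄ * x₂ + a₆)
    (hx₂ : 1 < v x₂) : v (x₂ / y₂) ^ 2 = (v x₂)⁻¹ := by
  obtain ⟨hxy, hc⟩ := h86_val_cube v h1 h2 h3 h4 h6 e₂ hx₂
  have hXpos : 0 < v x₂ := zero_lt_one.trans hx₂
  have hX0 : v x₂ ≠ 0 := hXpos.ne'
  rw [map_div₀, div_pow, hc, eq_comm, inv_eq_iff_eq_inv, inv_div,
    eq_div_iff (pow_ne_zero 2 hX0), ← pow_succ']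

/-- If `2 y₁ + a₁ x₁ + a₃` is a unit, translation by `R` moves `x` by exactly `v (t R)`. -/
lemma h57_chord_eq {a₁ a₂ a₃ a₄ a₆ x₁ y₁ x₂ y₂ ℓ : K} (h1 : v a₁ ≤ 1) (h2 : v a₂ ≤ 1)
    (h3 : v a₃ ≤ 1) (h4 : v a₄ ≤ 1) (h6 : v a₆ ≤ 1)
    (e₂ : y₂ ^ 2 + a₁ * x₂ * y₂ + a₃ * y₂ = x₂ ^ 3 + a₂ * x₂ ^ 2 + a₄ * x₂ + a₆)
    (hx₁ : v x₁ ≤ 1) (hy₁ : v y₁ ≤ 1) (hx₂ : 1 < v x₂)
    (hℓ : ℓ * (x₁ - x₂) = y₁ - y₂) (hDu : v (2 * y₁ + a₁ * x₁ + a₃) = 1) :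
    v (ℓ ^ 2 + a₁ * ℓ - a₂ - x₁ - x₂ - x₁) = v (x₂ / y₂) := by
  have hb := h57_chord_val v h1 h2 h3 h4 h6 e₂ hx₁ hy₁ hx₂ hℓ
  obtain ⟨hy0, hx0, hzlt, -, -⟩ := h86_chart v h1 h2 h3 h4 h6 e₂ hx₂
  have hsq := h57_t_sq v h1 h2 h3 h4 h6 e₂ hx₂
  have hpos : 0 < v (x₂ / y₂) := zero_lt_iff.mpr (v.ne_zero_iff.mpr (div_ne_zero hx0 hy0))
  have hlt : (v x₂)⁻¹ < v (x₂ / y₂) := by
    rw [← hsq]
    exact pow_lt_self_of_lt_one₀ hpos hzlt (by norm_num)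
  have hDt : v ((2 * y₁ + a₁ * x₁ + a₃) * (x₂ / y₂)) = v (x₂ / y₂) := by
    rw [map_mul, hDu, one_mul]
  have e : ℓ ^ 2 + a₁ * ℓ - a₂ - x₁ - x₂ - x₁ =
      (ℓ ^ 2 + a₁ * ℓ - a₂ - x₁ - x₂ - x₁ + (2 * y₁ + a₁ * x₁ + a₃) * (x₂ / y₂)) -
        (2 * y₁ + a₁ * x₁ + a₃) * (x₂ / y₂) := by ring
  rw [e, v.map_sub_eq_of_lt_right (by rw [hDt]; exact lt_of_le_of_lt hb hlt), hDt]

end valuation

section points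

variable {K : Type*} [Field K] [DecidableEq K] {Γ₀ : Type*} [LinearOrderedCommGroupWithZero Γ₀]
  (v : Valuation K Γ₀) (W : WeierstrassCurve K)

/-- **Translation estimate.**  `P = (x₁, y₁)` an integral point, `R = (x₂, y₂)` a point of
the kernel of reduction.  Then `P + R` is an affine point `(x₃, y₃)` with
`x₃ - x₁ ≡ -(2 y₁ + a₁ x₁ + a₃) * t(R)` modulo `t(R) ^ 2`; in particular
`v (x₃ - x₁) = v (t R)` when `2 y₁ + a₁ x₁ + a₃` is a unit. -/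
theorem h57_add_x (h1 : v W.a₁ ≤ 1) (h2 : v W.a₂ ≤ 1) (h3 : v W.a₃ ≤ 1) (h4 : v W.a₄ ≤ 1)
    (h6 : v W.a₆ ≤ 1) {x₁ y₁ x₂ y₂ : K} (hP : W.toAffine.Nonsingular x₁ y₁)
    (hR : W.toAffine.Nonsingular x₂ y₂) (hx₁ : v x₁ ≤ 1) (hx₂ : 1 < v x₂) :
    ∃ (x₃ y₃ : K) (h₃ : W.toAffine.Nonsingular x₃ y₃),
      Affine.Point.some x₁ y₁ hP + Affine.Point.some x₂ y₂ hR = Affine.Point.some x₃ y₃ h₃ ∧
      v (x₃ - x₁ + (2 * y₁ + W.a₁ * x₁ + W.a₃) * (x₂ / y₂)) ≤ (v x₂)⁻¹ ∧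
      (v (2 * y₁ + W.a₁ * x₁ + W.a₃) = 1 → v (x₃ - x₁) = v (x₂ / y₂)) := by
  have e₁ := (Affine.equation_iff ..).mp hP.1
  have e₂ := (Affine.equation_iff ..).mp hR.1
  have hy₁ : v y₁ ≤ 1 := h86_integral_y v h1 h2 h3 h4 h6 e₁ hx₁
  have hx : x₁ ≠ x₂ := by
    rintro rfl
    exact absurd hx₁ (not_le.mpr hx₂)
  have hxy : ¬(x₁ = x₂ ∧ y₁ = W.toAffine.negY x₂ y₂) := fun h => hx h.1
  have hℓ : W.toAffine.slope x₁ x₂ y₁ y₂ * (x₁ - x₂) = y₁ - y₂ := by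
    rw [Affine.slope_of_X_ne hx, div_mul_cancel₀ _ (sub_ne_zero.mpr hx)]
  rw [Affine.Point.add_some hxy]
  refine ⟨_, _, _, rfl, ?_, ?_⟩
  · exact h57_chord_val v h1 h2 h3 h4 h6 e₂ hx₁ hy₁ hx₂ hℓ
  · intro hDu
    exact h57_chord_eq v h1 h2 h3 h4 h6 e₂ hx₁ hy₁ hx₂ hℓ hDu

end points

end Fermat.Agent.S40
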