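import Fermat.Agent.S40.h57_ETop
import Fermat.Agent.S40.h13_ECoreSharp

/-
helper57, project S40 (G40): the E-SIDE at the instance `ℚ̄`, final form.

`W₀` an integral Weierstrass model with `p ∤ Δ` (`p` odd), `A` a place of `ℚ̄` over `p`,
`I = A.inertiaSubgroupIn ℚ`, `I' = {σ ∈ I | σ ζ = ζ}`.

* `h57_inertia_sub_mem_E1` : good reduction ⟹ `σ P - P ∈ E₁` for every `σ ∈ I` and every
  point `P` (integral points: congruence + nonsingular reduction; points of `E₁`: stability);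
* `h57_E_top` : let `θ` be a Kummer generator (`θ ^ p` fixed by `I'`) in the TRES RAMIFIE
  position (no `v θ ^ l`, `0 < l < p`, is the valuation of a nonzero `I'`-fixed element).  If the
  stabiliser of `θ` in `I'` fixes the `p`-torsion point `P`, then all of `I'` fixes `P`.

No line in `E[p]`, no ordinary shape, no unramifiedness input: the depth input is the sharp
bound of `h13_E_core_sharp` (helper13), the case `P ∈ E₁` is `h95_t_sub` (helper95).
-/

set_option autoImplicit false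

namespace Fermat.Agent.S40

open WeierstrassCurve WeierstrassCurve.Affine Fermat.Agent.S05 Fermat.Agent.S33

local notation "Qb" => AlgebraicClosure ℚ

section inst

variable (W₀ : WeierstrassCurve ℤ)

/-- Good reduction: inertia moves every point by an element of the kernel of reduction. -/
theorem h57_inertia_sub_mem_E1 (p : ℕ) [Fact p.Prime] (hgood : ¬ (p : ℤ) ∣ W₀.Δ)
    (A : ValuationSubring Qb) (hA : A.LiesOverPrime p)
    {σ : Qb ≃ₐ[ℚ] Qb} (hσ : σ ∈ A.inertiaSubgroupIn ℚ) (P : (h57_EQb W₀).toAffine.Point) :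
    σ • P - P ∈ h86_E1 A (h57_EQb W₀) (h57_EQb_integral W₀ A) := by
  have hp : p.Prime := Fact.out
  have hW := h57_EQb_integral W₀ A
  have hΔ : (h57_EQb W₀).Δ ∉ A.nonunits := by
    rw [h57_EQb_Δ, h26_intCast_mem_nonunits_iff A hp hA]
    exact hgood
  rcases P with _ | ⟨x, y, h⟩
  · have h0 : σ • (Affine.Point.zero : (h57_EQb W₀).toAffine.Point) - Affine.Point.zero = 0 :=
      sub_self _
    rw [h0]
    exact zero_mem _
  · obtain ⟨h', hs⟩ := h57_smul_some W₀ σ h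
    rw [hs]
    by_cases hx : x ∈ A
    · have hW18 : h18_Integral A (h57_EQb W₀).toAffine :=
        ⟨hW.1, hW.2.1, hW.2.2.1, hW.2.2.2.1, hW.2.2.2.2⟩
      have hy : y ∈ A := h18_y_mem hW18 h.1 hx
      have key := h18_sub_mem_E1 hW18 h h' hx hy
        (h26_sub_mem_nonunits_of_mem_inertia A hσ hx)
        (h26_sub_mem_nonunits_of_mem_inertia A hσ hy)
        (h18_nonsingular_reduction_of_Δ_unit hW18 hΔ h.1 hx)
      exact (h86_mem_E1_iff A _ hW _).mpr key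
    · have hPm : Affine.Point.some x y h ∈ h86_E1 A (h57_EQb W₀) hW :=
        (h86_some_mem_E1_iff A _ hW h).mpr hx
      have hPm' : Affine.Point.some (σ x) (σ y) h' ∈ h86_E1 A (h57_EQb W₀) hW := by
        rw [h86_some_mem_E1_iff]
        intro hσx
        exact hx ((h26_mem_iff_of_mem_inertia A hσ x).mp hσx)
      exact sub_mem hPm' hPm

/-- **E-SIDE of S40, final instance form.**  See the file header. -/
theorem h57_E_top (p : ℕ) [Fact p.Prime] (hp2 : p ≠ 2) (hgood : ¬ (p : ℤ) ∣ W₀.Δ)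
    (A : ValuationSubring Qb) (hA : A.LiesOverPrime p) (ζ : Qb) (hζ : IsPrimitiveRoot ζ p)
    (θ : Qb) (hθ0 : θ ≠ 0)
    (hκ : ∀ σ ∈ A.inertiaSubgroupIn ℚ, σ ζ = ζ → σ (θ ^ p) = θ ^ p)
    (htres : ∀ c : Qb, (∀ σ ∈ A.inertiaSubgroupIn ℚ, σ ζ = ζ → σ c = c) → c ≠ 0 →
      ∀ l : ℕ, 0 < l → l < p → A.valuation c ≠ A.valuation θ ^ l)
    (P : (h57_EQb W₀).toAffine.Point) (hP : p • P = 0)
    (hfac : ∀ σ ∈ A.inertiaSubgroupIn ℚ, σ ζ = ζ → σ θ = θ → σ • P = P)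
    (σ : Qb ≃ₐ[ℚ] Qb) (hσ : σ ∈ A.inertiaSubgroupIn ℚ) (hσζ : σ ζ = ζ) : σ • P = P := by
  have hp : p.Prime := Fact.out
  have hpQ : (p : Qb) ≠ 0 := by exact_mod_cast hp.ne_zero
  have hζp : ζ ^ p = 1 := hζ.pow_eq_one
  have hζ1 : ζ ≠ 1 := hζ.ne_one hp.one_lt
  have hW := h57_EQb_integral W₀ A
  have hΔ : (h57_EQb W₀).Δ ∉ A.nonunits := by
    rw [h57_EQb_Δ, h26_intCast_mem_nonunits_iff A hp hA]
    exact hgood
  by_contra hne
  -- the group `I'`
  let G : Subgroup (Qb ≃ₐ[ℚ] Qb) :=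
    A.inertiaSubgroupIn ℚ ⊓ MulAction.stabilizer (Qb ≃ₐ[ℚ] Qb) ζ
  have hG : ∀ h : Qb ≃ₐ[ℚ] Qb, h ∈ G ↔ h ∈ A.inertiaSubgroupIn ℚ ∧ h ζ = ζ :=
    fun h => Subgroup.mem_inf
  -- Kummer data
  have hθG : ∀ h ∈ G, ∃ j : ℕ, h • θ = ζ ^ j * θ := by
    intro h hh
    obtain ⟨hI, hζh⟩ := (hG h).mp hh
    have h1 : (h θ / θ) ^ p = 1 := by
      rw [div_pow, ← map_pow, hκ h hI hζh, div_self (pow_ne_zero _ hθ0)]
    obtain ⟨j, -, hj⟩ := hζ.eq_pow_of_pow_eq_one h1
    refine ⟨j, ?_⟩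
    change h θ = ζ ^ j * θ
    rw [hj, div_mul_cancel₀ _ hθ0]
  have hσG : σ ∈ G := (hG σ).mpr ⟨hσ, hσζ⟩
  obtain ⟨j, hj⟩ := hθG σ hσG
  have hj' : σ θ = ζ ^ j * θ := hj
  have hpj : ¬ p ∣ j := by
    rintro ⟨q, rfl⟩
    rw [pow_mul, hζp, one_pow, one_mul] at hj'
    exact hne (hfac σ hσ hσζ hj')
  have hcop : Nat.Coprime j p := (Nat.Coprime.symm ((Nat.Prime.coprime_iff_not_dvd hp).2 hpj))
  obtain ⟨m, -, hm⟩ := Nat.exists_mul_mod_eq_one_of_coprime hcop hp.one_lt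
  have hjm : j * m = p * (j * m / p) + 1 := by
    have := Nat.div_add_mod (j * m) p
    omega
  have hpm : ¬ p ∣ m := by
    rintro ⟨q, rfl⟩
    rw [← mul_assoc, mul_comm j p, mul_assoc, Nat.mul_mod_right] at hm
    exact zero_ne_one hm
  have hσk : ∀ k : ℕ, (σ ^ k) θ = ζ ^ (j * k) * θ := by
    intro k
    induction k with
    | zero => simp
    | succ k ih =>
      rw [pow_succ', AlgEquiv.mul_apply, ih, map_mul, map_pow, hσζ, hj', ← mul_assoc,
        ← pow_add, Nat.mul_succ]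
  have hgG : σ ^ m ∈ G := G.pow_mem hσG m
  have hgθ : (σ ^ m) • θ = ζ * θ := by
    change (σ ^ m) θ = ζ * θ
    rw [hσk m, hjm, pow_add, pow_mul, hζp, one_pow, one_mul, pow_one]
  -- `σ ^ m` moves `P`
  have hpowfix : ∀ τ : Qb ≃ₐ[ℚ] Qb, τ • P = P → ∀ k : ℕ, (τ ^ k) • P = P := by
    intro τ hτ k
    induction k with
    | zero => simp
    | succ k ih => rw [pow_succ, mul_smul, hτ, ih]
  have hgP : (σ ^ m) • P ≠ P := by
    intro hfixm
    have hσpθ : (σ ^ p) θ = θ := by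
      rw [hσk p, mul_comm j p, pow_mul, hζp, one_pow, one_mul]
    have hσpG : σ ^ p ∈ G := G.pow_mem hσG p
    have hfixp : (σ ^ p) • P = P := hfac _ ((hG _).mp hσpG).1 ((hG _).mp hσpG).2 hσpθ
    have hcop' : Nat.Coprime m p :=
      (Nat.Coprime.symm ((Nat.Prime.coprime_iff_not_dvd hp).2 hpm))
    obtain ⟨m', -, hm'⟩ := Nat.exists_mul_mod_eq_one_of_coprime hcop' hp.one_lt
    have hmm : m * m' = p * (m * m' / p) + 1 := by
      have := Nat.div_add_mod (m * m') p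
      omega
    have h1 : (σ ^ (m * m')) • P = P := by
      rw [pow_mul]
      exact hpowfix _ hfixm m'
    have h2 : (σ ^ (p * (m * m' / p))) • P = P := by
      rw [pow_mul]
      exact hpowfix _ hfixp _
    rw [hmm, pow_succ', mul_smul, h2] at h1
    exact hne h1
  -- the translation `R := g P - P`
  obtain ⟨R, hRdef⟩ : ∃ R : (h57_EQb W₀).toAffine.Point, R = (σ ^ m) • P - P := ⟨_, rfl⟩
  have hR0 : R ≠ 0 := by
    rw [hRdef]
    exact fun h => hgP (sub_eq_zero.mp h)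
  have hRE1 : R ∈ h86_E1 A (h57_EQb W₀) hW := by
    rw [hRdef]
    exact h57_inertia_sub_mem_E1 W₀ p hgood A hA ((hG _).mp hgG).1 P
  have hRp : p • R = 0 := by
    rw [hRdef, nsmul_sub, ← h57_smul_nsmul, hP, sub_zero]
    rfl
  have hRadd : (σ ^ m) • P = P + R := by
    rw [hRdef]
    abel
  rcases P with _ | ⟨x, y, hxy⟩
  · exact hne rfl
  · obtain ⟨hxy', hs⟩ := h57_smul_some W₀ (σ ^ m) hxy
    rw [hs] at hRadd
    refine h13_E_core_sharp A (h57_EQb W₀) G hW hΔ hp hp2 hA hpQ hζp hζ1 ?_ hθ0 hθG hgG hgθ ?_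
      hxy hxy' ?_ hP hRadd hRE1 hR0 hRp
    · intro h hh
      exact ((hG h).mp hh).2
    · intro c hc hc0 l hl0 hlp
      exact htres c (fun s hs hsζ => hc s ((hG s).mpr ⟨hs, hsζ⟩)) hc0 l hl0 hlp
    · intro h hh hhθ
      obtain ⟨hI, hζh⟩ := (hG h).mp hh
      have hfx := hfac h hI hζh hhθ
      obtain ⟨h', hs'⟩ := h57_smul_some W₀ h hxy
      rw [hs', Affine.Point.some.injEq] at hfx
      exact hfx

end inst

end Fermat.Agent.S40
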