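/-
helper57, project S40 (G40), row R13 (E-MULT), FINAL: the E-side hypothesis of the level-lowering
core (`h37_ESide`, helper37) holds for the Frey curve at `p`.

`h57_ESide_frey (P : FreyPackage) : h37_ESide P.freyCurve P.p`

Assembly: `h26_E_frey_kappa0` (helper26: transport of the model `Y² = X³ + a X² + b X` to the Frey
curve, good alternative by `h57_E_top`, `False` form by the tame valuations of helper8) with its
model-level multiplicative input `hmult` discharged by `h57_EMultTop`.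

Also the "top" shape on the Frey curve (`h57_E_frey_top`) and the `False` form for every integral
model (`h57_E_frey_model_kappa0`), with no remaining hypothesis.
-/
import Fermat.Agent.S40.h26_EFrey
import Fermat.Agent.S40.h57_EMultInst
import Fermat.Agent.S40.h37_ESide

set_option autoImplicit false

namespace Fermat.Agent.S40

open WeierstrassCurve WeierstrassCurve.Affine Fermat.Agent.S05 Fermat.Agent.S13

local notation "Qb" => AlgebraicClosure ℚ

/-- The model-level multiplicative input of helper26's transport, discharged. -/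
theorem h57_hmult (P : FreyPackage) (A : ValuationSubring Qb) (hA : A.LiesOverPrime P.p)
    (a b : ℤ) (h : ¬ (P.p : ℤ) ∣ a ∧ ∃ g : ℤ, g ≠ 0 ∧ (P.p : ℤ) ∣ g ∧ b = g ^ P.p) :
    h26_EMultTop A P.p a b := by
  have hp2 : P.p ≠ 2 := by have := P.hp5; omega
  exact h57_EMultTop P.p P.pp hp2 A hA a b h

/-- **E-side on the Frey curve, top shape** (twin of `h57_E_top`): if the stabiliser in
`I' = {σ ∈ I | σ ζ = ζ}` of a très ramifié Kummer generator `θ` fixes the `p`-torsion point `T`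
of the Frey curve, then `I'` fixes `T`. -/
theorem h57_E_frey_top (P : FreyPackage) (A : ValuationSubring Qb) (hA : A.LiesOverPrime P.p)
    (ζ : Qb) (hζ : IsPrimitiveRoot ζ P.p) (θ : Qb) (hθ0 : θ ≠ 0)
    (hκ : ∀ σ ∈ A.inertiaSubgroupIn ℚ, σ ζ = ζ → σ (θ ^ P.p) = θ ^ P.p)
    (htres : ∀ c : Qb, (∀ σ ∈ A.inertiaSubgroupIn ℚ, σ ζ = ζ → σ c = c) → c ≠ 0 →
      ∀ l : ℕ, 0 < l → l < P.p → A.valuation c ≠ A.valuation θ ^ l)
    (T : (P.freyCurve⁄Qb).Point) (hT : P.p • T = 0)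
    (hfac : ∀ σ ∈ A.inertiaSubgroupIn ℚ, σ ζ = ζ → σ θ = θ → σ • T = T)
    (σ : Qb ≃ₐ[ℚ] Qb) (hσ : σ ∈ A.inertiaSubgroupIn ℚ) (hσζ : σ ζ = ζ) : σ • T = T :=
  h26_E_frey_top P A hA (h57_hmult P A hA) ζ hζ θ hθ0 hκ htres T hT hfac σ hσ hσζ

/-- **E-side on the Frey curve, `False` form** (twin of `h57_E_top_kappa0`). -/
theorem h57_E_frey_kappa0 (P : FreyPackage) (A : ValuationSubring Qb) (hA : A.LiesOverPrime P.p)
    (ζ : Qb) (hζ : IsPrimitiveRoot ζ P.p) (e : Qb) (he0 : e ≠ 0)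
    (hκI : ∀ σ ∈ A.inertiaSubgroupIn ℚ, σ (e ^ P.p) = e ^ P.p)
    (hκv : ∀ m : ℤ, A.valuation (e ^ P.p) ≠ A.valuation (P.p : Qb) ^ ((P.p : ℤ) * m))
    (T : (P.freyCurve⁄Qb).Point) (hT : P.p • T = 0)
    (hiff : ∀ σ ∈ A.inertiaSubgroupIn ℚ, σ ζ = ζ → (σ e = e ↔ σ • T = T)) : False :=
  h26_E_frey_kappa0 P A hA (h57_hmult P A hA) ζ hζ e he0 hκI hκv T hT hiff

/-- **The E-side hypothesis of the level-lowering core holds for the Frey curve.** -/
theorem h57_ESide_frey (P : FreyPackage) : h37_ESide P.freyCurve P.p :=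
  fun A hA ζ hζ e he0 hκI hκv T hT hiff =>
    h57_E_frey_kappa0 P A hA ζ hζ e he0 hκI hκv T hT hiff

/-- `False` form for every integral model of the Frey curve (points of `h57_EQb W`). -/
theorem h57_E_frey_model_kappa0 (P : FreyPackage) (W : WeierstrassCurve ℤ)
    (hW : W.IsIntegralModelOf P.freyCurve)
    (A : ValuationSubring Qb) (hA : A.LiesOverPrime P.p)
    (ζ : Qb) (hζ : IsPrimitiveRoot ζ P.p) (e : Qb) (he0 : e ≠ 0)
    (hκI : ∀ σ ∈ A.inertiaSubgroupIn ℚ, σ (e ^ P.p) = e ^ P.p)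
    (hκv : ∀ m : ℤ, A.valuation (e ^ P.p) ≠ A.valuation (P.p : Qb) ^ ((P.p : ℤ) * m))
    (T : (h57_EQb W).toAffine.Point) (hT : P.p • T = 0)
    (hiff : ∀ σ ∈ A.inertiaSubgroupIn ℚ, σ ζ = ζ → (σ e = e ↔ σ • T = T)) : False :=
  h26_E_frey_model_kappa0 P W hW A hA (h57_hmult P A hA) ζ hζ e he0 hκI hκv T hT hiff

end Fermat.Agent.S40
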