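import Fermat.Agent.S40.h57_ECore
import Fermat.Agent.S40.h76_EDepth
import Fermat.Agent.S05.h26_Inertia
import Fermat.Agent.S33.h14_Unr
import Fermat.Prelude.Def_FLTPrelim_GaloisRep

/-
helper57, project S40 (G40): the E-SIDE at the instance `ℚ̄`.

`W₀` an integral Weierstrass model with `p ∤ Δ` (`p` odd), `A` a place of `ℚ̄` over `p`,
`I = A.inertiaSubgroupIn ℚ`, `I' = {σ ∈ I | σ ζ = ζ}`.  Configuration to refute
(`(*)` of board #3401 = the output of (TR) on the modular side):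

* a line `⟨P₁⟩ ⊂ E[p]` on which `I` acts through the cyclotomic character and such that `I'`
  acts trivially on `E[p] / ⟨P₁⟩`;
* a Kummer generator `θ` (`θ ^ p` fixed by `I'`) in the TRES RAMIFIE position: no `v θ ^ l`,
  `0 < l < p`, is the valuation of an `I'`-fixed element;
* the action of `I'` on `E[p]` factors through the stabiliser of `θ`.

Conclusion: `I'` acts trivially on `E[p]`.

`h57_E_top_aux` takes two further inputs as hypotheses (they are instance leaves written by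
other seats): `hgen` (the cyclotomic character is onto on inertia) and `hdiff` (exact
difference law for `t` on the kernel of reduction).
-/

set_option autoImplicit false

namespace Fermat.Agent.S40

open WeierstrassCurve WeierstrassCurve.Affine Fermat.Agent.S05 Fermat.Agent.S33

local notation "Qb" => AlgebraicClosure ℚ

/-- The curve over `ℚ̄` attached to an integral Weierstrass model (the curve whose points carry
the Galois action in the frozen statements). -/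
noncomputable abbrev h57_EQb (W₀ : WeierstrassCurve ℤ) : WeierstrassCurve Qb :=
  (W₀.map (Int.castRingHom ℚ))⁄Qb

section inst

variable (W₀ : WeierstrassCurve ℤ)

lemma h57_EQb_Δ : (h57_EQb W₀).Δ = ((W₀.Δ : ℤ) : Qb) := by
  simp [h57_EQb, WeierstrassCurve.baseChange, WeierstrassCurve.map_Δ]

lemma h57_EQb_integral (A : ValuationSubring Qb) : h86_Integral A (h57_EQb W₀) := by
  refine ⟨?_, ?_, ?_, ?_, ?_⟩ <;>
  · simp only [h57_EQb, WeierstrassCurve.baseChange, WeierstrassCurve.map, eq_intCast,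
      map_intCast]
    exact intCast_mem A _

lemma h57_smul_nsmul (σ : Qb ≃ₐ[ℚ] Qb) (k : ℕ) (Q : (h57_EQb W₀).toAffine.Point) :
    σ • (k • Q) = k • (σ • Q) :=
  map_nsmul (Affine.Point.map (W' := W₀.map (Int.castRingHom ℚ)) σ.toAlgHom) k Q

lemma h57_smul_add (σ : Qb ≃ₐ[ℚ] Qb) (Q Q' : (h57_EQb W₀).toAffine.Point) :
    σ • (Q + Q') = σ • Q + σ • Q' :=
  map_add (Affine.Point.map (W' := W₀.map (Int.castRingHom ℚ)) σ.toAlgHom) Q Q'

lemma h57_smul_some (σ : Qb ≃ₐ[ℚ] Qb) {x y : Qb}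
    (h : (h57_EQb W₀).toAffine.Nonsingular x y) :
    ∃ h' : (h57_EQb W₀).toAffine.Nonsingular (σ x) (σ y),
      σ • (Affine.Point.some x y h : (h57_EQb W₀).toAffine.Point) =
        Affine.Point.some (σ x) (σ y) h' :=
  ⟨_, rfl⟩

/-- `t = x / y` commutes with the Galois action. -/
lemma h57_t_smul (σ : Qb ≃ₐ[ℚ] Qb) (Q : (h57_EQb W₀).toAffine.Point) :
    h86_t (h57_EQb W₀) (σ • Q) = σ (h86_t (h57_EQb W₀) Q) := by
  rcases Q with _ | ⟨x, y, h⟩
  · exact (map_zero σ).symm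
  · exact (map_div₀ σ x y).symm

/-- Multiples of a `p`-torsion point: cancellation of a multiplier prime to `p`. -/
lemma h57_eq_zero_of_nsmul {p : ℕ} (hp : p.Prime) {Q : (h57_EQb W₀).toAffine.Point}
    (hQ : p • Q = 0) {k : ℕ} (hk : ¬ p ∣ k) (h0 : k • Q = 0) : Q = 0 := by
  have hcop : Nat.Coprime k p := (Nat.Coprime.symm ((Nat.Prime.coprime_iff_not_dvd hp).2 hk))
  obtain ⟨m, -, hm⟩ := Nat.exists_mul_mod_eq_one_of_coprime hcop hp.one_lt
  have h1 : k * m = p * (k * m / p) + 1 := by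
    have := Nat.div_add_mod (k * m) p
    omega
  have h2 : (k * m) • Q = 0 := by rw [mul_comm, mul_smul, h0, nsmul_zero]
  rw [h1, add_smul, mul_comm, mul_smul, hQ, nsmul_zero, zero_add, one_smul] at h2
  exact h2

/-- The kernel of reduction is stable under division by integers prime to `p` on
`p`-torsion points. -/
lemma h57_mem_E1_of_nsmul (A : ValuationSubring Qb) {p : ℕ} (hp : p.Prime)
    {Q : (h57_EQb W₀).toAffine.Point} (hQ : p • Q = 0) {k : ℕ} (hk : ¬ p ∣ k)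
    (h : k • Q ∈ h86_E1 A (h57_EQb W₀) (h57_EQb_integral W₀ A)) :
    Q ∈ h86_E1 A (h57_EQb W₀) (h57_EQb_integral W₀ A) := by
  have hcop : Nat.Coprime k p := (Nat.Coprime.symm ((Nat.Prime.coprime_iff_not_dvd hp).2 hk))
  obtain ⟨m, -, hm⟩ := Nat.exists_mul_mod_eq_one_of_coprime hcop hp.one_lt
  have h1 : k * m = p * (k * m / p) + 1 := by
    have := Nat.div_add_mod (k * m) p
    omega
  have h2 : (k * m) • Q = Q := by
    rw [h1, add_smul, mul_comm, mul_smul, hQ, nsmul_zero, zero_add, one_smul]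
  rw [← h2, mul_comm, mul_smul]
  exact nsmul_mem h m

/-- **E-side, instance form with two leaf hypotheses.**  See the file header. -/
theorem h57_E_top_aux (p : ℕ) [Fact p.Prime] (hp2 : p ≠ 2)
    (hgood : ¬ (p : ℤ) ∣ W₀.Δ) (A : ValuationSubring Qb) (hA : A.LiesOverPrime p)
    (ζ : Qb) (hζ : IsPrimitiveRoot ζ p)
    (hgen : ∃ σ₀ ∈ A.inertiaSubgroupIn ℚ,
      ∀ n : ℕ, σ₀ ζ = ζ ^ n → orderOf (n : ZMod p) = p - 1)
    (hdiff : ∀ Q Q' : (h57_EQb W₀).toAffine.Point,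
      Q ∈ h86_E1 A (h57_EQb W₀) (h57_EQb_integral W₀ A) →
      Q' ∈ h86_E1 A (h57_EQb W₀) (h57_EQb_integral W₀ A) →
      A.valuation (h86_t (h57_EQb W₀) (Q' - Q)) =
        A.valuation (h86_t (h57_EQb W₀) Q' - h86_t (h57_EQb W₀) Q))
    (P₁ : (h57_EQb W₀).toAffine.Point) (hP₁0 : P₁ ≠ 0) (hP₁p : p • P₁ = 0)
    (hω : ∀ σ ∈ A.inertiaSubgroupIn ℚ, ∀ n : ℕ, σ ζ = ζ ^ n → σ • P₁ = n • P₁)
    (hquot : ∀ σ ∈ A.inertiaSubgroupIn ℚ, σ ζ = ζ → ∀ P : (h57_EQb W₀).toAffine.Point,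
      p • P = 0 → ∃ n : ℕ, σ • P - P = n • P₁)
    (θ : Qb) (hθ0 : θ ≠ 0)
    (hκ : ∀ σ ∈ A.inertiaSubgroupIn ℚ, σ ζ = ζ → σ (θ ^ p) = θ ^ p)
    (htres : ∀ c : Qb, (∀ σ ∈ A.inertiaSubgroupIn ℚ, σ ζ = ζ → σ c = c) → c ≠ 0 →
      ∀ l : ℕ, 0 < l → l < p → A.valuation c ≠ A.valuation θ ^ l)
    (hfac : ∀ σ ∈ A.inertiaSubgroupIn ℚ, σ ζ = ζ → σ θ = θ →
      ∀ P : (h57_EQb W₀).toAffine.Point, p • P = 0 → σ • P = P)
    (σ : Qb ≃ₐ[ℚ] Qb) (hσ : σ ∈ A.inertiaSubgroupIn ℚ) (hσζ : σ ζ = ζ)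
    (P : (h57_EQb W₀).toAffine.Point) (hP : p • P = 0) : σ • P = P := by
  have hp : p.Prime := Fact.out
  have hpQ : (p : Qb) ≠ 0 := by exact_mod_cast hp.ne_zero
  have hζp : ζ ^ p = 1 := hζ.pow_eq_one
  have hζ1 : ζ ≠ 1 := hζ.ne_one hp.one_lt
  have hW := h57_EQb_integral W₀ A
  have hΔ : (h57_EQb W₀).Δ ∉ A.nonunits := by
    rw [h57_EQb_Δ, h26_intCast_mem_nonunits_iff A hp hA]
    exact hgood
  by_contra hne
  -- the group `I'`
  let G : Subgroup (Qb ≃ₐ[ℚ] Qb) :=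
    A.inertiaSubgroupIn ℚ ⊓ MulAction.stabilizer (Qb ≃ₐ[ℚ] Qb) ζ
  have hG : ∀ h : Qb ≃ₐ[ℚ] Qb, h ∈ G ↔ h ∈ A.inertiaSubgroupIn ℚ ∧ h ζ = ζ :=
    fun h => Subgroup.mem_inf
  -- Kummer data
  have hθG : ∀ h ∈ G, ∃ j : ℕ, h • θ = ζ ^ j * θ := by
    intro h hh
    obtain ⟨hI, hζh⟩ := (hG h).mp hh
    have h1 : (h θ / θ) ^ p = 1 := by
      rw [div_pow, ← map_pow, hκ h hI hζh, div_self (pow_ne_zero _ hθ0)]
    obtain ⟨j, -, hj⟩ := hζ.eq_pow_of_pow_eq_one h1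
    refine ⟨j, ?_⟩
    change h θ = ζ ^ j * θ
    rw [hj, div_mul_cancel₀ _ hθ0]
  have hσG : σ ∈ G := (hG σ).mpr ⟨hσ, hσζ⟩
  obtain ⟨j, hj⟩ := hθG σ hσG
  have hj' : σ θ = ζ ^ j * θ := hj
  have hpj : ¬ p ∣ j := by
    rintro ⟨q, rfl⟩
    rw [pow_mul, hζp, one_pow, one_mul] at hj'
    exact hne (hfac σ hσ hσζ hj' P hP)
  have hcop : Nat.Coprime j p := (Nat.Coprime.symm ((Nat.Prime.coprime_iff_not_dvd hp).2 hpj))
  obtain ⟨m, -, hm⟩ := Nat.exists_mul_mod_eq_one_of_coprime hcop hp.one_lt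
  have hjm : j * m = p * (j * m / p) + 1 := by
    have := Nat.div_add_mod (j * m) p
    omega
  have hpm : ¬ p ∣ m := by
    rintro ⟨q, rfl⟩
    rw [← mul_assoc, mul_comm j p, mul_assoc, Nat.mul_mod_right] at hm
    exact zero_ne_one hm
  have hσk : ∀ k : ℕ, (σ ^ k) θ = ζ ^ (j * k) * θ := by
    intro k
    induction k with
    | zero => simp
    | succ k ih =>
      rw [pow_succ', AlgEquiv.mul_apply, ih, map_mul, map_pow, hσζ, hj', ← mul_assoc,
        ← pow_add, Nat.mul_succ]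
  have hgG : σ ^ m ∈ G := G.pow_mem hσG m
  have hgθ : (σ ^ m) • θ = ζ * θ := by
    change (σ ^ m) θ = ζ * θ
    rw [hσk m, hjm, pow_add, pow_mul, hζp, one_pow, one_mul, pow_one]
  -- points
  have hσP₁ : σ • P₁ = P₁ := by
    have := hω σ hσ 1 (by rw [pow_one, hσζ])
    rwa [one_smul] at this
  obtain ⟨n, hn⟩ := hquot σ hσ hσζ P hP
  have hR₀ : σ • P - P ≠ 0 := fun h => hne (sub_eq_zero.mp h)
  have hσR₀ : σ • (σ • P - P) = σ • P - P := by
    rw [hn, h57_smul_nsmul, hσP₁]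
  have hσkP : ∀ k : ℕ, (σ ^ k) • P = P + k • (σ • P - P) := by
    intro k
    induction k with
    | zero => simp
    | succ k ih =>
      rw [pow_succ', mul_smul, ih, h57_smul_add, h57_smul_nsmul, hσR₀, succ_nsmul]
      abel
  have hpR₀ : p • (σ • P - P) = 0 := by
    rw [hn, ← mul_smul, mul_comm, mul_smul, hP₁p, nsmul_zero]
  obtain ⟨R, hRdef⟩ : ∃ R : (h57_EQb W₀).toAffine.Point, R = m • (σ • P - P) := ⟨_, rfl⟩
  have hgP : (σ ^ m) • P = P + R := by rw [hRdef]; exact hσkP m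
  have hR0 : R ≠ 0 := by
    intro h0
    rw [hRdef] at h0
    exact hR₀ (h57_eq_zero_of_nsmul W₀ hp hpR₀ hpm h0)
  have hRp : p • R = 0 := by
    rw [hRdef, ← mul_smul, mul_comm, mul_smul, hpR₀, nsmul_zero]
  have hRP₁ : R = (m * n) • P₁ := by rw [hRdef, hn, mul_smul]
  -- `P₁` lies in the kernel of reduction
  have hP₁E1 : P₁ ∈ h86_E1 A (h57_EQb W₀) hW := by
    obtain ⟨σ₀, hσ₀, hord⟩ := hgen
    have h1 : (σ₀ ζ) ^ p = 1 := by rw [← map_pow, hζp, map_one]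
    obtain ⟨a, -, ha⟩ := hζ.eq_pow_of_pow_eq_one h1
    have hσ₀ζ : σ₀ ζ = ζ ^ a := ha.symm
    have horda := hord a hσ₀ζ
    have ha1 : ¬ p ∣ (a + (p - 1)) := by
      intro hdvd
      have h2 : ((a + (p - 1) : ℕ) : ZMod p) = 0 := (ZMod.natCast_eq_zero_iff _ _).mpr hdvd
      have h3 : ((p - 1 : ℕ) : ZMod p) = -1 := by
        rw [Nat.cast_sub hp.one_le]; simp
      have h4 : ((a : ℕ) : ZMod p) = 1 := by
        rw [Nat.cast_add, h3] at h2
        linear_combination h2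
      rw [h4, orderOf_one] at horda
      have := hp.two_le
      omega
    have hσ₀P₁ : σ₀ • P₁ = a • P₁ := hω σ₀ hσ₀ a hσ₀ζ
    have hkey : (a + (p - 1)) • P₁ = σ₀ • P₁ - P₁ := by
      rw [add_smul, hσ₀P₁]
      have h5 : (p - 1) • P₁ = -P₁ := by
        have h4 : (p - 1 + 1) • P₁ = 0 := by rw [Nat.sub_add_cancel hp.one_le]; exact hP₁p
        rw [add_smul, one_smul] at h4
        exact eq_neg_of_add_eq_zero_left h4
      rw [h5, sub_eq_add_neg]
    apply h57_mem_E1_of_nsmul W₀ A hp hP₁p ha1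
    rw [hkey]
    rcases P₁ with _ | ⟨x₁, y₁, h₁⟩
    · exact absurd rfl hP₁0
    · by_cases hx₁ : x₁ ∈ A
      · have hW18 : h18_Integral A (h57_EQb W₀).toAffine :=
          ⟨hW.1, hW.2.1, hW.2.2.1, hW.2.2.2.1, hW.2.2.2.2⟩
        have hy₁ : y₁ ∈ A := h18_y_mem hW18 h₁.1 hx₁
        obtain ⟨h₁', hs⟩ := h57_smul_some W₀ σ₀ h₁
        rw [hs]
        have key := h18_sub_mem_E1 hW18 h₁ h₁' hx₁ hy₁
          (h26_sub_mem_nonunits_of_mem_inertia A hσ₀ hx₁)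
          (h26_sub_mem_nonunits_of_mem_inertia A hσ₀ hy₁)
          (h18_nonsingular_reduction_of_Δ_unit hW18 hΔ h₁.1 hx₁)
        exact (h86_mem_E1_iff A _ hW _).mpr key
      · have hPm : Affine.Point.some x₁ y₁ h₁ ∈ h86_E1 A (h57_EQb W₀) hW :=
          (h86_some_mem_E1_iff A _ hW h₁).mpr hx₁
        rw [hσ₀P₁]
        exact sub_mem (nsmul_mem hPm a) hPm
  have hRE1 : R ∈ h86_E1 A (h57_EQb W₀) hW := by
    rw [hRP₁]
    exact nsmul_mem hP₁E1 _
  -- sharp depth of `R`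
  have hdepth : A.valuation (h86_t (h57_EQb W₀) R) = A.valuation (ζ - 1) := by
    refine h76_depth_eq_subring A (h57_EQb W₀) hW hp hA hζ1 hζp
      {τ : Qb ≃+* Qb | ∃ s ∈ A.inertiaSubgroupIn ℚ, (s : Qb ≃+* Qb) = τ} ?_ ?_ hRE1 hR0 hRp ?_ ?_
    · rintro τ ⟨s, hs, rfl⟩ x hx
      exact h26_sub_mem_nonunits_of_mem_inertia A hs hx
    · intro a ha hfix
      obtain ⟨b, hb, hab, -⟩ := h14_unr p A hA a ha (fun s hs => hfix _ ⟨s, hs, rfl⟩)
      rw [hab, mul_div_cancel_left₀ _ hpQ]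
      exact hb
    · rintro τ ⟨s, hs, rfl⟩
      have h1 : (s ζ) ^ p = 1 := by rw [← map_pow, hζp, map_one]
      obtain ⟨a, -, ha⟩ := hζ.eq_pow_of_pow_eq_one h1
      refine ⟨a, ha.symm, fun i => ?_⟩
      change s (h86_t (h57_EQb W₀) (i • R)) = _
      rw [← h57_t_smul, h57_smul_nsmul, hRP₁, h57_smul_nsmul, hω s hs a ha.symm]
      congr 1
      simp only [← mul_smul]
      congr 1
      ring
    · obtain ⟨σ₀, hσ₀, hord⟩ := hgen
      exact ⟨_, ⟨σ₀, hσ₀, rfl⟩, fun n hn => hord n hn⟩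
  -- coordinates of `P` and the generic core
  rcases P with _ | ⟨x, y, hxy⟩
  · exact hne rfl
  · obtain ⟨hxy', hs⟩ := h57_smul_some W₀ (σ ^ m) hxy
    rw [hs] at hgP
    refine h57_E_core A (h57_EQb W₀) G hW hΔ hp hpQ hζp hζ1 ?_ hθ0 hθG hgG hgθ ?_ hxy hxy' ?_
      hgP hRE1 hdepth ?_ hdiff
    · intro h hh
      exact ((hG h).mp hh).2
    · intro c hc hc0 l hl0 hlp
      exact htres c (fun s hs hsζ => hc s ((hG s).mpr ⟨hs, hsζ⟩)) hc0 l hl0 hlp
    · intro h hh hhθ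
      obtain ⟨hI, hζh⟩ := (hG h).mp hh
      have hfx := hfac h hI hζh hhθ _ hP
      obtain ⟨h', hs'⟩ := h57_smul_some W₀ h hxy
      rw [hs', Affine.Point.some.injEq] at hfx
      exact hfx
    · intro hPE1 h2
      apply hPE1
      refine h57_mem_E1_of_nsmul W₀ A hp hP ?_ h2
      intro hd
      have h1 := Nat.le_of_dvd (by norm_num) hd
      have h2' := hp.two_le
      omega

end inst

end Fermat.Agent.S40
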