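import Mathlib
import Fermat.Prelude.Def_ModularCurve_X0ModL
import Fermat.Prelude.Def_ModularCurve_ReductionModL
import Fermat.Prelude.Def_ModularCurve_HeckeOperator
import Fermat.Prelude.Thm_ModularCurve_coeffMap_qExpand
import Fermat.Agent.S40.h79_RedCorr

/-!
# S40 / (BRIDGE) row (BR2'), objects and generic half (helper58)

The degeneracy maps in characteristic `p` and the compatibility of the place reduction with the
Hecke correspondence on divisors of degree `0`.

* `h58_alphaC k N ℓ`, `h58_betaC k N ℓ` : the two degeneracy maps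
  `Fb(N) → Fb(N ℓ)` between the residual function fields (inclusion, resp. `q ↦ q^ℓ`), over any
  field `k`;
* `h58_red_pullback_alpha_int`, `h58_red_pullback_beta_int` : on integral principal divisors the
  place reductions at the levels `N`, `N ℓ` commute with the pull-backs along `α`, `β` and
  `ᾱ`, `β̄`;
* `h58_red_pullback_alpha`, `h58_red_pullback_beta` : the same on all divisors of degree `0`
  (rigidity, `h79_red_corr`);
* `h58_lie_over` : `r'(P') ∩ Fb(N) = r(P' ∩ F(N))` (from the fundamental identities along `α` and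
  `ᾱ` and the equality of the two degrees);
* `h58_red_push_alpha` : place reduction commutes with the push-forward along `α`;
* `h58_red_corr` : `r_* (α_* β^* D) = ᾱ_* β̄^* (r_* D)` for every divisor `D` of degree `0`.
-/

set_option autoImplicit false
set_option linter.unusedSectionVars false
set_option linter.style.haveILetI false

noncomputable section

open ModularCurve AlgebraicCurve IntermediateField HahnSeries

namespace Fermat.Agent.S40

/-! ## (D1) the degeneracy maps over an arbitrary field -/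

section Maps

variable (k : Type*) [Field k] (N ℓ : ℕ) [NeZero N] [NeZero ℓ]

/-- `ᾱ : Fb(N) → Fb(N ℓ)`, the inclusion. -/
def h58_alphaC : modularFunctionFieldFullC k N →ₐ[k] modularFunctionFieldFullC k (N * ℓ) :=
  IntermediateField.inclusion (full_degeneracyC_le k (dvd_mul_right N ℓ))

@[simp]
theorem h58_coe_alphaC (x : modularFunctionFieldFullC k N) :
    (h58_alphaC k N ℓ x : LaurentSeries k) = (x : LaurentSeries k) :=
  IntermediateField.coe_inclusion _ x

/-- `β̄ : Fb(N) → Fb(N ℓ)`, `q ↦ q^ℓ`. -/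
def h58_betaC : modularFunctionFieldFullC k N →ₐ[k] modularFunctionFieldFullC k (N * ℓ) where
  toFun x := ⟨qExpand k ℓ (x : LaurentSeries k),
    full_degeneracyC_map_le k N ℓ ⟨(x : LaurentSeries k), x.2, rfl⟩⟩
  map_one' := Subtype.ext (map_one (qExpand k ℓ))
  map_mul' _ _ := Subtype.ext (map_mul (qExpand k ℓ) _ _)
  map_zero' := Subtype.ext (map_zero (qExpand k ℓ))
  map_add' _ _ := Subtype.ext (map_add (qExpand k ℓ) _ _)
  commutes' a := Subtype.ext <| by
    show qExpand k ℓ (algebraMap k (LaurentSeries k) a) = algebraMap k (LaurentSeries k) a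
    rw [algebraMap_laurentSeries_eq_single, qExpand_single, mul_zero]

@[simp]
theorem h58_coe_betaC (x : modularFunctionFieldFullC k N) :
    (h58_betaC k N ℓ x : LaurentSeries k) = qExpand k ℓ (x : LaurentSeries k) :=
  rfl

end Maps

/-! ## Generic: pull-back of a principal divisor along an algebra map -/

section GenericPull

variable {K F F' : Type*} [Field K] [Field F] [Field F'] [Algebra K F] [Algebra K F']

theorem h58_pullbackAlong_apply_eq_ord [HasPrincipalDivisors K F'] (φ : F →ₐ[K] F')
    (hφ : φ.toRingHom.IsIntegral) {f : F} {D : Divisor K F}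
    (hD : ∀ v : Place K F, D v = v.ord f) (w : Place K F') :
    Divisor.pullbackAlong φ hφ D w = w.ord (φ f) := by
  rw [Divisor.pullbackAlong_apply, hD, ← Place.ord_restrictAlong]

theorem h58_ramificationIndexAlong_pos (φ : F →ₐ[K] F') (hφ : φ.toRingHom.IsIntegral)
    (w : Place K F') : 0 < Place.ramificationIndexAlong φ w := by
  letI := algebraAlong φ
  haveI := isScalarTower_along φ
  haveI := isIntegral_along φ hφ
  exact w.ramificationIndex_pos

theorem h58_inertiaDegAlong_eq_one (φ : F →ₐ[K] F') (hφ : φ.toRingHom.IsIntegral)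
    (w : Place K F') (h1 : (w.restrictAlong φ hφ).deg = 1) (h2 : w.deg = 1) :
    w.inertiaDegAlong φ hφ = 1 := by
  have h : (w.restrictAlong φ hφ).deg * w.inertiaDegAlong φ hφ = w.deg := by
    letI := algebraAlong φ
    haveI := isScalarTower_along φ
    haveI := isIntegral_along φ hφ
    exact w.deg_restrict_mul_inertiaDeg
  rw [h1, h2, one_mul] at h
  exact h

theorem h58_mapDomain_nonneg {α β : Type*} (f : α → β) (D : α →₀ ℤ) (h : ∀ a, 0 ≤ D a)
    (b : β) : 0 ≤ Finsupp.mapDomain f D b := by
  classical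
  rw [Finsupp.mapDomain, Finsupp.sum_apply, Finsupp.sum]
  refine Finset.sum_nonneg fun a _ => ?_
  rw [Finsupp.single_apply]
  split_ifs
  · exact h a
  · exact le_rfl

theorem h58_le_mapDomain {α β : Type*} (f : α → β) (D : α →₀ ℤ) (h : ∀ a, 0 ≤ D a)
    (a : α) : D a ≤ Finsupp.mapDomain f D (f a) := by
  classical
  rw [Finsupp.mapDomain, Finsupp.sum_apply, Finsupp.sum]
  by_cases ha : a ∈ D.support
  · have h1 := Finset.single_le_sum
      (f := fun a₁ => (Finsupp.single (f a₁) (D a₁) : β →₀ ℤ) (f a)) (s := D.support)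
      (fun i _ => by
        show 0 ≤ (Finsupp.single (f i) (D i) : β →₀ ℤ) (f a)
        rw [Finsupp.single_apply]
        split_ifs
        · exact h i
        · exact le_rfl) ha
    simpa using h1
  · rw [Finsupp.notMem_support_iff.mp ha]
    refine Finset.sum_nonneg fun i _ => ?_
    rw [Finsupp.single_apply]
    split_ifs
    · exact h i
    · exact le_rfl

theorem h58_eq_zero_of_nonneg_of_degree (E : Divisor K F) (hdeg : ∀ Q : Place K F, Q.deg = 1)
    (h0 : ∀ Q, 0 ≤ E Q) (hE : Divisor.degree E = 0) : E = 0 := by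
  classical
  have hsum : Divisor.degree E = ∑ Q ∈ E.support, E Q := by
    rw [Divisor.degree, Finsupp.liftAddHom_apply, Finsupp.sum]
    refine Finset.sum_congr rfl fun Q _ => ?_
    rw [AddMonoidHom.mulRight_apply, hdeg Q]
    simp
  rw [hsum] at hE
  have h1 := (Finset.sum_eq_zero_iff_of_nonneg (fun Q _ => h0 Q)).mp hE
  ext Q
  by_cases hQ : Q ∈ E.support
  · exact h1 Q hQ
  · exact Finsupp.notMem_support_iff.mp hQ

end GenericPull

/-! ## Generic: lying over and push-forward for two maps of places -/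

section GenericCorr

variable {K F F' k Fb Fb' : Type*} [Field K] [Field F] [Field F'] [Algebra K F] [Algebra K F']
  [Field k] [Field Fb] [Field Fb'] [Algebra k Fb] [Algebra k Fb']
  [HasPrincipalDivisors K F'] [HasPrincipalDivisors k Fb']
  (φ : F →ₐ[K] F') (hφ : φ.toRingHom.IsIntegral)
  (φb : Fb →ₐ[k] Fb') (hφb : φb.toRingHom.IsIntegral)
  (r : Place K F → Place k Fb) (r' : Place K F' → Place k Fb')

theorem h58_pullbackAlong_single_nonneg (P : Place K F) (P'' : Place K F') :
    0 ≤ Divisor.pullbackAlong φ hφ (Finsupp.single P 1) P'' := by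
  classical
  rw [Divisor.pullbackAlong_apply, Finsupp.single_apply]
  refine mul_nonneg (Int.natCast_nonneg _) ?_
  split_ifs <;> norm_num

/-- The defect `r'_* (φ^* P) - φ̄^* (r P)` does not depend on the place `P`. -/
theorem h58_defect_const
    (hcompat : ∀ D ∈ Divisor.degZero (K := K) (F := F),
      Finsupp.mapDomain r' (Divisor.pullbackAlong φ hφ D)
        = Divisor.pullbackAlong φb hφb (Finsupp.mapDomain r D))
    (hdeg : ∀ P : Place K F, P.deg = 1) (P P₀ : Place K F) :
    Finsupp.mapDomain r' (Divisor.pullbackAlong φ hφ (Finsupp.single P 1))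
        - Divisor.pullbackAlong φb hφb (Finsupp.single (r P) 1)
      = Finsupp.mapDomain r' (Divisor.pullbackAlong φ hφ (Finsupp.single P₀ 1))
        - Divisor.pullbackAlong φb hφb (Finsupp.single (r P₀) 1) := by
  have hD : Finsupp.single P (1 : ℤ) - Finsupp.single P₀ 1 ∈ Divisor.degZero (K := K) (F := F) := by
    rw [Divisor.mem_degZero, map_sub, Divisor.degree_single, Divisor.degree_single, hdeg,
      hdeg, sub_self]
  have h := hcompat _ hD
  have e1 : ∀ X : Divisor K F', Finsupp.mapDomain r' X = Finsupp.mapDomain.addMonoidHom r' X :=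
    fun _ => rfl
  have e2 : ∀ X : Divisor K F, Finsupp.mapDomain r X = Finsupp.mapDomain.addMonoidHom r X :=
    fun _ => rfl
  rw [e1, e2, map_sub, map_sub, map_sub, map_sub, ← e1, ← e1, ← e2, ← e2,
    Finsupp.mapDomain_single, Finsupp.mapDomain_single, sub_eq_sub_iff_add_eq_add] at h
  rw [sub_eq_sub_iff_add_eq_add, h, add_comm]

theorem h58_defect_nonneg
    (hcompat : ∀ D ∈ Divisor.degZero (K := K) (F := F),
      Finsupp.mapDomain r' (Divisor.pullbackAlong φ hφ D)
        = Divisor.pullbackAlong φb hφb (Finsupp.mapDomain r D))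
    (hdeg : ∀ P : Place K F, P.deg = 1) (htwo : ∃ P₁ P₂, r P₁ ≠ r P₂)
    (P : Place K F) (Q' : Place k Fb') :
    0 ≤ (Finsupp.mapDomain r' (Divisor.pullbackAlong φ hφ (Finsupp.single P 1))
        - Divisor.pullbackAlong φb hφb (Finsupp.single (r P) 1)) Q' := by
  classical
  obtain ⟨P₁, P₂, h12⟩ := htwo
  obtain ⟨P₀, hP₀⟩ : ∃ P₀, r P₀ ≠ Q'.restrictAlong φb hφb := by
    by_cases h1 : r P₁ = Q'.restrictAlong φb hφb
    · exact ⟨P₂, fun h2 => h12 (h1.trans h2.symm)⟩
    · exact ⟨P₁, h1⟩
  rw [h58_defect_const φ hφ φb hφb r r' hcompat hdeg P P₀, Finsupp.sub_apply,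
    Divisor.pullbackAlong_apply φb, Finsupp.single_apply, if_neg hP₀, mul_zero, sub_zero]
  exact h58_mapDomain_nonneg r' _ (h58_pullbackAlong_single_nonneg φ hφ P₀) Q'

theorem h58_defect_degree
    (hFI : FundamentalIdentityAlong K φ hφ) (hFIb : FundamentalIdentityAlong k φb hφb)
    (hfr : finrankAlong k φb = finrankAlong K φ)
    (hdeg : ∀ P : Place K F, P.deg = 1) (hdegr : ∀ P : Place K F, (r P).deg = 1)
    (hdegr' : ∀ P' : Place K F', (r' P').deg = P'.deg) (P : Place K F) :
    Divisor.degree (Finsupp.mapDomain r' (Divisor.pullbackAlong φ hφ (Finsupp.single P 1))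
        - Divisor.pullbackAlong φb hφb (Finsupp.single (r P) 1)) = 0 := by
  have hd1 : ∀ X : Divisor K F', Divisor.degree (Finsupp.mapDomain r' X) = Divisor.degree X := by
    intro X
    induction X using Finsupp.induction_linear with
    | zero => simp
    | add D₁ D₂ h₁ h₂ => rw [Finsupp.mapDomain_add, map_add, map_add, h₁, h₂]
    | single P' n =>
      rw [Finsupp.mapDomain_single, Divisor.degree_single, Divisor.degree_single, hdegr']
  rw [map_sub, hd1, Divisor.degree_pullbackAlong φ hφ hFI, Divisor.degree_pullbackAlong φb hφb hFIb,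
    Divisor.degree_single, Divisor.degree_single, hdegr P, hdeg P, hfr, sub_self]

/-- **Lying over, generic.** -/
theorem h58_lie_over_gen
    (hcompat : ∀ D ∈ Divisor.degZero (K := K) (F := F),
      Finsupp.mapDomain r' (Divisor.pullbackAlong φ hφ D)
        = Divisor.pullbackAlong φb hφb (Finsupp.mapDomain r D))
    (hFI : FundamentalIdentityAlong K φ hφ) (hFIb : FundamentalIdentityAlong k φb hφb)
    (hfr : finrankAlong k φb = finrankAlong K φ)
    (hdeg : ∀ P : Place K F, P.deg = 1) (hdegr : ∀ P : Place K F, (r P).deg = 1)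
    (hdegr' : ∀ P' : Place K F', (r' P').deg = P'.deg)
    (hdegb' : ∀ Q : Place k Fb', Q.deg = 1)
    (htwo : ∃ P₁ P₂, r P₁ ≠ r P₂) (P' : Place K F') :
    (r' P').restrictAlong φb hφb = r (P'.restrictAlong φ hφ) := by
  classical
  have h : Finsupp.mapDomain r'
        (Divisor.pullbackAlong φ hφ (Finsupp.single (P'.restrictAlong φ hφ) 1))
      = Divisor.pullbackAlong φb hφb (Finsupp.single (r (P'.restrictAlong φ hφ)) 1) :=
    sub_eq_zero.mp (h58_eq_zero_of_nonneg_of_degree _ hdegb'
      (h58_defect_nonneg φ hφ φb hφb r r' hcompat hdeg htwo _)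
      (h58_defect_degree φ hφ φb hφb r r' hFI hFIb hfr hdeg hdegr hdegr' _))
  have h1 : 0 < Divisor.pullbackAlong φ hφ
      (Finsupp.single (P'.restrictAlong φ hφ) 1) P' := by
    rw [Divisor.pullbackAlong_apply, Finsupp.single_eq_same, mul_one]
    exact_mod_cast h58_ramificationIndexAlong_pos φ hφ P'
  have h2 := h58_le_mapDomain r' _
    (h58_pullbackAlong_single_nonneg φ hφ (P'.restrictAlong φ hφ)) P'
  have h3 : Divisor.pullbackAlong φb hφb
      (Finsupp.single (r (P'.restrictAlong φ hφ)) 1) (r' P') ≠ 0 := by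
    rw [← h]
    omega
  rw [Divisor.pullbackAlong_apply, Finsupp.single_apply] at h3
  by_contra hne
  exact h3 (by rw [if_neg (fun h' => hne h'.symm), mul_zero])

/-- **Push-forward commutes with the maps of places, generic.** -/
theorem h58_red_push_gen
    (hlie : ∀ P' : Place K F', (r' P').restrictAlong φb hφb = r (P'.restrictAlong φ hφ))
    (hdeg : ∀ P : Place K F, P.deg = 1) (hdeg' : ∀ P : Place K F', P.deg = 1)
    (hdegb : ∀ Q : Place k Fb, Q.deg = 1) (hdegb' : ∀ Q : Place k Fb', Q.deg = 1)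
    (D' : Divisor K F') :
    Finsupp.mapDomain r (Divisor.pushforwardAlong φ hφ D')
      = Divisor.pushforwardAlong φb hφb (Finsupp.mapDomain r' D') := by
  induction D' using Finsupp.induction_linear with
  | zero => simp
  | add D₁ D₂ h₁ h₂ =>
    rw [map_add, Finsupp.mapDomain_add, Finsupp.mapDomain_add, map_add, h₁, h₂]
  | single P' n =>
    rw [Divisor.pushforwardAlong_single, Finsupp.mapDomain_single, Finsupp.mapDomain_single,
      Divisor.pushforwardAlong_single, hlie P',
      h58_inertiaDegAlong_eq_one φ hφ P' (hdeg _) (hdeg' _),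
      h58_inertiaDegAlong_eq_one φb hφb (r' P') (hdegb _) (hdegb' _)]

end GenericCorr

/-! ## (D3) coefficientwise reduction commutes with the degeneracy maps -/

section Red

variable {L : Type*} [Field L] [Algebra ℚ L] {A : ValuationSubring L}
variable {k : Type*} [Field k] {π : A →+* k} (N ℓ : ℕ) [NeZero N] [NeZero ℓ]

theorem h58_mem_alpha {y : LaurentSeries A}
    (hy : coeffMap A.subtype y ∈ laurentBaseChange L (modularFunctionFieldFull N)) :
    coeffMap A.subtype y ∈ laurentBaseChange L (modularFunctionFieldFull (N * ℓ)) := by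
  have h := (heckeAlphaBar L N ℓ ⟨_, hy⟩).2
  rwa [coe_heckeAlphaBar] at h

theorem h58_alpha_mk {y : LaurentSeries A}
    (hy : coeffMap A.subtype y ∈ laurentBaseChange L (modularFunctionFieldFull N)) :
    heckeAlphaBar L N ℓ ⟨_, hy⟩ = ⟨coeffMap A.subtype y, h58_mem_alpha N ℓ hy⟩ :=
  Subtype.ext (coe_heckeAlphaBar N ℓ _)

theorem h58_mem_alphaC {y : LaurentSeries A}
    (hyk : coeffMap π y ∈ modularFunctionFieldFullC k N) :
    coeffMap π y ∈ modularFunctionFieldFullC k (N * ℓ) :=
  full_degeneracyC_le k (dvd_mul_right N ℓ) hyk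

theorem h58_alphaC_mk {y : LaurentSeries A}
    (hyk : coeffMap π y ∈ modularFunctionFieldFullC k N) :
    h58_alphaC k N ℓ ⟨_, hyk⟩ = ⟨coeffMap π y, h58_mem_alphaC N ℓ hyk⟩ :=
  Subtype.ext (h58_coe_alphaC k N ℓ _)

theorem h58_mem_beta {y : LaurentSeries A}
    (hy : coeffMap A.subtype y ∈ laurentBaseChange L (modularFunctionFieldFull N)) :
    coeffMap A.subtype (qExpand A ℓ y)
      ∈ laurentBaseChange L (modularFunctionFieldFull (N * ℓ)) := by
  have h := (heckeBetaBar L N ℓ ⟨_, hy⟩).2
  rwa [coe_heckeBetaBar, ← coeffMap_qExpand] at h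

theorem h58_beta_mk {y : LaurentSeries A}
    (hy : coeffMap A.subtype y ∈ laurentBaseChange L (modularFunctionFieldFull N)) :
    heckeBetaBar L N ℓ ⟨_, hy⟩ = ⟨coeffMap A.subtype (qExpand A ℓ y), h58_mem_beta N ℓ hy⟩ :=
  Subtype.ext (by rw [coe_heckeBetaBar, ← coeffMap_qExpand])

theorem h58_mem_betaC {y : LaurentSeries A}
    (hyk : coeffMap π y ∈ modularFunctionFieldFullC k N) :
    coeffMap π (qExpand A ℓ y) ∈ modularFunctionFieldFullC k (N * ℓ) := by
  have h := (h58_betaC k N ℓ ⟨_, hyk⟩).2
  rwa [h58_coe_betaC, ← coeffMap_qExpand] at h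

theorem h58_betaC_mk {y : LaurentSeries A}
    (hyk : coeffMap π y ∈ modularFunctionFieldFullC k N) :
    h58_betaC k N ℓ ⟨_, hyk⟩ = ⟨coeffMap π (qExpand A ℓ y), h58_mem_betaC N ℓ hyk⟩ :=
  Subtype.ext (by rw [h58_coe_betaC, ← coeffMap_qExpand])

theorem h58_coeffMap_qExpand_ne_zero {y : LaurentSeries A} (hne : coeffMap π y ≠ 0) :
    coeffMap π (qExpand A ℓ y) ≠ 0 := by
  rw [coeffMap_qExpand]
  intro h
  exact hne (qExpand_injective (R := k) (N := ℓ) (by rw [h, map_zero]))

variable [HasPrincipalDivisors L (laurentBaseChange L (modularFunctionFieldFull (N * ℓ)))]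
  [HasPrincipalDivisors k (modularFunctionFieldFullC k (N * ℓ))]
  {r : Place L (laurentBaseChange L (modularFunctionFieldFull N)) →
    Place k (modularFunctionFieldFullC k N)}
  {r' : Place L (laurentBaseChange L (modularFunctionFieldFull (N * ℓ))) →
    Place k (modularFunctionFieldFullC k (N * ℓ))}

/-- On integral principal divisors, place reduction commutes with the pull-back along `α`. -/
theorem h58_red_pullback_alpha_int
    (hr : IsPlaceReductionAlong A π N r) (hr' : IsPlaceReductionAlong A π (N * ℓ) r')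
    (hα : (heckeAlphaBar L N ℓ).toRingHom.IsIntegral)
    (hαC : (h58_alphaC k N ℓ).toRingHom.IsIntegral)
    {D : Divisor L (laurentBaseChange L (modularFunctionFieldFull N))}
    (hD : D ∈ integralPrincipalDivisors A π N) :
    Finsupp.mapDomain r' (Divisor.pullbackAlong (heckeAlphaBar L N ℓ) hα D)
      = Divisor.pullbackAlong (h58_alphaC k N ℓ) hαC (Finsupp.mapDomain r D) := by
  obtain ⟨y, hy, hyk, hne, hDy⟩ := hD
  ext Q
  have h1 : ∀ P', Divisor.pullbackAlong (heckeAlphaBar L N ℓ) hα D P'
      = P'.ord (⟨coeffMap A.subtype y, h58_mem_alpha N ℓ hy⟩ :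
          laurentBaseChange L (modularFunctionFieldFull (N * ℓ))) := by
    intro P'
    rw [h58_pullbackAlong_apply_eq_ord (heckeAlphaBar L N ℓ) hα hDy P', h58_alpha_mk]
  rw [hr'.2 y (h58_mem_alpha N ℓ hy) (h58_mem_alphaC N ℓ hyk) hne _ h1 Q,
    h58_pullbackAlong_apply_eq_ord (h58_alphaC k N ℓ) hαC (hr.2 y hy hyk hne D hDy) Q,
    h58_alphaC_mk]

/-- On integral principal divisors, place reduction commutes with the pull-back along `β`. -/
theorem h58_red_pullback_beta_int
    (hr : IsPlaceReductionAlong A π N r) (hr' : IsPlaceReductionAlong A π (N * ℓ) r')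
    (hβ : (heckeBetaBar L N ℓ).toRingHom.IsIntegral)
    (hβC : (h58_betaC k N ℓ).toRingHom.IsIntegral)
    {D : Divisor L (laurentBaseChange L (modularFunctionFieldFull N))}
    (hD : D ∈ integralPrincipalDivisors A π N) :
    Finsupp.mapDomain r' (Divisor.pullbackAlong (heckeBetaBar L N ℓ) hβ D)
      = Divisor.pullbackAlong (h58_betaC k N ℓ) hβC (Finsupp.mapDomain r D) := by
  obtain ⟨y, hy, hyk, hne, hDy⟩ := hD
  ext Q
  have h1 : ∀ P', Divisor.pullbackAlong (heckeBetaBar L N ℓ) hβ D P'
      = P'.ord (⟨coeffMap A.subtype (qExpand A ℓ y), h58_mem_beta N ℓ hy⟩ :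
          laurentBaseChange L (modularFunctionFieldFull (N * ℓ))) := by
    intro P'
    rw [h58_pullbackAlong_apply_eq_ord (heckeBetaBar L N ℓ) hβ hDy P', h58_beta_mk]
  rw [hr'.2 (qExpand A ℓ y) (h58_mem_beta N ℓ hy) (h58_mem_betaC N ℓ hyk)
      (h58_coeffMap_qExpand_ne_zero ℓ hne) _ h1 Q,
    h58_pullbackAlong_apply_eq_ord (h58_betaC k N ℓ) hβC (hr.2 y hy hyk hne D hDy) Q,
    h58_betaC_mk]

/-- Place reduction commutes with the pull-back along `α` on divisors of degree `0`. -/
theorem h58_red_pullback_alpha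
    (hr : IsPlaceReductionAlong A π N r) (hr' : IsPlaceReductionAlong A π (N * ℓ) r')
    (hgen : PrincipalGeneratedByIntegral A π N)
    (hdiv : ∀ n : ℕ, n ≠ 0 → ∀ x : Pic0 L (laurentBaseChange L (modularFunctionFieldFull N)),
      ∃ y : Pic0 L (laurentBaseChange L (modularFunctionFieldFull N)), n • y = x)
    (hα : (heckeAlphaBar L N ℓ).toRingHom.IsIntegral)
    (hαC : (h58_alphaC k N ℓ).toRingHom.IsIntegral)
    (D : Divisor L (laurentBaseChange L (modularFunctionFieldFull N)))
    (hD : D ∈ Divisor.degZero (K := L) (F := laurentBaseChange L (modularFunctionFieldFull N))) :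
    Finsupp.mapDomain r' (Divisor.pullbackAlong (heckeAlphaBar L N ℓ) hα D)
      = Divisor.pullbackAlong (h58_alphaC k N ℓ) hαC (Finsupp.mapDomain r D) :=
  h79_red_corr hdiv r r' (Divisor.pullbackAlong (heckeAlphaBar L N ℓ) hα)
    (Divisor.pullbackAlong (h58_alphaC k N ℓ) hαC) (integralPrincipalDivisors A π N) hgen
    (fun _ hE => h58_red_pullback_alpha_int N ℓ hr hr' hα hαC hE) D hD

/-- Place reduction commutes with the pull-back along `β` on divisors of degree `0`. -/
theorem h58_red_pullback_beta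
    (hr : IsPlaceReductionAlong A π N r) (hr' : IsPlaceReductionAlong A π (N * ℓ) r')
    (hgen : PrincipalGeneratedByIntegral A π N)
    (hdiv : ∀ n : ℕ, n ≠ 0 → ∀ x : Pic0 L (laurentBaseChange L (modularFunctionFieldFull N)),
      ∃ y : Pic0 L (laurentBaseChange L (modularFunctionFieldFull N)), n • y = x)
    (hβ : (heckeBetaBar L N ℓ).toRingHom.IsIntegral)
    (hβC : (h58_betaC k N ℓ).toRingHom.IsIntegral)
    (D : Divisor L (laurentBaseChange L (modularFunctionFieldFull N)))
    (hD : D ∈ Divisor.degZero (K := L) (F := laurentBaseChange L (modularFunctionFieldFull N))) :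
    Finsupp.mapDomain r' (Divisor.pullbackAlong (heckeBetaBar L N ℓ) hβ D)
      = Divisor.pullbackAlong (h58_betaC k N ℓ) hβC (Finsupp.mapDomain r D) :=
  h79_red_corr hdiv r r' (Divisor.pullbackAlong (heckeBetaBar L N ℓ) hβ)
    (Divisor.pullbackAlong (h58_betaC k N ℓ) hβC) (integralPrincipalDivisors A π N) hgen
    (fun _ hE => h58_red_pullback_beta_int N ℓ hr hr' hβ hβC hE) D hD

/-- **Lying over**: the reduction of a place `P'` of level `N ℓ` lies over the reduction of the
place of level `N` under `P'`. -/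
theorem h58_lie_over
    (hr : IsPlaceReductionAlong A π N r) (hr' : IsPlaceReductionAlong A π (N * ℓ) r')
    (hgen : PrincipalGeneratedByIntegral A π N)
    (hdiv : ∀ n : ℕ, n ≠ 0 → ∀ x : Pic0 L (laurentBaseChange L (modularFunctionFieldFull N)),
      ∃ y : Pic0 L (laurentBaseChange L (modularFunctionFieldFull N)), n • y = x)
    (hα : (heckeAlphaBar L N ℓ).toRingHom.IsIntegral)
    (hαC : (h58_alphaC k N ℓ).toRingHom.IsIntegral)
    (hFI : FundamentalIdentityAlong L (heckeAlphaBar L N ℓ) hα)
    (hFIC : FundamentalIdentityAlong k (h58_alphaC k N ℓ) hαC)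
    (hfr : finrankAlong k (h58_alphaC k N ℓ) = finrankAlong L (heckeAlphaBar L N ℓ))
    (hdeg : ∀ P : Place L (laurentBaseChange L (modularFunctionFieldFull N)), P.deg = 1)
    (hdegC' : ∀ Q : Place k (modularFunctionFieldFullC k (N * ℓ)), Q.deg = 1)
    (htwo : ∃ P₁ P₂, r P₁ ≠ r P₂)
    (P' : Place L (laurentBaseChange L (modularFunctionFieldFull (N * ℓ)))) :
    (r' P').restrictAlong (h58_alphaC k N ℓ) hαC
      = r (P'.restrictAlong (heckeAlphaBar L N ℓ) hα) :=
  h58_lie_over_gen (heckeAlphaBar L N ℓ) hα (h58_alphaC k N ℓ) hαC r r'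
    (fun D hD => h58_red_pullback_alpha N ℓ hr hr' hgen hdiv hα hαC D hD)
    hFI hFIC hfr hdeg (fun P => by rw [hr.1 P, hdeg P]) hr'.1 hdegC' htwo P'

/-- Place reduction commutes with the push-forward along `α`. -/
theorem h58_red_push_alpha
    (hα : (heckeAlphaBar L N ℓ).toRingHom.IsIntegral)
    (hαC : (h58_alphaC k N ℓ).toRingHom.IsIntegral)
    (hlie : ∀ P' : Place L (laurentBaseChange L (modularFunctionFieldFull (N * ℓ))),
      (r' P').restrictAlong (h58_alphaC k N ℓ) hαC
        = r (P'.restrictAlong (heckeAlphaBar L N ℓ) hα))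
    (hdeg : ∀ P : Place L (laurentBaseChange L (modularFunctionFieldFull N)), P.deg = 1)
    (hdeg' : ∀ P : Place L (laurentBaseChange L (modularFunctionFieldFull (N * ℓ))), P.deg = 1)
    (hdegC : ∀ Q : Place k (modularFunctionFieldFullC k N), Q.deg = 1)
    (hdegC' : ∀ Q : Place k (modularFunctionFieldFullC k (N * ℓ)), Q.deg = 1)
    (D' : Divisor L (laurentBaseChange L (modularFunctionFieldFull (N * ℓ)))) :
    Finsupp.mapDomain r (Divisor.pushforwardAlong (heckeAlphaBar L N ℓ) hα D')
      = Divisor.pushforwardAlong (h58_alphaC k N ℓ) hαC (Finsupp.mapDomain r' D') :=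
  h58_red_push_gen (heckeAlphaBar L N ℓ) hα (h58_alphaC k N ℓ) hαC r r' hlie hdeg hdeg' hdegC
    hdegC' D'

/-- **(BR2) on divisors**: place reduction commutes with the Hecke correspondence `α_* β^*` on
divisors of degree `0`. -/
theorem h58_red_corr
    (hr : IsPlaceReductionAlong A π N r) (hr' : IsPlaceReductionAlong A π (N * ℓ) r')
    (hgen : PrincipalGeneratedByIntegral A π N)
    (hdiv : ∀ n : ℕ, n ≠ 0 → ∀ x : Pic0 L (laurentBaseChange L (modularFunctionFieldFull N)),
      ∃ y : Pic0 L (laurentBaseChange L (modularFunctionFieldFull N)), n • y = x)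
    (hα : (heckeAlphaBar L N ℓ).toRingHom.IsIntegral)
    (hβ : (heckeBetaBar L N ℓ).toRingHom.IsIntegral)
    (hαC : (h58_alphaC k N ℓ).toRingHom.IsIntegral)
    (hβC : (h58_betaC k N ℓ).toRingHom.IsIntegral)
    (hFI : FundamentalIdentityAlong L (heckeAlphaBar L N ℓ) hα)
    (hFIC : FundamentalIdentityAlong k (h58_alphaC k N ℓ) hαC)
    (hfr : finrankAlong k (h58_alphaC k N ℓ) = finrankAlong L (heckeAlphaBar L N ℓ))
    (hdeg : ∀ P : Place L (laurentBaseChange L (modularFunctionFieldFull N)), P.deg = 1)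
    (hdeg' : ∀ P : Place L (laurentBaseChange L (modularFunctionFieldFull (N * ℓ))), P.deg = 1)
    (hdegC : ∀ Q : Place k (modularFunctionFieldFullC k N), Q.deg = 1)
    (hdegC' : ∀ Q : Place k (modularFunctionFieldFullC k (N * ℓ)), Q.deg = 1)
    (htwo : ∃ P₁ P₂, r P₁ ≠ r P₂)
    (D : Divisor L (laurentBaseChange L (modularFunctionFieldFull N)))
    (hD : D ∈ Divisor.degZero (K := L) (F := laurentBaseChange L (modularFunctionFieldFull N))) :
    Finsupp.mapDomain r
        (Divisor.correspondence (heckeBetaBar L N ℓ) (heckeAlphaBar L N ℓ) hβ hα D)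
      = Divisor.correspondence (h58_betaC k N ℓ) (h58_alphaC k N ℓ) hβC hαC
          (Finsupp.mapDomain r D) := by
  rw [Divisor.correspondence_apply, Divisor.correspondence_apply,
    h58_red_push_alpha N ℓ hα hαC
      (h58_lie_over N ℓ hr hr' hgen hdiv hα hαC hFI hFIC hfr hdeg hdegC' htwo)
      hdeg hdeg' hdegC hdegC',
    h58_red_pullback_beta N ℓ hr hr' hgen hdiv hβ hβC D hD]

end Red

end Fermat.Agent.S40

end
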