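import Mathlib
import Fermat.Agent.S40.h15_WNormPair
import Fermat.Agent.S40.h58_HedgeDiff

/-!
# S40 / T8 ord-form (hedge): the (TR*) conjunct `hdiff` from W7-mod  (helper58)

`h23_T8Out_of_E2_image` / `h23_T8Out_of_count` / `h28_T8_hedge` / `h37_rows_of_ord` take

  `hdiff : ∀ Q ∈ Sg, ∀ Q' ∈ Sg, (p : ℤ) ∣ h43_rord R₁ (Φ Q) u - h43_rord R₁ (Φ Q') u`

for the function `u` of a class.  This file derives it from the modular W7 theorem "for every
Kummer pair and every datum" (`h38_w7_mod` / `h25_w7_plug` with the jets of `h11_jet_chart`),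
packaged as the predicate `h58_W7At`:

* W8 (`h15w_datum_of_w7`, W7 at the auxiliary pair `(1, w#)`) gives the normalised datum
  `(a, κ, u₁ = u / w ^ a, u₂)`;
* W7 at the pair `(z, w)` of the class, applied to `(u₁, u₂, κ)`, gives the jump relation
  `Γ₂ - Γ₁ = (ord_{Φ ν} (red₁ u₁) - κ) · lam` at every node `ν`;
* `h58_hdiff_of_w7_div` (characteristic `p`, `lam ≠ 0`) concludes.

Main statement: `h58_trstar_of_w7`.
-/

set_option autoImplicit false
set_option synthInstance.maxHeartbeats 400000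
set_option maxHeartbeats 1000000

noncomputable section

open ModularCurve AlgebraicCurve

namespace Fermat.Agent.S40

open Fermat.Agent.S18 Fermat.Agent.S34 Fermat.Agent.S36

local notation "Qb" => AlgebraicClosure ℚ
local notation "Γℚ" => (AlgebraicClosure ℚ ≃ₐ[ℚ] AlgebraicClosure ℚ)

section Mod

variable (M p : ℕ) [NeZero M] [NeZero p] [Fact p.Prime] (hp2 : p ≠ 2) (hpM : ¬ p ∣ M)
  (A : ValuationSubring Qb) (hA : A.LiesOverPrime p)

/-- **The W7 package at a Kummer element `w`** (for the node set `Sg` with gluing map `Φ`):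
jets `J₁, J₂` on subrings `S₁ ⊆ R₁.O`, `S₂ ⊆ R₂.O` containing the functions fixed by the
stabiliser of `w` in inertia, with (Jc), (Ja) in the weak form "inertia-fixed functions have
constant jets", a nonzero constant `lam`, and W7 for every datum (the `hW7` binder of
`h12_ej_gen` / `h15w_kappa_of_w7` verbatim, `Q1 ν := Φ ν.1`). -/
def h58_W7At
    (Sg : Finset (Place (IsLocalRing.ResidueField A)
      ↥(modularFunctionFieldFullC (IsLocalRing.ResidueField A) M)))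
    (Φ : Place (IsLocalRing.ResidueField A)
        ↥(modularFunctionFieldFullC (IsLocalRing.ResidueField A) M) →
      Place (IsLocalRing.ResidueField A)
        ↥(modularFunctionFieldFullC (IsLocalRing.ResidueField A) M))
    (w : Qb) : Prop :=
  ∃ (S1 S2 : Subring ↥(modularFunctionFieldBar (M * p)))
    (J1 : S1 →+* TrivSqZeroExt
      ↥(modularFunctionFieldFullC (IsLocalRing.ResidueField A) M)
      ↥(modularFunctionFieldFullC (IsLocalRing.ResidueField A) M))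
    (J2 : S2 →+* TrivSqZeroExt
      ↥(modularFunctionFieldFullC (IsLocalRing.ResidueField A) M)
      ↥(modularFunctionFieldFullC (IsLocalRing.ResidueField A) M))
    (lam : IsLocalRing.ResidueField A),
    (∀ f : ↥(modularFunctionFieldBar (M * p)), f ∈ (h60_R1 M p hpM A hA).O →
      (∀ σ ∈ A.inertiaSubgroupIn ℚ, σ w = w →
        arithmeticGalois (modularFunctionFieldFull (M * p)) σ • f = f) → f ∈ S1) ∧
    (∀ f : ↥(modularFunctionFieldBar (M * p)), f ∈ (h60_R2 M p hpM A hA).O →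
      (∀ σ ∈ A.inertiaSubgroupIn ℚ, σ w = w →
        arithmeticGalois (modularFunctionFieldFull (M * p)) σ • f = f) → f ∈ S2) ∧
    (∀ f : S1, (J1 f).fst = (h60_R1 M p hpM A hA).redF f) ∧
    (∀ f : S2, (J2 f).fst = (h60_R2 M p hpM A hA).redF f) ∧
    (∀ f : S1, (∀ σ ∈ A.inertiaSubgroupIn ℚ,
        arithmeticGalois (modularFunctionFieldFull (M * p)) σ •
          (f : ↥(modularFunctionFieldBar (M * p))) = f) → (J1 f).snd = 0) ∧
    (∀ f : S2, (∀ σ ∈ A.inertiaSubgroupIn ℚ,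
        arithmeticGalois (modularFunctionFieldFull (M * p)) σ •
          (f : ↥(modularFunctionFieldBar (M * p))) = f) → (J2 f).snd = 0) ∧
    lam ≠ 0 ∧
    ∀ (u1 u2 : ↥(modularFunctionFieldBar (M * p))) (hu1 : u1 ∈ S1) (_ : u1⁻¹ ∈ S1)
      (hu2 : u2 ∈ S2) (_ : u2⁻¹ ∈ S2) (κ' : ℤ), u1 ≠ 0 →
      u1 = algebraMap Qb ↥(modularFunctionFieldBar (M * p)) (p : Qb) ^ κ' * u2 →
      (∀ v : Place Qb ↥(modularFunctionFieldBar (M * p)), (p : ℤ) ∣ v.ord u1) →
      ∃ Γ₁ Γ₂ : IsLocalRing.ResidueField A,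
        h38_IsOm J1 ⟨u1, hu1⟩ (algebraMap (IsLocalRing.ResidueField A)
          ↥(modularFunctionFieldFullC (IsLocalRing.ResidueField A) M) Γ₁) ∧
        h38_IsOm J2 ⟨u2, hu2⟩ (algebraMap (IsLocalRing.ResidueField A)
          ↥(modularFunctionFieldFullC (IsLocalRing.ResidueField A) M) Γ₂) ∧
        ∀ ν : {Q // Q ∈ Sg},
          Γ₂ - Γ₁ = (((Φ ν.1).ord ((h60_R1 M p hpM A hA).redF u1) - κ' : ℤ) :
            IsLocalRing.ResidueField A) * lam

variable [CharP (IsLocalRing.ResidueField A) p]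

include hp2 in
/-- **(TR*) from W7-mod**: the residue orders of the function `u` of a class at the nodes
`Φ Q`, `Q ∈ Sg`, are congruent mod `p`.  `hW7` = the modular W7 theorem for EVERY Kummer pair
(it is used at the auxiliary pair `(1, w#)` for W8 and at the pair `(z, w)` of the class). -/
theorem h58_trstar_of_w7
    (Sg : Finset (Place (IsLocalRing.ResidueField A)
      ↥(modularFunctionFieldFullC (IsLocalRing.ResidueField A) M)))
    (Φ : Place (IsLocalRing.ResidueField A)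
        ↥(modularFunctionFieldFullC (IsLocalRing.ResidueField A) M) →
      Place (IsLocalRing.ResidueField A)
        ↥(modularFunctionFieldFullC (IsLocalRing.ResidueField A) M))
    (hW7 : ∀ z w : Qb, A.valuation z = 1 → (∀ g ∈ A.inertiaSubgroupIn ℚ, g z = z) →
      (1 + w) ^ p = 1 + (p : Qb) * z → h58_W7At M p hpM A hA Sg Φ w)
    (ζ : Qb) (hζ : IsPrimitiveRoot ζ p) (z w : Qb)
    (hz : A.valuation z = 1) (hzI : ∀ g ∈ A.inertiaSubgroupIn ℚ, g z = z)
    (hw : (1 + w) ^ p = 1 + (p : Qb) * z)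
    (u : ↥(modularFunctionFieldBar (M * p))) (hu0 : u ≠ 0)
    (hu : ∀ σ ∈ A.inertiaSubgroupIn ℚ, σ w = w →
      arithmeticGalois (modularFunctionFieldFull (M * p)) σ • u = u)
    (E : Divisor Qb ↥(modularFunctionFieldBar (M * p)))
    (hE : ∀ σ ∈ A.inertiaSubgroupIn ℚ, σ w = w →
      arithmeticGalois (modularFunctionFieldFull (M * p)) σ • E = E)
    (hdiv : ∀ v : Place Qb ↥(modularFunctionFieldBar (M * p)), (p : ℤ) * E v = v.ord u) :
    ∀ Q ∈ Sg, ∀ Q' ∈ Sg,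
      (p : ℤ) ∣ h43_rord (h60_R1 M p hpM A hA) (Φ Q) u -
        h43_rord (h60_R1 M p hpM A hA) (Φ Q') u := by
  intro Q hQ Q' hQ'
  -- the auxiliary pair `(1, w#)` and its W7 package
  obtain ⟨w', hw'⟩ := h12_exists_aux p
  have hz1 : A.valuation (1 : Qb) = 1 := map_one _
  have hzI1 : ∀ g ∈ A.inertiaSubgroupIn ℚ, g (1 : Qb) = 1 := fun g _ => map_one g
  obtain ⟨S1, S2, J1, J2, lam, hS1, hS2, hJ1, hJ2, hJa1, hJa2, hlam, hW⟩ :=
    hW7 1 w' hz1 hzI1 hw'
  -- the normalised datum (W8)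
  obtain ⟨a, κ, u₁, u₂, hu₁, -, hu₁0, -, h12, -, ⟨h1O, h1O', -⟩, ⟨h2O, h2O', -⟩, hfix⟩ :=
    h15w_datum_of_w7 M p hp2 hpM A hA S1 S2 J1 J2 hJ1 hJ2 lam hlam
      (fun ν : {Q // Q ∈ Sg} => Φ ν.1) ⟨Q, hQ⟩ hW
      (fun f hf hfO => ⟨hS1 f hfO (fun σ hσ _ => hf σ hσ), hJa1 ⟨f, _⟩ hf⟩)
      (fun f hf hfO => ⟨hS2 f hfO (fun σ hσ _ => hf σ hσ), hJa2 ⟨f, _⟩ hf⟩)
      ζ hζ z w hz hzI hw u hu0 hu E hE hdiv
  -- W7 at the pair of the class
  obtain ⟨T1, T2, K1, K2, lam', hT1, hT2, -, -, -, -, hlam', hW'⟩ := hW7 z w hz hzI hw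
  have hu₁T : u₁ ∈ T1 := hT1 u₁ h1O (fun σ hσ hσw => (hfix σ hσ hσw).1)
  have hu₁T' : u₁⁻¹ ∈ T1 := hT1 _ h1O' (fun σ hσ hσw => (hfix σ hσ hσw).2.1)
  have hu₂T : u₂ ∈ T2 := hT2 u₂ h2O (fun σ hσ hσw => (hfix σ hσ hσw).2.2.1)
  have hu₂T' : u₂⁻¹ ∈ T2 := hT2 _ h2O' (fun σ hσ hσw => (hfix σ hσ hσw).2.2.2)
  have hw0 : w ≠ 0 := (h12_eis_ne_zero p A hA z w hz hw).2
  have hc0 : algebraMap Qb ↥(modularFunctionFieldBar (M * p)) (w ^ a) ≠ 0 :=
    (map_ne_zero _).mpr (zpow_ne_zero _ hw0)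
  have hdvd : ∀ v : Place Qb ↥(modularFunctionFieldBar (M * p)), (p : ℤ) ∣ v.ord u₁ := by
    intro v
    rw [hu₁, div_eq_mul_inv, v.ord_mul hu0 (inv_ne_zero hc0), v.ord_inv, h43_ord_algebraMap,
      neg_zero, add_zero, ← hdiv v]
    exact dvd_mul_right _ _
  obtain ⟨Γ₁, Γ₂, -, -, hΓ⟩ := hW' u₁ u₂ hu₁T hu₁T' hu₂T hu₂T' κ hu₁0 h12 hdvd
  have hunit : h43_IsRUnit (h60_R1 M p hpM A hA)
      (u / algebraMap Qb ↥(modularFunctionFieldBar (M * p)) (w ^ a)) := by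
    rw [← hu₁]
    exact ⟨hu₁0, h1O, h1O'⟩
  refine h58_hdiff_of_w7_div (h60_R1 M p hpM A hA) p lam' hlam' Sg Φ u (w ^ a)
    (zpow_ne_zero _ hw0) hunit κ Γ₁ Γ₂ ?_ Q hQ Q' hQ'
  rw [← hu₁]
  exact hΓ

end Mod

end Fermat.Agent.S40
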