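import Mathlib
import Fermat.Agent.S40.h23_E2W
import Fermat.Agent.S40.h67_W6Row
import Fermat.Agent.S40.h58_E2WV
import Fermat.Agent.S40.h58_TRStar

/-!
# S40 / T8, ord form, assembled from W7-mod  (helper58)

`h58_t8_ord_of_w7` : the output `h92_T8Out` of row T8 at a charted level `(M, p)` without
elliptic points, for the W9 block `(Sg, hSg, n0, hnode)`, from

* the modular W7 theorem for every Kummer pair (`hW7 : … → h58_W7At M p hpM A hA Sg Φ w`,
  `S40/h58_TRStar.lean`),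
* a Hecke prime `ℓ ∤ M p` with `T_ℓ [E] = a • [E]`, `p ∤ ℓ + 1 - a`,
* the class `(E, u)` with `p E = div u`, `E` and `u` fixed by the stabiliser of `w` in inertia.

Inside: the count instance `h67_cnt_block` at the two levels `M` and `M ℓ` (node data of the
upper level from `h87_node_closed`), the bridge `h58_isW_h84`, (TR*) `h58_trstar_of_w7` and
`h23_T8Out_of_count`.
-/

set_option autoImplicit false
set_option synthInstance.maxHeartbeats 400000
set_option maxHeartbeats 1600000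

noncomputable section

open ModularCurve AlgebraicCurve

namespace Fermat.Agent.S40

open Fermat.Agent.S18 Fermat.Agent.S34 Fermat.Agent.S36

local notation "Qb" => AlgebraicClosure ℚ

section T8Ord

variable (M p ℓ : ℕ) [NeZero M] [NeZero p] [NeZero ℓ] [Fact p.Prime] (hp2 : p ≠ 2)
  (hpM : ¬ p ∣ M) (A : ValuationSubring Qb) (hA : A.LiesOverPrime p)
  [CharP (IsLocalRing.ResidueField A) p] [IsAlgClosed (IsLocalRing.ResidueField A)]

include hp2 in
/-- **T8 (ord form) at a charted level, from W7-mod.** -/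
theorem h58_t8_ord_of_w7 (hℓ : ℓ.Prime) (hℓM : ¬ ℓ ∣ M) (hpMℓ : ¬ p ∣ M * ℓ)
    (hch : 5 ≤ p ∨ 2 ∣ M ∨ 3 ∣ M) (h2 : nuTwo M = 0) (h3 : nuThree M = 0)
    (h2' : nuTwo (M * ℓ) = 0) (h3' : nuThree (M * ℓ) = 0)
    (Sg : Finset (Place (IsLocalRing.ResidueField A)
      ↥(modularFunctionFieldFullC (IsLocalRing.ResidueField A) M)))
    (hSg : ∀ Q ∈ Sg, Q ≠ h11_placeInftyC (IsLocalRing.ResidueField A) M ∧
      h96_frobPerm (h84_isFrobChart_jk M p hpM A hA) Q ≠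
        h11_placeInftyC (IsLocalRing.ResidueField A) M ∧
      h96_frobPerm (h84_isFrobChart_jk M p hpM A hA)
        (h96_frobPerm (h84_isFrobChart_jk M p hpM A hA) Q) = Q)
    (n0 : ℕ)
    (hnode : ∀ n, n0 ≤ n → ∀ a : ↥(modularFunctionFieldFullC (IsLocalRing.ResidueField A) M) ×
        ↥(modularFunctionFieldFullC (IsLocalRing.ResidueField A) M),
      a ∈ h51_Rd (h87_D M p hpM A hA) (n • h87_D0 M p hpM) ↔
        (a ∈ h20_P (h11_placeInftyC (IsLocalRing.ResidueField A) M) n ∧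
          ∀ Q ∈ Sg, ∃ c : IsLocalRing.ResidueField A,
            h39_Val (h96_frobPerm (h84_isFrobChart_jk M p hpM A hA) Q) a.1 c ∧
              h39_Val Q a.2 c))
    (hW7 : ∀ z w : Qb, A.valuation z = 1 → (∀ g ∈ A.inertiaSubgroupIn ℚ, g z = z) →
      (1 + w) ^ p = 1 + (p : Qb) * z →
      h58_W7At M p hpM A hA Sg (h96_frobPerm (h84_isFrobChart_jk M p hpM A hA)) w)
    (a : ℤ) (ha : ¬ (p : ℤ) ∣ (ℓ : ℤ) + 1 - a)
    (ζ : Qb) (hζ : IsPrimitiveRoot ζ p) (z w : Qb)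
    (hz : A.valuation z = 1) (hzI : ∀ g ∈ A.inertiaSubgroupIn ℚ, g z = z)
    (hw : (1 + w) ^ p = 1 + (p : Qb) * z)
    (E : Divisor.degZero (K := Qb) (F := modularFunctionFieldBar (M * p)))
    (u : ↥(modularFunctionFieldBar (M * p))) (hu : u ≠ 0)
    (hdiv : ∀ v : Place Qb (modularFunctionFieldBar (M * p)),
      (p : ℤ) * (E : Divisor Qb (modularFunctionFieldBar (M * p))) v = v.ord u)
    (hEfix : ∀ g ∈ A.inertiaSubgroupIn ℚ, g w = w →
      arithmeticGalois (modularFunctionFieldFull (M * p)) g •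
        (E : Divisor Qb (modularFunctionFieldBar (M * p))) = E)
    (hufix : ∀ g ∈ A.inertiaSubgroupIn ℚ, g w = w →
      arithmeticGalois (modularFunctionFieldFull (M * p)) g • u = u)
    (hTℓ : heckeOperatorBar (M * p) ⟨ℓ, hℓ⟩ (Pic0.mk E) = a • Pic0.mk E) :
    h92_T8Out M p hpM A hA Sg (h96_frobPerm (h84_isFrobChart_jk M p hpM A hA)) u := by
  -- the count instance at level `M`
  obtain ⟨T, hT⟩ := h67_cnt_exists_T M p hpM A hA hch
  have H := h67_cnt_block M p hpM A hA hch h2 h3 Sg hSg n0 hnode T hT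
  -- the node data and the count instance at level `M ℓ`
  have hch' : 5 ≤ p ∨ 2 ∣ M * ℓ ∨ 3 ∣ M * ℓ := by
    rcases hch with h | h | h
    · exact Or.inl h
    · exact Or.inr (Or.inl (h.mul_right ℓ))
    · exact Or.inr (Or.inr (h.mul_right ℓ))
  obtain ⟨Sg', hSg', n0', -, -, hnode'⟩ := h87_node_closed (M * ℓ) p hpMℓ A hA hch'
  obtain ⟨T', hT'⟩ := h67_cnt_exists_T (M * ℓ) p hpMℓ A hA hch'
  have H' := h67_cnt_block (M * ℓ) p hpMℓ A hA hch' h2' h3' Sg' hSg' n0' hnode' T' hT'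
  -- (TR*)
  have hdiff := h58_trstar_of_w7 M p hp2 hpM A hA Sg
    (h96_frobPerm (h84_isFrobChart_jk M p hpM A hA)) hW7 ζ hζ z w hz hzI hw u hu hufix
    (E : Divisor Qb (modularFunctionFieldBar (M * p))) hEfix hdiv
  exact h23_T8Out_of_count M p ℓ A hA hpM hℓ hℓM hpMℓ hch h2 h3 H (fun P hP => (hT P).mp hP)
    (h58_isW_h84 M p hpM A hA) H' hT' (h58_isW_h84 (M * ℓ) p hpMℓ A hA) a ha E u hu hdiv hTℓ
    hdiff

end T8Ord

section T8Thin

variable (W : WeierstrassCurve ℤ) (M' p r ℓ : ℕ) [NeZero M'] [NeZero p] [NeZero r] [NeZero ℓ]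
  [Fact p.Prime] (hpMr : ¬ p ∣ M' * r) (A : ValuationSubring Qb) (hA : A.LiesOverPrime p)
  [CharP (IsLocalRing.ResidueField A) p] [IsAlgClosed (IsLocalRing.ResidueField A)]

/-- **T8 (ord form) at the thin level `(M' r, p)`, from W7-mod**: the T8 conjunct of
`h67_RowsStmt` (= the binder `hT8` of `h92_rows_of`, with the node block `(Sg, hSg, n0, hnode)`
explicit) for a good Hecke prime `ℓ ∤ M' r p`, `ℓ ≠ p`, with `p ∤ ℓ + 1 - a_ℓ(W)`. -/
theorem h58_t8_thin_of_w7 (hp5 : 5 ≤ p) (hr : r.Prime) (hr12 : r % 12 = 11)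
    (hℓ : ℓ.Prime) (hgood : W.IsGoodPrimeFor ℓ) (hℓN : ¬ ℓ ∣ M' * r * p) (hℓp : ℓ ≠ p)
    (ha : ¬ (p : ℤ) ∣ (ℓ : ℤ) + 1 - W.apOfModel ℓ)
    (Sg : Finset (Place (IsLocalRing.ResidueField A)
      ↥(modularFunctionFieldFullC (IsLocalRing.ResidueField A) (M' * r))))
    (hSg : ∀ Q ∈ Sg, Q ≠ h11_placeInftyC (IsLocalRing.ResidueField A) (M' * r) ∧
      h96_frobPerm (h84_isFrobChart_jk (M' * r) p hpMr A hA) Q ≠
        h11_placeInftyC (IsLocalRing.ResidueField A) (M' * r) ∧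
      h96_frobPerm (h84_isFrobChart_jk (M' * r) p hpMr A hA)
        (h96_frobPerm (h84_isFrobChart_jk (M' * r) p hpMr A hA) Q) = Q)
    (n0 : ℕ)
    (hnode : ∀ n, n0 ≤ n →
      ∀ a : ↥(modularFunctionFieldFullC (IsLocalRing.ResidueField A) (M' * r)) ×
        ↥(modularFunctionFieldFullC (IsLocalRing.ResidueField A) (M' * r)),
      a ∈ h51_Rd (h87_D (M' * r) p hpMr A hA) (n • h87_D0 (M' * r) p hpMr) ↔
        (a ∈ h20_P (h11_placeInftyC (IsLocalRing.ResidueField A) (M' * r)) n ∧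
          ∀ Q ∈ Sg, ∃ c : IsLocalRing.ResidueField A,
            h39_Val (h96_frobPerm (h84_isFrobChart_jk (M' * r) p hpMr A hA) Q) a.1 c ∧
              h39_Val Q a.2 c))
    (hW7 : ∀ z w : Qb, A.valuation z = 1 → (∀ g ∈ A.inertiaSubgroupIn ℚ, g z = z) →
      (1 + w) ^ p = 1 + (p : Qb) * z →
      h58_W7At (M' * r) p hpMr A hA Sg
        (h96_frobPerm (h84_isFrobChart_jk (M' * r) p hpMr A hA)) w)
    (y : JZero (M' * r * p))
    (hTy : ∀ (ℓ : ℕ) (hℓ : ℓ.Prime), W.IsGoodPrimeFor ℓ → ¬ ℓ ∣ M' * r * p → ℓ ≠ p →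
      heckeOperatorBar (M' * r * p) ⟨ℓ, hℓ⟩ y = W.apOfModel ℓ • y)
    (z w : Qb) (hz : A.valuation z = 1) (hzI : ∀ g ∈ A.inertiaSubgroupIn ℚ, g z = z)
    (hw : (1 + w) ^ p = 1 + (p : Qb) * z)
    (D : Divisor.degZero (K := Qb) (F := modularFunctionFieldBar (M' * r * p)))
    (u : modularFunctionFieldBar (M' * r * p))
    (hD : Pic0.mk D = y) (hu : u ≠ 0)
    (hdiv : ∀ v : Place Qb (modularFunctionFieldBar (M' * r * p)),
      (p : ℤ) * (D : Divisor Qb (modularFunctionFieldBar (M' * r * p))) v = v.ord u)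
    (hDfix : ∀ g ∈ A.inertiaSubgroupIn ℚ, g w = w →
      arithmeticGalois (modularFunctionFieldFull (M' * r * p)) g •
        (D : Divisor Qb (modularFunctionFieldBar (M' * r * p))) = D)
    (hufix : ∀ g ∈ A.inertiaSubgroupIn ℚ, g w = w →
      arithmeticGalois (modularFunctionFieldFull (M' * r * p)) g • u = u) :
    h92_T8Out (M' * r) p hpMr A hA Sg
      (h96_frobPerm (h84_isFrobChart_jk (M' * r) p hpMr A hA)) u := by
  have hp : p.Prime := Fact.out
  have hp2 : p ≠ 2 := by omega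
  obtain ⟨ζ, hζ⟩ := HasEnoughRootsOfUnity.exists_primitiveRoot Qb p
  have hℓM : ¬ ℓ ∣ M' * r := fun h => hℓN (Dvd.dvd.mul_right h p)
  have hpMℓ : ¬ p ∣ M' * r * ℓ := by
    intro h
    rcases (Nat.Prime.dvd_mul hp).mp h with h1 | h1
    · exact hpMr h1
    · exact hℓp ((Nat.prime_dvd_prime_iff_eq hp hℓ).mp h1).symm
  have hrM : r ∣ M' * r := dvd_mul_left r M'
  have hrMℓ : r ∣ M' * r * ℓ := Dvd.dvd.mul_right hrM ℓ
  refine h58_t8_ord_of_w7 (M' * r) p ℓ hp2 hpMr A hA hℓ hℓM hpMℓ (Or.inl hp5)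
    (h67_nuTwo_of_mod12 r (M' * r) hr hr12 hrM) (h67_nuThree_of_mod12 r (M' * r) hr hr12 hrM)
    (h67_nuTwo_of_mod12 r (M' * r * ℓ) hr hr12 hrMℓ)
    (h67_nuThree_of_mod12 r (M' * r * ℓ) hr hr12 hrMℓ)
    Sg hSg n0 hnode hW7 (W.apOfModel ℓ) ha ζ hζ z w hz hzI hw D u hu hdiv hDfix hufix ?_
  rw [hD]
  exact hTy ℓ hℓ hgood hℓN hℓp

end T8Thin

end Fermat.Agent.S40
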