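import Mathlib
import Fermat.Agent.S40.h59_NewC2

/-!
# S40, tail: (C2-NEW) for classes

`h59_divNew_of_jnew` : every representative of a `p`-new class is a `p`-new divisor.
`h59_c2_new_class`, `h59_c1_new_class` : (C2-NEW) and its mirror for a representative `E` of a
`p`-new class `x` of `J₀(M p)`, in the binder shape of `h84_triv_toric`.
-/

set_option autoImplicit false
set_option synthInstance.maxHeartbeats 400000

noncomputable section

open ModularCurve AlgebraicCurve IntermediateField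

namespace Fermat.Agent.S40

open Fermat.Agent.S34 Fermat.Agent.S18 Fermat.Agent.S37 Fermat.Agent.S24 Fermat.Agent.S35

local notation "Qb" => AlgebraicClosure ℚ

section Cls

variable (M p : ℕ) [NeZero M] [NeZero p]

/-- `p`-newness of a divisor only depends on its linear equivalence class. -/
theorem h59_divNew_congr
    {D D' : Divisor Qb ↥(modularFunctionFieldBar (M * p))}
    (h : D' - D ∈ Divisor.principal (K := Qb) (F := ↥(modularFunctionFieldBar (M * p))))
    (hD : h67_DivNew M p D) : h67_DivNew M p D' := by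
  obtain ⟨⟨hα, h1⟩, ⟨hβ, h2⟩⟩ := hD
  have e : D' = D + (D' - D) := by abel
  refine ⟨⟨hα, ?_⟩, ⟨hβ, ?_⟩⟩
  · rw [e, map_add]
    exact (Divisor.principal (K := Qb) (F := ↥(modularFunctionFieldBar M))).add_mem h1
      (Divisor.isPrincipal_pushforwardAlong _ hα (h88_finiteAlong_alpha M p)
        (h87_NF_alpha M p) h)
  · rw [e, map_add]
    exact (Divisor.principal (K := Qb) (F := ↥(modularFunctionFieldBar M))).add_mem h2
      (Divisor.isPrincipal_pushforwardAlong _ hβ (h88_finiteAlong_beta M p)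
        (h98_NF_beta M p) h)

/-- Every representative of a `p`-new class is a `p`-new divisor. -/
theorem h59_divNew_of_jnew (x : JZero (M * p)) (hnew : h67_Jnew M p x)
    (E : Divisor.degZero (K := Qb) (F := ↥(modularFunctionFieldBar (M * p))))
    (hx : Pic0.mk E = x) :
    h67_DivNew M p (E : Divisor Qb ↥(modularFunctionFieldBar (M * p))) := by
  obtain ⟨D', hD'x, hD'new⟩ := hnew
  refine h59_divNew_congr M p ?_ hD'new
  have h3 : Pic0.mk E = Pic0.mk D' := hx.trans hD'x.symm
  have h4 := (QuotientAddGroup.eq).mp h3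
  rw [AddSubgroup.mem_addSubgroupOf] at h4
  have h5 := (Divisor.principal (K := Qb)
    (F := ↥(modularFunctionFieldBar (M * p)))).neg_mem h4
  have hcoe : -((-E + D' : Divisor.degZero (K := Qb)
      (F := ↥(modularFunctionFieldBar (M * p)))) :
        Divisor Qb ↥(modularFunctionFieldBar (M * p)))
      = (E : Divisor Qb ↥(modularFunctionFieldBar (M * p))) - D' := by
    simp only [AddSubgroup.coe_add, NegMemClass.coe_neg]
    abel
  rw [hcoe] at h5
  exact h5

variable [hp : Fact p.Prime] (hpM : ¬ p ∣ M) (A : ValuationSubring Qb) (hA : A.LiesOverPrime p)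

/-- **(C2-NEW) for a class.**  `x` a `p`-new class of `J₀(M p)`, `E` a representative with
`m E = div u`: if the first reduction of `c₁ u` is an `m`-th power, so is the second reduction
of some `c₂ u`. -/
theorem h59_c2_new_class (m : ℕ) (hm : m ≠ 0) (x : JZero (M * p)) (hnew : h67_Jnew M p x)
    (E : Divisor.degZero (K := Qb) (F := ↥(modularFunctionFieldBar (M * p))))
    (u : ↥(modularFunctionFieldBar (M * p))) (hu : u ≠ 0) (hx : Pic0.mk E = x)
    (hdiv : ∀ v : Place Qb ↥(modularFunctionFieldBar (M * p)),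
      (m : ℤ) * (E : Divisor Qb ↥(modularFunctionFieldBar (M * p))) v = v.ord u)
    (c₁ : Qb) (w₁ : ↥(modularFunctionFieldFullC (IsLocalRing.ResidueField A) M)) (hw₁ : w₁ ≠ 0)
    (h1 : (h60_R1 M p hpM A hA).redF
      (algebraMap Qb ↥(modularFunctionFieldBar (M * p)) c₁ * u) = w₁ ^ m) :
    ∃ (c₂ : Qb) (w₂ : ↥(modularFunctionFieldFullC (IsLocalRing.ResidueField A) M)),
      c₂ ≠ 0 ∧ w₂ ≠ 0 ∧ (h60_R2 M p hpM A hA).redF
        (algebraMap Qb ↥(modularFunctionFieldBar (M * p)) c₂ * u) = w₂ ^ m :=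
  h59_c2_new M p hpM A hA m hm _ (h59_divNew_of_jnew M p x hnew E hx) u hu hdiv c₁ w₁ hw₁ h1

/-- **(C2-NEW) for a class, mirror.** -/
theorem h59_c1_new_class (m : ℕ) (hm : m ≠ 0) (x : JZero (M * p)) (hnew : h67_Jnew M p x)
    (E : Divisor.degZero (K := Qb) (F := ↥(modularFunctionFieldBar (M * p))))
    (u : ↥(modularFunctionFieldBar (M * p))) (hu : u ≠ 0) (hx : Pic0.mk E = x)
    (hdiv : ∀ v : Place Qb ↥(modularFunctionFieldBar (M * p)),
      (m : ℤ) * (E : Divisor Qb ↥(modularFunctionFieldBar (M * p))) v = v.ord u)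
    (c₂ : Qb) (w₂ : ↥(modularFunctionFieldFullC (IsLocalRing.ResidueField A) M)) (hw₂ : w₂ ≠ 0)
    (h2 : (h60_R2 M p hpM A hA).redF
      (algebraMap Qb ↥(modularFunctionFieldBar (M * p)) c₂ * u) = w₂ ^ m) :
    ∃ (c₁ : Qb) (w₁ : ↥(modularFunctionFieldFullC (IsLocalRing.ResidueField A) M)),
      c₁ ≠ 0 ∧ w₁ ≠ 0 ∧ (h60_R1 M p hpM A hA).redF
        (algebraMap Qb ↥(modularFunctionFieldBar (M * p)) c₁ * u) = w₁ ^ m :=
  h59_c1_new M p hpM A hA m hm _ (h59_divNew_of_jnew M p x hnew E hx) u hu hdiv c₂ w₂ hw₂ h2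

end Cls

end Fermat.Agent.S40

end
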