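import Mathlib

/-!
# S40, TOP-A (2): the Boston–Lenstra–Ribet embedding over a field (helper63)

Mathlib only.  `k` a field with `2 ≠ 0`, `G` a group, `V` a `k`-space of dimension two with an
irreducible linear action `ρ` of `G`, `Y` a nonzero `k`-space (no finiteness) with a linear action
`act` of `G` such that every `g` satisfies on `Y` the quadratic relation it satisfies on `V`.
Then there is an injective `G`-equivariant `k`-linear map `V → Y`.

* `h63_blr_core`  : abstract form (algebra `A`, trace functional `τ`, polarised identity on `Y`).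
* `h63_blr_embed_tr` : group form, relation `act g + d g • act g⁻¹ = tr (ρ g) • 1` with `d` a
  character.
* `h63_blr_embed` : group form with NO trace and NO determinant in the hypotheses: a character
  `χ : G →* kˣ` and, for every `g`, some `t` with `X² - t X + χ g` killing both `ρ g` and `act g`.

No absolute irreducibility is needed: the kernel `N` of `k[G] → End V` satisfies `N³ Y = 0`, so `Y`
contains a nonzero vector killed by `N`, and a graph argument with the two basis vectors of `V`
produces the embedding.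
-/

set_option autoImplicit false

namespace Fermat.Agent.S40

section core

variable {k : Type*} [Field k] {A : Type*} [Ring A] [Algebra k A]
  {V : Type*} [AddCommGroup V] [Module k V] {Y : Type*} [AddCommGroup Y] [Module k Y]

/-- **Graph lemma.** `L` a left ideal, `v ∈ V`, `y ∈ Y` such that `a ↦ Φ a y` factors through
`a ↦ R a v` on `L` and is nonzero on `L`; `V` irreducible.  Then `V` embeds into `Y`. -/
theorem h63_graph (R : A →ₐ[k] Module.End k V) (Φ : A →ₐ[k] Module.End k Y)
    (hirr : ∀ U : Submodule k V, (∀ a, ∀ v ∈ U, R a v ∈ U) → U = ⊥ ∨ U = ⊤)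
    (L : Submodule k A) (hL : ∀ a b, b ∈ L → a * b ∈ L) (v : V) (y : Y)
    (h1 : ∀ a ∈ L, R a v = 0 → Φ a y = 0) (h2 : ∃ a ∈ L, Φ a y ≠ 0) :
    ∃ iota : V →ₗ[k] Y, Function.Injective iota ∧ ∀ a w, iota (R a w) = Φ a (iota w) := by
  -- the two evaluation maps on `L`
  let α : L →ₗ[k] V := ((LinearMap.applyₗ v).comp R.toLinearMap).comp L.subtype
  let β : L →ₗ[k] Y := ((LinearMap.applyₗ y).comp Φ.toLinearMap).comp L.subtype
  have hα : ∀ b : L, α b = R b.1 v := fun b => rfl
  have hβ : ∀ b : L, β b = Φ b.1 y := fun b => rfl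
  -- `α` is onto
  have hstab : ∀ a, ∀ w ∈ LinearMap.range α, R a w ∈ LinearMap.range α := by
    rintro a w ⟨b, rfl⟩
    refine ⟨⟨a * b.1, hL a b.1 b.2⟩, ?_⟩
    rw [hα, hα, map_mul]; rfl
  have hsurj : LinearMap.range α = ⊤ := by
    rcases hirr _ hstab with h | h
    · exfalso
      obtain ⟨a, haL, ha⟩ := h2
      apply ha
      apply h1 a haL
      have : α ⟨a, haL⟩ ∈ LinearMap.range α := ⟨_, rfl⟩
      rw [h, Submodule.mem_bot] at this
      exact this
    · exact h
  obtain ⟨γ, hγ⟩ := α.exists_rightInverse_of_surjective hsurj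
  have hγ' : ∀ w, α (γ w) = w := fun w => by
    have := congrArg (fun f : V →ₗ[k] V => f w) hγ
    simpa using this
  let iota : V →ₗ[k] Y := β.comp γ
  have key : ∀ b : L, iota (α b) = β b := by
    intro b
    have h3 : Φ (γ (α b) - b).1 y = 0 := by
      apply h1 _ (γ (α b) - b).2
      have : α (γ (α b) - b) = 0 := by rw [map_sub, hγ', sub_self]
      rw [← hα]; exact this
    have h4 : β (γ (α b)) - β b = 0 := by
      rw [← map_sub, hβ]; exact h3
    exact sub_eq_zero.1 h4
  have hsurj' : ∀ w, ∃ b : L, α b = w := fun w => by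
    have : w ∈ LinearMap.range α := by rw [hsurj]; trivial
    exact this
  have heq : ∀ a w, iota (R a w) = Φ a (iota w) := by
    intro a w
    obtain ⟨b, rfl⟩ := hsurj' w
    have e1 : R a (α b) = α ⟨a * b.1, hL a b.1 b.2⟩ := by
      rw [hα, hα, map_mul]; rfl
    rw [e1, key, key, hβ, hβ, map_mul]; rfl
  refine ⟨iota, ?_, heq⟩
  have hker : ∀ a, ∀ w ∈ LinearMap.ker iota, R a w ∈ LinearMap.ker iota := by
    intro a w hw
    rw [LinearMap.mem_ker] at hw ⊢
    rw [heq, hw, map_zero]
  rcases hirr _ hker with h | h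
  · exact LinearMap.ker_eq_bot.1 h
  · exfalso
    obtain ⟨a, haL, ha⟩ := h2
    apply ha
    have : α ⟨a, haL⟩ ∈ LinearMap.ker iota := by rw [h]; trivial
    rw [LinearMap.mem_ker, key, hβ] at this
    exact this

/-- For `x` in the kernel of `R`, the polarised identity gives `Φ (x z) + Φ (z x) = τ z • Φ x`. -/
theorem h63_star (R : A →ₐ[k] Module.End k V) (Φ : A →ₐ[k] Module.End k Y) (τ : A →ₗ[k] k)
    (hτ : ∀ x, R x = 0 → τ x = 0)
    (hPCH : ∀ x z : A, Φ (x * z) + Φ (z * x) + (τ x * τ z - τ (x * z)) • (1 : Module.End k Y)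
      = τ z • Φ x + τ x • Φ z) (x z : A) (hx : R x = 0) :
    Φ (x * z) + Φ (z * x) = τ z • Φ x := by
  have h1 := hPCH x z
  have h2 : τ x = 0 := hτ x hx
  have h3 : τ (x * z) = 0 := hτ _ (by rw [map_mul, hx, zero_mul])
  rw [h2, h3, zero_mul, sub_zero, zero_smul, add_zero, zero_smul, add_zero] at h1
  exact h1

/-- The kernel of `R` acts on `Y` with cube zero. -/
theorem h63_cube (h2 : (2 : k) ≠ 0) (R : A →ₐ[k] Module.End k V) (Φ : A →ₐ[k] Module.End k Y)
    (τ : A →ₗ[k] k) (hτ : ∀ x, R x = 0 → τ x = 0)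
    (hPCH : ∀ x z : A, Φ (x * z) + Φ (z * x) + (τ x * τ z - τ (x * z)) • (1 : Module.End k Y)
      = τ z • Φ x + τ x • Φ z) (x x' x'' : A) (hx : R x = 0) (hx' : R x' = 0) (hx'' : R x'' = 0) :
    Φ x * Φ x' * Φ x'' = 0 := by
  have anti : ∀ a b : A, R a = 0 → R b = 0 → Φ a * Φ b = - (Φ b * Φ a) := by
    intro a b ha hb
    have h := h63_star R Φ τ hτ hPCH a b ha
    rw [hτ b hb, zero_smul, map_mul, map_mul] at h
    exact eq_neg_of_add_eq_zero_left h
  have hxx' : R (x * x') = 0 := by rw [map_mul, hx, zero_mul]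
  have e1 : Φ x * Φ x' * Φ x'' = - (Φ x'' * (Φ x * Φ x')) := by
    have := anti (x * x') x'' hxx' hx''
    rwa [map_mul] at this
  have e2 : Φ x'' * Φ x = - (Φ x * Φ x'') := anti x'' x hx'' hx
  have e3 : Φ x'' * Φ x' = - (Φ x' * Φ x'') := anti x'' x' hx'' hx'
  have e4 : Φ x * Φ x' * Φ x'' = - (Φ x * Φ x' * Φ x'') := by
    calc Φ x * Φ x' * Φ x'' = - (Φ x'' * (Φ x * Φ x')) := e1
      _ = - ((Φ x'' * Φ x) * Φ x') := by rw [mul_assoc]
      _ = Φ x * (Φ x'' * Φ x') := by rw [e2, neg_mul, neg_neg, mul_assoc]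
      _ = - (Φ x * Φ x' * Φ x'') := by rw [e3, mul_neg, mul_assoc]
  have e5 : (2 : k) • (Φ x * Φ x' * Φ x'') = 0 := by
    rw [two_smul]
    nth_rewrite 1 [e4]
    exact neg_add_cancel _
  exact (smul_eq_zero.1 e5).resolve_left h2

/-- A nonzero vector of `Y` killed by the kernel of `R`. -/
theorem h63_exists_killed (h2 : (2 : k) ≠ 0) (R : A →ₐ[k] Module.End k V)
    (Φ : A →ₐ[k] Module.End k Y)
    (τ : A →ₗ[k] k) (hτ : ∀ x, R x = 0 → τ x = 0)
    (hPCH : ∀ x z : A, Φ (x * z) + Φ (z * x) + (τ x * τ z - τ (x * z)) • (1 : Module.End k Y)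
      = τ z • Φ x + τ x • Φ z) [Nontrivial Y] :
    ∃ y : Y, y ≠ 0 ∧ ∀ x, R x = 0 → Φ x y = 0 := by
  obtain ⟨y1, hy1⟩ := exists_ne (0 : Y)
  by_cases c1 : ∀ x, R x = 0 → Φ x y1 = 0
  · exact ⟨y1, hy1, c1⟩
  push Not at c1
  obtain ⟨x1, hx1, hy2⟩ := c1
  by_cases c2 : ∀ x, R x = 0 → Φ x (Φ x1 y1) = 0
  · exact ⟨_, hy2, c2⟩
  push Not at c2
  obtain ⟨x2, hx2, hy3⟩ := c2
  refine ⟨_, hy3, fun x hx => ?_⟩
  have := h63_cube h2 R Φ τ hτ hPCH x x2 x1 hx hx2 hx1
  have h3 := congrArg (fun f : Module.End k Y => f y1) this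
  simpa using h3

/-- **BLR, abstract core.** -/
theorem h63_blr_core (h2 : (2 : k) ≠ 0) (R : A →ₐ[k] Module.End k V)
    (Φ : A →ₐ[k] Module.End k Y) (τ : A →ₗ[k] k) (hτ : ∀ x, R x = 0 → τ x = 0)
    (hPCH : ∀ x z : A, Φ (x * z) + Φ (z * x) + (τ x * τ z - τ (x * z)) • (1 : Module.End k Y)
      = τ z • Φ x + τ x • Φ z)
    (v0 v1 : V) (hv : ∀ f : Module.End k V, f v0 = 0 → f v1 = 0 → f = 0)
    (hirr : ∀ U : Submodule k V, (∀ a, ∀ v ∈ U, R a v ∈ U) → U = ⊥ ∨ U = ⊤)
    [Nontrivial Y] :
    ∃ iota : V →ₗ[k] Y, Function.Injective iota ∧ ∀ a w, iota (R a w) = Φ a (iota w) := by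
  obtain ⟨y0, hy0, hN⟩ := h63_exists_killed h2 R Φ τ hτ hPCH
  -- the annihilators of the two basis vectors
  let K1 : Submodule k A := LinearMap.ker ((LinearMap.applyₗ v0).comp R.toLinearMap)
  let K0 : Submodule k A := LinearMap.ker ((LinearMap.applyₗ v1).comp R.toLinearMap)
  have hK1 : ∀ a, a ∈ K1 ↔ R a v0 = 0 := fun a => Iff.rfl
  have hK0 : ∀ a, a ∈ K0 ↔ R a v1 = 0 := fun a => Iff.rfl
  have hK1L : ∀ a b, b ∈ K1 → a * b ∈ K1 := by
    intro a b hb
    rw [hK1] at hb ⊢
    rw [map_mul, Module.End.mul_apply, hb, map_zero]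
  have hK0L : ∀ a b, b ∈ K0 → a * b ∈ K0 := by
    intro a b hb
    rw [hK0] at hb ⊢
    rw [map_mul, Module.End.mul_apply, hb, map_zero]
  by_cases hc : ∀ a, R a v0 = 0 → R a v1 = 0
  · -- the annihilator of `v0` is the kernel of `R`
    refine h63_graph R Φ hirr ⊤ (fun _ _ _ => Submodule.mem_top) v0 y0 ?_ ⟨1, Submodule.mem_top, ?_⟩
    · intro a _ ha
      exact hN a (hv _ ha (hc a ha))
    · rw [map_one]; exact hy0
  push Not at hc
  obtain ⟨a0, ha0, ha0'⟩ := hc
  -- `K1 v1 = V`
  let U : Submodule k V := K1.map ((LinearMap.applyₗ v1).comp R.toLinearMap)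
  have hU : ∀ w, w ∈ U ↔ ∃ a ∈ K1, R a v1 = w := fun w => Iff.rfl
  have hUst : ∀ a, ∀ w ∈ U, R a w ∈ U := by
    intro a w hw
    obtain ⟨b, hb, rfl⟩ := (hU w).1 hw
    exact (hU _).2 ⟨a * b, hK1L a b hb, by rw [map_mul]; rfl⟩
  have hUtop : U = ⊤ := by
    rcases hirr U hUst with h | h
    · exfalso
      have : R a0 v1 ∈ U := (hU _).2 ⟨a0, (hK1 a0).2 ha0, rfl⟩
      rw [h, Submodule.mem_bot] at this
      exact ha0' this
    · exact h
  obtain ⟨a2, ha2, ha2'⟩ := (hU v1).1 (by rw [hUtop]; trivial)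
  by_cases hc2 : Φ a2 y0 = 0
  · -- use `1 - a2`, which kills `v1` and fixes `y0`
    refine h63_graph R Φ hirr K0 hK0L v0 y0 ?_ ⟨1 - a2, ?_, ?_⟩
    · intro a ha ha'
      exact hN a (hv _ ha' ((hK0 a).1 ha))
    · rw [hK0, map_sub, map_one, LinearMap.sub_apply, ha2', Module.End.one_apply, sub_self]
    · rw [map_sub, map_one, LinearMap.sub_apply, hc2, Module.End.one_apply, sub_zero]
      exact hy0
  · refine h63_graph R Φ hirr K1 hK1L v1 y0 ?_ ⟨a2, ha2, hc2⟩
    intro a ha ha'
    exact hN a (hv _ ((hK1 a).1 ha) ha')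

end core

section group

variable {k : Type*} [Field k] {G : Type*} [Group G]
  {V : Type*} [AddCommGroup V] [Module k V] {Y : Type*} [AddCommGroup Y] [Module k Y]

/-- The trace functional of `ρ` on the group algebra. -/
noncomputable def h63_tau (ρ : G →* Module.End k V) : MonoidAlgebra k G →ₗ[k] k :=
  (LinearMap.trace k V).comp (MonoidAlgebra.lift k (Module.End k V) G ρ).toLinearMap

theorem h63_tau_apply (ρ : G →* Module.End k V) (x : MonoidAlgebra k G) :
    h63_tau ρ x = LinearMap.trace k V (MonoidAlgebra.lift k (Module.End k V) G ρ x) := rfl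

theorem h63_tau_of (ρ : G →* Module.End k V) (g : G) :
    h63_tau ρ (MonoidAlgebra.of k G g) = LinearMap.trace k V (ρ g) := by
  rw [h63_tau_apply, MonoidAlgebra.lift_of]

/-- The polarised Cayley–Hamilton identity on `Y` from the relations `g + d(g) g⁻¹ = tr ρ(g)`. -/
theorem h63_pch (ρ : G →* Module.End k V) (act : G →* Module.End k Y) (d : G →* kˣ)
    (hCH : ∀ g, act g + (d g : k) • act g⁻¹ = LinearMap.trace k V (ρ g) • (1 : Module.End k Y))
    (x z : MonoidAlgebra k G) :
    MonoidAlgebra.lift k (Module.End k Y) G act (x * z)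
      + MonoidAlgebra.lift k (Module.End k Y) G act (z * x)
      + (h63_tau ρ x * h63_tau ρ z - h63_tau ρ (x * z)) • (1 : Module.End k Y)
      = h63_tau ρ z • MonoidAlgebra.lift k (Module.End k Y) G act x
        + h63_tau ρ x • MonoidAlgebra.lift k (Module.End k Y) G act z := by
  set t : G → k := fun g => LinearMap.trace k V (ρ g) with ht
  have key : ∀ g h : G, act (g * h) + act (h * g) + (t g * t h - t (g * h)) • (1 : Module.End k Y)
      = t h • act g + t g • act h := by
    intro g h
    have hg : (d g : k) • act g⁻¹ = t g • 1 - act g := eq_sub_of_add_eq' (hCH g)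
    have hh : (d h : k) • act h⁻¹ = t h • 1 - act h := eq_sub_of_add_eq' (hCH h)
    have hgh : (d (g * h) : k) • act (g * h)⁻¹ = t (g * h) • 1 - act (g * h) :=
      eq_sub_of_add_eq' (hCH (g * h))
    have h1 : ((d h : k) • act h⁻¹) * ((d g : k) • act g⁻¹) = (d (g * h) : k) • act (g * h)⁻¹ := by
      rw [smul_mul_smul_comm, mul_inv_rev, map_mul act, map_mul d, Units.val_mul,
        mul_comm (d g : k)]
    rw [hg, hh, hgh] at h1
    simp only [sub_mul, mul_sub, smul_mul_assoc, mul_smul_comm, one_mul, mul_one, ← map_mul]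
      at h1
    linear_combination (norm := module) h1
  induction x using MonoidAlgebra.induction_on generalizing z with
  | of g =>
    induction z using MonoidAlgebra.induction_on with
    | of h =>
      rw [← map_mul, ← map_mul, MonoidAlgebra.lift_of, MonoidAlgebra.lift_of,
        MonoidAlgebra.lift_of, MonoidAlgebra.lift_of, h63_tau_of, h63_tau_of, h63_tau_of]
      exact key g h
    | add z z' hz hz' =>
      simp only [mul_add, add_mul, map_add]
      linear_combination (norm := module) hz + hz'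
    | smul c z hz =>
      simp only [mul_smul_comm, smul_mul_assoc, map_smul, smul_eq_mul]
      linear_combination (norm := module) c • hz
  | add x x' hx hx' =>
    simp only [mul_add, add_mul, map_add]
    linear_combination (norm := module) hx z + hx' z
  | smul c x hx =>
    simp only [mul_smul_comm, smul_mul_assoc, map_smul, smul_eq_mul]
    linear_combination (norm := module) c • hx z

/-- **BLR embedding, trace form.** -/
theorem h63_blr_embed_tr (h2 : (2 : k) ≠ 0) (hV : Module.finrank k V = 2)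
    (ρ : G →* Module.End k V)
    (hirr : ∀ U : Submodule k V, (∀ g, ∀ v ∈ U, ρ g v ∈ U) → U = ⊥ ∨ U = ⊤)
    (act : G →* Module.End k Y) [Nontrivial Y] (d : G →* kˣ)
    (hCH : ∀ g, act g + (d g : k) • act g⁻¹ = LinearMap.trace k V (ρ g) • (1 : Module.End k Y)) :
    ∃ iota : V →ₗ[k] Y, Function.Injective iota ∧ ∀ g v, iota (ρ g v) = act g (iota v) := by
  have : Module.Finite k V := Module.finite_of_finrank_pos (by rw [hV]; norm_num)
  let b : Module.Basis (Fin 2) k V := Module.finBasisOfFinrankEq k V hV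
  have hv : ∀ f : Module.End k V, f (b 0) = 0 → f (b 1) = 0 → f = 0 := by
    intro f h0 h1
    apply b.ext
    intro i
    fin_cases i
    · simpa using h0
    · simpa using h1
  obtain ⟨iota, hinj, heq⟩ := h63_blr_core h2 (MonoidAlgebra.lift k (Module.End k V) G ρ)
    (MonoidAlgebra.lift k (Module.End k Y) G act) (h63_tau ρ)
    (fun x hx => by rw [h63_tau_apply, hx, map_zero]) (h63_pch ρ act d hCH) (b 0) (b 1) hv
    (fun U hU => hirr U (fun g v hv' => by
      have := hU (MonoidAlgebra.of k G g) v hv'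
      rwa [MonoidAlgebra.lift_of] at this))
  refine ⟨iota, hinj, fun g v => ?_⟩
  have := heq (MonoidAlgebra.of k G g) v
  rwa [MonoidAlgebra.lift_of, MonoidAlgebra.lift_of] at this

/-- Cayley–Hamilton on a plane. -/
theorem h63_ch2 (hV : Module.finrank k V = 2) (f : Module.End k V) :
    f * f - LinearMap.trace k V f • f + LinearMap.det f • (1 : Module.End k V) = 0 := by
  have : Module.Finite k V := Module.finite_of_finrank_pos (by rw [hV]; norm_num)
  let b : Module.Basis (Fin 2) k V := Module.finBasisOfFinrankEq k V hV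
  have hM : ∀ M : Matrix (Fin 2) (Fin 2) k,
      M * M - M.trace • M + M.det • (1 : Matrix (Fin 2) (Fin 2) k) = 0 := by
    intro M
    ext i j
    fin_cases i <;> fin_cases j <;>
      simp [Matrix.mul_apply, Fin.sum_univ_two, Matrix.trace_fin_two, Matrix.det_fin_two] <;> ring
  apply (LinearMap.toMatrixAlgEquiv b).injective
  rw [map_add, map_sub, map_mul, map_smul, map_smul, map_one, map_zero,
    LinearMap.trace_eq_matrix_trace k b f, ← LinearMap.det_toMatrix b f]
  exact hM _

/-- A non-scalar endomorphism of a plane killed by `X² - t X + c` has trace `t`. -/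
theorem h63_trace_of_quad (hV : Module.finrank k V = 2) (f : Module.End k V)
    (hns : ∀ lam : k, f ≠ lam • (1 : Module.End k V)) (t c : k)
    (h : f * f - t • f + c • (1 : Module.End k V) = 0) : LinearMap.trace k V f = t := by
  by_contra hne
  have h1 := h63_ch2 hV f
  have h3 : (LinearMap.trace k V f - t) • f = (LinearMap.det f - c) • (1 : Module.End k V) := by
    linear_combination (norm := module) h - h1
  apply hns ((LinearMap.trace k V f - t)⁻¹ * (LinearMap.det f - c))
  rw [mul_smul, ← h3, smul_smul, inv_mul_cancel₀ (sub_ne_zero.2 hne), one_smul]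

/-- **BLR embedding, relation form**: no trace, no determinant, no absolute irreducibility in the
hypotheses.  `χ` is a character and every `g` satisfies one and the same quadratic relation
`X² - t X + χ g` on `V` and on `Y`. -/
theorem h63_blr_embed (h2 : (2 : k) ≠ 0) (hV : Module.finrank k V = 2)
    (ρ : G →* Module.End k V)
    (hirr : ∀ U : Submodule k V, (∀ g, ∀ v ∈ U, ρ g v ∈ U) → U = ⊥ ∨ U = ⊤)
    (act : G →* Module.End k Y) [Nontrivial Y] (χ : G →* kˣ)
    (hF : ∀ g, ∃ t : k, ρ g * ρ g - t • ρ g + (χ g : k) • (1 : Module.End k V) = 0 ∧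
      act g * act g - t • act g + (χ g : k) • (1 : Module.End k Y) = 0) :
    ∃ iota : V →ₗ[k] Y, Function.Injective iota ∧ ∀ g v, iota (ρ g v) = act g (iota v) := by
  have hfin : Module.Finite k V := Module.finite_of_finrank_pos (by rw [hV]; norm_num)
  have hnt : Nontrivial V := Module.nontrivial_of_finrank_pos (R := k) (by rw [hV]; norm_num)
  -- a non-scalar element
  have hns : ∃ g0, ∀ lam : k, ρ g0 ≠ lam • (1 : Module.End k V) := by
    by_contra hcon
    push Not at hcon
    obtain ⟨v, hv⟩ := exists_ne (0 : V)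
    have hst : ∀ g, ∀ w ∈ Submodule.span k {v}, ρ g w ∈ Submodule.span k {v} := by
      intro g w hw
      obtain ⟨lam, hlam⟩ := hcon g
      rw [hlam, LinearMap.smul_apply, Module.End.one_apply]
      exact Submodule.smul_mem _ _ hw
    rcases hirr _ hst with h | h
    · apply hv
      have : v ∈ Submodule.span k {v} := Submodule.mem_span_singleton_self v
      rw [h, Submodule.mem_bot] at this
      exact this
    · have h1 : Module.finrank k (Submodule.span k {v}) = 1 := finrank_span_singleton hv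
      rw [h, finrank_top, hV] at h1
      norm_num at h1
  obtain ⟨g0, hg0⟩ := hns
  -- the trace is the `t` of the relation
  have htr : ∀ g, ∀ t : k, ρ g * ρ g - t • ρ g + (χ g : k) • (1 : Module.End k V) = 0 →
      LinearMap.trace k V (ρ g) = t := by
    intro g t ht
    by_cases hs : ∀ lam : k, ρ g ≠ lam • (1 : Module.End k V)
    · exact h63_trace_of_quad hV _ hs t _ ht
    push Not at hs
    obtain ⟨lam, hlam⟩ := hs
    have hlam0 : lam ≠ 0 := by
      rintro rfl
      rw [zero_smul] at hlam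
      have h1 : ρ g * ρ g⁻¹ = 1 := by rw [← map_mul, mul_inv_cancel, map_one]
      rw [hlam, zero_mul] at h1
      exact zero_ne_one h1
    obtain ⟨t0, ht0, -⟩ := hF g0
    obtain ⟨t', ht', -⟩ := hF (g * g0)
    have e1 : ρ (g * g0) = lam • ρ g0 := by rw [map_mul, hlam, smul_mul_assoc, one_mul]
    rw [e1, map_mul, Units.val_mul] at ht'
    have e2 : (lam ^ 2 * t0 - t' * lam) • ρ g0
        = ((lam ^ 2 - (χ g : k)) * (χ g0 : k)) • (1 : Module.End k V) := by
      simp only [smul_mul_assoc, mul_smul_comm] at ht'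
      linear_combination (norm := module) ht' - lam ^ 2 • ht0
    have e3 : lam ^ 2 * t0 - t' * lam = 0 := by
      by_contra hne
      apply hg0 ((lam ^ 2 * t0 - t' * lam)⁻¹ * ((lam ^ 2 - (χ g : k)) * (χ g0 : k)))
      rw [mul_smul, ← e2, smul_smul, inv_mul_cancel₀ hne, one_smul]
    rw [e3, zero_smul] at e2
    have e4 : (lam ^ 2 - (χ g : k)) * (χ g0 : k) = 0 := by
      by_contra hne
      exact one_ne_zero ((smul_eq_zero.1 e2.symm).resolve_left hne)
    have e5 : (χ g : k) = lam ^ 2 := by
      have := (mul_eq_zero.1 e4).resolve_right (Units.ne_zero _)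
      exact (sub_eq_zero.1 this).symm
    rw [hlam, e5] at ht
    have e6 : (lam * lam - t * lam + lam ^ 2) • (1 : Module.End k V) = 0 := by
      simp only [mul_smul_comm, mul_one] at ht
      linear_combination (norm := module) ht
    have e7 : lam * lam - t * lam + lam ^ 2 = 0 := (smul_eq_zero.1 e6).resolve_right one_ne_zero
    have e8 : t = 2 * lam := by
      have h5 : lam * (2 * lam - t) = 0 := by linear_combination e7
      have h6 := (mul_eq_zero.1 h5).resolve_left hlam0
      linear_combination -h6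
    rw [hlam, map_smul, LinearMap.trace_one, hV, e8, smul_eq_mul]
    push_cast
    ring
  -- the relation on `Y` in trace form
  have hCH : ∀ g, act g + (χ g : k) • act g⁻¹
      = LinearMap.trace k V (ρ g) • (1 : Module.End k Y) := by
    intro g
    obtain ⟨t, ht, hY⟩ := hF g
    rw [htr g t ht]
    have h1 : act g * act g⁻¹ = 1 := by rw [← map_mul, mul_inv_cancel, map_one]
    have h3 := congrArg (fun f => f * act g⁻¹) hY
    simp only [add_mul, sub_mul, smul_mul_assoc, mul_assoc, h1, mul_one, one_mul, zero_mul] at h3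
    linear_combination (norm := module) h3
  exact h63_blr_embed_tr h2 hV ρ hirr act χ hCH

end group

end Fermat.Agent.S40
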