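import Mathlib
import Fermat.Agent.S36.h69_DescCore
import Fermat.Agent.S17.h83_Smooth
import Fermat.Agent.S33.h85_TauLift

/-!
# S40 (G40), row T6 (DESC-COVER), generic core (helper66)

`F'/K` a function field with a chart (`K` algebraically closed), `Γ` a group acting semilinearly
on `F'` (`ρ : Γ →* SemilinearAut K F'`), with

* a `ρ(Γ)`-fixed place `w` and a `ρ(Γ)`-fixed uniformiser `t` at `w` (the place above the
  rational cusp), which give an equivariant *leading coefficient* `h66_dc_lc w t : F' → K`;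
* *open stabilisers* on elements: every `f : F'` is fixed by `ρ γ` as soon as `γ` maps to the
  identity of a finite quotient of `Γ` acting through distinct characters (arithmetic form:
  `K = ℚ̄`, `j : Γ →* Gal(ℚ̄/ℚ)`, `baseAut (ρ γ) = j γ`, every `f` fixed by the `γ` with `j γ`
  trivial on a number field).

Then (`h66_desc_cover`, `h66_desc_cover_principal`):

* every `ρ(Γ)`-fixed class `y` of `Pic⁰(F')` with `n • y = 0` is the class of a `ρ(Γ)`-invariant
  divisor `D`, and `n D = div u` for a `ρ(Γ)`-invariant function `u` (leading coefficient `1`);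
* every `ρ(Γ)`-invariant principal divisor has a `ρ(Γ)`-invariant generator (leading
  coefficient `1`).

Everything is reduced to `S36/h69_DescCore` (`h69_desc_gen`, `h69_desc_torsion_gen`,
`h69_unique`); new here: the leading coefficient at an abstract fixed place (no `t`-expansion of
`F'` is needed), and "elements have finite level ⟹ places and divisors have finite level"
(`h83_exists_unique_pole`).
-/

set_option autoImplicit false

noncomputable section

open AlgebraicCurve IntermediateField

namespace Fermat.Agent.S40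

open Fermat.Agent.S18 Fermat.Agent.S24 Fermat.Agent.S17 Fermat.Agent.S33 Fermat.Agent.S36

/-! ### The leading coefficient at a place -/

section LC

variable {K F : Type*} [Field K] [Field F] [Algebra K F]

/-- A nonzero function of order `0` has valuation `1`. -/
theorem h66_dc_val_eq_one (v : Place K F) {x : F} (hx : x ≠ 0) (h : v.ord x = 0) :
    v.toValuationSubring.valuation x = 1 := by
  have h1 : x ∈ v.toValuationSubring := (h35_mem_iff_ord_nonneg v hx).mpr (by omega)
  have h2 : x⁻¹ ∈ v.toValuationSubring :=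
    (h35_mem_iff_ord_nonneg v (inv_ne_zero hx)).mpr (by rw [v.ord_inv]; omega)
  have h3 := (v.toValuationSubring.valuation_le_one_iff x).mpr h1
  have h4 := (v.toValuationSubring.valuation_le_one_iff x⁻¹).mpr h2
  rw [map_inv₀] at h4
  have hpos : 0 < v.toValuationSubring.valuation x :=
    zero_lt_iff.mpr ((v.toValuationSubring.valuation.ne_zero_iff).mpr hx)
  exact le_antisymm h3 ((inv_le_one₀ hpos).mp h4)

/-- "Small" (valuation `< 1`) is the same as positive order. -/
theorem h66_dc_val_lt_one_iff (v : Place K F) {x : F} (hx : x ≠ 0) :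
    v.toValuationSubring.valuation x < 1 ↔ 0 < v.ord x := by
  rw [h35_ord_pos_iff v hx, ← ValuationSubring.mem_nonunits_iff,
    ValuationSubring.mem_nonunits_iff_or]
  constructor
  · rintro (h | h)
    · exact absurd h hx
    · refine ⟨?_, h⟩
      have h1 : x ∈ v.toValuationSubring.nonunits :=
        (v.toValuationSubring.mem_nonunits_iff_or).mpr (Or.inr h)
      rw [ValuationSubring.mem_nonunits_iff] at h1
      exact (v.toValuationSubring.valuation_le_one_iff x).mp h1.le
  · rintro ⟨-, h⟩
    exact Or.inr h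

/-- Nonzero constants have valuation `1`. -/
theorem h66_dc_val_algebraMap (v : Place K F) {c : K} (hc : c ≠ 0) :
    v.toValuationSubring.valuation (algebraMap K F c) = 1 :=
  h66_dc_val_eq_one v (by rwa [Ne, map_eq_zero]) (h35_ord_algebraMap v c)

theorem h66_dc_val_algebraMap_le (v : Place K F) (c : K) :
    v.toValuationSubring.valuation (algebraMap K F c) ≤ 1 :=
  (v.toValuationSubring.valuation_le_one_iff _).mpr (v.algebraMap_mem' c)

/-- Every integral function takes a value in `K` at a place whose residue field is `K`. -/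
theorem h66_dc_exists_value (v : Place K F)
    (hres : Function.Surjective (algebraMap K v.ResidueField)) {x : F}
    (hx : x ∈ v.toValuationSubring) :
    ∃ c : K, v.toValuationSubring.valuation (x - algebraMap K F c) < 1 := by
  obtain ⟨c, hc⟩ := hres (IsLocalRing.residue v.toValuationSubring ⟨x, hx⟩)
  refine ⟨c, ?_⟩
  have key : IsLocalRing.residue v.toValuationSubring
      ((⟨x, hx⟩ : v.toValuationSubring) - algebraMap K v.toValuationSubring c) = 0 := by
    rw [map_sub, sub_eq_zero, ← hc]
    rfl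
  rw [IsLocalRing.residue_eq_zero_iff] at key
  have h1 := (v.toValuationSubring.valuation_lt_one_iff _).mp key
  exact h1

open Classical in
/-- The leading coefficient of `f` at the place `v` with respect to the uniformiser `t`:
the value at `v` of `f / t ^ ord_v f` (`0` for `f = 0`; junk if the residue field is not `K`). -/
def h66_dc_lc (v : Place K F) (t : F) (f : F) : K :=
  if h : f ≠ 0 ∧ ∃ c : K,
      v.toValuationSubring.valuation (f * t ^ (-v.ord f) - algebraMap K F c) < 1
  then Classical.choose h.2 else 0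

theorem h66_dc_lc_zero (v : Place K F) (t : F) : h66_dc_lc v t 0 = 0 := by
  unfold h66_dc_lc
  rw [dif_neg]
  rintro ⟨h, -⟩
  exact h rfl

section Props

variable (v : Place K F) (hres : Function.Surjective (algebraMap K v.ResidueField))
  {t : F} (ht : v.ord t = 1)

include ht in
theorem h66_dc_t_ne_zero : t ≠ 0 := by
  rintro rfl
  rw [Place.ord_zero] at ht
  exact zero_ne_one ht

include ht in
/-- `f / t ^ ord f` is a nonzero function of order `0`. -/
theorem h66_dc_unit {f : F} (hf : f ≠ 0) :
    f * t ^ (-v.ord f) ≠ 0 ∧ v.ord (f * t ^ (-v.ord f)) = 0 := by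
  have ht0 := h66_dc_t_ne_zero v ht
  have h1 : t ^ (-v.ord f) ≠ 0 := zpow_ne_zero _ ht0
  refine ⟨mul_ne_zero hf h1, ?_⟩
  rw [v.ord_mul hf h1, v.ord_zpow, ht]
  ring

include hres ht in
theorem h66_dc_lc_spec {f : F} (hf : f ≠ 0) :
    v.toValuationSubring.valuation
      (f * t ^ (-v.ord f) - algebraMap K F (h66_dc_lc v t f)) < 1 := by
  obtain ⟨hu0, hu⟩ := h66_dc_unit v ht hf
  have hmem : f * t ^ (-v.ord f) ∈ v.toValuationSubring :=
    (h35_mem_iff_ord_nonneg v hu0).mpr (by omega)
  have hex := h66_dc_exists_value v hres hmem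
  unfold h66_dc_lc
  rw [dif_pos ⟨hf, hex⟩]
  exact Classical.choose_spec hex

include hres ht in
theorem h66_dc_lc_unique {f : F} (hf : f ≠ 0) {c : K}
    (hc : v.toValuationSubring.valuation (f * t ^ (-v.ord f) - algebraMap K F c) < 1) :
    h66_dc_lc v t f = c := by
  by_contra hne
  have h1 := h66_dc_lc_spec v hres ht hf
  have h2 : algebraMap K F (h66_dc_lc v t f - c) =
      (f * t ^ (-v.ord f) - algebraMap K F c) -
        (f * t ^ (-v.ord f) - algebraMap K F (h66_dc_lc v t f)) := by
    rw [map_sub]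
    ring
  have h3 : v.toValuationSubring.valuation (algebraMap K F (h66_dc_lc v t f - c)) < 1 := by
    rw [h2]
    exact lt_of_le_of_lt (Valuation.map_sub _ _ _) (max_lt hc h1)
  rw [h66_dc_val_algebraMap v (sub_ne_zero.mpr hne)] at h3
  exact lt_irrefl _ h3

include hres ht in
theorem h66_dc_lc_ne_zero {f : F} (hf : f ≠ 0) : h66_dc_lc v t f ≠ 0 := by
  intro h0
  have h1 := h66_dc_lc_spec v hres ht hf
  rw [h0, map_zero, sub_zero] at h1
  obtain ⟨hu0, hu⟩ := h66_dc_unit v ht hf
  rw [h66_dc_val_eq_one v hu0 hu] at h1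
  exact lt_irrefl _ h1

include hres ht in
/-- The leading coefficient is multiplicative. -/
theorem h66_dc_lc_mul (f g : F) :
    h66_dc_lc v t (f * g) = h66_dc_lc v t f * h66_dc_lc v t g := by
  by_cases hf : f = 0
  · rw [hf, zero_mul, h66_dc_lc_zero, zero_mul]
  by_cases hg : g = 0
  · rw [hg, mul_zero, h66_dc_lc_zero, mul_zero]
  have ht0 := h66_dc_t_ne_zero v ht
  refine h66_dc_lc_unique v hres ht (mul_ne_zero hf hg) ?_
  obtain ⟨hg0, hgu⟩ := h66_dc_unit v ht hg
  have e : f * g * t ^ (-v.ord (f * g)) -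
      algebraMap K F (h66_dc_lc v t f * h66_dc_lc v t g) =
      (f * t ^ (-v.ord f) - algebraMap K F (h66_dc_lc v t f)) * (g * t ^ (-v.ord g)) +
        algebraMap K F (h66_dc_lc v t f) *
          (g * t ^ (-v.ord g) - algebraMap K F (h66_dc_lc v t g)) := by
    rw [v.ord_mul hf hg, neg_add, zpow_add₀ ht0, map_mul]
    ring
  rw [e]
  refine lt_of_le_of_lt (Valuation.map_add _ _ _) (max_lt ?_ ?_)
  · rw [map_mul, h66_dc_val_eq_one v hg0 hgu, mul_one]
    exact h66_dc_lc_spec v hres ht hf
  · rw [map_mul]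
    exact lt_of_le_of_lt
      (mul_le_of_le_one_left' (h66_dc_val_algebraMap_le v _))
      (h66_dc_lc_spec v hres ht hg)

include hres ht in
/-- The leading coefficient of a constant is the constant. -/
theorem h66_dc_lc_algebraMap (c : K) : h66_dc_lc v t (algebraMap K F c) = c := by
  by_cases hc : c = 0
  · rw [hc, map_zero, h66_dc_lc_zero]
  have hc' : algebraMap K F c ≠ 0 := by rwa [Ne, map_eq_zero]
  refine h66_dc_lc_unique v hres ht hc' ?_
  rw [h35_ord_algebraMap, neg_zero, zpow_zero, mul_one, sub_self, map_zero]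
  exact zero_lt_one

/-- A semilinear automorphism fixing the place preserves smallness. -/
theorem h66_dc_small_smul (g : SemilinearAut K F) (hg : g • v = v) {y : F}
    (hy : v.toValuationSubring.valuation y < 1) :
    v.toValuationSubring.valuation (g • y) < 1 := by
  by_cases hy0 : y = 0
  · rw [hy0, smul_zero, map_zero]
    exact zero_lt_one
  have hgy : g • y ≠ 0 := by
    intro h
    exact hy0 ((smul_eq_zero_iff_eq g).mp h)
  rw [h66_dc_val_lt_one_iff v hgy]
  rw [h66_dc_val_lt_one_iff v hy0] at hy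
  have h := SemilinearAut.ord_smul g v y
  rw [hg] at h
  rwa [h]

include hres ht in
/-- **Equivariance of the leading coefficient** under a semilinear automorphism fixing the
place and the uniformiser. -/
theorem h66_dc_lc_smul (g : SemilinearAut K F) (hg : g • v = v) (hgt : g • t = t) (f : F) :
    h66_dc_lc v t (g • f) = SemilinearAut.baseAut g (h66_dc_lc v t f) := by
  by_cases hf : f = 0
  · rw [hf, smul_zero, h66_dc_lc_zero, map_zero]
  have hgf : g • f ≠ 0 := by
    intro h
    exact hf ((smul_eq_zero_iff_eq g).mp h)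
  refine h66_dc_lc_unique v hres ht hgf ?_
  have hord : v.ord (g • f) = v.ord f := by
    have h := SemilinearAut.ord_smul g v f
    rwa [hg] at h
  have e : g • f * t ^ (-v.ord (g • f)) -
      algebraMap K F (SemilinearAut.baseAut g (h66_dc_lc v t f)) =
      g • (f * t ^ (-v.ord f) - algebraMap K F (h66_dc_lc v t f)) := by
    rw [hord, smul_sub, smul_mul', SemilinearAut.smul_algebraMap]
    congr 2
    have h1 : g • t ^ (-v.ord f) = (g • t) ^ (-v.ord f) := by
      rw [SemilinearAut.smul_def, SemilinearAut.smul_def, map_zpow₀]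
    rw [h1, hgt]
  rw [e]
  exact h66_dc_small_smul v g hg (h66_dc_lc_spec v hres ht hf)

end Props

end LC

/-! ### Invariant generators of invariant principal divisors -/

section Principal

variable {K F : Type*} [Field K] [Field F] [Algebra K F] [IsAlgClosed K]

omit [IsAlgClosed K] in
/-- A semilinear automorphism fixing a function whose only pole is `P` fixes `P`. -/
theorem h66_dc_place_fix {P : Place K F} {f : F} (hf : P.ord f < 0)
    (hf' : ∀ Q : Place K F, Q ≠ P → 0 ≤ Q.ord f) (g : SemilinearAut K F) (hg : g • f = f) :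
    g • P = P := by
  by_contra hne
  have h1 := hf' _ hne
  have h2 := SemilinearAut.ord_smul g P f
  rw [hg] at h2
  omega

/-- The residue field of every place of a chart field over an algebraically closed field is
the field of constants. -/
theorem h66_dc_residue_surjective {x : F} (hx : h75_IsChart K x) (w : Place K F) :
    Function.Surjective (algebraMap K w.ResidueField) := by
  have := hx.fin
  exact h35_residue_surjective hx.tr w

/-- Functions without zeros and poles are constants (chart field). -/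
theorem h66_dc_const {x : F} (hx : h75_IsChart K x) (f : F) (hf : f ≠ 0)
    (h : ∀ v : Place K F, v.ord f = 0) : ∃ c : K, f = algebraMap K F c := by
  obtain ⟨c, -, hc⟩ := h85_const_of_ord_zero hx f hf h
  exact ⟨c, hc⟩

/-- **(T6-b), generic.** Every principal divisor which is invariant under a set `S` of semilinear
automorphisms fixing the place `w` and the uniformiser `t` has an `S`-invariant generator,
namely the generator with leading coefficient `1` at `w`. -/
theorem h66_desc_cover_principal {x : F} (hx : h75_IsChart K x)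
    (w : Place K F) {t : F} (ht : w.ord t = 1) (D : Divisor K F)
    (hD : D ∈ Divisor.principal (K := K) (F := F)) :
    ∃ f : F, f ≠ 0 ∧ h66_dc_lc w t f = 1 ∧ (∀ v : Place K F, D v = v.ord f) ∧
      ∀ g : SemilinearAut K F, g • w = w → g • t = t → g • D = D → g • f = f := by
  have hres := h66_dc_residue_surjective hx w
  obtain ⟨f0, hf0, hf0D⟩ := hD
  obtain ⟨f, hf, hf1, hfo⟩ := h69_exists_normalised (h66_dc_lc w t)
    (h66_dc_lc_mul w hres ht) (h66_dc_lc_algebraMap w hres ht) hf0
  refine ⟨f, hf, hf1, fun v => by rw [hfo v, hf0D v], fun g hgw hgt hgD => ?_⟩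
  have hne : g • f ≠ 0 := by
    intro h
    exact hf ((smul_eq_zero_iff_eq g).mp h)
  refine h69_unique (h66_dc_lc w t) (h66_dc_lc_mul w hres ht) (h66_dc_lc_algebraMap w hres ht)
    (h66_dc_const hx) hne hf (fun v => ?_) ?_
  · rw [h69_ord_smul, hfo, ← hf0D, hfo v, ← hf0D v, ← SemilinearAut.divisor_smul_apply, hgD]
  · rw [h66_dc_lc_smul w hres ht g hgw hgt, hf1, map_one]

end Principal

/-! ### Invariant representatives of invariant classes (arithmetic setting) -/

section Arith

local notation "Qb" => AlgebraicClosure ℚ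

variable {F : Type*} [Field F] [Algebra Qb F]
variable {Γ : Type*} [Group Γ] (j : Γ →* (Qb ≃ₐ[ℚ] Qb)) (ρ : Γ →* SemilinearAut Qb F)

/-- **Open stabilisers on elements**: every function is fixed by `ρ γ` as soon as `j γ` is
trivial on a suitable number field. -/
def h66_dc_ElemLevel : Prop :=
  ∀ f : F, ∃ E : IntermediateField ℚ Qb, FiniteDimensional ℚ E ∧
    ∀ γ : Γ, (∀ a ∈ E, j γ a = a) → ρ γ • f = f

variable {j ρ}

/-- Places have finite level. -/
theorem h66_dc_place_level {x : F} (hx : h75_IsChart Qb x) (hlev : h66_dc_ElemLevel j ρ)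
    (P : Place Qb F) :
    ∃ E : IntermediateField ℚ Qb, FiniteDimensional ℚ E ∧
      ∀ γ : Γ, (∀ a ∈ E, j γ a = a) → ρ γ • P = P := by
  obtain ⟨f, hf, hf'⟩ := h83_exists_unique_pole hx P
  obtain ⟨E, hE, hE'⟩ := hlev f
  exact ⟨E, hE, fun γ hγ => h66_dc_place_fix hf hf' (ρ γ) (hE' γ hγ)⟩

/-- Divisors have finite level. -/
theorem h66_dc_divisor_level {x : F} (hx : h75_IsChart Qb x) (hlev : h66_dc_ElemLevel j ρ)
    (D : Divisor Qb F) :
    ∃ E : IntermediateField ℚ Qb, FiniteDimensional ℚ E ∧
      ∀ γ : Γ, (∀ a ∈ E, j γ a = a) → ρ γ • D = D := by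
  classical
  induction D using Finsupp.induction with
  | zero => exact ⟨⊥, inferInstance, fun γ _ => smul_zero _⟩
  | single_add v n D _ _ ih =>
      obtain ⟨E₁, h1, h1'⟩ := h66_dc_place_level hx hlev v
      obtain ⟨E₂, h2, h2'⟩ := ih
      refine ⟨E₁ ⊔ E₂, inferInstance, fun γ hγ => ?_⟩
      rw [smul_add, SemilinearAut.smul_single,
        h1' γ (fun a ha => hγ a ((le_sup_left : E₁ ≤ E₁ ⊔ E₂) ha)),
        h2' γ (fun a ha => hγ a ((le_sup_right : E₂ ≤ E₁ ⊔ E₂) ha))]

/-- The characters `c ↦ δ(c)` of a number field `E'` with values in `F`. -/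
def h66_dc_chi (F : Type*) [Field F] [Algebra Qb F] (E' : IntermediateField ℚ Qb)
    (δ : E' ≃ₐ[ℚ] E') : E' →* F :=
  (((algebraMap Qb F).comp (algebraMap E' Qb)).comp (δ : E' →+* E')).toMonoidHom

theorem h66_dc_chi_apply (E' : IntermediateField ℚ Qb) (δ : E' ≃ₐ[ℚ] E') (c : E') :
    h66_dc_chi F E' δ c = algebraMap Qb F ((δ c : E') : Qb) := rfl

theorem h66_dc_chi_injective (E' : IntermediateField ℚ Qb) :
    Function.Injective (h66_dc_chi F E') := by
  intro δ δ' h
  ext c
  have h1 := DFunLike.congr_fun h c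
  rw [h66_dc_chi_apply, h66_dc_chi_apply] at h1
  exact congrArg Subtype.val
    (Subtype.ext ((algebraMap Qb F).injective h1) : δ c = δ' c)

/-- **(T6-a), generic.** `ρ : Γ →* SemilinearAut ℚ̄ F` over `j : Γ →* Gal(ℚ̄/ℚ)`, with open
stabilisers on elements, a fixed place `w` and a fixed uniformiser `t` at `w`.  Every
`ρ(Γ)`-fixed class `y` with `n • y = 0` is the class of a `ρ(Γ)`-invariant divisor `D`, and
`n D = div u` with `u` a `ρ(Γ)`-invariant function (leading coefficient `1` at `w`). -/
theorem h66_desc_cover {x : F} (hx : h75_IsChart Qb x)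
    (hbase : ∀ (γ : Γ) (a : Qb), SemilinearAut.baseAut (ρ γ) a = j γ a)
    (hlev : h66_dc_ElemLevel j ρ)
    (w : Place Qb F) (hw : ∀ γ : Γ, ρ γ • w = w) {t : F} (ht : w.ord t = 1)
    (htfix : ∀ γ : Γ, ρ γ • t = t)
    (y : Pic0 Qb F) (hy : ∀ γ : Γ, ρ γ • y = y) (n : ℕ) (hn : n • y = 0) :
    ∃ (D : Divisor.degZero (K := Qb) (F := F)) (u : F),
      Pic0.mk D = y ∧ (∀ γ : Γ, ρ γ • (D : Divisor Qb F) = D) ∧ u ≠ 0 ∧
      h66_dc_lc w t u = 1 ∧
      (∀ v : Place Qb F, (n : ℤ) * (D : Divisor Qb F) v = v.ord u) ∧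
      ∀ γ : Γ, ρ γ • u = u := by
  have hres := h66_dc_residue_surjective hx w
  have hPD : HasPrincipalDivisors Qb F := h75_hasPrincipalDivisors hx
  have lc_mul := h66_dc_lc_mul w hres ht
  have lc_alg := h66_dc_lc_algebraMap w hres ht
  have lc_smul : ∀ (γ : Γ) (f : F),
      h66_dc_lc w t (ρ γ • f) = SemilinearAut.baseAut (ρ γ) (h66_dc_lc w t f) :=
    fun γ f => h66_dc_lc_smul w hres ht (ρ γ) (hw γ) (htfix γ) f
  obtain ⟨D0, rfl⟩ := Pic0.mk_surjective y
  obtain ⟨E, hEfin, hE⟩ := h66_dc_divisor_level hx hlev (D0 : Divisor Qb F)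
  have halg : Algebra.IsAlgebraic ℚ Qb := AlgebraicClosure.isAlgebraic ℚ
  have hclo : IsAlgClosure ℚ Qb := ⟨inferInstance, inferInstance⟩
  have hnor : Normal ℚ Qb := IsAlgClosure.normal ℚ Qb
  let E' : IntermediateField ℚ Qb := IntermediateField.normalClosure ℚ E Qb
  have hE'fin : FiniteDimensional ℚ E' := normalClosure.is_finiteDimensional ℚ E Qb
  have hE'nor : Normal ℚ E' := normalClosure.normal ℚ E Qb
  let π : Γ →* (E' ≃ₐ[ℚ] E') := (AlgEquiv.restrictNormalHom (F := ℚ) (K₁ := Qb) E').comp j
  have hπ : ∀ (γ : Γ) (a : E'), ((π γ a : E') : Qb) = j γ (a : Qb) :=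
    fun γ a => AlgEquiv.restrictNormal_commutes (j γ) E' a
  have hχ : ∀ (γ : Γ) (δ : E' ≃ₐ[ℚ] E') (c : E'),
      ρ γ • h66_dc_chi F E' δ c = h66_dc_chi F E' (π γ * δ) c := by
    intro γ δ c
    rw [h66_dc_chi_apply, h66_dc_chi_apply, SemilinearAut.smul_algebraMap, AlgEquiv.mul_apply,
      hπ, hbase]
  have hlev' : ∀ s ∈ (⊤ : Subgroup Γ), π s = 1 → ρ s • (D0 : Divisor Qb F) = D0 := by
    intro s _ hs
    refine hE s (fun a ha => ?_)
    have h1 := hπ s ⟨a, IntermediateField.le_normalClosure E ha⟩
    rw [hs] at h1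
    exact h1.symm
  obtain ⟨D, hD, hDfix⟩ := h69_desc_gen ρ π (h66_dc_chi F E') (h66_dc_chi_injective E') hχ
    (h66_dc_lc w t) lc_mul lc_alg lc_smul (h66_dc_const hx) ⊤ D0 hlev'
    (fun γ _ => hy γ)
  obtain ⟨u, hu, hu1, hord, hfix⟩ := h69_desc_torsion_gen ρ (h66_dc_lc w t) lc_mul lc_alg
    lc_smul (h66_dc_const hx) ⊤ D hDfix n (by rw [hD]; exact hn)
  exact ⟨D, u, hD, fun γ => hDfix γ trivial, hu, hu1, hord, fun γ => hfix γ trivial⟩

end Arith

end Fermat.Agent.S40
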