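import Mathlib
import Fermat.Agent.S40.h66_DescCover
import Fermat.Agent.S33.h22_KumCover

/-!
# S40 (G40), row T6 (DESC-COVER), instance on a Kummer cover (helper66)

`F'/F` a cover of function fields over `K`, `θ ∈ F'` with `div θ = π^* E₀` (the Kummer
generator of the class `ℓ₀ = [E₀]`), `σ'` a semilinear automorphism of `F'` lifting `σ` on `F`.

* `h66_dc_pullback_smul`   : `σ' • π^* x = π^* (σ • x)` on `Pic⁰`;
* `h66_dc_pullback_kummer` : `π^* ℓ₀ = 0`;
* `h66_dc_pullback_fixed`  : if `σ • x - x = c • ℓ₀` then `σ' • π^* x = π^* x`;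
* `h66_desc_cover_kummer`  : **T6 for the cover**: for a group `Γ` acting on `F'` through lifts
  `ρ γ` of `σ γ`, with open stabilisers, a fixed place and a fixed uniformiser, and a class `x`
  of `F` with `n • x = 0` and `σ γ • x - x ∈ ℤ ℓ₀` for all `γ`: there are a `ρ(Γ)`-invariant
  divisor `D'` of `F'` and a `ρ(Γ)`-invariant function `u'` with `[D'] = π^* x`, `n D' = div u'`,
  and a function `b₀` with `π^* X - D' = div b₀` for any representative `X` of `x`.
-/

set_option autoImplicit false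

noncomputable section

open AlgebraicCurve IntermediateField

namespace Fermat.Agent.S40

open Fermat.Agent.S18 Fermat.Agent.S24 Fermat.Agent.S17 Fermat.Agent.S33 Fermat.Agent.S36

section Pullback

variable {K F F' : Type*} [Field K] [Field F] [Field F'] [Algebra K F] [Algebra K F']
  [Algebra F F'] [IsScalarTower K F F'] [Algebra.IsIntegral F F'] [HasPrincipalDivisors K F']
  [FundamentalIdentity K F F']

/-- A lift `σ'` of `σ` carries `π^* x` to `π^* (σ • x)`. -/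
theorem h66_dc_pullback_smul (σ' : SemilinearAut K F') (σ : SemilinearAut K F)
    (hlift : ∀ f : F, σ' • algebraMap F F' f = algebraMap F F' (σ • f)) (x : Pic0 K F) :
    σ' • Pic0.pullbackHom F' x = Pic0.pullbackHom F' (σ • x) := by
  obtain ⟨D, rfl⟩ := Pic0.mk_surjective x
  rw [Pic0.pullbackHom_mk, SemilinearAut.pic0_smul_mk, SemilinearAut.pic0_smul_mk,
    Pic0.pullbackHom_mk]
  refine congrArg Pic0.mk (Subtype.ext ?_)
  rw [SemilinearAut.coe_degZeroSMulHom, Pic0.coe_pullbackDegZeroHom,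
    Pic0.coe_pullbackDegZeroHom, SemilinearAut.coe_degZeroSMulHom]
  exact h22_smul_pullback σ' σ hlift (D : Divisor K F)

/-- The class of `E₀` dies on the cover where `E₀` becomes the divisor of `θ`. -/
theorem h66_dc_pullback_kummer {θ : F'} (hθ0 : θ ≠ 0)
    (E₀ : Divisor.degZero (K := K) (F := F))
    (hθ : ∀ w : Place K F', w.ord θ = Divisor.pullback F' (E₀ : Divisor K F) w) :
    Pic0.pullbackHom F' (Pic0.mk E₀) = 0 := by
  rw [Pic0.pullbackHom_mk]
  refine (QuotientAddGroup.eq_zero_iff _).mpr ?_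
  rw [AddSubgroup.mem_addSubgroupOf]
  exact ⟨θ, hθ0, fun w => by rw [Pic0.coe_pullbackDegZeroHom, hθ w]⟩

/-- If `σ • x - x` is a multiple of the Kummer class `ℓ₀ = [E₀]`, the lift `σ'` fixes `π^* x`. -/
theorem h66_dc_pullback_fixed (σ' : SemilinearAut K F') (σ : SemilinearAut K F)
    (hlift : ∀ f : F, σ' • algebraMap F F' f = algebraMap F F' (σ • f))
    {θ : F'} (hθ0 : θ ≠ 0) (E₀ : Divisor.degZero (K := K) (F := F))
    (hθ : ∀ w : Place K F', w.ord θ = Divisor.pullback F' (E₀ : Divisor K F) w)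
    (x : Pic0 K F) (c : ℤ) (hx : σ • x - x = c • Pic0.mk E₀) :
    σ' • Pic0.pullbackHom F' x = Pic0.pullbackHom F' x := by
  rw [h66_dc_pullback_smul σ' σ hlift]
  have h1 : σ • x = x + c • Pic0.mk E₀ := by
    rw [← hx]
    abel
  rw [h1, map_add, map_zsmul, h66_dc_pullback_kummer hθ0 E₀ hθ, smul_zero, add_zero]

end Pullback

section Arith

local notation "Qb" => AlgebraicClosure ℚ

variable {F F' : Type*} [Field F] [Field F'] [Algebra Qb F] [Algebra Qb F']
  [Algebra F F'] [IsScalarTower Qb F F'] [Algebra.IsIntegral F F']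
  [HasPrincipalDivisors Qb F'] [FundamentalIdentity Qb F F']
variable {Γ : Type*} [Group Γ] {j : Γ →* (Qb ≃ₐ[ℚ] Qb)} {ρ : Γ →* SemilinearAut Qb F'}

/-- **T6 (DESC-COVER) on a Kummer cover.**  See the module docstring. -/
theorem h66_desc_cover_kummer {x' : F'} (hx' : h75_IsChart Qb x')
    (hbase : ∀ (γ : Γ) (a : Qb), SemilinearAut.baseAut (ρ γ) a = j γ a)
    (hlev : h66_dc_ElemLevel j ρ)
    (w : Place Qb F') (hw : ∀ γ : Γ, ρ γ • w = w) {t : F'} (ht : w.ord t = 1)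
    (htfix : ∀ γ : Γ, ρ γ • t = t)
    (σ : Γ → SemilinearAut Qb F)
    (hlift : ∀ (γ : Γ) (f : F), ρ γ • algebraMap F F' f = algebraMap F F' (σ γ • f))
    {θ : F'} (hθ0 : θ ≠ 0) (E₀ : Divisor.degZero (K := Qb) (F := F))
    (hθ : ∀ v : Place Qb F', v.ord θ = Divisor.pullback F' (E₀ : Divisor Qb F) v)
    (X : Divisor.degZero (K := Qb) (F := F))
    (hX : ∀ γ : Γ, ∃ c : ℤ, σ γ • Pic0.mk X - Pic0.mk X = c • Pic0.mk E₀)
    (n : ℕ) (hn : n • Pic0.mk X = 0) :
    ∃ (D' : Divisor.degZero (K := Qb) (F := F')) (u' b₀ : F'),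
      Pic0.mk D' = Pic0.pullbackHom F' (Pic0.mk X) ∧
      (∀ γ : Γ, ρ γ • (D' : Divisor Qb F') = D') ∧ u' ≠ 0 ∧ h66_dc_lc w t u' = 1 ∧
      (∀ v : Place Qb F', (n : ℤ) * (D' : Divisor Qb F') v = v.ord u') ∧
      (∀ γ : Γ, ρ γ • u' = u') ∧ b₀ ≠ 0 ∧
      (∀ v : Place Qb F',
        Divisor.pullback F' (X : Divisor Qb F) v - (D' : Divisor Qb F') v = v.ord b₀) := by
  have hy : ∀ γ : Γ, ρ γ • Pic0.pullbackHom F' (Pic0.mk X) = Pic0.pullbackHom F' (Pic0.mk X) := by
    intro γ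
    obtain ⟨c, hc⟩ := hX γ
    exact h66_dc_pullback_fixed (ρ γ) (σ γ) (hlift γ) hθ0 E₀ hθ (Pic0.mk X) c hc
  have hn' : n • Pic0.pullbackHom F' (Pic0.mk X) = 0 := by
    rw [← map_nsmul, hn, map_zero]
  obtain ⟨D', u', hD', hD'fix, hu', hu'1, hord, hu'fix⟩ :=
    h66_desc_cover hx' hbase hlev w hw ht htfix _ hy n hn'
  have h1 : Pic0.mk (Pic0.pullbackDegZeroHom F' X) = Pic0.mk D' := by
    rw [hD', Pic0.pullbackHom_mk]
  obtain ⟨b₀, hb₀, hb₀ord⟩ := h69_principal_of_mk_eq h1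
  exact ⟨D', u', b₀, hD', hD'fix, hu', hu'1, hord, hu'fix, hb₀, fun v => by
    rw [← hb₀ord v, Pic0.coe_pullbackDegZeroHom]⟩

end Arith

end Fermat.Agent.S40
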