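import Mathlib
import Fermat.Agent.S40.h67_RowsOrd
import Fermat.Agent.S40.h77_CoreTail
import Fermat.Agent.S40.h54_HkNE

/-!
# S40/S44 (G40): the core theorem from the (TR*) congruence alone (helper67)

* `h67_TRStarStmt W M' p r hpMr A hA` : the (TR*) statement at the thin level `(M' r, p)`: under
  the W9 node block `(Sg, n0)`, for every representative `(D, u)`, fixed by the stabiliser of `w`
  in the inertia group, of a `p`-torsion, `p`-new, `a_ℓ(W)`-eigen class and every Eisenstein pair
  `(z, w)`: the residue orders of `u` at the node places `Φ Q`, `Q ∈ Sg`, of the first component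
  are pairwise congruent mod `p`.  (Consequence of row W7 for the datum of W8.)
* `h67_core_of_trstar` : the header of the core theorem (`p ≥ 5`, `p ∣ M`, `p² ∤ M`; residually
  modular of level `M` ⟹ of level `M / p`) with the (TR*) statement as the ONLY hypothesis:
  count instance, row W6, (E2-W), row T8 (ord form), the tail and the front are all inside.
-/

set_option autoImplicit false
set_option synthInstance.maxHeartbeats 400000

noncomputable section

open ModularCurve AlgebraicCurve ExtCitation Module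
open WeierstrassCurve WeierstrassCurve.Affine WeierstrassCurve.Affine.Point

namespace Fermat.Agent.S40

open Fermat.Agent.S41 Fermat.Agent.S33 Fermat.Agent.S35 Fermat.Agent.S36 Fermat.Agent.GAL
open Fermat.Agent.S34 Fermat.Agent.S18 Fermat.Agent.S24 Fermat.Agent.S27 Fermat.Agent.S37

local notation "Qb" => AlgebraicClosure ℚ

set_option maxHeartbeats 1600000 in
/-- **The (TR*) statement at the thin level `(M' r, p)`** (= the binder `hW7` of
`h37_rows_of_ord` / `h67_rows_of_hdiff`). -/
def h67_TRStarStmt (W : WeierstrassCurve ℤ) (M' p r : ℕ) [Fact p.Prime] [NeZero p] [NeZero M']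
    [NeZero r] (hpMr : ¬ p ∣ M' * r) (A : ValuationSubring Qb) (hA : A.LiesOverPrime p)
    [CharP (IsLocalRing.ResidueField A) p] [IsAlgClosed (IsLocalRing.ResidueField A)] : Prop :=
  ∀ (Sg : Finset (Place (IsLocalRing.ResidueField A)
      ↥(modularFunctionFieldFullC (IsLocalRing.ResidueField A) (M' * r)))) (n0 : ℕ),
    h37_NodeBlock (M' * r) p hpMr A hA Sg n0 →
    ∀ y : JZero (M' * r * p), p • y = 0 →
    (∀ (ℓ : ℕ) (hℓ : ℓ.Prime), W.IsGoodPrimeFor ℓ → ¬ ℓ ∣ M' * r * p → ℓ ≠ p →
      heckeOperatorBar (M' * r * p) ⟨ℓ, hℓ⟩ y = W.apOfModel ℓ • y) →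
    h67_Jnew (M' * r) p y →
    ∀ z w : Qb, A.valuation z = 1 → (∀ g ∈ A.inertiaSubgroupIn ℚ, g z = z) →
      (1 + w) ^ p = 1 + (p : Qb) * z →
      ∀ (D : Divisor.degZero (K := Qb) (F := modularFunctionFieldBar (M' * r * p)))
        (u : modularFunctionFieldBar (M' * r * p)),
        Pic0.mk D = y → u ≠ 0 → h69_lc (M' * r * p) u = 1 →
        (∀ v : Place Qb (modularFunctionFieldBar (M' * r * p)),
          (p : ℤ) * (D : Divisor Qb (modularFunctionFieldBar (M' * r * p))) v = v.ord u) →
        (∀ g ∈ A.inertiaSubgroupIn ℚ, g w = w →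
          arithmeticGalois (modularFunctionFieldFull (M' * r * p)) g •
            (D : Divisor Qb (modularFunctionFieldBar (M' * r * p))) = D) →
        (∀ g ∈ A.inertiaSubgroupIn ℚ, g w = w →
          arithmeticGalois (modularFunctionFieldFull (M' * r * p)) g • u = u) →
        ∀ Q ∈ Sg, ∀ Q' ∈ Sg, (p : ℤ) ∣
          h43_rord (h60_R1 (M' * r) p hpMr A hA)
              (h96_frobPerm (h84_isFrobChart_jk (M' * r) p hpMr A hA) Q) u -
            h43_rord (h60_R1 (M' * r) p hpMr A hA)
              (h96_frobPerm (h84_isFrobChart_jk (M' * r) p hpMr A hA) Q') u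

set_option maxHeartbeats 1600000 in
/-- **The core theorem from the (TR*) statement alone.** -/
theorem h67_core_of_trstar (E : WeierstrassCurve ℚ) [E.IsElliptic] {W : WeierstrassCurve ℤ}
    (hW : W.IsIntegralModelOf E) {p M : ℕ} [Fact p.Prime] [NeZero p] (hp5 : 5 ≤ p)
    (hM : 0 < M) (hpM : p ∣ M) (hp2M : ¬ p ^ 2 ∣ M)
    (hirr : GaloisRepIsIrreducible (K := Qb) ℚ E p) (hE : h37_ESide E p)
    (htr : ∀ (M' r : ℕ) [NeZero M'] [NeZero r], M = M' * p → ¬ p ∣ M' → r.Prime →
      r % 12 = 11 → ¬ r ∣ M' * p → ¬ p ∣ r + 1 →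
      ∀ (hpMr : ¬ p ∣ M' * r) (A : ValuationSubring Qb) (hA : A.LiesOverPrime p)
        [CharP (IsLocalRing.ResidueField A) p] [IsAlgClosed (IsLocalRing.ResidueField A)],
        ¬ W.IsResiduallyModularOfLevel p M' → h67_TRStarStmt W M' p r hpMr A hA)
    (hmod : W.IsResiduallyModularOfLevel p M) :
    W.IsResiduallyModularOfLevel p (M / p) := by
  have hp : p.Prime := Fact.out
  refine h77_core_of_TRrows E hW hp5 hM hpM hp2M hirr hE 0 ?_ hmod
  intro M' r _ _ hMeq hpM' hr _ hr12 hrMp hpr hpMr A hA hnot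
  haveI := h19_residueField_charP A p hA
  haveI := h19_residueField_isAlgClosed A
  have hN : M' * r * p ≠ 0 :=
    mul_ne_zero (mul_ne_zero (NeZero.ne M') (NeZero.ne r)) (NeZero.ne p)
  obtain ⟨ℓ, hℓ, hℓN, hℓp, hgood, ha⟩ :=
    h54_hk_ne_level E hW hp (by omega) hirr (M' * r * p) hN
  haveI : NeZero ℓ := ⟨hℓ.ne_zero⟩
  exact h67_rows_of_hdiff W M' p r hp5 hr hr12 hpMr A hA ℓ hℓ hℓN hℓp hgood ha
    (htr M' r hMeq hpM' hr hr12 hrMp hpr hpMr A hA hnot)

end Fermat.Agent.S40

end
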