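import Mathlib
import Fermat.Agent.S40.h68_Eig
import Fermat.Agent.S40.h67_EigChar0
import Fermat.Agent.S18.h39_Mod

/-!
# S40 (G40), row T10 / B5: the glue (EIG-f) (helper67)

`p ∤ M`, `A` a valuation ring of `ℚ̄` over `p`, `k = A/𝔪`, `ℓ` a prime not dividing `M p`.
`R = h39_modRed M` the reduction datum of `F(M)`, `R₁ = h60_R1 M p` the `q`-expansion reduction
datum of `F(M p)` with residue field `F̄(M)`.

`h67_eig_f` : let `x = [E] ∈ J₀(M p)(ℚ̄)` with `p • E = div u₀`, `u₀` a unit of `R₁`, and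
`T_ℓ x = a • x`.  Then for every `g ∈ R.O` with `red g = red₁ u₀` there is `w̄ ≠ 0` in `F̄(M)`
with `N_α (β g) ∈ R.O` and `red (N_α (β g)) = (red₁ u₀) ^ a * w̄ ^ p`
(norm and degeneracy maps at the levels `(M, M ℓ)`).

This is the hypothesis `heigf` of the exit theorem `h77_t10` of T10, for one `ℓ`.

Proof: (E-q0) `h67_eig_char0_bar` gives `N_α (β u₀) = c • u₀ ^ a * w ^ p` at level `M p`;
helper68's `h68_eig_fun` (K1 at the levels `M p` and `M`, reduced) does the rest.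
-/

set_option autoImplicit false
set_option synthInstance.maxHeartbeats 400000

noncomputable section

open ModularCurve AlgebraicCurve

namespace Fermat.Agent.S40

open Fermat.Agent.GAL Fermat.Agent.S37 Fermat.Agent.S24 Fermat.Agent.S18 Fermat.Agent.S34

local notation "Qb" => AlgebraicClosure ℚ

/-- **(EIG-f)**: the function-level eigen-relation in characteristic `p`, for one prime `ℓ`. -/
theorem h67_eig_f (M p : ℕ) [NeZero M] [NeZero p] [Fact p.Prime] (hpM : ¬ p ∣ M)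
    (A : ValuationSubring Qb) (hA : A.LiesOverPrime p)
    (ℓ : ℕ) [NeZero ℓ] (hℓ : ℓ.Prime) (hℓMp : ¬ ℓ ∣ M * p)
    (E : Divisor.degZero (K := Qb) (F := modularFunctionFieldBar (M * p)))
    (u0 : ↥(modularFunctionFieldBar (M * p)))
    (hdiv : ∀ v : Place Qb (modularFunctionFieldBar (M * p)),
      (p : ℤ) * (E : Divisor Qb (modularFunctionFieldBar (M * p))) v = v.ord u0)
    (a : ℤ) (hT : heckeOperatorBar (M * p) ⟨ℓ, hℓ⟩ (Pic0.mk E) = a • Pic0.mk E)
    (hu0 : u0 ∈ (h60_R1 M p hpM A hA).O) (hne : (h60_R1 M p hpM A hA).redF u0 ≠ 0)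
    (g : ↥(modularFunctionFieldBar M)) (hg : g ∈ (h39_modRed M hpM A hA).O)
    (hgu : (h39_modRed M hpM A hA).redF g = (h60_R1 M p hpM A hA).redF u0) :
    ∃ wb : ↥(modularFunctionFieldFullC (IsLocalRing.ResidueField A) M), wb ≠ 0 ∧
      h67_normAlong (heckeAlphaBar Qb M ℓ) (heckeBetaBar Qb M ℓ g) ∈
        (h39_modRed M hpM A hA).O ∧
      (h39_modRed M hpM A hA).redF (h67_normAlong (heckeAlphaBar Qb M ℓ) (heckeBetaBar Qb M ℓ g))
        = (h60_R1 M p hpM A hA).redF u0 ^ a * wb ^ p := by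
  have hp : p.Prime := Fact.out
  have hu0ne : u0 ≠ 0 := by
    rintro rfl
    apply hne
    rw [(h60_R1 M p hpM A hA).redF_of_mem hu0]
    exact map_zero (h60_R1 M p hpM A hA).red
  have hune : (h60_R1 M p hpM A hA).red ⟨u0, hu0⟩ ≠ 0 := by
    rw [← (h60_R1 M p hpM A hA).redF_of_mem hu0]
    exact hne
  obtain ⟨c, w, -, -, hrel⟩ := h67_eig_char0_bar (M * p) ℓ hℓ p E u0 hu0ne hdiv a hT
  obtain ⟨wb, hwb, H⟩ := h68_eig_fun M p hpM A hA ℓ hℓ hℓMp (h39_modRed_spec M hpM A hA)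
    u0 hu0 hune a p hp.ne_zero c w hrel
  have hgred : (h39_modRed M hpM A hA).red ⟨g, hg⟩ = (h60_R1 M p hpM A hA).red ⟨u0, hu0⟩ := by
    rw [← (h39_modRed M hpM A hA).redF_of_mem hg, ← (h60_R1 M p hpM A hA).redF_of_mem hu0]
    exact hgu
  obtain ⟨hN, hNred⟩ := H g hg hgred
  refine ⟨wb, hwb, hN, ?_⟩
  rw [(h60_R1 M p hpM A hA).redF_of_mem hu0, ← hNred]
  exact (h39_modRed M hpM A hA).redF_of_mem hN

end Fermat.Agent.S40

end
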