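import Mathlib
import Fermat.Agent.S40.h67_CoreOfTR
import Fermat.Agent.S40.h50_TRStar

/-!
# S40/S44 (G40): the (TR*) statement and the core theorem, closed (helper67)

* `h67_tr_star` : the (TR*) statement `h67_TRStarStmt` at the thin level `(M' r, p)`,
  `r ≡ 11 mod 12`, `p ≥ 5`: one call of `h50_trstar` (rows W7 + W8 for a class);
* `h67_core` : **the core theorem** (header of `h37_core`): for `p ≥ 5`, `p ∣ M`, `p² ∤ M`,
  `E[p]` irreducible and the `E`-side hypothesis `h37_ESide E p`, a curve residually modular of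
  level `M` is residually modular of level `M / p`.  No open hypothesis.
-/

set_option autoImplicit false
set_option synthInstance.maxHeartbeats 400000

noncomputable section

open ModularCurve AlgebraicCurve ExtCitation Module
open WeierstrassCurve WeierstrassCurve.Affine WeierstrassCurve.Affine.Point

namespace Fermat.Agent.S40

open Fermat.Agent.S41 Fermat.Agent.S33 Fermat.Agent.S35 Fermat.Agent.S36 Fermat.Agent.GAL
open Fermat.Agent.S34 Fermat.Agent.S18 Fermat.Agent.S24 Fermat.Agent.S27 Fermat.Agent.S37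

local notation "Qb" => AlgebraicClosure ℚ

set_option maxHeartbeats 1600000 in
/-- **The (TR*) statement at the thin level**, closed. -/
theorem h67_tr_star (W : WeierstrassCurve ℤ) (M' p r : ℕ) [Fact p.Prime] [NeZero p]
    [NeZero M'] [NeZero r] (hp5 : 5 ≤ p) (hr : r.Prime) (hr12 : r % 12 = 11)
    (hpMr : ¬ p ∣ M' * r) (A : ValuationSubring Qb) (hA : A.LiesOverPrime p)
    [CharP (IsLocalRing.ResidueField A) p] [IsAlgClosed (IsLocalRing.ResidueField A)] :
    h67_TRStarStmt W M' p r hpMr A hA := by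
  intro Sg n0 hblock y _ _ _ z w hz hzI hw D u _ hu _ hdiv hDfix hufix
  obtain ⟨ζ, hζ⟩ := HasEnoughRootsOfUnity.exists_primitiveRoot Qb p
  exact h50_trstar (M' * r) p (by omega) hpMr A hA Sg hblock.1 n0 hblock.2.2.2 (Or.inl hp5)
    (h67_nuTwo_of_mod12 r (M' * r) hr hr12 (dvd_mul_left r M'))
    (h67_nuThree_of_mod12 r (M' * r) hr hr12 (dvd_mul_left r M')) ζ hζ z w hz hzI hw u hu hufix
    (D : Divisor Qb (modularFunctionFieldBar (M' * r * p))) hDfix hdiv

/-- **The core theorem** (level lowering at `p` for residual modularity; header of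
`h37_core`). -/
theorem h67_core (E : WeierstrassCurve ℚ) [E.IsElliptic] {W : WeierstrassCurve ℤ}
    (hW : W.IsIntegralModelOf E) {p M : ℕ} (hp : p.Prime) (hp5 : 5 ≤ p) (hM : 0 < M)
    (hpM : p ∣ M) (hp2M : ¬ p ^ 2 ∣ M)
    (hirr : GaloisRepIsIrreducible (K := AlgebraicClosure ℚ) ℚ E p) (hE : h37_ESide E p)
    (hmod : W.IsResiduallyModularOfLevel p M) : W.IsResiduallyModularOfLevel p (M / p) := by
  have : Fact p.Prime := ⟨hp⟩
  have : NeZero p := ⟨hp.ne_zero⟩
  exact h67_core_of_trstar E hW hp5 hM hpM hp2M hirr hE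
    (fun M' r _ _ _ _ hr hr12 _ _ hpMr A hA _ _ _ =>
      h67_tr_star W M' p r hp5 hr hr12 hpMr A hA) hmod

end Fermat.Agent.S40

end
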