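import Mathlib
import Fermat.Agent.S40.h68_Eig
import Fermat.Agent.S34.h60_R2

/-!
# S40, row (EIG), second component (helper68): the swap `w_p` commutes with `f ↦ N_α(β f)`

Setting: `p ∤ M` prime, `ℓ` with `p ∤ M ℓ`; `w_p = h60_w M p hpM` the Atkin–Lehner involution
of `F(M p)`; `α, β : F(M p) → F(M p ℓ)` the degeneracy maps at `ℓ`.

* `h68_W` : the involution of `F(M p ℓ)` induced by the swap of level `(M ℓ, p)`;
  `h68_W_alphaL`, `h68_W_betaL` : `W ∘ α = α ∘ w_p`, `W ∘ β = β ∘ w_p`;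
* `h68_norm_swap` : `N_α(β (w_p u)) = w_p (N_α(β u))`;
* `h68_hecke_rel_swap` : the eigen-relation `N_α(β u) = c · u^a · w^n` is stable under `w_p`;
* `h68_eig_R2`, `h68_eig_R2_bar` : (EIG) of `h68_Eig.lean` for the SECOND reduction datum
  `h60_R2` (the transport of `h60_R1` by `w_p`).
-/

set_option autoImplicit false
set_option synthInstance.maxHeartbeats 400000
set_option linter.style.haveILetI false

noncomputable section

open ModularCurve AlgebraicCurve IntermediateField HahnSeries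

namespace Fermat.Agent.S40

open Fermat.Agent.S24 Fermat.Agent.S18 Fermat.Agent.S37 Fermat.Agent.S35 Fermat.Agent.S34

local notation "Qb" => AlgebraicClosure ℚ

section Swap

/-- The function fields of equal levels coincide. -/
theorem h68_level_eq {a b : ℕ} [NeZero a] [NeZero b] (h : a = b) :
    modularFunctionFieldBar a = modularFunctionFieldBar b := by
  subst h
  rfl

variable (M p ℓ : ℕ) [NeZero M] [NeZero p] [NeZero ℓ] [Fact p.Prime] (hpM : ¬ p ∣ M)
  (hpMℓ : ¬ p ∣ M * ℓ)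

/-- The identification `F(M ℓ p) → F(M p ℓ)` (the identity on `q`-series). -/
def h68_lvl : ↥(modularFunctionFieldBar (M * ℓ * p)) →ₐ[Qb]
    ↥(modularFunctionFieldBar (M * p * ℓ)) :=
  IntermediateField.inclusion (le_of_eq (h68_level_eq (Nat.mul_right_comm M ℓ p)))

/-- The identification `F(M p ℓ) → F(M ℓ p)` (the identity on `q`-series). -/
def h68_lvlInv : ↥(modularFunctionFieldBar (M * p * ℓ)) →ₐ[Qb]
    ↥(modularFunctionFieldBar (M * ℓ * p)) :=
  IntermediateField.inclusion (le_of_eq (h68_level_eq (Nat.mul_right_comm M ℓ p)).symm)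

omit [Fact p.Prime] in
theorem h68_coe_lvl (x : ↥(modularFunctionFieldBar (M * ℓ * p))) :
    ((h68_lvl M p ℓ x : ↥(modularFunctionFieldBar (M * p * ℓ))) : LaurentSeries Qb)
      = (x : LaurentSeries Qb) :=
  IntermediateField.coe_inclusion _ x

omit [Fact p.Prime] in
theorem h68_coe_lvlInv (x : ↥(modularFunctionFieldBar (M * p * ℓ))) :
    ((h68_lvlInv M p ℓ x : ↥(modularFunctionFieldBar (M * ℓ * p))) : LaurentSeries Qb)
      = (x : LaurentSeries Qb) :=
  IntermediateField.coe_inclusion _ x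

omit [Fact p.Prime] in
theorem h68_lvlInv_lvl (x : ↥(modularFunctionFieldBar (M * ℓ * p))) :
    h68_lvlInv M p ℓ (h68_lvl M p ℓ x) = x :=
  Subtype.ext (by rw [h68_coe_lvlInv, h68_coe_lvl])

omit [Fact p.Prime] in
theorem h68_lvl_lvlInv (x : ↥(modularFunctionFieldBar (M * p * ℓ))) :
    h68_lvl M p ℓ (h68_lvlInv M p ℓ x) = x :=
  Subtype.ext (by rw [h68_coe_lvl, h68_coe_lvlInv])

/-- The swap at `p` on `F(M p ℓ)`: the Atkin–Lehner involution of level `(M ℓ, p)`,
transported along `F(M ℓ p) = F(M p ℓ)`. -/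
def h68_W : ↥(modularFunctionFieldBar (M * p * ℓ)) →+* ↥(modularFunctionFieldBar (M * p * ℓ)) :=
  ((h68_lvl M p ℓ).toRingHom).comp
    ((h60_w (M * ℓ) p hpMℓ).comp ((h68_lvlInv M p ℓ).toRingHom))

theorem h68_W_apply (x : ↥(modularFunctionFieldBar (M * p * ℓ))) :
    h68_W M p ℓ hpMℓ x
      = h68_lvl M p ℓ (h60_w (M * ℓ) p hpMℓ (h68_lvlInv M p ℓ x)) := rfl

theorem h68_W_alpha (z : ↥(modularFunctionFieldBar (M * ℓ))) :
    h68_W M p ℓ hpMℓ (h68_lvl M p ℓ (heckeAlphaBar Qb (M * ℓ) p z))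
      = h68_lvl M p ℓ (heckeBetaBar Qb (M * ℓ) p z) := by
  rw [h68_W_apply, h68_lvlInv_lvl, h60_w_alpha]

theorem h68_W_beta (z : ↥(modularFunctionFieldBar (M * ℓ))) :
    h68_W M p ℓ hpMℓ (h68_lvl M p ℓ (heckeBetaBar Qb (M * ℓ) p z))
      = h68_lvl M p ℓ (heckeAlphaBar Qb (M * ℓ) p z) := by
  rw [h68_W_apply, h68_lvlInv_lvl, h60_w_beta]

/-- `W` is an involution. -/
theorem h68_W_W (x : ↥(modularFunctionFieldBar (M * p * ℓ))) :
    h68_W M p ℓ hpMℓ (h68_W M p ℓ hpMℓ x) = x := by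
  rw [h68_W_apply, h68_W_apply, h68_lvlInv_lvl, h60_w_w, h68_lvl_lvlInv]

/-! ### The four generator identities (on `q`-series) -/

omit [Fact p.Prime] in
theorem h68_gen_aa (a : ↥(modularFunctionFieldBar M)) :
    heckeAlphaBar Qb (M * p) ℓ (heckeAlphaBar Qb M p a)
      = h68_lvl M p ℓ (heckeAlphaBar Qb (M * ℓ) p (heckeAlphaBar Qb M ℓ a)) :=
  Subtype.ext (by
    rw [h68_coe_lvl, coe_heckeAlphaBar, coe_heckeAlphaBar, coe_heckeAlphaBar,
      coe_heckeAlphaBar])

omit [Fact p.Prime] in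
theorem h68_gen_ab (a : ↥(modularFunctionFieldBar M)) :
    heckeAlphaBar Qb (M * p) ℓ (heckeBetaBar Qb M p a)
      = h68_lvl M p ℓ (heckeBetaBar Qb (M * ℓ) p (heckeAlphaBar Qb M ℓ a)) :=
  Subtype.ext (by
    rw [h68_coe_lvl, coe_heckeAlphaBar, coe_heckeBetaBar, coe_heckeBetaBar,
      coe_heckeAlphaBar])

omit [Fact p.Prime] in
theorem h68_gen_ba (a : ↥(modularFunctionFieldBar M)) :
    heckeBetaBar Qb (M * p) ℓ (heckeAlphaBar Qb M p a)
      = h68_lvl M p ℓ (heckeAlphaBar Qb (M * ℓ) p (heckeBetaBar Qb M ℓ a)) :=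
  Subtype.ext (by
    rw [h68_coe_lvl, coe_heckeBetaBar, coe_heckeAlphaBar, coe_heckeAlphaBar,
      coe_heckeBetaBar])

omit [Fact p.Prime] in
theorem h68_gen_bb (a : ↥(modularFunctionFieldBar M)) :
    heckeBetaBar Qb (M * p) ℓ (heckeBetaBar Qb M p a)
      = h68_lvl M p ℓ (heckeBetaBar Qb (M * ℓ) p (heckeBetaBar Qb M ℓ a)) :=
  Subtype.ext (by
    rw [h68_coe_lvl, coe_heckeBetaBar, coe_heckeBetaBar, coe_heckeBetaBar,
      coe_heckeBetaBar, qExpand_qExpand, qExpand_qExpand]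
    exact qExpand_congr (mul_comm ℓ p) _)

/-- `W ∘ α_ℓ = α_ℓ ∘ w_p`. -/
theorem h68_W_alphaL (f : ↥(modularFunctionFieldBar (M * p))) :
    h68_W M p ℓ hpMℓ (heckeAlphaBar Qb (M * p) ℓ f)
      = heckeAlphaBar Qb (M * p) ℓ (h60_w M p hpM f) := by
  obtain ⟨c, rfl⟩ := h60_powerBasis M p Fact.out hpM f
  rw [h60_w_comb, h60_comb, map_sum, map_sum, map_sum]
  refine Finset.sum_congr rfl fun i _ => ?_
  rw [map_mul, map_pow, map_mul, map_pow, map_mul, map_pow, h68_gen_aa, h68_gen_ab,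
    h68_W_alpha, h68_W_beta, ← h68_gen_aa, ← h68_gen_ab]

/-- `W ∘ β_ℓ = β_ℓ ∘ w_p`. -/
theorem h68_W_betaL (f : ↥(modularFunctionFieldBar (M * p))) :
    h68_W M p ℓ hpMℓ (heckeBetaBar Qb (M * p) ℓ f)
      = heckeBetaBar Qb (M * p) ℓ (h60_w M p hpM f) := by
  obtain ⟨c, rfl⟩ := h60_powerBasis M p Fact.out hpM f
  rw [h60_w_comb, h60_comb, map_sum, map_sum, map_sum]
  refine Finset.sum_congr rfl fun i _ => ?_
  rw [map_mul, map_pow, map_mul, map_pow, map_mul, map_pow, h68_gen_ba, h68_gen_bb,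
    h68_W_alpha, h68_W_beta, ← h68_gen_ba, ← h68_gen_bb]

include hpMℓ in
/-- **The swap commutes with `f ↦ N_α(β f)`.** -/
theorem h68_norm_swap (u : ↥(modularFunctionFieldBar (M * p))) :
    (letI := algebraAlong (heckeAlphaBar Qb (M * p) ℓ);
      Algebra.norm (modularFunctionFieldBar (M * p))
        (heckeBetaBar Qb (M * p) ℓ (h60_w M p hpM u)))
    = h60_w M p hpM (letI := algebraAlong (heckeAlphaBar Qb (M * p) ℓ);
      Algebra.norm (modularFunctionFieldBar (M * p)) (heckeBetaBar Qb (M * p) ℓ u)) := by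
  letI := algebraAlong (heckeAlphaBar Qb (M * p) ℓ)
  let e₁ : ↥(modularFunctionFieldBar (M * p)) ≃+* ↥(modularFunctionFieldBar (M * p)) :=
    RingEquiv.ofRingHom (h60_w M p hpM) (h60_w M p hpM) (RingHom.ext (h60_w_w M p hpM))
      (RingHom.ext (h60_w_w M p hpM))
  let e₂ : ↥(modularFunctionFieldBar (M * p * ℓ)) ≃+* ↥(modularFunctionFieldBar (M * p * ℓ)) :=
    RingEquiv.ofRingHom (h68_W M p ℓ hpMℓ) (h68_W M p ℓ hpMℓ)
      (RingHom.ext (h68_W_W M p ℓ hpMℓ)) (RingHom.ext (h68_W_W M p ℓ hpMℓ))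
  have he : RingHom.comp (algebraMap ↥(modularFunctionFieldBar (M * p))
      ↥(modularFunctionFieldBar (M * p * ℓ))) (e₁ : ↥(modularFunctionFieldBar (M * p)) →+*
        ↥(modularFunctionFieldBar (M * p)))
      = RingHom.comp (e₂ : ↥(modularFunctionFieldBar (M * p * ℓ)) →+*
        ↥(modularFunctionFieldBar (M * p * ℓ)))
        (algebraMap ↥(modularFunctionFieldBar (M * p)) ↥(modularFunctionFieldBar (M * p * ℓ))) := by
    refine RingHom.ext fun f => ?_
    exact (h68_W_alphaL M p ℓ hpM hpMℓ f).symm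
  have key := Algebra.norm_eq_of_equiv_equiv e₁ e₂ he (heckeBetaBar Qb (M * p) ℓ u)
  have h2 : e₂ (heckeBetaBar Qb (M * p) ℓ u) = heckeBetaBar Qb (M * p) ℓ (h60_w M p hpM u) :=
    h68_W_betaL M p ℓ hpM hpMℓ u
  rw [h2] at key
  have h3 := congrArg e₁ key
  rw [RingEquiv.apply_symm_apply] at h3
  exact h3.symm

include hpMℓ in
/-- **The eigen-relation is stable under the swap.** -/
theorem h68_hecke_rel_swap (u : ↥(modularFunctionFieldBar (M * p))) (a : ℤ) (n : ℕ) (c : Qb)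
    (w : ↥(modularFunctionFieldBar (M * p)))
    (hrel : (letI := algebraAlong (heckeAlphaBar Qb (M * p) ℓ);
      Algebra.norm (modularFunctionFieldBar (M * p)) (heckeBetaBar Qb (M * p) ℓ u))
        = algebraMap Qb (modularFunctionFieldBar (M * p)) c * u ^ a * w ^ n) :
    (letI := algebraAlong (heckeAlphaBar Qb (M * p) ℓ);
      Algebra.norm (modularFunctionFieldBar (M * p))
        (heckeBetaBar Qb (M * p) ℓ (h60_w M p hpM u)))
        = algebraMap Qb (modularFunctionFieldBar (M * p)) c * h60_w M p hpM u ^ a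
          * h60_w M p hpM w ^ n := by
  rw [h68_norm_swap M p ℓ hpM hpMℓ u, hrel, map_mul, map_mul, h60_w_algebraMap, map_zpow₀,
    map_pow]

end Swap

section EigR2

set_option maxHeartbeats 2000000 in
/-- **(EIG) for the second component.**  As `h68_eig`, with the second reduction datum
`h60_R2 M p hpM A hA` (the transport of `h60_R1` by the swap `w_p`) in place of `h60_R1`. -/
theorem h68_eig_R2 (M p : ℕ) [NeZero M] [NeZero p] [Fact p.Prime] (hpM : ¬ p ∣ M)
    (A : ValuationSubring Qb) (hA : A.LiesOverPrime p)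
    (hRI : ReductionInputsModL A M)
    {RM : h39_RedDatum Qb ↥(modularFunctionFieldBar M) (IsLocalRing.ResidueField A)
      ↥(modularFunctionFieldFullC (IsLocalRing.ResidueField A) M)}
    (hRM : h54_IsModRed M A RM)
    (ℓ : ℕ) [NeZero ℓ] (hℓ : ℓ.Prime) (hℓMp : ¬ ℓ ∣ M * p)
    (E : Divisor.degZero (K := Qb) (F := modularFunctionFieldBar (M * p)))
    (u : modularFunctionFieldBar (M * p)) (hu : u ∈ (h60_R2 M p hpM A hA).O)
    (hune : (h60_R2 M p hpM A hA).red ⟨u, hu⟩ ≠ 0)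
    (n : ℕ) (hn : n ≠ 0)
    (hE : ∀ v : Place Qb (modularFunctionFieldBar (M * p)),
      (n : ℤ) * (E : Divisor Qb (modularFunctionFieldBar (M * p))) v = v.ord u)
    (a : ℤ) (hT : heckeOperatorAlong Qb (M * p) ℓ (Pic0.mk E) = a • Pic0.mk E)
    (Db : Divisor.degZero (K := IsLocalRing.ResidueField A)
      (F := modularFunctionFieldFullC (IsLocalRing.ResidueField A) M))
    (hDb : ∀ Q : Place (IsLocalRing.ResidueField A)
        (modularFunctionFieldFullC (IsLocalRing.ResidueField A) M),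
      (n : ℤ) * (Db : Divisor (IsLocalRing.ResidueField A)
        (modularFunctionFieldFullC (IsLocalRing.ResidueField A) M)) Q
        = Q.ord ((h60_R2 M p hpM A hA).red ⟨u, hu⟩))
    (hcorr : haveI := h88_hasPrincipalDivisors (M * ℓ)
      ∀ Z : Divisor Qb (modularFunctionFieldBar M),
        Z ∈ Divisor.degZero (K := Qb) (F := modularFunctionFieldBar M) →
        Finsupp.mapDomain (placeReductionModL hRI) Z = 0 →
        Finsupp.mapDomain (placeReductionModL hRI)
          (heckeDivBar (h88_alphaIntegral M ℓ) (h88_betaIntegral M ℓ) Z) = 0)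
    (y : JZero M) (m : ℤ) (hy : reductionModL A M y = m • Pic0.mk Db) :
    reductionModL A M (heckeOperatorAlong Qb M ℓ y) = (a * m) • Pic0.mk Db := by
  have hp : p.Prime := Fact.out
  have hu0 : u ≠ 0 := by
    rintro rfl
    exact hune (map_zero (h60_R2 M p hpM A hA).red)
  have hpMℓ : ¬ p ∣ M * ℓ := by
    intro h
    rcases (Nat.Prime.dvd_mul hp).mp h with h1 | h1
    · exact hpM h1
    · have h2 : p = ℓ := (Nat.prime_dvd_prime_iff_eq hp hℓ).mp h1
      exact hℓMp (h2 ▸ dvd_mul_left p M)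
  obtain ⟨c, w, -, -, hrel⟩ := h68_hecke_rel (M * p) ℓ n a E u hu0 hE hT
  have hrel' := h68_hecke_rel_swap M p ℓ hpM hpMℓ u a n c w hrel
  have hu' : h60_w M p hpM u ∈ (h60_R1 M p hpM A hA).O := hu
  have hred : (h60_R1 M p hpM A hA).red ⟨h60_w M p hpM u, hu'⟩
      = (h60_R2 M p hpM A hA).red ⟨u, hu⟩ := rfl
  exact h68_eig_of_rel M p hpM A hA hRI hRM ℓ hℓ hℓMp (h60_w M p hpM u) hu'
    (by rw [hred]; exact hune) n hn a c (h60_w M p hpM w) hrel' Db
    (fun Q => by rw [hred]; exact hDb Q) hcorr y m hy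

/-- `h68_eig_R2` for the Hecke operators `heckeOperatorBar _ ℓ` (`ℓ : Nat.Primes`). -/
theorem h68_eig_R2_bar (M p : ℕ) [NeZero M] [NeZero p] [Fact p.Prime] (hpM : ¬ p ∣ M)
    (A : ValuationSubring Qb) (hA : A.LiesOverPrime p)
    (hRI : ReductionInputsModL A M)
    {RM : h39_RedDatum Qb ↥(modularFunctionFieldBar M) (IsLocalRing.ResidueField A)
      ↥(modularFunctionFieldFullC (IsLocalRing.ResidueField A) M)}
    (hRM : h54_IsModRed M A RM)
    (ℓ : Nat.Primes) (hℓMp : ¬ (ℓ : ℕ) ∣ M * p)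
    (E : Divisor.degZero (K := Qb) (F := modularFunctionFieldBar (M * p)))
    (u : modularFunctionFieldBar (M * p)) (hu : u ∈ (h60_R2 M p hpM A hA).O)
    (hune : (h60_R2 M p hpM A hA).red ⟨u, hu⟩ ≠ 0)
    (n : ℕ) (hn : n ≠ 0)
    (hE : ∀ v : Place Qb (modularFunctionFieldBar (M * p)),
      (n : ℤ) * (E : Divisor Qb (modularFunctionFieldBar (M * p))) v = v.ord u)
    (a : ℤ) (hT : heckeOperatorBar (M * p) ℓ (Pic0.mk E) = a • Pic0.mk E)
    (Db : Divisor.degZero (K := IsLocalRing.ResidueField A)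
      (F := modularFunctionFieldFullC (IsLocalRing.ResidueField A) M))
    (hDb : ∀ Q : Place (IsLocalRing.ResidueField A)
        (modularFunctionFieldFullC (IsLocalRing.ResidueField A) M),
      (n : ℤ) * (Db : Divisor (IsLocalRing.ResidueField A)
        (modularFunctionFieldFullC (IsLocalRing.ResidueField A) M)) Q
        = Q.ord ((h60_R2 M p hpM A hA).red ⟨u, hu⟩))
    (hcorr : haveI : NeZero (ℓ : ℕ) := ⟨ℓ.2.ne_zero⟩
      haveI := h88_hasPrincipalDivisors (M * (ℓ : ℕ))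
      ∀ Z : Divisor Qb (modularFunctionFieldBar M),
        Z ∈ Divisor.degZero (K := Qb) (F := modularFunctionFieldBar M) →
        Finsupp.mapDomain (placeReductionModL hRI) Z = 0 →
        Finsupp.mapDomain (placeReductionModL hRI)
          (heckeDivBar (h88_alphaIntegral M (ℓ : ℕ)) (h88_betaIntegral M (ℓ : ℕ)) Z) = 0)
    (y : JZero M) (m : ℤ) (hy : reductionModL A M y = m • Pic0.mk Db) :
    reductionModL A M (heckeOperatorBar M ℓ y) = (a * m) • Pic0.mk Db :=
  haveI : NeZero (ℓ : ℕ) := ⟨ℓ.2.ne_zero⟩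
  h68_eig_R2 M p hpM A hA hRI hRM (ℓ : ℕ) ℓ.2 hℓMp E u hu hune n hn hE a hT Db hDb hcorr y m hy

end EigR2

end Fermat.Agent.S40

end
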