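import Mathlib
import Fermat.Agent.S27.FrobEx
import Fermat.Agent.S27.FrobZeta
import Fermat.Agent.S37.h87_Frob
import Fermat.Agent.S37.h87_Decomp
import Fermat.Agent.S17.h83_Smooth
import Fermat.Agent.S18.h39_Mod
import Fermat.Agent.S18.GR_RedAPI
import Fermat.Agent.S27.h14_ValFamP

/-!
# S40 / (BRIDGE), row FIN-MOD (helper73)

The modular instance of the finiteness of Frobenius-invariant classes, in the PRELUDE action of
`SemilinearAut` on `Pic0` (the one used by `h87_red_galois`), for the Galois trick (STAR):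

* `h73_toSemi` : the bridge `SemilinearAut K F →* h57_SemiAut K F` between the Prelude's semilinear
  automorphisms and those of S27, with `h73_toSemi_smul_pic0 : h73_toSemi g • c = g • c`;
* `h73_semilin_fin` : a Prelude semilinear automorphism which is a `p ^ e`-Frobenius structure,
  periodic on `F` and fixes a chart has finitely many invariant classes in `Pic0`;
* `h73_coeffAut_fin` : `{c : JZeroC k N // h87_coeffAut N (Frob ^ j) • c = c}` is finite
  (`k` algebraically closed, algebraic over `𝔽_p`, `j̄` a chart);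
* `h73_coeffAut_fin_res` : the same for the residue field of a valuation subring of `ℚ̄` over
  `p ∤ M`;
* `h73_frob_pow_fix` : every class of `J₀(N)(ℚ̄)` is fixed by a positive power of any `σ`;
* `h73_frobenius_pow_lift` : powers of a Frobenius element act on `A` and induce `x ↦ x ^ p ^ j`.
-/

set_option autoImplicit false
set_option synthInstance.maxHeartbeats 400000

noncomputable section

open AlgebraicCurve ModularCurve IntermediateField HahnSeries
open scoped Pointwise

namespace Fermat.Agent.S40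

open Fermat.Agent.S27 Fermat.Agent.S18 Fermat.Agent.S37 Fermat.Agent.S17

local notation "Qb" => AlgebraicClosure ℚ

/-! ## The bridge between the Prelude's `SemilinearAut` and S27's `h57_SemiAut` -/

section Bridge

variable {K F : Type*} [Field K] [Field F] [Algebra K F]

/-- A Prelude semilinear automorphism, as a semilinear automorphism in the sense of S27. -/
def h73_toSemi : SemilinearAut K F →* h57_SemiAut K F where
  toFun g := ⟨SemilinearAut.toRingAut g,
    ⟨fun c => ⟨SemilinearAut.baseAut g c, SemilinearAut.commutes g c⟩,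
     fun c => ⟨(SemilinearAut.baseAut g).symm c, SemilinearAut.commutes g⁻¹ c⟩⟩⟩
  map_one' := rfl
  map_mul' _ _ := rfl

@[simp]
theorem h73_coe_toSemi (g : SemilinearAut K F) :
    ((h73_toSemi g : h57_SemiAut K F) : F ≃+* F) = SemilinearAut.toRingAut g := rfl

theorem h73_toSemi_smul_place (g : SemilinearAut K F) (v : Place K F) :
    h73_toSemi g • v = g • v := by
  ext1
  rw [h57_smul_toValuationSubring, SemilinearAut.smul_toValuationSubring]
  ext x
  rw [ValuationSubring.mem_pointwise_smul_iff_inv_smul_mem,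
    ValuationSubring.mem_pointwise_smul_iff_inv_smul_mem]
  rfl

theorem h73_toSemi_smul_div (g : SemilinearAut K F) (D : Divisor K F) :
    h73_toSemi g • D = g • D := by
  rw [h57_smul_def, SemilinearAut.divisor_smul_def]
  have h : (fun v : Place K F => h73_toSemi g • v) = (fun v => g • v) :=
    funext (h73_toSemi_smul_place g)
  rw [h]

theorem h73_toSemi_smul_pic0 (g : SemilinearAut K F) (c : Pic0 K F) :
    h73_toSemi g • c = g • c := by
  obtain ⟨D, rfl⟩ := Pic0.mk_surjective c
  rw [h57_smul_mk, SemilinearAut.pic0_smul_mk]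
  exact congrArg Pic0.mk (Subtype.ext (by
    rw [h57_coe_degZeroSMulHom, SemilinearAut.coe_degZeroSMulHom, h73_toSemi_smul_div]))

end Bridge

/-! ## Finiteness of invariant classes for a Prelude Frobenius structure -/

section Fin

variable {k F : Type*} [Field k] [IsAlgClosed k] [Field F] [Algebra k F]

theorem h73_pow_smul_pic0_fixed (σ : h57_SemiAut k F) (c : Pic0 k F) (hc : σ • c = c) (n : ℕ) :
    σ ^ n • c = c := by
  induction n with
  | zero => simp
  | succ n ih => rw [pow_succ, mul_smul, hc, ih]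

/-- A Prelude semilinear automorphism which acts on the constants by `c ↦ c ^ p ^ e`, is periodic
on `F` and fixes a chart has finitely many invariant classes in `Pic0`. -/
theorem h73_semilin_fin {p : ℕ} [Fact p.Prime] [CharP k p] {x : F} (hx : h75_IsChart k x)
    (g : SemilinearAut k F) {e : ℕ} (he : 0 < e)
    (hg : ∀ c : k, SemilinearAut.baseAut g c = c ^ (p ^ e))
    (hper : ∀ f : F, ∃ n : ℕ, 0 < n ∧ (g ^ n) • f = f) :
    Finite {c : Pic0 k F // g • c = c} := by
  set σ : h57_SemiAut k F := h73_toSemi g with hσdef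
  have hσ : h57_IsFrob (p ^ e) σ := fun c => by
    show SemilinearAut.toRingAut g (algebraMap k F c) = algebraMap k F (c ^ (p ^ e))
    rw [SemilinearAut.commutes, hg]
  have hperσ : h73_Periodic σ := fun f => by
    obtain ⟨n, hn, h⟩ := hper f
    refine ⟨n, hn, ?_⟩
    rw [hσdef, ← map_pow]
    exact h
  obtain ⟨P⟩ := h99_nonempty_place hx
  obtain ⟨n, hn, hfix⟩ := h99_place_periodic hx hperσ P
  have hσn : h57_IsFrob (p ^ (e * n)) (σ ^ n) := by
    rw [pow_mul]
    exact hσ.pow n
  have hfin : Finite {c : Pic0 k F // (σ ^ n) • c = c} :=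
    h73_finite_inv_class hx (Nat.mul_pos he hn) (σ ^ n) hσn (hperσ.pow n) P hfix
  refine Finite.of_injective
    (fun c : {c : Pic0 k F // g • c = c} =>
      (⟨c.1, h73_pow_smul_pic0_fixed σ c.1
        (by rw [hσdef, h73_toSemi_smul_pic0]; exact c.2) n⟩ :
        {c : Pic0 k F // (σ ^ n) • c = c})) ?_
  intro a b hab
  have h := congrArg Subtype.val hab
  exact Subtype.ext h

end Fin

/-! ## The coefficient Frobenius on the reduced modular function field -/

section CoeffAut

variable {k : Type} [Field k] {p : ℕ} [Fact p.Prime] [CharP k p] [PerfectRing k p]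

theorem h73_frobEquiv_pow_apply (j : ℕ) (c : k) :
    ((frobeniusEquiv k p) ^ j) c = c ^ (p ^ j) := by
  induction j generalizing c with
  | zero => simp
  | succ j ih =>
    rw [pow_succ, RingAut.mul_apply, ih, frobeniusEquiv_apply, frobenius_def, ← pow_mul,
      ← pow_succ']

theorem h73_pow_pow_fix {c : k} {m : ℕ} (hc : c ^ (p ^ m) = c) (j : ℕ) :
    c ^ (p ^ (m * j)) = c := by
  induction j with
  | zero => simp
  | succ j ih => rw [Nat.mul_succ, _root_.pow_add, pow_mul, ih, hc]

theorem h73_ringAut_pow_fix {R : Type*} [Semiring R] (T : R ≃+* R) {a : R} (ha : T a = a)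
    (m : ℕ) : (T ^ m) a = a := by
  induction m with
  | zero => rfl
  | succ m ih => rw [pow_succ, RingAut.mul_apply, ha, ih]

variable (N : ℕ) [NeZero N]

theorem h73_coeffRingAut_pow_algebraMap (τ : k ≃+* k) (n : ℕ) (a : k) :
    (h87_coeffRingAut N τ ^ n) (algebraMap k (modularFunctionFieldFullC k N) a)
      = algebraMap k (modularFunctionFieldFullC k N) ((τ ^ n) a) := by
  induction n generalizing a with
  | zero => rfl
  | succ n ih =>
    rw [pow_succ, RingAut.mul_apply, h87_coeffRingAut_algebraMap, ih, pow_succ,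
      RingAut.mul_apply]

/-- Every element of the reduced modular function field is fixed by a positive power of the
coefficient Frobenius. -/
theorem h73_coeffRingAut_periodic (halg : ∀ a : k, ∃ n : ℕ, 0 < n ∧ a ^ (p ^ n) = a) (j : ℕ)
    (f : modularFunctionFieldFullC k N) :
    ∃ n : ℕ, 0 < n ∧ (h87_coeffRingAut N ((frobeniusEquiv k p) ^ j) ^ n) f = f := by
  set T := h87_coeffRingAut N ((frobeniusEquiv k p) ^ j) with hT
  obtain ⟨f, hf⟩ := f
  have key : ∀ (x : LaurentSeries k) (hx : x ∈ modularFunctionFieldFullC k N),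
      ∃ n : ℕ, 0 < n ∧ (T ^ n) ⟨x, hx⟩ = ⟨x, hx⟩ := by
    intro x hx
    have hx' := hx
    rw [modularFunctionFieldFullC] at hx'
    induction hx' using IntermediateField.adjoin_induction with
    | mem y hy =>
        refine ⟨1, one_pos, ?_⟩
        obtain ⟨d, hne, hdvd, rfl⟩ := hy
        haveI := hne
        rw [pow_one]
        apply Subtype.ext
        rw [hT, h87_coe_coeffRingAut_apply, coeffMap_qExpand, coeffMap_jqModC]
    | algebraMap c =>
        obtain ⟨m, hm, hc⟩ := halg c
        refine ⟨m, hm, ?_⟩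
        have h1 := h73_coeffRingAut_pow_algebraMap N ((frobeniusEquiv k p) ^ j) m c
        have h2 : (((frobeniusEquiv k p) ^ j) ^ m) c = c := by
          rw [← pow_mul, h73_frobEquiv_pow_apply, mul_comm]
          exact h73_pow_pow_fix hc j
        rw [h2] at h1
        exact h1
    | add y z hy hz ihy ihz =>
        have hy1 : y ∈ modularFunctionFieldFullC k N := by rw [modularFunctionFieldFullC]; exact hy
        have hz1 : z ∈ modularFunctionFieldFullC k N := by rw [modularFunctionFieldFullC]; exact hz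
        obtain ⟨n₁, hn₁, h₁⟩ := ihy hy1
        obtain ⟨n₂, hn₂, h₂⟩ := ihz hz1
        refine ⟨n₁ * n₂, Nat.mul_pos hn₁ hn₂, ?_⟩
        have e1 : (T ^ (n₁ * n₂)) ⟨y, hy1⟩ = ⟨y, hy1⟩ := by
          rw [pow_mul]; exact h73_ringAut_pow_fix _ h₁ n₂
        have e2 : (T ^ (n₁ * n₂)) ⟨z, hz1⟩ = ⟨z, hz1⟩ := by
          rw [mul_comm, pow_mul]; exact h73_ringAut_pow_fix _ h₂ n₁
        have : (⟨y + z, hx⟩ : modularFunctionFieldFullC k N) = ⟨y, hy1⟩ + ⟨z, hz1⟩ := rfl
        rw [this, map_add, e1, e2]
    | inv y hy ihy =>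
        have hy1 : y ∈ modularFunctionFieldFullC k N := by rw [modularFunctionFieldFullC]; exact hy
        obtain ⟨n₁, hn₁, h₁⟩ := ihy hy1
        refine ⟨n₁, hn₁, ?_⟩
        have : (⟨y⁻¹, hx⟩ : modularFunctionFieldFullC k N) = (⟨y, hy1⟩)⁻¹ := rfl
        rw [this, map_inv₀, h₁]
    | mul y z hy hz ihy ihz =>
        have hy1 : y ∈ modularFunctionFieldFullC k N := by rw [modularFunctionFieldFullC]; exact hy
        have hz1 : z ∈ modularFunctionFieldFullC k N := by rw [modularFunctionFieldFullC]; exact hz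
        obtain ⟨n₁, hn₁, h₁⟩ := ihy hy1
        obtain ⟨n₂, hn₂, h₂⟩ := ihz hz1
        refine ⟨n₁ * n₂, Nat.mul_pos hn₁ hn₂, ?_⟩
        have e1 : (T ^ (n₁ * n₂)) ⟨y, hy1⟩ = ⟨y, hy1⟩ := by
          rw [pow_mul]; exact h73_ringAut_pow_fix _ h₁ n₂
        have e2 : (T ^ (n₁ * n₂)) ⟨z, hz1⟩ = ⟨z, hz1⟩ := by
          rw [mul_comm, pow_mul]; exact h73_ringAut_pow_fix _ h₂ n₁
        have : (⟨y * z, hx⟩ : modularFunctionFieldFullC k N) = ⟨y, hy1⟩ * ⟨z, hz1⟩ := rfl
        rw [this, map_mul, e1, e2]
  exact key f hf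

theorem h73_toRingAut_pow {K F : Type*} [Field K] [Field F] [Algebra K F]
    (g : SemilinearAut K F) (n : ℕ) :
    SemilinearAut.toRingAut (g ^ n) = SemilinearAut.toRingAut g ^ n := by
  induction n with
  | zero => rfl
  | succ n ih => rw [pow_succ, SemilinearAut.toRingAut_mul, ih, pow_succ]

/-- **FIN-MOD.** The classes of `Pic⁰` of the reduced modular function field invariant under a
positive power of the coefficient Frobenius are finite in number (Prelude action). -/
theorem h73_coeffAut_fin [IsAlgClosed k] (halg : ∀ a : k, ∃ n : ℕ, 0 < n ∧ a ^ (p ^ n) = a)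
    (hchart : h75_IsChart k (h54_jk k N)) (j : ℕ) (hj : 0 < j) :
    Finite {c : JZeroC k N // h87_coeffAut N ((frobeniusEquiv k p) ^ j) • c = c} := by
  refine h73_semilin_fin (p := p) hchart (h87_coeffAut N ((frobeniusEquiv k p) ^ j)) hj
    (fun c => h73_frobEquiv_pow_apply j c) (fun f => ?_)
  obtain ⟨n, hn, h⟩ := h73_coeffRingAut_periodic N halg j f
  refine ⟨n, hn, ?_⟩
  rw [SemilinearAut.smul_def, h73_toRingAut_pow]
  exact h

end CoeffAut

/-! ## The residue field of a valuation subring of `ℚ̄` over `p` -/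

section Res

open Polynomial

/-- The residue field of a valuation subring of `ℚ̄` of residue characteristic `p` is a union of
finite fields. -/
theorem h73_res_halg (A : ValuationSubring Qb) (p : ℕ) [Fact p.Prime]
    [CharP (IsLocalRing.ResidueField A) p] (a : IsLocalRing.ResidueField A) :
    ∃ n : ℕ, 0 < n ∧ a ^ (p ^ n) = a := by
  letI : Algebra (ZMod p) (IsLocalRing.ResidueField A) := ZMod.algebra _ p
  apply h14_pow_card_of_isAlgebraic_zmod p a
  obtain ⟨x, rfl⟩ := IsLocalRing.residue_surjective a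
  have halgQ : IsAlgebraic ℚ (x : Qb) := (AlgebraicClosure.isAlgebraic ℚ).isAlgebraic _
  have halgZ : IsAlgebraic ℤ (x : Qb) := (IsFractionRing.isAlgebraic_iff ℤ ℚ Qb).mpr halgQ
  obtain ⟨P, hP0, hPx⟩ := halgZ
  -- pass to the primitive part
  have hPx' : aeval (x : Qb) P.primPart = 0 := by
    have h1 := P.eq_C_content_mul_primPart
    rw [h1, map_mul, aeval_C] at hPx
    rcases mul_eq_zero.mp hPx with h | h
    · exfalso
      have hc : P.content ≠ 0 := fun hc => hP0 (content_eq_zero_iff.mp hc)
      exact hc ((algebraMap ℤ Qb).injective_int (by rw [h, map_zero]))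
    · exact h
  set Q := P.primPart with hQ
  have hQprim : Q.IsPrimitive := P.isPrimitive_primPart
  -- the polynomial identity inside `A`
  have hA : aeval x Q = 0 := by
    have hinj : Function.Injective (algebraMap A Qb) := Subtype.val_injective
    apply hinj
    rw [← Polynomial.aeval_algebraMap_apply, map_zero]
    exact hPx'
  refine ⟨Q.map (Int.castRingHom (ZMod p)), ?_, ?_⟩
  · intro h
    have hdvd : Polynomial.C (p : ℤ) ∣ Q := by
      rw [C_dvd_iff_dvd_coeff]
      intro i
      have h3 : (Q.map (Int.castRingHom (ZMod p))).coeff i = 0 := by rw [h]; simp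
      rw [coeff_map, eq_intCast] at h3
      exact (ZMod.intCast_zmod_eq_zero_iff_dvd _ p).mp h3
    have hu := hQprim _ hdvd
    have hp : 1 < p := (Fact.out : p.Prime).one_lt
    rw [Int.isUnit_iff] at hu
    rcases hu with hu | hu <;> omega
  · have h4 : (IsLocalRing.residue A).comp (algebraMap ℤ A)
        = (algebraMap (ZMod p) (IsLocalRing.ResidueField A)).comp (Int.castRingHom (ZMod p)) :=
      RingHom.ext_int _ _
    rw [aeval_def, eval₂_map, ← h4, ← Polynomial.hom_eval₂, ← aeval_def, hA, map_zero]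

variable (M : ℕ) [NeZero M] {p : ℕ} [Fact p.Prime]

/-- **FIN-MOD at a valuation subring of `ℚ̄` over `p ∤ M`.** -/
theorem h73_coeffAut_fin_res (hpM : ¬ p ∣ M) (A : ValuationSubring Qb) (hA : A.LiesOverPrime p)
    [CharP (IsLocalRing.ResidueField A) p] [PerfectRing (IsLocalRing.ResidueField A) p]
    (j : ℕ) (hj : 0 < j) :
    Finite {c : JZeroC (IsLocalRing.ResidueField A) M //
      h87_coeffAut M ((frobeniusEquiv (IsLocalRing.ResidueField A) p) ^ j) • c = c} := by
  haveI : IsAlgClosed (IsLocalRing.ResidueField A) := h19_residueField_isAlgClosed A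
  have hchart : h75_IsChart (IsLocalRing.ResidueField A)
      (h54_jk (IsLocalRing.ResidueField A) M) := by
    have h := h39_weakChart_isChart_red (h39_modRed M hpM A hA) (h39_modRed_weakChart_j M hpM A hA)
    rwa [h54_redF_jbar (h39_modRed_spec M hpM A hA)] at h
  exact h73_coeffAut_fin M (h73_res_halg A p) hchart j hj

end Res

/-! ## Galois side: powers of an automorphism -/

section Gal

/-- Every class of `J₀(N)(ℚ̄)` is fixed by a positive power of any automorphism of `ℚ̄`. -/
theorem h73_frob_pow_fix (N : ℕ) [NeZero N] (σ : Qb ≃ₐ[ℚ] Qb) (y : JZero N) :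
    ∃ j : ℕ, 0 < j ∧ σ ^ j • y = y := by
  obtain ⟨E, hE, hfix⟩ := h83_smooth N y
  haveI := hE
  let f : ℕ → (E →ₐ[ℚ] Qb) := fun n => ((σ ^ n : Qb ≃ₐ[ℚ] Qb) : Qb →ₐ[ℚ] Qb).comp E.val
  obtain ⟨a, b, hab, hfab⟩ := Finite.exists_ne_map_eq_of_infinite f
  wlog hlt : a < b generalizing a b
  · exact this b a hab.symm hfab.symm (lt_of_le_of_ne (not_lt.mp hlt) hab.symm)
  refine ⟨b - a, Nat.sub_pos_of_lt hlt, hfix _ ?_⟩
  rw [IntermediateField.mem_fixingSubgroup_iff]
  intro x hx
  have h1 : (σ ^ a) x = (σ ^ b) x := congrArg (fun g : E →ₐ[ℚ] Qb => g ⟨x, hx⟩) hfab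
  have h2 : σ ^ b = σ ^ a * σ ^ (b - a) := by
    rw [← _root_.pow_add, Nat.add_sub_cancel' hlt.le]
  rw [h2, AlgEquiv.mul_apply] at h1
  exact ((σ ^ a).injective h1).symm

/-- Powers of a Frobenius element at `A` preserve `A` and induce `x ↦ x ^ p ^ j` on the residue
field (in the shape of the hypotheses `sA`, `hσ`, `hτ` of `h87_red_galois`). -/
theorem h73_frobenius_pow_lift (A : ValuationSubring Qb) (p : ℕ) (σ : Qb ≃ₐ[ℚ] Qb)
    (hσ : A.IsFrobeniusAt σ p) (j : ℕ) :
    ∃ sA : A →+* A, (∀ a : A, A.subtype (sA a) = (σ ^ j) (A.subtype a)) ∧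
      ∀ a : A, IsLocalRing.residue A (sA a) = IsLocalRing.residue A a ^ (p ^ j) := by
  obtain ⟨s, hs1, hs2⟩ := h87_frobenius_lift (A := A) p σ hσ
  induction j with
  | zero => exact ⟨RingHom.id A, fun a => rfl, fun a => by simp⟩
  | succ j ih =>
    obtain ⟨t, ht1, ht2⟩ := ih
    refine ⟨s.comp t, fun a => ?_, fun a => ?_⟩
    · rw [RingHom.comp_apply, hs1, ht1, pow_succ', AlgEquiv.mul_apply]
    · rw [RingHom.comp_apply, hs2, ht2, ← pow_mul, ← pow_succ]

end Gal

end Fermat.Agent.S40

end
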