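import Mathlib
import Fermat.Prelude.Def_ModularCurve_ReductionModL
import Fermat.Agent.S18.GR_RedAPI
import Fermat.Agent.S18.RR_Riemann
import Fermat.Agent.S18.h39_Mod

/-!
# S40 / (BRIDGE) B3, leaf: the zero divisor of a chart reduces to the zero divisor (helper73)

`r_* (x - a)_0 = (x̄ - ā)_0` for a map of places `r` which is compatible with the divisor of
`x - a`, when `x`, `x̄` are charts of the same degree:

* `h73_mapDomain_zeroDiv` : generic statement (pointwise `≥` by compatibility and positivity,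
  equal totals by the fibre sums `h75_fibre_main` on both sides);
* `h73_exists_zeroDiv` : the zero divisor of `x - a` exists;
* `h73_placeRed_zeroDiv` : for a place reduction `S : h39_PlaceRed R` and a weak chart `x`;
* `h73_jZeroDiv` : for the Prelude's `IsPlaceReductionModL A M r` and `j` at every level `M`
  prime to `p`: `r_* (j)_0 = (j̄)_0`.
-/

set_option autoImplicit false
set_option synthInstance.maxHeartbeats 400000

noncomputable section

open AlgebraicCurve IntermediateField ModularCurve

namespace Fermat.Agent.S40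

open Fermat.Agent.S18 Fermat.Agent.S24

local notation "Qb" => AlgebraicClosure ℚ

section Sign

variable {α β : Type*}

theorem h73_mapDomain_apply_eq_sum (r : α → β) (W : α →₀ ℤ) (b : β) :
    Finsupp.mapDomain r W b = ∑ a ∈ W.support, (Finsupp.single (r a) (W a) : β →₀ ℤ) b := by
  rw [Finsupp.mapDomain, Finsupp.sum, Finsupp.finsetSum_apply]

theorem h73_mapDomain_nonpos (r : α → β) (W : α →₀ ℤ) (hW : ∀ a, W a ≤ 0) (b : β) :
    Finsupp.mapDomain r W b ≤ 0 := by
  classical
  rw [h73_mapDomain_apply_eq_sum]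
  refine Finset.sum_nonpos fun a _ => ?_
  rw [Finsupp.single_apply]
  split_ifs
  · exact hW a
  · exact le_rfl

theorem h73_mapDomain_nonneg (r : α → β) (W : α →₀ ℤ) (hW : ∀ a, 0 ≤ W a) (b : β) :
    0 ≤ Finsupp.mapDomain r W b := by
  classical
  rw [h73_mapDomain_apply_eq_sum]
  refine Finset.sum_nonneg fun a _ => ?_
  rw [Finsupp.single_apply]
  split_ifs
  · exact hW a
  · exact le_rfl

end Sign

section Generic

variable {K F k Fb : Type*} [Field K] [Field F] [Algebra K F] [Field k] [Field Fb] [Algebra k Fb]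

/-- The zero divisor of `x - a` exists for a chart `x`. -/
theorem h73_exists_zeroDiv [IsAlgClosed K] {x : F} (hx : h75_IsChart K x) (a : K) :
    ∃ Z : Divisor K F, ∀ P : Place K F, Z P = max (P.ord (x - algebraMap K F a)) 0 := by
  classical
  obtain ⟨s, hs, -⟩ := h75_fibre_main hx a
  refine ⟨Finsupp.onFinset s (fun P => max (P.ord (x - algebraMap K F a)) 0) ?_, fun P => rfl⟩
  intro P hP
  rw [hs]
  by_contra h
  exact hP (max_eq_right (not_lt.mp h))

/-- **The zero divisor of a chart reduces to the zero divisor of the reduced chart.**  `r` is any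
map of places which sends the divisor of `x - a` to the divisor of `x̄ - ā`. -/
theorem h73_mapDomain_zeroDiv [IsAlgClosed K] [IsAlgClosed k] {x : F} (hx : h75_IsChart K x)
    {xb : Fb} (hxb : h75_IsChart k xb)
    (hdeg : Module.finrank k⟮xb⟯ Fb = Module.finrank K⟮x⟯ F) (a : K) (ab : k)
    (r : Place K F → Place k Fb) (D : Divisor K F)
    (hD : ∀ P : Place K F, D P = P.ord (x - algebraMap K F a))
    (hcompat : ∀ Q : Place k Fb, Finsupp.mapDomain r D Q = Q.ord (xb - algebraMap k Fb ab))
    (Z : Divisor K F) (hZ : ∀ P : Place K F, Z P = max (P.ord (x - algebraMap K F a)) 0)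
    (Q : Place k Fb) :
    Finsupp.mapDomain r Z Q = max (Q.ord (xb - algebraMap k Fb ab)) 0 := by
  classical
  obtain ⟨s, hs, hsum⟩ := h75_fibre_main hx a
  obtain ⟨sb, hsb, hsumb⟩ := h75_fibre_main hxb ab
  -- the lower bound
  have hge : ∀ Q : Place k Fb,
      max (Q.ord (xb - algebraMap k Fb ab)) 0 ≤ Finsupp.mapDomain r Z Q := by
    intro Q
    have h1 : 0 ≤ Finsupp.mapDomain r Z Q :=
      h73_mapDomain_nonneg r Z (fun P => by rw [hZ]; exact le_max_right _ _) Q
    have h2 : Finsupp.mapDomain r (D - Z) Q ≤ 0 :=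
      h73_mapDomain_nonpos r (D - Z) (fun P => by
        rw [Finsupp.sub_apply, hD, hZ]
        have := le_max_left (P.ord (x - algebraMap K F a)) 0
        omega) Q
    have h3 : Finsupp.mapDomain r (D - Z) Q
        = Finsupp.mapDomain r D Q - Finsupp.mapDomain r Z Q := by
      have := map_sub (Finsupp.mapDomain.addMonoidHom (M := ℤ) r) D Z
      simp only [Finsupp.mapDomain.addMonoidHom_apply] at this
      rw [this, Finsupp.sub_apply]
    rw [h3, hcompat] at h2
    exact max_le (by omega) h1
  -- the totals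
  have htot : (Finsupp.mapDomain r Z).sum (fun _ m => m) = (Module.finrank K⟮x⟯ F : ℤ) := by
    rw [Finsupp.sum_mapDomain_index (fun _ => rfl) (fun _ _ _ => rfl), ← hsum]
    have hsub : Z.support ⊆ s := by
      intro P hP
      rw [Finsupp.mem_support_iff, hZ] at hP
      rw [hs]
      by_contra h
      exact hP (max_eq_right (not_lt.mp h))
    rw [Finsupp.sum_of_support_subset Z hsub (fun _ m => m) (fun _ _ => rfl)]
    refine Finset.sum_congr rfl fun P hP => ?_
    rw [hZ]
    exact max_eq_left ((hs P).mp hP).le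
  set G := Finsupp.mapDomain r Z with hG
  set T := G.support ∪ sb with hT
  have hsumG : ∑ Q ∈ T, G Q = (Module.finrank K⟮x⟯ F : ℤ) := by
    rw [← htot]
    exact (Finsupp.sum_of_support_subset G Finset.subset_union_left (fun _ m => m)
      (fun _ _ => rfl)).symm
  have hsumZb : ∑ Q ∈ T, max (Q.ord (xb - algebraMap k Fb ab)) 0
      = (Module.finrank K⟮x⟯ F : ℤ) := by
    rw [← hdeg, ← hsumb]
    symm
    rw [← Finset.sum_subset (Finset.subset_union_right : sb ⊆ T)]
    · refine Finset.sum_congr rfl fun Q hQ => ?_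
      exact (max_eq_left ((hsb Q).mp hQ).le).symm
    · intro Q _ hQ
      exact max_eq_right (not_lt.mp (fun h => hQ ((hsb Q).mpr h)))
  have heq := (Finset.sum_eq_sum_iff_of_le (fun Q _ => hge Q)).mp (hsumZb.trans hsumG.symm)
  by_cases hQ : Q ∈ T
  · exact (heq Q hQ).symm
  · have h1 : G Q = 0 := by
      by_contra h
      exact hQ (Finset.mem_union_left _ (Finsupp.mem_support_iff.mpr h))
    have h2 : ¬ 0 < Q.ord (xb - algebraMap k Fb ab) :=
      fun h => hQ (Finset.mem_union_right _ ((hsb Q).mpr h))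
    rw [h1, max_eq_right (not_lt.mp h2)]

/-- The case `a = 0`: `r_* (x)_0 = (x̄)_0`. -/
theorem h73_mapDomain_zeroDiv_zero [IsAlgClosed K] [IsAlgClosed k] {x : F}
    (hx : h75_IsChart K x) {xb : Fb} (hxb : h75_IsChart k xb)
    (hdeg : Module.finrank k⟮xb⟯ Fb = Module.finrank K⟮x⟯ F)
    (r : Place K F → Place k Fb) (D : Divisor K F) (hD : ∀ P : Place K F, D P = P.ord x)
    (hcompat : ∀ Q : Place k Fb, Finsupp.mapDomain r D Q = Q.ord xb)
    (Z : Divisor K F) (hZ : ∀ P : Place K F, Z P = max (P.ord x) 0) (Q : Place k Fb) :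
    Finsupp.mapDomain r Z Q = max (Q.ord xb) 0 := by
  have h := h73_mapDomain_zeroDiv hx hxb hdeg 0 0 r D
    (fun P => by rw [map_zero, sub_zero]; exact hD P)
    (fun Q => by rw [map_zero, sub_zero]; exact hcompat Q) Z
    (fun P => by rw [map_zero, sub_zero]; exact hZ P) Q
  rwa [map_zero, sub_zero] at h

/-- For a place reduction of a reduction datum and a weak chart `x`: `r0_* (x)_0 = (x̄)_0`. -/
theorem h73_placeRed_zeroDiv [IsAlgClosed K] [CharZero K] [IsAlgClosed k]
    (R : h39_RedDatum K F k Fb) (S : h39_PlaceRed R) {x : F} (hx : h39_WeakChart R x)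
    (Z : Divisor K F) (hZ : ∀ P : Place K F, Z P = max (P.ord x) 0) (Q : Place k Fb) :
    Finsupp.mapDomain S.r0 Z Q = max (Q.ord (R.redF x)) 0 := by
  have hxK := h39_weakChart_isChart R hx
  have hxk := h39_weakChart_isChart_red R hx
  obtain ⟨D, hD⟩ := h7_exists_div hxK x hxK.ne_zero
  have hred : R.red ⟨x, hx.mem⟩ = R.redF x := (R.redF_of_mem hx.mem).symm
  have hne : R.red ⟨x, hx.mem⟩ ≠ 0 := by
    rw [hred]
    exact hxk.ne_zero
  refine h73_mapDomain_zeroDiv_zero hxK hxk hx.finrank_eq S.r0 D hD (fun Q => ?_) Z hZ Q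
  rw [S.compat x hx.mem hne D hD Q, hred]

end Generic

section Modular

variable (M : ℕ) [NeZero M] {p : ℕ} [Fact p.Prime]

/-- **`r_* (j)_0 = (j̄)_0`** for any place reduction in the sense of the Prelude, at every level
`M` prime to `p`. -/
theorem h73_jZeroDiv (hpM : ¬ p ∣ M) (A : ValuationSubring Qb) (hA : A.LiesOverPrime p)
    (r : Place Qb (modularFunctionFieldBar M) →
      Place (IsLocalRing.ResidueField A) (modularFunctionFieldFullC (IsLocalRing.ResidueField A) M))
    (hr : IsPlaceReductionModL A M r)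
    (Z : Divisor Qb (modularFunctionFieldBar M))
    (hZ : ∀ P : Place Qb (modularFunctionFieldBar M), Z P = max (P.ord (h59_jbar M)) 0)
    (Q : Place (IsLocalRing.ResidueField A)
      (modularFunctionFieldFullC (IsLocalRing.ResidueField A) M)) :
    Finsupp.mapDomain r Z Q = max (Q.ord (h54_jk (IsLocalRing.ResidueField A) M)) 0 := by
  have : IsAlgClosed (IsLocalRing.ResidueField A) := h19_residueField_isAlgClosed A
  have hw := h39_modRed_weakChart_j M hpM A hA
  have hredj := h54_redF_jbar (h39_modRed_spec M hpM A hA)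
  have hxK := h39_weakChart_isChart (h39_modRed M hpM A hA) hw
  have hxk := h39_weakChart_isChart_red (h39_modRed M hpM A hA) hw
  have hdeg := hw.finrank_eq
  rw [hredj] at hxk hdeg
  obtain ⟨D, hD⟩ := h7_exists_div hxK (h59_jbar M) hxK.ne_zero
  have hy : coeffMap A.subtype (jqModC A) ∈ modularFunctionFieldBar M := by
    rw [← h54_coe_jbar M A]
    exact (h59_jbar M).2
  have hyk : coeffMap (IsLocalRing.residue A) (jqModC A)
      ∈ modularFunctionFieldFullC (IsLocalRing.ResidueField A) M := by
    rw [coeffMap_jqModC]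
    exact jqModC_mem_full _ M
  have e1 : (⟨coeffMap A.subtype (jqModC A), hy⟩ : modularFunctionFieldBar M) = h59_jbar M :=
    Subtype.ext (h54_coe_jbar M A).symm
  have e2 : (⟨coeffMap (IsLocalRing.residue A) (jqModC A), hyk⟩ :
      modularFunctionFieldFullC (IsLocalRing.ResidueField A) M)
      = h54_jk (IsLocalRing.ResidueField A) M :=
    Subtype.ext (coeffMap_jqModC (IsLocalRing.residue A))
  have hne : coeffMap (IsLocalRing.residue A) (jqModC A) ≠ 0 := by
    rw [coeffMap_jqModC]
    exact jqModC_ne_zero_of_nontrivial _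
  refine h73_mapDomain_zeroDiv_zero hxK hxk hdeg r D hD (fun Q => ?_) Z hZ Q
  have h := hr.2 (jqModC A) hy hyk hne D (fun P => by rw [hD P, e1]) Q
  rw [h, e2]

end Modular

end Fermat.Agent.S40

end
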