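/-
G40 / S44, E-side, multiplicative case (helper76): the generic E-side core for a point `D` with
NONSINGULAR REDUCTION AT THE POINT (no hypothesis on the discriminant beyond `Δ ≠ 0`, no torsion
hypothesis on `D`).

* `h76_FY_unit_or_two_mem` : `D = (x, y)` integral with nonsingular reduction at `D`  ⟹
    `2 y + a₁ x + a₃` is a unit  or  `2 • D ∈ E₁`
    (the proof of `h57_D_unit` with the nonsingularity of the reduction as a hypothesis).
* `h76_E_core_FY` : `h13_E_core_sharp` with `Δ ≠ 0` and the hypothesis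
    "`x ∈ A → 2 y + a₁ x + a₃` is a unit" in place of "unit discriminant, `p • P = 0`".
* `h76_E_core_ns` : the combined form for an additive action `φ` of the group on the points:
    `D` any point with nonsingular reduction at `D` (if integral), fixed by the stabiliser of
    `θ`, `φ g D = D + R`, `R ∈ E₁[p] ∖ 0`  ⟹  `False`.
    When `2 y + a₁ x + a₃` is not a unit, the argument runs on `2 • D ∈ E₁` and `2 • R`
    (no chord estimate in the `y`-coordinate is needed).
* `h76_E_core_shortW` : the same on the model `Y² = X³ + a X² + b X` in the vocabulary of the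
    S05 files (`IsN`, `IsE1`, nonsingularity in the shape of `ns_of_mult`).
-/
import Fermat.Agent.S40.h13_ECoreSharp
import Fermat.Agent.S05.Defs

set_option autoImplicit false

namespace Fermat.Agent.S40

open WeierstrassCurve WeierstrassCurve.Affine Fermat.Agent.S05

section unit

variable {K : Type*} [Field K] [DecidableEq K] (A : ValuationSubring K) (W : WeierstrassCurve K)

/-- An integral point `D = (x, y)` whose reduction is a nonsingular point: either
`2 y + a₁ x + a₃` is a unit, or `2 • D` lies in the kernel of reduction. -/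
theorem h76_FY_unit_or_two_mem (hW : h86_Integral A W) {x y : K}
    (hP : W.toAffine.Nonsingular x y) (hx : x ∈ A)
    (hns : ¬ (W.toAffine.polynomialX.evalEval x y ∈ A.nonunits ∧
      W.toAffine.polynomialY.evalEval x y ∈ A.nonunits)) :
    A.valuation (2 * y + W.a₁ * x + W.a₃) = 1 ∨
      2 • Affine.Point.some x y hP ∈ h86_E1 A W hW := by
  have hW' := hW
  obtain ⟨h1, h2, h3, h4, h6⟩ := hW'
  have hW18 : h18_Integral A W.toAffine := ⟨h1, h2, h3, h4, h6⟩
  have hy : y ∈ A := h18_y_mem hW18 hP.1 hx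
  have hD : 2 * y + W.a₁ * x + W.a₃ ∈ A :=
    A.add_mem _ _ (A.add_mem _ _ (A.mul_mem _ _ (ofNat_mem A 2) hy) (A.mul_mem _ _ h1 hx)) h3
  by_cases hne : A.valuation (2 * y + W.a₁ * x + W.a₃) = 1
  · exact Or.inl hne
  right
  have hlt : A.valuation (2 * y + W.a₁ * x + W.a₃) < 1 :=
    lt_of_le_of_ne ((A.valuation_le_one_iff _).mpr hD) hne
  have hneg : W.toAffine.Nonsingular x (W.toAffine.negY x y) :=
    (Affine.nonsingular_neg ..).mpr hP
  have hxx : x - x ∈ A.nonunits := by
    rw [sub_self, A.mem_nonunits_iff, map_zero]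
    exact zero_lt_one
  have hyy : W.toAffine.negY x y - y ∈ A.nonunits := by
    have e : W.toAffine.negY x y - y = -(2 * y + W.a₁ * x + W.a₃) := by
      simp only [Affine.negY]; ring
    rw [e, A.mem_nonunits_iff, Valuation.map_neg]
    exact hlt
  have key := h18_sub_mem_E1 hW18 hP hneg hx hy hxx hyy hns
  have hmem : Affine.Point.some x (W.toAffine.negY x y) hneg - Affine.Point.some x y hP ∈
      h86_E1 A W hW := (h86_mem_E1_iff A W hW _).mpr key
  have e : 2 • Affine.Point.some x y hP =
      -(Affine.Point.some x (W.toAffine.negY x y) hneg - Affine.Point.some x y hP) := by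
    have hnegP : Affine.Point.some x (W.toAffine.negY x y) hneg =
        -(Affine.Point.some x y hP) := rfl
    rw [hnegP, two_nsmul]
    abel
  rw [e]
  exact neg_mem hmem

end unit

section core

variable {K : Type*} [Field K] [DecidableEq K] (A : ValuationSubring K) (W : WeierstrassCurve K)
  {Γ : Type*} [Group Γ] [MulSemiringAction Γ K] (G : Subgroup Γ)

/-- **E-side core at a point.**  `h13_E_core_sharp` without the unit discriminant and without
the torsion hypothesis on `P = (x, y)`: it is enough that `W.Δ ≠ 0` and that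
`2 y + a₁ x + a₃` is a unit whenever `P` is integral. -/
theorem h76_E_core_FY [IsAlgClosed K] (hW : h86_Integral A W) (hΔ : W.Δ ≠ 0)
    {p : ℕ} (hp : p.Prime) (hp2 : p ≠ 2) (hB : A.LiesOverPrime p) (hpK : (p : K) ≠ 0)
    {ζ θ : K} (hζ : ζ ^ p = 1) (hζ1 : ζ ≠ 1) (hζG : ∀ h ∈ G, h • ζ = ζ)
    (hθ0 : θ ≠ 0) (hθG : ∀ h ∈ G, ∃ j : ℕ, h • θ = ζ ^ j * θ)
    {g : Γ} (hg : g ∈ G) (hgθ : g • θ = ζ * θ)
    (hval : ∀ c : K, (∀ h ∈ G, h • c = c) → c ≠ 0 → ∀ l : ℕ, 0 < l → l < p →
      A.valuation c ≠ A.valuation θ ^ l)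
    {x y : K} (hP : W.toAffine.Nonsingular x y)
    (hP' : W.toAffine.Nonsingular (g • x) (g • y))
    (hfix : ∀ h ∈ G, h • θ = θ → h • x = x ∧ h • y = y)
    (hDu : x ∈ A → A.valuation (2 * y + W.a₁ * x + W.a₃) = 1)
    {R : W.toAffine.Point}
    (hR : Affine.Point.some (g • x) (g • y) hP' = Affine.Point.some x y hP + R)
    (hRE1 : R ∈ h86_E1 A W hW) (hR0 : R ≠ 0) (hRp : p • R = 0) :
    False := by
  have hv : ∀ a : K, a ∈ A → A.valuation a ≤ 1 := fun a ha => (A.valuation_le_one_iff a).mpr ha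
  have hW' := hW
  obtain ⟨h1, h2, h3, h4, h6⟩ := hW'
  -- the depth
  have hdepth : A.valuation (ζ - 1) ≤ A.valuation (h86_t W R) := by
    rcases R with _ | ⟨x₂, y₂, hR₂⟩
    · exact absurd rfl hR0
    · have hx₂ : 1 < A.valuation x₂ := hRE1
      have hs := h13_sharp_t A W hW hΔ hp hp2 hB hR₂ hx₂ hRp
      rw [h76_val_p_eq A.valuation hp hζ1 hζ] at hs
      rw [h86_t_some]
      by_contra hlt
      rw [not_le] at hlt
      have hp1 : p - 1 ≠ 0 := by have := hp.two_le; omega
      exact absurd hs (not_le.mpr (pow_lt_pow_left₀ hlt zero_le hp1))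
  have hpos : 0 < A.valuation (ζ - 1) :=
    zero_lt_iff.mpr (A.valuation.ne_zero_iff.mpr (sub_ne_zero.mpr hζ1))
  by_cases hx : x ∈ A
  · -- `P` integral: use the `x`-coordinate
    have hDu' := hDu hx
    rcases R with _ | ⟨x₂, y₂, hR₂⟩
    · exact absurd rfl hR0
    · have hx₂ : 1 < A.valuation x₂ := hRE1
      obtain ⟨x₃, y₃, h₃, hadd, -, hEq⟩ := h57_add_x A.valuation W (hv _ h1) (hv _ h2)
        (hv _ h3) (hv _ h4) (hv _ h6) hP hR₂ (hv _ hx) hx₂
      rw [hadd] at hR
      have hx₃ : g • x = x₃ := by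
        rw [Affine.Point.some.injEq] at hR
        exact hR.1
      have hval1 : A.valuation (g • x - x) =
          A.valuation (h86_t W (Affine.Point.some x₂ y₂ hR₂)) := by
        rw [hx₃, hEq hDu']
        rfl
      have hlt := h57_kummer_eisenstein A.valuation G hp hpK hζ hζ1 hζG hθ0 hθG hg hgθ hval
        (a := x) (fun h hh hhθ => (hfix h hh hhθ).1) (hv _ hx)
      rw [hval1] at hlt
      exact absurd hdepth (not_le.mpr hlt)
  · -- `P` in the kernel of reduction: use `t = x / y`
    have hPE1 : Affine.Point.some x y hP ∈ h86_E1 A W hW :=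
      (h86_some_mem_E1_iff A W hW hP).mpr hx
    have hP'E1 : Affine.Point.some (g • x) (g • y) hP' ∈ h86_E1 A W hW := by
      rw [hR]
      exact add_mem hPE1 hRE1
    have hd := h95_t_sub A.valuation W (hv _ h1) (hv _ h2) (hv _ h3) (hv _ h4) (hv _ h6)
      (P := Affine.Point.some x y hP) (P' := Affine.Point.some (g • x) (g • y) hP') hPE1 hP'E1
    have e : Affine.Point.some (g • x) (g • y) hP' - Affine.Point.some x y hP = R := by
      rw [hR, add_sub_cancel_left]
    rw [e] at hd
    have hta : A.valuation (x / y) ≤ 1 :=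
      (h86_t_lt_one A.valuation W (hv _ h1) (hv _ h2) (hv _ h3) (hv _ h4) (hv _ h6)
        (P := Affine.Point.some x y hP) hPE1).le
    have hlt := h57_kummer_eisenstein A.valuation G hp hpK hζ hζ1 hζG hθ0 hθG hg hgθ hval
      (a := x / y)
      (fun h hh hhθ => by rw [h57_smul_div, (hfix h hh hhθ).1, (hfix h hh hhθ).2]) hta
    rw [h57_smul_div] at hlt
    have hd' : A.valuation (h86_t W R) = A.valuation (g • x / g • y - x / y) := hd
    rw [← hd'] at hlt
    exact absurd hdepth (not_le.mpr hlt)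

/-- **E-side core for a point with nonsingular reduction.**  `φ` an additive action of the group
on the points compatible with the action on coordinates.  A point `D`, fixed by the stabiliser
of the Kummer generator `θ` (très ramifié position) and with nonsingular reduction at `D` when
`D` is integral, cannot satisfy `φ g D = D + R` with `R ≠ 0` a `p`-torsion point of the kernel
of reduction. -/
theorem h76_E_core_ns [IsAlgClosed K] (hW : h86_Integral A W) (hΔ : W.Δ ≠ 0)
    {p : ℕ} (hp : p.Prime) (hp2 : p ≠ 2) (hB : A.LiesOverPrime p) (hpK : (p : K) ≠ 0)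
    {ζ θ : K} (hζ : ζ ^ p = 1) (hζ1 : ζ ≠ 1) (hζG : ∀ h ∈ G, h • ζ = ζ)
    (hθ0 : θ ≠ 0) (hθG : ∀ h ∈ G, ∃ j : ℕ, h • θ = ζ ^ j * θ)
    {g : Γ} (hg : g ∈ G) (hgθ : g • θ = ζ * θ)
    (hval : ∀ c : K, (∀ h ∈ G, h • c = c) → c ≠ 0 → ∀ l : ℕ, 0 < l → l < p →
      A.valuation c ≠ A.valuation θ ^ l)
    (φ : Γ → W.toAffine.Point →+ W.toAffine.Point)
    (hφ : ∀ (h : Γ) (x y : K) (hxy : W.toAffine.Nonsingular x y),
      ∃ hxy' : W.toAffine.Nonsingular (h • x) (h • y),
        φ h (Affine.Point.some x y hxy) = Affine.Point.some (h • x) (h • y) hxy')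
    (D : W.toAffine.Point)
    (hDfix : ∀ h ∈ G, h • θ = θ → φ h D = D)
    (hns : ∀ (x y : K) (hxy : W.toAffine.Nonsingular x y), D = Affine.Point.some x y hxy →
      x ∈ A → ¬ (W.toAffine.polynomialX.evalEval x y ∈ A.nonunits ∧
        W.toAffine.polynomialY.evalEval x y ∈ A.nonunits))
    {R : W.toAffine.Point} (hR : φ g D = D + R)
    (hRE1 : R ∈ h86_E1 A W hW) (hR0 : R ≠ 0) (hRp : p • R = 0) :
    False := by
  -- coordinates of a `φ`-fixed affine point are fixed
  have hcoord : ∀ (h : Γ) (x y : K) (hxy : W.toAffine.Nonsingular x y),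
      φ h (Affine.Point.some x y hxy) = Affine.Point.some x y hxy → h • x = x ∧ h • y = y := by
    intro h x y hxy hfixed
    obtain ⟨hxy', e⟩ := hφ h x y hxy
    rw [e, Affine.Point.some.injEq] at hfixed
    exact hfixed
  rcases D with _ | ⟨x, y, hxy⟩
  · -- `D = 0`
    have h0 : φ g (0 : W.toAffine.Point) = 0 := map_zero _
    have hR' : φ g (0 : W.toAffine.Point) = 0 + R := hR
    rw [h0, zero_add] at hR'
    exact hR0 hR'.symm
  · obtain ⟨hxy', e⟩ := hφ g x y hxy
    have hfix : ∀ h ∈ G, h • θ = θ → h • x = x ∧ h • y = y :=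
      fun h hh hhθ => hcoord h x y hxy (hDfix h hh hhθ)
    have hR' : Affine.Point.some (g • x) (g • y) hxy' = Affine.Point.some x y hxy + R := by
      rw [← e]; exact hR
    by_cases hx : x ∈ A
    · rcases h76_FY_unit_or_two_mem A W hW hxy hx (hns x y hxy rfl hx) with hu | h2
      · exact h76_E_core_FY A W G hW hΔ hp hp2 hB hpK hζ hζ1 hζG hθ0 hθG hg hgθ hval hxy hxy'
          hfix (fun _ => hu) hR' hRE1 hR0 hRp
      · -- `2 • D ∈ E₁`: run the argument on `2 • D` and `2 • R`
        have hR2 : φ g (2 • Affine.Point.some x y hxy) =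
            2 • Affine.Point.some x y hxy + 2 • R := by
          rw [map_nsmul, hR, nsmul_add]
        have hR2E : 2 • R ∈ h86_E1 A W hW := nsmul_mem hRE1 2
        have hodd : p % 2 = 1 := by
          rcases hp.eq_two_or_odd with h | h
          · exact absurd h hp2
          · exact h
        have hR20 : 2 • R ≠ 0 := by
          intro h0
          apply hR0
          have e2 : R = ((p + 1) / 2) • (2 • R) := by
            rw [← mul_nsmul, show 2 * ((p + 1) / 2) = p + 1 by omega, add_nsmul, hRp, zero_add,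
              one_nsmul]
          rw [e2, h0, nsmul_zero]
        have hR2p : p • (2 • R) = 0 := by
          rw [← mul_nsmul, mul_comm, mul_nsmul, hRp, nsmul_zero]
        have hfix2 : ∀ h ∈ G, h • θ = θ →
            φ h (2 • Affine.Point.some x y hxy) = 2 • Affine.Point.some x y hxy := by
          intro h hh hhθ
          rw [map_nsmul, hDfix h hh hhθ]
        generalize hD2 : 2 • Affine.Point.some x y hxy = D2 at h2 hR2 hfix2
        rcases D2 with _ | ⟨x', y', hxy2⟩
        · have h0 : φ g (0 : W.toAffine.Point) = 0 := map_zero _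
          have hR2' : φ g (0 : W.toAffine.Point) = 0 + 2 • R := hR2
          rw [h0, zero_add] at hR2'
          exact hR20 hR2'.symm
        · obtain ⟨hxy2', e2⟩ := hφ g x' y' hxy2
          have hx' : x' ∉ A := (h86_some_mem_E1_iff A W hW hxy2).mp h2
          have hR2' : Affine.Point.some (g • x') (g • y') hxy2' =
              Affine.Point.some x' y' hxy2 + 2 • R := by
            rw [← e2]; exact hR2
          exact h76_E_core_FY A W G hW hΔ hp hp2 hB hpK hζ hζ1 hζG hθ0 hθG hg hgθ hval hxy2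
            hxy2' (fun h hh hhθ => hcoord h x' y' hxy2 (hfix2 h hh hhθ))
            (fun hxA => absurd hxA hx') hR2' hR2E hR20 hR2p
    · exact h76_E_core_FY A W G hW hΔ hp hp2 hB hpK hζ hζ1 hζG hθ0 hθG hg hgθ hval hxy hxy'
        hfix (fun hxA => absurd hxA hx) hR' hRE1 hR0 hRp

/-- **E-side core on the model `Y² = X³ + a X² + b X`**, in the vocabulary of the S05 files:
`D` a point which does not reduce to the node (`¬ IsN`), the reduction being nonsingular at the
integral points with `v X = 1` (hypothesis in the shape of `ns_of_mult` / `ns_of_good`),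
`D` fixed by the stabiliser of `θ`, `φ g D = D + R` with `R ≠ 0` a `p`-torsion point of the
kernel of reduction (`IsE1`)  ⟹  `False`. -/
theorem h76_E_core_shortW [IsAlgClosed K] (a b : K) (h2 : A.valuation (2 : K) = 1)
    (ha : A.valuation a ≤ 1) (hb : A.valuation b ≤ 1) (hΔ : (shortW a b).Δ ≠ 0)
    {p : ℕ} (hp : p.Prime) (hp2 : p ≠ 2) (hB : A.LiesOverPrime p) (hpK : (p : K) ≠ 0)
    {ζ θ : K} (hζ : ζ ^ p = 1) (hζ1 : ζ ≠ 1) (hζG : ∀ h ∈ G, h • ζ = ζ)
    (hθ0 : θ ≠ 0) (hθG : ∀ h ∈ G, ∃ j : ℕ, h • θ = ζ ^ j * θ)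
    {g : Γ} (hg : g ∈ G) (hgθ : g • θ = ζ * θ)
    (hval : ∀ c : K, (∀ h ∈ G, h • c = c) → c ≠ 0 → ∀ l : ℕ, 0 < l → l < p →
      A.valuation c ≠ A.valuation θ ^ l)
    (φ : Γ → (shortW a b).toAffine.Point →+ (shortW a b).toAffine.Point)
    (hφ : ∀ (h : Γ) (X Y : K) (hXY : (shortW a b).toAffine.Nonsingular X Y),
      ∃ hXY' : (shortW a b).toAffine.Nonsingular (h • X) (h • Y),
        φ h (Affine.Point.some X Y hXY) = Affine.Point.some (h • X) (h • Y) hXY')
    (D : (shortW a b).toAffine.Point)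
    (hDfix : ∀ h ∈ G, h • θ = θ → φ h D = D)
    (hDN : ¬ IsN a b A D)
    (hns : ∀ {X Y : K}, (shortW a b).toAffine.Equation X Y → A.valuation X = 1 →
      ¬ (A.valuation Y < 1 ∧ A.valuation (3 * X ^ 2 + 2 * a * X + b) < 1))
    {R : (shortW a b).toAffine.Point} (hR : φ g D = D + R)
    (hRE1 : IsE1 a b A R) (hR0 : R ≠ 0) (hRp : p • R = 0) :
    False := by
  have haA : a ∈ A := (A.valuation_le_one_iff a).mp ha
  have hbA : b ∈ A := (A.valuation_le_one_iff b).mp hb
  have hW : h86_Integral A (shortW a b) :=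
    ⟨A.zero_mem, haA, A.zero_mem, hbA, A.zero_mem⟩
  refine h76_E_core_ns A (shortW a b) G hW hΔ hp hp2 hB hpK hζ hζ1 hζG hθ0 hθG hg hgθ hval φ hφ D
    hDfix ?_ hR ?_ hR0 hRp
  · rintro X Y hXY rfl hX ⟨hpX, hpY⟩
    have hX1 : A.valuation X = 1 := by
      refine le_antisymm ((A.valuation_le_one_iff X).mpr hX) ?_
      by_contra hlt
      exact hDN ⟨X, Y, hXY, rfl, not_le.mp hlt⟩
    apply hns hXY.1 hX1
    constructor
    · rw [Affine.evalEval_polynomialY, A.mem_nonunits_iff] at hpY
      have e : 2 * Y + (shortW a b).toAffine.a₁ * X + (shortW a b).toAffine.a₃ = 2 * Y := by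
        change 2 * Y + (0 : K) * X + 0 = 2 * Y
        ring
      rw [e, map_mul, h2, one_mul] at hpY
      exact hpY
    · rw [Affine.evalEval_polynomialX, A.mem_nonunits_iff] at hpX
      have e : (shortW a b).toAffine.a₁ * Y -
          (3 * X ^ 2 + 2 * (shortW a b).toAffine.a₂ * X + (shortW a b).toAffine.a₄) =
          -(3 * X ^ 2 + 2 * a * X + b) := by
        change (0 : K) * Y - (3 * X ^ 2 + 2 * a * X + b) = -(3 * X ^ 2 + 2 * a * X + b)
        ring
      rw [e, Valuation.map_neg] at hpX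
      exact hpX
  · change h86_inE1 A.valuation (shortW a b) R
    rw [h86_inE1_iff]
    exact hRE1

end core

end Fermat.Agent.S40
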