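import Mathlib
import Fermat.Agent.S40.h77_T10
import Fermat.Agent.S40.h68_Eig

/-!
# S40 / (BRIDGE): T10, closed (helper77)

`h77_t10_x` : level `M` prime to `p` (charted), `x = [E]` a class of `J₀(M p)(ℚ̄)` with
`p E = div u`, `u` a unit of the first reduction `R₁` of level `M p`, `T_ℓ x = a_ℓ x` for the good
primes `ℓ`; `P₀` a Hecke polynomial of level `M` killing `J₀(M)[p^∞]` with `p ∤ P₀(a)`.
If `div (red₁ u) ∈ p Div` on the special fibre of level `M`, then `red₁ u` is a `p`-th power.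

No open hypothesis of the (BRIDGE) row is left: (EIG-f) is `h68_hecke_rel` + `h68_eig_fun`.
-/

set_option autoImplicit false
set_option synthInstance.maxHeartbeats 400000

noncomputable section

open AlgebraicCurve ModularCurve

namespace Fermat.Agent.S40

open Fermat.Agent.S18 Fermat.Agent.S24 Fermat.Agent.S27 Fermat.Agent.S37 Fermat.Agent.GAL
  Fermat.Agent.S34

local notation "Qb" => AlgebraicClosure ℚ

/-- **T10 (BRIDGE), closed.** -/
theorem h77_t10_x (M p : ℕ) [NeZero M] [NeZero p] [Fact p.Prime] (hpM : ¬ p ∣ M)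
    (A : ValuationSubring Qb) (hA : A.LiesOverPrime p) (hch : 5 ≤ p ∨ 2 ∣ M ∨ 3 ∣ M)
    (good : ℕ → Prop) (hgM : ∀ ℓ : ℕ, good ℓ → ¬ ℓ ∣ M) (hgp : ¬ good p) (a : ℕ → ℤ)
    (P₀ : FreeAlgebra ℤ (h67_Good good))
    (hkill : ∀ (k : ℕ) (z : JZero M), p ^ k • z = 0 → h67_evJ M good P₀ z = 0)
    (hθ : ¬ (p : ℤ) ∣ h67_evZ good a P₀)
    (E : Divisor.degZero (K := Qb) (F := modularFunctionFieldBar (M * p)))
    (u : ↥(modularFunctionFieldBar (M * p))) (hu : u ∈ (h60_R1 M p hpM A hA).O)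
    (hune : (h60_R1 M p hpM A hA).redF u ≠ 0)
    (hE : ∀ v : Place Qb (modularFunctionFieldBar (M * p)),
      (p : ℤ) * (E : Divisor Qb (modularFunctionFieldBar (M * p))) v = v.ord u)
    (hT : ∀ ℓ : h67_Good good,
      heckeOperatorBar (M * p) ⟨ℓ.1, ℓ.2.1⟩ (Pic0.mk E) = a ℓ.1 • Pic0.mk E)
    (hdvd : ∀ Q : Place (IsLocalRing.ResidueField A)
      ↥(modularFunctionFieldFullC (IsLocalRing.ResidueField A) M),
      (p : ℤ) ∣ Q.ord ((h60_R1 M p hpM A hA).redF u)) :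
    ∃ w : ↥(modularFunctionFieldFullC (IsLocalRing.ResidueField A) M),
      w ≠ 0 ∧ (h60_R1 M p hpM A hA).redF u = w ^ p := by
  have hp : p.Prime := Fact.out
  have hredF : (h60_R1 M p hpM A hA).redF u = (h60_R1 M p hpM A hA).red ⟨u, hu⟩ :=
    (h60_R1 M p hpM A hA).redF_of_mem hu
  have hune' : (h60_R1 M p hpM A hA).red ⟨u, hu⟩ ≠ 0 := by
    rw [← hredF]
    exact hune
  have hu0 : u ≠ 0 := by
    rintro rfl
    exact hune' (map_zero (h60_R1 M p hpM A hA).red)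
  refine h77_t10 M hpM A hA hch good hgp a P₀ hkill hθ _ hune hdvd ?_
  intro ℓ _ g hg hgred
  have hℓp : ℓ.1 ≠ p := fun h => hgp (h ▸ ℓ.2.2)
  have hℓMp : ¬ ℓ.1 ∣ M * p := by
    intro h
    rcases ℓ.2.1.dvd_mul.mp h with h1 | h1
    · exact hgM ℓ.1 ℓ.2.2 h1
    · exact hℓp ((Nat.prime_dvd_prime_iff_eq ℓ.2.1 hp).mp h1)
  have hT' : heckeOperatorAlong Qb (M * p) ℓ.1 (Pic0.mk E) = a ℓ.1 • Pic0.mk E := hT ℓ
  obtain ⟨c, w, -, -, hrel⟩ := h68_hecke_rel (M * p) ℓ.1 p (a ℓ.1) E u hu0 hE hT'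
  obtain ⟨wb, hwb, H⟩ := h68_eig_fun M p hpM A hA ℓ.1 ℓ.2.1 hℓMp (h39_modRed_spec M hpM A hA)
    u hu hune' (a ℓ.1) p hp.ne_zero c w hrel
  have hgred' : (h39_modRed M hpM A hA).red ⟨g, hg⟩ = (h60_R1 M p hpM A hA).red ⟨u, hu⟩ := by
    rw [← (h39_modRed M hpM A hA).redF_of_mem hg, hgred, hredF]
  obtain ⟨hN, hNred⟩ := H g hg hgred'
  refine ⟨wb, hwb, hN, ?_⟩
  rw [hredF, ← hNred]
  exact (h39_modRed M hpM A hA).redF_of_mem hN

end Fermat.Agent.S40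

end
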