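import Mathlib
import Fermat.Agent.S18.h64_RankOne
import Fermat.Agent.S34.h87_ChartInst
import Fermat.Agent.S36.h6_ResK0
import Fermat.Agent.S36.h69_Rat
import Fermat.Agent.S40.h11_LatStarPair
import Fermat.Agent.S40.h11_LatStarMod
import Fermat.Agent.S40.h12_KummerEis
import Fermat.Agent.S40.h78_LatStarW
import Fermat.Agent.S40.h78_MinMod

/-!
# S40 / (TR) row W3 (LAT*): FINAL EXPORT at the level `Mq` (helper78)

`A` a valuation ring of `ℚ̄` over the odd prime `q ∤ M`, `I` its inertia group, `(z, w)` of the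
W0 form (`(1 + w)^q = 1 + q z`, `z` an `I`-fixed unit), `H = Stab_I(w)`,
`R₁ = h60_R1`, `R₂ = h60_R2`, `c : ℤ`, twisted lattice `Λ(c) = {f | f ∈ O₁ ∧ w^(-c) f ∈ O₂}`,
twisted reduction `ρ_c f = (red₁ f, red₂ (w^(-c) f))`.

The only hypotheses left are the two INT-BASE statements (`hint₁`, `hint₂`, in the binder shape
of helper47's `h47_int_base_R1`, `h47_int_base_R2`).

* `h78_W3_min₁`, `h78_W3_min₂` : (MIN) for `R₁`, `R₂` (from W0 + W1 + INT-BASE);
* `h78_W3_family` : helper11's `h11_latStar_mod` with (MIN) discharged;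
* `h78_W3_mod` : for an `H`-stable finite-dimensional `V`: the twisted reductions of `V ∩ Λ(c)`
  form a `k`-subspace `W` of `Fb × Fb` with `dim_k W = dim V`, every element of which is the
  twisted reduction of an `H`-FIXED element of `V ∩ Λ(c)`;
* `h78_W3_rr` : the case `V = L(E)`, `E` an `H`-invariant divisor;
* `h78_W3_rr_div` : the same with the twist written `f / t`, `t = w ^ c` (shape (M3) of W6).
-/

set_option autoImplicit false
set_option synthInstance.maxHeartbeats 400000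
set_option maxHeartbeats 1600000

noncomputable section

open AlgebraicCurve ModularCurve Module

namespace Fermat.Agent.S40

open Fermat.Agent.S18 Fermat.Agent.S34 Fermat.Agent.S36

local notation "Qb" => AlgebraicClosure ℚ

variable (M q : ℕ) [NeZero M] [NeZero q] [Fact q.Prime] (hqM : ¬ q ∣ M)
  (A : ValuationSubring Qb) (hA : A.LiesOverPrime q)

section Min

variable (hq2 : q ≠ 2) (ζ : Qb) (hζ : IsPrimitiveRoot ζ q) (z w : Qb)
  (hz : A.valuation z = 1) (hzI : ∀ g ∈ A.inertiaSubgroupIn ℚ, g z = z)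
  (hw : (1 + w) ^ q = 1 + (q : Qb) * z)
  (H : Subgroup (Qb ≃ₐ[ℚ] Qb))
  (hHw : ∀ σ ∈ A.inertiaSubgroupIn ℚ, σ w = w → σ ∈ H)

include hq2 hζ hz hzI hw hHw in
/-- (MIN) for the first component. -/
theorem h78_W3_min₁
    (hint₁ : ∀ f : ↥(modularFunctionFieldBar (M * q)), f ≠ 0 →
      (∀ σ ∈ A.inertiaSubgroupIn ℚ,
        arithmeticGalois (modularFunctionFieldFull (M * q)) σ • f = f) →
      ∃ m : ℤ, algebraMap Qb ↥(modularFunctionFieldBar (M * q)) ((q : Qb) ^ m) * f ∈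
          (h60_R1 M q hqM A hA).O ∧
        (algebraMap Qb ↥(modularFunctionFieldBar (M * q)) ((q : Qb) ^ m) * f)⁻¹ ∈
          (h60_R1 M q hqM A hA).O)
    (f : ↥(modularFunctionFieldBar (M * q)))
    (hf : ∀ σ ∈ H, arithmeticGalois (modularFunctionFieldFull (M * q)) σ • f = f)
    (hfO : f ∈ (h60_R1 M q hqM A hA).O) (h0 : (h60_R1 M q hqM A hA).redF f = 0) :
    w⁻¹ • f ∈ (h60_R1 M q hqM A hA).O :=
  h78_min_mod (M * q) q hq2 A hA ζ hζ z w hz hzI hw (h60_R1 M q hqM A hA)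
    (h60_R1_A M q hqM A hA) (fun c hc hc0 => hint₁ c hc0 hc) f
    (fun σ hσ hσw => hf σ (hHw σ hσ hσw)) hfO h0

include hq2 hζ hz hzI hw hHw in
/-- (MIN) for the second component. -/
theorem h78_W3_min₂
    (hint₂ : ∀ f : ↥(modularFunctionFieldBar (M * q)), f ≠ 0 →
      (∀ σ ∈ A.inertiaSubgroupIn ℚ,
        arithmeticGalois (modularFunctionFieldFull (M * q)) σ • f = f) →
      ∃ m : ℤ, algebraMap Qb ↥(modularFunctionFieldBar (M * q)) ((q : Qb) ^ m) * f ∈
          (h60_R2 M q hqM A hA).O ∧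
        (algebraMap Qb ↥(modularFunctionFieldBar (M * q)) ((q : Qb) ^ m) * f)⁻¹ ∈
          (h60_R2 M q hqM A hA).O)
    (f : ↥(modularFunctionFieldBar (M * q)))
    (hf : ∀ σ ∈ H, arithmeticGalois (modularFunctionFieldFull (M * q)) σ • f = f)
    (hfO : f ∈ (h60_R2 M q hqM A hA).O) (h0 : (h60_R2 M q hqM A hA).redF f = 0) :
    w⁻¹ • f ∈ (h60_R2 M q hqM A hA).O :=
  h78_min_mod (M * q) q hq2 A hA ζ hζ z w hz hzI hw (h60_R2 M q hqM A hA)
    (h60_R2_A M q hqM A hA) (fun c hc hc0 => hint₂ c hc0 hc) f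
    (fun σ hσ hσw => hf σ (hHw σ hσ hσw)) hfO h0

end Min

section Final

variable (hq2 : q ≠ 2) (ζ : Qb) (hζ : IsPrimitiveRoot ζ q) (z w : Qb)
  (hz : A.valuation z = 1) (hzI : ∀ g ∈ A.inertiaSubgroupIn ℚ, g z = z)
  (hw : (1 + w) ^ q = 1 + (q : Qb) * z)
  (H : Subgroup (Qb ≃ₐ[ℚ] Qb)) (hHI : H ≤ A.inertiaSubgroupIn ℚ)
  (hwH : ∀ σ ∈ H, σ w = w)
  (hHw : ∀ σ ∈ A.inertiaSubgroupIn ℚ, σ w = w → σ ∈ H)
  (hint₁ : ∀ f : ↥(modularFunctionFieldBar (M * q)), f ≠ 0 →
    (∀ σ ∈ A.inertiaSubgroupIn ℚ,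
      arithmeticGalois (modularFunctionFieldFull (M * q)) σ • f = f) →
    ∃ m : ℤ, algebraMap Qb ↥(modularFunctionFieldBar (M * q)) ((q : Qb) ^ m) * f ∈
        (h60_R1 M q hqM A hA).O ∧
      (algebraMap Qb ↥(modularFunctionFieldBar (M * q)) ((q : Qb) ^ m) * f)⁻¹ ∈
        (h60_R1 M q hqM A hA).O)
  (hint₂ : ∀ f : ↥(modularFunctionFieldBar (M * q)), f ≠ 0 →
    (∀ σ ∈ A.inertiaSubgroupIn ℚ,
      arithmeticGalois (modularFunctionFieldFull (M * q)) σ • f = f) →
    ∃ m : ℤ, algebraMap Qb ↥(modularFunctionFieldBar (M * q)) ((q : Qb) ^ m) * f ∈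
        (h60_R2 M q hqM A hA).O ∧
      (algebraMap Qb ↥(modularFunctionFieldBar (M * q)) ((q : Qb) ^ m) * f)⁻¹ ∈
        (h60_R2 M q hqM A hA).O)
  (c : ℤ)

include hq2 hζ hz hzI hw hHI hwH hHw hint₁ hint₂ in
/-- **W3, family form** (helper11's `h11_latStar_mod` with (MIN) discharged). -/
theorem h78_W3_family
    (V : Submodule Qb ↥(modularFunctionFieldBar (M * q))) [Module.Finite Qb V]
    (hV : ∀ σ ∈ H, ∀ v ∈ V, arithmeticGalois (modularFunctionFieldFull (M * q)) σ • v ∈ V) :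
    ∃ g : Fin (Module.finrank Qb V) → ↥(modularFunctionFieldBar (M * q)),
      (∀ i, ∀ σ ∈ H, arithmeticGalois (modularFunctionFieldFull (M * q)) σ • g i = g i) ∧
      (∀ i, g i ∈ V) ∧
      (∀ i, g i ∈ (h60_R1 M q hqM A hA).O ∧ w ^ (-c) • g i ∈ (h60_R2 M q hqM A hA).O) ∧
      LinearIndependent (IsLocalRing.ResidueField A) (fun i =>
        ((h60_R1 M q hqM A hA).redF (g i), (h60_R2 M q hqM A hA).redF (w ^ (-c) • g i))) := by
  obtain ⟨hwn, -⟩ := h12_eis q hq2 A hA ζ hζ z w hz hzI hw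
  have hw0 := (h12_eis_ne_zero q A hA z w hz hw).2
  exact h11_latStar_mod M q hqM A hA H hHI w hw0 hwn hwH c
    (h78_W3_min₁ M q hqM A hA hq2 ζ hζ z w hz hzI hw H hHw hint₁)
    (h78_W3_min₂ M q hqM A hA hq2 ζ hζ z w hz hzI hw H hHw hint₂) V hV

include hq2 hζ hz hzI hw hHI hwH hHw hint₁ hint₂ in
/-- **W3, FINAL EXPORT**: the twisted reductions of `V ∩ Λ(c)` form a `k`-subspace `W` of
`Fb × Fb` of dimension `dim V`; every element of `W` is the twisted reduction of an `H`-fixed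
element of `V ∩ Λ(c)`. -/
theorem h78_W3_mod
    (V : Submodule Qb ↥(modularFunctionFieldBar (M * q))) [Module.Finite Qb V]
    (hV : ∀ σ ∈ H, ∀ v ∈ V, arithmeticGalois (modularFunctionFieldFull (M * q)) σ • v ∈ V) :
    ∃ W : Submodule (IsLocalRing.ResidueField A)
        (↥(modularFunctionFieldFullC (IsLocalRing.ResidueField A) M) ×
          ↥(modularFunctionFieldFullC (IsLocalRing.ResidueField A) M)),
      Module.Finite (IsLocalRing.ResidueField A) W ∧
      Module.finrank (IsLocalRing.ResidueField A) W = Module.finrank Qb V ∧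
      (∀ φ ∈ W, ∃ f : ↥(modularFunctionFieldBar (M * q)),
        (∀ σ ∈ H, arithmeticGalois (modularFunctionFieldFull (M * q)) σ • f = f) ∧ f ∈ V ∧
        f ∈ (h60_R1 M q hqM A hA).O ∧ w ^ (-c) • f ∈ (h60_R2 M q hqM A hA).O ∧
        ((h60_R1 M q hqM A hA).redF f, (h60_R2 M q hqM A hA).redF (w ^ (-c) • f)) = φ) ∧
      (∀ f : ↥(modularFunctionFieldBar (M * q)), f ∈ V → f ∈ (h60_R1 M q hqM A hA).O →
        w ^ (-c) • f ∈ (h60_R2 M q hqM A hA).O →
        ((h60_R1 M q hqM A hA).redF f, (h60_R2 M q hqM A hA).redF (w ^ (-c) • f)) ∈ W) := by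
  classical
  obtain ⟨hwn, -⟩ := h12_eis q hq2 A hA ζ hζ z w hz hzI hw
  have hw0 := (h12_eis_ne_zero q A hA z w hz hw).2
  have hsmul : ∀ (a : Qb) (f : ↥(modularFunctionFieldBar (M * q))) (σ : Qb ≃ₐ[ℚ] Qb),
      arithmeticGalois (modularFunctionFieldFull (M * q)) σ • (a • f) =
        σ a • arithmeticGalois (modularFunctionFieldFull (M * q)) σ • f := by
    intro a f σ
    rw [h69_smul_smul, baseAut_arithmeticGalois]
    rfl
  have hON : h22_ON (h22_latOfPair (h60_R1 M q hqM A hA) (h60_R2 M q hqM A hA) A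
      (IsLocalRing.residue A) IsLocalRing.residue_surjective (h60_R1_A M q hqM A hA)
      (h60_R2_A M q hqM A hA) (h87_R1_resK M q hqM A hA) (h87_R2_resK M q hqM A hA)) :=
    h87_D_on M q hqM A hA
  have harch : ∀ a : Qb, ∃ n : ℕ, w ^ n * a ∈ A := by
    intro a
    rcases eq_or_ne a 0 with rfl | ha
    · exact ⟨0, by rw [mul_zero]; exact A.zero_mem⟩
    · obtain ⟨n, t, ht, hn⟩ := h64_rankOne_Qbar (Fact.out : q.Prime) A hA w hwn a⁻¹
        (inv_ne_zero ha)
      refine ⟨n, ?_⟩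
      rw [hn, mul_assoc, mul_comm t a, ← mul_assoc, inv_mul_cancel₀ ha, one_mul]
      exact ht
  have hSP : V ≤ Submodule.span Qb
      ({f | ∀ σ ∈ H, arithmeticGalois (modularFunctionFieldFull (M * q)) σ • f = f} ∩
        (V : Set ↥(modularFunctionFieldBar (M * q)))) := by
    have h1 := h69_span_fixed (M * q) H V hV
    have h2 : {g | g ∈ V ∧
        ∀ σ ∈ H, arithmeticGalois (modularFunctionFieldFull (M * q)) σ • g = g} =
        {f | ∀ σ ∈ H, arithmeticGalois (modularFunctionFieldFull (M * q)) σ • f = f} ∩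
          (V : Set ↥(modularFunctionFieldBar (M * q))) := by
      ext g
      exact ⟨fun h => ⟨h.2, h.1⟩, fun h => ⟨h.2, h.1⟩⟩
    rw [← h2, h1]
  exact h78_latStar_pair_W (h60_R1 M q hqM A hA) (h60_R2 M q hqM A hA) A
    (IsLocalRing.residue A) IsLocalRing.residue_surjective (h60_R1_A M q hqM A hA)
    (h60_R2_A M q hqM A hA) (h87_R1_resK M q hqM A hA) (h87_R2_resK M q hqM A hA) hON
    w hw0 hwn harch c
    {f | ∀ σ ∈ H, arithmeticGalois (modularFunctionFieldFull (M * q)) σ • f = f}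
    {a | ∀ σ ∈ H, σ a = a}
    (fun σ _ => smul_zero _)
    (fun f g hf hg σ hσ => by rw [smul_add, hf σ hσ, hg σ hσ])
    (fun a f ha hf σ hσ => by rw [hsmul, ha σ hσ, hf σ hσ])
    (fun σ _ => map_one σ) hwH
    (fun σ hσ => by rw [map_inv₀, hwH σ hσ])
    (fun a ha => by
      obtain ⟨a0, ha0, hfix, hnear⟩ := h6_res_K0 q A hA a ha
      refine ⟨a0, fun σ hσ => hfix σ (hHI hσ), ha0, ?_⟩
      have h1 : (⟨a, ha⟩ : A) - ⟨a0, ha0⟩ ∈ IsLocalRing.maximalIdeal A := by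
        rw [← ValuationSubring.coe_mem_nonunits_iff]
        exact hnear
      have h2 := (IsLocalRing.residue_eq_zero_iff _).mpr h1
      rw [map_sub, sub_eq_zero] at h2
      exact h2.symm)
    (h78_W3_min₁ M q hqM A hA hq2 ζ hζ z w hz hzI hw H hHw hint₁)
    (h78_W3_min₂ M q hqM A hA hq2 ζ hζ z w hz hzI hw H hHw hint₂) V hSP

include hq2 hζ hz hzI hw hHI hwH hHw hint₁ hint₂ in
/-- **W3, FINAL EXPORT for `L(E)`**, `E` an `H`-invariant divisor. -/
theorem h78_W3_rr (E : Divisor Qb ↥(modularFunctionFieldBar (M * q)))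
    [Module.Finite Qb ↥(riemannRochSpace E)]
    (hE : ∀ σ ∈ H, arithmeticGalois (modularFunctionFieldFull (M * q)) σ • E = E) :
    ∃ W : Submodule (IsLocalRing.ResidueField A)
        (↥(modularFunctionFieldFullC (IsLocalRing.ResidueField A) M) ×
          ↥(modularFunctionFieldFullC (IsLocalRing.ResidueField A) M)),
      Module.Finite (IsLocalRing.ResidueField A) W ∧
      Module.finrank (IsLocalRing.ResidueField A) W =
        Module.finrank Qb ↥(riemannRochSpace E) ∧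
      (∀ φ ∈ W, ∃ f : ↥(modularFunctionFieldBar (M * q)),
        (∀ σ ∈ H, arithmeticGalois (modularFunctionFieldFull (M * q)) σ • f = f) ∧
        f ∈ riemannRochSpace E ∧
        f ∈ (h60_R1 M q hqM A hA).O ∧ w ^ (-c) • f ∈ (h60_R2 M q hqM A hA).O ∧
        ((h60_R1 M q hqM A hA).redF f, (h60_R2 M q hqM A hA).redF (w ^ (-c) • f)) = φ) ∧
      (∀ f : ↥(modularFunctionFieldBar (M * q)), f ∈ riemannRochSpace E →
        f ∈ (h60_R1 M q hqM A hA).O → w ^ (-c) • f ∈ (h60_R2 M q hqM A hA).O →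
        ((h60_R1 M q hqM A hA).redF f, (h60_R2 M q hqM A hA).redF (w ^ (-c) • f)) ∈ W) :=
  h78_W3_mod M q hqM A hA hq2 ζ hζ z w hz hzI hw H hHI hwH hHw hint₁ hint₂ c (riemannRochSpace E)
    (fun σ hσ _ hv => Fermat.Agent.S17.h35_smul_mem_rr_of_fix _ E (hE σ hσ) hv)

include hq2 hζ hz hzI hw hHI hwH hHw hint₁ hint₂ in
/-- `h78_W3_rr` with the twist written as a division by `t = w ^ c` (shape (M3) of W6). -/
theorem h78_W3_rr_div (t : Qb) (ht : t = w ^ c)
    (E : Divisor Qb ↥(modularFunctionFieldBar (M * q)))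
    [Module.Finite Qb ↥(riemannRochSpace E)]
    (hE : ∀ σ ∈ H, arithmeticGalois (modularFunctionFieldFull (M * q)) σ • E = E) :
    ∃ W : Submodule (IsLocalRing.ResidueField A)
        (↥(modularFunctionFieldFullC (IsLocalRing.ResidueField A) M) ×
          ↥(modularFunctionFieldFullC (IsLocalRing.ResidueField A) M)),
      Module.Finite (IsLocalRing.ResidueField A) W ∧
      Module.finrank (IsLocalRing.ResidueField A) W =
        Module.finrank Qb ↥(riemannRochSpace E) ∧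
      (∀ φ ∈ W, ∃ f : ↥(modularFunctionFieldBar (M * q)),
        (∀ σ ∈ H, arithmeticGalois (modularFunctionFieldFull (M * q)) σ • f = f) ∧
        f ∈ riemannRochSpace E ∧ f ∈ (h60_R1 M q hqM A hA).O ∧
        f / algebraMap Qb ↥(modularFunctionFieldBar (M * q)) t ∈ (h60_R2 M q hqM A hA).O ∧
        ((h60_R1 M q hqM A hA).redF f, (h60_R2 M q hqM A hA).redF
          (f / algebraMap Qb ↥(modularFunctionFieldBar (M * q)) t)) = φ) ∧
      (∀ f : ↥(modularFunctionFieldBar (M * q)), f ∈ riemannRochSpace E →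
        f ∈ (h60_R1 M q hqM A hA).O →
        f / algebraMap Qb ↥(modularFunctionFieldBar (M * q)) t ∈ (h60_R2 M q hqM A hA).O →
        ((h60_R1 M q hqM A hA).redF f, (h60_R2 M q hqM A hA).redF
          (f / algebraMap Qb ↥(modularFunctionFieldBar (M * q)) t)) ∈ W) := by
  obtain ⟨W, h1, h2, h3, h4⟩ := h78_W3_rr M q hqM A hA hq2 ζ hζ z w hz hzI hw H hHI hwH hHw
    hint₁ hint₂ c E hE
  subst ht
  refine ⟨W, h1, h2, fun φ hφ => ?_, fun f hfV hf1 hf2 => ?_⟩
  · obtain ⟨f, hfS, hfV, hf1, hf2, hf3⟩ := h3 φ hφ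
    rw [h78_zpow_neg_smul] at hf2 hf3
    exact ⟨f, hfS, hfV, hf1, hf2, hf3⟩
  · have := h4 f hfV hf1 (by rw [h78_zpow_neg_smul]; exact hf2)
    rwa [h78_zpow_neg_smul] at this

end Final

end Fermat.Agent.S40
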