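import Mathlib
import Fermat.Agent.S40.h79_SwapHecke

/-!
# S40 / (SWAP-GAL): the Atkin–Lehner swap at `p` commutes with Galois on `J₀(M p)` (helper79)

* `h79_swapAut_mul_self` : the swap is an involution in `SemilinearAut`;
  `h79_swap_swap` : `w • w • x = x` on `J₀(M p)`;
* `h79_swapAut_galois_comm` : the swap commutes with `arithmeticGalois σ` in `SemilinearAut`;
* `h79_swap_galois` : `σ • (w • x) = w • (σ • x)` on `J₀(M p)`;
* `h79_swap_galois_fixed`, `h79_swap_galois_sub` : transport of Galois conditions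
  (`σ • x = x`, `σ • x - x = y`) to `w • x`.
-/

set_option autoImplicit false
set_option synthInstance.maxHeartbeats 400000

noncomputable section

open ModularCurve AlgebraicCurve

namespace Fermat.Agent.S40

open Fermat.Agent.S34

local notation "Qb" => AlgebraicClosure ℚ

variable (M p : ℕ) [NeZero M] [NeZero p] [Fact p.Prime] (hpM : ¬ p ∣ M)

/-- The swap is an involution in `SemilinearAut`. -/
theorem h79_swapAut_mul_self : h79_swapAut M p hpM * h79_swapAut M p hpM = 1 := by
  refine Subtype.ext (Prod.ext (RingEquiv.ext fun f => ?_) (one_mul 1))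
  show (h79_swapAut M p hpM * h79_swapAut M p hpM) • f = f
  rw [mul_smul, h79_swapAut_smul, h79_swapAut_smul, h60_w_w]

/-- `w • w • x = x` on `J₀(M p)`. -/
theorem h79_swap_swap (x : JZero (M * p)) :
    h79_swapAut M p hpM • h79_swapAut M p hpM • x = x := by
  rw [← mul_smul, h79_swapAut_mul_self, one_smul]

/-- The swap commutes with the arithmetic Galois action, in `SemilinearAut`. -/
theorem h79_swapAut_galois_comm (σ : Qb ≃ₐ[ℚ] Qb) :
    arithmeticGalois (modularFunctionFieldFull (M * p)) σ * h79_swapAut M p hpM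
      = h79_swapAut M p hpM * arithmeticGalois (modularFunctionFieldFull (M * p)) σ := by
  refine Subtype.ext (Prod.ext (RingEquiv.ext fun f => ?_) ?_)
  · show (arithmeticGalois (modularFunctionFieldFull (M * p)) σ * h79_swapAut M p hpM) • f
      = (h79_swapAut M p hpM * arithmeticGalois (modularFunctionFieldFull (M * p)) σ) • f
    rw [mul_smul, mul_smul, h79_swapAut_smul, h79_swapAut_smul]
    exact (h60_w_galois M p hpM σ f).symm
  · show σ.toRingEquiv * 1 = 1 * σ.toRingEquiv
    rw [mul_one, one_mul]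

/-- **(SWAP-GAL)** `σ • (w • x) = w • (σ • x)` on `J₀(M p)`. -/
theorem h79_swap_galois (σ : Qb ≃ₐ[ℚ] Qb) (x : JZero (M * p)) :
    σ • (h79_swapAut M p hpM • x) = h79_swapAut M p hpM • (σ • x) := by
  rw [galois_smul_pic0_def, galois_smul_pic0_def, ← mul_smul, ← mul_smul,
    h79_swapAut_galois_comm]

/-- A class fixed by `σ` has a swap fixed by `σ`. -/
theorem h79_swap_galois_fixed (σ : Qb ≃ₐ[ℚ] Qb) (x : JZero (M * p)) (hx : σ • x = x) :
    σ • (h79_swapAut M p hpM • x) = h79_swapAut M p hpM • x := by
  rw [h79_swap_galois, hx]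

/-- Transport of a Galois cocycle condition: `σ • x - x = y` gives
`σ • (w • x) - w • x = w • y`. -/
theorem h79_swap_galois_sub (σ : Qb ≃ₐ[ℚ] Qb) (x y : JZero (M * p)) (hx : σ • x - x = y) :
    σ • (h79_swapAut M p hpM • x) - h79_swapAut M p hpM • x = h79_swapAut M p hpM • y := by
  rw [h79_swap_galois, ← hx, smul_sub]

end Fermat.Agent.S40

end
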