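import Mathlib
import Fermat.Agent.S18.Defs
import Fermat.Agent.S34.h22_LatON
import Fermat.Agent.S34.h51_Glue

/-!
# S40 / (TR) row T0 (COVER-OBJ), generic core (helper85): the sheet valuations of a lattice

`D' : h22_Lat K F' k (ι → κ)` a lattice datum whose reductions are `ι`-tuples in a FIELD `κ`
("sheets"), with rank one constants.  For a sheet `a` with a *separator* `ε ∈ O'`
(`red ε = δ_a`) the localisation of `O'` at the kernel of `red · a`,

  `W_a = {f | ∃ s ∈ O', red s a ≠ 0 ∧ s f ∈ O'}`,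

is a valuation ring of `F'` with value group `|K^×|` and residue field `κ`:

* `h85_sheet_core` : for `f ≠ 0` there are `c ∈ K^×`, `n` with `c f ε^n ∈ O'` and
  `red (c f ε^n) a ≠ 0` (the sup-norm of `f ε^n` is attained on the sheet `a` for `n` large);
* `h85_sheetDatum` : the S18 reduction datum (`h39_RedDatum K F' k κ`) of the sheet `a`;
* `h85_mem_O_iff_forall_sheet` : `O' = ⋂ W_a`;
* `h85_sheet_unique` : `W_a` is the only valuation ring of `F'` dominating `O'` at the sheet `a`;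
* `h85_sheet_transport` : a ring automorphism of `F'` preserving `O'` and moving the sheet `b`
  to the sheet `a` (up to a ring endomorphism of `κ`) moves `W_b` to `W_a`.
-/

set_option autoImplicit false

noncomputable section

namespace Fermat.Agent.S40

open Fermat.Agent.S18 Fermat.Agent.S34

section Generic

variable {K F' k κ ι : Type*} [Field K] [Field F'] [Algebra K F'] [Field k] [Field κ]
  [Algebra k κ]

/-- `redF` of a non-unit constant times an integral element vanishes. -/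
theorem h85_redF_nonunit_mul (D' : h22_Lat K F' k (ι → κ)) {q : K} (hq : q ∈ D'.A.nonunits)
    {g : F'} (hg : g ∈ D'.O) : D'.redF (algebraMap K F' q * g) = 0 := by
  have := h22_redF_smul_nonunit D' hq hg
  rwa [Algebra.smul_def] at this

theorem h85_redF_zero (D' : h22_Lat K F' k (ι → κ)) : D'.redF (0 : F') = 0 := by
  rw [D'.redF_of_mem D'.O.zero_mem]
  exact map_zero D'.red

theorem h85_redF_sub (D' : h22_Lat K F' k (ι → κ)) {f g : F'} (hf : f ∈ D'.O) (hg : g ∈ D'.O) :
    D'.redF (f - g) = D'.redF f - D'.redF g := by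
  rw [D'.redF_of_mem (D'.O.sub_mem hf hg), D'.redF_of_mem hf, D'.redF_of_mem hg, ← map_sub]
  rfl

theorem h85_redF_neg (D' : h22_Lat K F' k (ι → κ)) {f : F'} (hf : f ∈ D'.O) :
    D'.redF (-f) = -D'.redF f := by
  rw [D'.redF_of_mem (D'.O.neg_mem hf), D'.redF_of_mem hf, ← map_neg]
  rfl

/-- **The sheet lemma.**  For `f ≠ 0` and a separator `ε` of the sheet `a`, some `c f ε^n`
(`c ∈ K^×`) is integral with nonzero reduction on the sheet `a`. -/
theorem h85_sheet_core (D' : h22_Lat K F' k (ι → κ)) (hRk : h39_RankOne D'.A) (a : ι)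
    (ε : F') (hε : ε ∈ D'.O) (hεa : D'.redF ε a = 1) (hεb : ∀ b, b ≠ a → D'.redF ε b = 0)
    (f : F') (hf : f ≠ 0) :
    ∃ (c : K) (n : ℕ), c ≠ 0 ∧ algebraMap K F' c * f * ε ^ n ∈ D'.O ∧
      D'.redF (algebraMap K F' c * f * ε ^ n) a ≠ 0 := by
  classical
  have hε0 : ε ≠ 0 := by
    rintro rfl
    rw [h85_redF_zero] at hεa
    exact zero_ne_one hεa
  -- scale `f` into `O'`
  obtain ⟨c₀, hc₀, hf₀, -⟩ := D'.exists_scale f hf
  have hc₀F : algebraMap K F' c₀ ≠ 0 := (map_ne_zero _).mpr hc₀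
  have hf₀0 : algebraMap K F' c₀ * f ≠ 0 := mul_ne_zero hc₀F hf
  -- an integral multiple of `f⁻¹`
  obtain ⟨d, hd, hfs, -⟩ := D'.exists_scale (algebraMap K F' c₀ * f)⁻¹ (inv_ne_zero hf₀0)
  have hdF : algebraMap K F' d ≠ 0 := (map_ne_zero _).mpr hd
  -- `ε (1 - ε)` reduces to zero
  have h1ε : 1 - ε ∈ D'.O := D'.O.sub_mem D'.O.one_mem hε
  have hprod : ε * (1 - ε) ∈ D'.O := D'.O.mul_mem hε h1ε
  have hred1ε : ∀ b, D'.redF (1 - ε) b = 1 - D'.redF ε b := by
    intro b
    rw [h85_redF_sub D' D'.O.one_mem hε, h51_redF_one]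
    rfl
  have hred0 : D'.redF (ε * (1 - ε)) = 0 := by
    rw [h51_redF_mul D' hε h1ε]
    funext b
    rw [Pi.mul_apply, hred1ε b]
    by_cases hb : b = a
    · rw [hb, hεa, sub_self, mul_zero]
      rfl
    · rw [hεb b hb, zero_mul]
      rfl
  rw [D'.redF_of_mem hprod] at hred0
  obtain ⟨q₀, hq₀, h₀, hh₀, hq₀h₀⟩ := D'.ker _ hprod hred0
  -- `q₀ ^ n / d` is a non-unit for `n` large
  obtain ⟨n, hn⟩ : ∃ n : ℕ, q₀ ^ n * d⁻¹ ∈ D'.A.nonunits := by
    by_cases hq0 : q₀ = 0
    · refine ⟨1, ?_⟩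
      rw [hq0, pow_one, zero_mul, ValuationSubring.mem_nonunits_iff_or]
      exact Or.inl rfl
    · have hq₀A : q₀ ∈ D'.A := D'.A.nonunits_le hq₀
      have hq₀inv : q₀⁻¹ ∉ D'.A := by
        rcases (ValuationSubring.mem_nonunits_iff_or (A := D'.A)).mp hq₀ with h | h
        · exact absurd h hq0
        · exact h
      obtain ⟨m, hm⟩ := hRk q₀ hq₀A hq₀inv d hd
      refine ⟨m + 1, ?_⟩
      have he : q₀ ^ (m + 1) * d⁻¹ = q₀ * (q₀ ^ m * d⁻¹) := by ring
      rw [he, ValuationSubring.mem_nonunits_iff, map_mul]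
      have h1 : D'.A.valuation q₀ < 1 := D'.A.mem_nonunits_iff.mp hq₀
      have h2 : D'.A.valuation (q₀ ^ m * d⁻¹) ≤ 1 := (D'.A.valuation_le_one_iff _).mpr hm
      calc D'.A.valuation q₀ * D'.A.valuation (q₀ ^ m * d⁻¹)
          ≤ D'.A.valuation q₀ * 1 := mul_le_mul' le_rfl h2
        _ = D'.A.valuation q₀ := mul_one _
        _ < 1 := h1
  -- scale `f ε^n`
  have hfεn0 : algebraMap K F' c₀ * f * ε ^ n ≠ 0 := mul_ne_zero hf₀0 (pow_ne_zero n hε0)
  obtain ⟨c₁, hc₁, hg, hgred⟩ := D'.exists_scale _ hfεn0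
  have hc₁F : algebraMap K F' c₁ ≠ 0 := (map_ne_zero _).mpr hc₁
  set g : F' := algebraMap K F' c₁ * (algebraMap K F' c₀ * f * ε ^ n) with hgdef
  have hεn : ε ^ n ∈ D'.O := D'.O.pow_mem hε n
  have hredεn : D'.redF (ε ^ n) a = 1 := by
    rw [h51_redF_pow D' hε, Pi.pow_apply, hεa, one_pow]
  -- `c₁ d ∈ A`
  have hcd : c₁ * d ∈ D'.A := by
    by_contra hcon
    have hne : c₁ * d ≠ 0 := mul_ne_zero hc₁ hd
    have hinv : (c₁ * d)⁻¹ ∈ D'.A.nonunits := by
      rw [ValuationSubring.inv_mem_nonunits_iff]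
      exact Or.inr hcon
    have hmem : algebraMap K F' (c₁ * d) * ε ^ n ∈ D'.O := by
      have he : algebraMap K F' (c₁ * d) * ε ^ n =
          g * (algebraMap K F' d * (algebraMap K F' c₀ * f)⁻¹) := by
        rw [hgdef, map_mul]
        field_simp
      rw [he]
      exact D'.O.mul_mem hg hfs
    have h0 := h85_redF_nonunit_mul D' hinv hmem
    have he : algebraMap K F' (c₁ * d)⁻¹ * (algebraMap K F' (c₁ * d) * ε ^ n) = ε ^ n := by
      rw [← mul_assoc, ← map_mul, inv_mul_cancel₀ hne, map_one, one_mul]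
    rw [he] at h0
    rw [h0] at hredεn
    exact zero_ne_one hredεn
  -- `g (1 - ε)^n` reduces to zero
  have hkey : D'.redF (g * (1 - ε) ^ n) = 0 := by
    have hmem : algebraMap K F' c₀ * f * h₀ ^ n ∈ D'.O := D'.O.mul_mem hf₀ (D'.O.pow_mem hh₀ n)
    have hnu : c₁ * d * (q₀ ^ n * d⁻¹) ∈ D'.A.nonunits := by
      rw [ValuationSubring.mem_nonunits_iff, map_mul]
      have h1 : D'.A.valuation (c₁ * d) ≤ 1 := (D'.A.valuation_le_one_iff _).mpr hcd
      have h2 : D'.A.valuation (q₀ ^ n * d⁻¹) < 1 := D'.A.mem_nonunits_iff.mp hn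
      calc D'.A.valuation (c₁ * d) * D'.A.valuation (q₀ ^ n * d⁻¹)
          ≤ 1 * D'.A.valuation (q₀ ^ n * d⁻¹) := mul_le_mul' h1 le_rfl
        _ = D'.A.valuation (q₀ ^ n * d⁻¹) := one_mul _
        _ < 1 := h2
    have he : g * (1 - ε) ^ n =
        algebraMap K F' (c₁ * d * (q₀ ^ n * d⁻¹)) * (algebraMap K F' c₀ * f * h₀ ^ n) := by
      have h3 : ε ^ n * (1 - ε) ^ n = algebraMap K F' q₀ ^ n * h₀ ^ n := by
        rw [← mul_pow, hq₀h₀, mul_pow]
      have h4 : c₁ * d * (q₀ ^ n * d⁻¹) = c₁ * q₀ ^ n := by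
        field_simp
      rw [h4, hgdef, map_mul, map_pow]
      calc algebraMap K F' c₁ * (algebraMap K F' c₀ * f * ε ^ n) * (1 - ε) ^ n
          = algebraMap K F' c₁ * (algebraMap K F' c₀ * f) * (ε ^ n * (1 - ε) ^ n) := by ring
        _ = algebraMap K F' c₁ * algebraMap K F' q₀ ^ n * (algebraMap K F' c₀ * f * h₀ ^ n) := by
            rw [h3]; ring
    rw [he]
    exact h85_redF_nonunit_mul D' hnu hmem
  have hgb : ∀ b, b ≠ a → D'.redF g b = 0 := by
    intro b hb
    have h1 := congrFun hkey b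
    rw [h51_redF_mul D' hg (D'.O.pow_mem h1ε n), Pi.mul_apply, h51_redF_pow D' h1ε, Pi.pow_apply,
      hred1ε b, hεb b hb, sub_zero, one_pow, mul_one] at h1
    exact h1
  have hga : D'.redF g a ≠ 0 := by
    intro h0
    apply hgred
    have h1 : D'.redF g = 0 := by
      funext b
      by_cases hb : b = a
      · rw [hb, h0]
        rfl
      · rw [hgb b hb]
        rfl
    rw [D'.redF_of_mem hg] at h1
    exact h1
  refine ⟨c₁ * c₀, n, mul_ne_zero hc₁ hc₀, ?_, ?_⟩
  · have he : algebraMap K F' (c₁ * c₀) * f * ε ^ n = g := by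
      rw [hgdef, map_mul]
      ring
    rw [he]
    exact hg
  · have he : algebraMap K F' (c₁ * c₀) * f * ε ^ n = g := by
      rw [hgdef, map_mul]
      ring
    rw [he]
    exact hga

/-! ### The localisation at a sheet -/

/-- The localisation of `O'` at the kernel of `red · a`, inside `F'`. -/
def h85_locRing (D' : h22_Lat K F' k (ι → κ)) (a : ι) : Subring F' where
  carrier := {f | ∃ s : F', s ∈ D'.O ∧ D'.redF s a ≠ 0 ∧ s * f ∈ D'.O}
  mul_mem' := by
    rintro f g ⟨s, hs, hsa, hsf⟩ ⟨t, ht, hta, htg⟩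
    refine ⟨s * t, D'.O.mul_mem hs ht, ?_, ?_⟩
    · rw [h51_redF_mul D' hs ht, Pi.mul_apply]
      exact mul_ne_zero hsa hta
    · have he : s * t * (f * g) = s * f * (t * g) := by ring
      rw [he]
      exact D'.O.mul_mem hsf htg
  one_mem' := by
    refine ⟨1, D'.O.one_mem, ?_, ?_⟩
    · rw [h51_redF_one]
      exact one_ne_zero
    · rw [mul_one]
      exact D'.O.one_mem
  add_mem' := by
    rintro f g ⟨s, hs, hsa, hsf⟩ ⟨t, ht, hta, htg⟩
    refine ⟨s * t, D'.O.mul_mem hs ht, ?_, ?_⟩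
    · rw [h51_redF_mul D' hs ht, Pi.mul_apply]
      exact mul_ne_zero hsa hta
    · have he : s * t * (f + g) = t * (s * f) + s * (t * g) := by ring
      rw [he]
      exact D'.O.add_mem (D'.O.mul_mem ht hsf) (D'.O.mul_mem hs htg)
  zero_mem' := by
    refine ⟨1, D'.O.one_mem, ?_, ?_⟩
    · rw [h51_redF_one]
      exact one_ne_zero
    · rw [mul_zero]
      exact D'.O.zero_mem
  neg_mem' := by
    rintro f ⟨s, hs, hsa, hsf⟩
    refine ⟨s, hs, hsa, ?_⟩
    rw [mul_neg]
    exact D'.O.neg_mem hsf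

theorem h85_mem_locRing (D' : h22_Lat K F' k (ι → κ)) (a : ι) (f : F') :
    f ∈ h85_locRing D' a ↔ ∃ s : F', s ∈ D'.O ∧ D'.redF s a ≠ 0 ∧ s * f ∈ D'.O := Iff.rfl

theorem h85_le_locRing (D' : h22_Lat K F' k (ι → κ)) (a : ι) {f : F'} (hf : f ∈ D'.O) :
    f ∈ h85_locRing D' a := by
  refine ⟨1, D'.O.one_mem, ?_, ?_⟩
  · rw [h51_redF_one]
    exact one_ne_zero
  · rw [one_mul]
    exact hf

/-- An integral element with nonzero reduction on the sheet `a` is a unit of the localisation. -/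
theorem h85_inv_mem_locRing (D' : h22_Lat K F' k (ι → κ)) (a : ι) {g : F'} (hg : g ∈ D'.O)
    (hga : D'.redF g a ≠ 0) : g⁻¹ ∈ h85_locRing D' a := by
  have hg0 : g ≠ 0 := by
    rintro rfl
    rw [h85_redF_zero] at hga
    exact hga rfl
  refine ⟨g, hg, hga, ?_⟩
  rw [mul_inv_cancel₀ hg0]
  exact D'.O.one_mem

/-- Scaling: every nonzero `f` has a constant multiple which is a unit of the localisation. -/
theorem h85_loc_scale (D' : h22_Lat K F' k (ι → κ)) (hRk : h39_RankOne D'.A) (a : ι)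
    (ε : F') (hε : ε ∈ D'.O) (hεa : D'.redF ε a = 1) (hεb : ∀ b, b ≠ a → D'.redF ε b = 0)
    (f : F') (hf : f ≠ 0) :
    ∃ c : K, c ≠ 0 ∧ algebraMap K F' c * f ∈ h85_locRing D' a ∧
      (algebraMap K F' c * f)⁻¹ ∈ h85_locRing D' a := by
  obtain ⟨c, n, hc, hg, hga⟩ := h85_sheet_core D' hRk a ε hε hεa hεb f hf
  have hcf : algebraMap K F' c * f ≠ 0 := mul_ne_zero ((map_ne_zero _).mpr hc) hf
  have hεn : ε ^ n ∈ D'.O := D'.O.pow_mem hε n
  have hredεn : D'.redF (ε ^ n) a ≠ 0 := by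
    rw [h51_redF_pow D' hε, Pi.pow_apply, hεa, one_pow]
    exact one_ne_zero
  refine ⟨c, hc, ⟨ε ^ n, hεn, hredεn, ?_⟩, ⟨_, hg, hga, ?_⟩⟩
  · rw [mul_comm]
    exact hg
  · have hcF : algebraMap K F' c ≠ 0 := (map_ne_zero _).mpr hc
    have he : algebraMap K F' c * f * ε ^ n * (algebraMap K F' c * f)⁻¹ = ε ^ n := by
      field_simp
    rw [he]
    exact hεn

/-- The localisation at a sheet with a separator is a valuation ring. -/
theorem h85_loc_total (D' : h22_Lat K F' k (ι → κ)) (hRk : h39_RankOne D'.A) (a : ι)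
    (ε : F') (hε : ε ∈ D'.O) (hεa : D'.redF ε a = 1) (hεb : ∀ b, b ≠ a → D'.redF ε b = 0)
    (f : F') : f ∈ h85_locRing D' a ∨ f⁻¹ ∈ h85_locRing D' a := by
  rcases eq_or_ne f 0 with rfl | hf
  · exact Or.inl (h85_locRing D' a).zero_mem
  obtain ⟨c, hc, h1, h2⟩ := h85_loc_scale D' hRk a ε hε hεa hεb f hf
  have hcF : algebraMap K F' c ≠ 0 := (map_ne_zero _).mpr hc
  rcases D'.A.mem_or_inv_mem c with hcA | hcA
  · right
    have he : f⁻¹ = algebraMap K F' c * (algebraMap K F' c * f)⁻¹ := by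
      field_simp
    rw [he]
    exact (h85_locRing D' a).mul_mem (h85_le_locRing D' a ((D'.mem_iff c).mp hcA)) h2
  · left
    have he : f = algebraMap K F' c⁻¹ * (algebraMap K F' c * f) := by
      rw [map_inv₀]
      field_simp
    rw [he]
    exact (h85_locRing D' a).mul_mem (h85_le_locRing D' a ((D'.mem_iff c⁻¹).mp hcA)) h1

/-- A constant lies in the localisation iff it lies in `A`. -/
theorem h85_algebraMap_mem_locRing (D' : h22_Lat K F' k (ι → κ)) (a : ι) (c : K) :
    algebraMap K F' c ∈ h85_locRing D' a ↔ c ∈ D'.A := by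
  constructor
  · rintro ⟨s, hs, hsa, hsc⟩
    by_contra hcA
    have hc0 : c ≠ 0 := by
      rintro rfl
      exact hcA D'.A.zero_mem
    have hinv : c⁻¹ ∈ D'.A.nonunits := by
      rw [ValuationSubring.inv_mem_nonunits_iff]
      exact Or.inr hcA
    have h0 := h85_redF_nonunit_mul D' hinv hsc
    have hcF : algebraMap K F' c ≠ 0 := (map_ne_zero _).mpr hc0
    have he : algebraMap K F' c⁻¹ * (s * algebraMap K F' c) = s := by
      rw [map_inv₀]
      field_simp
    rw [he] at h0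
    exact hsa (congrFun h0 a)
  · intro hc
    exact h85_le_locRing D' a ((D'.mem_iff c).mp hc)

/-- `O' = ⋂ W_a`. -/
theorem h85_mem_O_iff_forall_loc (D' : h22_Lat K F' k (ι → κ)) (f : F') :
    f ∈ D'.O ↔ ∀ a, f ∈ h85_locRing D' a := by
  constructor
  · intro hf a
    exact h85_le_locRing D' a hf
  · intro h
    rcases eq_or_ne f 0 with rfl | hf
    · exact D'.O.zero_mem
    obtain ⟨c, hc, hcf, hred⟩ := D'.exists_scale f hf
    have hcF : algebraMap K F' c ≠ 0 := (map_ne_zero _).mpr hc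
    obtain ⟨b, hb⟩ : ∃ b, D'.redF (algebraMap K F' c * f) b ≠ 0 := by
      by_contra hcon
      simp only [not_exists, not_not] at hcon
      apply hred
      rw [← D'.redF_of_mem hcf]
      funext b
      exact hcon b
    obtain ⟨s, hs, hsb, hsf⟩ := h b
    have hcinv : c⁻¹ ∈ D'.A := by
      by_contra hcon
      have hnu : c ∈ D'.A.nonunits := by
        rw [ValuationSubring.mem_nonunits_iff_or]
        exact Or.inr hcon
      have h0 := h85_redF_nonunit_mul D' hnu hsf
      have he : algebraMap K F' c * (s * f) = s * (algebraMap K F' c * f) := by ring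
      rw [he, h51_redF_mul D' hs hcf] at h0
      have h1 := congrFun h0 b
      rw [Pi.mul_apply] at h1
      exact mul_ne_zero hsb hb h1
    have he : f = algebraMap K F' c⁻¹ * (algebraMap K F' c * f) := by
      rw [map_inv₀]
      field_simp
    rw [he]
    exact D'.O.mul_mem ((D'.mem_iff c⁻¹).mp hcinv) hcf

/-! ### The residue map of a sheet -/

open Classical in
/-- The residue of `f` on the sheet `a` (zero outside the localisation). -/
def h85_sheetRes (D' : h22_Lat K F' k (ι → κ)) (a : ι) (f : F') : κ :=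
  if h : f ∈ h85_locRing D' a then D'.redF (h.choose * f) a / D'.redF h.choose a else 0

theorem h85_sheetRes_eq (D' : h22_Lat K F' k (ι → κ)) (a : ι) {f s : F'} (hs : s ∈ D'.O)
    (hsa : D'.redF s a ≠ 0) (hsf : s * f ∈ D'.O) :
    h85_sheetRes D' a f = D'.redF (s * f) a / D'.redF s a := by
  have h : f ∈ h85_locRing D' a := ⟨s, hs, hsa, hsf⟩
  unfold h85_sheetRes
  rw [dif_pos h]
  obtain ⟨ht, hta, htf⟩ := h.choose_spec
  rw [div_eq_div_iff hta hsa]
  have h1 : D'.redF (h.choose * f * s) = D'.redF (h.choose * f) * D'.redF s :=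
    h51_redF_mul D' htf hs
  have h2 : D'.redF (s * f * h.choose) = D'.redF (s * f) * D'.redF h.choose :=
    h51_redF_mul D' hsf ht
  have he : h.choose * f * s = s * f * h.choose := by ring
  rw [he] at h1
  have h3 := congrFun h1 a
  have h4 := congrFun h2 a
  rw [Pi.mul_apply] at h3 h4
  rw [← h3, ← h4]

theorem h85_sheetRes_of_mem (D' : h22_Lat K F' k (ι → κ)) (a : ι) {f : F'} (hf : f ∈ D'.O) :
    h85_sheetRes D' a f = D'.redF f a := by
  have h1 : D'.redF (1 : F') a ≠ 0 := by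
    rw [h51_redF_one]
    exact one_ne_zero
  have h2 : (1 : F') * f ∈ D'.O := by
    rw [one_mul]
    exact hf
  rw [h85_sheetRes_eq D' a D'.O.one_mem h1 h2, one_mul, h51_redF_one]
  show D'.redF f a / 1 = _
  rw [div_one]

theorem h85_sheetRes_mul (D' : h22_Lat K F' k (ι → κ)) (a : ι) {f g : F'}
    (hf : f ∈ h85_locRing D' a) (hg : g ∈ h85_locRing D' a) :
    h85_sheetRes D' a (f * g) = h85_sheetRes D' a f * h85_sheetRes D' a g := by
  obtain ⟨s, hs, hsa, hsf⟩ := hf
  obtain ⟨t, ht, hta, htg⟩ := hg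
  have hst : D'.redF (s * t) a = D'.redF s a * D'.redF t a := by
    rw [h51_redF_mul D' hs ht, Pi.mul_apply]
  have hsta : D'.redF (s * t) a ≠ 0 := by
    rw [hst]
    exact mul_ne_zero hsa hta
  have he : s * t * (f * g) = s * f * (t * g) := by ring
  have hmem : s * t * (f * g) ∈ D'.O := by
    rw [he]
    exact D'.O.mul_mem hsf htg
  rw [h85_sheetRes_eq D' a (D'.O.mul_mem hs ht) hsta hmem, h85_sheetRes_eq D' a hs hsa hsf,
    h85_sheetRes_eq D' a ht hta htg, he, h51_redF_mul D' hsf htg, Pi.mul_apply, hst]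
  field_simp

theorem h85_sheetRes_add (D' : h22_Lat K F' k (ι → κ)) (a : ι) {f g : F'}
    (hf : f ∈ h85_locRing D' a) (hg : g ∈ h85_locRing D' a) :
    h85_sheetRes D' a (f + g) = h85_sheetRes D' a f + h85_sheetRes D' a g := by
  obtain ⟨s, hs, hsa, hsf⟩ := hf
  obtain ⟨t, ht, hta, htg⟩ := hg
  have hst : D'.redF (s * t) a = D'.redF s a * D'.redF t a := by
    rw [h51_redF_mul D' hs ht, Pi.mul_apply]
  have hsta : D'.redF (s * t) a ≠ 0 := by
    rw [hst]
    exact mul_ne_zero hsa hta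
  have he : s * t * (f + g) = t * (s * f) + s * (t * g) := by ring
  have hmem : s * t * (f + g) ∈ D'.O := by
    rw [he]
    exact D'.O.add_mem (D'.O.mul_mem ht hsf) (D'.O.mul_mem hs htg)
  rw [h85_sheetRes_eq D' a (D'.O.mul_mem hs ht) hsta hmem, h85_sheetRes_eq D' a hs hsa hsf,
    h85_sheetRes_eq D' a ht hta htg, he,
    h51_redF_add D' (D'.O.mul_mem ht hsf) (D'.O.mul_mem hs htg), Pi.add_apply,
    h51_redF_mul D' ht hsf, h51_redF_mul D' hs htg, Pi.mul_apply, Pi.mul_apply, hst]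
  field_simp

/-- The valuation ring of a sheet. -/
def h85_sheetRing (D' : h22_Lat K F' k (ι → κ)) (a : ι)
    (htot : ∀ f : F', f ∈ h85_locRing D' a ∨ f⁻¹ ∈ h85_locRing D' a) : ValuationSubring F' :=
  { h85_locRing D' a with mem_or_inv_mem' := htot }

theorem h85_mem_sheetRing (D' : h22_Lat K F' k (ι → κ)) (a : ι)
    (htot : ∀ f : F', f ∈ h85_locRing D' a ∨ f⁻¹ ∈ h85_locRing D' a) (f : F') :
    f ∈ h85_sheetRing D' a htot ↔ f ∈ h85_locRing D' a := Iff.rfl

/-- The residue homomorphism of a sheet. -/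
def h85_sheetRedHom (D' : h22_Lat K F' k (ι → κ)) (a : ι)
    (htot : ∀ f : F', f ∈ h85_locRing D' a ∨ f⁻¹ ∈ h85_locRing D' a) :
    h85_sheetRing D' a htot →+* κ where
  toFun f := h85_sheetRes D' a (f : F')
  map_one' := by
    show h85_sheetRes D' a (1 : F') = 1
    rw [h85_sheetRes_of_mem D' a D'.O.one_mem, h51_redF_one]
    rfl
  map_mul' f g := h85_sheetRes_mul D' a f.2 g.2
  map_zero' := by
    show h85_sheetRes D' a (0 : F') = 0
    rw [h85_sheetRes_of_mem D' a D'.O.zero_mem, h85_redF_zero]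
    rfl
  map_add' f g := h85_sheetRes_add D' a f.2 g.2

/-- **The reduction datum of a sheet** (S18 shape), from totality, surjectivity and scaling. -/
def h85_sheetDatum (D' : h22_Lat K F' k (ι → κ)) (a : ι)
    (htot : ∀ f : F', f ∈ h85_locRing D' a ∨ f⁻¹ ∈ h85_locRing D' a)
    (hsurj : ∀ x : κ, ∃ g : F', g ∈ D'.O ∧ D'.redF g a = x)
    (hscale : ∀ f : F', f ≠ 0 → ∃ c : K, c ≠ 0 ∧ algebraMap K F' c * f ∈ h85_locRing D' a ∧
      (algebraMap K F' c * f)⁻¹ ∈ h85_locRing D' a) : h39_RedDatum K F' k κ where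
  A := D'.A
  O := h85_sheetRing D' a htot
  res := D'.res
  red := h85_sheetRedHom D' a htot
  res_surjective := D'.res_surjective
  red_surjective x := by
    obtain ⟨g, hg, hgx⟩ := hsurj x
    refine ⟨⟨g, h85_le_locRing D' a hg⟩, ?_⟩
    show h85_sheetRes D' a g = x
    rw [h85_sheetRes_of_mem D' a hg, hgx]
  mem_iff c := (h85_algebraMap_mem_locRing D' a c).symm
  red_algebraMap c hc hc' := by
    show h85_sheetRes D' a (algebraMap K F' c) = _
    have hmem : algebraMap K F' c ∈ D'.O := (D'.mem_iff c).mp hc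
    rw [h85_sheetRes_of_mem D' a hmem, D'.redF_of_mem hmem, D'.red_algebraMap c hc hmem]
    rfl
  exists_scale := hscale

/-! ### First properties of the sheet datum -/

section DatumLemmas

variable (D' : h22_Lat K F' k (ι → κ)) (a : ι)
  (htot : ∀ f : F', f ∈ h85_locRing D' a ∨ f⁻¹ ∈ h85_locRing D' a)
  (hsurj : ∀ x : κ, ∃ g : F', g ∈ D'.O ∧ D'.redF g a = x)
  (hscale : ∀ f : F', f ≠ 0 → ∃ c : K, c ≠ 0 ∧ algebraMap K F' c * f ∈ h85_locRing D' a ∧
    (algebraMap K F' c * f)⁻¹ ∈ h85_locRing D' a)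

theorem h85_sheetDatum_A : (h85_sheetDatum D' a htot hsurj hscale).A = D'.A := rfl

theorem h85_sheetDatum_res : (h85_sheetDatum D' a htot hsurj hscale).res = D'.res := rfl

theorem h85_mem_sheetDatum_O (f : F') :
    f ∈ (h85_sheetDatum D' a htot hsurj hscale).O ↔ f ∈ h85_locRing D' a := Iff.rfl

/-- `O' ⊆ W_a`. -/
theorem h85_sheetDatum_le {f : F'} (hf : f ∈ D'.O) :
    f ∈ (h85_sheetDatum D' a htot hsurj hscale).O := h85_le_locRing D' a hf

theorem h85_sheetDatum_redF (f : F') :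
    (h85_sheetDatum D' a htot hsurj hscale).redF f = h85_sheetRes D' a f := by
  by_cases h : f ∈ h85_locRing D' a
  · rw [h39_RedDatum.redF_of_mem _ h]
    rfl
  · have h' : f ∉ (h85_sheetDatum D' a htot hsurj hscale).O := h
    unfold h39_RedDatum.redF h85_sheetRes
    rw [dif_neg h', dif_neg h]

/-- On `O'` the residue map of the sheet `a` is `red · a`. -/
theorem h85_sheetDatum_redF_of_mem {f : F'} (hf : f ∈ D'.O) :
    (h85_sheetDatum D' a htot hsurj hscale).redF f = D'.redF f a := by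
  rw [h85_sheetDatum_redF, h85_sheetRes_of_mem D' a hf]

/-- The residue of a quotient `g / s` with `s, g ∈ O'`, `red s a ≠ 0`. -/
theorem h85_sheetDatum_redF_div {f s : F'} (hs : s ∈ D'.O) (hsa : D'.redF s a ≠ 0)
    (hsf : s * f ∈ D'.O) :
    (h85_sheetDatum D' a htot hsurj hscale).redF f = D'.redF (s * f) a / D'.redF s a := by
  rw [h85_sheetDatum_redF, h85_sheetRes_eq D' a hs hsa hsf]

end DatumLemmas

/-! ### Uniqueness and transport -/

/-- **Uniqueness.**  A valuation ring of `F'` containing `O'` in which the elements of `O'`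
with nonzero reduction on the sheet `a` are units and the others are not is the valuation ring
of the sheet `a`. -/
theorem h85_sheet_unique (D' : h22_Lat K F' k (ι → κ)) (a : ι)
    (htot : ∀ f : F', f ∈ h85_locRing D' a ∨ f⁻¹ ∈ h85_locRing D' a) (V : ValuationSubring F')
    (h1 : ∀ f, f ∈ D'.O → f ∈ V)
    (h2 : ∀ g, g ∈ D'.O → D'.redF g a ≠ 0 → g⁻¹ ∈ V)
    (h3 : ∀ g, g ∈ D'.O → g ≠ 0 → D'.redF g a = 0 → g⁻¹ ∉ V) :
    V = h85_sheetRing D' a htot := by
  ext f
  rw [h85_mem_sheetRing]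
  constructor
  · intro hfV
    rcases htot f with h | h
    · exact h
    · rcases eq_or_ne f 0 with rfl | hf0
      · exact (h85_locRing D' a).zero_mem
      obtain ⟨s, hs, hsa, hsf⟩ := h
      have hs0 : s ≠ 0 := by
        rintro rfl
        rw [h85_redF_zero] at hsa
        exact hsa rfl
      have hg0 : s * f⁻¹ ≠ 0 := mul_ne_zero hs0 (inv_ne_zero hf0)
      by_cases hga : D'.redF (s * f⁻¹) a = 0
      · exfalso
        apply h3 _ hsf hg0 hga
        have he : (s * f⁻¹)⁻¹ = f * s⁻¹ := by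
          field_simp
        rw [he]
        exact V.mul_mem _ _ hfV (h2 s hs hsa)
      · refine ⟨s * f⁻¹, hsf, hga, ?_⟩
        have he : s * f⁻¹ * f = s := by
          field_simp
        rw [he]
        exact hs
  · rintro ⟨s, hs, hsa, hsf⟩
    have hs0 : s ≠ 0 := by
      rintro rfl
      rw [h85_redF_zero] at hsa
      exact hsa rfl
    have he : f = s⁻¹ * (s * f) := by
      field_simp
    rw [he]
    exact V.mul_mem _ _ (h2 s hs hsa) (h1 _ hsf)

/-- **Transport.**  A ring automorphism `φ` of `F'` preserving `O'` with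
`red (φ g) a = ψ (red g b)` on `O'` maps the valuation ring of the sheet `b` onto the one of the
sheet `a`, compatibly with the residue maps. -/
theorem h85_sheet_transport (D' : h22_Lat K F' k (ι → κ)) (a b : ι) (φ : F' ≃+* F')
    (ψ : κ →+* κ) (hφO : ∀ f, f ∈ D'.O ↔ φ f ∈ D'.O)
    (hφred : ∀ f, f ∈ D'.O → D'.redF (φ f) a = ψ (D'.redF f b)) (f : F') :
    (f ∈ h85_locRing D' b ↔ φ f ∈ h85_locRing D' a) ∧
      (f ∈ h85_locRing D' b → h85_sheetRes D' a (φ f) = ψ (h85_sheetRes D' b f)) := by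
  have hfwd : ∀ s : F', s ∈ D'.O → D'.redF s b ≠ 0 → D'.redF (φ s) a ≠ 0 := by
    intro s hs hsb
    rw [hφred s hs]
    exact (map_ne_zero ψ).mpr hsb
  refine ⟨⟨?_, ?_⟩, ?_⟩
  · rintro ⟨s, hs, hsb, hsf⟩
    refine ⟨φ s, (hφO s).mp hs, hfwd s hs hsb, ?_⟩
    rw [← map_mul]
    exact (hφO _).mp hsf
  · rintro ⟨t, ht, hta, htf⟩
    have hs : φ.symm t ∈ D'.O := by
      rw [hφO, φ.apply_symm_apply]
      exact ht
    refine ⟨φ.symm t, hs, ?_, ?_⟩
    · intro h0
      apply hta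
      have h1 := hφred _ hs
      rw [φ.apply_symm_apply, h0, map_zero] at h1
      exact h1
    · rw [hφO, map_mul, φ.apply_symm_apply]
      exact htf
  · rintro ⟨s, hs, hsb, hsf⟩
    have hmem : φ s * φ f ∈ D'.O := by
      rw [← map_mul]
      exact (hφO _).mp hsf
    rw [h85_sheetRes_eq D' a ((hφO s).mp hs) (hfwd s hs hsb) hmem,
      h85_sheetRes_eq D' b hs hsb hsf, ← map_mul, hφred _ hsf, hφred s hs, map_div₀]

end Generic

end Fermat.Agent.S40

end
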