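import Mathlib
import Fermat.Agent.S40.h85_SheetVal
import Fermat.Agent.S33.h15_ASLat
import Fermat.Agent.S33.h35_ShiftStab
import Fermat.Agent.S34.h22_LatFamily
import Fermat.Agent.S18.GR_RedAPI

/-!
# S40 / (TR) row T0 (COVER-OBJ) (helper85): the sheet valuations of the S33 cover

* Part B: `D₀ : h22_Lat K F k κ` with `κ` a FIELD (one component), `S₀ : h15_ASData D₀ F' n` a
  split step.  `h85_asSheet S₀ hRk hsurj₀ a : h39_RedDatum K F' k κ` is the reduction datum of the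
  sheet `a` (`y ↦ r a`): a valuation ring of `F'` with value group `|K^×|`, residue field `κ`.
  `h85_as_transport` : a ring automorphism of `F'` acting on `O₀[y]` semilinearly moves sheets;
  `h85_as_deck` : the shift rule for the deck transformation `γ y = ζ y + 1`.
* Part C: two components.  `h85_latOne R` (one reduction datum as a lattice), and for
  `S : h15_ASData (h22_latOfPair R₁ R₂ ..) F' n` the two component steps `h85_asFst S`,
  `h85_asSnd S`; `h85_pair_mem_iff`, `h85_pair_red`.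
-/

set_option autoImplicit false
set_option linter.unusedSectionVars false

noncomputable section

namespace Fermat.Agent.S40

open Fermat.Agent.S18 Fermat.Agent.S34 Fermat.Agent.S33

section AS

variable {K F k κ : Type*} [Field K] [Field F] [Algebra K F] [Field k] [Field κ] [Algebra k κ]
variable {D₀ : h22_Lat K F k κ} {F' : Type*} [Field F'] [Algebra F F'] [Algebra K F']
  [IsScalarTower K F F'] {n : ℕ}

/-- Constants of the residue field lift to the lattice ring. -/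
theorem h85_exists_const {Rb : Type*} [CommRing Rb] [Algebra k Rb] (D' : h22_Lat K F' k Rb)
    (x : k) : ∃ g : D'.O, D'.red g = algebraMap k Rb x := by
  obtain ⟨c, hc⟩ := D'.res_surjective x
  refine ⟨⟨algebraMap K F' c.1, (D'.mem_iff c.1).mp c.2⟩, ?_⟩
  rw [D'.red_algebraMap c.1 c.2, ← hc]

/-- The Lagrange separator of the sheet `a`. -/
theorem h85_as_exists_sep (S₀ : h15_ASData D₀ F' n) (a : Fin n) :
    ∃ ε : F', ε ∈ S₀.lat.O ∧ S₀.lat.redF ε a = 1 ∧ ∀ b, b ≠ a → S₀.lat.redF ε b = 0 := by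
  classical
  choose R hR using fun b : Fin n => h85_exists_const S₀.lat (S₀.r b)
  choose U hU using fun b : Fin n => h85_exists_const S₀.lat ((S₀.r a - S₀.r b)⁻¹)
  have hY : S₀.y ∈ S₀.lat.O := S₀.y_mem
  have hred : ∀ b', S₀.lat.red (∏ b ∈ Finset.univ.erase a, ((⟨S₀.y, hY⟩ : S₀.lat.O) - R b) * U b) b' =
      ∏ b ∈ Finset.univ.erase a, (algebraMap k κ (S₀.r b') - algebraMap k κ (S₀.r b)) *
        algebraMap k κ ((S₀.r a - S₀.r b)⁻¹) := by
    intro b'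
    rw [map_prod, Finset.prod_apply]
    refine Finset.prod_congr rfl fun b _ => ?_
    rw [map_mul, map_sub, Pi.mul_apply, Pi.sub_apply, hR b, hU b, S₀.lat_red_y hY b']
    rfl
  refine ⟨((∏ b ∈ Finset.univ.erase a, ((⟨S₀.y, hY⟩ : S₀.lat.O) - R b) * U b : S₀.lat.O) : F'),
    Subtype.property _, ?_, ?_⟩
  · rw [S₀.lat.redF_of_mem (Subtype.property _), Subtype.coe_eta, hred a]
    refine Finset.prod_eq_one fun b hb => ?_
    have hne : S₀.r a - S₀.r b ≠ 0 :=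
      sub_ne_zero.mpr fun h => (Finset.ne_of_mem_erase hb) (S₀.r_injective h).symm
    rw [← map_sub, ← map_mul, mul_inv_cancel₀ hne, map_one]
  · intro b' hb'
    rw [S₀.lat.redF_of_mem (Subtype.property _), Subtype.coe_eta, hred b']
    refine Finset.prod_eq_zero (Finset.mem_erase.mpr ⟨hb', Finset.mem_univ _⟩) ?_
    rw [sub_self, zero_mul]

theorem h85_as_surj (S₀ : h15_ASData D₀ F' n) (hsurj₀ : Function.Surjective D₀.red) (a : Fin n)
    (x : κ) : ∃ g : F', g ∈ S₀.lat.O ∧ S₀.lat.redF g a = x := by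
  obtain ⟨f, hf⟩ := hsurj₀ x
  have hmem : algebraMap F F' (f : F) ∈ S₀.lat.O := (S₀.algebraMap_mem_O'_iff (f : F)).mpr f.2
  refine ⟨_, hmem, ?_⟩
  rw [S₀.lat.redF_of_mem hmem, S₀.lat_red_algebraMap (f : F) f.2 hmem a, Subtype.coe_eta, hf]

theorem h85_as_total (S₀ : h15_ASData D₀ F' n) (hRk : h39_RankOne D₀.A) (a : Fin n) (f : F') :
    f ∈ h85_locRing S₀.lat a ∨ f⁻¹ ∈ h85_locRing S₀.lat a := by
  obtain ⟨ε, hε, hεa, hεb⟩ := h85_as_exists_sep S₀ a
  exact h85_loc_total S₀.lat hRk a ε hε hεa hεb f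

theorem h85_as_scale (S₀ : h15_ASData D₀ F' n) (hRk : h39_RankOne D₀.A) (a : Fin n) (f : F')
    (hf : f ≠ 0) :
    ∃ c : K, c ≠ 0 ∧ algebraMap K F' c * f ∈ h85_locRing S₀.lat a ∧
      (algebraMap K F' c * f)⁻¹ ∈ h85_locRing S₀.lat a := by
  obtain ⟨ε, hε, hεa, hεb⟩ := h85_as_exists_sep S₀ a
  exact h85_loc_scale S₀.lat hRk a ε hε hεa hεb f hf

/-- **The reduction datum of the sheet `a` of a split step** over a one-component lattice. -/
def h85_asSheet (S₀ : h15_ASData D₀ F' n) (hRk : h39_RankOne D₀.A)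
    (hsurj₀ : Function.Surjective D₀.red) (a : Fin n) : h39_RedDatum K F' k κ :=
  h85_sheetDatum S₀.lat a (h85_as_total S₀ hRk a) (h85_as_surj S₀ hsurj₀ a)
    (h85_as_scale S₀ hRk a)

section Lemmas

variable (S₀ : h15_ASData D₀ F' n) (hRk : h39_RankOne D₀.A)
  (hsurj₀ : Function.Surjective D₀.red) (a : Fin n)

theorem h85_asSheet_A : (h85_asSheet S₀ hRk hsurj₀ a).A = D₀.A := rfl

theorem h85_asSheet_res : (h85_asSheet S₀ hRk hsurj₀ a).res = D₀.res := rfl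

theorem h85_mem_asSheet (f : F') :
    f ∈ (h85_asSheet S₀ hRk hsurj₀ a).O ↔ f ∈ h85_locRing S₀.lat a := Iff.rfl

/-- `O₀[y] ⊆ W_a`. -/
theorem h85_asSheet_le {f : F'} (hf : f ∈ S₀.O') : f ∈ (h85_asSheet S₀ hRk hsurj₀ a).O :=
  h85_le_locRing S₀.lat a hf

/-- On `O₀[y]` the residue map of the sheet `a` is `red' · a`. -/
theorem h85_asSheet_redF_of_mem {f : F'} (hf : f ∈ S₀.O') :
    (h85_asSheet S₀ hRk hsurj₀ a).redF f = S₀.lat.redF f a :=
  h85_sheetDatum_redF_of_mem S₀.lat a _ _ _ hf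

/-- `O₀[y] = ⋂ W_a`. -/
theorem h85_mem_O'_iff_forall_asSheet (f : F') :
    f ∈ S₀.O' ↔ ∀ a, f ∈ (h85_asSheet S₀ hRk hsurj₀ a).O :=
  h85_mem_O_iff_forall_loc S₀.lat f

/-- The generator lies in every sheet, with residue `r a`. -/
theorem h85_asSheet_y :
    S₀.y ∈ (h85_asSheet S₀ hRk hsurj₀ a).O ∧
      (h85_asSheet S₀ hRk hsurj₀ a).redF S₀.y = algebraMap k κ (S₀.r a) := by
  refine ⟨h85_asSheet_le S₀ hRk hsurj₀ a S₀.y_mem, ?_⟩
  rw [h85_asSheet_redF_of_mem S₀ hRk hsurj₀ a S₀.y_mem, S₀.lat.redF_of_mem S₀.y_mem,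
    S₀.lat_red_y S₀.y_mem a]

/-- The residue map of a sheet restricted to `F`. -/
theorem h85_asSheet_redF_algebraMap {x : F} (hx : x ∈ D₀.O) :
    (h85_asSheet S₀ hRk hsurj₀ a).redF (algebraMap F F' x) = D₀.red ⟨x, hx⟩ := by
  have hmem : algebraMap F F' x ∈ S₀.O' := (S₀.algebraMap_mem_O'_iff x).mpr hx
  rw [h85_asSheet_redF_of_mem S₀ hRk hsurj₀ a hmem, S₀.lat.redF_of_mem hmem,
    S₀.lat_red_algebraMap x hx hmem a]

/-- `W_a ∩ F = O₀`. -/
theorem h85_asSheet_algebraMap_mem_iff (x : F) :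
    algebraMap F F' x ∈ (h85_asSheet S₀ hRk hsurj₀ a).O ↔ x ∈ D₀.O := by
  constructor
  · rintro ⟨s, hs, hsa, hsx⟩
    rcases eq_or_ne x 0 with rfl | hx0
    · exact D₀.O.zero_mem
    obtain ⟨c, hc, hcx, hred⟩ := D₀.exists_scale x hx0
    have hcF : algebraMap K F c ≠ 0 := (map_ne_zero _).mpr hc
    have hmem : algebraMap F F' (algebraMap K F c * x) ∈ S₀.lat.O :=
      (S₀.algebraMap_mem_O'_iff _).mpr hcx
    have hreda : S₀.lat.redF (algebraMap F F' (algebraMap K F c * x)) a ≠ 0 := by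
      rw [S₀.lat.redF_of_mem hmem, S₀.lat_red_algebraMap _ hcx hmem a]
      exact hred
    have hcinv : c⁻¹ ∈ D₀.A := by
      by_contra hcon
      have hnu : c ∈ S₀.lat.A.nonunits := by
        rw [ValuationSubring.mem_nonunits_iff_or]
        exact Or.inr hcon
      have h0 := h85_redF_nonunit_mul S₀.lat hnu hsx
      have he : algebraMap K F' c * (s * algebraMap F F' x) =
          s * algebraMap F F' (algebraMap K F c * x) := by
        rw [map_mul, ← IsScalarTower.algebraMap_apply K F F']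
        ring
      rw [he, h51_redF_mul S₀.lat hs hmem] at h0
      have h1 := congrFun h0 a
      rw [Pi.mul_apply] at h1
      exact mul_ne_zero hsa hreda h1
    have he : x = algebraMap K F c⁻¹ * (algebraMap K F c * x) := by
      rw [map_inv₀]
      field_simp
    rw [he]
    exact D₀.O.mul_mem ((D₀.mem_iff c⁻¹).mp hcinv) hcx
  · intro hx
    exact h85_asSheet_le S₀ hRk hsurj₀ a ((S₀.algebraMap_mem_O'_iff x).mpr hx)

/-- **Uniqueness** of the valuation ring of the sheet `a`. -/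
theorem h85_asSheet_unique (V : ValuationSubring F') (h1 : ∀ f, f ∈ S₀.O' → f ∈ V)
    (h2 : ∀ g, g ∈ S₀.O' → S₀.lat.redF g a ≠ 0 → g⁻¹ ∈ V)
    (h3 : ∀ g, g ∈ S₀.O' → g ≠ 0 → S₀.lat.redF g a = 0 → g⁻¹ ∉ V) :
    V = (h85_asSheet S₀ hRk hsurj₀ a).O :=
  h85_sheet_unique S₀.lat a (h85_as_total S₀ hRk a) V h1 h2 h3

end Lemmas

/-- The sheet action of a ring endomorphism of `F'` preserving `O₀[y]`, semilinear over a ring
endomorphism `ψ` of the residue field. -/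
theorem h85_as_red_semilinear (S₀ : h15_ASData D₀ F' n) (φ : F' →+* F') (ψ : κ →+* κ)
    (hφ : ∀ f ∈ S₀.O', φ f ∈ S₀.O') (a b : Fin n)
    (hred : ∀ (x : F) (hx : x ∈ D₀.O),
      S₀.lat.redF (φ (algebraMap F F' x)) a = ψ (D₀.red ⟨x, hx⟩))
    (hy : S₀.lat.redF (φ S₀.y) a = ψ (algebraMap k κ (S₀.r b)))
    (f : F') (hf : f ∈ S₀.O') : S₀.lat.redF (φ f) a = ψ (S₀.lat.redF f b) := by
  set φO : S₀.O' →+* S₀.O' := (φ.comp S₀.O'.subtype).codRestrict S₀.O' (fun f => hφ f.1 f.2)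
    with hφO
  set α : S₀.O' →+* κ := (Pi.evalRingHom (fun _ : Fin n => κ) a).comp (S₀.red'.comp φO) with hα
  set β : S₀.O' →+* κ := ψ.comp ((Pi.evalRingHom (fun _ : Fin n => κ) b).comp S₀.red') with hβ
  have key : α = β := by
    apply h35_as_hom_ext S₀ α β
    · intro c
      have hc' : algebraMap F F' (c : F) ∈ S₀.O' := (S₀.algebraMap_mem_O'_iff (c : F)).mpr c.2
      have h1 : α (h35_inclO S₀ c) = S₀.red' ⟨φ (algebraMap F F' (c : F)), hφ _ hc'⟩ a := rfl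
      have h2 : β (h35_inclO S₀ c) = ψ (S₀.red' ⟨algebraMap F F' (c : F), hc'⟩ b) := rfl
      have h3 := hred (c : F) c.2
      rw [S₀.lat.redF_of_mem (show φ (algebraMap F F' (c : F)) ∈ S₀.lat.O from hφ _ hc')] at h3
      rw [h1, h2, S₀.red'_algebraMap (c : F) c.2]
      exact h3
    · have h1 : α ⟨S₀.y, S₀.y_mem⟩ = S₀.red' ⟨φ S₀.y, hφ _ S₀.y_mem⟩ a := rfl
      have h2 : β ⟨S₀.y, S₀.y_mem⟩ = ψ (S₀.red' ⟨S₀.y, S₀.y_mem⟩ b) := rfl
      have h3 := hy
      rw [S₀.lat.redF_of_mem (show φ S₀.y ∈ S₀.lat.O from hφ _ S₀.y_mem)] at h3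
      have h4 := S₀.lat_red_y S₀.y_mem b
      rw [h1, h2]
      exact h3.trans (congrArg ψ h4.symm)
  have h5 := congrArg (fun χ : S₀.O' →+* κ => χ ⟨f, hf⟩) key
  rw [S₀.lat.redF_of_mem (show φ f ∈ S₀.lat.O from hφ f hf),
    S₀.lat.redF_of_mem (show f ∈ S₀.lat.O from hf)]
  exact h5

/-- **Transport of sheets.**  A ring automorphism `φ` of `F'` such that `φ` and `φ⁻¹` map `O₀`
into `O₀[y]`, acting on the reductions of `O₀` through `ψ` and with `red (φ y) a = ψ (r b)`,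
maps the valuation ring of the sheet `b` onto the one of the sheet `a`, compatibly with the
residue maps. -/
theorem h85_as_transport (S₀ : h15_ASData D₀ F' n) (hRk : h39_RankOne D₀.A)
    (hsurj₀ : Function.Surjective D₀.red) (φ : F' ≃+* F') (ψ : κ →+* κ)
    (hφ : ∀ x : F, x ∈ D₀.O → φ (algebraMap F F' x) ∈ S₀.O')
    (hφ' : ∀ x : F, x ∈ D₀.O → φ.symm (algebraMap F F' x) ∈ S₀.O') (a b : Fin n)
    (hred : ∀ (x : F) (hx : x ∈ D₀.O),
      S₀.lat.redF (φ (algebraMap F F' x)) a = ψ (D₀.red ⟨x, hx⟩))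
    (hy : S₀.lat.redF (φ S₀.y) a = ψ (algebraMap k κ (S₀.r b))) (f : F') :
    (f ∈ (h85_asSheet S₀ hRk hsurj₀ b).O ↔ φ f ∈ (h85_asSheet S₀ hRk hsurj₀ a).O) ∧
      (f ∈ (h85_asSheet S₀ hRk hsurj₀ b).O →
        (h85_asSheet S₀ hRk hsurj₀ a).redF (φ f) = ψ ((h85_asSheet S₀ hRk hsurj₀ b).redF f)) := by
  have hφO : ∀ g, g ∈ S₀.lat.O ↔ φ g ∈ S₀.lat.O := fun g =>
    (h35_as_map_mem_iff S₀ φ hφ hφ' g).symm
  have hφred : ∀ g, g ∈ S₀.lat.O → S₀.lat.redF (φ g) a = ψ (S₀.lat.redF g b) := fun g hg =>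
    h85_as_red_semilinear S₀ (φ : F' →+* F') ψ (fun g hg => (hφO g).mp hg) a b hred hy g hg
  obtain ⟨h1, h2⟩ := h85_sheet_transport S₀.lat a b φ ψ hφO hφred f
  refine ⟨h1, fun hf => ?_⟩
  have h3 := h2 hf
  unfold h85_asSheet
  rw [h85_sheetDatum_redF, h85_sheetDatum_redF]
  exact h3

/-- **The shift rule.**  A deck transformation `γ` of `F'/F` with `γ y = ζ y + 1`, `res ζ = 1`,
maps the sheet `b` with `r b = r a + 1` onto the sheet `a`:  `V_b = V_a ∘ γ`. -/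
theorem h85_as_deck (S₀ : h15_ASData D₀ F' n) (hRk : h39_RankOne D₀.A)
    (hsurj₀ : Function.Surjective D₀.red) (γ : F' ≃ₐ[F] F') (ζ : K) (hζA : ζ ∈ D₀.A)
    (hζres : D₀.res ⟨ζ, hζA⟩ = 1) (hγ : γ S₀.y = algebraMap K F' ζ * S₀.y + 1) (a b : Fin n)
    (hab : S₀.r b = S₀.r a + 1) (f : F') :
    (f ∈ (h85_asSheet S₀ hRk hsurj₀ b).O ↔ γ f ∈ (h85_asSheet S₀ hRk hsurj₀ a).O) ∧
      (f ∈ (h85_asSheet S₀ hRk hsurj₀ b).O →
        (h85_asSheet S₀ hRk hsurj₀ a).redF (γ f) = (h85_asSheet S₀ hRk hsurj₀ b).redF f) := by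
  have hmemF : ∀ x : F, x ∈ D₀.O → algebraMap F F' x ∈ S₀.O' := fun x hx =>
    (S₀.algebraMap_mem_O'_iff x).mpr hx
  have hζO : algebraMap K F' ζ ∈ S₀.lat.O := (S₀.lat.mem_iff ζ).mp hζA
  have hredζ : S₀.lat.redF (algebraMap K F' ζ) = 1 := by
    rw [S₀.lat.redF_of_mem hζO, S₀.lat.red_algebraMap ζ hζA hζO]
    have : S₀.lat.res ⟨ζ, hζA⟩ = D₀.res ⟨ζ, hζA⟩ := rfl
    rw [this, hζres, map_one]
  have h := h85_as_transport S₀ hRk hsurj₀ (γ : F' ≃+* F') (RingHom.id κ)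
    (fun x hx => by
      show γ (algebraMap F F' x) ∈ S₀.O'
      rw [γ.commutes]
      exact hmemF x hx)
    (fun x hx => by
      show γ.symm (algebraMap F F' x) ∈ S₀.O'
      rw [γ.symm.commutes]
      exact hmemF x hx) a b
    (fun x hx => by
      show S₀.lat.redF (γ (algebraMap F F' x)) a = D₀.red ⟨x, hx⟩
      rw [γ.commutes, S₀.lat.redF_of_mem (show algebraMap F F' x ∈ S₀.lat.O from hmemF x hx),
        S₀.lat_red_algebraMap x hx _ a])
    (by
      show S₀.lat.redF (γ S₀.y) a = algebraMap k κ (S₀.r b)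
      have hy : S₀.y ∈ S₀.lat.O := S₀.y_mem
      rw [hγ, h51_redF_add S₀.lat (S₀.lat.O.mul_mem hζO hy) S₀.lat.O.one_mem,
        h51_redF_mul S₀.lat hζO hy, hredζ, one_mul, h51_redF_one, Pi.add_apply,
        S₀.lat.redF_of_mem hy, S₀.lat_red_y hy a, hab, map_add, map_one]
      rfl) f
  exact h

end AS

/-! ### Part C: two components -/

section One

variable {K F k Fb : Type*} [Field K] [Field F] [Algebra K F] [Field k] [Field Fb] [Algebra k Fb]

/-- One reduction datum as a one-component lattice datum. -/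
def h85_latOne (R : h39_RedDatum K F k Fb) : h22_Lat K F k Fb where
  A := R.A
  O := R.O.toSubring
  res := R.res
  red := R.red
  res_surjective := R.res_surjective
  mem_iff := R.mem_iff
  red_algebraMap := R.red_algebraMap
  exists_scale f hf := by
    obtain ⟨c, hc, h1, h2⟩ := R.exists_scale f hf
    refine ⟨c, hc, h1, fun h0 => ?_⟩
    have h3 : R.redF (algebraMap K F c * f) = 0 := by
      rw [R.redF_of_mem h1]
      exact h0
    rcases (h39_redF_eq_zero_iff R h1).mp h3 with h | h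
    · exact mul_ne_zero ((map_ne_zero _).mpr hc) hf h
    · exact h h2
  ker f hf h0 := by
    rcases eq_or_ne f 0 with rfl | hf0
    · refine ⟨0, ?_, 0, R.O.zero_mem, by rw [mul_zero]⟩
      rw [ValuationSubring.mem_nonunits_iff_or]
      exact Or.inl rfl
    obtain ⟨c, hc, h1, h2⟩ := R.exists_scale f hf0
    have hcF : algebraMap K F c ≠ 0 := (map_ne_zero _).mpr hc
    have hfO : f ∈ R.O := hf
    have hfinv : f⁻¹ ∉ R.O := by
      have h3 : R.redF f = 0 := by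
        rw [R.redF_of_mem hfO]
        exact h0
      rcases (h39_redF_eq_zero_iff R hfO).mp h3 with h | h
      · exact absurd h hf0
      · exact h
    refine ⟨c⁻¹, h22_inv_mem_nonunits R.A R.O R.mem_iff hfO hfinv hc h2, algebraMap K F c * f,
      h1, ?_⟩
    rw [map_inv₀]
    field_simp

theorem h85_latOne_A (R : h39_RedDatum K F k Fb) : (h85_latOne R).A = R.A := rfl

theorem h85_mem_latOne (R : h39_RedDatum K F k Fb) (f : F) : f ∈ (h85_latOne R).O ↔ f ∈ R.O :=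
  Iff.rfl

theorem h85_latOne_red (R : h39_RedDatum K F k Fb) (f : F) (hf : f ∈ R.O) :
    (h85_latOne R).red ⟨f, hf⟩ = R.redF f := by
  rw [R.redF_of_mem hf]
  rfl

theorem h85_latOne_red_surjective (R : h39_RedDatum K F k Fb) :
    Function.Surjective (h85_latOne R).red := R.red_surjective

end One

section Pair

variable {K F k Fb₁ Fb₂ : Type*} [Field K] [Field F] [Algebra K F] [Field k]
  [Field Fb₁] [Algebra k Fb₁] [Field Fb₂] [Algebra k Fb₂]
variable {R₁ : h39_RedDatum K F k Fb₁} {R₂ : h39_RedDatum K F k Fb₂}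
  {A : ValuationSubring K} {res : A →+* k} {hres_surj : Function.Surjective res}
  {hA₁ : R₁.A = A} {hA₂ : R₂.A = A}
  {hres₁ : ∀ (a : K) (ha : a ∈ A), R₁.resK a = res ⟨a, ha⟩}
  {hres₂ : ∀ (a : K) (ha : a ∈ A), R₂.resK a = res ⟨a, ha⟩}
variable {F' : Type*} [Field F'] [Algebra F F'] [Algebra K F'] [IsScalarTower K F F'] {n : ℕ}

/-- the inclusion `O₁ ∩ O₂ → O₁` -/
def h85_pairToFst (R₁ : h39_RedDatum K F k Fb₁) (R₂ : h39_RedDatum K F k Fb₂)
    (A : ValuationSubring K) (res : A →+* k) (hres_surj : Function.Surjective res)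
    (hA₁ : R₁.A = A) (hA₂ : R₂.A = A)
    (hres₁ : ∀ (a : K) (ha : a ∈ A), R₁.resK a = res ⟨a, ha⟩)
    (hres₂ : ∀ (a : K) (ha : a ∈ A), R₂.resK a = res ⟨a, ha⟩) :
    (h22_latOfPair R₁ R₂ A res hres_surj hA₁ hA₂ hres₁ hres₂).O →+* (h85_latOne R₁).O where
  toFun f := ⟨f.1, f.2.1⟩
  map_one' := rfl
  map_mul' _ _ := rfl
  map_zero' := rfl
  map_add' _ _ := rfl

/-- the inclusion `O₁ ∩ O₂ → O₂` -/
def h85_pairToSnd (R₁ : h39_RedDatum K F k Fb₁) (R₂ : h39_RedDatum K F k Fb₂)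
    (A : ValuationSubring K) (res : A →+* k) (hres_surj : Function.Surjective res)
    (hA₁ : R₁.A = A) (hA₂ : R₂.A = A)
    (hres₁ : ∀ (a : K) (ha : a ∈ A), R₁.resK a = res ⟨a, ha⟩)
    (hres₂ : ∀ (a : K) (ha : a ∈ A), R₂.resK a = res ⟨a, ha⟩) :
    (h22_latOfPair R₁ R₂ A res hres_surj hA₁ hA₂ hres₁ hres₂).O →+* (h85_latOne R₂).O where
  toFun f := ⟨f.1, f.2.2⟩
  map_one' := rfl
  map_mul' _ _ := rfl
  map_zero' := rfl
  map_add' _ _ := rfl

/-- The first component of a split step over a two-component lattice. -/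
def h85_asFst (S : h15_ASData (h22_latOfPair R₁ R₂ A res hres_surj hA₁ hA₂ hres₁ hres₂) F' n) :
    h15_ASData (h85_latOne R₁) F' n where
  y := S.y
  P := S.P.map (h85_pairToFst R₁ R₂ A res hres_surj hA₁ hA₂ hres₁ hres₂)
  monic := S.monic.map _
  natDegree_eq := by rw [S.monic.natDegree_map, S.natDegree_eq]
  pos := S.pos
  root := by
    rw [Polynomial.eval₂_map]
    exact S.root
  li := S.li
  span := S.span
  r := S.r
  r_injective := S.r_injective
  red_root a := by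
    rw [Polynomial.eval₂_map]
    have h := congrArg (RingHom.fst Fb₁ Fb₂) (S.red_root a)
    rw [Polynomial.hom_eval₂, map_zero] at h
    exact h

/-- The second component of a split step over a two-component lattice. -/
def h85_asSnd (S : h15_ASData (h22_latOfPair R₁ R₂ A res hres_surj hA₁ hA₂ hres₁ hres₂) F' n) :
    h15_ASData (h85_latOne R₂) F' n where
  y := S.y
  P := S.P.map (h85_pairToSnd R₁ R₂ A res hres_surj hA₁ hA₂ hres₁ hres₂)
  monic := S.monic.map _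
  natDegree_eq := by rw [S.monic.natDegree_map, S.natDegree_eq]
  pos := S.pos
  root := by
    rw [Polynomial.eval₂_map]
    exact S.root
  li := S.li
  span := S.span
  r := S.r
  r_injective := S.r_injective
  red_root a := by
    rw [Polynomial.eval₂_map]
    have h := congrArg (RingHom.snd Fb₁ Fb₂) (S.red_root a)
    rw [Polynomial.hom_eval₂, map_zero] at h
    exact h

variable (S : h15_ASData (h22_latOfPair R₁ R₂ A res hres_surj hA₁ hA₂ hres₁ hres₂) F' n)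

theorem h85_asFst_y : (h85_asFst S).y = S.y := rfl

theorem h85_asSnd_y : (h85_asSnd S).y = S.y := rfl

theorem h85_asFst_r : (h85_asFst S).r = S.r := rfl

theorem h85_asSnd_r : (h85_asSnd S).r = S.r := rfl

/-- `(O₁ ∩ O₂)[y] = O₁[y] ∩ O₂[y]`. -/
theorem h85_pair_mem_iff (f : F') :
    f ∈ S.O' ↔ f ∈ (h85_asFst S).O' ∧ f ∈ (h85_asSnd S).O' := by
  obtain ⟨c, rfl⟩ := S.span f
  have h0 := S.sum_mem_O'_iff c
  have h1 := (h85_asFst S).sum_mem_O'_iff c
  have h2 := (h85_asSnd S).sum_mem_O'_iff c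
  constructor
  · intro h
    exact ⟨h1.mpr fun j => (h0.mp h j).1, h2.mpr fun j => (h0.mp h j).2⟩
  · rintro ⟨h3, h4⟩
    exact h0.mpr fun j => ⟨h1.mp h3 j, h2.mp h4 j⟩

/-- The reduction of the two-component step is the pair of the component reductions. -/
theorem h85_pair_redF {f : F'} (hf : f ∈ S.O') (a : Fin n) :
    S.lat.redF f a = ((h85_asFst S).lat.redF f a, (h85_asSnd S).lat.redF f a) := by
  have hf₁ : f ∈ (h85_asFst S).O' := ((h85_pair_mem_iff S f).mp hf).1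
  have hf₂ : f ∈ (h85_asSnd S).O' := ((h85_pair_mem_iff S f).mp hf).2
  obtain ⟨c, rfl⟩ := S.span f
  have hc := (S.sum_mem_O'_iff c).mp hf
  have hc₁ : ∀ j, c j ∈ (h85_latOne R₁).O := fun j => (hc j).1
  have hc₂ : ∀ j, c j ∈ (h85_latOne R₂).O := fun j => (hc j).2
  have e0 : S.lat.redF (∑ j, algebraMap F F' (c j) * S.y ^ (j : ℕ)) a =
      ∑ j : Fin n, (h22_latOfPair R₁ R₂ A res hres_surj hA₁ hA₂ hres₁ hres₂).red ⟨c j, hc j⟩ *
        algebraMap k (Fb₁ × Fb₂) (S.r a) ^ (j : ℕ) := by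
    rw [S.lat.redF_of_mem (show _ ∈ S.lat.O from hf)]
    exact S.lat_red_sum c hc hf a
  have e1 : (h85_asFst S).lat.redF (∑ j, algebraMap F F' (c j) * S.y ^ (j : ℕ)) a =
      ∑ j : Fin n, (h85_latOne R₁).red ⟨c j, hc₁ j⟩ * algebraMap k Fb₁ (S.r a) ^ (j : ℕ) := by
    rw [(h85_asFst S).lat.redF_of_mem (show _ ∈ (h85_asFst S).lat.O from hf₁)]
    exact (h85_asFst S).lat_red_sum c hc₁ hf₁ a
  have e2 : (h85_asSnd S).lat.redF (∑ j, algebraMap F F' (c j) * S.y ^ (j : ℕ)) a =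
      ∑ j : Fin n, (h85_latOne R₂).red ⟨c j, hc₂ j⟩ * algebraMap k Fb₂ (S.r a) ^ (j : ℕ) := by
    rw [(h85_asSnd S).lat.redF_of_mem (show _ ∈ (h85_asSnd S).lat.O from hf₂)]
    exact (h85_asSnd S).lat_red_sum c hc₂ hf₂ a
  rw [e0, e1, e2]
  refine Prod.ext ?_ ?_
  · rw [Prod.fst_sum]
    refine Finset.sum_congr rfl fun j _ => ?_
    rfl
  · rw [Prod.snd_sum]
    refine Finset.sum_congr rfl fun j _ => ?_
    rfl

/-- **The sheets over the first component.** -/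
def h85_sheet₁ (hRk : h39_RankOne R₁.A) (a : Fin n) : h39_RedDatum K F' k Fb₁ :=
  h85_asSheet (h85_asFst S) hRk (h85_latOne_red_surjective R₁) a

/-- **The sheets over the second component.** -/
def h85_sheet₂ (hRk : h39_RankOne R₂.A) (a : Fin n) : h39_RedDatum K F' k Fb₂ :=
  h85_asSheet (h85_asSnd S) hRk (h85_latOne_red_surjective R₂) a

/-- **`O' = ⋂ V_(i,a)`**: the lattice ring of the cover is the intersection of the `2n` sheet
valuation rings. -/
theorem h85_mem_O'_iff_sheets (hRk₁ : h39_RankOne R₁.A) (hRk₂ : h39_RankOne R₂.A) (f : F') :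
    f ∈ S.O' ↔ ∀ a, f ∈ (h85_sheet₁ S hRk₁ a).O ∧ f ∈ (h85_sheet₂ S hRk₂ a).O := by
  rw [h85_pair_mem_iff S f,
    h85_mem_O'_iff_forall_asSheet (h85_asFst S) hRk₁ (h85_latOne_red_surjective R₁) f,
    h85_mem_O'_iff_forall_asSheet (h85_asSnd S) hRk₂ (h85_latOne_red_surjective R₂) f]
  exact ⟨fun h a => ⟨h.1 a, h.2 a⟩, fun h => ⟨fun a => (h a).1, fun a => (h a).2⟩⟩

/-- **`red' = (red_(1,a), red_(2,a))_a`** on the lattice ring. -/
theorem h85_red_sheets (hRk₁ : h39_RankOne R₁.A) (hRk₂ : h39_RankOne R₂.A) {f : F'}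
    (hf : f ∈ S.O') (a : Fin n) :
    S.lat.redF f a = ((h85_sheet₁ S hRk₁ a).redF f, (h85_sheet₂ S hRk₂ a).redF f) := by
  have hf₁ : f ∈ (h85_asFst S).O' := ((h85_pair_mem_iff S f).mp hf).1
  have hf₂ : f ∈ (h85_asSnd S).O' := ((h85_pair_mem_iff S f).mp hf).2
  rw [h85_pair_redF S hf a]
  unfold h85_sheet₁ h85_sheet₂
  rw [h85_asSheet_redF_of_mem (h85_asFst S) hRk₁ _ a hf₁,
    h85_asSheet_redF_of_mem (h85_asSnd S) hRk₂ _ a hf₂]

/-- `V_(1,a) ∩ F = O₁` and `V_(2,a) ∩ F = O₂`. -/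
theorem h85_sheet_algebraMap_mem_iff (hRk₁ : h39_RankOne R₁.A) (hRk₂ : h39_RankOne R₂.A)
    (a : Fin n) (x : F) :
    (algebraMap F F' x ∈ (h85_sheet₁ S hRk₁ a).O ↔ x ∈ R₁.O) ∧
      (algebraMap F F' x ∈ (h85_sheet₂ S hRk₂ a).O ↔ x ∈ R₂.O) :=
  ⟨h85_asSheet_algebraMap_mem_iff (h85_asFst S) hRk₁ _ a x,
    h85_asSheet_algebraMap_mem_iff (h85_asSnd S) hRk₂ _ a x⟩

/-- The residue maps of the sheets restricted to `F`. -/
theorem h85_sheet_redF_algebraMap (hRk₁ : h39_RankOne R₁.A) (hRk₂ : h39_RankOne R₂.A)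
    (a : Fin n) (x : F) :
    (x ∈ R₁.O → (h85_sheet₁ S hRk₁ a).redF (algebraMap F F' x) = R₁.redF x) ∧
      (x ∈ R₂.O → (h85_sheet₂ S hRk₂ a).redF (algebraMap F F' x) = R₂.redF x) := by
  refine ⟨fun hx => ?_, fun hx => ?_⟩
  · unfold h85_sheet₁
    rw [h85_asSheet_redF_algebraMap (h85_asFst S) hRk₁ _ a (show x ∈ (h85_latOne R₁).O from hx),
      h85_latOne_red R₁ x hx]
  · unfold h85_sheet₂
    rw [h85_asSheet_redF_algebraMap (h85_asSnd S) hRk₂ _ a (show x ∈ (h85_latOne R₂).O from hx),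
      h85_latOne_red R₂ x hx]

/-- The generator `y` on the sheets: residue `r a` on both components. -/
theorem h85_sheet_y (hRk₁ : h39_RankOne R₁.A) (hRk₂ : h39_RankOne R₂.A) (a : Fin n) :
    (S.y ∈ (h85_sheet₁ S hRk₁ a).O ∧
        (h85_sheet₁ S hRk₁ a).redF S.y = algebraMap k Fb₁ (S.r a)) ∧
      (S.y ∈ (h85_sheet₂ S hRk₂ a).O ∧
        (h85_sheet₂ S hRk₂ a).redF S.y = algebraMap k Fb₂ (S.r a)) :=
  ⟨h85_asSheet_y (h85_asFst S) hRk₁ _ a, h85_asSheet_y (h85_asSnd S) hRk₂ _ a⟩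

/-- **The shift rule, both components.**  A deck transformation `γ` of `F'/F` with
`γ y = ζ y + 1`, `res ζ = 1`: for sheets `a`, `b` with `r b = r a + 1`,
`f ∈ V_(i,b) ↔ γ f ∈ V_(i,a)` and `red_(i,a) (γ f) = red_(i,b) f`. -/
theorem h85_sheet_deck (hRk₁ : h39_RankOne R₁.A) (hRk₂ : h39_RankOne R₂.A) (γ : F' ≃ₐ[F] F')
    (ζ : K) (hζA : ζ ∈ A) (hζres : res ⟨ζ, hζA⟩ = 1)
    (hγ : γ S.y = algebraMap K F' ζ * S.y + 1) (a b : Fin n) (hab : S.r b = S.r a + 1)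
    (f : F') :
    ((f ∈ (h85_sheet₁ S hRk₁ b).O ↔ γ f ∈ (h85_sheet₁ S hRk₁ a).O) ∧
        (f ∈ (h85_sheet₁ S hRk₁ b).O →
          (h85_sheet₁ S hRk₁ a).redF (γ f) = (h85_sheet₁ S hRk₁ b).redF f)) ∧
      ((f ∈ (h85_sheet₂ S hRk₂ b).O ↔ γ f ∈ (h85_sheet₂ S hRk₂ a).O) ∧
        (f ∈ (h85_sheet₂ S hRk₂ b).O →
          (h85_sheet₂ S hRk₂ a).redF (γ f) = (h85_sheet₂ S hRk₂ b).redF f)) := by
  have hζ₁ : ζ ∈ R₁.A := hA₁ ▸ hζA
  have hζ₂ : ζ ∈ R₂.A := hA₂ ▸ hζA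
  have hres1 : (h85_latOne R₁).res ⟨ζ, hζ₁⟩ = 1 := by
    have h := hres₁ ζ hζA
    rw [R₁.resK_of_mem hζ₁, hζres] at h
    exact h
  have hres2 : (h85_latOne R₂).res ⟨ζ, hζ₂⟩ = 1 := by
    have h := hres₂ ζ hζA
    rw [R₂.resK_of_mem hζ₂, hζres] at h
    exact h
  exact ⟨h85_as_deck (h85_asFst S) hRk₁ _ γ ζ hζ₁ hres1 hγ a b hab f,
    h85_as_deck (h85_asSnd S) hRk₂ _ γ ζ hζ₂ hres2 hγ a b hab f⟩

end Pair

end Fermat.Agent.S40

end
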