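/-
S40 / G40, wild first-order route for (TR): the arithmetic of the twist count (C3).

For a node `x` with branch orders `e₁ x`, `e₂ x` (orders of the two reductions of `u`), the twist
`δ ∈ {0, …, p-1}` of the lattice by the vertical divisor contributes
`T x δ = (-(e₁ x) - δ) % p + (δ - e₂ x) % p + p * [p ∣ e₁ x + δ ∨ p ∣ e₂ x - δ]`
(`p` times the local colength) to the upper bound.  Summing over all twists forces
`p ∣ e₁ x + e₂ x` at every node, no rounding elsewhere, and equality for every twist.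
Mathlib only.
-/
import Mathlib

set_option autoImplicit false

namespace Fermat.Agent.S40

open Finset

/-- the local term of the twisted upper bound at a node, multiplied by `p`. -/
def h86_twistTerm (p : ℕ) (e₁ e₂ : ℤ) (δ : ℕ) : ℤ :=
  (-(e₁) - (δ : ℤ)) % (p : ℤ) + ((δ : ℤ) - e₂) % (p : ℤ) +
    (if ((p : ℤ) ∣ e₁ + (δ : ℤ)) ∨ ((p : ℤ) ∣ e₂ - (δ : ℤ)) then (p : ℤ) else 0)

/-- sum of the residues `(c - δ) % p` over a full period. -/
theorem h86_sum_emod_sub (p : ℕ) (hp : 0 < p) (c : ℤ) :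
    ∑ δ ∈ range p, (c - (δ : ℤ)) % (p : ℤ) = ∑ r ∈ range p, (r : ℤ) := by
  have hp' : (0 : ℤ) < (p : ℤ) := by exact_mod_cast hp
  -- bijection δ ↦ ((c - δ) % p).toNat on range p
  refine Finset.sum_bij' (fun δ _ => ((c - (δ : ℤ)) % (p : ℤ)).toNat)
    (fun r _ => ((c - (r : ℤ)) % (p : ℤ)).toNat) ?_ ?_ ?_ ?_ ?_
  · intro δ _
    rw [mem_range]
    have h1 := Int.emod_lt_of_pos (c - (δ : ℤ)) hp'
    have h0 := Int.emod_nonneg (c - (δ : ℤ)) hp'.ne'
    omega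
  · intro r _
    rw [mem_range]
    have h1 := Int.emod_lt_of_pos (c - (r : ℤ)) hp'
    have h0 := Int.emod_nonneg (c - (r : ℤ)) hp'.ne'
    omega
  · intro δ hδ
    rw [mem_range] at hδ
    have h0 := Int.emod_nonneg (c - (δ : ℤ)) hp'.ne'
    have key : (c - ((c - (δ : ℤ)) % (p : ℤ))) % (p : ℤ) = (δ : ℤ) := by
      have : (c - ((c - (δ : ℤ)) % (p : ℤ))) % (p : ℤ) = (c - (c - (δ : ℤ))) % (p : ℤ) := by
        rw [Int.sub_emod, Int.emod_emod_of_dvd _ (dvd_refl _), ← Int.sub_emod]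
      rw [this]
      have : c - (c - (δ : ℤ)) = (δ : ℤ) := by ring
      rw [this]
      exact Int.emod_eq_of_lt (by positivity) (by exact_mod_cast hδ)
    show ((c - ((((c - (δ : ℤ)) % (p : ℤ)).toNat : ℕ) : ℤ)) % (p : ℤ)).toNat = δ
    rw [Int.toNat_of_nonneg h0, key]
    simp
  · intro r hr
    rw [mem_range] at hr
    have h0 := Int.emod_nonneg (c - (r : ℤ)) hp'.ne'
    have key : (c - ((c - (r : ℤ)) % (p : ℤ))) % (p : ℤ) = (r : ℤ) := by
      have : (c - ((c - (r : ℤ)) % (p : ℤ))) % (p : ℤ) = (c - (c - (r : ℤ))) % (p : ℤ) := by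
        rw [Int.sub_emod, Int.emod_emod_of_dvd _ (dvd_refl _), ← Int.sub_emod]
      rw [this]
      have : c - (c - (r : ℤ)) = (r : ℤ) := by ring
      rw [this]
      exact Int.emod_eq_of_lt (by positivity) (by exact_mod_cast hr)
    show ((c - ((((c - (r : ℤ)) % (p : ℤ)).toNat : ℕ) : ℤ)) % (p : ℤ)).toNat = r
    rw [Int.toNat_of_nonneg h0, key]
    simp
  · intro δ _
    have h0 := Int.emod_nonneg (c - (δ : ℤ)) hp'.ne'
    show (c - (δ : ℤ)) % (p : ℤ) = ((((c - (δ : ℤ)) % (p : ℤ)).toNat : ℕ) : ℤ)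
    rw [Int.toNat_of_nonneg h0]

/-- sum of the residues `(δ + c) % p` over a full period. -/
theorem h86_sum_emod_add (p : ℕ) (hp : 0 < p) (c : ℤ) :
    ∑ δ ∈ range p, ((δ : ℤ) + c) % (p : ℤ) = ∑ r ∈ range p, (r : ℤ) := by
  rw [← h86_sum_emod_sub p hp (c + (p : ℤ) - 1), ← Finset.sum_range_reflect]
  refine Finset.sum_congr rfl fun j hj => ?_
  rw [mem_range] at hj
  have : ((p - 1 - j : ℕ) : ℤ) = (p : ℤ) - 1 - (j : ℤ) := by omega
  rw [this]
  congr 1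
  ring

theorem h86_two_mul_sum_range (p : ℕ) :
    2 * ∑ r ∈ range p, (r : ℤ) = (p : ℤ) * ((p : ℤ) - 1) := by
  have h := Finset.sum_range_id_mul_two p
  have h2 : ((∑ i ∈ range p, i : ℕ) : ℤ) * 2 = ((p * (p - 1) : ℕ) : ℤ) := by exact_mod_cast h
  rw [Nat.cast_sum] at h2
  rcases Nat.eq_zero_or_pos p with rfl | hp
  · simp
  · have : ((p * (p - 1) : ℕ) : ℤ) = (p : ℤ) * ((p : ℤ) - 1) := by
      rw [Nat.cast_mul, Nat.cast_sub hp]; simp
    rw [this] at h2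
    linarith

/-- for `δ < p`: `p ∣ c + δ` iff `δ` is the residue of `-c`. -/
theorem h86_dvd_add_iff (p : ℕ) (hp : 0 < p) (c : ℤ) (δ : ℕ) (hδ : δ < p) :
    (p : ℤ) ∣ c + (δ : ℤ) ↔ δ = ((-c) % (p : ℤ)).toNat := by
  have hp' : (0 : ℤ) < (p : ℤ) := by exact_mod_cast hp
  have h0 := Int.emod_nonneg (-c) hp'.ne'
  have hδ' : ((δ : ℤ)) % (p : ℤ) = (δ : ℤ) :=
    Int.emod_eq_of_lt (by positivity) (by exact_mod_cast hδ)
  constructor
  · intro h
    have h1 : (-c) % (p : ℤ) = (δ : ℤ) % (p : ℤ) := by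
      rw [Int.emod_eq_emod_iff_emod_sub_eq_zero]
      have : (-c - (δ : ℤ)) = -(c + (δ : ℤ)) := by ring
      rw [this]
      exact Int.emod_eq_zero_of_dvd ((dvd_neg).2 h)
    rw [h1, hδ']
    simp
  · intro h
    have h1 : ((δ : ℕ) : ℤ) = (-c) % (p : ℤ) := by
      rw [h, Int.toNat_of_nonneg h0]
    have h2 : (-c) % (p : ℤ) = (δ : ℤ) % (p : ℤ) := by rw [hδ', h1]
    rw [Int.emod_eq_emod_iff_emod_sub_eq_zero] at h2
    have h3 : (p : ℤ) ∣ (-c - (δ : ℤ)) := Int.dvd_of_emod_eq_zero h2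
    have : c + (δ : ℤ) = -(-c - (δ : ℤ)) := by ring
    rw [this]
    exact (dvd_neg).2 h3

/-- the sum of the local term over all `p` twists. -/
theorem h86_sum_twistTerm (p : ℕ) (hp : 0 < p) (e₁ e₂ : ℤ) :
    ∑ δ ∈ range p, h86_twistTerm p e₁ e₂ δ =
      (p : ℤ) * (p : ℤ) + (if (p : ℤ) ∣ e₁ + e₂ then 0 else (p : ℤ)) := by
  have hp' : (0 : ℤ) < (p : ℤ) := by exact_mod_cast hp
  unfold h86_twistTerm
  rw [Finset.sum_add_distrib, Finset.sum_add_distrib, h86_sum_emod_sub p hp (-e₁)]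
  have hB : ∑ δ ∈ range p, ((δ : ℤ) - e₂) % (p : ℤ) = ∑ r ∈ range p, (r : ℤ) := by
    have := h86_sum_emod_add p hp (-e₂)
    simpa [sub_eq_add_neg] using this
  rw [hB]
  -- the indicator sum
  set δ₁ : ℕ := ((-e₁) % (p : ℤ)).toNat with hδ₁
  set δ₂ : ℕ := (e₂ % (p : ℤ)).toNat with hδ₂
  have hδ₁lt : δ₁ < p := by
    have h1 := Int.emod_lt_of_pos (-e₁) hp'
    have h0 := Int.emod_nonneg (-e₁) hp'.ne'
    omega
  have hδ₂lt : δ₂ < p := by
    have h1 := Int.emod_lt_of_pos e₂ hp'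
    have h0 := Int.emod_nonneg e₂ hp'.ne'
    omega
  have hfilter : (range p).filter (fun δ : ℕ => ((p : ℤ) ∣ e₁ + (δ : ℤ)) ∨ ((p : ℤ) ∣ e₂ - (δ : ℤ)))
      = {δ₁, δ₂} := by
    ext δ
    simp only [mem_filter, mem_range, mem_insert, mem_singleton]
    constructor
    · rintro ⟨hδ, h | h⟩
      · left; exact (h86_dvd_add_iff p hp e₁ δ hδ).1 h
      · right
        have h' : (p : ℤ) ∣ (-e₂) + (δ : ℤ) := by
          have : (-e₂) + (δ : ℤ) = -(e₂ - (δ : ℤ)) := by ring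
          rw [this]; exact (dvd_neg).2 h
        have := (h86_dvd_add_iff p hp (-e₂) δ hδ).1 h'
        rw [neg_neg] at this
        exact this
    · rintro (h | h)
      · subst h
        exact ⟨hδ₁lt, Or.inl ((h86_dvd_add_iff p hp e₁ δ₁ hδ₁lt).2 rfl)⟩
      · subst h
        refine ⟨hδ₂lt, Or.inr ?_⟩
        have h' : (p : ℤ) ∣ (-e₂) + (δ₂ : ℤ) :=
          (h86_dvd_add_iff p hp (-e₂) δ₂ hδ₂lt).2 (by rw [neg_neg])
        have : e₂ - (δ₂ : ℤ) = -((-e₂) + (δ₂ : ℤ)) := by ring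
        rw [this]; exact (dvd_neg).2 h'
  have hind : ∑ δ ∈ range p,
      (if ((p : ℤ) ∣ e₁ + (δ : ℤ)) ∨ ((p : ℤ) ∣ e₂ - (δ : ℤ)) then (p : ℤ) else 0)
      = (p : ℤ) * (({δ₁, δ₂} : Finset ℕ).card : ℤ) := by
    rw [Finset.sum_ite, Finset.sum_const_zero, add_zero, Finset.sum_const, hfilter]
    simp [mul_comm]
  rw [hind]
  have hcard : (({δ₁, δ₂} : Finset ℕ).card : ℤ) = if (p : ℤ) ∣ e₁ + e₂ then 1 else 2 := by
    have hiff : δ₁ = δ₂ ↔ (p : ℤ) ∣ e₁ + e₂ := by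
      have := h86_dvd_add_iff p hp e₁ δ₂ hδ₂lt
      rw [← hδ₁] at this
      rw [eq_comm, ← this]
      have h0 := Int.emod_nonneg e₂ hp'.ne'
      have hc : ((δ₂ : ℕ) : ℤ) = e₂ % (p : ℤ) := by rw [hδ₂, Int.toNat_of_nonneg h0]
      rw [hc]
      constructor
      · intro h
        have : e₁ + e₂ = (e₁ + e₂ % (p : ℤ)) + (p : ℤ) * (e₂ / (p : ℤ)) := by
          have := Int.emod_add_mul_ediv e₂ (p : ℤ)
          linarith
        rw [this]
        exact dvd_add h (dvd_mul_right _ _)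
      · intro h
        have : e₁ + e₂ % (p : ℤ) = (e₁ + e₂) - (p : ℤ) * (e₂ / (p : ℤ)) := by
          have := Int.emod_add_mul_ediv e₂ (p : ℤ)
          linarith
        rw [this]
        exact dvd_sub h (dvd_mul_right _ _)
    by_cases h : (p : ℤ) ∣ e₁ + e₂
    · rw [if_pos h, hiff.2 h]; simp
    · rw [if_neg h, Finset.card_pair (fun h' => h (hiff.1 h'))]; simp
  rw [hcard]
  have h2 := h86_two_mul_sum_range p
  by_cases h : (p : ℤ) ∣ e₁ + e₂
  · rw [if_pos h, if_pos h]; linarith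
  · rw [if_neg h, if_neg h]; linarith

/-- **The twist count (C3).**  If for every twist `δ < p` the total upper-bound defect
`∑ₓ T x δ + sm` (`sm ≥ 0` the rounding off the nodes, independent of `δ`) is at most
`p * #nodes`, then there is no rounding (`sm = 0`), the two branch orders are opposite mod `p` at
every node, and the bound is an equality for every twist. -/
theorem h86_twist_count {ι : Type*} [Fintype ι] (p : ℕ) (hp : 0 < p) (e₁ e₂ : ι → ℤ)
    (sm : ℤ) (hsm : 0 ≤ sm)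
    (h : ∀ δ ∈ range p,
      ∑ x, h86_twistTerm p (e₁ x) (e₂ x) δ + sm ≤ (p : ℤ) * (Fintype.card ι : ℤ)) :
    sm = 0 ∧ (∀ x, (p : ℤ) ∣ e₁ x + e₂ x) ∧
      ∀ δ ∈ range p, ∑ x, h86_twistTerm p (e₁ x) (e₂ x) δ = (p : ℤ) * (Fintype.card ι : ℤ) := by
  have hp' : (0 : ℤ) < (p : ℤ) := by exact_mod_cast hp
  -- total sum over δ
  have htot : ∑ δ ∈ range p, ∑ x, h86_twistTerm p (e₁ x) (e₂ x) δ =
      (p : ℤ) * (p : ℤ) * (Fintype.card ι : ℤ) +
        (p : ℤ) * ((univ.filter fun x => ¬ (p : ℤ) ∣ e₁ x + e₂ x).card : ℤ) := by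
    rw [Finset.sum_comm]
    simp_rw [h86_sum_twistTerm p hp]
    rw [Finset.sum_add_distrib, Finset.sum_const, Finset.card_univ]
    have : ∑ x : ι, (if (p : ℤ) ∣ e₁ x + e₂ x then (0 : ℤ) else (p : ℤ)) =
        (p : ℤ) * ((univ.filter fun x => ¬ (p : ℤ) ∣ e₁ x + e₂ x).card : ℤ) := by
      rw [Finset.sum_ite, Finset.sum_const_zero, zero_add, Finset.sum_const]
      simp [mul_comm]
    rw [this]
    simp [mul_comm, mul_assoc]
  have hsum : ∑ δ ∈ range p, (∑ x, h86_twistTerm p (e₁ x) (e₂ x) δ + sm) ≤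
      ∑ _δ ∈ range p, (p : ℤ) * (Fintype.card ι : ℤ) := Finset.sum_le_sum h
  rw [Finset.sum_add_distrib, htot, Finset.sum_const, Finset.sum_const, Finset.card_range] at hsum
  simp only [nsmul_eq_mul] at hsum
  set bad : ℤ := ((univ.filter fun x => ¬ (p : ℤ) ∣ e₁ x + e₂ x).card : ℤ) with hbad
  have hbad0 : 0 ≤ bad := by positivity
  have hkey : (p : ℤ) * bad + (p : ℤ) * sm ≤ 0 := by nlinarith
  have h1 : 0 ≤ (p : ℤ) * bad := mul_nonneg hp'.le hbad0
  have h2 : 0 ≤ (p : ℤ) * sm := mul_nonneg hp'.le hsm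
  have hb : (p : ℤ) * bad = 0 := by linarith
  have hs : (p : ℤ) * sm = 0 := by linarith
  have hbad' : bad = 0 := by
    rcases mul_eq_zero.1 hb with h | h
    · exact absurd h hp'.ne'
    · exact h
  have hsm' : sm = 0 := by
    rcases mul_eq_zero.1 hs with h | h
    · exact absurd h hp'.ne'
    · exact h
  refine ⟨hsm', ?_, ?_⟩
  · intro x
    by_contra hx
    have : x ∈ univ.filter fun x => ¬ (p : ℤ) ∣ e₁ x + e₂ x := by simp [hx]
    have hpos : 0 < (univ.filter fun x => ¬ (p : ℤ) ∣ e₁ x + e₂ x).card :=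
      Finset.card_pos.2 ⟨x, this⟩
    have : (0 : ℤ) < bad := by rw [hbad]; exact_mod_cast hpos
    linarith
  · -- equality for each δ
    have hnn : ∀ δ ∈ range p,
        0 ≤ (p : ℤ) * (Fintype.card ι : ℤ) - ∑ x, h86_twistTerm p (e₁ x) (e₂ x) δ := by
      intro δ hδ
      have := h δ hδ
      rw [hsm', add_zero] at this
      linarith
    have hz : ∑ δ ∈ range p,
        ((p : ℤ) * (Fintype.card ι : ℤ) - ∑ x, h86_twistTerm p (e₁ x) (e₂ x) δ) = 0 := by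
      rw [Finset.sum_sub_distrib, htot, Finset.sum_const, Finset.card_range, hbad']
      simp only [nsmul_eq_mul]
      ring
    intro δ hδ
    have := (Finset.sum_eq_zero_iff_of_nonneg hnn).1 hz δ hδ
    linarith

/-- when the branch orders are opposite mod `p`, every twist has local term exactly `p`. -/
theorem h86_twistTerm_eq (p : ℕ) (hp : 0 < p) (e₁ e₂ : ℤ) (h : (p : ℤ) ∣ e₁ + e₂) (δ : ℕ) :
    h86_twistTerm p e₁ e₂ δ = (p : ℤ) := by
  have hp' : (0 : ℤ) < (p : ℤ) := by exact_mod_cast hp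
  unfold h86_twistTerm
  have hiff : ((p : ℤ) ∣ e₂ - (δ : ℤ)) ↔ ((p : ℤ) ∣ e₁ + (δ : ℤ)) := by
    constructor
    · intro h'
      have : e₁ + (δ : ℤ) = (e₁ + e₂) - (e₂ - (δ : ℤ)) := by ring
      rw [this]; exact dvd_sub h h'
    · intro h'
      have : e₂ - (δ : ℤ) = (e₁ + e₂) - (e₁ + (δ : ℤ)) := by ring
      rw [this]; exact dvd_sub h h'
  have hB : ((δ : ℤ) - e₂) % (p : ℤ) = (e₁ + (δ : ℤ)) % (p : ℤ) := by
    rw [Int.emod_eq_emod_iff_emod_sub_eq_zero]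
    have : (δ : ℤ) - e₂ - (e₁ + (δ : ℤ)) = -(e₁ + e₂) := by ring
    rw [this]
    exact Int.emod_eq_zero_of_dvd ((dvd_neg).2 h)
  have hA : (-e₁ - (δ : ℤ)) = -(e₁ + (δ : ℤ)) := by ring
  rw [hB, hA]
  by_cases hd : (p : ℤ) ∣ e₁ + (δ : ℤ)
  · rw [if_pos (Or.inl hd), Int.emod_eq_zero_of_dvd hd, Int.emod_eq_zero_of_dvd ((dvd_neg).2 hd)]
    ring
  · rw [if_neg (by rintro (h' | h'); exact hd h'; exact hd (hiff.1 h'))]
    have hne : (e₁ + (δ : ℤ)) % (p : ℤ) ≠ 0 := fun h0 => hd (Int.dvd_of_emod_eq_zero h0)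
    have := Int.emod_emod_of_dvd (e₁ + (δ : ℤ)) (dvd_refl (p : ℤ))
    have hneg : (-(e₁ + (δ : ℤ))) % (p : ℤ) = (p : ℤ) - (e₁ + (δ : ℤ)) % (p : ℤ) := by
      have h1 := Int.emod_lt_of_pos (e₁ + (δ : ℤ)) hp'
      have h0 := Int.emod_nonneg (e₁ + (δ : ℤ)) hp'.ne'
      have hm : (-(e₁ + (δ : ℤ))) % (p : ℤ) = ((p : ℤ) - (e₁ + (δ : ℤ)) % (p : ℤ)) % (p : ℤ) := by
        rw [Int.emod_eq_emod_iff_emod_sub_eq_zero]
        have hdec := Int.emod_add_mul_ediv (e₁ + (δ : ℤ)) (p : ℤ)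
        have : -(e₁ + (δ : ℤ)) - ((p : ℤ) - (e₁ + (δ : ℤ)) % (p : ℤ)) =
            (p : ℤ) * (-((e₁ + (δ : ℤ)) / (p : ℤ)) - 1) := by linarith
        rw [this]
        exact Int.mul_emod_right _ _
      rw [hm]
      exact Int.emod_eq_of_lt (by omega) (by omega)
    rw [hneg]
    ring

end Fermat.Agent.S40
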