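/-
S40 / G40, (TR) by the lattice count over the vertical twists: the generic core of row W6.

* `h86_ceil`, `h86_b1`, `h86_b2`, `h86_B1`, `h86_B2`: the ceiling divisors `z ↦ -⌈b_δ(z)/p⌉`
  bounding the two components of the twisted reductions;
* `h86_count_core`: if for every twist `δ < p` the two divisors have total degree at least
  `2n - #nodes`, then the orders `e₁`, `e₂` are divisible by `p` off the nodes, opposite mod `p`
  at the nodes, and the degree bound is an equality for every twist;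
* `h86_fill`: a subspace `V` of `Fb × Fb` whose first projection lies in `L₁` and whose elements
  with vanishing first component lie in `0 × L₂` has dimension at most `dim L₁ + dim L₂`; in case
  of equality the projection is onto `L₁` and `0 × L₂ ⊆ V`.

Mathlib only.
-/
import Mathlib
import Fermat.Agent.S40.h86_TwistCount

set_option autoImplicit false

namespace Fermat.Agent.S40

open Finset

/-- `⌈y / p⌉`. -/
def h86_ceil (p : ℕ) (y : ℤ) : ℤ := -((-y) / (p : ℤ))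

theorem h86_ceil_zero (p : ℕ) : h86_ceil p 0 = 0 := by
  simp [h86_ceil]

theorem h86_ceil_spec (p : ℕ) (y : ℤ) :
    (p : ℤ) * h86_ceil p y = y + (-y) % (p : ℤ) := by
  unfold h86_ceil
  have := Int.emod_add_mul_ediv (-y) (p : ℤ)
  linarith

theorem h86_ceil_le_iff (p : ℕ) (hp : 0 < p) (y a : ℤ) :
    h86_ceil p y ≤ a ↔ y ≤ (p : ℤ) * a := by
  have hp' : (0 : ℤ) < (p : ℤ) := by exact_mod_cast hp
  unfold h86_ceil
  rw [neg_le, Int.le_ediv_iff_mul_le hp']
  constructor <;> intro h <;> linarith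

theorem h86_ceil_of_dvd (p : ℕ) (y : ℤ) (h : (p : ℤ) ∣ y) :
    (p : ℤ) * h86_ceil p y = y := by
  rw [h86_ceil_spec, Int.emod_eq_zero_of_dvd ((dvd_neg).2 h), add_zero]

noncomputable section Core

open Classical

variable {P ι : Type*} [Fintype ι]

/-- the bound function on the first component: `p * ord_z φ₁ ≥ h86_b1 … z`. -/
noncomputable def h86_b1 (p : ℕ) (n : ℤ) (e1 e2 : P → ℤ) (x1 x2 : ι → P) (q : P) (δ : ℕ)
    (z : P) : ℤ :=
  e1 z + (if z ∈ Set.range x1 then (δ : ℤ) else 0) - (if z = q then (p : ℤ) * n else 0) +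
    (if ∃ i, x1 i = z ∧ (p : ℤ) ∣ e1 (x1 i) + (δ : ℤ) ∧ ¬ (p : ℤ) ∣ e2 (x2 i) - (δ : ℤ)
      then 1 else 0)

/-- the bound function on the second component (for elements with vanishing first component):
`p * ord_z φ₂ ≥ h86_b2 … z`. -/
noncomputable def h86_b2 (p : ℕ) (n : ℤ) (e2 : P → ℤ) (x2 : ι → P) (q : P) (δ : ℕ)
    (z : P) : ℤ :=
  e2 z - (if z ∈ Set.range x2 then (δ : ℤ) else 0) - (if z = q then (p : ℤ) * n else 0) +
    (if ∃ i, x2 i = z ∧ (p : ℤ) ∣ e2 (x2 i) - (δ : ℤ) then 1 else 0)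

theorem h86_b1_node (p : ℕ) (n : ℤ) (e1 e2 : P → ℤ) (x1 x2 : ι → P) (q : P) (δ : ℕ)
    (hx1 : Function.Injective x1) (hq1 : ∀ i, x1 i ≠ q) (i : ι) :
    h86_b1 p n e1 e2 x1 x2 q δ (x1 i) = e1 (x1 i) + (δ : ℤ) +
      (if (p : ℤ) ∣ e1 (x1 i) + (δ : ℤ) ∧ ¬ (p : ℤ) ∣ e2 (x2 i) - (δ : ℤ) then 1 else 0) := by
  classical
  unfold h86_b1
  rw [if_pos (Set.mem_range_self i), if_neg (hq1 i), sub_zero]
  congr 1
  by_cases h : (p : ℤ) ∣ e1 (x1 i) + (δ : ℤ) ∧ ¬ (p : ℤ) ∣ e2 (x2 i) - (δ : ℤ)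
  · rw [if_pos h, if_pos ⟨i, rfl, h⟩]
  · rw [if_neg h, if_neg]
    rintro ⟨j, hj, hj'⟩
    have := hx1 hj
    subst this
    exact h hj'

theorem h86_b1_off (p : ℕ) (n : ℤ) (e1 e2 : P → ℤ) (x1 x2 : ι → P) (q : P) (δ : ℕ)
    (z : P) (hz : z ∉ Set.range x1) :
    h86_b1 p n e1 e2 x1 x2 q δ z = e1 z - (if z = q then (p : ℤ) * n else 0) := by
  classical
  unfold h86_b1
  have h3 : ¬ ∃ i, x1 i = z ∧ (p : ℤ) ∣ e1 (x1 i) + (δ : ℤ) ∧
      ¬ (p : ℤ) ∣ e2 (x2 i) - (δ : ℤ) := by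
    rintro ⟨j, hj, -⟩
    exact hz ⟨j, hj⟩
  rw [if_neg hz, if_neg h3, add_zero, add_zero]

theorem h86_b2_node (p : ℕ) (n : ℤ) (e2 : P → ℤ) (x2 : ι → P) (q : P) (δ : ℕ)
    (hx2 : Function.Injective x2) (hq2 : ∀ i, x2 i ≠ q) (i : ι) :
    h86_b2 p n e2 x2 q δ (x2 i) = e2 (x2 i) - (δ : ℤ) +
      (if (p : ℤ) ∣ e2 (x2 i) - (δ : ℤ) then 1 else 0) := by
  classical
  unfold h86_b2
  rw [if_pos (Set.mem_range_self i), if_neg (hq2 i), sub_zero]
  congr 1
  by_cases h : (p : ℤ) ∣ e2 (x2 i) - (δ : ℤ)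
  · rw [if_pos h, if_pos ⟨i, rfl, h⟩]
  · rw [if_neg h, if_neg]
    rintro ⟨j, hj, hj'⟩
    have := hx2 hj
    subst this
    exact h hj'

theorem h86_b2_off (p : ℕ) (n : ℤ) (e2 : P → ℤ) (x2 : ι → P) (q : P) (δ : ℕ)
    (z : P) (hz : z ∉ Set.range x2) :
    h86_b2 p n e2 x2 q δ z = e2 z - (if z = q then (p : ℤ) * n else 0) := by
  classical
  unfold h86_b2
  have h3 : ¬ ∃ i, x2 i = z ∧ (p : ℤ) ∣ e2 (x2 i) - (δ : ℤ) := by
    rintro ⟨j, hj, -⟩
    exact hz ⟨j, hj⟩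
  rw [if_neg hz, if_neg h3, add_zero, sub_zero]

/-- the ceiling divisor of the first component. -/
noncomputable def h86_B1 (p : ℕ) (n : ℤ) (e1 e2 : P →₀ ℤ) (x1 x2 : ι → P) (q : P) (δ : ℕ) :
    P →₀ ℤ :=
  Finsupp.onFinset (e1.support ∪ Finset.image x1 Finset.univ ∪ {q})
    (fun z => -h86_ceil p (h86_b1 p n e1 e2 x1 x2 q δ z))
    (by
      intro z hz
      by_contra hzs
      apply hz
      simp only [Finset.mem_union, Finset.mem_image, Finset.mem_univ, true_and,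
        Finset.mem_singleton, Finsupp.mem_support_iff, not_or, not_exists, ne_eq, not_not] at hzs
      obtain ⟨⟨he, hx⟩, hq⟩ := hzs
      have hr : z ∉ Set.range x1 := by rintro ⟨i, hi⟩; exact hx i hi
      rw [h86_b1_off p n e1 e2 x1 x2 q δ z hr, he, if_neg hq, sub_zero, h86_ceil_zero, neg_zero])

/-- the ceiling divisor of the second component. -/
noncomputable def h86_B2 (p : ℕ) (n : ℤ) (e2 : P →₀ ℤ) (x2 : ι → P) (q : P) (δ : ℕ) :
    P →₀ ℤ :=
  Finsupp.onFinset (e2.support ∪ Finset.image x2 Finset.univ ∪ {q})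
    (fun z => -h86_ceil p (h86_b2 p n e2 x2 q δ z))
    (by
      intro z hz
      by_contra hzs
      apply hz
      simp only [Finset.mem_union, Finset.mem_image, Finset.mem_univ, true_and,
        Finset.mem_singleton, Finsupp.mem_support_iff, not_or, not_exists, ne_eq, not_not] at hzs
      obtain ⟨⟨he, hx⟩, hq⟩ := hzs
      have hr : z ∉ Set.range x2 := by rintro ⟨i, hi⟩; exact hx i hi
      rw [h86_b2_off p n e2 x2 q δ z hr, he, if_neg hq, sub_zero, h86_ceil_zero, neg_zero])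

theorem h86_B1_apply (p : ℕ) (n : ℤ) (e1 e2 : P →₀ ℤ) (x1 x2 : ι → P) (q : P) (δ : ℕ) (z : P) :
    h86_B1 p n e1 e2 x1 x2 q δ z = -h86_ceil p (h86_b1 p n e1 e2 x1 x2 q δ z) := rfl

theorem h86_B2_apply (p : ℕ) (n : ℤ) (e2 : P →₀ ℤ) (x2 : ι → P) (q : P) (δ : ℕ) (z : P) :
    h86_B2 p n e2 x2 q δ z = -h86_ceil p (h86_b2 p n e2 x2 q δ z) := rfl

/-- membership in `L(B1)` at one place: `-(B1 z) ≤ a ↔ b1 z ≤ p * a`. -/
theorem h86_B1_le_iff (p : ℕ) (hp : 0 < p) (n : ℤ) (e1 e2 : P →₀ ℤ) (x1 x2 : ι → P) (q : P)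
    (δ : ℕ) (z : P) (a : ℤ) :
    -(h86_B1 p n e1 e2 x1 x2 q δ z) ≤ a ↔ h86_b1 p n e1 e2 x1 x2 q δ z ≤ (p : ℤ) * a := by
  rw [h86_B1_apply, neg_neg, h86_ceil_le_iff p hp]

theorem h86_B2_le_iff (p : ℕ) (hp : 0 < p) (n : ℤ) (e2 : P →₀ ℤ) (x2 : ι → P) (q : P)
    (δ : ℕ) (z : P) (a : ℤ) :
    -(h86_B2 p n e2 x2 q δ z) ≤ a ↔ h86_b2 p n e2 x2 q δ z ≤ (p : ℤ) * a := by
  rw [h86_B2_apply, neg_neg, h86_ceil_le_iff p hp]

/-- a sum over a finite set of a function supported on the (injective) image of `x`. -/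
theorem h86_sum_node (s : Finset P) (x : ι → P) (hx : Function.Injective x)
    (hs : ∀ i, x i ∈ s) (g : P → ℤ) (hg : ∀ z, z ∉ Set.range x → g z = 0) :
    ∑ z ∈ s, g z = ∑ i, g (x i) := by
  classical
  rw [← Finset.sum_image (s := Finset.univ) (g := x) (f := g) (fun a _ b _ h => hx h)]
  symm
  apply Finset.sum_subset
  · intro z hz
    rw [Finset.mem_image] at hz
    obtain ⟨i, -, rfl⟩ := hz
    exact hs i
  · intro z _ hz
    apply hg
    rintro ⟨i, rfl⟩
    exact hz (Finset.mem_image_of_mem x (Finset.mem_univ i))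

/-- the rounding of `e` off the nodes, over a finite set `s`. -/
def h86_round (p : ℕ) (e : P → ℤ) (x : ι → P) (s : Finset P) : ℤ :=
  ∑ z ∈ s, (if z ∈ Set.range x then 0 else (-(e z)) % (p : ℤ))

theorem h86_round_nonneg (p : ℕ) (hp : 0 < p) (e : P → ℤ) (x : ι → P) (s : Finset P) :
    0 ≤ h86_round p e x s := by
  have hp' : (p : ℤ) ≠ 0 := by exact_mod_cast hp.ne'
  unfold h86_round
  apply Finset.sum_nonneg
  intro z _
  split_ifs
  · exact le_refl _
  · exact Int.emod_nonneg _ hp'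

/-- generic splitting of `p * ∑ -⌈b/p⌉` into node terms and rounding off the nodes. -/
theorem h86_p_sum_aux (p : ℕ) (n : ℤ) (e : P →₀ ℤ) (x : ι → P) (q : P) (b : P → ℤ)
    (hx : Function.Injective x) (hq : ∀ i, x i ≠ q)
    (hoff : ∀ z, z ∉ Set.range x → b z = e z - (if z = q then (p : ℤ) * n else 0))
    (s : Finset P) (hs1 : e.support ⊆ s) (hs2 : ∀ i, x i ∈ s) (hs3 : q ∈ s)
    (he : e.sum (fun _ a => a) = 0) :
    (p : ℤ) * ∑ z ∈ s, -h86_ceil p (b z) =
      (p : ℤ) * n - ∑ i, (b (x i) - e (x i) + (-(b (x i))) % (p : ℤ)) - h86_round p e x s := by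
  have hsum_e : ∑ z ∈ s, e z = 0 := by
    rw [← he]
    exact (Finsupp.sum_of_support_subset e hs1 (fun _ a => a) (fun _ _ => rfl)).symm
  have hq' : q ∉ Set.range x := by rintro ⟨i, hi⟩; exact hq i hi
  have key : ∀ z ∈ s, (p : ℤ) * -h86_ceil p (b z) =
      (if z ∈ Set.range x then -(b z - e z + (-(b z)) % (p : ℤ)) else 0) +
        (-(e z) + (if z = q then (p : ℤ) * n else 0) -
          (if z ∈ Set.range x then 0 else (-(e z)) % (p : ℤ))) := by
    intro z _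
    rw [mul_neg, h86_ceil_spec]
    by_cases hz : z ∈ Set.range x
    · have hzq : z ≠ q := by rintro rfl; exact hq' hz
      rw [if_pos hz, if_pos hz, if_neg hzq]
      ring
    · rw [if_neg hz, if_neg hz, hoff z hz]
      by_cases hzq : z = q
      · rw [if_pos hzq]
        have : -(e z - (p : ℤ) * n) = -(e z) + (p : ℤ) * n := by ring
        rw [this, Int.add_mul_emod_self_left]
        ring
      · rw [if_neg hzq]
        ring_nf
  rw [Finset.mul_sum, Finset.sum_congr rfl key, Finset.sum_add_distrib, Finset.sum_sub_distrib,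
    Finset.sum_add_distrib, Finset.sum_neg_distrib, hsum_e, Finset.sum_ite_eq' s q, if_pos hs3]
  have h1 : ∑ z ∈ s, (if z ∈ Set.range x then -(b z - e z + (-(b z)) % (p : ℤ)) else 0) =
      ∑ i, -(b (x i) - e (x i) + (-(b (x i))) % (p : ℤ)) := by
    rw [h86_sum_node s x hx hs2 _ (fun z hz => if_neg hz)]
    apply Finset.sum_congr rfl
    intro i _
    rw [if_pos (Set.mem_range_self i)]
  rw [h1, Finset.sum_neg_distrib]
  unfold h86_round
  ring

/-- the node term of the two ceiling divisors is the twist term of `h86_TwistCount`. -/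
theorem h86_node_term (p : ℕ) (hp : 0 < p) (a b : ℤ) (δ : ℕ) :
    ((if (p : ℤ) ∣ a + (δ : ℤ) ∧ ¬ (p : ℤ) ∣ b - (δ : ℤ) then (1 : ℤ) else 0) +
        (-(a + (δ : ℤ) +
          (if (p : ℤ) ∣ a + (δ : ℤ) ∧ ¬ (p : ℤ) ∣ b - (δ : ℤ) then (1 : ℤ) else 0))) % (p : ℤ)) +
      ((if (p : ℤ) ∣ b - (δ : ℤ) then (1 : ℤ) else 0) +
        (-(b - (δ : ℤ) + (if (p : ℤ) ∣ b - (δ : ℤ) then (1 : ℤ) else 0))) % (p : ℤ)) =
      h86_twistTerm p a b δ := by
  have hp' : (0 : ℤ) < (p : ℤ) := by exact_mod_cast hp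
  have hm1 : ∀ y : ℤ, (p : ℤ) ∣ y → (-(y + 1)) % (p : ℤ) = (p : ℤ) - 1 := by
    intro y hy
    obtain ⟨c, rfl⟩ := hy
    have : -((p : ℤ) * c + 1) = ((p : ℤ) - 1) + (p : ℤ) * (-c - 1) := by ring
    rw [this, Int.add_mul_emod_self_left]
    exact Int.emod_eq_of_lt (by omega) (by omega)
  have hneg : ∀ y : ℤ, (p : ℤ) ∣ y → (-y) % (p : ℤ) = 0 := fun y hy =>
    Int.emod_eq_zero_of_dvd ((dvd_neg).2 hy)
  have e1 : -a - (δ : ℤ) = -(a + (δ : ℤ)) := by ring
  have e2 : (δ : ℤ) - b = -(b - (δ : ℤ)) := by ring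
  unfold h86_twistTerm
  rw [e1, e2]
  by_cases hb : (p : ℤ) ∣ b - (δ : ℤ)
  · have hB : ¬ ((p : ℤ) ∣ a + (δ : ℤ) ∧ ¬ (p : ℤ) ∣ b - (δ : ℤ)) := fun h => h.2 hb
    rw [if_neg hB, if_pos hb, if_pos (Or.inr hb), hm1 _ hb, hneg _ hb]
    ring_nf
  · by_cases ha : (p : ℤ) ∣ a + (δ : ℤ)
    · rw [if_pos ⟨ha, hb⟩, if_neg hb, if_pos (Or.inl ha), hm1 _ ha, hneg _ ha]
      ring_nf
    · have hB : ¬ ((p : ℤ) ∣ a + (δ : ℤ) ∧ ¬ (p : ℤ) ∣ b - (δ : ℤ)) := fun h => ha h.1
      rw [if_neg hB, if_neg hb, if_neg (by rintro (h | h); exact ha h; exact hb h)]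
      ring_nf

/-- **`p` times the total degree of the two ceiling divisors.** -/
theorem h86_p_sum_B (p : ℕ) (hp : 0 < p) (n : ℤ) (e1 e2 : P →₀ ℤ) (x1 x2 : ι → P) (q : P)
    (δ : ℕ) (hx1 : Function.Injective x1) (hx2 : Function.Injective x2)
    (hq1 : ∀ i, x1 i ≠ q) (hq2 : ∀ i, x2 i ≠ q)
    (he1 : e1.sum (fun _ a => a) = 0) (he2 : e2.sum (fun _ a => a) = 0)
    (s : Finset P) (hs1 : e1.support ⊆ s) (hs2 : e2.support ⊆ s)
    (hs3 : ∀ i, x1 i ∈ s) (hs4 : ∀ i, x2 i ∈ s) (hs5 : q ∈ s) :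
    (p : ℤ) * ((h86_B1 p n e1 e2 x1 x2 q δ).sum (fun _ a => a) +
        (h86_B2 p n e2 x2 q δ).sum (fun _ a => a)) =
      2 * (p : ℤ) * n - ∑ i, h86_twistTerm p (e1 (x1 i)) (e2 (x2 i)) δ -
        (h86_round p e1 x1 s + h86_round p e2 x2 s) := by
  have hsub1 : (h86_B1 p n e1 e2 x1 x2 q δ).support ⊆ s := by
    refine Finsupp.support_onFinset_subset.trans ?_
    intro z hz
    simp only [Finset.mem_union, Finset.mem_image, Finset.mem_univ, true_and,
      Finset.mem_singleton] at hz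
    rcases hz with (hz | ⟨i, rfl⟩) | rfl
    · exact hs1 hz
    · exact hs3 i
    · exact hs5
  have hsub2 : (h86_B2 p n e2 x2 q δ).support ⊆ s := by
    refine Finsupp.support_onFinset_subset.trans ?_
    intro z hz
    simp only [Finset.mem_union, Finset.mem_image, Finset.mem_univ, true_and,
      Finset.mem_singleton] at hz
    rcases hz with (hz | ⟨i, rfl⟩) | rfl
    · exact hs2 hz
    · exact hs4 i
    · exact hs5
  rw [Finsupp.sum_of_support_subset _ hsub1 (fun _ a => a) (fun _ _ => rfl),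
    Finsupp.sum_of_support_subset _ hsub2 (fun _ a => a) (fun _ _ => rfl), mul_add]
  have h1 := h86_p_sum_aux p n e1 x1 q (h86_b1 p n e1 e2 x1 x2 q δ) hx1 hq1
    (fun z hz => h86_b1_off p n e1 e2 x1 x2 q δ z hz) s hs1 hs3 hs5 he1
  have h2 := h86_p_sum_aux p n e2 x2 q (h86_b2 p n e2 x2 q δ) hx2 hq2
    (fun z hz => h86_b2_off p n e2 x2 q δ z hz) s hs2 hs4 hs5 he2
  have h1' : (p : ℤ) * ∑ z ∈ s, (h86_B1 p n e1 e2 x1 x2 q δ) z =
      (p : ℤ) * ∑ z ∈ s, -h86_ceil p (h86_b1 p n e1 e2 x1 x2 q δ z) := rfl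
  have h2' : (p : ℤ) * ∑ z ∈ s, (h86_B2 p n e2 x2 q δ) z =
      (p : ℤ) * ∑ z ∈ s, -h86_ceil p (h86_b2 p n e2 x2 q δ z) := rfl
  rw [h1', h2', h1, h2]
  have hT : ∑ i, h86_twistTerm p (e1 (x1 i)) (e2 (x2 i)) δ =
      ∑ i, (h86_b1 p n e1 e2 x1 x2 q δ (x1 i) - e1 (x1 i) +
          (-(h86_b1 p n e1 e2 x1 x2 q δ (x1 i))) % (p : ℤ)) +
        ∑ i, (h86_b2 p n e2 x2 q δ (x2 i) - e2 (x2 i) +
          (-(h86_b2 p n e2 x2 q δ (x2 i))) % (p : ℤ)) := by
    rw [← Finset.sum_add_distrib]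
    apply Finset.sum_congr rfl
    intro i _
    rw [h86_b1_node p n e1 e2 x1 x2 q δ hx1 hq1 i, h86_b2_node p n e2 x2 q δ hx2 hq2 i,
      ← h86_node_term p hp (e1 (x1 i)) (e2 (x2 i)) δ]
    ring
  rw [hT]
  ring

/-- **The count core (C3).**  `e1`, `e2` : the orders of the two reductions (total degree `0`);
`x1 i`, `x2 i` : the two points of the node `i`; `q` : the cusp.  If for every twist `δ < p` the
ceiling divisors have total degree at least `2n - #nodes`, then `p ∣ e1`, `p ∣ e2` off the nodes,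
`p ∣ e1 (x1 i) + e2 (x2 i)` at every node, and the degree bound is an equality for every `δ`. -/
theorem h86_count_core (p : ℕ) (hp : 0 < p) (n : ℤ) (e1 e2 : P →₀ ℤ) (x1 x2 : ι → P) (q : P)
    (hx1 : Function.Injective x1) (hx2 : Function.Injective x2)
    (hq1 : ∀ i, x1 i ≠ q) (hq2 : ∀ i, x2 i ≠ q)
    (he1 : e1.sum (fun _ a => a) = 0) (he2 : e2.sum (fun _ a => a) = 0)
    (h : ∀ δ, δ < p → 2 * n - (Fintype.card ι : ℤ) ≤
      (h86_B1 p n e1 e2 x1 x2 q δ).sum (fun _ a => a) +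
        (h86_B2 p n e2 x2 q δ).sum (fun _ a => a)) :
    (∀ z, z ∉ Set.range x1 → (p : ℤ) ∣ e1 z) ∧ (∀ z, z ∉ Set.range x2 → (p : ℤ) ∣ e2 z) ∧
      (∀ i, (p : ℤ) ∣ e1 (x1 i) + e2 (x2 i)) ∧
      ∀ δ, δ < p → (h86_B1 p n e1 e2 x1 x2 q δ).sum (fun _ a => a) +
        (h86_B2 p n e2 x2 q δ).sum (fun _ a => a) = 2 * n - (Fintype.card ι : ℤ) := by
  have hp' : (0 : ℤ) < (p : ℤ) := by exact_mod_cast hp
  -- a finite set containing everything
  set s : Finset P := e1.support ∪ e2.support ∪ Finset.image x1 Finset.univ ∪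
    Finset.image x2 Finset.univ ∪ {q} with hs
  have hs1 : e1.support ⊆ s := by
    intro z hz; simp only [hs, Finset.mem_union]; tauto
  have hs2 : e2.support ⊆ s := by
    intro z hz; simp only [hs, Finset.mem_union]; tauto
  have hs3 : ∀ i, x1 i ∈ s := by
    intro i
    have : x1 i ∈ Finset.image x1 Finset.univ := Finset.mem_image_of_mem x1 (Finset.mem_univ i)
    simp only [hs, Finset.mem_union]; tauto
  have hs4 : ∀ i, x2 i ∈ s := by
    intro i
    have : x2 i ∈ Finset.image x2 Finset.univ := Finset.mem_image_of_mem x2 (Finset.mem_univ i)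
    simp only [hs, Finset.mem_union]; tauto
  have hs5 : q ∈ s := by
    have : q ∈ ({q} : Finset P) := Finset.mem_singleton_self q
    simp only [hs, Finset.mem_union]; tauto
  have hformula := fun δ => h86_p_sum_B p hp n e1 e2 x1 x2 q δ hx1 hx2 hq1 hq2 he1 he2 s
    hs1 hs2 hs3 hs4 hs5
  set S : ℤ := h86_round p e1 x1 s + h86_round p e2 x2 s with hS
  have hS0 : 0 ≤ S := add_nonneg (h86_round_nonneg p hp e1 x1 s) (h86_round_nonneg p hp e2 x2 s)
  have hcount := h86_twist_count p hp (fun i => e1 (x1 i)) (fun i => e2 (x2 i)) S hS0 (by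
    intro δ hδ
    rw [Finset.mem_range] at hδ
    have h1 := h δ hδ
    have h2 := hformula δ
    have h3 : (p : ℤ) * (2 * n - (Fintype.card ι : ℤ)) ≤
        (p : ℤ) * ((h86_B1 p n e1 e2 x1 x2 q δ).sum (fun _ a => a) +
          (h86_B2 p n e2 x2 q δ).sum (fun _ a => a)) := mul_le_mul_of_nonneg_left h1 hp'.le
    rw [h2] at h3
    linarith)
  obtain ⟨hS', hnode, heq⟩ := hcount
  have hr1 : h86_round p e1 x1 s = 0 := by
    have := h86_round_nonneg p hp e1 x1 s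
    have := h86_round_nonneg p hp e2 x2 s
    linarith
  have hr2 : h86_round p e2 x2 s = 0 := by
    have := h86_round_nonneg p hp e1 x1 s
    have := h86_round_nonneg p hp e2 x2 s
    linarith
  have hoff : ∀ (e : P →₀ ℤ) (x : ι → P), e.support ⊆ s → h86_round p e x s = 0 →
      ∀ z, z ∉ Set.range x → (p : ℤ) ∣ e z := by
    intro e x hes hr z hz
    by_cases hzs : z ∈ s
    · unfold h86_round at hr
      have hnn : ∀ z ∈ s, 0 ≤ (if z ∈ Set.range x then (0 : ℤ) else (-(e z)) % (p : ℤ)) := by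
        intro z _
        split_ifs
        · exact le_refl _
        · exact Int.emod_nonneg _ hp'.ne'
      have := (Finset.sum_eq_zero_iff_of_nonneg hnn).1 hr z hzs
      rw [if_neg hz] at this
      exact (dvd_neg).1 (Int.dvd_of_emod_eq_zero this)
    · have : e z = 0 := by
        by_contra h0
        exact hzs (hes (Finsupp.mem_support_iff.2 h0))
      rw [this]
      exact dvd_zero _
  refine ⟨hoff e1 x1 hs1 hr1, hoff e2 x2 hs2 hr2, hnode, ?_⟩
  intro δ hδ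
  have h2 := hformula δ
  have h3 := heq δ (Finset.mem_range.2 hδ)
  rw [h3, hS'] at h2
  have h4 : (p : ℤ) * ((h86_B1 p n e1 e2 x1 x2 q δ).sum (fun _ a => a) +
      (h86_B2 p n e2 x2 q δ).sum (fun _ a => a)) =
      (p : ℤ) * (2 * n - (Fintype.card ι : ℤ)) := by
    rw [h2]; ring
  exact mul_left_cancel₀ hp'.ne' h4

end Core

section Fill

/-- abstract rank–nullity form of the fill-in lemma. -/
theorem h86_fill_aux.{u, v} {k : Type v} {M N1 N2 : Type u} [Field k] [AddCommGroup M] [Module k M]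
    [AddCommGroup N1] [Module k N1] [AddCommGroup N2] [Module k N2]
    [FiniteDimensional k N1] [FiniteDimensional k N2]
    (f : M →ₗ[k] N1) (g : LinearMap.ker f →ₗ[k] N2) (hg : Function.Injective g) :
    FiniteDimensional k M ∧
      Module.finrank k M ≤ Module.finrank k N1 + Module.finrank k N2 ∧
      (Module.finrank k N1 + Module.finrank k N2 ≤ Module.finrank k M →
        Function.Surjective f ∧ Function.Surjective g) := by
  have hfk : FiniteDimensional k (LinearMap.ker f) := Module.Finite.of_injective g hg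
  have hV : FiniteDimensional k M := by
    have h := LinearMap.rank_range_add_rank_ker f
    have h1 : Module.rank k (LinearMap.range f) < Cardinal.aleph0 :=
      Module.rank_lt_aleph0 k _
    have h2 : Module.rank k (LinearMap.ker f) < Cardinal.aleph0 :=
      Module.rank_lt_aleph0 k _
    have h3 : Module.rank k M < Cardinal.aleph0 := by
      rw [← h]
      exact Cardinal.add_lt_aleph0 h1 h2
    exact Module.rank_lt_aleph0_iff.1 h3
  have hrn := LinearMap.finrank_range_add_finrank_ker f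
  have hr : Module.finrank k (LinearMap.range f) ≤ Module.finrank k N1 :=
    Submodule.finrank_le _
  have hk : Module.finrank k (LinearMap.ker f) ≤ Module.finrank k N2 :=
    LinearMap.finrank_le_finrank_of_injective hg
  refine ⟨hV, by omega, ?_⟩
  intro hge
  have hr' : Module.finrank k (LinearMap.range f) = Module.finrank k N1 := by omega
  have hk' : Module.finrank k (LinearMap.ker f) = Module.finrank k N2 := by omega
  have hrange : LinearMap.range f = ⊤ := Submodule.eq_top_of_finrank_eq hr'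
  exact ⟨LinearMap.range_eq_top.1 hrange,
    (LinearMap.injective_iff_surjective_of_finrank_eq_finrank hk').1 hg⟩

variable {k Fb : Type*} [Field k] [AddCommGroup Fb] [Module k Fb]

/-- **Fill-in lemma.**  `V ⊆ Fb × Fb` with first projection inside `L₁` and with
`{a ∈ V | a.1 = 0} ⊆ 0 × L₂` has dimension at most `dim L₁ + dim L₂`; if the dimension is at
least that, the first projection `V → L₁` is onto and `0 × L₂ ⊆ V`. -/
theorem h86_fill (V : Submodule k (Fb × Fb)) (L1 L2 : Submodule k Fb)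
    [FiniteDimensional k L1] [FiniteDimensional k L2]
    (h1 : ∀ a ∈ V, a.1 ∈ L1) (h2 : ∀ a ∈ V, a.1 = 0 → a.2 ∈ L2) :
    FiniteDimensional k V ∧
      Module.finrank k V ≤ Module.finrank k L1 + Module.finrank k L2 ∧
      (Module.finrank k L1 + Module.finrank k L2 ≤ Module.finrank k V →
        (∀ φ1 ∈ L1, ∃ φ2, (φ1, φ2) ∈ V) ∧ ∀ φ2 ∈ L2, ((0 : Fb), φ2) ∈ V) := by
  -- first projection
  obtain ⟨π, hπ⟩ : ∃ π : V →ₗ[k] L1, ∀ a : V, ((π a : L1) : Fb) = (a : Fb × Fb).1 :=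
    ⟨LinearMap.codRestrict L1 ((LinearMap.fst k Fb Fb).comp V.subtype) (fun a => h1 a.1 a.2),
      fun a => rfl⟩
  have hker : ∀ a : LinearMap.ker π, ((a.1 : V) : Fb × Fb).1 = 0 := by
    intro a
    have h : π a.1 = 0 := a.2
    rw [← hπ a.1, h]; rfl
  -- the kernel maps injectively to `L2`
  obtain ⟨κ, hκ⟩ : ∃ κ : LinearMap.ker π →ₗ[k] L2,
      ∀ a : LinearMap.ker π, ((κ a : L2) : Fb) = ((a.1 : V) : Fb × Fb).2 :=
    ⟨LinearMap.codRestrict L2
      (((LinearMap.snd k Fb Fb).comp V.subtype).comp (LinearMap.ker π).subtype)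
      (fun a => h2 _ a.1.2 (hker a)), fun a => rfl⟩
  have hκinj : Function.Injective κ := by
    intro a b hab
    apply Subtype.ext
    apply Subtype.ext
    refine Prod.ext ?_ ?_
    · rw [hker a, hker b]
    · rw [← hκ a, ← hκ b, hab]
  obtain ⟨hV, hle, hfill⟩ := h86_fill_aux π κ hκinj
  refine ⟨hV, hle, ?_⟩
  intro hge
  obtain ⟨hπs, hκs⟩ := hfill hge
  constructor
  · intro φ1 hφ1
    obtain ⟨a, ha⟩ := hπs ⟨φ1, hφ1⟩
    refine ⟨(a : Fb × Fb).2, ?_⟩
    have h1' : (a : Fb × Fb).1 = φ1 := by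
      rw [← hπ a, ha]
    have : ((φ1, (a : Fb × Fb).2) : Fb × Fb) = (a : Fb × Fb) := Prod.ext h1'.symm rfl
    rw [this]
    exact a.2
  · intro φ2 hφ2
    obtain ⟨a, ha⟩ := hκs ⟨φ2, hφ2⟩
    have ha2 : ((a.1 : V) : Fb × Fb).2 = φ2 := by
      rw [← hκ a, ha]
    have : (((0 : Fb), φ2) : Fb × Fb) = ((a.1 : V) : Fb × Fb) :=
      Prod.ext (hker a).symm ha2.symm
    rw [this]
    exact a.1.2

end Fill

end Fermat.Agent.S40
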