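/-
S40 (helper8), row W0(b) (KUM-E): the Kummer dichotomy for the Hilbert-90 element `e`.

`A` a place of `ℚ̄` over an odd prime `p`, `I` its inertia group, `ζ` a primitive `p`-th root of
unity, `e ≠ 0` with `σ e = ζ ^ i * e` for `σ ∈ I` (so `κ = e ^ p` is `I`-fixed).  If
`v κ = v p ^ (p m)` then

* (DECOMP) `h8_kum_decomp` : `κ = (p ^ m c₀) ^ p (1 + p z)` with `c₀, z` fixed by `I`,
  `v c₀ = 1`, `z ∈ A`;
* (SPLIT) `h8_kum_split` : if `z` is not a unit, some `ζ ^ j * e₁` is `I`-fixed;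
* (UNIT) `h8_kum_unit` : if `z` is a unit, `w = e₁ - 1` has `v w ^ p = v p`, and the elements
  of `I` fixing `ζ` move `e₁` through all `ζ ^ j * e₁`;
* `h8_binom_prime`, `h8_kum_eis` : `(1 + w) ^ p = 1 + w ^ p + p w G(w)`, i.e.
  `w ^ p = p (z - w G)`, `G ≡ 1 mod w`;
* `h8_kum_dich` : the case split in one statement.
-/
import Mathlib
import Fermat.Agent.S40.h8_Tame
import Fermat.Agent.S36.h5_ResK0

set_option autoImplicit false
set_option linter.unusedSectionVars false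
set_option linter.style.haveILetI false

namespace Fermat.Agent.S40

open Fermat.Agent.S33 Fermat.Agent.S05 Fermat.Agent.S36

local notation "Qb" => AlgebraicClosure ℚ
local notation "Γℚ" => (AlgebraicClosure ℚ ≃ₐ[ℚ] AlgebraicClosure ℚ)

/-! ### The binomial identity -/

/-- The polynomial `G` with `(1 + w) ^ p = 1 + w ^ p + p w G(w)`. -/
def h8_G (p : ℕ) {R : Type*} [CommRing R] (w : R) : R :=
  ∑ k ∈ Finset.range (p - 1), ((p.choose (k + 1) / p : ℕ) : R) * w ^ k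

theorem h8_binom_prime {p : ℕ} (hp : p.Prime) {R : Type*} [CommRing R] (w : R) :
    (1 + w) ^ p = 1 + w ^ p + (p : R) * w * h8_G p w := by
  obtain ⟨q, rfl⟩ : ∃ q, p = q + 1 := ⟨p - 1, (Nat.sub_add_cancel hp.one_le).symm⟩
  rw [add_comm 1 w, add_pow, Finset.sum_range_succ, Finset.sum_range_succ']
  simp only [one_pow, mul_one, pow_zero, Nat.choose_zero_right, Nat.cast_one, Nat.choose_self,
    Nat.sub_self]
  rw [h8_G, Nat.add_sub_cancel, Finset.mul_sum]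
  have h : ∀ k ∈ Finset.range q,
      w ^ (k + 1) * (((q + 1).choose (k + 1) : ℕ) : R) =
        ((q + 1 : ℕ) : R) * w * ((((q + 1).choose (k + 1) / (q + 1) : ℕ) : R) * w ^ k) := by
    intro k hk
    have hk' : k < q := Finset.mem_range.1 hk
    have hdvd : (q + 1) ∣ (q + 1).choose (k + 1) :=
      hp.dvd_choose_self (Nat.succ_ne_zero k) (by omega)
    have h1 : (((q + 1).choose (k + 1) : ℕ) : R) =
        ((q + 1 : ℕ) : R) * (((q + 1).choose (k + 1) / (q + 1) : ℕ) : R) := by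
      rw [← Nat.cast_mul, Nat.mul_div_cancel' hdvd]
    rw [h1, pow_succ]
    ring
  rw [Finset.sum_congr rfl h]
  ring

theorem h8_G_mem (p : ℕ) (A : ValuationSubring Qb) {w : Qb} (hw : w ∈ A) : h8_G p w ∈ A :=
  sum_mem (fun k _ => A.mul_mem _ _ (natCast_mem A _) (pow_mem hw k))

/-- `G(w) = 1 + w G₂(w)`. -/
theorem h8_G_sub_one {p : ℕ} (hp : p.Prime) (A : ValuationSubring Qb) {w : Qb} (hw : w ∈ A) :
    ∃ g ∈ A, h8_G p w = 1 + w * g := by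
  obtain ⟨q, rfl⟩ : ∃ q, p = q + 1 := ⟨p - 1, (Nat.sub_add_cancel hp.one_le).symm⟩
  obtain ⟨r, rfl⟩ : ∃ r, q = r + 1 := ⟨q - 1, (Nat.sub_add_cancel (by
    have := hp.two_le; omega)).symm⟩
  refine ⟨∑ k ∈ Finset.range r, (((r + 1 + 1).choose (k + 1 + 1) / (r + 1 + 1) : ℕ) : Qb) * w ^ k,
    sum_mem (fun k _ => A.mul_mem _ _ (natCast_mem A _) (pow_mem hw k)), ?_⟩
  rw [h8_G, Nat.add_sub_cancel, Finset.sum_range_succ', Finset.mul_sum]
  have h0 : (((r + 1 + 1).choose (0 + 1) / (r + 1 + 1) : ℕ) : Qb) * w ^ 0 = 1 := by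
    rw [zero_add, Nat.choose_one_right, Nat.div_self (Nat.succ_pos _), Nat.cast_one, pow_zero,
      mul_one]
  rw [h0, add_comm]
  congr 1
  refine Finset.sum_congr rfl (fun k _ => ?_)
  rw [pow_succ]
  ring

/-! ### Roots of unity and the valuation -/

variable (p : ℕ) [Fact p.Prime]

/-- `∏_{j < p} (1 - ζ ^ j y) = 1 - y ^ p`. -/
theorem h8_prod_one_sub (ζ : Qb) (hζ : IsPrimitiveRoot ζ p) (y : Qb) :
    ∏ j ∈ Finset.range p, (1 - ζ ^ j * y) = 1 - y ^ p := by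
  classical
  have hp : p.Prime := Fact.out
  have h1 := hζ.pow_sub_pow_eq_prod_sub_mul (1 : Qb) y hp.pos
  rw [one_pow] at h1
  rw [h1]
  have himg : Polynomial.nthRootsFinset p (1 : Qb) = (Finset.range p).image (fun j => ζ ^ j) := by
    ext μ
    rw [Polynomial.mem_nthRootsFinset hp.pos, Finset.mem_image]
    constructor
    · intro h
      obtain ⟨i, hi, rfl⟩ := hζ.eq_pow_of_pow_eq_one h
      exact ⟨i, Finset.mem_range.2 hi, rfl⟩
    · rintro ⟨i, -, rfl⟩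
      rw [← pow_mul, mul_comm, pow_mul, hζ.pow_eq_one, one_pow]
  rw [himg, Finset.prod_image]
  intro i hi j hj hij
  exact hζ.pow_inj (Finset.mem_range.1 hi) (Finset.mem_range.1 hj) hij

/-- a `p`-th root of unity has valuation `1`. -/
theorem h8_val_root (A : ValuationSubring Qb) (μ : Qb) (hμ : μ ^ p = 1) : A.valuation μ = 1 := by
  have hp : p.Prime := Fact.out
  refine h8_pow_inj_val A _ _ p hp.ne_zero ?_
  rw [← map_pow, hμ, map_one, one_pow]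

/-- a nontrivial `p`-th root of unity `μ` has `v (μ - 1) = v (ζ - 1)`. -/
theorem h8_val_root_sub_one (A : ValuationSubring Qb) (ζ : Qb) (hζ : IsPrimitiveRoot ζ p)
    (μ : Qb) (hμ : μ ^ p = 1) (hμ1 : μ ≠ 1) : A.valuation (μ - 1) = A.valuation (ζ - 1) := by
  obtain ⟨i, hi, rfl⟩ := hζ.eq_pow_of_pow_eq_one hμ
  refine h8_val_zeta_pow p A ζ hζ i (fun hdvd => hμ1 ?_)
  obtain ⟨k, rfl⟩ := hdvd
  rw [pow_mul, hζ.pow_eq_one, one_pow]

/-- `v (ζ ^ a - ζ ^ b) = v (ζ - 1)` unless `ζ ^ a = ζ ^ b`. -/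
theorem h8_val_pow_sub_pow (A : ValuationSubring Qb) (ζ : Qb) (hζ : IsPrimitiveRoot ζ p)
    (a b : ℕ) (hab : ζ ^ a ≠ ζ ^ b) : A.valuation (ζ ^ a - ζ ^ b) = A.valuation (ζ - 1) := by
  have hb0 : ζ ^ b ≠ 0 := pow_ne_zero b (hζ.ne_zero (Fact.out : p.Prime).ne_zero)
  have h1 : ζ ^ a - ζ ^ b = ζ ^ b * (ζ ^ a * (ζ ^ b)⁻¹ - 1) := by
    field_simp
  have hμ : (ζ ^ a * (ζ ^ b)⁻¹) ^ p = 1 := by
    rw [mul_pow, inv_pow, ← pow_mul, ← pow_mul, mul_comm a, mul_comm b, pow_mul, pow_mul,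
      hζ.pow_eq_one, one_pow, one_pow, inv_one, mul_one]
  have hμ1 : ζ ^ a * (ζ ^ b)⁻¹ ≠ 1 := by
    intro h
    apply hab
    have := congrArg (· * ζ ^ b) h
    simpa [mul_assoc, inv_mul_cancel₀ hb0] using this
  rw [h1, map_mul, h8_val_root p A (ζ ^ b) (by
    rw [← pow_mul, mul_comm, pow_mul, hζ.pow_eq_one, one_pow]), one_mul,
    h8_val_root_sub_one p A ζ hζ _ hμ hμ1]

/-- if `e₁ ^ p = 1 + p z` with `z ∈ A` then `v e₁ = 1`. -/
theorem h8_val_e1 (A : ValuationSubring Qb) (hA : A.LiesOverPrime p) (e1 z : Qb)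
    (he : e1 ^ p = 1 + (p : Qb) * z) (hz : z ∈ A) : A.valuation e1 = 1 := by
  have hp : p.Prime := Fact.out
  refine h8_pow_inj_val A _ _ p hp.ne_zero ?_
  rw [← map_pow, he, one_pow]
  refine A.valuation.map_one_add_of_lt ?_
  rw [map_mul]
  calc A.valuation (p : Qb) * A.valuation z ≤ A.valuation (p : Qb) * 1 :=
        mul_le_mul_right ((A.valuation_le_one_iff z).2 hz) _
    _ < 1 := by rw [mul_one]; exact h8_val_p_lt p A hA

/-! ### (SPLIT): the non-unit case -/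

/-- **(SPLIT)** If `e₁ ^ p = 1 + p z` with `v z ≤ v p` and the inertia group moves `e₁` by
`p`-th roots of unity, then some `ζ ^ j * e₁` is fixed by the inertia group. -/
theorem h8_kum_split (hp2 : p ≠ 2) (A : ValuationSubring Qb) (hA : A.LiesOverPrime p)
    (ζ : Qb) (hζ : IsPrimitiveRoot ζ p) (e1 z : Qb)
    (he : e1 ^ p = 1 + (p : Qb) * z) (hz : A.valuation z ≤ A.valuation (p : Qb))
    (hcoc : ∀ σ ∈ A.inertiaSubgroupIn ℚ, ∃ i : ℕ, σ e1 = ζ ^ i * e1) :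
    ∃ j : ℕ, ∀ σ ∈ A.inertiaSubgroupIn ℚ, σ (ζ ^ j * e1) = ζ ^ j * e1 := by
  classical
  have hp : p.Prime := Fact.out
  have hp3 : 3 ≤ p := by
    have := hp.two_le
    omega
  obtain ⟨hπ0, hπ1⟩ := h8_val_zeta_lt p hp2 A hA ζ hζ
  have hzA : z ∈ A := (A.valuation_le_one_iff z).1 (hz.trans (h8_val_p_lt p A hA).le)
  have hve1 : A.valuation e1 = 1 := h8_val_e1 p A hA e1 z he hzA
  -- the product of the `v (1 - ζ ^ j e₁)`
  have hprod : ∏ j ∈ Finset.range p, A.valuation (1 - ζ ^ j * e1) =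
      A.valuation (p : Qb) * A.valuation z := by
    rw [← map_prod, h8_prod_one_sub p ζ hζ e1, he, ← map_mul]
    rw [show (1 : Qb) - (1 + (p : Qb) * z) = -((p : Qb) * z) by ring, Valuation.map_neg]
  -- some root is close to `1`
  obtain ⟨j0, hj0⟩ : ∃ j0 : ℕ, A.valuation (1 - ζ ^ j0 * e1) < A.valuation (ζ - 1) := by
    by_contra hcon
    replace hcon : ∀ j : ℕ, A.valuation (ζ - 1) ≤ A.valuation (1 - ζ ^ j * e1) :=
      fun j => not_lt.1 (fun h => hcon ⟨j, h⟩)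
    have h1 : A.valuation (ζ - 1) ^ p ≤ ∏ j ∈ Finset.range p, A.valuation (1 - ζ ^ j * e1) := by
      have := Finset.prod_le_prod' (s := Finset.range p) (f := fun _ => A.valuation (ζ - 1))
        (g := fun j => A.valuation (1 - ζ ^ j * e1)) (fun j _ => hcon j)
      rwa [Finset.prod_const, Finset.card_range] at this
    have h2 : A.valuation (p : Qb) * A.valuation z ≤ A.valuation (ζ - 1) ^ (2 * (p - 1)) := by
      rw [pow_mul', pow_two, ← h8_val_p p A ζ hζ]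
      exact mul_le_mul_right hz _
    have h3 : A.valuation (ζ - 1) ^ (2 * (p - 1)) < A.valuation (ζ - 1) ^ p :=
      pow_lt_pow_right_of_lt_one₀ hπ0 hπ1 (by omega)
    exact absurd (h1.trans (hprod.le.trans h2)) (not_le.2 h3)
  refine ⟨j0, fun σ hσ => ?_⟩
  obtain ⟨i, hi⟩ := hcoc σ hσ
  obtain ⟨u, hu⟩ := h8_exists_unit p ζ hζ σ
  set j1 : ℕ := (u : ZMod p).val * j0 + i with hj1
  have hσe : σ (ζ ^ j0 * e1) = ζ ^ j1 * e1 := by
    rw [map_mul, map_pow, hu, hi, hj1, pow_add, pow_mul, mul_assoc]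
  rw [hσe]
  by_contra hne
  have hne' : ζ ^ j1 ≠ ζ ^ j0 := fun h => hne (by rw [h])
  have h1 : A.valuation (1 - ζ ^ j1 * e1) < A.valuation (ζ - 1) := by
    have : (1 : Qb) - ζ ^ j1 * e1 = σ (1 - ζ ^ j0 * e1) := by
      rw [map_sub, map_one, hσe]
    rw [this, h8_val_smul A hσ]
    exact hj0
  have h2 : A.valuation ((1 - ζ ^ j0 * e1) - (1 - ζ ^ j1 * e1)) < A.valuation (ζ - 1) :=
    lt_of_le_of_lt (Valuation.map_sub _ _ _) (max_lt hj0 h1)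
  have h3 : (1 - ζ ^ j0 * e1) - (1 - ζ ^ j1 * e1) = (ζ ^ j1 - ζ ^ j0) * e1 := by ring
  rw [h3, map_mul, hve1, mul_one, h8_val_pow_sub_pow p A ζ hζ j1 j0 hne'] at h2
  exact lt_irrefl _ h2

/-! ### (UNIT): the unit case -/

/-- **(EIS)** With `w = e₁ - 1` and `e₁ ^ p = 1 + p z`: `w ^ p = p (z - w G(w))`. -/
theorem h8_kum_eis (e1 z : Qb) (he : e1 ^ p = 1 + (p : Qb) * z) :
    (e1 - 1) ^ p = (p : Qb) * (z - (e1 - 1) * h8_G p (e1 - 1)) := by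
  have hp : p.Prime := Fact.out
  have h := h8_binom_prime hp (e1 - 1)
  rw [show (1 : Qb) + (e1 - 1) = e1 by ring, he] at h
  linear_combination -h

/-- In the unit case `w = e₁ - 1` lies in the maximal ideal and `v w ^ p = v p`. -/
theorem h8_kum_unit_val (A : ValuationSubring Qb) (hA : A.LiesOverPrime p) (e1 z : Qb)
    (he : e1 ^ p = 1 + (p : Qb) * z) (hz : A.valuation z = 1) :
    A.valuation (e1 - 1) < 1 ∧ A.valuation (e1 - 1) ^ p = A.valuation (p : Qb) := by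
  have hp : p.Prime := Fact.out
  have hzA : z ∈ A := (A.valuation_le_one_iff z).1 hz.le
  have hve1 : A.valuation e1 = 1 := h8_val_e1 p A hA e1 z he hzA
  have he1A : e1 ∈ A := (A.valuation_le_one_iff e1).1 hve1.le
  have hwA : e1 - 1 ∈ A := sub_mem he1A (one_mem A)
  have hGA : h8_G p (e1 - 1) ∈ A := h8_G_mem p A hwA
  have heis := h8_kum_eis p e1 z he
  have hcofA : z - (e1 - 1) * h8_G p (e1 - 1) ∈ A := sub_mem hzA (A.mul_mem _ _ hwA hGA)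
  have hw1 : A.valuation (e1 - 1) < 1 := by
    by_contra hcon
    have h1 : A.valuation (e1 - 1) = 1 :=
      le_antisymm ((A.valuation_le_one_iff _).2 hwA) (not_lt.1 hcon)
    have h2 := congrArg A.valuation heis
    rw [map_pow, h1, one_pow, map_mul] at h2
    have h3 : A.valuation (p : Qb) * A.valuation (z - (e1 - 1) * h8_G p (e1 - 1)) < 1 :=
      lt_of_le_of_lt (mul_le_of_le_one_right' ((A.valuation_le_one_iff _).2 hcofA))
        (h8_val_p_lt p A hA)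
    rw [← h2] at h3
    exact lt_irrefl _ h3
  refine ⟨hw1, ?_⟩
  have hcof : A.valuation (z - (e1 - 1) * h8_G p (e1 - 1)) = 1 := by
    have h1 : A.valuation ((e1 - 1) * h8_G p (e1 - 1)) < A.valuation z := by
      rw [hz, map_mul]
      exact lt_of_le_of_lt (mul_le_of_le_one_right' ((A.valuation_le_one_iff _).2 hGA)) hw1
    rw [Valuation.map_sub_eq_of_lt_left _ h1, hz]
  rw [← map_pow, heis, map_mul, hcof, mul_one]

/-- powers of an element fixing `ζ` and moving `e₁` by `ζ ^ i`. -/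
theorem h8_pow_smul_e1 (ζ e1 : Qb) (τ : Γℚ) (i : ℕ) (hτζ : τ ζ = ζ) (hτe : τ e1 = ζ ^ i * e1)
    (k : ℕ) : (τ ^ k) ζ = ζ ∧ (τ ^ k) e1 = ζ ^ (i * k) * e1 := by
  induction k with
  | zero => exact ⟨rfl, by rw [pow_zero, mul_zero, pow_zero, one_mul]; rfl⟩
  | succ k ih =>
    obtain ⟨h1, h2⟩ := ih
    refine ⟨?_, ?_⟩
    · rw [pow_succ, AlgEquiv.mul_apply, hτζ, h1]
    · rw [pow_succ, AlgEquiv.mul_apply, hτe, map_mul, map_pow, h1, h2, ← mul_assoc, ← pow_add,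
        Nat.mul_succ, add_comm]

/-- **(UNIT)** If `e₁ ^ p = 1 + p z` with `z` a unit and the inertia group moves `e₁` by `p`-th
roots of unity, then `w = e₁ - 1` has `v w ^ p = v p`, and the inertia elements fixing `ζ` move
`e₁` to every `ζ ^ j * e₁`: the inertia orbit of `w` has exactly `p` elements. -/
theorem h8_kum_unit (hp2 : p ≠ 2) (A : ValuationSubring Qb) (hA : A.LiesOverPrime p)
    (ζ : Qb) (hζ : IsPrimitiveRoot ζ p) (e1 z : Qb)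
    (he : e1 ^ p = 1 + (p : Qb) * z) (hz : A.valuation z = 1)
    (hcoc : ∀ σ ∈ A.inertiaSubgroupIn ℚ, ∃ i : ℕ, σ e1 = ζ ^ i * e1) :
    A.valuation (e1 - 1) ^ p = A.valuation (p : Qb) ∧
      ∀ j : ℕ, ∃ τ ∈ A.inertiaSubgroupIn ℚ, τ ζ = ζ ∧ τ e1 = ζ ^ j * e1 := by
  classical
  have hp : p.Prime := Fact.out
  obtain ⟨hw1, hwp⟩ := h8_kum_unit_val p A hA e1 z he hz
  refine ⟨hwp, ?_⟩
  obtain ⟨hπ0, hπ1⟩ := h8_val_zeta_lt p hp2 A hA ζ hζ
  have hw0 : e1 - 1 ≠ 0 := by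
    intro h
    rw [h, map_zero, zero_pow hp.ne_zero] at hwp
    exact (h8_val_p_pos p A).ne hwp
  have he10 : e1 ≠ 0 := by
    intro h
    have := h8_val_e1 p A hA e1 z he ((A.valuation_le_one_iff z).1 hz.le)
    rw [h, map_zero] at this
    exact zero_ne_one this
  -- some element of `I` fixing `ζ` moves `e₁`
  obtain ⟨τ, hτ, hτζ, hτe⟩ : ∃ τ ∈ A.inertiaSubgroupIn ℚ, τ ζ = ζ ∧ τ e1 ≠ e1 := by
    by_contra hcon
    have hfix : ∀ σ ∈ A.inertiaSubgroupIn ℚ, σ ζ = ζ → σ (e1 - 1) = e1 - 1 := by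
      intro σ hσ hσζ
      have : σ e1 = e1 := by
        by_contra h
        exact hcon ⟨σ, hσ, hσζ, h⟩
      rw [map_sub, map_one, this]
    obtain ⟨n, hn⟩ := h8_val_tame p hp2 A hA ζ hζ (e1 - 1) hw0 hfix
    have h1 : A.valuation (ζ - 1) ^ (n * (p : ℤ)) = A.valuation (ζ - 1) ^ ((p - 1 : ℕ) : ℤ) := by
      rw [zpow_mul, ← hn, zpow_natCast, zpow_natCast, hwp, h8_val_p p A ζ hζ]
    have h2 : n * (p : ℤ) = ((p - 1 : ℕ) : ℤ) :=
      zpow_right_injective₀ hπ0 hπ1.ne h1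
    have h3 : (p : ℤ) ∣ ((p - 1 : ℕ) : ℤ) := ⟨n, by rw [← h2, mul_comm]⟩
    have h4 : p ∣ p - 1 := Int.natCast_dvd_natCast.1 h3
    have h5 := Nat.le_of_dvd (Nat.sub_pos_of_lt hp.one_lt) h4
    have := hp.two_le
    omega
  obtain ⟨i, hi⟩ := hcoc τ hτ
  have hip : ¬ p ∣ i := by
    rintro ⟨k, rfl⟩
    apply hτe
    rw [hi, pow_mul, hζ.pow_eq_one, one_pow, one_mul]
  have hcop : Nat.Coprime i p := (Nat.Coprime.symm ((Nat.Prime.coprime_iff_not_dvd hp).2 hip))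
  obtain ⟨i', -, hi'⟩ := Nat.exists_mul_mod_eq_one_of_coprime hcop hp.one_lt
  intro j
  obtain ⟨h1, h2⟩ := h8_pow_smul_e1 ζ e1 τ i hτζ hi (i' * j)
  refine ⟨τ ^ (i' * j), pow_mem hτ _, h1, ?_⟩
  rw [h2, ← mul_assoc, pow_mul, ← h8_pow_mod p ζ hζ (i * i'), hi', pow_one]

/-! ### (DECOMP) -/

/-- an `I`-fixed element of `A` in the maximal ideal is divisible by `p`. -/
theorem h8_fixed_nonunit_le (A : ValuationSubring Qb) (hA : A.LiesOverPrime p) (d : Qb)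
    (hd : A.valuation d < 1) (hfix : ∀ σ ∈ A.inertiaSubgroupIn ℚ, σ d = d) :
    A.valuation d ≤ A.valuation (p : Qb) := by
  by_cases hd0 : d = 0
  · rw [hd0, map_zero]
    exact zero_le
  · have hdA : d ∈ A := (A.valuation_le_one_iff d).1 hd.le
    obtain ⟨n, hn⟩ := h8_val_unr_int p A hA d hdA hd0 hfix
    have hn0 : n ≠ 0 := by
      rintro rfl
      rw [hn, pow_zero] at hd
      exact lt_irrefl _ hd
    rw [hn]
    exact pow_le_of_le_one zero_le (h8_val_p_lt p A hA).le hn0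

/-- **(DECOMP)** An `I`-fixed `κ ≠ 0` with `v κ = v p ^ (p m)` is
`(p ^ m c₀) ^ p (1 + p z)` with `c₀` an `I`-fixed unit and `z ∈ A` fixed by `I`. -/
theorem h8_kum_decomp (A : ValuationSubring Qb) (hA : A.LiesOverPrime p) (κ : Qb)
    (hκ : ∀ σ ∈ A.inertiaSubgroupIn ℚ, σ κ = κ) (m : ℤ)
    (hv : A.valuation κ = A.valuation (p : Qb) ^ ((p : ℤ) * m)) :
    ∃ c0 z : Qb, (∀ σ ∈ A.inertiaSubgroupIn ℚ, σ c0 = c0) ∧
      (∀ σ ∈ A.inertiaSubgroupIn ℚ, σ z = z) ∧ A.valuation c0 = 1 ∧ z ∈ A ∧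
      κ = ((p : Qb) ^ m * c0) ^ p * (1 + (p : Qb) * z) := by
  classical
  have hp : p.Prime := Fact.out
  have hp0 : (p : Qb) ≠ 0 := Nat.cast_ne_zero.2 hp.ne_zero
  have hP0 : (p : Qb) ^ m ≠ 0 := zpow_ne_zero m hp0
  have hPp0 : ((p : Qb) ^ m) ^ p ≠ 0 := pow_ne_zero p hP0
  have hPfix : ∀ σ : Γℚ, σ ((p : Qb) ^ m) = (p : Qb) ^ m := fun σ => by
    rw [map_zpow₀, map_natCast]
  have hvP : A.valuation (((p : Qb) ^ m) ^ p) = A.valuation (p : Qb) ^ ((p : ℤ) * m) := by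
    rw [map_pow, map_zpow₀, ← zpow_natCast, ← zpow_mul, mul_comm]
  have hvp0 : A.valuation (p : Qb) ^ ((p : ℤ) * m) ≠ 0 :=
    zpow_ne_zero _ (h8_val_p_pos p A).ne'
  -- the unit part
  set κ1 : Qb := κ / ((p : Qb) ^ m) ^ p with hκ1
  have hvκ1 : A.valuation κ1 = 1 := by
    rw [hκ1, map_div₀, hv, hvP, div_self hvp0]
  have hκ1fix : ∀ σ ∈ A.inertiaSubgroupIn ℚ, σ κ1 = κ1 := fun σ hσ => by
    rw [hκ1, map_div₀, map_pow, hPfix, hκ σ hσ]
  obtain ⟨y, hy⟩ := IsAlgClosed.exists_pow_nat_eq κ1 hp.pos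
  have hvy : A.valuation y = 1 := by
    refine h8_pow_inj_val A _ _ p hp.ne_zero ?_
    rw [← map_pow, hy, hvκ1, one_pow]
  have hyA : y ∈ A := (A.valuation_le_one_iff y).1 hvy.le
  obtain ⟨c0, hc0A, hc0fix, hyc⟩ := h5_res_K0 p hp A hA y hyA
  rw [ValuationSubring.mem_nonunits_iff] at hyc
  have hvc0 : A.valuation c0 = 1 := by
    have h1 : A.valuation (y - (y - c0)) = A.valuation y :=
      Valuation.map_sub_eq_of_lt_left _ (by rw [hvy]; exact hyc)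
    rw [sub_sub_cancel] at h1
    rw [h1, hvy]
  have hc00 : c0 ≠ 0 := by
    intro h
    rw [h, map_zero] at hvc0
    exact zero_ne_one hvc0
  have hc0p0 : c0 ^ p ≠ 0 := pow_ne_zero p hc00
  -- the principal unit
  set d : Qb := κ1 / c0 ^ p - 1 with hd
  have hdfix : ∀ σ ∈ A.inertiaSubgroupIn ℚ, σ d = d := fun σ hσ => by
    rw [hd, map_sub, map_div₀, map_pow, map_one, hκ1fix σ hσ, hc0fix σ hσ]
  have hvd : A.valuation d < 1 := by
    have h1 : d = (∑ i ∈ Finset.range p, y ^ i * c0 ^ (p - 1 - i)) * (y - c0) / c0 ^ p := by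
      rw [geom_sum₂_mul, hy, hd]
      field_simp
    have h2 : (∑ i ∈ Finset.range p, y ^ i * c0 ^ (p - 1 - i)) ∈ A :=
      sum_mem (fun i _ => A.mul_mem _ _ (pow_mem hyA i) (pow_mem hc0A _))
    rw [h1, map_div₀, map_pow, hvc0, one_pow, div_one, map_mul]
    exact lt_of_le_of_lt (mul_le_of_le_one_left' ((A.valuation_le_one_iff _).2 h2)) hyc
  have hvdp : A.valuation d ≤ A.valuation (p : Qb) := h8_fixed_nonunit_le p A hA d hvd hdfix
  refine ⟨c0, d / (p : Qb), hc0fix, fun σ hσ => ?_, hvc0, ?_, ?_⟩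
  · rw [map_div₀, hdfix σ hσ, map_natCast]
  · rw [← A.valuation_le_one_iff, map_div₀]
    exact div_le_one_of_le₀ hvdp zero_le
  · rw [mul_div_cancel₀ _ hp0, hd, mul_pow, hκ1]
    field_simp
    ring

/-! ### The dichotomy -/

/-- **(W0)(b) Kummer dichotomy.**  `e ≠ 0` moved by the inertia group through `p`-th roots of
unity, with `v (e ^ p) = v p ^ (p m)`.  Then either (SPLIT) some `ζ ^ j * e` is fixed by the
inertia group, or (UNIT) `e₁ = e / (p ^ m c₀)` satisfies `e₁ ^ p = 1 + p z` with `c₀, z` units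
fixed by the inertia group, `w = e₁ - 1` has `v w ^ p = v p`, and the inertia elements fixing
`ζ` move `e` to every `ζ ^ j * e`. -/
theorem h8_kum_dich (hp2 : p ≠ 2) (A : ValuationSubring Qb) (hA : A.LiesOverPrime p)
    (ζ : Qb) (hζ : IsPrimitiveRoot ζ p) (e : Qb)
    (hcoc : ∀ σ ∈ A.inertiaSubgroupIn ℚ, ∃ i : ℕ, σ e = ζ ^ i * e)
    (m : ℤ) (hv : A.valuation (e ^ p) = A.valuation (p : Qb) ^ ((p : ℤ) * m)) :
    (∃ j : ℕ, ∀ σ ∈ A.inertiaSubgroupIn ℚ, σ (ζ ^ j * e) = ζ ^ j * e) ∨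
    (∃ c0 z : Qb, (∀ σ ∈ A.inertiaSubgroupIn ℚ, σ c0 = c0) ∧
      (∀ σ ∈ A.inertiaSubgroupIn ℚ, σ z = z) ∧ A.valuation c0 = 1 ∧ A.valuation z = 1 ∧
      (e / ((p : Qb) ^ m * c0)) ^ p = 1 + (p : Qb) * z ∧
      A.valuation (e / ((p : Qb) ^ m * c0) - 1) ^ p = A.valuation (p : Qb) ∧
      ∀ j : ℕ, ∃ τ ∈ A.inertiaSubgroupIn ℚ, τ ζ = ζ ∧ τ e = ζ ^ j * e) := by
  classical
  have hp : p.Prime := Fact.out
  have hp0 : (p : Qb) ≠ 0 := Nat.cast_ne_zero.2 hp.ne_zero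
  have hκ : ∀ σ ∈ A.inertiaSubgroupIn ℚ, σ (e ^ p) = e ^ p := fun σ hσ => by
    obtain ⟨i, hi⟩ := hcoc σ hσ
    rw [map_pow, hi, mul_pow, ← pow_mul, mul_comm i p, pow_mul, hζ.pow_eq_one, one_pow, one_mul]
  obtain ⟨c0, z, hc0fix, hzfix, hvc0, hzA, hdec⟩ := h8_kum_decomp p A hA (e ^ p) hκ m hv
  have hc00 : c0 ≠ 0 := by
    intro h
    rw [h, map_zero] at hvc0
    exact zero_ne_one hvc0
  have hD0 : (p : Qb) ^ m * c0 ≠ 0 := mul_ne_zero (zpow_ne_zero m hp0) hc00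
  have hDfix : ∀ σ ∈ A.inertiaSubgroupIn ℚ, σ ((p : Qb) ^ m * c0) = (p : Qb) ^ m * c0 :=
    fun σ hσ => by rw [map_mul, map_zpow₀, map_natCast, hc0fix σ hσ]
  have he1 : (e / ((p : Qb) ^ m * c0)) ^ p = 1 + (p : Qb) * z := by
    rw [div_pow, hdec, mul_div_cancel_left₀ _ (pow_ne_zero p hD0)]
  have hcoc1 : ∀ σ ∈ A.inertiaSubgroupIn ℚ, ∀ i : ℕ, σ e = ζ ^ i * e →
      σ (e / ((p : Qb) ^ m * c0)) = ζ ^ i * (e / ((p : Qb) ^ m * c0)) := fun σ hσ i hi => by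
    rw [map_div₀, hDfix σ hσ, hi, mul_div_assoc]
  have hcoc1' : ∀ σ ∈ A.inertiaSubgroupIn ℚ, ∃ i : ℕ,
      σ (e / ((p : Qb) ^ m * c0)) = ζ ^ i * (e / ((p : Qb) ^ m * c0)) := fun σ hσ => by
    obtain ⟨i, hi⟩ := hcoc σ hσ
    exact ⟨i, hcoc1 σ hσ i hi⟩
  have hback : ∀ (σ : Γℚ), σ ∈ A.inertiaSubgroupIn ℚ → ∀ j : ℕ,
      σ (e / ((p : Qb) ^ m * c0)) = ζ ^ j * (e / ((p : Qb) ^ m * c0)) → σ e = ζ ^ j * e := by
    intro σ hσ j h
    rw [map_div₀, hDfix σ hσ, ← mul_div_assoc] at h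
    exact (div_left_inj' hD0).1 h
  rcases lt_or_eq_of_le ((A.valuation_le_one_iff z).2 hzA) with hz | hz
  · left
    obtain ⟨j, hj⟩ := h8_kum_split p hp2 A hA ζ hζ _ z he1
      (h8_fixed_nonunit_le p A hA z hz hzfix) hcoc1'
    refine ⟨j, fun σ hσ => ?_⟩
    have h1 := hj σ hσ
    rw [← mul_div_assoc, map_div₀, hDfix σ hσ] at h1
    exact (div_left_inj' hD0).1 h1
  · right
    obtain ⟨h1, h2⟩ := h8_kum_unit p hp2 A hA ζ hζ _ z he1 hz hcoc1'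
    refine ⟨c0, z, hc0fix, hzfix, hvc0, hz, he1, h1, fun j => ?_⟩
    obtain ⟨τ, hτ, hτζ, hτe⟩ := h2 j
    exact ⟨τ, hτ, hτζ, hback τ hτ j hτe⟩

/-- In the (SPLIT) case the cocycle is a coboundary: if `σ` fixes `ζ ^ j * e`, `σ ζ = ζ ^ a` and
`σ e = ζ ^ i * e`, then `i = -j (a - 1)` in `ZMod p`. -/
theorem h8_kum_split_coc (ζ : Qb) (hζ : IsPrimitiveRoot ζ p) (e : Qb) (he0 : e ≠ 0) (σ : Γℚ)
    (j a i : ℕ) (hfix : σ (ζ ^ j * e) = ζ ^ j * e) (hσζ : σ ζ = ζ ^ a) (hσe : σ e = ζ ^ i * e) :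
    (i : ZMod p) = -(j : ZMod p) * ((a : ZMod p) - 1) := by
  have hp : p.Prime := Fact.out
  have h1 : ζ ^ (a * j + i) = ζ ^ j := by
    rw [map_mul, map_pow, hσζ, hσe, ← pow_mul, ← mul_assoc, ← pow_add] at hfix
    exact mul_right_cancel₀ he0 hfix
  have h2 : a * j + i ≡ j [MOD p] :=
    hζ.pow_inj (Nat.mod_lt _ hp.pos) (Nat.mod_lt _ hp.pos)
      (by rw [h8_pow_mod p ζ hζ, h8_pow_mod p ζ hζ, h1])
  have h3 := (ZMod.natCast_eq_natCast_iff _ _ _).2 h2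
  push_cast at h3
  linear_combination h3

/-- the `p` conjugates `ζ ^ j * e₁`, `j < p`, are pairwise distinct. -/
theorem h8_kum_orbit_inj (ζ : Qb) (hζ : IsPrimitiveRoot ζ p) (e1 : Qb) (he1 : e1 ≠ 0)
    (j j' : ℕ) (hj : j < p) (hj' : j' < p) (h : ζ ^ j * e1 = ζ ^ j' * e1) : j = j' :=
  hζ.pow_inj hj hj' (mul_right_cancel₀ he1 h)

/-- **(W0)(b), cocycle form.**  `c : Gal → ZMod p` with `σ e = ζ ^ (c σ) * e` on the inertia
group `I`, and `v (e ^ p) = v p ^ (p m)`.  Then EITHER (SPLIT) `c σ = i (ω σ - 1)` on `I` for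
some `i` (`σ ζ = ζ ^ a`, `ω σ = a`), OR (UNIT) there are `I`-fixed units `c₀, z` such that
`w = e / (p ^ m c₀) - 1` satisfies `(1 + w) ^ p = 1 + p z`, `v w ^ p = v p`,
`w ^ p = p (z - w G(w))`, `σ (1 + w) = ζ ^ (c σ) (1 + w)` on `I`, and the elements of `I` fixing
`ζ` move `1 + w` to every `ζ ^ j (1 + w)`. -/
theorem h8_kum_dich_coc (hp2 : p ≠ 2) (A : ValuationSubring Qb) (hA : A.LiesOverPrime p)
    (ζ : Qb) (hζ : IsPrimitiveRoot ζ p) (e : Qb) (he0 : e ≠ 0) (c : Γℚ → ZMod p)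
    (hc : ∀ σ ∈ A.inertiaSubgroupIn ℚ, σ e = ζ ^ (c σ).val * e)
    (m : ℤ) (hv : A.valuation (e ^ p) = A.valuation (p : Qb) ^ ((p : ℤ) * m)) :
    (∃ i : ZMod p, ∀ σ ∈ A.inertiaSubgroupIn ℚ, ∀ a : ℕ, σ ζ = ζ ^ a →
        c σ = i * ((a : ZMod p) - 1)) ∨
    (∃ c0 z w : Qb, (∀ σ ∈ A.inertiaSubgroupIn ℚ, σ c0 = c0) ∧
      (∀ σ ∈ A.inertiaSubgroupIn ℚ, σ z = z) ∧ A.valuation c0 = 1 ∧ A.valuation z = 1 ∧
      w = e / ((p : Qb) ^ m * c0) - 1 ∧ (1 + w) ^ p = 1 + (p : Qb) * z ∧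
      A.valuation w ^ p = A.valuation (p : Qb) ∧ w ^ p = (p : Qb) * (z - w * h8_G p w) ∧
      (∀ σ ∈ A.inertiaSubgroupIn ℚ, σ (1 + w) = ζ ^ (c σ).val * (1 + w)) ∧
      ∀ j : ℕ, ∃ τ ∈ A.inertiaSubgroupIn ℚ, τ ζ = ζ ∧ τ (1 + w) = ζ ^ j * (1 + w)) := by
  classical
  have hp : p.Prime := Fact.out
  haveI : NeZero p := ⟨hp.ne_zero⟩
  have hp0 : (p : Qb) ≠ 0 := Nat.cast_ne_zero.2 hp.ne_zero
  have hcoc : ∀ σ ∈ A.inertiaSubgroupIn ℚ, ∃ i : ℕ, σ e = ζ ^ i * e :=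
    fun σ hσ => ⟨(c σ).val, hc σ hσ⟩
  rcases h8_kum_dich p hp2 A hA ζ hζ e hcoc m hv with ⟨j, hj⟩ | ⟨c0, z, h1, h2, h3, h4, h5, h6, h7⟩
  · left
    refine ⟨-(j : ZMod p), fun σ hσ a ha => ?_⟩
    have := h8_kum_split_coc p ζ hζ e he0 σ j a (c σ).val (hj σ hσ) ha (hc σ hσ)
    rwa [ZMod.natCast_zmod_val] at this
  · right
    have hc00 : c0 ≠ 0 := by
      intro h
      rw [h, map_zero] at h3
      exact zero_ne_one h3
    have hD0 : (p : Qb) ^ m * c0 ≠ 0 := mul_ne_zero (zpow_ne_zero m hp0) hc00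
    have hDfix : ∀ σ ∈ A.inertiaSubgroupIn ℚ, σ ((p : Qb) ^ m * c0) = (p : Qb) ^ m * c0 :=
      fun σ hσ => by rw [map_mul, map_zpow₀, map_natCast, h1 σ hσ]
    have hw : (1 : Qb) + (e / ((p : Qb) ^ m * c0) - 1) = e / ((p : Qb) ^ m * c0) := by ring
    refine ⟨c0, z, e / ((p : Qb) ^ m * c0) - 1, h1, h2, h3, h4, rfl, by rw [hw, h5], h6,
      h8_kum_eis p _ z h5, fun σ hσ => ?_, fun j => ?_⟩
    · rw [hw, map_div₀, hDfix σ hσ, hc σ hσ, mul_div_assoc]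
    · obtain ⟨τ, hτ, hτζ, hτe⟩ := h7 j
      refine ⟨τ, hτ, hτζ, ?_⟩
      rw [hw, map_div₀, hDfix τ hτ, hτe, mul_div_assoc]

end Fermat.Agent.S40
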