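import Mathlib
import Fermat.Agent.S40.h67_CoreOfRows
import Fermat.Agent.S40.h67_W6Row

/-!
# S40 / (TR) row W9 (helper92): the ROWS statement of the core from row T8

`h92_rows_of` : at the thin charted level `(M' r, p)` (`p ≥ 5`, `r ≡ 11 mod 12` prime): the node
theorem `h87_node_closed` is opened ONCE; row W6 is `h67_w6_thin` (helper31's W6 + helper67's
count instance); the one remaining modular row is a hypothesis stated for the node data
`(Sg, n0)` of the node theorem:

* `hT8` : rows W7 + W8 + T8 in the output shape `h92_T8Out`, for every class, Eisenstein pair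
  and `H`-fixed representative of `h67_RowsStmt`.  (The count instance for the same `Sg` is
  `h67_cnt_block`; the T8 rows call it themselves.)

Conclusion: `h67_RowsStmt W M' p r hpMr A hA`, the first hypothesis of `h67_core_of_rows`.
-/

set_option autoImplicit false
set_option synthInstance.maxHeartbeats 400000

noncomputable section

open ModularCurve AlgebraicCurve

namespace Fermat.Agent.S40

open Fermat.Agent.S34 Fermat.Agent.S18 Fermat.Agent.S35 Fermat.Agent.S36 Fermat.Agent.S37

local notation "Qb" => AlgebraicClosure ℚ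

section Top

variable (M p : ℕ) [NeZero M] [NeZero p] [hpF : Fact p.Prime] (hpM : ¬ p ∣ M)
  (A : ValuationSubring Qb) (hA : A.LiesOverPrime p)
  [CharP (IsLocalRing.ResidueField A) p] [IsAlgClosed (IsLocalRing.ResidueField A)]

/-- The node data of the W9 binder block for a node set `Sg` and a threshold `n0`: the three
properties of the nodes and the sharp node theorem (the conclusion of `h87_node_closed`). -/
def h92_NodeData (Sg : Finset (Place (IsLocalRing.ResidueField A)
      ↥(modularFunctionFieldFullC (IsLocalRing.ResidueField A) M))) (n0 : ℕ) : Prop :=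
  (∀ Q ∈ Sg, Q ≠ h11_placeInftyC (IsLocalRing.ResidueField A) M ∧
      h96_frobPerm (h84_isFrobChart_jk M p hpM A hA) Q ≠
        h11_placeInftyC (IsLocalRing.ResidueField A) M ∧
      h96_frobPerm (h84_isFrobChart_jk M p hpM A hA)
        (h96_frobPerm (h84_isFrobChart_jk M p hpM A hA) Q) = Q) ∧
  ∀ n, n0 ≤ n → ∀ a : ↥(modularFunctionFieldFullC (IsLocalRing.ResidueField A) M) ×
      ↥(modularFunctionFieldFullC (IsLocalRing.ResidueField A) M),
    a ∈ h51_Rd (h87_D M p hpM A hA) (n • h87_D0 M p hpM) ↔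
      (a ∈ h20_P (h11_placeInftyC (IsLocalRing.ResidueField A) M) n ∧
        ∀ Q ∈ Sg, ∃ c : IsLocalRing.ResidueField A,
          h39_Val (h96_frobPerm (h84_isFrobChart_jk M p hpM A hA) Q) a.1 c ∧
            h39_Val Q a.2 c)

/-- The node theorem in the packaged form. -/
theorem h92_exists_nodeData (hch : 5 ≤ p ∨ 2 ∣ M ∨ 3 ∣ M) :
    ∃ (Sg : Finset (Place (IsLocalRing.ResidueField A)
      ↥(modularFunctionFieldFullC (IsLocalRing.ResidueField A) M))) (n0 : ℕ),
      h92_NodeData M p hpM A hA Sg n0 := by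
  obtain ⟨Sg, hSg, n0, -, -, hnode⟩ := h87_node_closed M p hpM A hA hch
  exact ⟨Sg, n0, hSg, hnode⟩

end Top

/-- **The ROWS statement of the core from row T8** (W7 + W8 + T8 in the shape `h92_T8Out`). -/
theorem h92_rows_of (W : WeierstrassCurve ℤ) (M' p r : ℕ) [Fact p.Prime] [NeZero p] [NeZero M']
    [NeZero r] (hpMr : ¬ p ∣ M' * r) (A : ValuationSubring Qb) (hA : A.LiesOverPrime p)
    [CharP (IsLocalRing.ResidueField A) p] [IsAlgClosed (IsLocalRing.ResidueField A)]
    (hp5 : 5 ≤ p) (hr : r.Prime) (hr12 : r % 12 = 11)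
    (hT8 : ∀ (Sg : Finset (Place (IsLocalRing.ResidueField A)
        ↥(modularFunctionFieldFullC (IsLocalRing.ResidueField A) (M' * r)))) (n0 : ℕ),
      h92_NodeData (M' * r) p hpMr A hA Sg n0 →
      ∀ y : JZero (M' * r * p), p • y = 0 →
        (∀ (ℓ : ℕ) (hℓ : ℓ.Prime), W.IsGoodPrimeFor ℓ → ¬ ℓ ∣ M' * r * p → ℓ ≠ p →
          heckeOperatorBar (M' * r * p) ⟨ℓ, hℓ⟩ y = W.apOfModel ℓ • y) →
        h67_Jnew (M' * r) p y →
        ∀ z w : Qb, A.valuation z = 1 → (∀ g ∈ A.inertiaSubgroupIn ℚ, g z = z) →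
          (1 + w) ^ p = 1 + (p : Qb) * z →
          ∀ (D : Divisor.degZero (K := Qb) (F := modularFunctionFieldBar (M' * r * p)))
            (u : modularFunctionFieldBar (M' * r * p)),
            Pic0.mk D = y → u ≠ 0 → h69_lc (M' * r * p) u = 1 →
            (∀ v : Place Qb (modularFunctionFieldBar (M' * r * p)),
              (p : ℤ) * (D : Divisor Qb (modularFunctionFieldBar (M' * r * p))) v = v.ord u) →
            (∀ g ∈ A.inertiaSubgroupIn ℚ, g w = w →
              arithmeticGalois (modularFunctionFieldFull (M' * r * p)) g •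
                (D : Divisor Qb (modularFunctionFieldBar (M' * r * p))) = D) →
            (∀ g ∈ A.inertiaSubgroupIn ℚ, g w = w →
              arithmeticGalois (modularFunctionFieldFull (M' * r * p)) g • u = u) →
            h92_T8Out (M' * r) p hpMr A hA Sg
              (h96_frobPerm (h84_isFrobChart_jk (M' * r) p hpMr A hA)) u) :
    h67_RowsStmt W M' p r hpMr A hA := by
  obtain ⟨Sg, n0, hnd⟩ := h92_exists_nodeData (M' * r) p hpMr A hA (Or.inl hp5)
  refine ⟨Sg, h96_frobPerm (h84_isFrobChart_jk (M' * r) p hpMr A hA), ?_⟩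
  intro y hpy hTy hnew z w hz hzI hw D u hD hu hlc hdiv hDfix hufix
  exact ⟨h67_w6_thin M' p r hpMr A hA hp5 hr hr12 Sg hnd.1 n0 hnd.2 u hu _ hdiv,
    hT8 Sg n0 hnd y hpy hTy hnew z w hz hzI hw D u hD hu hlc hdiv hDfix hufix⟩

end Fermat.Agent.S40
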