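import Mathlib
import Fermat.Agent.S33.h10_N1Glue
import Fermat.Agent.S24.h35_PlaceBasic
import Fermat.Agent.S34.h22_LatON
import Fermat.Agent.S34.h51_Glue

/-!
# S40 / (TR) row W6, generic half: twisted lattices of two reduction data (helper93)

Two reduction data `R₁, R₂` on one function field `F / K` (the two components of the special
fibre), with common constants `A` of rank one and a separating element.  For a constant `γ ≠ 0`
the **twisted lattice** is `{f | f ∈ O₁ ∧ γ⁻¹ f ∈ O₂}` with the **twisted reduction**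
`f ↦ (red₁ f, red₂ (γ⁻¹ f))`.  Nothing here needs `γ` to be rational over any subfield: `γ` is an
arbitrary nonzero constant.

* `h93_twist_unit` (TW1): a twisting unit `g` (`red₁ g = 1`, `red₂ (γ⁻¹ g) = 1`), from the
  two-valuation glue `h10_glue`;
* `h93_twist_on`, `h93_exists_twist_on` (TW2): orthonormal bases of every finite-dimensional
  `K`-subspace `V` for the twisted lattice: `dim_K V` elements of `V` in the twisted lattice with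
  `k`-linearly independent twisted reductions (from the untwisted pair-ON `h93_PairON`, which is
  `h22_ON` of the pair lattice: `h93_pairON_of_lat`);
* `h93_twist_lift` : every element of the `k`-span of the twisted reductions of such a family is
  the twisted reduction of an element of `V` in the twisted lattice;
* `h93_H`, `h93_H_eq`, `h93_H_mem_red` (TW3): the function
  `H = f^p (c₁ u)⁻¹ (π⁻¹ a)^δ = (γ⁻¹ f)^p (c₂ u)⁻¹ a^δ` (`γ^p c₂ = c₁ π^δ`) lies in `O₁ ∩ O₂` and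
  its two reductions are `φ₁^p ū₁⁻¹ ρ^δ` and `φ₂^p ū₂⁻¹ ā^δ`;
* `h93_H0_mem_red` : the untwisted `H₀ = f^p (c₁ u)⁻¹` lies in `O₁ ∩ O₂` with first reduction
  `φ₁^p ū₁⁻¹`;
* `h93_H_mem_rr` : `H ∈ L((p n + δ nₐ) D0)` when `f ∈ L(n D0 - E)`, `p E = div u`, `a ∈ L(nₐ D0)`;
* `h93_exists_pow_div` (TW4), `h93_sep_pow` : for `s ∈ O` with zero reduction and `π ≠ 0`, some
  power `s^m` is divisible by `π` in `O` (rank one): separators need no rationality;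
* `h93_H2_mem_red`, `h93_H2_mem_rr` (TW3''): `H'' = H(f, s) s^(p-δ)` for the non-node trick;
* `h93_twist_space` (M3): the `k`-space of twisted reductions of `V`, of dimension `dim_K V`.
-/

set_option autoImplicit false

noncomputable section

open AlgebraicCurve

namespace Fermat.Agent.S40

open Fermat.Agent.S18 Fermat.Agent.S33 Fermat.Agent.S34 Fermat.Agent.S24

section OneDatum

variable {K F k Fb : Type*} [Field K] [Field F] [Algebra K F] [Field k] [Field Fb] [Algebra k Fb]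
  (R : h39_RedDatum K F k Fb)

/-- Reduction of the inverse of a unit of `O`. -/
theorem h93_redF_inv {f : F} (hf : f ∈ R.O) (hfi : f⁻¹ ∈ R.O) :
    R.redF f⁻¹ = (R.redF f)⁻¹ := by
  rcases eq_or_ne f 0 with rfl | hf0
  · rw [inv_zero, h39_redF_zero, inv_zero]
  · have h1 : R.redF f * R.redF f⁻¹ = 1 := by
      rw [← h39_redF_mul R hf hfi, mul_inv_cancel₀ hf0, h39_redF_one]
    exact eq_inv_of_mul_eq_one_right h1

/-- A nonunit constant times an integral element is integral with zero reduction. -/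
theorem h93_redF_nonunit_mul {π : K} (hπ : π ∈ R.A.nonunits) {s : F} (hs : s ∈ R.O) :
    algebraMap K F π * s ∈ R.O ∧ R.redF (algebraMap K F π * s) = 0 := by
  have hπA : π ∈ R.A := ValuationSubring.nonunits_le hπ
  have hπO : algebraMap K F π ∈ R.O := (R.mem_iff π).mp hπA
  refine ⟨R.O.mul_mem _ _ hπO hs, ?_⟩
  have h0 : R.resK π = 0 := by
    rw [h39_resK_eq_zero_iff R hπA]
    exact (ValuationSubring.mem_nonunits_iff_or R.A).mp hπ
  rw [h39_redF_mul R hπO hs, h39_redF_algebraMap R hπA, h0, map_zero, zero_mul]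

/-- **(TW4)** Rank one: some power of an element with zero reduction is divisible by a given
nonzero constant. -/
theorem h93_exists_pow_div (hrk : h39_RankOne R.A) {s : F} (hs : s ∈ R.O) (hs0 : R.redF s = 0)
    {π : K} (hπ : π ≠ 0) :
    ∃ m : ℕ, 0 < m ∧ (algebraMap K F π)⁻¹ * s ^ m ∈ R.O := by
  obtain ⟨c, f', hcA, hc0, hf', rfl⟩ := h39_exists_factor_of_redF_eq_zero R hs hs0
  rcases eq_or_ne c 0 with rfl | hcne
  · refine ⟨1, one_pos, ?_⟩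
    rw [map_zero, zero_mul, pow_one, mul_zero]
    exact R.O.zero_mem
  · have hci : c⁻¹ ∉ R.A := by
      rcases (h39_resK_eq_zero_iff R hcA).mp hc0 with h | h
      · exact absurd h hcne
      · exact h
    obtain ⟨n, hn⟩ := hrk c hcA hci π hπ
    refine ⟨n + 1, Nat.succ_pos n, ?_⟩
    have hcO : algebraMap K F c ∈ R.O := (R.mem_iff c).mp hcA
    have h1 : algebraMap K F (c ^ n * π⁻¹) ∈ R.O := (R.mem_iff _).mp hn
    have e : (algebraMap K F π)⁻¹ * (algebraMap K F c * f') ^ (n + 1) =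
        algebraMap K F (c ^ n * π⁻¹) * (algebraMap K F c * f' ^ (n + 1)) := by
      rw [map_mul, map_pow, map_inv₀]
      ring
    rw [e]
    exact R.O.mul_mem _ _ h1 (R.O.mul_mem _ _ hcO (R.O.pow_mem hf' _))

end OneDatum

section Twist

variable {K F k Fb₁ Fb₂ : Type*} [Field K] [Field F] [Algebra K F] [Field k] [Field Fb₁]
  [Algebra k Fb₁] [Field Fb₂] [Algebra k Fb₂]
  (R₁ : h39_RedDatum K F k Fb₁) (R₂ : h39_RedDatum K F k Fb₂)

/-- Membership in the twisted lattice: `f ∈ O₁` and `γ⁻¹ f ∈ O₂`. -/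
def h93_InTw (γ : K) (f : F) : Prop :=
  f ∈ R₁.O ∧ (algebraMap K F γ)⁻¹ * f ∈ R₂.O

/-- The twisted reduction `f ↦ (red₁ f, red₂ (γ⁻¹ f))`. -/
def h93_redTw (γ : K) (f : F) : Fb₁ × Fb₂ :=
  (R₁.redF f, R₂.redF ((algebraMap K F γ)⁻¹ * f))

theorem h93_inTw_zero (γ : K) : h93_InTw R₁ R₂ γ 0 := by
  refine ⟨R₁.O.zero_mem, ?_⟩
  rw [mul_zero]
  exact R₂.O.zero_mem

theorem h93_inTw_add {γ : K} {f g : F} (hf : h93_InTw R₁ R₂ γ f) (hg : h93_InTw R₁ R₂ γ g) :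
    h93_InTw R₁ R₂ γ (f + g) := by
  refine ⟨R₁.O.add_mem _ _ hf.1 hg.1, ?_⟩
  rw [mul_add]
  exact R₂.O.add_mem _ _ hf.2 hg.2

theorem h93_inTw_smul (hA : R₁.A = R₂.A) {γ : K} {a : K} (ha : a ∈ R₁.A) {f : F}
    (hf : h93_InTw R₁ R₂ γ f) : h93_InTw R₁ R₂ γ (a • f) := by
  rw [Algebra.smul_def]
  refine ⟨R₁.O.mul_mem _ _ ((R₁.mem_iff a).mp ha) hf.1, ?_⟩
  have e : (algebraMap K F γ)⁻¹ * (algebraMap K F a * f) =
      algebraMap K F a * ((algebraMap K F γ)⁻¹ * f) := by ring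
  rw [e]
  exact R₂.O.mul_mem _ _ ((R₂.mem_iff a).mp (hA ▸ ha)) hf.2

theorem h93_redTw_zero (γ : K) : h93_redTw R₁ R₂ γ 0 = 0 := by
  unfold h93_redTw
  rw [mul_zero, h39_redF_zero, h39_redF_zero]
  rfl

theorem h93_redTw_add {γ : K} {f g : F} (hf : h93_InTw R₁ R₂ γ f) (hg : h93_InTw R₁ R₂ γ g) :
    h93_redTw R₁ R₂ γ (f + g) = h93_redTw R₁ R₂ γ f + h93_redTw R₁ R₂ γ g := by
  unfold h93_redTw
  rw [h39_redF_add R₁ hf.1 hg.1, mul_add, h39_redF_add R₂ hf.2 hg.2]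
  rfl

theorem h93_redTw_smul (hA : R₁.A = R₂.A) (hres : ∀ a : K, a ∈ R₁.A → R₁.resK a = R₂.resK a)
    {γ : K} {a : K} (ha : a ∈ R₁.A) {f : F} (hf : h93_InTw R₁ R₂ γ f) :
    h93_redTw R₁ R₂ γ (a • f) = R₁.resK a • h93_redTw R₁ R₂ γ f := by
  have ha2 : a ∈ R₂.A := hA ▸ ha
  have e : (algebraMap K F γ)⁻¹ * (algebraMap K F a * f) =
      algebraMap K F a * ((algebraMap K F γ)⁻¹ * f) := by ring
  unfold h93_redTw
  rw [Algebra.smul_def, e, h39_redF_mul R₁ ((R₁.mem_iff a).mp ha) hf.1,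
    h39_redF_mul R₂ ((R₂.mem_iff a).mp ha2) hf.2, h39_redF_algebraMap R₁ ha,
    h39_redF_algebraMap R₂ ha2, ← hres a ha, Prod.smul_mk, Algebra.smul_def, Algebra.smul_def]

/-- **(TW1) Twisting unit**: `g` with `red₁ g = 1` and `red₂ (γ⁻¹ g) = 1`. -/
theorem h93_twist_unit (hA : R₁.A = R₂.A) (hrk : h39_RankOne R₁.A)
    (hsep : ∃ t : F, t ∈ R₁.O ∧ t ∈ R₂.O ∧ R₁.redF t = 1 ∧ R₂.redF t = 0)
    {π : K} (hπ0 : π ≠ 0) (hπ : π ∈ R₁.A.nonunits) {γ : K} (hγ : γ ≠ 0) :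
    ∃ g : F, g ≠ 0 ∧ g ∈ R₁.O ∧ R₁.redF g = 1 ∧ (algebraMap K F γ)⁻¹ * g ∈ R₂.O ∧
      R₂.redF ((algebraMap K F γ)⁻¹ * g) = 1 := by
  have hγF : algebraMap K F γ ≠ 0 := by
    rw [Ne, map_eq_zero]
    exact hγ
  obtain ⟨W, ⟨s₁, hs₁, hW₁⟩, ⟨s₂, hs₂, hW₂⟩⟩ :=
    h10_glue R₁ R₂ hA hrk hsep (1 : F) (algebraMap K F γ) one_ne_zero hγF hπ0
  have hπ2 : π ∈ R₂.A.nonunits := hA ▸ hπ
  obtain ⟨h1m, h1r⟩ := h93_redF_nonunit_mul R₁ hπ hs₁
  obtain ⟨h2m, h2r⟩ := h93_redF_nonunit_mul R₂ hπ2 hs₂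
  have hW1 : W = 1 + algebraMap K F π * s₁ := by rw [hW₁, one_mul]
  have hW2 : (algebraMap K F γ)⁻¹ * W = 1 + algebraMap K F π * s₂ := by
    rw [hW₂, ← mul_assoc, inv_mul_cancel₀ hγF, one_mul]
  have hr1 : R₁.redF W = 1 := by
    rw [hW1, h39_redF_add R₁ R₁.O.one_mem h1m, h39_redF_one, h1r, add_zero]
  have hr2 : R₂.redF ((algebraMap K F γ)⁻¹ * W) = 1 := by
    rw [hW2, h39_redF_add R₂ R₂.O.one_mem h2m, h39_redF_one, h2r, add_zero]
  refine ⟨W, ?_, ?_, hr1, ?_, hr2⟩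
  · rintro rfl
    rw [h39_redF_zero] at hr1
    exact zero_ne_one hr1
  · rw [hW1]
    exact R₁.O.add_mem _ _ R₁.O.one_mem h1m
  · rw [hW2]
    exact R₂.O.add_mem _ _ R₂.O.one_mem h2m

/-- **Pair-ON**: every finite-dimensional `K`-subspace `V` of `F` has `dim V` elements of
`V ∩ O₁ ∩ O₂` with `k`-linearly independent simultaneous reductions. -/
def h93_PairON : Prop :=
  ∀ (V : Submodule K F), Module.Finite K V →
    ∃ e : Fin (Module.finrank K V) → F, (∀ j, e j ∈ V) ∧ (∀ j, e j ∈ R₁.O ∧ e j ∈ R₂.O) ∧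
      LinearIndependent k (fun j => ((R₁.redF (e j), R₂.redF (e j)) : Fb₁ × Fb₂))

/-- Pair-ON from (ON) of a lattice datum whose integers are `O₁ ∩ O₂` and whose reduction is the
simultaneous reduction (e.g. `h22_latOfPair`). -/
theorem h93_pairON_of_lat (D : h22_Lat K F k (Fb₁ × Fb₂))
    (hO : ∀ f : F, f ∈ D.O ↔ f ∈ R₁.O ∧ f ∈ R₂.O)
    (hred : ∀ f : F, f ∈ D.O → D.redF f = (R₁.redF f, R₂.redF f)) (hON : h22_ON D) :
    h93_PairON R₁ R₂ := by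
  intro V hV
  obtain ⟨e, heV, heO, hli⟩ := hON V hV
  refine ⟨e, heV, fun j => (hO _).mp (heO j), ?_⟩
  have h1 : (fun j => ((R₁.redF (e j), R₂.redF (e j)) : Fb₁ × Fb₂)) =
      fun j => D.redF (e j) := by
    funext j
    exact (hred _ (heO j)).symm
  rw [h1]
  exact hli

/-- **(TW2) Twisted ON**, given a twisting unit. -/
theorem h93_twist_on (hON : h93_PairON R₁ R₂) {γ : K} {g : F} (hg0 : g ≠ 0)
    (hg1 : g ∈ R₁.O) (hg1r : R₁.redF g = 1) (hg2 : (algebraMap K F γ)⁻¹ * g ∈ R₂.O)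
    (hg2r : R₂.redF ((algebraMap K F γ)⁻¹ * g) = 1)
    (V : Submodule K F) [Module.Finite K V] :
    ∃ e : Fin (Module.finrank K V) → F, (∀ j, e j ∈ V) ∧ (∀ j, h93_InTw R₁ R₂ γ (e j)) ∧
      LinearIndependent k (fun j => h93_redTw R₁ R₂ γ (e j)) := by
  classical
  -- the subspace `g⁻¹ V`
  set mg : F ≃ₗ[K] F := LinearEquiv.ofLinearMap (LinearMap.mulLeft K g⁻¹) (LinearMap.mulLeft K g)
    (by
      ext x
      show g⁻¹ * (g * x) = x
      rw [← mul_assoc, inv_mul_cancel₀ hg0, one_mul])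
    (by
      ext x
      show g * (g⁻¹ * x) = x
      rw [← mul_assoc, mul_inv_cancel₀ hg0, one_mul]) with hmg
  set V' : Submodule K F := V.map (mg : F →ₗ[K] F) with hV'
  have hfinV' : Module.Finite K V' := by
    rw [hV']
    infer_instance
  have hrank : Module.finrank K V' = Module.finrank K V := by
    rw [hV']
    exact LinearEquiv.finrank_map_eq mg V
  obtain ⟨e', he'V, he'O, hli⟩ := hON V' hfinV'
  have hmem : ∀ j, g * e' j ∈ V := by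
    intro j
    obtain ⟨v, hv, hve⟩ := (Submodule.mem_map).mp (he'V j)
    have : g * e' j = v := by
      rw [← hve]
      show g * (g⁻¹ * v) = v
      rw [← mul_assoc, mul_inv_cancel₀ hg0, one_mul]
    rw [this]
    exact hv
  have hin : ∀ j, h93_InTw R₁ R₂ γ (g * e' j) := by
    intro j
    refine ⟨R₁.O.mul_mem _ _ hg1 (he'O j).1, ?_⟩
    rw [← mul_assoc]
    exact R₂.O.mul_mem _ _ hg2 (he'O j).2
  have hredeq : ∀ j, h93_redTw R₁ R₂ γ (g * e' j) = (R₁.redF (e' j), R₂.redF (e' j)) := by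
    intro j
    unfold h93_redTw
    rw [h39_redF_mul R₁ hg1 (he'O j).1, hg1r, one_mul, ← mul_assoc,
      h39_redF_mul R₂ hg2 (he'O j).2, hg2r, one_mul]
  refine ⟨fun j => g * e' (Fin.cast hrank.symm j), fun j => hmem _, fun j => hin _, ?_⟩
  have h2 : (fun j => h93_redTw R₁ R₂ γ (g * e' (Fin.cast hrank.symm j))) =
      (fun j => ((R₁.redF (e' j), R₂.redF (e' j)) : Fb₁ × Fb₂)) ∘ (Fin.cast hrank.symm) := by
    funext j
    exact hredeq _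
  rw [h2]
  exact hli.comp _ (Fin.cast_injective _)

/-- **(TW2) Twisted ON**: for every constant `γ ≠ 0` and every finite-dimensional `V`, there are
`dim_K V` elements of `V` in the twisted lattice with `k`-linearly independent twisted
reductions. -/
theorem h93_exists_twist_on (hA : R₁.A = R₂.A) (hrk : h39_RankOne R₁.A)
    (hsep : ∃ t : F, t ∈ R₁.O ∧ t ∈ R₂.O ∧ R₁.redF t = 1 ∧ R₂.redF t = 0)
    {π : K} (hπ0 : π ≠ 0) (hπ : π ∈ R₁.A.nonunits) (hON : h93_PairON R₁ R₂)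
    {γ : K} (hγ : γ ≠ 0) (V : Submodule K F) [Module.Finite K V] :
    ∃ e : Fin (Module.finrank K V) → F, (∀ j, e j ∈ V) ∧ (∀ j, h93_InTw R₁ R₂ γ (e j)) ∧
      LinearIndependent k (fun j => h93_redTw R₁ R₂ γ (e j)) := by
  obtain ⟨g, hg0, hg1, hg1r, hg2, hg2r⟩ := h93_twist_unit R₁ R₂ hA hrk hsep hπ0 hπ hγ
  exact h93_twist_on R₁ R₂ hON hg0 hg1 hg1r hg2 hg2r V

/-- Every element of the `k`-span of the twisted reductions of a family in `V ∩` (twisted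
lattice) is the twisted reduction of an element of `V ∩` (twisted lattice). -/
theorem h93_twist_lift (hA : R₁.A = R₂.A) (hres : ∀ a : K, a ∈ R₁.A → R₁.resK a = R₂.resK a)
    {γ : K} (V : Submodule K F) {n : ℕ} (e : Fin n → F) (heV : ∀ j, e j ∈ V)
    (he : ∀ j, h93_InTw R₁ R₂ γ (e j)) (φ : Fb₁ × Fb₂)
    (hφ : φ ∈ Submodule.span k (Set.range fun j => h93_redTw R₁ R₂ γ (e j))) :
    ∃ f : F, f ∈ V ∧ h93_InTw R₁ R₂ γ f ∧ h93_redTw R₁ R₂ γ f = φ := by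
  classical
  obtain ⟨l, hl⟩ := (Submodule.mem_span_range_iff_exists_fun k).mp hφ
  choose a haA har using fun j => h39_resK_surjective R₁ (l j)
  have key : ∀ s : Finset (Fin n), h93_InTw R₁ R₂ γ (∑ j ∈ s, a j • e j) ∧
      h93_redTw R₁ R₂ γ (∑ j ∈ s, a j • e j) = ∑ j ∈ s, l j • h93_redTw R₁ R₂ γ (e j) := by
    intro s
    induction s using Finset.induction_on with
    | empty =>
      rw [Finset.sum_empty, Finset.sum_empty]
      exact ⟨h93_inTw_zero R₁ R₂ γ, h93_redTw_zero R₁ R₂ γ⟩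
    | insert j s hj ih =>
      rw [Finset.sum_insert hj, Finset.sum_insert hj]
      have h1 : h93_InTw R₁ R₂ γ (a j • e j) := h93_inTw_smul R₁ R₂ hA (haA j) (he j)
      refine ⟨h93_inTw_add R₁ R₂ h1 ih.1, ?_⟩
      rw [h93_redTw_add R₁ R₂ h1 ih.1, ih.2, h93_redTw_smul R₁ R₂ hA hres (haA j) (he j), har j]
  refine ⟨∑ j, a j • e j, Submodule.sum_mem _ fun j _ => Submodule.smul_mem _ _ (heV j),
    (key Finset.univ).1, ?_⟩
  rw [(key Finset.univ).2, hl]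

/-- **(M3)** The twisted reduction space of `V`: a `k`-subspace `W` of `Fb₁ × Fb₂` of dimension
`dim_K V`, every element of which is the twisted reduction of an element of `V` in the twisted
lattice. -/
theorem h93_twist_space (hA : R₁.A = R₂.A)
    (hres : ∀ a : K, a ∈ R₁.A → R₁.resK a = R₂.resK a) (hrk : h39_RankOne R₁.A)
    (hsep : ∃ t : F, t ∈ R₁.O ∧ t ∈ R₂.O ∧ R₁.redF t = 1 ∧ R₂.redF t = 0)
    {π : K} (hπ0 : π ≠ 0) (hπ : π ∈ R₁.A.nonunits) (hON : h93_PairON R₁ R₂)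
    {γ : K} (hγ : γ ≠ 0) (V : Submodule K F) [Module.Finite K V] :
    ∃ W : Submodule k (Fb₁ × Fb₂), Module.Finite k W ∧
      Module.finrank k W = Module.finrank K V ∧
      ∀ φ ∈ W, ∃ f : F, f ∈ V ∧ h93_InTw R₁ R₂ γ f ∧ h93_redTw R₁ R₂ γ f = φ := by
  obtain ⟨e, heV, he, hli⟩ := h93_exists_twist_on R₁ R₂ hA hrk hsep hπ0 hπ hON hγ V
  refine ⟨Submodule.span k (Set.range fun j => h93_redTw R₁ R₂ γ (e j)), ?_, ?_, ?_⟩
  · exact FiniteDimensional.span_of_finite k (Set.finite_range _)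
  · rw [finrank_span_eq_card hli, Fintype.card_fin]
  · intro φ hφ
    exact h93_twist_lift R₁ R₂ hA hres V e heV he φ hφ

/-! ### (TW3) the functions `H` of the count -/

/-- `H = f^p (c₁ u)⁻¹ (π⁻¹ a)^δ`. -/
def h93_H (p δ : ℕ) (c₁ π : K) (u f a : F) : F :=
  f ^ p * (algebraMap K F c₁ * u)⁻¹ * ((algebraMap K F π)⁻¹ * a) ^ δ

/-- `H = (γ⁻¹ f)^p (c₂ u)⁻¹ a^δ` when `γ^p c₂ = c₁ π^δ`. -/
theorem h93_H_eq (p δ : ℕ) {c₁ c₂ π γ : K} (hc₁ : c₁ ≠ 0) (hc₂ : c₂ ≠ 0) (hπ : π ≠ 0)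
    (hγ : γ ≠ 0) (hγp : γ ^ p * c₂ = c₁ * π ^ δ) (u f a : F) :
    h93_H p δ c₁ π u f a =
      ((algebraMap K F γ)⁻¹ * f) ^ p * (algebraMap K F c₂ * u)⁻¹ * a ^ δ := by
  have h1 : algebraMap K F c₁ ≠ 0 := by rw [Ne, map_eq_zero]; exact hc₁
  have h2 : algebraMap K F c₂ ≠ 0 := by rw [Ne, map_eq_zero]; exact hc₂
  have h3 : algebraMap K F π ≠ 0 := by rw [Ne, map_eq_zero]; exact hπ
  have h4 : algebraMap K F γ ≠ 0 := by rw [Ne, map_eq_zero]; exact hγ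
  have hγF : algebraMap K F γ ^ p * algebraMap K F c₂ = algebraMap K F c₁ * algebraMap K F π ^ δ := by
    rw [← map_pow, ← map_mul, hγp, map_mul, map_pow]
  have key : ((algebraMap K F γ)⁻¹) ^ p * (algebraMap K F c₂)⁻¹ =
      (algebraMap K F c₁)⁻¹ * ((algebraMap K F π)⁻¹) ^ δ := by
    rw [inv_pow, inv_pow, ← mul_inv, ← mul_inv, hγF]
  unfold h93_H
  rw [mul_inv, mul_inv, mul_pow, mul_pow]
  linear_combination (-(f ^ p * u⁻¹ * a ^ δ)) * key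

/-- **(TW3)** `H` lies in `O₁ ∩ O₂`, with reductions `φ₁^p ū₁⁻¹ ρ^δ` and `φ₂^p ū₂⁻¹ ā^δ`. -/
theorem h93_H_mem_red (p δ : ℕ) {c₁ c₂ π γ : K} (hc₁ : c₁ ≠ 0) (hc₂ : c₂ ≠ 0) (hπ : π ≠ 0)
    (hγ : γ ≠ 0) (hγp : γ ^ p * c₂ = c₁ * π ^ δ) {u f a : F}
    (hu1 : algebraMap K F c₁ * u ∈ R₁.O) (hu1i : (algebraMap K F c₁ * u)⁻¹ ∈ R₁.O)
    (hu2 : algebraMap K F c₂ * u ∈ R₂.O) (hu2i : (algebraMap K F c₂ * u)⁻¹ ∈ R₂.O)
    (ha1 : (algebraMap K F π)⁻¹ * a ∈ R₁.O) (ha2 : a ∈ R₂.O)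
    (hf : h93_InTw R₁ R₂ γ f) :
    h93_H p δ c₁ π u f a ∈ R₁.O ∧ h93_H p δ c₁ π u f a ∈ R₂.O ∧
      R₁.redF (h93_H p δ c₁ π u f a) =
        R₁.redF f ^ p * (R₁.redF (algebraMap K F c₁ * u))⁻¹ *
          R₁.redF ((algebraMap K F π)⁻¹ * a) ^ δ ∧
      R₂.redF (h93_H p δ c₁ π u f a) =
        R₂.redF ((algebraMap K F γ)⁻¹ * f) ^ p * (R₂.redF (algebraMap K F c₂ * u))⁻¹ *
          R₂.redF a ^ δ := by
  have hm1 : h93_H p δ c₁ π u f a ∈ R₁.O :=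
    R₁.O.mul_mem _ _ (R₁.O.mul_mem _ _ (R₁.O.pow_mem hf.1 p) hu1i) (R₁.O.pow_mem ha1 δ)
  have e2 := h93_H_eq p δ hc₁ hc₂ hπ hγ hγp u f a
  have hm2 : ((algebraMap K F γ)⁻¹ * f) ^ p * (algebraMap K F c₂ * u)⁻¹ * a ^ δ ∈ R₂.O :=
    R₂.O.mul_mem _ _ (R₂.O.mul_mem _ _ (R₂.O.pow_mem hf.2 p) hu2i) (R₂.O.pow_mem ha2 δ)
  refine ⟨hm1, by rw [e2]; exact hm2, ?_, ?_⟩
  · unfold h93_H
    rw [h39_redF_mul R₁ (R₁.O.mul_mem _ _ (R₁.O.pow_mem hf.1 p) hu1i) (R₁.O.pow_mem ha1 δ),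
      h39_redF_mul R₁ (R₁.O.pow_mem hf.1 p) hu1i, h39_redF_pow R₁ hf.1, h39_redF_pow R₁ ha1,
      h93_redF_inv R₁ hu1 hu1i]
  · rw [e2, h39_redF_mul R₂ (R₂.O.mul_mem _ _ (R₂.O.pow_mem hf.2 p) hu2i) (R₂.O.pow_mem ha2 δ),
      h39_redF_mul R₂ (R₂.O.pow_mem hf.2 p) hu2i, h39_redF_pow R₂ hf.2, h39_redF_pow R₂ ha2,
      h93_redF_inv R₂ hu2 hu2i]

/-- The untwisted `H₀ = f^p (c₁ u)⁻¹` (`δ`-room unused): it lies in `O₁ ∩ O₂`, with first
reduction `φ₁^p ū₁⁻¹`; its second reduction is `φ₂^p ū₂⁻¹ · res(π)^δ`. -/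
theorem h93_H0_mem_red (p δ : ℕ) {c₁ c₂ π γ : K} (hc₁ : c₁ ≠ 0) (hc₂ : c₂ ≠ 0) (hπ : π ≠ 0)
    (hπA : π ∈ R₂.A) (hγ : γ ≠ 0) (hγp : γ ^ p * c₂ = c₁ * π ^ δ) {u f : F}
    (hu1 : algebraMap K F c₁ * u ∈ R₁.O) (hu1i : (algebraMap K F c₁ * u)⁻¹ ∈ R₁.O)
    (hu2 : algebraMap K F c₂ * u ∈ R₂.O) (hu2i : (algebraMap K F c₂ * u)⁻¹ ∈ R₂.O)
    (hf : h93_InTw R₁ R₂ γ f) :
    f ^ p * (algebraMap K F c₁ * u)⁻¹ ∈ R₁.O ∧ f ^ p * (algebraMap K F c₁ * u)⁻¹ ∈ R₂.O ∧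
      R₁.redF (f ^ p * (algebraMap K F c₁ * u)⁻¹) =
        R₁.redF f ^ p * (R₁.redF (algebraMap K F c₁ * u))⁻¹ ∧
      R₂.redF (f ^ p * (algebraMap K F c₁ * u)⁻¹) =
        R₂.redF ((algebraMap K F γ)⁻¹ * f) ^ p * (R₂.redF (algebraMap K F c₂ * u))⁻¹ *
          algebraMap k Fb₂ (R₂.resK π) ^ δ := by
  have hπO : algebraMap K F π ∈ R₂.O := (R₂.mem_iff π).mp hπA
  have h3 : algebraMap K F π ≠ 0 := by rw [Ne, map_eq_zero]; exact hπ
  -- apply the `H`-identity with `a := π`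
  have e0 : f ^ p * (algebraMap K F c₁ * u)⁻¹ = h93_H p δ c₁ π u f (algebraMap K F π) := by
    unfold h93_H
    rw [inv_mul_cancel₀ h3, one_pow, mul_one]
  have e2 := h93_H_eq p δ hc₁ hc₂ hπ hγ hγp u f (algebraMap K F π)
  have hm1 : f ^ p * (algebraMap K F c₁ * u)⁻¹ ∈ R₁.O :=
    R₁.O.mul_mem _ _ (R₁.O.pow_mem hf.1 p) hu1i
  have hm2 : ((algebraMap K F γ)⁻¹ * f) ^ p * (algebraMap K F c₂ * u)⁻¹ *
      algebraMap K F π ^ δ ∈ R₂.O :=
    R₂.O.mul_mem _ _ (R₂.O.mul_mem _ _ (R₂.O.pow_mem hf.2 p) hu2i) (R₂.O.pow_mem hπO δ)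
  refine ⟨hm1, by rw [e0, e2]; exact hm2, ?_, ?_⟩
  · rw [h39_redF_mul R₁ (R₁.O.pow_mem hf.1 p) hu1i, h39_redF_pow R₁ hf.1,
      h93_redF_inv R₁ hu1 hu1i]
  · rw [e0, e2, h39_redF_mul R₂ (R₂.O.mul_mem _ _ (R₂.O.pow_mem hf.2 p) hu2i)
        (R₂.O.pow_mem hπO δ),
      h39_redF_mul R₂ (R₂.O.pow_mem hf.2 p) hu2i, h39_redF_pow R₂ hf.2, h39_redF_pow R₂ hπO,
      h93_redF_inv R₂ hu2 hu2i, h39_redF_algebraMap R₂ hπA]

/-- Pole bound: `H ∈ L((p n + δ nₐ) D0)` when `f ∈ L(n D0 - E)`, `p E = div u` and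
`a ∈ L(nₐ D0)`. -/
theorem h93_H_mem_rr (p δ n na : ℕ) (hp : p ≠ 0) {c₁ π : K} (E D0 : Divisor K F) {u f a : F}
    (hu : u ≠ 0) (hdiv : ∀ v : Place K F, (p : ℤ) * E v = v.ord u)
    (hf : f ∈ riemannRochSpace (n • D0 - E)) (ha : a ∈ riemannRochSpace (na • D0)) :
    h93_H p δ c₁ π u f a ∈ riemannRochSpace ((p * n + δ * na) • D0) := by
  rw [mem_riemannRochSpace_iff] at hf ha ⊢
  intro v
  by_cases hH : h93_H p δ c₁ π u f a = 0
  · exact Or.inl hH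
  right
  -- all factors are nonzero
  have hf0 : f ≠ 0 := by
    rintro rfl
    apply hH
    unfold h93_H
    rw [zero_pow hp, zero_mul, zero_mul]
  have hcu : (algebraMap K F c₁ * u)⁻¹ ≠ 0 := by
    intro h0
    apply hH
    unfold h93_H
    rw [h0, mul_zero, zero_mul]
  have hc1 : algebraMap K F c₁ ≠ 0 := by
    intro h0
    apply hcu
    rw [h0, zero_mul, inv_zero]
  have hpa : ((algebraMap K F π)⁻¹ * a) ^ δ ≠ 0 := by
    intro h0
    apply hH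
    unfold h93_H
    rw [h0, mul_zero]
  have hfp : f ^ p ≠ 0 := pow_ne_zero _ hf0
  have hordf : -(n • D0 - E) v ≤ v.ord f := (hf v).resolve_left hf0
  have hordf' : E v - (n : ℤ) * D0 v ≤ v.ord f := by
    have e : (n • D0 - E) v = (n : ℤ) * D0 v - E v := by
      rw [Finsupp.sub_apply, Finsupp.smul_apply, nsmul_eq_mul]
    rw [e] at hordf
    linarith
  have hcuord : v.ord (algebraMap K F c₁ * u)⁻¹ = -v.ord u := by
    rw [v.ord_inv, v.ord_mul hc1 hu, h35_ord_algebraMap, zero_add]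
  have hfpord : v.ord (f ^ p) = (p : ℤ) * v.ord f := by
    have := v.ord_zpow f (p : ℤ)
    rwa [zpow_natCast] at this
  have hpaord : -((δ : ℤ) * ((na : ℤ) * D0 v)) ≤ v.ord (((algebraMap K F π)⁻¹ * a) ^ δ) := by
    rcases Nat.eq_zero_or_pos δ with rfl | hδ
    · rw [pow_zero, v.ord_one]
      simp
    · have hpa0 : (algebraMap K F π)⁻¹ * a ≠ 0 := by
        intro h0
        apply hpa
        rw [h0, zero_pow hδ.ne']
      have ha0 : a ≠ 0 := by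
        rintro rfl
        exact hpa0 (mul_zero _)
      have hπi : (algebraMap K F π)⁻¹ ≠ 0 := by
        intro h0
        exact hpa0 (by rw [h0, zero_mul])
      have hπ' : algebraMap K F π ≠ 0 := by
        intro h0
        exact hπi (by rw [h0, inv_zero])
      have horda : -(na • D0) v ≤ v.ord a := (ha v).resolve_left ha0
      have e : (na • D0) v = (na : ℤ) * D0 v := by
        rw [Finsupp.smul_apply, nsmul_eq_mul]
      rw [e] at horda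
      have h1 : v.ord ((algebraMap K F π)⁻¹ * a) = v.ord a := by
        rw [v.ord_mul hπi ha0, v.ord_inv, h35_ord_algebraMap, neg_zero, zero_add]
      have h2 : v.ord (((algebraMap K F π)⁻¹ * a) ^ δ) = (δ : ℤ) * v.ord a := by
        have := v.ord_zpow ((algebraMap K F π)⁻¹ * a) (δ : ℤ)
        rw [zpow_natCast] at this
        rw [this, h1]
      rw [h2]
      have hδ0 : (0 : ℤ) ≤ (δ : ℤ) := Int.natCast_nonneg δ
      nlinarith
  have hHord : v.ord (h93_H p δ c₁ π u f a) =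
      (p : ℤ) * v.ord f - v.ord u + v.ord (((algebraMap K F π)⁻¹ * a) ^ δ) := by
    unfold h93_H
    rw [v.ord_mul (mul_ne_zero hfp hcu) hpa, v.ord_mul hfp hcu, hfpord, hcuord]
    ring
  have e : ((p * n + δ * na) • D0) v = ((p : ℤ) * n + (δ : ℤ) * na) * D0 v := by
    rw [Finsupp.smul_apply, nsmul_eq_mul]
    push_cast
    ring
  rw [hHord, e, ← hdiv v]
  have hp0 : (0 : ℤ) ≤ (p : ℤ) := Int.natCast_nonneg p
  nlinarith

/-- Powers in Riemann-Roch spaces: `s ∈ L(n D0)` gives `s^m ∈ L((m n) D0)`. -/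
theorem h93_rr_pow (D0 : Divisor K F) {s : F} {n : ℕ} (hs : s ∈ riemannRochSpace (n • D0))
    (m : ℕ) : s ^ m ∈ riemannRochSpace ((m * n) • D0) := by
  induction m with
  | zero =>
    rw [pow_zero, Nat.zero_mul, zero_nsmul, mem_riemannRochSpace_iff]
    intro v
    right
    rw [v.ord_one]
    simp
  | succ m ih =>
    have h := h51_mul_mem_rr ih hs
    rw [← add_nsmul] at h
    rw [pow_succ, Nat.succ_mul]
    exact h

/-- **(TW4')** Separator powers: from `s ∈ O₁ ∩ O₂` with `red₁ s = 0`, a power `s^m` (`m > 0`)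
with `π⁻¹ s^m ∈ O₁`; moreover `s^m ∈ O₂` and `red₂ (s^m) = (red₂ s)^m`.  (Rank one; no
rationality of `s` over a subfield is used.) -/
theorem h93_sep_pow (hrk : h39_RankOne R₁.A) {s : F} (hs1 : s ∈ R₁.O) (hs2 : s ∈ R₂.O)
    (hs0 : R₁.redF s = 0) {π : K} (hπ : π ≠ 0) :
    ∃ m : ℕ, 0 < m ∧ (algebraMap K F π)⁻¹ * s ^ m ∈ R₁.O ∧ s ^ m ∈ R₂.O ∧
      R₂.redF (s ^ m) = R₂.redF s ^ m := by
  obtain ⟨m, hm, hdiv⟩ := h93_exists_pow_div R₁ hrk hs1 hs0 hπ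
  exact ⟨m, hm, hdiv, R₂.O.pow_mem hs2 m, h39_redF_pow R₂ hs2 m⟩

/-- **(TW3'')** The function `H'' = H(f, s) s^(p-δ) = f^p (c₁ u)⁻¹ (π⁻¹ s)^δ s^(p-δ)` of the
non-node trick (`π⁻¹ s ∈ O₁`, `s ∈ O₂`, `δ < p`): it lies in `O₁ ∩ O₂`, its first reduction is
`0` and its second reduction is `φ₂^p ū₂⁻¹ s̄₂^p`. -/
theorem h93_H2_mem_red (p δ : ℕ) (hδ : δ < p) {c₁ c₂ π γ : K} (hc₁ : c₁ ≠ 0) (hc₂ : c₂ ≠ 0)
    (hπ : π ≠ 0) (hπ1 : π ∈ R₁.A.nonunits) (hγ : γ ≠ 0) (hγp : γ ^ p * c₂ = c₁ * π ^ δ)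
    {u f s : F}
    (hu1 : algebraMap K F c₁ * u ∈ R₁.O) (hu1i : (algebraMap K F c₁ * u)⁻¹ ∈ R₁.O)
    (hu2 : algebraMap K F c₂ * u ∈ R₂.O) (hu2i : (algebraMap K F c₂ * u)⁻¹ ∈ R₂.O)
    (hs1 : (algebraMap K F π)⁻¹ * s ∈ R₁.O) (hs2 : s ∈ R₂.O)
    (hf : h93_InTw R₁ R₂ γ f) :
    h93_H p δ c₁ π u f s * s ^ (p - δ) ∈ R₁.O ∧ h93_H p δ c₁ π u f s * s ^ (p - δ) ∈ R₂.O ∧
      R₁.redF (h93_H p δ c₁ π u f s * s ^ (p - δ)) = 0 ∧
      R₂.redF (h93_H p δ c₁ π u f s * s ^ (p - δ)) =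
        R₂.redF ((algebraMap K F γ)⁻¹ * f) ^ p * (R₂.redF (algebraMap K F c₂ * u))⁻¹ *
          R₂.redF s ^ p := by
  have h3 : algebraMap K F π ≠ 0 := by rw [Ne, map_eq_zero]; exact hπ
  obtain ⟨hsm, hsr⟩ := h93_redF_nonunit_mul R₁ hπ1 hs1
  have es : algebraMap K F π * ((algebraMap K F π)⁻¹ * s) = s := by
    rw [← mul_assoc, mul_inv_cancel₀ h3, one_mul]
  rw [es] at hsm hsr
  obtain ⟨hH1, hH2, hHr1, hHr2⟩ :=
    h93_H_mem_red R₁ R₂ p δ hc₁ hc₂ hπ hγ hγp hu1 hu1i hu2 hu2i hs1 hs2 hf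
  have hne : p - δ ≠ 0 := Nat.sub_ne_zero_of_lt hδ
  refine ⟨R₁.O.mul_mem _ _ hH1 (R₁.O.pow_mem hsm _), R₂.O.mul_mem _ _ hH2 (R₂.O.pow_mem hs2 _),
    ?_, ?_⟩
  · rw [h39_redF_mul R₁ hH1 (R₁.O.pow_mem hsm _), h39_redF_pow R₁ hsm, hsr, zero_pow hne,
      mul_zero]
  · rw [h39_redF_mul R₂ hH2 (R₂.O.pow_mem hs2 _), h39_redF_pow R₂ hs2, hHr2, mul_assoc,
      ← pow_add, Nat.add_sub_cancel' hδ.le]

/-- Pole bound for `H''`: `H'' ∈ L((p n + p nₛ) D0)` when `f ∈ L(n D0 - E)`, `p E = div u` and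
`s ∈ L(nₛ D0)`. -/
theorem h93_H2_mem_rr (p δ n ns : ℕ) (hp : p ≠ 0) (hδ : δ ≤ p) {c₁ π : K} (E D0 : Divisor K F)
    {u f s : F} (hu : u ≠ 0) (hdiv : ∀ v : Place K F, (p : ℤ) * E v = v.ord u)
    (hf : f ∈ riemannRochSpace (n • D0 - E)) (hs : s ∈ riemannRochSpace (ns • D0)) :
    h93_H p δ c₁ π u f s * s ^ (p - δ) ∈ riemannRochSpace ((p * n + p * ns) • D0) := by
  have h1 := h93_H_mem_rr (c₁ := c₁) (π := π) p δ n ns hp E D0 hu hdiv hf hs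
  have h2 := h93_rr_pow D0 hs (p - δ)
  have h := h51_mul_mem_rr h1 h2
  rw [← add_nsmul] at h
  have e : p * n + δ * ns + (p - δ) * ns = p * n + p * ns := by
    rw [add_assoc, ← Nat.add_mul, Nat.add_sub_cancel' hδ]
  rw [e] at h
  exact h

end Twist

end Fermat.Agent.S40

end
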