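import Mathlib
import Fermat.Agent.S40.h93_TwistLat
import Fermat.Agent.S34.h87_ChartInst
import Fermat.Agent.S18.h64_RankOneW

/-!
# S40 / (TR) row W6, adapter (M3) at `Qbar` level: twisted reduction spaces at level `M q`
(helper93)

The modular instance of `h93_TwistLat`: at level `M q` (`q ∤ M`), with the two reduction data
`h60_R1`, `h60_R2` over a valuation subring `A` of `Qbar` over `q`, for **every** constant
`γ ≠ 0` of `Qbar` and every finite-dimensional `Qbar`-subspace `V` of `F(M q)`: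

* `h93_mod_twist_space` : a `k`-subspace `W ≤ Fb × Fb` with `dim_k W = dim_Qbar V`, every element
  of which is `(red₁ f, red₂ (γ⁻¹ f))` for some `f ∈ V` with `f ∈ O₁`, `γ⁻¹ f ∈ O₂`.

No rationality of `γ` over any subfield is needed (twisting unit from `h10_glue` + `h87_D_on`).
-/

set_option autoImplicit false

noncomputable section

open AlgebraicCurve ModularCurve Module

namespace Fermat.Agent.S40

open Fermat.Agent.S18 Fermat.Agent.S33 Fermat.Agent.S34

local notation "Qb" => AlgebraicClosure ℚ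

section Mq

variable (M q : ℕ) [NeZero M] [NeZero q] [Fact q.Prime] (hqM : ¬ q ∣ M)
  (A : ValuationSubring Qb) (hA : A.LiesOverPrime q)

/-- Pair-ON at level `M q`. -/
theorem h93_mod_pairON : h93_PairON (h60_R1 M q hqM A hA) (h60_R2 M q hqM A hA) :=
  h93_pairON_of_lat _ _ (h87_D M q hqM A hA) (fun _ => h87_D_mem M q hqM A hA)
    (fun _ hf => h87_D_redF M q hqM A hA hf.1 hf.2) (h87_D_on M q hqM A hA)

theorem h93_mod_A_eq : (h60_R1 M q hqM A hA).A = (h60_R2 M q hqM A hA).A := by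
  rw [h60_R1_A, h60_R2_A]

theorem h93_mod_resK_eq (a : Qb) (ha : a ∈ (h60_R1 M q hqM A hA).A) :
    (h60_R1 M q hqM A hA).resK a = (h60_R2 M q hqM A hA).resK a := by
  have ha' : a ∈ A := by rwa [h60_R1_A] at ha
  rw [h87_R1_resK M q hqM A hA a ha', h87_R2_resK M q hqM A hA a ha']

theorem h93_mod_rankOne : h39_RankOne (h60_R1 M q hqM A hA).A := by
  rw [h60_R1_A]
  exact h64_rankOne_h39 (Fact.out : q.Prime) A hA

theorem h93_mod_q_ne_zero : ((q : ℕ) : Qb) ≠ 0 :=
  Nat.cast_ne_zero.mpr (NeZero.ne q)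

theorem h93_mod_q_nonunit : ((q : ℕ) : Qb) ∈ (h60_R1 M q hqM A hA).A.nonunits := by
  rw [h60_R1_A]
  exact hA

/-- Twisting unit at level `M q` for every constant `γ ≠ 0`. -/
theorem h93_mod_twist_unit {γ : Qb} (hγ : γ ≠ 0) :
    ∃ g : ↥(modularFunctionFieldBar (M * q)), g ≠ 0 ∧ g ∈ (h60_R1 M q hqM A hA).O ∧
      (h60_R1 M q hqM A hA).redF g = 1 ∧
      (algebraMap Qb ↥(modularFunctionFieldBar (M * q)) γ)⁻¹ * g ∈ (h60_R2 M q hqM A hA).O ∧
      (h60_R2 M q hqM A hA).redF
        ((algebraMap Qb ↥(modularFunctionFieldBar (M * q)) γ)⁻¹ * g) = 1 :=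
  h93_twist_unit _ _ (h93_mod_A_eq M q hqM A hA) (h93_mod_rankOne M q hqM A hA)
    (h60_exists_sep M q hqM A hA) (h93_mod_q_ne_zero q) (h93_mod_q_nonunit M q hqM A hA) hγ

/-- **(M3) at `Qbar` level.** For every constant `γ ≠ 0` and every finite-dimensional
`Qbar`-subspace `V` of `F(M q)` there is a `k`-subspace `W` of `Fb × Fb` with
`dim_k W = dim_Qbar V`, every element of which is the twisted reduction
`(red₁ f, red₂ (γ⁻¹ f))` of some `f ∈ V` with `f ∈ O₁` and `γ⁻¹ f ∈ O₂`. -/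
theorem h93_mod_twist_space {γ : Qb} (hγ : γ ≠ 0)
    (V : Submodule Qb ↥(modularFunctionFieldBar (M * q))) [Module.Finite Qb V] :
    ∃ W : Submodule (IsLocalRing.ResidueField A)
        (↥(modularFunctionFieldFullC (IsLocalRing.ResidueField A) M) ×
          ↥(modularFunctionFieldFullC (IsLocalRing.ResidueField A) M)),
      Module.Finite (IsLocalRing.ResidueField A) W ∧
      Module.finrank (IsLocalRing.ResidueField A) W = Module.finrank Qb V ∧
      ∀ φ ∈ W, ∃ f : ↥(modularFunctionFieldBar (M * q)), f ∈ V ∧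
        f ∈ (h60_R1 M q hqM A hA).O ∧
        (algebraMap Qb ↥(modularFunctionFieldBar (M * q)) γ)⁻¹ * f ∈ (h60_R2 M q hqM A hA).O ∧
        ((h60_R1 M q hqM A hA).redF f,
          (h60_R2 M q hqM A hA).redF
            ((algebraMap Qb ↥(modularFunctionFieldBar (M * q)) γ)⁻¹ * f)) = φ := by
  obtain ⟨W, hfin, hrank, hW⟩ :=
    h93_twist_space (h60_R1 M q hqM A hA) (h60_R2 M q hqM A hA) (h93_mod_A_eq M q hqM A hA)
      (h93_mod_resK_eq M q hqM A hA) (h93_mod_rankOne M q hqM A hA)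
      (h60_exists_sep M q hqM A hA) (h93_mod_q_ne_zero q) (h93_mod_q_nonunit M q hqM A hA)
      (h93_mod_pairON M q hqM A hA) hγ V
  refine ⟨W, hfin, hrank, fun φ hφ => ?_⟩
  obtain ⟨f, hfV, hin, hred⟩ := hW φ hφ
  exact ⟨f, hfV, hin.1, hin.2, hred⟩

end Mq

end Fermat.Agent.S40

end
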