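/-
G40 / S44, E-side, multiplicative case (helper95): row (M3') MULT-DECOMP.

On `Y² = X³ + a X² + b X` over an algebraically closed valued field with `v(2) = v(a) = 1`,
`v(b) = v(g₀)^p`, `v(g₀) < 1` (`p` an odd prime): every point `T` with `p • T = 0` is a sum
`T = P0 + D` where `D` does NOT reduce to the node and `P0` is either `0` or an affine point
whose coordinates are fixed by EVERY inertia-like ring automorphism fixing `a`, `b`, `g₀`.

This is a re-assembly of `S05.core_mult` which does not use `v(p) = 1` (the residue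
characteristic may be `p`).
-/
import Fermat.Agent.S05.Core

set_option autoImplicit false

namespace Fermat.Agent.S40

open WeierstrassCurve Fermat.Agent.S05

section decomp

variable {K : Type*} [Field K] [DecidableEq K] (A : ValuationSubring K) (a b : K)

/-- `IsN` is invariant under negation. -/
lemma h95_isN_neg {Q : (shortW a b).toAffine.Point} (hQ : IsN a b A (-Q)) : IsN a b A Q := by
  obtain ⟨X, Y, h, e, hX⟩ := hQ
  have e' : Q = -Affine.Point.some X Y h := by rw [← e, neg_neg]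
  rw [Affine.Point.neg_some] at e'
  exact ⟨X, _, _, e', hX⟩

/-- The three possibilities for a point which does not reduce to the node: the origin, a point
of the kernel of reduction, or an integral point with `v(X) = 1` and nonsingular reduction. -/
lemma h95_not_isN_cases (ha : A.valuation a = 1) (hb : A.valuation b < 1)
    {D : (shortW a b).toAffine.Point} (hD : ¬ IsN a b A D) :
    D = 0 ∨ IsE1 a b A D ∨
      ∃ (X Y : K) (h : (shortW a b).toAffine.Nonsingular X Y), D = Affine.Point.some X Y h ∧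
        A.valuation X = 1 ∧ A.valuation Y ≤ 1 ∧
        ¬ (A.valuation Y < 1 ∧ A.valuation (3 * X ^ 2 + 2 * a * X + b) < 1) := by
  rcases D with _ | ⟨X, Y, h⟩
  · exact Or.inl rfl
  · have hXge : 1 ≤ A.valuation X := by
      by_contra hlt
      exact hD ⟨X, Y, h, rfl, not_le.mp hlt⟩
    rcases hXge.lt_or_eq with hgt | heq
    · exact Or.inr (Or.inl (Or.inr ⟨X, Y, h, rfl, hgt⟩))
    · exact Or.inr (Or.inr ⟨X, Y, h, rfl, heq.symm,
        core_val_Y_le A a b ha.le hb.le h.1 heq.symm.le, ns_of_mult A a b ha hb h.1 heq.symm⟩)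

/-- **(M3') MULT-DECOMP.**  See the file header. -/
theorem h95_mult_decomp [IsAlgClosed K] (g₀ : K) (p : ℕ) (hp : p.Prime) (hp2 : p ≠ 2)
    (h2 : A.valuation (2 : K) = 1)
    (ha : A.valuation a = 1) (hg : A.valuation g₀ < 1) (hg0 : g₀ ≠ 0)
    (hb : A.valuation b = A.valuation g₀ ^ p)
    (T : (shortW a b).toAffine.Point) (hT : p • T = 0) :
    ∃ P0 D : (shortW a b).toAffine.Point, T = P0 + D ∧ ¬ IsN a b A D ∧
      (P0 = 0 ∨ ∃ (x0 y0 : K) (h0 : (shortW a b).toAffine.Nonsingular x0 y0),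
        P0 = Affine.Point.some x0 y0 h0 ∧
        ∀ σ : K ≃+* K, (∀ x, A.valuation x ≤ 1 → A.valuation (σ x - x) < 1) →
          σ a = a → σ b = b → σ g₀ = g₀ → σ x0 = x0 ∧ σ y0 = y0) := by
  classical
  have hp0 : p ≠ 0 := hp.ne_zero
  have hvg0 : A.valuation g₀ ≠ 0 := (Valuation.ne_zero_iff _).mpr hg0
  have hb1 : A.valuation b < 1 := by rw [hb]; exact pow_lt_one₀ zero_le hg hp0
  have hvb0 : A.valuation b ≠ 0 := by rw [hb]; exact pow_ne_zero _ hvg0
  have hvbpos : 0 < A.valuation b := lt_of_le_of_ne zero_le (Ne.symm hvb0)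
  have hb0 : b ≠ 0 := (Valuation.ne_zero_iff _).mp hvb0
  obtain ⟨r, hr⟩ := IsAlgClosed.exists_pow_nat_eq a (n := 2) two_pos
  have hsq : ∀ x : K, ∃ y, y ^ 2 = x := fun x => IsAlgClosed.exists_pow_nat_eq x two_pos
  -- the subgroup `E0` and the quotient map
  let mk : (shortW a b).toAffine.Point →+
      (shortW a b).toAffine.Point ⧸ (E0 A a b ha hb1 h2) :=
    QuotientAddGroup.mk' (E0 A a b ha hb1 h2)
  have hmk0 : ∀ P, mk P = 0 ↔ ¬ IsN a b A P := fun P =>
    (QuotientAddGroup.eq_zero_iff P).trans (mem_E0_iff A a b ha hb1 h2)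
  have hmkC : ∀ (g : A.ValueGroup) (P P' : (shortW a b).toAffine.Point),
      InC a b A r g P → InC a b A r g P' → mk P = mk P' := by
    intro g P P' hP hP'
    refine sub_eq_zero.mp ?_
    rw [← map_sub]
    exact (hmk0 _).mpr (inC_sub_not_isN A a b r hr ha hb1 h2 hP hP')
  let c : A.ValueGroup → (shortW a b).toAffine.Point ⧸ (E0 A a b ha hb1 h2) := fun g =>
    if hex : ∃ P, InC a b A r g P then mk hex.choose else 0
  have hc_eq : ∀ (g : A.ValueGroup) (P : (shortW a b).toAffine.Point),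
      InC a b A r g P → c g = mk P := by
    intro g P hP
    have hex : ∃ P, InC a b A r g P := ⟨P, hP⟩
    simp only [c, dif_pos hex]
    exact hmkC g _ _ hex.choose_spec hP
  have exC : ∀ g : A.ValueGroup, A.valuation b < g → g < 1 → ∃ P, InC a b A r g P := by
    intro g hg1 hg2
    obtain ⟨x, rfl⟩ := A.valuation_surjective g
    obtain ⟨Y, hY, hC⟩ := exists_inC A a b r hr ha hb1 hb0 h2 hsq x hg2 hg1
    exact ⟨_, hC⟩
  obtain ⟨T0, hT0⟩ := exists_inM A a b ha hb1 hb0 h2
  -- an auxiliary value `g3` with `g3 ^ 3 = v b`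
  obtain ⟨x3, hx3⟩ := IsAlgClosed.exists_pow_nat_eq b (n := 3) (by norm_num)
  have hg3 : A.valuation x3 ^ 3 = A.valuation b := by rw [← map_pow, hx3]
  have hg3pos : 0 < A.valuation x3 := by
    refine lt_of_le_of_ne zero_le (Ne.symm ?_)
    intro h0
    rw [h0] at hg3
    exact hvb0 (by rw [← hg3]; simp)
  have hg3lt : A.valuation x3 < 1 := by
    by_contra hge
    have : 1 ≤ A.valuation x3 ^ 3 := one_le_pow₀ (not_lt.mp hge)
    rw [hg3] at this
    exact absurd hb1 (not_lt.mpr this)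
  have hg3sq : A.valuation b < A.valuation x3 ^ 2 := by
    rw [← hg3, pow_succ]
    exact mul_lt_of_lt_one_right (pow_pos hg3pos 2) hg3lt
  have hg3b : A.valuation b < A.valuation x3 :=
    lt_of_lt_of_le hg3sq (pow_le_of_le_one zero_le hg3lt.le two_ne_zero)
  obtain ⟨Q3, hQ3⟩ := exC _ hg3b hg3lt
  have hmkM : ∀ T : (shortW a b).toAffine.Point, InM a b A T → mk T = mk T0 := by
    intro T hTM
    have h1 := inC_neg_add_of_inM A a b r hr ha hb1 hb0 h2 hTM hQ3 hg3sq
    have h2' := inC_neg_add_of_inM A a b r hr ha hb1 hb0 h2 hT0 hQ3 hg3sq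
    have h3 := hmkC _ _ _ h1 h2'
    rw [map_neg, map_neg, map_add, map_add, neg_inj] at h3
    exact add_right_cancel h3
  -- the abstract component lemma
  obtain ⟨hpμ, htors⟩ := torsion_component (A.valuation b) hvbpos hb1 c (mk T0)
    (fun g => by
      obtain ⟨x, rfl⟩ := A.valuation_surjective g
      obtain ⟨y, hy⟩ := IsAlgClosed.exists_pow_nat_eq x (n := 3) (by norm_num)
      exact ⟨A.valuation y, by rw [← map_pow, hy]⟩)
    (fun g₁ g₂ h21 h11 hh => by
      have hg2lt1 : g₂ < 1 := h21.trans h11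
      have hbg1 : A.valuation b < g₁ := lt_of_lt_of_le hh (mul_le_of_le_one_right' hg2lt1.le)
      have hbg2 : A.valuation b < g₂ := lt_of_lt_of_le hh (mul_le_of_le_one_left' h11.le)
      obtain ⟨P1, hP1⟩ := exC g₁ hbg1 h11
      obtain ⟨P2, hP2⟩ := exC g₂ hbg2 hg2lt1
      rw [hc_eq g₁ P1 hP1, hc_eq g₂ P2 hP2,
        hc_eq _ _ (inC_add A a b r hr ha hb1 h2 hP1 hP2 h21 hh), map_add])
    (fun g₁ g₂ h21 h11 hh => by
      have hg2lt1 : g₂ < 1 := h21.trans h11
      have hg1pos : 0 < g₁ := by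
        refine lt_of_le_of_ne zero_le (Ne.symm ?_)
        intro h0
        rw [h0, zero_mul] at hh
        exact hvb0 hh.symm
      have hg2pos : 0 < g₂ := by
        refine lt_of_le_of_ne zero_le (Ne.symm ?_)
        intro h0
        rw [h0, mul_zero] at hh
        exact hvb0 hh.symm
      have hbg1 : A.valuation b < g₁ := by
        rw [← hh]; exact mul_lt_of_lt_one_right hg1pos hg2lt1
      have hbg2 : A.valuation b < g₂ := by
        rw [← hh]; exact mul_lt_of_lt_one_left hg2pos h11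
      obtain ⟨P1, hP1⟩ := exC g₁ hbg1 h11
      obtain ⟨P2, hP2⟩ := exC g₂ hbg2 hg2lt1
      rw [hc_eq g₁ P1 hP1, hc_eq g₂ P2 hP2, ← map_add]
      exact hmkM _ (inM_add A a b r hr ha hb1 h2 hP1 hP2 h21 hh))
    (fun g hg1 hgsq => by
      have hbg : A.valuation b < g :=
        lt_of_lt_of_le hgsq (pow_le_of_le_one zero_le hg1.le two_ne_zero)
      obtain ⟨Q, hQ⟩ := exC g hbg hg1
      have h3 := inC_neg_add_of_inM A a b r hr ha hb1 hb0 h2 hT0 hQ hgsq
      rw [hc_eq g Q hQ, hc_eq _ _ h3, map_neg, map_add, neg_neg])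
    (fun g hbg hg1 => by
      obtain ⟨P, hP⟩ := exC g hbg hg1
      rw [hc_eq g P hP]
      intro h0
      exact ((hmk0 P).mp h0) (core_isN_of_inC A a b hP))
    (fun h0 => ((hmk0 T0).mp h0) (core_isN_of_inM A a b hb1 hT0))
    p hp hp2
  -- `p`-torsion points in a component `C_g`: the fixed point `P0` of the same component
  have key : ∀ (S : (shortW a b).toAffine.Point) (g : A.ValueGroup),
      InC a b A r g S → p • S = 0 →
      ∃ (x0 y0 : K) (h0 : (shortW a b).toAffine.Nonsingular x0 y0),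
        ¬ IsN a b A (S - Affine.Point.some x0 y0 h0) ∧
        ∀ σ : K ≃+* K, (∀ x, A.valuation x ≤ 1 → A.valuation (σ x - x) < 1) →
          σ a = a → σ b = b → σ g₀ = g₀ → σ x0 = x0 ∧ σ y0 = y0 := by
    intro S g hC hpS
    have hbg : A.valuation b < g := by obtain ⟨_, _, _, -, -, hbg, -, -⟩ := hC; exact hbg
    have hg1 : g < 1 := by obtain ⟨_, _, _, -, -, -, hg1, -⟩ := hC; exact hg1
    have hpc : p • c g = 0 := by rw [hc_eq g _ hC, ← map_nsmul, hpS, map_zero]
    obtain ⟨k, hk⟩ := htors g hbg hg1 hpc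
    have hgk : g = A.valuation (g₀ ^ (2 * k)) := by
      have h3 : g ^ p = (A.valuation g₀ ^ (2 * k)) ^ p := by
        rw [hk, hb, ← pow_mul, ← pow_mul, mul_comm]
      rw [map_pow]
      exact (pow_left_inj₀ zero_le zero_le hp0).mp h3
    subst hgk
    obtain ⟨Y0, h0, hC0⟩ := exists_inC A a b r hr ha hb1 hb0 h2 hsq (g₀ ^ (2 * k)) hg1 hbg
    have hx00 : g₀ ^ (2 * k) ≠ 0 := pow_ne_zero _ hg0
    have hs0 : A.valuation (Y0 - r * g₀ ^ (2 * k)) < A.valuation (g₀ ^ (2 * k)) := by
      obtain ⟨X', Y', h', heq, -, -, -, hs'⟩ := hC0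
      rw [Affine.Point.some.injEq] at heq
      obtain ⟨rfl, rfl⟩ := heq
      exact hs'
    refine ⟨g₀ ^ (2 * k), Y0, h0, inC_sub_not_isN A a b r hr ha hb1 h2 hC hC0, ?_⟩
    intro σ hσm hσa hσb hσg
    have hx0 : σ (g₀ ^ (2 * k)) = g₀ ^ (2 * k) := by rw [map_pow, hσg]
    exact ⟨hx0, core_fixed_of_inC A a b r hr ha h2 σ hσm hσa hσb h0 hx0 hx00 hs0⟩
  -- conclusion
  by_cases hN : IsN a b A T
  · rcases node_trichotomy A a b r hr ha hb1 h2 hN with ⟨g, hC⟩ | ⟨g, hC⟩ | hM
    · obtain ⟨x0, y0, h0, hD, hfix⟩ := key T g hC hT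
      exact ⟨Affine.Point.some x0 y0 h0, T - Affine.Point.some x0 y0 h0, by abel, hD,
        Or.inr ⟨x0, y0, h0, rfl, hfix⟩⟩
    · obtain ⟨x0, y0, h0, hD, hfix⟩ := key (-T) g hC (by rw [smul_neg, hT, neg_zero])
      refine ⟨-Affine.Point.some x0 y0 h0, T + Affine.Point.some x0 y0 h0, by abel, ?_, ?_⟩
      · intro hN'
        apply hD
        apply h95_isN_neg A a b
        have e : -(-T - Affine.Point.some x0 y0 h0) = T + Affine.Point.some x0 y0 h0 := by abel
        rw [e]
        exact hN'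
      · refine Or.inr ⟨x0, (shortW a b).toAffine.negY x0 y0, _, Affine.Point.neg_some h0, ?_⟩
        intro σ hσm hσa hσb hσg
        obtain ⟨e1, e2⟩ := hfix σ hσm hσa hσb hσg
        refine ⟨e1, ?_⟩
        rw [shortW_negY, map_neg, e2]
    · exfalso
      apply hpμ
      rw [← hmkM _ hM, ← map_nsmul, hT, map_zero]
  · exact ⟨0, T, (zero_add T).symm, hN, Or.inl rfl⟩

/-- Consequences of the decomposition for one inertia-like automorphism `σ` acting on points
through `φ`: `φ` fixes `P0`, and `φ T - T = φ D - D` lies in the kernel of reduction. -/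
theorem h95_mult_decomp_fix (h2 : A.valuation (2 : K) = 1)
    (ha : A.valuation a = 1) (hb : A.valuation b < 1)
    (σ : K ≃+* K) (hσA : ∀ x, A.valuation (σ x) ≤ 1 ↔ A.valuation x ≤ 1)
    (hσm : ∀ x, A.valuation x ≤ 1 → A.valuation (σ x - x) < 1)
    (φ : (shortW a b).toAffine.Point →+ (shortW a b).toAffine.Point)
    (hφ : ∀ (X Y : K) (h : (shortW a b).toAffine.Nonsingular X Y),
        ∃ h', φ (Affine.Point.some X Y h) = Affine.Point.some (σ X) (σ Y) h')
    {T P0 D : (shortW a b).toAffine.Point} (hTD : T = P0 + D) (hD : ¬ IsN a b A D)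
    (hP0 : P0 = 0 ∨ ∃ (x0 y0 : K) (h0 : (shortW a b).toAffine.Nonsingular x0 y0),
        P0 = Affine.Point.some x0 y0 h0 ∧ σ x0 = x0 ∧ σ y0 = y0) :
    φ P0 = P0 ∧ φ T - T = φ D - D ∧ IsE1 a b A (φ D - D) := by
  have hφP0 : φ P0 = P0 := by
    rcases hP0 with rfl | ⟨x0, y0, h0, rfl, e1, e2⟩
    · exact map_zero φ
    · obtain ⟨h', e⟩ := hφ x0 y0 h0
      rw [e, Affine.Point.some.injEq]
      exact ⟨e1, e2⟩
  refine ⟨hφP0, ?_, ?_⟩
  · rw [hTD, map_add, hφP0]
    abel
  · exact core_sub_isE1 A a b h2 ha.le hb.le σ hσA hσm φ hφ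
      (fun hE hX => ns_of_mult A a b ha hb hE hX) D hD

end decomp

end Fermat.Agent.S40
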