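/-
G40 / S44, E-side, multiplicative case (helper95): the decomposition `h95_mult_decomp` in the
`Sigma_hom` packaging (the header announced by helper57 for the model-level instance), plus the
resulting statement for every inertia-like `σ`: `σ T - T = σ D - D ∈ E₁`.
-/
import Fermat.Agent.S40.h95_MultDecomp

set_option autoImplicit false

namespace Fermat.Agent.S40

open WeierstrassCurve Fermat.Agent.S05

variable {K : Type*} [Field K] [DecidableEq K] (A : ValuationSubring K) (a b : K)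

/-- **(M3') MULT-DECOMP, `Sigma_hom` form.**  `T = P0 + D` with `D` not reducing to the node
and `P0` fixed by (the action on points of) every inertia-like automorphism fixing `a`, `b`,
`g₀`. -/
theorem h95_mult_decomp_sig [IsAlgClosed K] (g₀ : K) (p : ℕ) (hp : p.Prime) (hp2 : p ≠ 2)
    (h2 : A.valuation (2 : K) = 1)
    (ha : A.valuation a = 1) (hg : A.valuation g₀ < 1) (hg0 : g₀ ≠ 0)
    (hb : A.valuation b = A.valuation g₀ ^ p)
    (T : (shortW a b).toAffine.Point) (hT : p • T = 0) :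
    ∃ P0 D : (shortW a b).toAffine.Point, T = P0 + D ∧ ¬ IsN a b A D ∧
      ∀ (σ : K ≃+* K) (_hσm : ∀ x, A.valuation x ≤ 1 → A.valuation (σ x - x) < 1)
        (hσa : σ a = a) (hσb : σ b = b) (_hσg : σ g₀ = g₀),
        Sigma_hom a b σ hσa hσb P0 = P0 := by
  obtain ⟨P0, D, hTD, hD, hP0⟩ := h95_mult_decomp A a b g₀ p hp hp2 h2 ha hg hg0 hb T hT
  refine ⟨P0, D, hTD, hD, ?_⟩
  intro σ hσm hσa hσb hσg
  rcases hP0 with rfl | ⟨x0, y0, h0, rfl, hfix⟩
  · exact map_zero _
  · obtain ⟨e1, e2⟩ := hfix σ hσm hσa hσb hσg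
    rw [Sigma_hom_some, Affine.Point.some.injEq]
    exact ⟨e1, e2⟩

/-- With the decomposition `T = P0 + D` in hand: for every inertia-like `σ` fixing `P0`,
`σ T - T = σ D - D` and this point lies in the kernel of reduction. -/
theorem h95_mult_sig_sub (h2 : A.valuation (2 : K) = 1)
    (ha : A.valuation a = 1) (hb : A.valuation b < 1)
    (σ : K ≃+* K) (hσA : ∀ x, A.valuation (σ x) ≤ 1 ↔ A.valuation x ≤ 1)
    (hσm : ∀ x, A.valuation x ≤ 1 → A.valuation (σ x - x) < 1)
    (hσa : σ a = a) (hσb : σ b = b)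
    {T P0 D : (shortW a b).toAffine.Point} (hTD : T = P0 + D) (hD : ¬ IsN a b A D)
    (hP0 : Sigma_hom a b σ hσa hσb P0 = P0) :
    Sigma_hom a b σ hσa hσb T - T = Sigma_hom a b σ hσa hσb D - D ∧
      IsE1 a b A (Sigma_hom a b σ hσa hσb D - D) := by
  refine ⟨?_, ?_⟩
  · rw [hTD, map_add, hP0]
    abel
  · exact core_sub_isE1 A a b h2 ha.le hb.le σ hσA hσm (Sigma_hom a b σ hσa hσb)
      (fun X Y h => ⟨_, Sigma_hom_some a b σ hσa hσb h⟩)
      (fun hE hX => ns_of_mult A a b ha hb hE hX) D hD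

end Fermat.Agent.S40
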