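/-
G40 / S44 (helper95): the top adapter `S44 ⟸ core + E-side`.

`h95_CoreStmt` is, VERBATIM, the frozen header of the J-side core theorem `h37_core`
(helper37): level lowering at `p` for an integral model `W` of an elliptic curve `E / ℚ`
with the E-side `h37_ESide E p` as a hypothesis.  `h95_S44_of_core` deduces the frozen S44
statement for a Frey package from it and from `h37_ESide P.freyCurve P.p` (E-MULT).

This is a compiled integration test of the two frozen interfaces against the frozen S44 binders;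
`S44.lean` is then the one-liner (checked against the template with `h37_core`, `hEM` as
hypotheses):
`h95_S44_of_core (fun E _ _ hW _ _ hp hp5 hM hpM hp2M hirr hE hmod =>
    h37_core E hW hp hp5 hM hpM hp2M hirr hE hmod) P (hEM P) hcond hpN hirr hmod`
where `hEM P : h37_ESide P.freyCurve P.p` is E-MULT.  Light closure: Mathlib, Prelude,
`S05/h26_Frey` (for `IsElliptic P.freyCurve`), `S40/h37_ESide`.
-/
import Fermat.Agent.S40.h37_ESide
import Fermat.Agent.S05.h26_Frey
import Fermat.Prelude.Def_FreyPackage_IsConductorLevel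
import Fermat.Prelude.Def_FLTPrelim_ModularRep

set_option autoImplicit false

namespace Fermat.Agent.S40

open WeierstrassCurve WeierstrassCurve.Affine WeierstrassCurve.Affine.Point

/-- The Frey curve is an elliptic curve. -/
theorem h95_frey_isElliptic (P : FreyPackage) : P.freyCurve.IsElliptic := by
  have hA : (P.a : ℚ) ^ P.p ≠ 0 := pow_ne_zero _ (Int.cast_ne_zero.mpr P.ha0)
  have hB : (P.b : ℚ) ^ P.p ≠ 0 := pow_ne_zero _ (Int.cast_ne_zero.mpr P.hb0)
  have hC : (P.c : ℚ) ^ P.p ≠ 0 := pow_ne_zero _ (Int.cast_ne_zero.mpr P.hc0)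
  have hFLT : (P.a : ℚ) ^ P.p + (P.b : ℚ) ^ P.p = (P.c : ℚ) ^ P.p := by
    have := congrArg (Int.cast : ℤ → ℚ) P.hFLT
    push_cast at this
    exact this
  haveI : (Fermat.Agent.S05.shortW ((P.b : ℚ) ^ P.p - (P.a : ℚ) ^ P.p)
      (-((P.a : ℚ) ^ P.p * (P.b : ℚ) ^ P.p))).IsElliptic := by
    refine Fermat.Agent.S05.shortW_isElliptic _ _ two_ne_zero
      (neg_ne_zero.mpr (mul_ne_zero hA hB)) ?_
    have e : ((P.b : ℚ) ^ P.p - (P.a : ℚ) ^ P.p) ^ 2 - 4 * -((P.a : ℚ) ^ P.p * (P.b : ℚ) ^ P.p)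
        = ((P.c : ℚ) ^ P.p) ^ 2 := by
      rw [← hFLT]
      ring
    rw [e]
    exact pow_ne_zero _ hC
  rw [← Fermat.Agent.S05.h26_frey_eq_smul_legendre P]
  infer_instance

/-- The statement of the J-side core theorem (the frozen header of `h37_core`). -/
def h95_CoreStmt : Prop :=
  ∀ (E : WeierstrassCurve ℚ) [E.IsElliptic] {W : WeierstrassCurve ℤ} (_ : W.IsIntegralModelOf E)
    {p M : ℕ} (_ : p.Prime) (_ : 5 ≤ p) (_ : 0 < M) (_ : p ∣ M) (_ : ¬ p ^ 2 ∣ M)
    (_ : WeierstrassCurve.Affine.Point.GaloisRepIsIrreducible (K := AlgebraicClosure ℚ) ℚ E p)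
    (_ : h37_ESide E p) (_ : W.IsResiduallyModularOfLevel p M),
    W.IsResiduallyModularOfLevel p (M / p)

/-- **S44 from the core and the E-side.**  The frozen S44 statement, given the J-side core
(`h95_CoreStmt`) and the E-side of the Frey curve at `p`. -/
theorem h95_S44_of_core (hcore : h95_CoreStmt) (P : FreyPackage)
    (hES : h37_ESide P.freyCurve P.p) {N : ℕ} (hcond : P.IsConductorLevel N) (hpN : P.p ∣ N)
    (hirr : GaloisRepIsIrreducible (K := AlgebraicClosure ℚ) ℚ P.freyCurve P.p)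
    (hmod : P.ModularRepOfLevel N) :
    ∃ M : ℕ, M ∣ N ∧ ¬ P.p ∣ M ∧ P.ModularRepOfLevel M := by
  obtain ⟨f, W, 𝔪, hf, hW, hmax, hp𝔪, hcong⟩ := hmod
  have hres : W.IsResiduallyModularOfLevel P.p N := ⟨f, 𝔪, hf, hmax, hp𝔪, hcong⟩
  haveI := h95_frey_isElliptic P
  obtain ⟨f', 𝔪', hf', hmax', hp𝔪', hcong'⟩ :=
    hcore P.freyCurve hW P.pp P.hp5 hcond.pos hpN (hcond.sq_not_dvd P.pp) hirr hES hres
  refine ⟨N / P.p, Nat.div_dvd_of_dvd hpN, ?_, f', W, 𝔪', hf', hW, hmax', hp𝔪', hcong'⟩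
  intro hdvd
  apply hcond.sq_not_dvd P.pp
  obtain ⟨k, hk⟩ := hdvd
  refine ⟨k, ?_⟩
  have h1 : N = P.p * (N / P.p) := (Nat.mul_div_cancel' hpN).symm
  rw [h1, hk]
  ring

end Fermat.Agent.S40
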